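/-
Programme X (S44), chapter (L2) "Frey at p" — helper25.

**First-order addition formula on the annulus** of the model `Wab a b` (`v 2 = 1`, `v a = 1`, `v b < 1`):
for `P = (x₁, s₁)` with `v b < v x₁ < 1` and `ℓ = (x₂, s₂) ∈ E₁` (`1 < v x₂`), the sum is an affine point
`(x₃, y₃)` with `v (x₃ - x₁) * v s₂ = v x₁`.

Exact identity (`D = x₁x₂ - b`, `σ = s₁ + s₂`, `x₃ = D²/(x₁x₂σ²)`, `x₂ s₂² = x₂² + a x₂ + b`):
`D² - x₁² x₂ σ² = -x₁² (2 s₁ s₂ x₂ + s₁² x₂ + a x₂ + b) - 2 b x₁ x₂ + b²`; the first term dominates.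
-/
import Mathlib
import Fermat.Agent.S05.Formulas
import Fermat.Agent.S05.Mult

set_option autoImplicit false
set_option linter.unusedSectionVars false
set_option linter.unusedVariables false

namespace Fermat.Agent.ES.X44.Annulus25

open WeierstrassCurve WeierstrassCurve.Affine Fermat.Agent.S05

variable {K : Type*} [Field K] [DecidableEq K] {Γ₀ : Type*} [LinearOrderedCommGroupWithZero Γ₀]
  (v : Valuation K Γ₀) {a b : K}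

omit [DecidableEq K] in
/-- the polynomial identity behind the first-order formula. -/
theorem num_identity {x₁ s₁ x₂ s₂ : K} (e₂ : x₂ * s₂ ^ 2 = x₂ ^ 2 + a * x₂ + b) :
    (x₁ * x₂ - b) ^ 2 - x₁ ^ 2 * x₂ * (s₁ + s₂) ^ 2 =
      -(x₁ ^ 2 * (2 * s₁ * s₂ * x₂ + s₁ ^ 2 * x₂ + a * x₂ + b)) - 2 * b * x₁ * x₂ + b ^ 2 := by
  linear_combination (-x₁ ^ 2) * e₂

theorem annulus_add (h2 : v 2 = 1) (ha : v a = 1) (hb : v b < 1) (hb0 : b ≠ 0)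
    {x₁ s₁ x₂ s₂ : K} (h₁ : (Wab a b).toAffine.Nonsingular x₁ (x₁ * s₁))
    (h₂ : (Wab a b).toAffine.Nonsingular x₂ (x₂ * s₂)) (hx₁ : v b < v x₁) (hx₁' : v x₁ < 1)
    (hx₂ : 1 < v x₂) :
    ∃ (x₃ y₃ : K) (h₃ : (Wab a b).toAffine.Nonsingular x₃ y₃),
      Point.some _ _ h₁ + Point.some _ _ h₂ = Point.some x₃ y₃ h₃ ∧
        v (x₃ - x₁) * v s₂ = v x₁ := by
  have hx₁pos : 0 < v x₁ := lt_of_le_of_lt zero_le hx₁
  have hx₂pos : 0 < v x₂ := lt_trans zero_lt_one hx₂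
  have hx₁0 : x₁ ≠ 0 := (Valuation.pos_iff v).mp hx₁pos
  have hx₂0 : x₂ ≠ 0 := (Valuation.pos_iff v).mp hx₂pos
  have e₁ := s_sq h₁ hx₁0
  have e₂ := s_sq h₂ hx₂0
  -- `v s₁ = 1`
  have hbx₁ : v (b / x₁) < 1 := by
    rw [map_div₀]; exact (div_lt_one₀ hx₁pos).mpr hx₁
  have hs₁ : v s₁ = 1 := by
    apply Mult.val_eq_one_of_sq (v := v)
    have e : s₁ ^ 2 = a + (x₁ + b / x₁) := by rw [e₁]; ring
    rw [e, v.map_add_eq_of_lt_left (by rw [ha]; exact v.map_add_lt hx₁' hbx₁), ha]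
  -- `v s₂ ^ 2 = v x₂`, `1 < v s₂`
  have hbx₂ : v (b / x₂) < 1 := by
    rw [map_div₀]
    exact (div_lt_one₀ hx₂pos).mpr (lt_trans hb hx₂)
  have hs₂sq : v s₂ ^ 2 = v x₂ := by
    rw [← map_pow, e₂, add_assoc,
      v.map_add_eq_of_lt_left (lt_of_le_of_lt (v.map_add_le ha.le hbx₂.le) hx₂)]
  have hs₂ : 1 < v s₂ := by
    by_contra hle
    rw [not_lt] at hle
    have : v s₂ ^ 2 ≤ 1 := pow_le_one' hle 2
    rw [hs₂sq] at this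
    exact absurd hx₂ (not_lt.mpr this)
  have hs₂pos : 0 < v s₂ := lt_trans zero_lt_one hs₂
  -- `σ = s₁ + s₂`
  have hσ : v (s₁ + s₂) = v s₂ := v.map_add_eq_of_lt_right (by rw [hs₁]; exact hs₂)
  have hS : s₁ + s₂ ≠ 0 := by
    intro h0; rw [h0, map_zero] at hσ; exact absurd hσ.symm (ne_of_gt hs₂pos)
  -- `D = x₁ x₂ - b`
  have hbD : v b < v (x₁ * x₂) := by
    rw [map_mul]
    calc v b < v x₁ := hx₁
      _ = v x₁ * 1 := (mul_one _).symm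
      _ ≤ v x₁ * v x₂ := mul_le_mul_right hx₂.le _
  have hxb : x₁ * x₂ ≠ b := by
    intro h0; rw [h0] at hbD; exact lt_irrefl _ hbD
  obtain ⟨h₃, e⟩ := add_xs h₁ h₂ hx₁0 hx₂0 hS hxb
  refine ⟨_, _, h₃, e, ?_⟩
  -- the numerator
  have e₂p : x₂ * s₂ ^ 2 = x₂ ^ 2 + a * x₂ + b := by
    rw [e₂]; field_simp
  have hden : x₁ * x₂ * (s₁ + s₂) ^ 2 ≠ 0 := mul_ne_zero (mul_ne_zero hx₁0 hx₂0) (pow_ne_zero 2 hS)
  have hid : addXs b x₁ s₁ x₂ s₂ - x₁ =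
      (-(x₁ ^ 2 * (2 * s₁ * s₂ * x₂ + s₁ ^ 2 * x₂ + a * x₂ + b)) - 2 * b * x₁ * x₂ + b ^ 2) /
        (x₁ * x₂ * (s₁ + s₂) ^ 2) := by
    rw [← num_identity (x₁ := x₁) (s₁ := s₁) e₂p, addXs]
    field_simp
  -- valuation of `T' = 2 s₁ s₂ x₂ + s₁² x₂ + a x₂ + b`
  have hT : v (2 * s₁ * s₂ * x₂ + s₁ ^ 2 * x₂ + a * x₂ + b) = v s₂ * v x₂ := by
    have t1 : v (2 * s₁ * s₂ * x₂) = v s₂ * v x₂ := by
      rw [map_mul, map_mul, map_mul, h2, hs₁, one_mul, one_mul]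
    have t2 : v (s₁ ^ 2 * x₂) = v x₂ := by rw [map_mul, map_pow, hs₁, one_pow, one_mul]
    have t3 : v (a * x₂) = v x₂ := by rw [map_mul, ha, one_mul]
    have hlt : v x₂ < v s₂ * v x₂ := by
      calc v x₂ = 1 * v x₂ := (one_mul _).symm
        _ < v s₂ * v x₂ := mul_lt_mul_of_pos_right hs₂ hx₂pos
    rw [add_assoc, add_assoc, v.map_add_eq_of_lt_left, t1]
    rw [t1]
    refine lt_of_le_of_lt (v.map_add_le (le_of_eq t2) (v.map_add_le (le_of_eq t3) ?_)) hlt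
    exact (lt_trans hb hx₂).le
  have hmain : v (x₁ ^ 2 * (2 * s₁ * s₂ * x₂ + s₁ ^ 2 * x₂ + a * x₂ + b)) =
      v x₁ ^ 2 * (v s₂ * v x₂) := by rw [map_mul, map_pow, hT]
  have hpos2 : 0 < v x₁ ^ 2 := pow_pos hx₁pos 2
  have hbig : v x₁ ^ 2 < v x₁ ^ 2 * (v s₂ * v x₂) := by
    calc v x₁ ^ 2 = v x₁ ^ 2 * 1 := (mul_one _).symm
      _ < v x₁ ^ 2 * (v s₂ * v x₂) :=
          mul_lt_mul_of_pos_left (one_lt_mul_of_lt_of_le hs₂ hx₂.le) hpos2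
  have hsmall1 : v (2 * b * x₁ * x₂) < v x₁ ^ 2 * (v s₂ * v x₂) := by
    rw [map_mul, map_mul, map_mul, h2, one_mul]
    calc v b * v x₁ * v x₂ < v x₁ * v x₁ * v x₂ :=
          mul_lt_mul_of_pos_right (mul_lt_mul_of_pos_right hx₁ hx₁pos) hx₂pos
      _ = v x₁ ^ 2 * (1 * v x₂) := by rw [sq, one_mul]
      _ ≤ v x₁ ^ 2 * (v s₂ * v x₂) :=
          mul_le_mul_right (mul_le_mul_left hs₂.le _) _
  have hsmall2 : v (b ^ 2) < v x₁ ^ 2 * (v s₂ * v x₂) := by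
    rw [map_pow]
    exact lt_trans (pow_lt_pow_left₀ hx₁ zero_le (by norm_num)) hbig
  have hN : v (-(x₁ ^ 2 * (2 * s₁ * s₂ * x₂ + s₁ ^ 2 * x₂ + a * x₂ + b)) - 2 * b * x₁ * x₂ + b ^ 2) =
      v x₁ ^ 2 * (v s₂ * v x₂) := by
    rw [v.map_add_eq_of_lt_left, v.map_sub_eq_of_lt_left, Valuation.map_neg, hmain]
    · rw [Valuation.map_neg, hmain]; exact hsmall1
    · rw [v.map_sub_eq_of_lt_left, Valuation.map_neg, hmain]
      · exact hsmall2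
      · rw [Valuation.map_neg, hmain]; exact hsmall1
  rw [hid, map_div₀, hN, map_mul, map_mul, map_pow, hσ]
  have hx₁ne : v x₁ ≠ 0 := ne_of_gt hx₁pos
  have hx₂ne : v x₂ ≠ 0 := ne_of_gt hx₂pos
  have hs₂ne : v s₂ ≠ 0 := ne_of_gt hs₂pos
  field_simp

end Fermat.Agent.ES.X44.Annulus25
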