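/-
Programme X (S44), chapter (LL′), leaf (NC) (helper17), brick 5a: **the base change `K₀·F_N → K·F_N`
(`P36/ConstUnram1.bcLe`) and the charts over `A ∩ K₀`, `A ∩ K`.**

* `inclAK`, `isLocalHom_inclAK` : the local inclusion `A ∩ K₀ → A ∩ K`;
* `bcLe_algebraMap_AK`, `bcLe_aeval` : `bcLe` is semilinear over it;
* `bcLe_mem_chart` : `bcLe` maps `chart (A ∩ K₀) t₀` into `chart (A ∩ K) (bcLe t₀)`;
* `baseChangeHom_bcLe'` : `bc_K ∘ bcLe = bc_{K₀}`.
-/
import Mathlib
import Fermat.Agent.ES.P36.ConstUnram1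
import Fermat.Agent.RED.PUR.ChartGeneric22
import Fermat.Agent.RED.DESC.NumberFieldDVR27

set_option autoImplicit false
set_option linter.unusedSectionVars false
set_option synthInstance.maxHeartbeats 400000

noncomputable section

namespace Fermat.Agent.ES.X44.BcLeChart17

open Polynomial HahnSeries
open Fermat.Agent.RED.Interface4 Fermat.Agent.RED.DESC Fermat.Agent.RED.PUR.ChartGeneric22
  Fermat.Agent.ES.P36.ConstUnram1

variable (A : ValuationSubring Qbar) (N : ℕ) {K₀ K : IntermediateField ℚ Qbar} (hle : K₀ ≤ K)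

/-- the inclusion `A ∩ K₀ → A ∩ K`. -/
def inclAK : ↥(AK A K₀) →+* ↥(AK A K) :=
  (CoeffDescent1.inclRingHom hle).restrict (AK A K₀) (AK A K) (fun x hx => by
    rw [NumberFieldDVR27.mem_AK_iff] at hx ⊢
    exact hx)

@[simp] theorem coe_inclAK (r : ↥(AK A K₀)) :
    ((inclAK A hle r : ↥(AK A K)) : K) = CoeffDescent1.inclRingHom hle (r : K₀) := rfl

theorem incl_inclAK (r : ↥(AK A K₀)) :
    NumberFieldDVR27.incl A K (inclAK A hle r) = NumberFieldDVR27.incl A K₀ r :=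
  Subtype.ext rfl

instance isLocalHom_inclAK : IsLocalHom (inclAK A hle) := by
  constructor
  intro a ha
  by_contra hna
  have h1 : a ∈ IsLocalRing.maximalIdeal ↥(AK A K₀) := (IsLocalRing.mem_maximalIdeal _).2 hna
  rw [NumberFieldDVR27.mem_maximalIdeal_iff, ← incl_inclAK A hle,
    ← NumberFieldDVR27.mem_maximalIdeal_iff] at h1
  exact ((IsLocalRing.mem_maximalIdeal _).1 h1) ha

theorem bcLe_algebraMap_AK (r : ↥(AK A K₀)) :
    bcLe N hle (algebraMap ↥(AK A K₀) ↥(FK N K₀) r) =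
      algebraMap ↥(AK A K) ↥(FK N K) (inclAK A hle r) :=
  bcLe_algebraMap N hle ((r : ↥(AK A K₀)) : K₀)

/-- `bcLe` commutes with polynomial evaluation. -/
theorem bcLe_aeval (t₀ : FK N K₀) (P : (↥(AK A K₀))[X]) :
    bcLe N hle (aeval t₀ P) = aeval (bcLe N hle t₀) (P.map (inclAK A hle)) := by
  have hcomp : (bcLe N hle).comp (algebraMap ↥(AK A K₀) ↥(FK N K₀)) =
      (algebraMap ↥(AK A K) ↥(FK N K)).comp (inclAK A hle) :=
    RingHom.ext fun r => bcLe_algebraMap_AK A N hle r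
  rw [aeval_def, aeval_def, eval₂_map, hom_eval₂, hcomp]

/-- `bcLe` maps `(A ∩ K₀)[t₀]` into `(A ∩ K)[bcLe t₀]`. -/
theorem bcLe_mem_adjoin (t₀ : FK N K₀) {c : FK N K₀}
    (hc : c ∈ Algebra.adjoin ↥(AK A K₀) {t₀}) :
    bcLe N hle c ∈ Algebra.adjoin ↥(AK A K) {bcLe N hle t₀} := by
  induction hc using Algebra.adjoin_induction with
  | mem x hx =>
      rw [Set.mem_singleton_iff.mp hx]
      exact Algebra.self_mem_adjoin_singleton _ _
  | algebraMap a =>
      rw [bcLe_algebraMap_AK]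
      exact Subalgebra.algebraMap_mem _ _
  | add x y _ _ hx hy => rw [map_add]; exact add_mem hx hy
  | mul x y _ _ hx hy => rw [map_mul]; exact mul_mem hx hy

/-- `bcLe` maps the chart over `A ∩ K₀` into the chart over `A ∩ K`. -/
theorem bcLe_mem_chart (t₀ x : FK N K₀) (hx : x ∈ chart ↥(AK A K₀) t₀) :
    bcLe N hle x ∈ chart ↥(AK A K) (bcLe N hle t₀) := by
  rw [mem_chart_iff, isIntegral_subalgebra_iff] at hx ⊢
  obtain ⟨P, hP, hcoeff, hx⟩ := hx
  refine ⟨P.map (bcLe N hle), hP.map _, fun i => ?_, ?_⟩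
  · rw [coeff_map]
    exact bcLe_mem_adjoin A N hle t₀ (hcoeff i)
  · rw [eval_map, eval₂_at_apply, hx, map_zero]

end Fermat.Agent.ES.X44.BcLeChart17
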