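/-
Programme X (S44), chapter (W1)(i)/(K): the Eisenstein computation behind (★) of `T2_W1_ROUTE14.md` §2(c),
stated for an ARBITRARY valuation (no discreteness of the big field: the Gauss valuations of `Q̄(X)` have
value group `ℚ`), author helper6.

`v` a valuation on a field `F`; `ϖ` with `v ϖ < 1` ("uniformiser of the small discretely valued field"), `π'` with
`v π' ^ n = v ϖ` ("Eisenstein of degree `n`"); coefficients `c i` (`i < n`) each `0` or of valuation an integral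
power of `v ϖ` ("elements of the small field").  Then the valuations of the non-zero terms `c i * π' ^ i` are
pairwise distinct, hence `v (∑ c i * π'^i) = max`, and

* `coeff_le_one` : `v (∑ i, c i * π' ^ i) ≤ 1 → ∀ i, v (c i) ≤ 1`
   (`O ∩ K'(X) = (O ∩ K₁(X))[π']`);
* `tau_sub_eq` : a ring automorphism `τ` fixing the `c i` and preserving `{v ≤ 1}` moves
   `x = ∑ c i * π'^i` (`v x ≤ 1`) by a multiple `(τ π' - π') * y`, `v y ≤ 1`
   (`τ ≡ id mod π'^{t+1}` on `O ∩ K'(X)` as soon as `τ π' ≡ π' mod π'^{t+1}`);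
* `val_pow_eq_of_eisenstein` : the relation `v π' ^ n = v ϖ` from an Eisenstein equation
   `π'^n = ∑_{i<n} a i * π'^i`, `v (a i) ≤ v ϖ`, `v (a 0) = v ϖ`.
-/
import Mathlib

set_option autoImplicit false

namespace Fermat.Agent.ES.X44.EisGauss6

open Finset

variable {F : Type*} [Field F] {Γ₀ : Type*} [LinearOrderedCommGroupWithZero Γ₀]

/-- A finite sum whose non-zero terms have pairwise distinct valuations has the valuation of its largest term. -/
theorem val_sum_of_distinct {ι : Type*} [DecidableEq ι] (v : Valuation F Γ₀) (f : ι → F) (s : Finset ι)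
    (hdist : ∀ i ∈ s, ∀ j ∈ s, i ≠ j → f i ≠ 0 → f j ≠ 0 → v (f i) ≠ v (f j)) :
    (∀ i ∈ s, v (f i) ≤ v (∑ j ∈ s, f j)) ∧ (s.Nonempty → ∃ i₀ ∈ s, v (∑ j ∈ s, f j) = v (f i₀)) := by
  induction s using Finset.induction_on with
  | empty => exact ⟨fun i hi => absurd hi (Finset.notMem_empty i), fun h => absurd h Finset.not_nonempty_empty⟩
  | insert a s' ha ih =>
    have hdist' : ∀ i ∈ s', ∀ j ∈ s', i ≠ j → f i ≠ 0 → f j ≠ 0 → v (f i) ≠ v (f j) :=
      fun i hi j hj => hdist i (Finset.mem_insert_of_mem hi) j (Finset.mem_insert_of_mem hj)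
    obtain ⟨ih1, ih2⟩ := ih hdist'
    rw [Finset.sum_insert ha]
    rcases s'.eq_empty_or_nonempty with hs' | hs'
    · subst hs'
      simp
    · obtain ⟨i₀, hi₀, hS⟩ := ih2 hs'
      by_cases hfa : f a = 0
      · rw [hfa, zero_add]
        refine ⟨fun i hi => ?_, fun _ => ⟨i₀, Finset.mem_insert_of_mem hi₀, hS⟩⟩
        rcases Finset.mem_insert.mp hi with rfl | hi
        · rw [hfa, map_zero]; exact zero_le
        · exact ih1 i hi
      · by_cases hf0 : f i₀ = 0
        · -- then the partial sum vanishes and every term of `s'` vanishes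
          have hS0 : (∑ j ∈ s', f j) = 0 := by
            have : v (∑ j ∈ s', f j) = 0 := by rw [hS, hf0, map_zero]
            exact (Valuation.zero_iff v).mp this
          rw [hS0, add_zero]
          refine ⟨fun i hi => ?_, fun _ => ⟨a, Finset.mem_insert_self a s', rfl⟩⟩
          rcases Finset.mem_insert.mp hi with rfl | hi
          · exact le_rfl
          · have := ih1 i hi
            rw [hS0, map_zero] at this
            exact this.trans zero_le
        · have hai : a ≠ i₀ := fun h => ha (h ▸ hi₀)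
          have hne : v (f a) ≠ v (∑ j ∈ s', f j) := by
            rw [hS]
            exact hdist a (Finset.mem_insert_self a s') i₀ (Finset.mem_insert_of_mem hi₀) hai hfa hf0
          have hmax : v (f a + ∑ j ∈ s', f j) = max (v (f a)) (v (∑ j ∈ s', f j)) :=
            Valuation.map_add_of_distinct_val v hne
          refine ⟨fun i hi => ?_, fun _ => ?_⟩
          · rw [hmax]
            rcases Finset.mem_insert.mp hi with rfl | hi
            · exact le_max_left _ _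
            · exact (ih1 i hi).trans (le_max_right _ _)
          · rcases le_total (v (f a)) (v (∑ j ∈ s', f j)) with h | h
            · exact ⟨i₀, Finset.mem_insert_of_mem hi₀, by rw [hmax, max_eq_right h, hS]⟩
            · exact ⟨a, Finset.mem_insert_self a s', by rw [hmax, max_eq_left h]⟩

/-- Powers of an element `< 1` (and `≠ 0`) of a linearly ordered group with zero are injective in the exponent. -/
theorem zpow_injective_of_lt_one {g : Γ₀} (h0 : g ≠ 0) (h1 : g < 1) {a b : ℤ} (h : g ^ a = g ^ b) : a = b := by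
  by_contra hab
  wlog hlt : a < b generalizing a b
  · exact this h.symm (Ne.symm hab) (lt_of_le_of_ne (not_lt.mp hlt) (Ne.symm hab))
  have hd : 0 < b - a := sub_pos.mpr hlt
  have hpow : g ^ (b - a) = 1 := by
    rw [zpow_sub₀ h0, h, div_self (zpow_ne_zero _ h0)]
  obtain ⟨m, hm⟩ := Int.eq_ofNat_of_zero_le hd.le
  rw [hm, zpow_natCast] at hpow
  have hmpos : m ≠ 0 := by
    rintro rfl
    rw [hm] at hd
    exact absurd hd (lt_irrefl _)
  exact absurd hpow (ne_of_lt (pow_lt_one₀ zero_le h1 hmpos))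

section Core

variable (v : Valuation F Γ₀) {ϖ π' : F} {n : ℕ}

/-- The non-zero terms `c i * π'^i`, `i < n`, have pairwise distinct valuations. -/
theorem term_val_ne (hϖ1 : v ϖ < 1) (hϖ0 : ϖ ≠ 0) (hπ' : v π' ^ n = v ϖ)
    (c : Fin n → F) (hc : ∀ i, c i = 0 ∨ ∃ k : ℤ, v (c i) = v ϖ ^ k)
    (i j : Fin n) (hij : i ≠ j) (hi : c i * π' ^ (i : ℕ) ≠ 0) (hj : c j * π' ^ (j : ℕ) ≠ 0) :
    v (c i * π' ^ (i : ℕ)) ≠ v (c j * π' ^ (j : ℕ)) := by
  intro heq
  have hg0 : v ϖ ≠ 0 := (Valuation.ne_zero_iff v).mpr hϖ0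
  have hci : c i ≠ 0 := left_ne_zero_of_mul hi
  have hcj : c j ≠ 0 := left_ne_zero_of_mul hj
  obtain ⟨ki, hki⟩ := (hc i).resolve_left hci
  obtain ⟨kj, hkj⟩ := (hc j).resolve_left hcj
  have hp0 : v π' ≠ 0 := by
    intro h
    have hn : n ≠ 0 := fun hn => by
      subst hn
      exact Fin.elim0 i
    rw [h, zero_pow hn] at hπ'
    exact hg0 hπ'.symm
  rw [map_mul, map_mul, map_pow, map_pow, hki, hkj] at heq
  -- raise to the `n`-th power
  have h2 : (v ϖ ^ ki * v π' ^ (i : ℕ)) ^ n = (v ϖ ^ kj * v π' ^ (j : ℕ)) ^ n := by rw [heq]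
  rw [mul_pow, mul_pow, ← pow_mul, ← pow_mul, mul_comm (i : ℕ) n, mul_comm (j : ℕ) n, pow_mul, pow_mul, hπ',
    ← zpow_natCast (v ϖ ^ ki), ← zpow_natCast (v ϖ ^ kj), ← zpow_mul, ← zpow_mul,
    ← zpow_natCast (v ϖ) (i : ℕ), ← zpow_natCast (v ϖ) (j : ℕ), ← zpow_add₀ hg0, ← zpow_add₀ hg0] at h2
  have h3 := zpow_injective_of_lt_one hg0 hϖ1 h2
  -- `ki * n + i = kj * n + j` with `i, j < n` forces `i = j`
  have hi' : ((i : ℕ) : ℤ) < n := by exact_mod_cast i.2
  have hj' : ((j : ℕ) : ℤ) < n := by exact_mod_cast j.2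
  have hi0 : (0 : ℤ) ≤ ((i : ℕ) : ℤ) := Int.natCast_nonneg _
  have hj0 : (0 : ℤ) ≤ ((j : ℕ) : ℤ) := Int.natCast_nonneg _
  have hk : ki = kj := by
    by_contra hne
    rcases lt_or_gt_of_ne hne with h | h
    · have : (ki + 1) * (n : ℤ) ≤ kj * n := by
        apply mul_le_mul_of_nonneg_right _ (Int.natCast_nonneg _)
        omega
      nlinarith
    · have : (kj + 1) * (n : ℤ) ≤ ki * n := by
        apply mul_le_mul_of_nonneg_right _ (Int.natCast_nonneg _)
        omega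
      nlinarith
  subst hk
  have : ((i : ℕ) : ℤ) = ((j : ℕ) : ℤ) := by linarith
  exact hij (Fin.ext (by exact_mod_cast this))

/-- **Eisenstein generation.**  If `x = ∑_{i<n} c i * π'^i` has `v x ≤ 1` then every `c i` has `v (c i) ≤ 1`. -/
theorem coeff_le_one (hϖ1 : v ϖ < 1) (hϖ0 : ϖ ≠ 0) (hπ' : v π' ^ n = v ϖ)
    (c : Fin n → F) (hc : ∀ i, c i = 0 ∨ ∃ k : ℤ, v (c i) = v ϖ ^ k)
    (hx : v (∑ i, c i * π' ^ (i : ℕ)) ≤ 1) (i : Fin n) : v (c i) ≤ 1 := by
  classical
  have hg0 : v ϖ ≠ 0 := (Valuation.ne_zero_iff v).mpr hϖ0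
  have hdist := (val_sum_of_distinct v (fun i : Fin n => c i * π' ^ (i : ℕ)) Finset.univ
    (fun i _ j _ hij hi hj => term_val_ne v hϖ1 hϖ0 hπ' c hc i j hij hi hj)).1 i (Finset.mem_univ i)
  have hterm : v (c i * π' ^ (i : ℕ)) ≤ 1 := hdist.trans hx
  rcases hc i with h0 | ⟨k, hk⟩
  · rw [h0, map_zero]; exact zero_le
  · -- `v ϖ ^ k * v π' ^ i ≤ 1`; raise to the `n`: `v ϖ ^ (k n + i) ≤ 1`, so `k n + i ≥ 0`, so `k ≥ 0`
    rw [map_mul, map_pow, hk] at hterm
    have h2 : (v ϖ ^ k * v π' ^ (i : ℕ)) ^ n ≤ 1 := pow_le_one₀ zero_le hterm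
    rw [mul_pow, ← pow_mul, mul_comm (i : ℕ) n, pow_mul, hπ', ← zpow_natCast (v ϖ ^ k), ← zpow_mul,
      ← zpow_natCast (v ϖ) (i : ℕ), ← zpow_add₀ hg0] at h2
    have hnonneg : 0 ≤ k * (n : ℤ) + ((i : ℕ) : ℤ) := by
      by_contra hneg
      push Not at hneg
      have : 1 < v ϖ ^ (k * (n : ℤ) + ((i : ℕ) : ℤ)) := by
        have hinv : 1 < (v ϖ)⁻¹ := (one_lt_inv₀ (zero_lt_iff.mpr hg0)).mpr hϖ1
        obtain ⟨m, hm⟩ := Int.eq_ofNat_of_zero_le (neg_nonneg.mpr hneg.le)
        have hm0 : m ≠ 0 := by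
          rintro rfl
          simp at hm
          omega
        have : v ϖ ^ (k * (n : ℤ) + ((i : ℕ) : ℤ)) = (v ϖ)⁻¹ ^ m := by
          rw [← zpow_natCast, ← hm, inv_zpow', neg_neg]
        rw [this]
        exact one_lt_pow₀ hinv hm0
      exact absurd h2 (not_le.mpr this)
    have hi' : ((i : ℕ) : ℤ) < n := by exact_mod_cast i.2
    have hk0 : 0 ≤ k := by
      by_contra hneg
      push Not at hneg
      have : k * (n : ℤ) ≤ -1 * n := by
        apply mul_le_mul_of_nonneg_right _ (Int.natCast_nonneg _)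
        omega
      linarith
    rw [hk]
    obtain ⟨m, rfl⟩ := Int.eq_ofNat_of_zero_le hk0
    rw [zpow_natCast]
    exact pow_le_one₀ zero_le hϖ1.le

/-- **`τ ≡ id` modulo `τ π' - π'`.**  A ring automorphism `τ` of `F` that preserves `{v ≤ 1}` and fixes the
coefficients `c i` moves an integral `x = ∑_{i<n} c i * π'^i` by `(τ π' - π')` times an integral element. -/
theorem tau_sub_eq (hϖ1 : v ϖ < 1) (hϖ0 : ϖ ≠ 0) (hπ' : v π' ^ n = v ϖ)
    (τ : F ≃+* F) (hτO : ∀ y : F, v y ≤ 1 → v (τ y) ≤ 1)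
    (c : Fin n → F) (hc : ∀ i, c i = 0 ∨ ∃ k : ℤ, v (c i) = v ϖ ^ k) (hτc : ∀ i, τ (c i) = c i)
    (hx : v (∑ i, c i * π' ^ (i : ℕ)) ≤ 1) :
    ∃ y : F, v y ≤ 1 ∧ τ (∑ i, c i * π' ^ (i : ℕ)) - ∑ i, c i * π' ^ (i : ℕ) = (τ π' - π') * y := by
  have hci : ∀ i, v (c i) ≤ 1 := coeff_le_one v hϖ1 hϖ0 hπ' c hc hx
  have hπ1 : v π' ≤ 1 := by
    by_contra h
    push Not at h
    rcases Nat.eq_zero_or_pos n with hn | hn
    · subst hn
      rw [pow_zero] at hπ'
      exact absurd hπ'.symm (ne_of_lt hϖ1)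
    · have : 1 < v π' ^ n := one_lt_pow₀ h hn.ne'
      rw [hπ'] at this
      exact absurd hϖ1 (not_lt.mpr this.le)
  have hτπ1 : v (τ π') ≤ 1 := hτO _ hπ1
  -- geometric sum identity `a^i - b^i = (a - b) * ∑_{j<i} a^j b^(i-1-j)`
  refine ⟨∑ i : Fin n, c i * ∑ j ∈ Finset.range (i : ℕ), τ π' ^ j * π' ^ ((i : ℕ) - 1 - j), ?_, ?_⟩
  · apply Valuation.map_sum_le
    intro i _
    rw [map_mul]
    apply mul_le_one' (hci i)
    apply Valuation.map_sum_le
    intro j _
    rw [map_mul, map_pow, map_pow]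
    exact mul_le_one' (pow_le_one₀ zero_le hτπ1) (pow_le_one₀ zero_le hπ1)
  · rw [map_sum, ← Finset.sum_sub_distrib, Finset.mul_sum]
    apply Finset.sum_congr rfl
    intro i _
    rw [map_mul, map_pow, hτc i, ← mul_sub, ← mul_assoc, mul_comm (τ π' - π') (c i), mul_assoc]
    congr 1
    exact ((Commute.all (τ π') π').mul_geom_sum₂ (i : ℕ)).symm

end Core

/-- The relation `v π' ^ n = v ϖ` from an Eisenstein equation `π'^n = ∑_{i<n} a i * π'^i` with
`v (a i) ≤ v ϖ` for all `i` and `v (a 0) = v ϖ < 1`. -/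
theorem val_pow_eq_of_eisenstein (v : Valuation F Γ₀) {ϖ π' : F} {n : ℕ} (hn : 0 < n)
    (hϖ1 : v ϖ < 1) (a : Fin n → F) (ha : ∀ i, v (a i) ≤ v ϖ) (ha0 : v (a ⟨0, hn⟩) = v ϖ)
    (heq : π' ^ n = ∑ i, a i * π' ^ (i : ℕ)) : v π' ^ n = v ϖ := by
  -- first `v π' < 1`
  have hπlt : v π' < 1 := by
    by_contra h
    push Not at h
    have h1 : v (π' ^ n) ≤ v ϖ * v π' ^ (n - 1) := by
      rw [heq]
      apply Valuation.map_sum_le
      intro i _
      rw [map_mul, map_pow]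
      apply mul_le_mul' (ha i)
      exact pow_le_pow_right₀ h (by have := i.2; omega)
    rw [map_pow] at h1
    have h2 : v π' ^ n = v π' * v π' ^ (n - 1) := by
      rw [← pow_succ', Nat.sub_add_cancel hn]
    rw [h2] at h1
    have hpos : 0 < v π' ^ (n - 1) := pow_pos (lt_of_lt_of_le zero_lt_one h) _
    have := le_of_mul_le_mul_right h1 hpos
    exact absurd (lt_of_le_of_lt this hϖ1) (not_lt.mpr h)
  -- the terms `i ≥ 1` are `< v ϖ`, the term `i = 0` is `= v ϖ`
  classical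
  have hsplit : ∑ i, a i * π' ^ (i : ℕ) = a ⟨0, hn⟩ + ∑ i ∈ Finset.univ.erase (⟨0, hn⟩ : Fin n), a i * π' ^ (i : ℕ) := by
    rw [← Finset.add_sum_erase Finset.univ _ (Finset.mem_univ (⟨0, hn⟩ : Fin n))]
    simp
  by_cases hz : v ϖ = 0
  · -- degenerate case `ϖ = 0`: every `a i` vanishes, so `π' ^ n = 0`
    have hai : ∀ i, a i = 0 := fun i =>
      (Valuation.zero_iff v).mp (le_antisymm (by rw [← hz]; exact ha i) zero_le)
    have : π' ^ n = 0 := by
      rw [heq]
      exact Finset.sum_eq_zero (fun i _ => by rw [hai i, zero_mul])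
    rw [← map_pow, this, map_zero, hz]
  have hϖpos : 0 < v ϖ := zero_lt_iff.mpr hz
  have hrest : v (∑ i ∈ Finset.univ.erase (⟨0, hn⟩ : Fin n), a i * π' ^ (i : ℕ)) < v ϖ := by
    apply Valuation.map_sum_lt v (ne_of_gt hϖpos)
    intro i hi
    have hi0 : (i : ℕ) ≠ 0 := by
      intro h
      exact (Finset.mem_erase.mp hi).1 (Fin.ext h)
    rw [map_mul, map_pow]
    calc v (a i) * v π' ^ (i : ℕ) ≤ v ϖ * v π' ^ (i : ℕ) := mul_le_mul' (ha i) le_rfl
      _ < v ϖ * 1 := by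
          apply mul_lt_mul_of_pos_left _ hϖpos
          exact pow_lt_one₀ zero_le hπlt hi0
      _ = v ϖ := mul_one _
  rw [← map_pow, heq, hsplit, Valuation.map_add_eq_of_lt_left v (by rw [ha0]; exact hrest), ha0]

end Fermat.Agent.ES.X44.EisGauss6
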