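/-
Programme X (S44), chapter (K)/(W1): the first-order "break" computation
`τ γ / γ ≡ 1 + j · a · π'^t  (mod π'^{t+1})` for `γ = u · π'^j`, from
`τ π' / π' ≡ 1 + a · π'^t` and `τ u ≡ u  (mod π'^{t+1})` (`T2_W1_ROUTE14.md` §0/§2(c), `W1_KEY12.md` key lemma),
for an arbitrary valuation; and the value group statement `v x ∈ (v π')^ℤ` for `x = ∑ c i * π'^i`.
Author helper6.  Congruences are written `v (x - y) ≤ r`.
-/
import Fermat.Agent.ES.X44.EisGauss6

set_option autoImplicit false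

namespace Fermat.Agent.ES.X44.BreakAlg6

open Finset

variable {F : Type*} [Field F] {Γ₀ : Type*} [LinearOrderedCommGroupWithZero Γ₀]

/-- Value group: a non-zero `x = ∑_{i<n} c i * π'^i` has `v x = v π' ^ m` for some `m : ℤ`
(so `K'^× = π'^ℤ · units`, literal (k1) of the spine). -/
theorem val_eq_zpow (v : Valuation F Γ₀) {ϖ π' : F} {n : ℕ} (hϖ1 : v ϖ < 1) (hϖ0 : ϖ ≠ 0)
    (hπ' : v π' ^ n = v ϖ) (c : Fin n → F) (hc : ∀ i, c i = 0 ∨ ∃ k : ℤ, v (c i) = v ϖ ^ k)
    (hx : (∑ i, c i * π' ^ (i : ℕ)) ≠ 0) : ∃ m : ℤ, v (∑ i, c i * π' ^ (i : ℕ)) = v π' ^ m := by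
  classical
  have hne : (Finset.univ : Finset (Fin n)).Nonempty := by
    by_contra h
    rw [Finset.not_nonempty_iff_eq_empty] at h
    rw [h, Finset.sum_empty] at hx
    exact hx rfl
  obtain ⟨i₀, -, hi₀⟩ := (EisGauss6.val_sum_of_distinct v (fun i : Fin n => c i * π' ^ (i : ℕ)) Finset.univ
    (fun i _ j _ hij hi hj => EisGauss6.term_val_ne v hϖ1 hϖ0 hπ' c hc i j hij hi hj)).2 hne
  have hterm : c i₀ * π' ^ (i₀ : ℕ) ≠ 0 := by
    intro h0
    rw [h0, map_zero] at hi₀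
    exact hx ((Valuation.zero_iff v).mp hi₀)
  obtain ⟨k, hk⟩ := (hc i₀).resolve_left (left_ne_zero_of_mul hterm)
  refine ⟨k * n + (i₀ : ℕ), ?_⟩
  have hp0 : v π' ≠ 0 := by
    intro h
    have : π' = 0 := (Valuation.zero_iff v).mp h
    rw [this] at hπ'
    have hn : n ≠ 0 := fun hn => by subst hn; exact Fin.elim0 i₀
    rw [map_zero, zero_pow hn] at hπ'
    exact (Valuation.ne_zero_iff v).mpr hϖ0 hπ'.symm
  rw [hi₀, map_mul, map_pow, hk, ← hπ', zpow_add₀ hp0, zpow_natCast, ← zpow_natCast (v π') n, ← zpow_mul,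
    mul_comm (n : ℤ) k]

section Cong

variable (v : Valuation F Γ₀)

/-- Natural numbers are integral for every valuation. -/
theorem natCast_le_one (n : ℕ) : v (n : F) ≤ 1 := by
  induction n with
  | zero => simp
  | succ n ih =>
    rw [Nat.cast_succ]
    exact (Valuation.map_add v _ _).trans (max_le ih (by rw [map_one]))

/-- Integers are integral for every valuation. -/
theorem intCast_le_one (j : ℤ) : v (j : F) ≤ 1 := by
  rcases Int.eq_nat_or_neg j with ⟨m, rfl | rfl⟩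
  · exact_mod_cast natCast_le_one v m
  · rw [Int.cast_neg, Valuation.map_neg]
    exact_mod_cast natCast_le_one v m

/-- Congruences modulo `{v ≤ r}` multiply (on integral elements). -/
theorem cong_mul {r : Γ₀} {x x' y y' : F} (hx : v x ≤ 1) (hy' : v y' ≤ 1)
    (h1 : v (x - x') ≤ r) (h2 : v (y - y') ≤ r) : v (x * y - x' * y') ≤ r := by
  have : x * y - x' * y' = x * (y - y') + (x - x') * y' := by ring
  rw [this]
  refine (Valuation.map_add v _ _).trans (max_le ?_ ?_)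
  · rw [map_mul]
    calc v x * v (y - y') ≤ 1 * r := mul_le_mul' hx h2
      _ = r := one_mul r
  · rw [map_mul]
    calc v (x - x') * v y' ≤ r * 1 := mul_le_mul' h1 hy'
      _ = r := mul_one r

/-- `(1 + δ)^j ≡ 1 + j δ` modulo `δ^2` for `j : ℕ`, when `v δ ≤ 1`. -/
theorem one_add_pow_cong {δ : F} (hδ : v δ ≤ 1) (j : ℕ) :
    v ((1 + δ) ^ j - (1 + (j : F) * δ)) ≤ v δ ^ 2 := by
  induction j with
  | zero => simp
  | succ j ih =>
    have h1δ : v (1 + δ) ≤ 1 :=
      (Valuation.map_add v _ _).trans (max_le (by rw [map_one]) hδ)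
    have : (1 + δ) ^ (j + 1) - (1 + ((j + 1 : ℕ) : F) * δ)
        = (1 + δ) * ((1 + δ) ^ j - (1 + (j : F) * δ)) + (j : F) * δ ^ 2 := by
      push_cast
      ring
    rw [this]
    refine (Valuation.map_add v _ _).trans (max_le ?_ ?_)
    · rw [map_mul]
      calc v (1 + δ) * v ((1 + δ) ^ j - (1 + (j : F) * δ)) ≤ 1 * v δ ^ 2 := mul_le_mul' h1δ ih
        _ = v δ ^ 2 := one_mul _
    · rw [map_mul, map_pow]
      calc v (j : F) * v δ ^ 2 ≤ 1 * v δ ^ 2 := mul_le_mul' (natCast_le_one v j) le_rfl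
        _ = v δ ^ 2 := one_mul _

/-- `(1 + δ)^j ≡ 1 + j δ` modulo `δ^2` for `j : ℤ`, when `v δ < 1`. -/
theorem one_add_zpow_cong {δ : F} (hδ : v δ < 1) (j : ℤ) :
    v ((1 + δ) ^ j - (1 + (j : F) * δ)) ≤ v δ ^ 2 := by
  have hunit : v (1 + δ) = 1 := by
    have : v (1 + δ) = max (v 1) (v δ) := Valuation.map_add_of_distinct_val v (by rw [map_one]; exact (ne_of_lt hδ).symm)
    rw [this, map_one, max_eq_left hδ.le]
  have h1δ0 : (1 + δ) ≠ 0 := by
    intro h
    rw [h, map_zero] at hunit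
    exact zero_ne_one hunit
  rcases Int.eq_nat_or_neg j with ⟨m, rfl | rfl⟩
  · rw [zpow_natCast]
    exact_mod_cast one_add_pow_cong v hδ.le m
  · -- `w = (1+δ)^m`, `w⁻¹ - (1 - m δ) = (1 - (1 - m δ) w) / w`
    set w : F := (1 + δ) ^ m with hw
    have hwv : v w = 1 := by rw [hw, map_pow, hunit, one_pow]
    have hw0 : w ≠ 0 := pow_ne_zero _ h1δ0
    have hwm : v (w - (1 + (m : F) * δ)) ≤ v δ ^ 2 := one_add_pow_cong v hδ.le m
    rw [zpow_neg, zpow_natCast]
    have hid : w⁻¹ - (1 + ((-(m : ℤ) : ℤ) : F) * δ)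
        = w⁻¹ * (-(1 - (m : F) * δ) * (w - (1 + (m : F) * δ)) + ((m : F)) ^ 2 * δ ^ 2) := by
      push_cast
      field_simp
      ring
    rw [hid, map_mul, map_inv₀, hwv, inv_one, one_mul]
    refine (Valuation.map_add v _ _).trans (max_le ?_ ?_)
    · rw [map_mul, Valuation.map_neg]
      have h1m : v (1 - (m : F) * δ) ≤ 1 := by
        refine (Valuation.map_sub v _ _).trans (max_le (by rw [map_one]) ?_)
        rw [map_mul]
        calc v (m : F) * v δ ≤ 1 * 1 := mul_le_mul' (natCast_le_one v m) hδ.le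
          _ = 1 := one_mul 1
      calc v (1 - (m : F) * δ) * v (w - (1 + (m : F) * δ)) ≤ 1 * v δ ^ 2 := mul_le_mul' h1m hwm
        _ = v δ ^ 2 := one_mul _
    · rw [map_mul, map_pow, map_pow]
      have hm1 : v (m : F) ≤ 1 := natCast_le_one v m
      calc v (m : F) ^ 2 * v δ ^ 2 ≤ 1 * v δ ^ 2 := mul_le_mul' (pow_le_one₀ zero_le hm1) le_rfl
        _ = v δ ^ 2 := one_mul _

end Cong

/-- **The break computation.**  `τ` a ring automorphism with `v ∘ τ = v`; `π' ≠ 0`, `v π' < 1`, `t ≥ 1`, `v a ≤ 1`,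
`τ π' / π' ≡ 1 + a π'^t` and `τ u ≡ u` modulo `π'^{t+1}`, `v u = 1`.  Then for `γ = u · π'^j` (`j : ℤ`):
`τ γ / γ ≡ 1 + j · a · π'^t` modulo `π'^{t+1}`. -/
theorem tau_div_cong (v : Valuation F Γ₀) (τ : F ≃+* F) {π' a u : F} {t : ℕ} (ht : 1 ≤ t)
    (hπ0 : π' ≠ 0) (hπ1 : v π' < 1) (ha : v a ≤ 1)
    (hk4 : v (τ π' / π' - (1 + a * π' ^ t)) ≤ v π' ^ (t + 1))
    (hu1 : v u = 1) (hk3 : v (τ u - u) ≤ v π' ^ (t + 1)) (j : ℤ) :
    v (τ (u * π' ^ j) / (u * π' ^ j) - (1 + (j : F) * (a * π' ^ t))) ≤ v π' ^ (t + 1) := by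
  have hu0 : u ≠ 0 := by
    intro h
    rw [h, map_zero] at hu1
    exact zero_ne_one hu1
  set r : Γ₀ := v π' ^ (t + 1) with hr
  have hr1 : r ≤ 1 := pow_le_one₀ zero_le hπ1.le
  -- δ := τπ'/π' - 1
  set δ : F := τ π' / π' - 1 with hδ
  have hδt : v δ ≤ v π' ^ t := by
    have : δ = (τ π' / π' - (1 + a * π' ^ t)) + a * π' ^ t := by rw [hδ]; ring
    rw [this]
    refine (Valuation.map_add v _ _).trans (max_le ?_ ?_)
    · exact hk4.trans (pow_le_pow_right_of_le_one' hπ1.le (Nat.le_succ t))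
    · rw [map_mul, map_pow]
      calc v a * v π' ^ t ≤ 1 * v π' ^ t := mul_le_mul' ha le_rfl
        _ = v π' ^ t := one_mul _
  have hδlt : v δ < 1 := lt_of_le_of_lt hδt (pow_lt_one₀ zero_le hπ1 (by omega))
  have hδ2 : v δ ^ 2 ≤ r := by
    calc v δ ^ 2 ≤ (v π' ^ t) ^ 2 := pow_le_pow_left₀ zero_le hδt 2
      _ = v π' ^ (2 * t) := by rw [← pow_mul, mul_comm]
      _ ≤ v π' ^ (t + 1) := pow_le_pow_right_of_le_one' hπ1.le (by omega)
  -- the two factors
  have hfac : τ (u * π' ^ j) / (u * π' ^ j) = (τ u / u) * (1 + δ) ^ j := by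
    have h1 : (1 + δ) = τ π' / π' := by rw [hδ]; ring
    rw [h1, map_mul, map_zpow₀, div_zpow]
    have hpj : π' ^ j ≠ 0 := zpow_ne_zero _ hπ0
    field_simp
  -- first factor ≡ 1
  have hA : v (τ u / u - 1) ≤ r := by
    have : τ u / u - 1 = (τ u - u) / u := by field_simp
    rw [this, map_div₀, hu1, div_one]
    exact hk3
  have hτu1 : v (τ u / u) ≤ 1 := by
    have : τ u / u = 1 + (τ u / u - 1) := by ring
    rw [this]
    exact (Valuation.map_add v _ _).trans (max_le (by rw [map_one]) (hA.trans hr1))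
  -- second factor ≡ 1 + j a π'^t
  have hB : v ((1 + δ) ^ j - (1 + (j : F) * (a * π' ^ t))) ≤ r := by
    have h1 := (BreakAlg6.one_add_zpow_cong v hδlt j).trans hδ2
    have h2 : v ((1 + (j : F) * δ) - (1 + (j : F) * (a * π' ^ t))) ≤ r := by
      have : (1 + (j : F) * δ) - (1 + (j : F) * (a * π' ^ t)) = (j : F) * (τ π' / π' - (1 + a * π' ^ t)) := by
        rw [hδ]; ring
      rw [this, map_mul]
      calc v (j : F) * v (τ π' / π' - (1 + a * π' ^ t)) ≤ 1 * r :=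
            mul_le_mul' (intCast_le_one v j) hk4
        _ = r := one_mul r
    have : (1 + δ) ^ j - (1 + (j : F) * (a * π' ^ t))
        = ((1 + δ) ^ j - (1 + (j : F) * δ)) + ((1 + (j : F) * δ) - (1 + (j : F) * (a * π' ^ t))) := by ring
    rw [this]
    exact (Valuation.map_add v _ _).trans (max_le h1 h2)
  have hB1 : v (1 + (j : F) * (a * π' ^ t)) ≤ 1 := by
    refine (Valuation.map_add v _ _).trans (max_le (by rw [map_one]) ?_)
    rw [map_mul, map_mul, map_pow]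
    calc v (j : F) * (v a * v π' ^ t) ≤ 1 * (1 * 1) :=
          mul_le_mul' (intCast_le_one v j)
            (mul_le_mul' ha (pow_le_one₀ zero_le hπ1.le))
      _ = 1 := by rw [one_mul, one_mul]
  rw [hfac]
  have := cong_mul v (r := r) (x := τ u / u) (x' := 1) (y := (1 + δ) ^ j) (y' := 1 + (j : F) * (a * π' ^ t))
    hτu1 hB1 hA hB
  rwa [one_mul] at this

end Fermat.Agent.ES.X44.BreakAlg6
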