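/-
Programme X (S44), chapter (W1), leaf `BreakConv16` (helper16): **the exit of (K) after the level change.**

`A` a valuation subring of `ℚ̄`, `v = A.valuation`, `S ≤ G_ℚ` a subgroup, `σ ∈ G_ℚ`.  INPUT = the conclusion of
`TowerBreak16.tower_exit` for `(σ, S)`: `π'` (`S`-fixed, `v π' ^ p = v (ζ - 1)`), `a` with `v a = 1`, `t` with
`1 ≤ t ≤ p - 1`, the exact break `σ π' = π' * (1 + a * π' ^ t)`, the value group of the `S`-fixed elements, and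
(k3) `v (σ c - c) ≤ v π' ^ (t + 1)` for the `S`-fixed `c ∈ A`; plus helper22's LEVEL CHANGE (`RatHypInst22`)
`π' = u * ϖ ^ e`, `v u = 1`, `1 ≤ e`.  With `T := t * e`:

* `k3_conv`   **(k3′)** : `∀ c ∈ A` `S`-fixed, `∃ d ∈ A, σ c - c = ϖ ^ (T + 1) * d`;
* `k4_conv`   **(k4′)** : `∀ c` `S`-fixed with `v c = v π' ^ j` (`j : ℤ`; so `c ≠ 0`),
                          `∃ d ∈ A, σ c / c = 1 + ϖ ^ T * (j * (a * u ^ t) + ϖ * d)`  (`BreakAlg6.tau_div_cong`);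
* `val_kappa` : `v (a * u ^ t) = 1`; `kappa_mem` : `j * (a * u ^ t) ∈ A`;
* `val_zeta_sub_one_le` **(y-level)** : `v (ζ - 1) ≤ v ϖ ^ (T + 1)`;
* `conv` : all of it from the conjunction returned by `tower_exit`, with `j` produced by the value group clause.

These are the hypotheses `k3`, `hNp`/`hNn` (with `κ^± := j^± * (a * u ^ t)`) of `W1Factor12.locFactor_of_classes`
at `ϖ` and `t := T`.
-/
import Mathlib
import Fermat.Agent.ES.X44.BreakAlg6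

set_option autoImplicit false

namespace Fermat.Agent.ES.X44.BreakConv16

local notation "Qb" => AlgebraicClosure ℚ
local notation "GQ" => (AlgebraicClosure ℚ ≃ₐ[ℚ] AlgebraicClosure ℚ)

variable {A : ValuationSubring Qb} {S : Subgroup GQ} {σ : GQ} {π' a u ϖ : Qb} {t e : ℕ}

/-- a unit of `A` (in the elementary form `u, u⁻¹ ∈ A`, `u ≠ 0`) has valuation `1`. -/
theorem val_eq_one_of_mem (hu : u ∈ A) (hu' : u⁻¹ ∈ A) (hu0 : u ≠ 0) : A.valuation u = 1 := by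
  have h1 : A.valuation u ≤ 1 := (A.valuation_le_one_iff u).mpr hu
  have h2 : A.valuation u⁻¹ ≤ 1 := (A.valuation_le_one_iff u⁻¹).mpr hu'
  rw [map_inv₀] at h2
  have h0 : A.valuation u ≠ 0 := (Valuation.ne_zero_iff A.valuation).mpr hu0
  exact le_antisymm h1 ((inv_le_one₀ (zero_lt_iff.mpr h0)).mp h2)

section Level

variable (hπ0 : π' ≠ 0) (hπ1 : A.valuation π' < 1) (hu1 : A.valuation u = 1) (he : 1 ≤ e)
  (hlev : π' = u * ϖ ^ e)

include hπ0 he hlev in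
theorem varpi_ne_zero : ϖ ≠ 0 := by
  rintro rfl
  apply hπ0
  rw [hlev, zero_pow (by omega : e ≠ 0), mul_zero]

include hu1 hlev in
/-- `v π' = v ϖ ^ e`. -/
theorem val_pi : A.valuation π' = A.valuation ϖ ^ e := by
  rw [hlev, map_mul, hu1, one_mul, map_pow]

include hπ1 hu1 hlev in
theorem val_varpi_lt_one : A.valuation ϖ < 1 := by
  by_contra hcon
  push Not at hcon
  have := val_pi hu1 hlev
  rw [this] at hπ1
  exact absurd hπ1 (not_lt.mpr (one_le_pow₀ hcon))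

include hu1 hlev in
/-- `v π' ^ n = v ϖ ^ (e * n)`. -/
theorem val_pi_pow (n : ℕ) : A.valuation π' ^ n = A.valuation ϖ ^ (e * n) := by
  rw [val_pi hu1 hlev, ← pow_mul]

include hπ1 hu1 he hlev in
/-- `v π' ^ (t + 1) ≤ v ϖ ^ (t * e + 1)`. -/
theorem val_pi_pow_succ_le (t : ℕ) :
    A.valuation π' ^ (t + 1) ≤ A.valuation ϖ ^ (t * e + 1) := by
  rw [val_pi_pow hu1 hlev]
  refine pow_le_pow_right_of_le_one' (val_varpi_lt_one hπ1 hu1 hlev).le ?_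
  nlinarith

include hπ0 hπ1 hu1 he hlev in
/-- an element of valuation `≤ v π' ^ (t + 1)` is `ϖ ^ (t * e + 1)` times an element of `A`. -/
theorem exists_eq_mul_of_le {x : Qb} (t : ℕ) (hx : A.valuation x ≤ A.valuation π' ^ (t + 1)) :
    ∃ d ∈ A, x = ϖ ^ (t * e + 1) * d := by
  have hϖ0 : ϖ ≠ 0 := varpi_ne_zero hπ0 he hlev
  have hpow0 : ϖ ^ (t * e + 1) ≠ 0 := pow_ne_zero _ hϖ0
  refine ⟨x / ϖ ^ (t * e + 1), ?_, by field_simp⟩
  rw [← A.valuation_le_one_iff, map_div₀, map_pow]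
  have hv0 : 0 < A.valuation ϖ ^ (t * e + 1) :=
    zero_lt_iff.mpr (pow_ne_zero _ ((Valuation.ne_zero_iff A.valuation).mpr hϖ0))
  rw [div_le_one₀ hv0]
  exact hx.trans (val_pi_pow_succ_le hπ1 hu1 he hlev t)

include hπ0 hπ1 hu1 he hlev in
/-- **(k3′)**. -/
theorem k3_conv
    (hk3 : ∀ c ∈ A, (∀ s ∈ S, s c = c) → A.valuation (σ c - c) ≤ A.valuation π' ^ (t + 1)) :
    ∀ c ∈ A, (∀ s ∈ S, s c = c) → ∃ d ∈ A, σ c - c = ϖ ^ (t * e + 1) * d :=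
  fun c hc hcS => exists_eq_mul_of_le hπ0 hπ1 hu1 he hlev t (hk3 c hc hcS)

include hu1 in
/-- the node constant `a * u ^ t` is a unit. -/
theorem val_kappa (ha1 : A.valuation a = 1) (t : ℕ) : A.valuation (a * u ^ t) = 1 := by
  rw [map_mul, map_pow, ha1, hu1, one_pow, one_mul]

include hu1 in
/-- the node constants `j * (a * u ^ t)` lie in `A`. -/
theorem kappa_mem (ha1 : A.valuation a = 1) (t : ℕ) (j : ℤ) : (j : Qb) * (a * u ^ t) ∈ A := by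
  rw [← A.valuation_le_one_iff, map_mul, val_kappa hu1 ha1 t, mul_one]
  exact BreakAlg6.intCast_le_one A.valuation j

include hπ0 hπ1 hu1 he hlev in
/-- **(k4′)**. -/
theorem k4_conv (hπS : ∀ s ∈ S, s π' = π') (ha1 : A.valuation a = 1) (ht : 1 ≤ t)
    (hbreak : σ π' = π' * (1 + a * π' ^ t))
    (hk3 : ∀ c ∈ A, (∀ s ∈ S, s c = c) → A.valuation (σ c - c) ≤ A.valuation π' ^ (t + 1))
    {c : Qb} (hcS : ∀ s ∈ S, s c = c) {j : ℤ}
    (hj : A.valuation c = A.valuation π' ^ j) :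
    ∃ d ∈ A, σ c / c = 1 + ϖ ^ (t * e) * ((j : Qb) * (a * u ^ t) + ϖ * d) := by
  have hvπ0 : A.valuation π' ≠ 0 := (Valuation.ne_zero_iff A.valuation).mpr hπ0
  have hπj0 : π' ^ j ≠ 0 := zpow_ne_zero _ hπ0
  -- the unit part of `c`
  set u₀ : Qb := c / π' ^ j with hu₀
  have hcu : c = u₀ * π' ^ j := by rw [hu₀, div_mul_cancel₀ _ hπj0]
  have hu₀1 : A.valuation u₀ = 1 := by
    rw [hu₀, map_div₀, map_zpow₀, hj, div_self (zpow_ne_zero _ hvπ0)]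
  have hu₀A : u₀ ∈ A := (A.valuation_le_one_iff u₀).mp hu₀1.le
  have hu₀S : ∀ s ∈ S, s u₀ = u₀ := by
    intro s hs
    rw [hu₀, map_div₀, map_zpow₀, hcS s hs, hπS s hs]
  -- the break computation
  have h3 : A.valuation ((σ.toRingEquiv : Qb ≃+* Qb) u₀ - u₀) ≤ A.valuation π' ^ (t + 1) :=
    hk3 u₀ hu₀A hu₀S
  have h4 : A.valuation ((σ.toRingEquiv : Qb ≃+* Qb) π' / π' - (1 + a * π' ^ t)) ≤
      A.valuation π' ^ (t + 1) := by
    have : (σ.toRingEquiv : Qb ≃+* Qb) π' / π' - (1 + a * π' ^ t) = 0 := by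
      show σ π' / π' - (1 + a * π' ^ t) = 0
      rw [hbreak, mul_div_cancel_left₀ _ hπ0, sub_self]
    rw [this, map_zero]
    exact zero_le
  have key := BreakAlg6.tau_div_cong A.valuation (σ.toRingEquiv : Qb ≃+* Qb) ht hπ0 hπ1 ha1.le h4
    hu₀1 h3 j
  rw [← hcu] at key
  have key' : A.valuation (σ c / c - (1 + (j : Qb) * (a * π' ^ t))) ≤ A.valuation π' ^ (t + 1) :=
    key
  obtain ⟨d, hd, hdeq⟩ := exists_eq_mul_of_le hπ0 hπ1 hu1 he hlev t key'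
  refine ⟨d, hd, ?_⟩
  have hπt : π' ^ t = u ^ t * ϖ ^ (t * e) := by
    rw [hlev, mul_pow, ← pow_mul, mul_comm e t]
  have : σ c / c = (1 + (j : Qb) * (a * π' ^ t)) + ϖ ^ (t * e + 1) * d := by
    rw [← hdeq]; ring
  rw [this, hπt, pow_succ]
  ring

include hu1 he hlev hπ1 in
/-- **(y-level)**: `v (ζ - 1) ≤ v ϖ ^ (t * e + 1)`. -/
theorem val_zeta_sub_one_le {p : ℕ} {ζ : Qb}
    (hπp : A.valuation π' ^ p = A.valuation (ζ - 1)) (htp : t + 1 ≤ p) :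
    A.valuation (ζ - 1) ≤ A.valuation ϖ ^ (t * e + 1) := by
  rw [← hπp]
  exact (pow_le_pow_right_of_le_one' hπ1.le htp).trans (val_pi_pow_succ_le hπ1 hu1 he hlev t)

end Level

/-- **THE CONVERSION**, from the conjunction returned by `TowerBreak16.tower_exit` (its clause (k3) specialised to
`τ = σ`) and the level change `π' = u * ϖ ^ e` with `u, u⁻¹ ∈ A`, `1 ≤ e`. -/
theorem conv {p : ℕ} (hp : 2 ≤ p) {ζ : Qb} (hζ1 : ζ - 1 ≠ 0) (hζlt : A.valuation (ζ - 1) < 1)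
    (hπS : ∀ s ∈ S, s π' = π') (ha1 : A.valuation a = 1)
    (hπp : A.valuation π' ^ p = A.valuation (ζ - 1))
    (hval : ∀ y : Qb, y ≠ 0 → (∀ s ∈ S, s y = y) → ∃ k : ℤ, A.valuation y = A.valuation π' ^ k)
    (hbreak : σ π' = π' * (1 + a * π' ^ t))
    (hk3 : ∀ c ∈ A, (∀ s ∈ S, s c = c) → A.valuation (σ c - c) ≤ A.valuation π' ^ (t + 1))
    (ht : 1 ≤ t) (htp : t ≤ p - 1)
    (hu : u ∈ A) (hu' : u⁻¹ ∈ A) (he : 1 ≤ e) (hlev : π' = u * ϖ ^ e) :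
    ϖ ≠ 0 ∧ A.valuation ϖ < 1 ∧ A.valuation (a * u ^ t) = 1 ∧
    A.valuation (ζ - 1) ≤ A.valuation ϖ ^ (t * e + 1) ∧
    (∀ c ∈ A, (∀ s ∈ S, s c = c) → ∃ d ∈ A, σ c - c = ϖ ^ (t * e + 1) * d) ∧
    ∀ c : Qb, c ≠ 0 → (∀ s ∈ S, s c = c) → ∃ j : ℤ, A.valuation c = A.valuation π' ^ j ∧
      (j : Qb) * (a * u ^ t) ∈ A ∧
      ∃ d ∈ A, σ c / c = 1 + ϖ ^ (t * e) * ((j : Qb) * (a * u ^ t) + ϖ * d) := by
  have hπ0 : π' ≠ 0 := by
    rintro rfl
    rw [map_zero, zero_pow (by omega : p ≠ 0)] at hπp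
    exact (Valuation.ne_zero_iff A.valuation).mpr hζ1 hπp.symm
  have hπ1 : A.valuation π' < 1 := by
    by_contra hcon
    push Not at hcon
    rw [← hπp] at hζlt
    exact absurd hζlt (not_lt.mpr (one_le_pow₀ hcon))
  have hu0 : u ≠ 0 := by
    rintro rfl
    exact hπ0 (by rw [hlev, zero_mul])
  have hu1 : A.valuation u = 1 := val_eq_one_of_mem hu hu' hu0
  refine ⟨varpi_ne_zero hπ0 he hlev, val_varpi_lt_one hπ1 hu1 hlev, val_kappa hu1 ha1 t,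
    val_zeta_sub_one_le hπ1 hu1 he hlev hπp (by omega), k3_conv hπ0 hπ1 hu1 he hlev hk3, ?_⟩
  intro c hc0 hcS
  obtain ⟨j, hj⟩ := hval c hc0 hcS
  exact ⟨j, hj, kappa_mem hu1 ha1 t j,
    k4_conv hπ0 hπ1 hu1 he hlev hπS ha1 ht hbreak hk3 hcS hj⟩

end Fermat.Agent.ES.X44.BreakConv16
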