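/-
Programme X (S44), chapter (K), literal (k5): the break certificate forces `t + 1 ≤ p`.
If `z = u · π'^(p·m)` (valuation of `z` in `(v π')^{pℤ}`, e.g. `v z ∈ v(ℚ^×)`), `v (p : F) ≤ v π'`, and
`τ π'/π' ≡ 1 + a π'^t`, `τ u ≡ u` modulo `π'^{t+1}`, then `τ z / z ≡ 1` modulo `π'^{t+1}`; hence a certificate
`v z · v π'^p ≤ v (τ z - z)` (spine (L2)(v)(c) with `v (ζ - 1) = v π'^p`) gives `t + 1 ≤ p`.
Author helper6.
-/
import Fermat.Agent.ES.X44.BreakAlg6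

set_option autoImplicit false

namespace Fermat.Agent.ES.X44.BreakLe6

variable {F : Type*} [Field F] {Γ₀ : Type*} [LinearOrderedCommGroupWithZero Γ₀]

/-- `τ z ≡ z` modulo `z · π'^{t+1}` when the exponent of `π'` in `z` is divisible by `p` and `v p ≤ v π'`. -/
theorem tau_sub_le (v : Valuation F Γ₀) (τ : F ≃+* F) {π' a u : F} {t p : ℕ} (ht : 1 ≤ t)
    (hπ0 : π' ≠ 0) (hπ1 : v π' < 1) (ha : v a ≤ 1)
    (hk4 : v (τ π' / π' - (1 + a * π' ^ t)) ≤ v π' ^ (t + 1))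
    (hu1 : v u = 1) (hk3 : v (τ u - u) ≤ v π' ^ (t + 1))
    (hp : v (p : F) ≤ v π') (m : ℤ) :
    v (τ (u * π' ^ ((p : ℤ) * m)) - u * π' ^ ((p : ℤ) * m))
      ≤ v (u * π' ^ ((p : ℤ) * m)) * v π' ^ (t + 1) := by
  set z : F := u * π' ^ ((p : ℤ) * m) with hz
  have hu0 : u ≠ 0 := by
    intro h
    rw [h, map_zero] at hu1
    exact zero_ne_one hu1
  have hz0 : z ≠ 0 := mul_ne_zero hu0 (zpow_ne_zero _ hπ0)
  have h1 := BreakAlg6.tau_div_cong v τ ht hπ0 hπ1 ha hk4 hu1 hk3 ((p : ℤ) * m)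
  have h2 : v ((((p : ℤ) * m : ℤ) : F) * (a * π' ^ t)) ≤ v π' ^ (t + 1) := by
    push_cast
    rw [map_mul, map_mul, map_mul, map_pow]
    calc v (p : F) * v (m : F) * (v a * v π' ^ t) ≤ v π' * 1 * (1 * v π' ^ t) :=
          mul_le_mul' (mul_le_mul' hp (BreakAlg6.intCast_le_one v m)) (mul_le_mul' ha le_rfl)
      _ = v π' ^ (t + 1) := by rw [mul_one, one_mul, pow_succ']
  have h3 : v (τ z / z - 1) ≤ v π' ^ (t + 1) := by
    have : τ z / z - 1 = (τ z / z - (1 + (((p : ℤ) * m : ℤ) : F) * (a * π' ^ t)))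
        + (((p : ℤ) * m : ℤ) : F) * (a * π' ^ t) := by ring
    rw [this]
    exact (Valuation.map_add v _ _).trans (max_le h1 h2)
  have : τ z - z = z * (τ z / z - 1) := by field_simp
  rw [this, map_mul]
  exact mul_le_mul' le_rfl h3

/-- **(k5).**  A break certificate `v z · v π'^p ≤ v (τ z - z)` for such a `z` forces `t + 1 ≤ p`. -/
theorem succ_le_of_certificate (v : Valuation F Γ₀) (τ : F ≃+* F) {π' a u : F} {t p : ℕ} (ht : 1 ≤ t)
    (hπ0 : π' ≠ 0) (hπ1 : v π' < 1) (ha : v a ≤ 1)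
    (hk4 : v (τ π' / π' - (1 + a * π' ^ t)) ≤ v π' ^ (t + 1))
    (hu1 : v u = 1) (hk3 : v (τ u - u) ≤ v π' ^ (t + 1))
    (hp : v (p : F) ≤ v π') (m : ℤ)
    (hcert : v (u * π' ^ ((p : ℤ) * m)) * v π' ^ p
      ≤ v (τ (u * π' ^ ((p : ℤ) * m)) - u * π' ^ ((p : ℤ) * m))) :
    t + 1 ≤ p := by
  by_contra hlt
  push Not at hlt
  have hu0 : u ≠ 0 := by
    intro h
    rw [h, map_zero] at hu1
    exact zero_ne_one hu1
  have hz0 : v (u * π' ^ ((p : ℤ) * m)) ≠ 0 :=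
    (Valuation.ne_zero_iff v).mpr (mul_ne_zero hu0 (zpow_ne_zero _ hπ0))
  have h := hcert.trans (tau_sub_le v τ ht hπ0 hπ1 ha hk4 hu1 hk3 hp m)
  have h' : v π' ^ p ≤ v π' ^ (t + 1) := le_of_mul_le_mul_left h (zero_lt_iff.mpr hz0)
  have hπpos : 0 < v π' := zero_lt_iff.mpr ((Valuation.ne_zero_iff v).mpr hπ0)
  have : v π' ^ (t + 1) < v π' ^ p := pow_lt_pow_right_of_lt_one₀ hπpos hπ1 hlt
  exact absurd h' (not_le.mpr this)

end Fermat.Agent.ES.X44.BreakLe6
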