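/-
Programme X (S44, spine `X44_SPINE14.md`), deputy (helper12): **THE FOUR GEOMETRIC EXIT LITERALS
`OffExit`, `FExit`, `RedNe`, `EigBar` in Programme W's vocabulary** (definitions and `Prop` literals only;
the single theorem is the W input at THE instance).

THE INSTANCE is main's `GeoInput23.inst48 M' p hpM h4M A hA` (`r = rN 4 8 …`, `nodes = nodesN 4 8 …`,
`G = GN M' p A`, `red = redN M' p A`, the good points of `GoodPts23`); `instInput_IX` is W's
`InstInput` there.  `JZero (M' * p) = Pic0 ℚ̄ (FW p M')` literally, so `V : Set (JZero (M' * p))` below is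
a set of classes on the generic fibre; in the chain `V` is the image `ι(E[p])`.

* `deg₁ d`, `deg₂ d`   : the degrees of the two components of `d : SDiv`;
* `CompPrin d`         : `d` is COMPONENTWISE principal (divisor of a pair of nonzero functions, no
                         condition at the nodes);
* `IsFRep I x D`       : `D` represents `x`, no point of `D` reduces to a node, and `redN r D` has
                         degree `0` on each component;
* `OffExit`  (W1 + LL′) : every `x ∈ V` has a representative off the nodes;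
* `FExit`    (Eis)      : every `x ∈ V` has an `IsFRep` representative;
* `RedNe`    (C+BRIDGE) : some `x ∈ V` has an `IsFRep` representative whose reduction is NOT
                         componentwise principal;
* `EigBar`   (W2)       : LIFTED FORM (no Hecke operator in characteristic `p` is needed in the literal):
                         a `p`-torsion class `y` of the GOOD level `M'` with nonzero reduction such that
                         `T_ℓ y - a_ℓ y` reduces to `0` for every allowed prime `ℓ`
                         (`reductionModL A M'` and `heckeOperatorBar M' ℓ` are the Prelude's).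
-/
import Mathlib
import Fermat.Agent.ES.W33.GeoLeaves23
import Fermat.Prelude.Def_ModularCurve_ReductionModL
import Fermat.Prelude.Def_ModularCurve_HeckeModule

set_option autoImplicit false
set_option linter.unusedSectionVars false
set_option synthInstance.maxHeartbeats 400000

noncomputable section

open AlgebraicCurve ModularCurve

namespace Fermat.Agent.ES.X44.GeoLit12

open Fermat.Agent.ES.W33.XiIfaceN29 Fermat.Agent.ES.W33.GeoNames23 Fermat.Agent.ES.W33.GeoW23
  Fermat.Agent.ES.W33.GeoInput23 Fermat.Agent.ES.W33.GeoLeaves23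

attribute [local instance 5000] HahnSeries.powerSeriesAlgebra SubalgebraClass.toAlgebra

local notation "Qb" => AlgebraicClosure ℚ

section Vocabulary

variable {k Ft₁ Ft₂ : Type*} [Field k] [Field Ft₁] [Algebra k Ft₁] [Field Ft₂] [Algebra k Ft₂]

/-- the degree of the first component of `d`. -/
def deg₁ (d : SDiv k Ft₁ Ft₂) : ℤ := Divisor.degree (SDiv.comp₁ d)

/-- the degree of the second component of `d`. -/
def deg₂ (d : SDiv k Ft₁ Ft₂) : ℤ := Divisor.degree (SDiv.comp₂ d)

/-- `d` is componentwise principal. -/
def CompPrin (d : SDiv k Ft₁ Ft₂) : Prop :=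
  ∃ f : Ft₁ × Ft₂, f.1 ≠ 0 ∧ f.2 ≠ 0 ∧ IsDivOf d f

end Vocabulary

variable {p M' : ℕ} {A : ValuationSubring Qb}

/-- `D` represents `x`, is off the nodes, and its reduction has degree `0` on each component. -/
def IsFRep (I : NodalInst p M' A) (x : Pic0 Qb (FW p M')) (D : Divisor Qb (FW p M')) : Prop :=
  IsRep x D ∧ OffNodes I.r D ∧ deg₁ (redN I.r D) = 0 ∧ deg₂ (redN I.r D) = 0

/-- **OffExit** (exit of (K)+(W1)+(LL′)). -/
def OffExit (I : NodalInst p M' A) (V : Set (Pic0 Qb (FW p M'))) : Prop :=
  ∀ x ∈ V, ∃ D : Divisor Qb (FW p M'), IsRep x D ∧ OffNodes I.r D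

/-- **FExit** (exit of (Eis)). -/
def FExit (I : NodalInst p M' A) (V : Set (Pic0 Qb (FW p M'))) : Prop :=
  ∀ x ∈ V, ∃ D : Divisor Qb (FW p M'), IsFRep I x D

/-- **RedNe** (exit of (C)+BRIDGE). -/
def RedNe (I : NodalInst p M' A) (V : Set (Pic0 Qb (FW p M'))) : Prop :=
  ∃ x ∈ V, ∃ D : Divisor Qb (FW p M'), IsFRep I x D ∧ ¬ CompPrin (redN I.r D)

/-- **EigBar** (exit of (W2)), lifted form at the GOOD level `M'`. -/
def EigBar (p M' : ℕ) [NeZero M'] (A : ValuationSubring Qb) (a : Nat.Primes → ℤ)
    (S : Set Nat.Primes) : Prop :=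
  ∃ y : JZero M', p • y = 0 ∧ reductionModL A M' y ≠ 0 ∧
    ∀ ℓ ∈ S, reductionModL A M' (heckeOperatorBar M' ℓ y - a ℓ • y) = 0

variable (M' : ℕ) [NeZero M'] (p : ℕ) [Fact p.Prime] (hpM : ¬ p ∣ M') (h4M : 4 ∣ M')
  (A : ValuationSubring Qb) (hA : A.LiesOverPrime p)

/-- **THE instance** of Programme X = the instance of Programme W. -/
abbrev IX : NodalInst p M' A := inst48 M' p hpM h4M A hA

/-- W's input at THE instance (hypothesis-free, `p ≠ 2`). -/
theorem instInput_IX (hp2 : p ≠ 2) : InstInput (IX M' p hpM h4M A hA) :=
  instInput_of_open (open_four M' p hpM h4M A hA hp2)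

end Fermat.Agent.ES.X44.GeoLit12
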