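/-
Programme X (S44, spine `X44_SPINE14.md`), chapter (C)+BRIDGE (helper4): **STATEMENT-ONLY interface**
(v2: on top of helper12's frozen geometric literals `X44/GeoLit12`: `CompPrin`, `IsFRep`, `FExit`, `RedNe`).
Only definitions of `Prop`-valued literals; nothing is proved here.

Vocabulary = Programme W's nodal instance on main (`W33/GeoNames23`, `W33/XiIfaceN29`, `W33/PrinN29`):
`I : NodalInst p M' A`, `I.r`, `I.nodes`, `IsRep`, `OffNodes`, `redN`, `j1N I.nodes I.r` (`= J¹`).
`JZero (M' * p) = Pic0 ℚ̄ (FW p M')` literally.  `V` is `ι(E[p])` (the range of the map of chapter (R)),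
`L` is `ι(L)` for the line `L` of chapter (L2).

* `NotJ1 I V`      : exit of (C): `V ⊄ J¹`;
* `Bridge I`       : BRIDGE: `p x = 0`, `D` off the nodes, `redN D` componentwise principal ⇒ `x ∈ J¹`;
* `RedNeAll I V`   : the strong form of `GeoLit12.RedNe` (EVERY representative off the nodes has a
                     reduction which is not componentwise principal; needs no `FExit`);
* `CInput p A V L` : what (C) consumes from (R)+(L2): `V` finite, killed by `p`, stable under the
                     decomposition group, of finite level, `L` a subgroup not containing `V` with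
                     `σ x - x ∈ L` for `σ` in the inertia group;
* `ChapterC`       : what this chapter proves; its last clause is the spine arrow
                     `GeoLit12.FExit I V → GeoLit12.RedNe I V`.
-/
import Mathlib
import Fermat.Agent.ES.W33.PrinN29
import Fermat.Agent.ES.X44.GeoLit12

set_option autoImplicit false
set_option linter.unusedSectionVars false

noncomputable section

open AlgebraicCurve ModularCurve

namespace Fermat.Agent.ES.X44.RedNeIface4

open Fermat.Agent.ES.W33.XiIfaceN29 Fermat.Agent.ES.W33.PrinN29 Fermat.Agent.ES.W33.GeoNames23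
  Fermat.Agent.ES.W33.GeoW23 Fermat.Agent.ES.X44.GeoLit12

local notation "Qb" => AlgebraicClosure ℚ

variable {p M' : ℕ} {A : ValuationSubring Qb}

/-- **NotJ1** (exit of (C)): `V` is not contained in the kernel of reduction. -/
def NotJ1 (I : NodalInst p M' A) (V : Set (Pic0 Qb (FW p M'))) : Prop :=
  ∃ x ∈ V, x ∉ j1N I.nodes I.r

/-- **BRIDGE**: a `p`-torsion class with a representative off the nodes whose reduction is
componentwise principal lies in `J¹`. -/
def Bridge (I : NodalInst p M' A) : Prop :=
  ∀ (x : Pic0 Qb (FW p M')) (D : Divisor Qb (FW p M')), p • x = 0 → IsRep x D → OffNodes I.r D →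
    CompPrin (redN I.r D) → x ∈ j1N I.nodes I.r

/-- the strong form of `GeoLit12.RedNe`: NO representative off the nodes has a componentwise principal
reduction. -/
def RedNeAll (I : NodalInst p M' A) (V : Set (Pic0 Qb (FW p M'))) : Prop :=
  ∃ x ∈ V, ∀ D : Divisor Qb (FW p M'), IsRep x D → OffNodes I.r D → ¬ CompPrin (redN I.r D)

/-- **What (C) consumes** from (R) + (L2), in `J = JZero (M' * p)`: `V = ι(E[p])`, `L = ι(L)`. -/
structure CInput (p : ℕ) {M' : ℕ} (A : ValuationSubring Qb) (V L : AddSubgroup (JZero (M' * p))) :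
    Prop where
  finite : Finite ↥V
  ptors : ∀ x ∈ V, p • x = 0
  /-- `V` is stable under the decomposition group of `A` ((R): `ι` is `G_ℚ`-equivariant) -/
  stable : ∀ σ ∈ A.decompositionSubgroup ℚ, ∀ x ∈ V, σ • x ∈ V
  /-- the points of `V` are defined over a number field ((R): `E[p]` is finite) -/
  level : ∃ Lf : IntermediateField ℚ Qb, FiniteDimensional ℚ ↥Lf ∧
    ∀ σ ∈ A.decompositionSubgroup ℚ, (∀ a ∈ Lf, σ a = a) → ∀ x ∈ V, σ • x = x
  /-- (L2)(i): `L ≠ ⊤` -/
  proper : ∃ x ∈ V, x ∉ L
  /-- (L2)(ii) -/
  inertia : ∀ σ ∈ A.inertiaSubgroupIn ℚ, ∀ x ∈ V, σ • x - x ∈ L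

/-- **WHAT THIS CHAPTER PROVES** (at every instance of Programme W's `GeoInput`, in particular at
`GeoLit12.IX`). -/
def ChapterC : Prop :=
  ∀ (M' : ℕ) [NeZero M'] (p : ℕ) [Fact p.Prime], p ≠ 2 → ¬ p ∣ M' → 4 ∣ M' →
    ∀ (A : ValuationSubring Qb), A.LiesOverPrime p → ∀ I : NodalInst p M' A, InstInput I →
      Bridge I ∧ ∀ V L : AddSubgroup (JZero (M' * p)), CInput p A V L →
        NotJ1 I (V : Set (JZero (M' * p))) ∧ RedNeAll I (V : Set (JZero (M' * p))) ∧
          (FExit I (V : Set (JZero (M' * p))) → RedNe I (V : Set (JZero (M' * p))))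

end Fermat.Agent.ES.X44.RedNeIface4
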