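/-
Programme X (S44, spine `X44_SPINE14.md`), chapter (C)+BRIDGE, file 1 (helper4): **BRIDGE**, abstract form,
in the vocabulary of `W33/XiIfaceN29` (`RedCtxN`, `redN`, `OffNodes`, `IsRep`, `InJ1N`) and of helper12's
frozen literals `X44/GeoLit12` (`CompPrin`).

`inJ1N_of_compPrin` : **a class `x` killed by `p`, with a representative `D` off the nodes whose
reduction is COMPONENTWISE principal, lies in the kernel of reduction `J¹`** (`InJ1N N r x`, with the SAME
representative `D`).  Hypotheses: helper29's function-level context `RedCtxN`, `LHyp` for the two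
components, `k` algebraically closed of characteristic `p`.

Proof (global; no lifting of functions, no one-node lemma).  `p D = div F₀`; `scale` gives
`g = c⁻¹ F₀ ∈ G` with `red g ≠ 0` and `div g = p D`; `D` is off the nodes, so `g` has neither zero nor
pole through any node, and `glue`, `glue_unit` apply at ALL nodes.  `redN D = div (f₁, f₂)`.
* `(r1)` at the smooth points and `glue` at the node places: if `(red g).i ≠ 0` then
  `(red g).i / f_i ^ p` has no pole, hence is a constant `λ_i ≠ 0` (`const_mul_pow_of_ord`).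
* If one component of `red g` vanished, `glue` would force the other one to vanish at every node
  place, while it is `λ f ^ p` with `f` a unit there: impossible as soon as there is a node; without
  nodes `PrinN` is `CompPrin`.
* Both components nonzero: `glue_unit` gives `λ₁ b₁ⱼ ^ p = λ₂ b₂ⱼ ^ p ≠ 0` for the values `b_iⱼ` of `f_i`
  at the node places; with `μ ^ p = λ₂ / λ₁` the injectivity of Frobenius gives `b₁ⱼ = μ b₂ⱼ`, so
  `(f₁, μ f₂)` witnesses `redN D ∈ PrinN`.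
-/
import Mathlib
import Fermat.Agent.ES.W33.PrinN29
import Fermat.Agent.ES.X44.RedNeIface4

set_option autoImplicit false
set_option linter.unusedSectionVars false

noncomputable section

open AlgebraicCurve

namespace Fermat.Agent.ES.X44.BridgeN4

open Fermat.Agent.X0.FF Fermat.Agent.RR.LSpace Fermat.Agent.ES.W33.XiIfaceN29
  Fermat.Agent.ES.W33.ValAt29 Fermat.Agent.ES.W33.PrinN29 Fermat.Agent.ES.X44.GeoLit12
  Fermat.Agent.ES.X44.RedNeIface4

/-! ### §1  One function field -/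

section OneField

variable {k Ft : Type*} [Field k] [Field Ft] [Algebra k Ft]

/-- values of powers. -/
theorem valAt_pow {Q : Place k Ft} {f : Ft} {c : k} (h : ValAt Q f c) (n : ℕ) :
    ValAt Q (f ^ n) (c ^ n) := by
  induction n with
  | zero => rw [pow_zero, pow_zero]; exact valAt_one
  | succ n ih => rw [pow_succ, pow_succ]; exact ValAt.mul ih h

/-- **same divisor up to an effective part supported on `T` ⇒ constant ratio.**  If `u ≠ 0` has the
order of `f ^ n` outside `T`, and on `T` the function `u` is regular and `f` is a unit, then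
`u = c f ^ n` with a constant `c ≠ 0`. -/
theorem const_mul_pow_of_ord (H : LHyp k Ft) (T : Set (Place k Ft)) {u f : Ft} (hu : u ≠ 0)
    (hf : f ≠ 0) (n : ℕ) (hout : ∀ Q : Place k Ft, Q ∉ T → Q.ord u = n * Q.ord f)
    (hin : ∀ Q ∈ T, 0 ≤ Q.ord u ∧ Q.ord f = 0) :
    ∃ c : k, c ≠ 0 ∧ u = algebraMap k Ft c * f ^ n := by
  have hfn : f ^ n ≠ 0 := pow_ne_zero n hf
  have hord : ∀ Q : Place k Ft, 0 ≤ Q.ord (u * (f ^ n)⁻¹) := by
    intro Q
    rw [Q.ord_mul hu (inv_ne_zero hfn), Q.ord_inv, ord_pow]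
    by_cases hQ : Q ∈ T
    · obtain ⟨h1, h2⟩ := hin Q hQ
      rw [h2, mul_zero, neg_zero, add_zero]
      exact h1
    · rw [hout Q hQ, add_neg_cancel]
  obtain ⟨c, hc⟩ := eq_algebraMap_of_forall_ord_nonneg H hord
  have hu' : u = algebraMap k Ft c * f ^ n := by
    rw [← hc, mul_assoc, inv_mul_cancel₀ hfn, mul_one]
  refine ⟨c, ?_, hu'⟩
  rintro rfl
  rw [map_zero, zero_mul] at hu'
  exact hu hu'

/-- a unit at `Q` has a nonzero value there. -/
theorem exists_valAt_ne_zero (H : LHyp k Ft) {Q : Place k Ft} {f : Ft} (hf : f ≠ 0)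
    (hord : Q.ord f = 0) : ∃ b : k, b ≠ 0 ∧ ValAt Q f b := by
  obtain ⟨b, hb⟩ := exists_valAt H (Q := Q) (f := f) (mem_of_ord_nonneg Q (le_of_eq hord.symm))
  refine ⟨b, ?_, hb⟩
  rintro rfl
  have := (ValAt.ord_pos_iff hb hf).mpr rfl
  rw [hord] at this
  exact lt_irrefl _ this

end OneField

/-! ### §2  Divisors on the generic fibre -/

section Generic

variable {K F : Type*} [Field K] [Field F] [Algebra K F]

/-- a representative of a class killed by `n` has a principal `n`-th multiple. -/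
theorem exists_div_nsmul {x : Pic0 K F} {D : Divisor K F} (n : ℕ) (hD : IsRep x D)
    (hx : n • x = 0) : ∃ f : F, f ≠ 0 ∧ ∀ P : Place K F, (n • D) P = P.ord f := by
  obtain ⟨h, rfl⟩ := hD
  have h1 : (QuotientAddGroup.mk (n • (⟨D, h⟩ : Divisor.degZero (K := K) (F := F))) : Pic0 K F)
      = 0 := hx
  have h2 := (QuotientAddGroup.eq_zero_iff _).mp h1
  rw [AddSubgroup.mem_addSubgroupOf] at h2
  have h3 : ((n • (⟨D, h⟩ : Divisor.degZero (K := K) (F := F)) :
      Divisor.degZero (K := K) (F := F)) : Divisor K F) = n • D := by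
    rw [AddSubgroup.coe_nsmul]
  rw [h3] at h2
  exact h2

end Generic

/-! ### §3  The nodal context -/

section Nodal

variable {K F k Ft₁ Ft₂ : Type*} [Field K] [Field F] [Algebra K F] [Field k]
  [Field Ft₁] [Algebra k Ft₁] [Field Ft₂] [Algebra k Ft₂]
  {s : ℕ} {A : ValuationSubring K} {π : ↥A →+* k} {N : Nodes k Ft₁ Ft₂ s}
  {G : Subring F} {red : ↥G →+* Ft₁ × Ft₂} {r : Place K F → SPt k Ft₁ Ft₂ ⊕ Fin s}

/-- no place of the generic fibre reduces to a node PLACE of the first component. -/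
theorem mapDomain_node₁ (ctx : RedCtxN A π N G red r) (D : Divisor K F) (j : Fin s) :
    Finsupp.mapDomain r D (Sum.inl (Sum.inl (N.ν₁ j))) = 0 := by
  refine Finsupp.mapDomain_of_notMem_range _ _ ?_
  rintro ⟨P, hP⟩
  exact ctx.smooth P _ hP j rfl

/-- no place of the generic fibre reduces to a node PLACE of the second component. -/
theorem mapDomain_node₂ (ctx : RedCtxN A π N G red r) (D : Divisor K F) (j : Fin s) :
    Finsupp.mapDomain r D (Sum.inl (Sum.inr (N.ν₂ j))) = 0 := by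
  refine Finsupp.mapDomain_of_notMem_range _ _ ?_
  rintro ⟨P, hP⟩
  exact ctx.smooth P _ hP j rfl

theorem mapDomain_nsmul (n : ℕ) (D : Divisor K F) (a : SPt k Ft₁ Ft₂ ⊕ Fin s) :
    Finsupp.mapDomain r (n • D) a = n * Finsupp.mapDomain r D a := by
  have h := map_nsmul (Finsupp.mapDomain.addMonoidHom (M := ℤ) r) n D
  have h' : Finsupp.mapDomain r (n • D) = n • Finsupp.mapDomain r D := h
  rw [h', Finsupp.smul_apply, nsmul_eq_mul]

/-- a smooth point of the first component which is not a node place. -/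
theorem not_smooth₁_iff (Q : Place k Ft₁) :
    ¬ N.IsSmooth (Sum.inl Q) ↔ ∃ j, Q = N.ν₁ j := by
  show ¬ (∀ j, Q ≠ N.ν₁ j) ↔ _
  rw [not_forall]
  exact exists_congr fun j => not_not

theorem not_smooth₂_iff (Q : Place k Ft₂) :
    ¬ N.IsSmooth (Sum.inr Q) ↔ ∃ j, Q = N.ν₂ j := by
  show ¬ (∀ j, Q ≠ N.ν₂ j) ↔ _
  rw [not_forall]
  exact exists_congr fun j => not_not

/-- **BRIDGE.** -/
theorem inJ1N_of_compPrin (ctx : RedCtxN A π N G red r) (H₁ : LHyp k Ft₁) (H₂ : LHyp k Ft₂)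
    (p : ℕ) (hp : p.Prime) [CharP k p] [IsAlgClosed k]
    {x : Pic0 K F} {D : Divisor K F} (hx : p • x = 0) (hD : IsRep x D) (hoff : OffNodes r D)
    (hcp : CompPrin (redN r D)) : InJ1N N r x := by
  classical
  obtain ⟨f, hf1, hf2, hdiv1, hdiv2⟩ := hcp
  rcases isEmpty_or_nonempty (Fin s) with he | ⟨⟨j₀⟩⟩
  · exact ⟨D, hD, hoff, f, hf1, hf2, ⟨hdiv1, hdiv2⟩, fun j => isEmptyElim j⟩
  -- the function `g` with `div g = p D`
  obtain ⟨F₀, hF₀, hdivF⟩ := exists_div_nsmul p hD hx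
  obtain ⟨c, hc, hmem, hred⟩ := ctx.scale F₀ hF₀
  have hc' : algebraMap K F c ≠ 0 := (map_ne_zero _).mpr hc
  have hg : ∀ P : Place K F, (p • D) P = P.ord (((⟨_, hmem⟩ : ↥G) : ↥G) : F) := by
    intro P
    rw [hdivF P]
    show P.ord F₀ = P.ord ((algebraMap K F c)⁻¹ * F₀)
    rw [P.ord_mul (inv_ne_zero hc') hF₀, P.ord_inv, ord_algebraMap, neg_zero, zero_add]
  generalize (⟨_, hmem⟩ : ↥G) = g at hred hg
  -- `g` has neither zero nor pole through a node
  have hnode : ∀ (j : Fin s) (P : Place K F), r P = Sum.inr j → P.ord (g : F) = 0 := by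
    intro j P hP
    rw [← hg P]
    have hPD : D P = 0 := by
      by_contra h
      exact hoff P (Finsupp.mem_support_iff.mpr h) j hP
    rw [Finsupp.smul_apply, hPD, smul_zero]
  -- the orders of `f` at the node places
  have hfν₁ : ∀ j, (N.ν₁ j).ord f.1 = 0 := fun j => by
    rw [← hdiv1, redN_apply, mapDomain_node₁ ctx]
  have hfν₂ : ∀ j, (N.ν₂ j).ord f.2 = 0 := fun j => by
    rw [← hdiv2, redN_apply, mapDomain_node₂ ctx]
  -- the components of `red g`
  have hcomp₁ : (red g).1 ≠ 0 → ∃ c₁ : k, c₁ ≠ 0 ∧ (red g).1 = algebraMap k Ft₁ c₁ * f.1 ^ p := by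
    intro h1
    refine const_mul_pow_of_ord H₁ {Q | ∃ j, Q = N.ν₁ j} h1 hf1 p (fun Q hQ => ?_) ?_
    · have hsm : N.IsSmooth (Sum.inl Q) := by
        by_contra h
        exact hQ ((not_smooth₁_iff Q).mp h)
      rw [← ctx.r1₁ g h1 (p • D) hg Q hsm, mapDomain_nsmul, ← redN_apply, hdiv1]
    · rintro Q ⟨j, rfl⟩
      obtain ⟨c', h1', -⟩ := ctx.glue g j fun P hP => le_of_eq (hnode j P hP).symm
      exact ⟨ValAt.ord_nonneg h1', hfν₁ j⟩
  have hcomp₂ : (red g).2 ≠ 0 → ∃ c₂ : k, c₂ ≠ 0 ∧ (red g).2 = algebraMap k Ft₂ c₂ * f.2 ^ p := by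
    intro h2
    refine const_mul_pow_of_ord H₂ {Q | ∃ j, Q = N.ν₂ j} h2 hf2 p (fun Q hQ => ?_) ?_
    · have hsm : N.IsSmooth (Sum.inr Q) := by
        by_contra h
        exact hQ ((not_smooth₂_iff Q).mp h)
      rw [← ctx.r1₂ g h2 (p • D) hg Q hsm, mapDomain_nsmul, ← redN_apply, hdiv2]
    · rintro Q ⟨j, rfl⟩
      obtain ⟨c', -, h2'⟩ := ctx.glue g j fun P hP => le_of_eq (hnode j P hP).symm
      exact ⟨ValAt.ord_nonneg h2', hfν₂ j⟩
  -- a nonzero component is a unit at the node places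
  have hunit₁ : (red g).1 ≠ 0 → ∀ j, (N.ν₁ j).ord (red g).1 = 0 := by
    intro h1 j
    obtain ⟨c₁, hc₁, e⟩ := hcomp₁ h1
    rw [e, (N.ν₁ j).ord_mul ((map_ne_zero _).mpr hc₁) (pow_ne_zero p hf1), ord_algebraMap, ord_pow,
      hfν₁ j, mul_zero, add_zero]
  have hunit₂ : (red g).2 ≠ 0 → ∀ j, (N.ν₂ j).ord (red g).2 = 0 := by
    intro h2 j
    obtain ⟨c₂, hc₂, e⟩ := hcomp₂ h2
    rw [e, (N.ν₂ j).ord_mul ((map_ne_zero _).mpr hc₂) (pow_ne_zero p hf2), ord_algebraMap, ord_pow,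
      hfν₂ j, mul_zero, add_zero]
  -- both components are nonzero
  have hglue₀ := ctx.glue g j₀ fun P hP => le_of_eq (hnode j₀ P hP).symm
  have h1 : (red g).1 ≠ 0 := by
    intro h1
    have h2 : (red g).2 ≠ 0 := fun h2 => hred (Prod.ext h1 h2)
    have hmax := gluedAt_inMax_right_of_left_eq_zero hglue₀ h1
    rcases hmax with h0 | hpos
    · exact h2 h0
    · rw [hunit₂ h2 j₀] at hpos
      exact lt_irrefl _ hpos
  have h2 : (red g).2 ≠ 0 := by
    intro h2
    have hmax := gluedAt_inMax_left_of_right_eq_zero hglue₀ h2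
    rcases hmax with h0 | hpos
    · exact h1 h0
    · rw [hunit₁ h1 j₀] at hpos
      exact lt_irrefl _ hpos
  obtain ⟨c₁, hc₁, e₁⟩ := hcomp₁ h1
  obtain ⟨c₂, hc₂, e₂⟩ := hcomp₂ h2
  -- the `p`-th root
  obtain ⟨μ, hμ⟩ := IsAlgClosed.exists_pow_nat_eq (c₁ * c₂⁻¹) hp.pos
  have hμ0 : μ ≠ 0 := by
    rintro rfl
    rw [zero_pow hp.ne_zero] at hμ
    exact mul_ne_zero hc₁ (inv_ne_zero hc₂) hμ.symm
  have hμ' : algebraMap k Ft₂ μ ≠ 0 := (map_ne_zero _).mpr hμ0
  refine ⟨D, hD, hoff, (f.1, algebraMap k Ft₂ μ⁻¹ * f.2), hf1,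
    mul_ne_zero ((map_ne_zero _).mpr (inv_ne_zero hμ0)) hf2, ⟨hdiv1, fun Q => ?_⟩, fun j => ?_⟩
  · rw [hdiv2 Q]
    show Q.ord f.2 = Q.ord (algebraMap k Ft₂ μ⁻¹ * f.2)
    rw [Q.ord_mul ((map_ne_zero _).mpr (inv_ne_zero hμ0)) hf2, ord_algebraMap, zero_add]
  · -- the values at the node `j`
    obtain ⟨b₁, hb₁0, hb₁⟩ := exists_valAt_ne_zero H₁ hf1 (hfν₁ j)
    obtain ⟨b₂, hb₂0, hb₂⟩ := exists_valAt_ne_zero H₂ hf2 (hfν₂ j)
    obtain ⟨cj, hcj, hv₁, hv₂⟩ := ctx.glue_unit g j (hnode j) h1 h2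
    have hv₁' : ValAt (N.ν₁ j) (red g).1 (c₁ * b₁ ^ p) := by
      rw [e₁]
      exact ValAt.mul (valAt_const c₁) (valAt_pow hb₁ p)
    have hv₂' : ValAt (N.ν₂ j) (red g).2 (c₂ * b₂ ^ p) := by
      rw [e₂]
      exact ValAt.mul (valAt_const c₂) (valAt_pow hb₂ p)
    have hE : c₁ * b₁ ^ p = c₂ * b₂ ^ p := by
      rw [← ValAt.unique hv₁ hv₁', ← ValAt.unique hv₂ hv₂']
    -- `(μ b₁) ^ p = b₂ ^ p`
    have hpow : (μ * b₁) ^ p = b₂ ^ p := by
      rw [mul_pow, hμ, mul_assoc, mul_comm c₂⁻¹, ← mul_assoc, hE, mul_assoc, mul_comm (b₂ ^ p),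
        ← mul_assoc, mul_inv_cancel₀ hc₂, one_mul]
    have hfrob : μ * b₁ = b₂ := by
      have : ExpChar k p := ExpChar.prime hp
      apply frobenius_inj k p
      rw [frobenius_def, frobenius_def, hpow]
    refine ⟨b₁, hb₁0, hb₁, ?_⟩
    show ValAt (N.ν₂ j) (algebraMap k Ft₂ μ⁻¹ * f.2) b₁
    have hb : b₁ = μ⁻¹ * b₂ := by
      rw [← hfrob, ← mul_assoc, inv_mul_cancel₀ hμ0, one_mul]
    rw [hb]
    exact ValAt.mul (valAt_const μ⁻¹) hb₂

end Nodal

/-! ### §4  The instance: `RedNeIface4.Bridge` -/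

section Inst

open ModularCurve Fermat.Agent.RED.BASE Fermat.Agent.RED.BASE.Hauptmodul12 Fermat.Agent.ES.RED
  Fermat.Agent.ES.RED.Contract8 Fermat.Agent.ES.V19.InstNames3
  Fermat.Agent.ES.W33.GeoNames23 Fermat.Agent.ES.W33.GeoW23

attribute [local instance 5000] HahnSeries.powerSeriesAlgebra SubalgebraClass.toAlgebra

local notation "Qb" => AlgebraicClosure ℚ

/-- `LHyp` for the components of the nodal fibre (the special fibre of the GOOD level `M'`), at the
Hauptmodul base `(4, 8)` of Programme W. -/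
theorem lHyp_FtW (M' : ℕ) [NeZero M'] (p : ℕ) [Fact p.Prime] (hpM : ¬ p ∣ M') (h4 : 4 ∣ M')
    (A : ValuationSubring Qb) (hA : A.LiesOverPrime p) : LHyp (kW A) (FtW M' A) := by
  have : NeZero 4 := ⟨by norm_num⟩
  have hr := hrV 4 8 M' p hpM baseHyp_four h4 A hA
  exact Fermat.Agent.ES.V19.LHypFt13.lHyp_Ft 4 8 M' p hpM (tMem_of_dvd baseHyp_four h4)
    (tGenBase' baseHyp_four) A hA hr

/-- **BRIDGE at the nodal instance.** -/
theorem bridge_of_hyp {p M' : ℕ} {A : ValuationSubring Qb} (hp : p.Prime)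
    (hA : A.LiesOverPrime p) {I : NodalInst p M' A} (hI : NodalInstHyp I)
    (HL : LHyp (kW A) (FtW M' A)) : Bridge I := by
  have : CharP (kW A) p := Fermat.Agent.ES.KRON.KronInst10.charP_residueField A hp hA
  have : IsAlgClosed (kW A) := Fermat.Agent.ES.KRON.KronInst10.isAlgClosed_residueField A
  intro x D hx hD hoff hcp
  exact (mem_j1N_iff I.nodes I.r).mpr (inJ1N_of_compPrin hI.ctx HL HL p hp hx hD hoff hcp)

/-- **BRIDGE at every instance of Programme W's `GeoInput`.** -/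
theorem bridge (M' : ℕ) [NeZero M'] (p : ℕ) [Fact p.Prime] (hpM : ¬ p ∣ M') (h4 : 4 ∣ M')
    (A : ValuationSubring Qb) (hA : A.LiesOverPrime p) {I : NodalInst p M' A}
    (H : InstInput I) : Bridge I :=
  bridge_of_hyp Fact.out hA H.hyp (lHyp_FtW M' p hpM h4 A hA)

end Inst

end Fermat.Agent.ES.X44.BridgeN4
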