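/-
Programme X (S44), chapter (R), file `FrobQuadE19` (helper19): **the Eichler–Shimura relation on `E[p]`
as an identity of endomorphisms.**

`E / ℚ` elliptic, `W` an integral model, `p` an odd prime, `V := E[p](ℚ̄)` (the literal of
`GaloisRepIsIrreducible`), `rhoE := galoisRepModuleEnd ℚ E p : GQ →* End (ZMod p) V`.
For a Frobenius element `φ` at a place over a prime `ℓ ≠ p` of good reduction of `W`:
`rhoE φ * rhoE φ - a_ℓ(W) • rhoE φ + ℓ • 1 = 0` (`frob_quad`).
Inputs: `Q58/RelQbar18.relQbar` (the relation on the generic fibre of the model) and the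
Galois-equivariant transport `S05/TransportQ.pointEquivBC`.
Also: `finrank_Ep` (`DivPoly/CardEq29`), `finite_Ep`, `rhoE_finiteLevel` (`J7/FreyLevel17`).
-/
import Mathlib
import Fermat.Prelude.Def_FLTPrelim_Modularity
import Fermat.Prelude.Def_FLTPrelim_GaloisRep
import Fermat.Prelude.Def_EllipticCurve_FrobeniusTrace
import Fermat.Agent.ES.Q58.RelQbar18
import Fermat.Agent.S05.TransportQ
import Fermat.Agent.DivPoly.CardEq29
import Fermat.Agent.DivPoly.CountFinal
import Fermat.Agent.ES.J7.FreyLevel17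

set_option autoImplicit false
set_option linter.style.haveILetI false

open WeierstrassCurve WeierstrassCurve.Affine WeierstrassCurve.Affine.Point Module

noncomputable section

namespace Fermat.Agent.ES.X44.FrobQuadE19

local notation "Qb" => AlgebraicClosure ℚ
local notation "GQ" => (AlgebraicClosure ℚ ≃ₐ[ℚ] AlgebraicClosure ℚ)

variable (E : WeierstrassCurve ℚ) (p : ℕ)

/-- `E[p](ℚ̄)`, the literal of `GaloisRepIsIrreducible`. -/
abbrev Ep : Type := ↥(Submodule.torsionBy ℤ ((E.toAffine)⁄Qb).Point p)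

/-- the mod `p` representation. -/
def rhoE : GQ →* End (ZMod p) (Ep E p) :=
  galoisRepModuleEnd (S := ℚ) (K := Qb) E.toAffine p

theorem rhoE_apply (σ : GQ) (x : Ep E p) : rhoE E p σ x = σ • x := rfl

theorem coe_rhoE_apply (σ : GQ) (x : Ep E p) :
    ((rhoE E p σ x : Ep E p) : ((E.toAffine)⁄Qb).Point) = σ • (x : ((E.toAffine)⁄Qb).Point) := rfl

variable {E p}

theorem finite_Ep [E.IsElliptic] (hp : p.Prime) (hp2 : p ≠ 2) : Finite (Ep E p) := by
  have hodd : Odd p := hp.odd_of_ne_two hp2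
  have hpF : ((p : ℕ) : Qb) ≠ 0 := Nat.cast_ne_zero.mpr hp.ne_zero
  exact Fermat.Agent.DivPoly.CountFinal.finite_torsionBy (W := ((E.toAffine)⁄Qb)) hodd hpF

theorem finrank_Ep [E.IsElliptic] [Fact p.Prime] (hp2 : p ≠ 2) :
    finrank (ZMod p) (Ep E p) = 2 := by
  have hΔE : (E⁄Qb).Δ ≠ 0 := (E.map (algebraMap ℚ Qb)).isUnit_Δ.ne_zero
  exact Fermat.Agent.DivPoly.CardEq29.finrank_torsionBy_eq_two hΔE hp2

theorem rhoE_finiteLevel [E.IsElliptic] (hp : p.Prime) (hp2 : p ≠ 2) :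
    GaloisFactorsThroughFiniteLevel (rhoE E p) := by
  have := finite_Ep (E := E) hp hp2
  exact Fermat.Agent.ES.J7.FreyLevel17.factorsThroughFiniteLevel_torsion E.toAffine p

/-- **the Eichler–Shimura relation on `E[p]`**, pointwise. -/
theorem frob_rel_point [E.IsElliptic] {W : WeierstrassCurve ℤ} (hW : W.IsIntegralModelOf E)
    (hp : p.Prime) (hp2 : p ≠ 2) {ℓ : ℕ} (hℓ : ℓ.Prime) (hgood : W.IsGoodPrimeFor ℓ) (hℓp : ℓ ≠ p)
    {A : ValuationSubring Qb} (hA : A.LiesOverPrime ℓ) {φ : GQ} (hφ : A.IsFrobeniusAt φ ℓ)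
    (Q : ((E.toAffine)⁄Qb).Point) (hQ : p • Q = 0) :
    φ • φ • Q - W.apOfModel ℓ • (φ • Q) + ℓ • Q = 0 := by
  classical
  obtain ⟨C, hC⟩ := hW
  set WQ : WeierstrassCurve ℚ := W.map (Int.castRingHom ℚ) with hWQ
  have hEq : WQ = C • E := hC.symm
  let e : (WQ⁄Qb).Point ≃+ (E⁄Qb).Point := Fermat.Agent.S05.TransportQ.pointEquivBC Qb hEq
  have he : ∀ (σ : GQ) (P : (WQ⁄Qb).Point), e (σ • P) = σ • e P := fun σ P =>
    Fermat.Agent.S05.TransportQ.pointEquivBC_map (S := ℚ) hEq σ.toAlgHom P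
  set Q' : (WQ⁄Qb).Point := e.symm Q with hQ'
  have hQ'p : p • Q' = 0 := by rw [hQ', ← map_nsmul, hQ, _root_.map_zero]
  have hℓp' : ¬ ℓ ∣ p := fun h => hℓp ((Nat.prime_dvd_prime_iff_eq hℓ hp).mp h)
  have h1 := Fermat.Agent.ES.Q58.RelQbar18.relQbar W ℓ hℓ hgood p (hp.odd_of_ne_two hp2) hℓp' A φ
    hA hφ Q' hQ'p
  have h2 := congrArg e h1
  rw [_root_.map_zero, map_add, map_sub, map_zsmul, map_nsmul, he, he, hQ',
    AddEquiv.apply_symm_apply] at h2
  exact h2

/-- **the Eichler–Shimura relation on `E[p]`** as an identity in `End (ZMod p) E[p]`. -/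
theorem frob_quad [E.IsElliptic] {W : WeierstrassCurve ℤ} (hW : W.IsIntegralModelOf E)
    (hp : p.Prime) (hp2 : p ≠ 2) {ℓ : ℕ} (hℓ : ℓ.Prime) (hgood : W.IsGoodPrimeFor ℓ) (hℓp : ℓ ≠ p)
    {A : ValuationSubring Qb} (hA : A.LiesOverPrime ℓ) {φ : GQ} (hφ : A.IsFrobeniusAt φ ℓ) :
    rhoE E p φ * rhoE E p φ - ((W.apOfModel ℓ : ℤ) : ZMod p) • rhoE E p φ +
      ((ℓ : ℕ) : ZMod p) • (1 : End (ZMod p) (Ep E p)) = 0 := by
  apply LinearMap.ext
  intro x
  apply Subtype.ext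
  have hx : p • (x : ((E.toAffine)⁄Qb).Point) = 0 := by
    have := x.2
    rw [Submodule.mem_torsionBy_iff, natCast_zsmul] at this
    exact this
  have h1 := frob_rel_point hW hp hp2 hℓ hgood hℓp hA hφ (x : ((E.toAffine)⁄Qb).Point) hx
  rw [LinearMap.add_apply, LinearMap.sub_apply, Module.End.mul_apply, LinearMap.smul_apply,
    LinearMap.smul_apply, Module.End.one_apply, LinearMap.zero_apply, Int.cast_smul_eq_zsmul,
    Nat.cast_smul_eq_nsmul]
  rw [Submodule.coe_add, Submodule.coe_sub, Submodule.coe_smul_of_tower,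
    Submodule.coe_smul_of_tower, Submodule.coe_zero]
  exact h1

end Fermat.Agent.ES.X44.FrobQuadE19
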