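/-
Programme X (S44), chapter (R), file `QuadScalar19` (helper19): **abstract rank-two algebra for the
characteristic polynomial of a Frobenius element on `E[p]`** (no Weil pairing on main).

`V` of dimension two over a field `k`, `A : End k V`.
* `end_sq` : Cayley–Hamilton, `A * A = tr A • A - det A • 1`;
* `trace_det_of_quad_of_not_scalar` : a NON-scalar `A` with `A * A - a • A + d • 1 = 0` has
  `tr A = a` and `det A = d`;
* `trace_of_quad_of_det` : if moreover `det A = d ≠ 0` is known, then `tr A = a` for
  EVERY `A` satisfying the quadratic relation (scalar or not);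
* `eq_of_eqOn_compl` : two monoid homomorphisms out of a group which agree off a PROPER subgroup
  agree everywhere.
-/
import Mathlib
import Fermat.Agent.ES.ALG31.Lucas15

set_option autoImplicit false

open Module

namespace Fermat.Agent.ES.X44.QuadScalar19

variable {k : Type*} [Field k] {V : Type*} [AddCommGroup V] [Module k V]

/-- Cayley–Hamilton in dimension two. -/
theorem end_sq (h2 : finrank k V = 2) (A : End k V) :
    A * A = LinearMap.trace k V A • A - LinearMap.det A • (1 : End k V) := by
  have hfd : FiniteDimensional k V := FiniteDimensional.of_finrank_pos (by omega)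
  set b : Basis (Fin 2) k V := finBasisOfFinrankEq k V h2 with hb
  apply (LinearMap.toMatrixAlgEquiv b).injective
  have h1 := Fermat.Agent.ES.ALG31.Lucas15.matrix_sq (LinearMap.toMatrixAlgEquiv b A)
  rw [map_mul, map_sub, map_smul, map_smul, map_one, ← pow_two, h1]
  congr 2
  · exact (LinearMap.trace_eq_matrix_trace k b A).symm
  · exact LinearMap.det_toMatrix b A

/-- the scalar endomorphisms of a nonzero space: `c • 1 = 0` forces `c = 0`. -/
theorem smul_one_eq_zero (h2 : finrank k V = 2) {c : k} (h : c • (1 : End k V) = 0) : c = 0 := by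
  have hnt : Nontrivial V := Module.nontrivial_of_finrank_pos (R := k) (by omega)
  obtain ⟨v, hv⟩ := exists_ne (0 : V)
  have h1 := LinearMap.congr_fun h v
  rw [LinearMap.smul_apply, Module.End.one_apply, LinearMap.zero_apply] at h1
  exact (smul_eq_zero.mp h1).resolve_right hv

/-- a non-scalar root of a monic quadratic in dimension two has that quadratic as characteristic
polynomial. -/
theorem trace_det_of_quad_of_not_scalar (h2 : finrank k V = 2) {A : End k V} {a d : k}
    (hA : A * A - a • A + d • (1 : End k V) = 0) (hns : ∀ c : k, A ≠ c • (1 : End k V)) :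
    LinearMap.trace k V A = a ∧ LinearMap.det A = d := by
  have h1 := end_sq h2 A
  -- `(tr A - a) • A = (det A - d) • 1`
  have h3 : (LinearMap.trace k V A - a) • A = (LinearMap.det A - d) • (1 : End k V) := by
    rw [h1] at hA
    rw [sub_smul, sub_smul]
    have : LinearMap.trace k V A • A - LinearMap.det A • (1 : End k V) - a • A +
        d • (1 : End k V) = 0 := hA
    rw [sub_eq_sub_iff_add_eq_add]
    rw [← sub_eq_zero]
    rw [← this]
    abel
  have htr : LinearMap.trace k V A = a := by
    by_contra hne
    have hne' : LinearMap.trace k V A - a ≠ 0 := sub_ne_zero.mpr hne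
    apply hns ((LinearMap.trace k V A - a)⁻¹ * (LinearMap.det A - d))
    rw [mul_smul, ← h3, smul_smul, inv_mul_cancel₀ hne', one_smul]
  refine ⟨htr, ?_⟩
  rw [htr, sub_self, zero_smul] at h3
  exact sub_eq_zero.mp (smul_one_eq_zero h2 h3.symm)

/-- trace and determinant of a scalar endomorphism in dimension two. -/
theorem trace_det_smul_one (h2 : finrank k V = 2) (c : k) :
    LinearMap.trace k V (c • (1 : End k V)) = 2 * c ∧
      LinearMap.det (c • (1 : End k V)) = c ^ 2 := by
  have hfd : FiniteDimensional k V := FiniteDimensional.of_finrank_pos (by omega)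
  constructor
  · rw [map_smul, LinearMap.trace_one, h2, smul_eq_mul, mul_comm]
    norm_num
  · rw [LinearMap.det_smul, h2, map_one, mul_one]

/-- if the determinant is known to be the constant term, the linear term is the trace. -/
theorem trace_of_quad_of_det (h2 : finrank k V = 2) {A : End k V} {a d : k}
    (hA : A * A - a • A + d • (1 : End k V) = 0) (hd : d ≠ 0) (hdet : LinearMap.det A = d) :
    LinearMap.trace k V A = a := by
  by_cases hs : ∃ c : k, A = c • (1 : End k V)
  · obtain ⟨c, rfl⟩ := hs
    obtain ⟨htr, hdt⟩ := trace_det_smul_one (V := V) h2 c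
    rw [hdt] at hdet
    rw [htr]
    have h1 : (c * c - a * c + d) • (1 : End k V) = 0 := by
      rw [← hA, add_smul, sub_smul, smul_mul_smul_comm, mul_one, smul_smul]
    have h3 := smul_one_eq_zero h2 h1
    have hc : c ≠ 0 := by
      rintro rfl
      apply hd
      rw [← hdet]
      ring
    have : c * (2 * c - a) = 0 := by
      have : c * c - a * c + c ^ 2 = 0 := by rw [hdet]; exact h3
      linear_combination this
    rcases mul_eq_zero.mp this with h | h
    · exact absurd h hc
    · exact sub_eq_zero.mp h
  · push Not at hs
    exact (trace_det_of_quad_of_not_scalar h2 hA hs).1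

/-- two homomorphisms out of a group agreeing off a proper subgroup agree. -/
theorem eq_of_eqOn_compl {G H : Type*} [Group G] [Group H] (Z : Subgroup G) (hZ : Z ≠ ⊤)
    (f₁ f₂ : G →* H) (h : ∀ g : G, g ∉ Z → f₁ g = f₂ g) : f₁ = f₂ := by
  obtain ⟨g₀, hg₀⟩ : ∃ g₀ : G, g₀ ∉ Z := by
    by_contra hcon
    push Not at hcon
    exact hZ (eq_top_iff.mpr fun g _ => hcon g)
  ext g
  by_cases hg : g ∈ Z
  · have h1 : g * g₀ ∉ Z := fun hmem => hg₀ (by
      have := Z.mul_mem (Z.inv_mem hg) hmem
      rwa [inv_mul_cancel_left] at this)
    have h2 := h (g * g₀) h1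
    rw [map_mul, map_mul, h g₀ hg₀] at h2
    exact mul_right_cancel h2
  · exact h g hg

end Fermat.Agent.ES.X44.QuadScalar19
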