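/-
Programme X (S44), chapter (R), file `DetChiE19` (helper19): **`det ρ_{E,p} = χ_p` WITHOUT the Weil pairing,
and the characteristic polynomial of EVERY Frobenius element on `E[p]`.**

`E / ℚ` elliptic with integral model `W`, `p` an odd prime, `E[p]` irreducible, `rhoE = FrobQuadE19.rhoE E p`.
* a Frobenius element `φ` at a good prime `ℓ ≠ p` satisfies `X² - a_ℓ X + ℓ` on `E[p]` (`FrobQuadE19.frob_quad`);
  if `rhoE φ` is NOT scalar this is its characteristic polynomial (`QuadScalar19`), so `det rhoE φ = ℓ = χ_p(φ)`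
  (`R48/ModCyclo13.chiMod_of_isFrobeniusAt`);
* every `g` is a power of such a `φ` on the finite level of `rhoE` and `χ_p` (`GAL/ChebQbar23`), so
  `det ∘ rhoE` and `χ_p` agree at every `g` which is not scalar on `E[p]`;
* the scalar elements form a PROPER subgroup (`E[p]` is irreducible of dimension two), and two characters
  agreeing off a proper subgroup agree: **`det_eq_chi`**;
* hence for EVERY Frobenius element at a good `ℓ ≠ p`: `det = ℓ`, `tr = a_ℓ` (**`trace_det_frob`**), and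
  `det rhoE c = -1` for the complex conjugation (**`det_complexConjugation`**).
-/
import Mathlib
import Fermat.Agent.ES.X44.QuadScalar19
import Fermat.Agent.ES.X44.FrobQuadE19
import Fermat.Agent.ES.R48.ModCyclo13
import Fermat.Agent.ES.GAL.ChebQbar23
import Fermat.Agent.ES.V32.QuadAll18

set_option autoImplicit false
set_option linter.style.haveILetI false

open WeierstrassCurve WeierstrassCurve.Affine WeierstrassCurve.Affine.Point Module

noncomputable section

namespace Fermat.Agent.ES.X44.DetChiE19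

open Fermat.Agent.ES.X44.QuadScalar19 Fermat.Agent.ES.X44.FrobQuadE19
open Fermat.Agent.ES.R48.ModCyclo13 Fermat.Agent.ES.V32.QuadAll18

local notation "Qb" => AlgebraicClosure ℚ
local notation "GQ" => (AlgebraicClosure ℚ ≃ₐ[ℚ] AlgebraicClosure ℚ)

variable (E : WeierstrassCurve ℚ) (p : ℕ) [hp : Fact p.Prime]

/-- the elements of `G_ℚ` acting on `E[p]` through a scalar. -/
def scalarSubgroup : Subgroup GQ where
  carrier := {g | ∃ c : ZMod p, rhoE E p g = c • (1 : End (ZMod p) (Ep E p))}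
  mul_mem' := by
    rintro g h ⟨c, hc⟩ ⟨d, hd⟩
    exact ⟨c * d, by rw [map_mul, hc, hd, smul_mul_smul_comm, mul_one]⟩
  one_mem' := ⟨1, by rw [map_one, one_smul]⟩
  inv_mem' := by
    rintro g ⟨c, hc⟩
    have h1 : rhoE E p g * rhoE E p g⁻¹ = 1 := by rw [← map_mul, mul_inv_cancel, map_one]
    rw [hc, smul_mul_assoc, one_mul] at h1
    by_cases hc0 : c = 0
    · refine ⟨0, ?_⟩
      rw [hc0, zero_smul] at h1
      rw [zero_smul, ← mul_one (rhoE E p g⁻¹), ← h1, mul_zero]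
    · refine ⟨c⁻¹, ?_⟩
      rw [← h1, smul_smul, inv_mul_cancel₀ hc0, one_smul]

theorem mem_scalarSubgroup {g : GQ} :
    g ∈ scalarSubgroup E p ↔ ∃ c : ZMod p, rhoE E p g = c • (1 : End (ZMod p) (Ep E p)) := Iff.rfl

variable {E p}

/-- the scalar elements form a proper subgroup. -/
theorem scalarSubgroup_ne_top [E.IsElliptic] (hp2 : p ≠ 2)
    (hirr : GaloisRepIsIrreducible (K := Qb) ℚ E.toAffine p) : scalarSubgroup E p ≠ ⊤ := by
  intro htop
  have h2 : finrank (ZMod p) (Ep E p) = 2 := finrank_Ep hp2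
  have hfd : FiniteDimensional (ZMod p) (Ep E p) := FiniteDimensional.of_finrank_pos (by omega)
  obtain ⟨hnt, hN⟩ := hirr
  obtain ⟨v, hv⟩ := exists_ne (0 : Ep E p)
  have hstab : IsGaloisStable ℚ (Submodule.span (ZMod p) {v}) := by
    intro σ x hx
    have hσ : σ ∈ scalarSubgroup E p := by rw [htop]; exact Subgroup.mem_top σ
    obtain ⟨c, hc⟩ := hσ
    have h1 : σ • x = c • x := by
      rw [← rhoE_apply, hc, LinearMap.smul_apply, Module.End.one_apply]
    rw [h1]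
    exact Submodule.smul_mem _ c hx
  rcases hN _ hstab with h | h
  · exact hv ((Submodule.span_singleton_eq_bot).mp h)
  · have h3 : finrank (ZMod p) (Submodule.span (ZMod p) {v}) = 2 := by rw [h, finrank_top, h2]
    have h4 := finrank_span_singleton (K := ZMod p) hv
    omega

/-- the determinant character of `rhoE`. -/
def detE (E : WeierstrassCurve ℚ) (p : ℕ) [Fact p.Prime] : GQ →* (ZMod p)ˣ := detChar (rhoE E p)

theorem detE_apply (g : GQ) : ((detE E p g : (ZMod p)ˣ) : ZMod p) = LinearMap.det (rhoE E p g) := rfl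

/-- the discriminant of an integral model of an elliptic curve is nonzero. -/
theorem model_Δ_ne_zero [E.IsElliptic] {W : WeierstrassCurve ℤ} (hW : W.IsIntegralModelOf E) :
    W.Δ ≠ 0 := by
  obtain ⟨C, hC⟩ := hW
  have hWQell : (W.map (Int.castRingHom ℚ)).IsElliptic := by rw [← hC]; infer_instance
  intro h0
  have h1 : (W.map (Int.castRingHom ℚ)).Δ = 0 := by rw [WeierstrassCurve.map_Δ, h0, _root_.map_zero]
  exact (W.map (Int.castRingHom ℚ)).isUnit_Δ.ne_zero h1

/-- **`det ρ_{E,p} = χ_p`.** -/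
theorem detE_eq_chiMod [E.IsElliptic] {W : WeierstrassCurve ℤ} (hW : W.IsIntegralModelOf E)
    (hp2 : p ≠ 2) (hirr : GaloisRepIsIrreducible (K := Qb) ℚ E.toAffine p) :
    haveI : NeZero p := ⟨hp.out.ne_zero⟩
    detE E p = chiMod p := by
  haveI : NeZero p := ⟨hp.out.ne_zero⟩
  have h2 : finrank (ZMod p) (Ep E p) = 2 := finrank_Ep hp2
  have hΔW : W.Δ ≠ 0 := model_Δ_ne_zero hW
  refine eq_of_eqOn_compl (scalarSubgroup E p) (scalarSubgroup_ne_top hp2 hirr) _ _ fun g hg => ?_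
  obtain ⟨L₁, hL₁, hρL⟩ := rhoE_finiteLevel (E := E) hp.out hp2
  obtain ⟨L₂, hL₂, hχL⟩ := chiMod_finiteLevel p
  have := hL₁
  have := hL₂
  set T' : Finset ℕ := {p} ∪ W.Δ.natAbs.primeFactors with hT'
  obtain ⟨ℓ, A, φ, j, hℓ, hℓT, hAℓ, hφ, hj⟩ :=
    Fermat.Agent.ES.GAL.ChebQbar23.exists_frobenius_pow_eq_on (L₁ ⊔ L₂) g T'
  have hℓp : ℓ ≠ p := fun h => hℓT (by simp [hT', h])
  have hgood : W.IsGoodPrimeFor ℓ := by
    intro hdvd
    apply hℓT
    have : ℓ ∈ W.Δ.natAbs.primeFactors := by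
      rw [Nat.mem_primeFactors]
      exact ⟨hℓ, Int.natCast_dvd.mp hdvd, Int.natAbs_ne_zero.mpr hΔW⟩
    simp [hT', this]
  have hfix : ∀ x ∈ L₁ ⊔ L₂, (g⁻¹ * φ ^ j) x = x := by
    intro x hx
    rw [AlgEquiv.mul_apply, hj x hx]
    exact g.symm_apply_apply x
  -- `rhoE g = rhoE φ ^ j`, `χ g = χ φ ^ j`
  have e1 : rhoE E p g = rhoE E p φ ^ j := by
    have h1 : rhoE E p (g⁻¹ * φ ^ j) = 1 := hρL _ fun x hx => hfix x (le_sup_left (a := L₁) hx)
    have h3 : rhoE E p g * rhoE E p (g⁻¹ * φ ^ j) = rhoE E p g := by rw [h1, mul_one]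
    rw [← map_mul, mul_inv_cancel_left, map_pow] at h3
    exact h3.symm
  have e2 : chiMod p g = chiMod p φ ^ j := by
    have h1 : chiMod p (g⁻¹ * φ ^ j) = 1 := hχL _ fun x hx => hfix x (le_sup_right (a := L₁) hx)
    have h3 : chiMod p g * chiMod p (g⁻¹ * φ ^ j) = chiMod p g := by rw [h1, mul_one]
    rw [← map_mul, mul_inv_cancel_left, map_pow] at h3
    exact h3.symm
  -- `rhoE φ` is not scalar
  have hns : ∀ c : ZMod p, rhoE E p φ ≠ c • (1 : End (ZMod p) (Ep E p)) := by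
    intro c hc
    apply hg
    refine ⟨c ^ j, ?_⟩
    rw [e1, hc, smul_pow, one_pow]
  have hquad := frob_quad hW hp.out hp2 hℓ hgood hℓp hAℓ hφ
  obtain ⟨-, hdet⟩ := trace_det_of_quad_of_not_scalar h2 hquad hns
  have hℓp' : ¬ ℓ ∣ p := fun h => hℓp ((Nat.prime_dvd_prime_iff_eq hℓ hp.out).mp h)
  have hχ := chiMod_of_isFrobeniusAt (n := p) hℓ hℓp' A hAℓ hφ
  apply Units.ext
  rw [detE_apply, e1, e2, map_pow, hdet, Units.val_pow_eq_pow_val, hχ]

/-- `det ρ_{E,p}(g) = χ_p(g)`, in `ZMod p`. -/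
theorem det_rhoE_eq [E.IsElliptic] {W : WeierstrassCurve ℤ} (hW : W.IsIntegralModelOf E)
    (hp2 : p ≠ 2) (hirr : GaloisRepIsIrreducible (K := Qb) ℚ E.toAffine p) (g : GQ) :
    haveI : NeZero p := ⟨hp.out.ne_zero⟩
    LinearMap.det (rhoE E p g) = ((chiMod p g : (ZMod p)ˣ) : ZMod p) := by
  haveI : NeZero p := ⟨hp.out.ne_zero⟩
  rw [← detE_apply, detE_eq_chiMod hW hp2 hirr]

/-- **the characteristic polynomial of every Frobenius element at a good prime `ℓ ≠ p` on `E[p]`.** -/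
theorem trace_det_frob [E.IsElliptic] {W : WeierstrassCurve ℤ} (hW : W.IsIntegralModelOf E)
    (hp2 : p ≠ 2) (hirr : GaloisRepIsIrreducible (K := Qb) ℚ E.toAffine p)
    {ℓ : ℕ} (hℓ : ℓ.Prime) (hgood : W.IsGoodPrimeFor ℓ) (hℓp : ℓ ≠ p)
    {A : ValuationSubring Qb} (hA : A.LiesOverPrime ℓ) {φ : GQ} (hφ : A.IsFrobeniusAt φ ℓ) :
    LinearMap.trace (ZMod p) (Ep E p) (rhoE E p φ) = ((W.apOfModel ℓ : ℤ) : ZMod p) ∧
      LinearMap.det (rhoE E p φ) = ((ℓ : ℕ) : ZMod p) := by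
  haveI : NeZero p := ⟨hp.out.ne_zero⟩
  have h2 : finrank (ZMod p) (Ep E p) = 2 := finrank_Ep hp2
  have hℓp' : ¬ ℓ ∣ p := fun h => hℓp ((Nat.prime_dvd_prime_iff_eq hℓ hp.out).mp h)
  have hdet : LinearMap.det (rhoE E p φ) = ((ℓ : ℕ) : ZMod p) := by
    rw [det_rhoE_eq hW hp2 hirr φ]
    exact chiMod_of_isFrobeniusAt (n := p) hℓ hℓp' A hA hφ
  have hℓ0 : ((ℓ : ℕ) : ZMod p) ≠ 0 := by
    intro h0
    exact hℓp' ((Nat.prime_dvd_prime_iff_eq hp.out hℓ).mp ((ZMod.natCast_eq_zero_iff ℓ p).mp h0) ▸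
      dvd_refl _)
  exact ⟨trace_of_quad_of_det h2 (frob_quad hW hp.out hp2 hℓ hgood hℓp hA hφ) hℓ0 hdet, hdet⟩

/-- **`det ρ_{E,p}(c) = -1`** for the complex conjugation. -/
theorem det_complexConjugation [E.IsElliptic] {W : WeierstrassCurve ℤ}
    (hW : W.IsIntegralModelOf E) (hp2 : p ≠ 2)
    (hirr : GaloisRepIsIrreducible (K := Qb) ℚ E.toAffine p) :
    LinearMap.det (rhoE E p complexConjugation) = -1 := by
  haveI : NeZero p := ⟨hp.out.ne_zero⟩
  rw [det_rhoE_eq hW hp2 hirr, chiMod_complexConjugation]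

end Fermat.Agent.ES.X44.DetChiE19
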