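/-
Programme X (S44), chapter (R), file `BurnsideE19` (helper19): **`E[p]` irreducible ⇒ the image of `G_ℚ`
spans `End (ZMod p) E[p]`** (absolute irreducibility, by hand).

The complex conjugation `c` acts on `E[p]` as an involution of determinant `χ_p(c) = -1`
(`DetChiE19.det_complexConjugation`), hence has the two eigenvalues `1, -1 ∈ 𝔽_p` with eigenvectors `w₊, w₋`.
An endomorphism `x` commuting with `G_ℚ` preserves the line `ker (c - 1) = ⟨w₊⟩`, so `x w₊ = λ w₊`;
`ker (x - λ)` is `G_ℚ`-stable and nonzero, hence everything: the commutant is `𝔽_p`.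
`K/Burnside26.span_range_eq_top_of_schur` finishes.
-/
import Mathlib
import Fermat.Agent.ES.X44.DetChiE19
import Fermat.Agent.ES.K.Burnside26
import Fermat.Agent.ES.EC.FixedVec20

set_option autoImplicit false
set_option linter.style.haveILetI false

open WeierstrassCurve WeierstrassCurve.Affine WeierstrassCurve.Affine.Point Module

noncomputable section

namespace Fermat.Agent.ES.X44.BurnsideE19

open Fermat.Agent.ES.X44.QuadScalar19 Fermat.Agent.ES.X44.FrobQuadE19 Fermat.Agent.ES.X44.DetChiE19

local notation "Qb" => AlgebraicClosure ℚ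
local notation "GQ" => (AlgebraicClosure ℚ ≃ₐ[ℚ] AlgebraicClosure ℚ)

section Abstract

variable {k : Type*} [Field k] {V : Type*} [AddCommGroup V] [Module k V]

/-- an involution of determinant `-1` on a plane (`-1 ≠ 1`) has eigenvectors for `1` and for `-1`. -/
theorem exists_eigenvectors (h2 : finrank k V = 2) (hneg : (-1 : k) ≠ 1) {C : End k V}
    (hCC : C * C = 1) (hdet : LinearMap.det C = -1) :
    (∃ w : V, w ≠ 0 ∧ C w = w) ∧ ∃ w : V, w ≠ 0 ∧ C w = -w := by
  have hCCv : ∀ v : V, C (C v) = v := fun v => by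
    rw [← Module.End.mul_apply, hCC, Module.End.one_apply]
  constructor
  · -- `C ≠ -1`
    have hne : ∃ u : V, C u ≠ -u := by
      by_contra hcon
      push Not at hcon
      have hC : C = (-1 : k) • (1 : End k V) := by
        ext u
        rw [hcon u, LinearMap.smul_apply, Module.End.one_apply, neg_one_smul]
      rw [hC, (trace_det_smul_one (V := V) h2 (-1)).2] at hdet
      apply hneg
      rw [← hdet]
      ring
    obtain ⟨u, hu⟩ := hne
    refine ⟨C u + u, fun h0 => hu (eq_neg_of_add_eq_zero_left h0), ?_⟩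
    rw [map_add, hCCv, add_comm]
  · -- `C ≠ 1`
    have hne : ∃ u : V, C u ≠ u := by
      by_contra hcon
      push Not at hcon
      have hC : C = 1 := by
        ext u
        rw [hcon u, Module.End.one_apply]
      rw [hC, map_one] at hdet
      exact hneg hdet.symm
    obtain ⟨u, hu⟩ := hne
    refine ⟨C u - u, fun h0 => hu (sub_eq_zero.mp h0), ?_⟩
    rw [map_sub, hCCv, neg_sub]

/-- the `1`-eigenspace of such an involution is the line of `w₊`. -/
theorem fixed_eq_smul (h2 : finrank k V = 2) (hneg : (-1 : k) ≠ 1) {C : End k V}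
    {wp wm : V} (hwp0 : wp ≠ 0) (hwp : C wp = wp) (hwm0 : wm ≠ 0) (hwm : C wm = -wm)
    {y : V} (hy : C y = y) : ∃ c : k, y = c • wp := by
  have htwo : (2 : k) ≠ 0 := by
    intro h0
    apply hneg
    have : (1 : k) + 1 = 0 := by rw [one_add_one_eq_two]; exact h0
    exact neg_eq_of_add_eq_zero_left this
  -- `wm` is not a multiple of `wp`
  have hind : ∀ c : k, wm ≠ c • wp := by
    intro c hc
    have h1 : C wm = wm := by rw [hc, map_smul, hwp]
    rw [hwm] at h1
    have h3 : (2 : k) • wm = 0 := by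
      rw [two_smul]
      nth_rewrite 1 [← h1]
      exact neg_add_cancel wm
    exact hwm0 ((smul_eq_zero.mp h3).resolve_left htwo)
  obtain ⟨b, hb0, hb1⟩ := Fermat.Agent.ES.EC.FixedVec20.exists_basis_pair h2 hwp0 hind
  have hsum : y = b.repr y 0 • wp + b.repr y 1 • wm := by
    conv_lhs => rw [← b.sum_repr y]
    rw [Fin.sum_univ_two, hb0, hb1]
  refine ⟨b.repr y 0, ?_⟩
  have h1 : C y = b.repr y 0 • wp - b.repr y 1 • wm := by
    conv_lhs => rw [hsum]
    rw [map_add, map_smul, map_smul, hwp, hwm, smul_neg, sub_eq_add_neg]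
  rw [hy] at h1
  have h3 : (2 * b.repr y 1) • wm = 0 := by
    have : b.repr y 0 • wp + b.repr y 1 • wm = b.repr y 0 • wp - b.repr y 1 • wm := by
      rw [← hsum]; exact h1
    rw [mul_smul, two_smul]
    have h4 : b.repr y 1 • wm = -(b.repr y 1 • wm) := by
      have := add_left_cancel (this.trans (sub_eq_add_neg _ _))
      exact this
    nth_rewrite 1 [h4]
    exact neg_add_cancel _
  have h5 : b.repr y 1 = 0 := by
    rcases smul_eq_zero.mp h3 with h | h
    · exact (mul_eq_zero.mp h).resolve_left htwo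
    · exact absurd h hwm0
  calc y = b.repr y 0 • wp + b.repr y 1 • wm := hsum
    _ = b.repr y 0 • wp := by rw [h5, zero_smul, add_zero]

/-- **Schur by hand**: an irreducible action on a plane containing an involution of determinant `-1`
has scalar commutant. -/
theorem commutant_scalar {G : Type*} [Group G] (h2 : finrank k V = 2) (hneg : (-1 : k) ≠ 1)
    (ρ : G →* End k V)
    (hirr : ∀ W : Submodule k V, (∀ g : G, ∀ x ∈ W, ρ g x ∈ W) → W = ⊥ ∨ W = ⊤)
    {c : G} (hcc : c * c = 1) (hdet : LinearMap.det (ρ c) = -1)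
    (x : End k V) (hx : ∀ g : G, x * ρ g = ρ g * x) : ∃ a : k, x = a • (1 : End k V) := by
  have hCC : ρ c * ρ c = 1 := by rw [← map_mul, hcc, map_one]
  obtain ⟨⟨wp, hwp0, hwp⟩, ⟨wm, hwm0, hwm⟩⟩ := exists_eigenvectors h2 hneg hCC hdet
  -- `x wp` is fixed by `ρ c`
  have hfix : ρ c (x wp) = x wp := by
    have := LinearMap.congr_fun (hx c) wp
    rw [Module.End.mul_apply, Module.End.mul_apply, hwp] at this
    exact this.symm
  obtain ⟨a, ha⟩ := fixed_eq_smul h2 hneg hwp0 hwp hwm0 hwm hfix
  refine ⟨a, ?_⟩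
  -- `ker (x - a)` is stable and contains `wp`
  set S : Submodule k V := LinearMap.ker (x - a • (1 : End k V)) with hS
  have hstab : ∀ g : G, ∀ v ∈ S, ρ g v ∈ S := by
    intro g v hv
    rw [hS, LinearMap.mem_ker, LinearMap.sub_apply, LinearMap.smul_apply, Module.End.one_apply]
      at hv ⊢
    have h1 := LinearMap.congr_fun (hx g) v
    rw [Module.End.mul_apply, Module.End.mul_apply] at h1
    rw [h1, ← map_smul, ← map_sub, hv, _root_.map_zero]
  have hmem : wp ∈ S := by
    rw [hS, LinearMap.mem_ker, LinearMap.sub_apply, LinearMap.smul_apply, Module.End.one_apply, ha,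
      sub_self]
  rcases hirr S hstab with h | h
  · rw [h, Submodule.mem_bot] at hmem
    exact absurd hmem hwp0
  · rw [hS, LinearMap.ker_eq_top] at h
    exact sub_eq_zero.mp h

end Abstract

variable {E : WeierstrassCurve ℚ} {p : ℕ} [hp : Fact p.Prime]

/-- **Burnside for `E[p]`.** -/
theorem span_rhoE_eq_top [E.IsElliptic] {W : WeierstrassCurve ℤ} (hW : W.IsIntegralModelOf E)
    (hp2 : p ≠ 2) (hirr : GaloisRepIsIrreducible (K := Qb) ℚ E.toAffine p) :
    Submodule.span (ZMod p) (Set.range (rhoE E p)) = ⊤ := by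
  have h2 : finrank (ZMod p) (Ep E p) = 2 := finrank_Ep hp2
  have hfd : FiniteDimensional (ZMod p) (Ep E p) := FiniteDimensional.of_finrank_pos (by omega)
  haveI : Nontrivial (Ep E p) := hirr.1
  haveI : Fact (2 < p) := ⟨lt_of_le_of_ne hp.out.two_le (Ne.symm hp2)⟩
  have hneg : (-1 : ZMod p) ≠ 1 := ZMod.neg_one_ne_one
  have hirr' : ∀ S : Submodule (ZMod p) (Ep E p),
      (∀ g : GQ, ∀ x ∈ S, rhoE E p g x ∈ S) → S = ⊥ ∨ S = ⊤ := fun S hS => hirr.2 S hS
  refine Fermat.Agent.ES.K.Burnside26.span_range_eq_top_of_schur (rhoE E p) hirr' fun x hx => ?_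
  exact commutant_scalar h2 hneg (rhoE E p) hirr' complexConjugation_mul_self
    (det_complexConjugation hW hp2 hirr) x hx

end Fermat.Agent.ES.X44.BurnsideE19
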