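/-
Programme X (S44), chapter (LL′), leaf (NC) (helper17), brick 5d: **the centre of a place on the charts
of two levels `K₀ ≤ K`** (`W33/NodeDict11` vocabulary: `InCh`, `centreAt`, `chiAt`).

* `inCh_bcLe_iff` : `P` lies in the chart of `bcLe t₀` at level `K` iff it lies in the chart of `t₀` at
  level `K₀`;
* `evK_bcLe`, `chiAt_bcLe` : the value of `bcLe β` at `P` (level `K`) is the value of `β` (level `K₀`);
* `mem_centreAt_bcLe_iff` : the centre at level `K₀` is the contraction of the centre at level `K`.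
-/
import Mathlib
import Fermat.Agent.ES.W33.NodeDict11
import Fermat.Agent.ES.X44.BcLeChart17

set_option autoImplicit false
set_option linter.unusedSectionVars false
set_option synthInstance.maxHeartbeats 400000

noncomputable section

namespace Fermat.Agent.ES.X44.CentreBcLe17

open AlgebraicCurve IsLocalRing
open Fermat.Agent.RED.Interface4 Fermat.Agent.RED.DESC Fermat.Agent.RED.PUR.ChartGeneric22
  Fermat.Agent.ES.RED.PlaceValue13
  Fermat.Agent.ES.P36.ConstUnram1 Fermat.Agent.ES.W33.NodeCentre11 Fermat.Agent.ES.W33.NodeDict11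
  Fermat.Agent.ES.X44.BcLeChart17

variable {N : ℕ} [NeZero N] {A : ValuationSubring Qbar} {K₀ K : IntermediateField ℚ Qbar}
  (hle : K₀ ≤ K) {t₀ : FK N K₀} {P : Place Qbar ↥(Fbar N)}

theorem inCh_bcLe_iff : InCh N A K (bcLe N hle t₀) P ↔ InCh N A K₀ t₀ P := by
  unfold InCh
  have h : PlaceExtend27.baseChangeHom N K (bcLe N hle t₀) = PlaceExtend27.baseChangeHom N K₀ t₀ :=
    baseChangeHom_bcLe N hle t₀
  constructor
  · rintro ⟨hs, hv⟩
    refine ⟨h ▸ hs, ?_⟩
    have : (⟨PlaceExtend27.baseChangeHom N K₀ t₀, h ▸ hs⟩ : ↥P.toValuationSubring) =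
        ⟨PlaceExtend27.baseChangeHom N K (bcLe N hle t₀), hs⟩ := Subtype.ext h.symm
    rw [this]
    exact hv
  · rintro ⟨hs, hv⟩
    refine ⟨h.symm ▸ hs, ?_⟩
    have : (⟨PlaceExtend27.baseChangeHom N K (bcLe N hle t₀), h.symm ▸ hs⟩ :
        ↥P.toValuationSubring) = ⟨PlaceExtend27.baseChangeHom N K₀ t₀, hs⟩ := Subtype.ext h
    rw [this]
    exact hv

variable (h₀ : InCh N A K₀ t₀ P) (hK : InCh N A K (bcLe N hle t₀) P)

/-- the image of an element of the chart below, in the chart above. -/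
def up (β : ↥(chart ↥(AK A K₀) t₀)) : ↥(chart ↥(AK A K) (bcLe N hle t₀)) :=
  ⟨bcLe N hle (β : FK N K₀), bcLe_mem_chart A N hle t₀ β β.2⟩

@[simp] theorem coe_up (β : ↥(chart ↥(AK A K₀) t₀)) :
    ((up hle β : ↥(chart ↥(AK A K) (bcLe N hle t₀))) : FK N K) = bcLe N hle (β : FK N K₀) := rfl

theorem evK_bcLe (β : ↥(chart ↥(AK A K₀) t₀)) :
    evK (regAt_chart hK) (up hle β) = evK (regAt_chart h₀) β := by
  apply Subtype.ext
  rw [coe_evK, coe_evK]
  congr 1

theorem chiAt_bcLe (β : ↥(chart ↥(AK A K₀) t₀)) : chiAt hK (up hle β) = chiAt h₀ β := by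
  unfold chiAt
  rw [chiK_apply, chiK_apply, evK_bcLe hle h₀ hK]

/-- **the centre below is the contraction of the centre above.** -/
theorem mem_centreAt_bcLe_iff (β : ↥(chart ↥(AK A K₀) t₀)) :
    up hle β ∈ centreAt hK ↔ β ∈ centreAt h₀ := by
  rw [mem_centreAt_iff, mem_centreAt_iff, chiAt_bcLe hle h₀ hK]

end Fermat.Agent.ES.X44.CentreBcLe17
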