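/-
Programme X (S44), chapter (W2), leaf L1 (helper20): **THE TWO DEGENERACY MAPS AT A GENERAL PAIR OF LEVELS**,
in characteristic `0` over `ℚ̄` and in characteristic `p` over any field `κ`.

Everything is stated for GENERAL levels (`N ∣ N₂` for `α`, `N * ℓ ∣ N₂` for `β`) so that the good level
(`N = M'`) and the nodal level (`N = M' * p`, `N₂ = M' * ℓ * p`) are instances of the same statements
and no cast between `M' * p * ℓ` and `M' * ℓ * p` is ever needed.

* `alphaL h : ↥(Fbar N) →ₐ[ℚ̄] ↥(Fbar N₂)`            : the inclusion (`= LevelPullback12.levelIncl h`);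
* `betaL ℓ h : ↥(Fbar N) →ₐ[ℚ̄] ↥(Fbar N₂)`           : `f(q) ↦ f(q^ℓ)` (`coe = qExpand ℚ̄ ℓ`);
* `alphaC κ h`, `betaC κ ℓ h : F̃_M →ₐ[κ] F̃_{M₂}`      : the same on `modularFunctionFieldFullC κ _`;
* coe lemmas, injectivity, and the comparison with the Prelude's `heckeAlphaBar`, `heckeBetaBar`.
-/
import Mathlib
import Fermat.Prelude.Def_ModularCurve_HeckeOperator
import Fermat.Prelude.Def_ModularCurve_X0ModL
import Fermat.Agent.ES.HECKE.LevelPullback12

set_option autoImplicit false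
set_option linter.unusedSectionVars false
set_option linter.style.haveILetI false

open HahnSeries ModularCurve AlgebraicCurve IntermediateField

noncomputable section

namespace Fermat.Agent.ES.X44.DegenMaps20

open Fermat.Agent.ES.HECKE.LevelPullback12



/-! ### characteristic zero -/

section CharZero

variable {N N₂ : ℕ} [NeZero N] [NeZero N₂]

/-- `α^*`: the inclusion `Fbar N → Fbar N₂` for `N ∣ N₂`. -/
def alphaL (h : N ∣ N₂) :
    modularFunctionFieldBar N →ₐ[AlgebraicClosure ℚ] modularFunctionFieldBar N₂ :=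
  levelIncl h

theorem coe_alphaL (h : N ∣ N₂) (x : modularFunctionFieldBar N) :
    (alphaL h x : LaurentSeries (AlgebraicClosure ℚ)) = (x : LaurentSeries (AlgebraicClosure ℚ)) :=
  coe_levelIncl h x

theorem alphaL_injective (h : N ∣ N₂) : Function.Injective (alphaL h) :=
  levelIncl_injective h

theorem alphaL_isIntegral (h : N ∣ N₂) : (alphaL h).toRingHom.IsIntegral :=
  levelIncl_isIntegral h

variable (ℓ : ℕ) [NeZero ℓ]

/-- the level `N * ℓ` is not zero. -/
theorem neZero_mul : NeZero (N * ℓ) := ⟨Nat.mul_ne_zero (NeZero.ne N) (NeZero.ne ℓ)⟩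

/-- `β^*`: `f(q) ↦ f(q^ℓ)`, `Fbar N → Fbar N₂` for `N * ℓ ∣ N₂`. -/
def betaL (h : N * ℓ ∣ N₂) :
    modularFunctionFieldBar N →ₐ[AlgebraicClosure ℚ] modularFunctionFieldBar N₂ :=
  haveI := neZero_mul (N := N) ℓ
  (levelIncl h).comp (heckeBetaBar (AlgebraicClosure ℚ) N ℓ)

theorem coe_betaL (h : N * ℓ ∣ N₂) (x : modularFunctionFieldBar N) :
    (betaL ℓ h x : LaurentSeries (AlgebraicClosure ℚ)) =
      qExpand (AlgebraicClosure ℚ) ℓ (x : LaurentSeries (AlgebraicClosure ℚ)) := by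
  haveI := neZero_mul (N := N) ℓ
  show (levelIncl h (heckeBetaBar (AlgebraicClosure ℚ) N ℓ x) : LaurentSeries (AlgebraicClosure ℚ)) = _
  rw [coe_levelIncl, coe_heckeBetaBar]

theorem betaL_injective (h : N * ℓ ∣ N₂) : Function.Injective (betaL ℓ h) :=
  (betaL ℓ h).toRingHom.injective

/-- comparison with the Prelude: `α`. -/
theorem alphaL_eq_heckeAlphaBar :
    haveI := neZero_mul (N := N) ℓ
    alphaL (dvd_mul_right N ℓ) = heckeAlphaBar (AlgebraicClosure ℚ) N ℓ := by
  haveI := neZero_mul (N := N) ℓ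
  apply AlgHom.ext
  intro x
  apply Subtype.ext
  rw [coe_alphaL, coe_heckeAlphaBar]

/-- comparison with the Prelude: `β`. -/
theorem betaL_eq_heckeBetaBar :
    haveI := neZero_mul (N := N) ℓ
    betaL ℓ (dvd_refl (N * ℓ)) = heckeBetaBar (AlgebraicClosure ℚ) N ℓ := by
  haveI := neZero_mul (N := N) ℓ
  apply AlgHom.ext
  intro x
  apply Subtype.ext
  rw [coe_betaL, coe_heckeBetaBar]

end CharZero

/-! ### any coefficient field (used in characteristic `p`) -/

section AnyField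

variable (κ : Type*) [Field κ] {M M₂ : ℕ} [NeZero M] [NeZero M₂]

/-- `ᾱ^*`: the inclusion `F̃_M → F̃_{M₂}` for `M ∣ M₂`. -/
def alphaC (h : M ∣ M₂) :
    modularFunctionFieldFullC κ M →ₐ[κ] modularFunctionFieldFullC κ M₂ :=
  IntermediateField.inclusion (full_degeneracyC_le κ h)

theorem coe_alphaC (h : M ∣ M₂) (x : modularFunctionFieldFullC κ M) :
    (alphaC κ h x : LaurentSeries κ) = (x : LaurentSeries κ) :=
  IntermediateField.coe_inclusion _ x

theorem alphaC_injective (h : M ∣ M₂) : Function.Injective (alphaC κ h) :=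
  (alphaC κ h).toRingHom.injective

variable (ℓ : ℕ) [NeZero ℓ]

/-- `f(q) ↦ f(q^ℓ)` maps `F̃_M` into `F̃_{M₂}` for `M * ℓ ∣ M₂`. -/
theorem qExpand_mem_fullC (h : M * ℓ ∣ M₂) {x : LaurentSeries κ}
    (hx : x ∈ modularFunctionFieldFullC κ M) :
    qExpand κ ℓ x ∈ modularFunctionFieldFullC κ M₂ := by
  haveI := neZero_mul (N := M) ℓ
  apply full_degeneracyC_le κ h
  apply full_degeneracyC_map_le κ M ℓ
  exact ⟨x, hx, rfl⟩

/-- `β̄^*`: `f(q) ↦ f(q^ℓ)`, `F̃_M → F̃_{M₂}` for `M * ℓ ∣ M₂`, as a ring homomorphism. -/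
def betaCRingHom (h : M * ℓ ∣ M₂) :
    modularFunctionFieldFullC κ M →+* modularFunctionFieldFullC κ M₂ where
  toFun x := ⟨qExpand κ ℓ (x : LaurentSeries κ), qExpand_mem_fullC κ ℓ h x.2⟩
  map_one' := Subtype.ext (map_one (qExpand κ ℓ))
  map_mul' _ _ := Subtype.ext (map_mul (qExpand κ ℓ) _ _)
  map_zero' := Subtype.ext (map_zero (qExpand κ ℓ))
  map_add' _ _ := Subtype.ext (map_add (qExpand κ ℓ) _ _)

/-- `β̄^*` as a `κ`-algebra homomorphism. -/
def betaC (h : M * ℓ ∣ M₂) :
    modularFunctionFieldFullC κ M →ₐ[κ] modularFunctionFieldFullC κ M₂ :=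
  { betaCRingHom κ ℓ h with
    commutes' := fun a => Subtype.ext <| by
      show qExpand κ ℓ (algebraMap κ (LaurentSeries κ) a) = algebraMap κ (LaurentSeries κ) a
      rw [algebraMap_laurentSeries_eq_single, qExpand_single, mul_zero] }

theorem coe_betaC (h : M * ℓ ∣ M₂) (x : modularFunctionFieldFullC κ M) :
    (betaC κ ℓ h x : LaurentSeries κ) = qExpand κ ℓ (x : LaurentSeries κ) := rfl

theorem betaC_injective (h : M * ℓ ∣ M₂) : Function.Injective (betaC κ ℓ h) :=
  (betaC κ ℓ h).toRingHom.injective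

end AnyField

end Fermat.Agent.ES.X44.DegenMaps20
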