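/-
Programme X (S44), chapter (W2), leaf L2 (helper15), file 3/5: **THE MODULAR EQUATION OVER `A` AT A GOOD
LEVEL.**

Instance `V19/InstNames3` at a level `M₂` with `p ∤ M₂`, `n ∣ M`, `M ℓ ∣ M₂`, `ℓ` a prime, `ℓ ∤ n`.
`t₂ = tV … M₂` the coordinate of the level `M₂`, `y = betaL ℓ h (tV … M)` (`= t(q^ℓ)`, `DegenMaps20`).

* `coe_yV`, `isIntegral_yV`, `isIntegral_yV_inv` : `y` is integral over `ℚ̄[t₂]`, `y⁻¹` over `ℚ̄[t₂⁻¹]`
  (`N34/ModEqBar23`, descended from the `q`-expansions);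
* **`yV_mem_chart`** : `y ∈ chart ↥A t₂` (the chart ring 0 of the level `M₂`);
* **`yV_inv_mem_chart`** : `y⁻¹ ∈ chart ↥A t₂⁻¹` (the chart ring 1)
  — by `ChartSat15.mem_of_isIntegral` (`y^{±1}` have the `A`-integral expansions
  `qExpand ℓ (tq A)`, `qExpand ℓ (tqInv A)`).
-/
import Mathlib
import Fermat.Agent.ES.V19.InstNames3
import Fermat.Agent.ES.N34.ModEqBar23
import Fermat.Agent.ES.X44.DegenMaps20
import Fermat.Agent.ES.X44.ChartSat15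

set_option autoImplicit false
set_option synthInstance.maxHeartbeats 400000
set_option linter.unusedSectionVars false

open HahnSeries ModularCurve AlgebraicCurve

noncomputable section

namespace Fermat.Agent.ES.X44.ModEqGood15

open Fermat.Agent.RED.Interface4 Fermat.Agent.RED.BASE.Interface12 Fermat.Agent.RED.BASE.Hauptmodul12
  Fermat.Agent.RED.BASE.EtaQuot12 Fermat.Agent.RED.PUR.ChartGeneric22
  Fermat.Agent.ES.RED.Contract8 Fermat.Agent.ES.RED.ModelInst4 Fermat.Agent.ES.RED.SpecialInv25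
  Fermat.Agent.X0 Fermat.Agent.X0.FF
  Fermat.Agent.ES.V19.InstNames3 Fermat.Agent.ES.X44.DegenMaps20

attribute [local instance 5000] HahnSeries.powerSeriesAlgebra SubalgebraClass.toAlgebra

variable (n e M M₂ : ℕ) [NeZero n] [NeZero M] [NeZero M₂] (p : ℕ) [Fact p.Prime]
  (hpM₂ : ¬ p ∣ M₂) (hb : BaseHyp n e) (hnM : n ∣ M) (hnM₂ : n ∣ M₂)
  (A : ValuationSubring Qbar) (hA : A.LiesOverPrime p) (ℓ : ℕ) [NeZero ℓ] (h : M * ℓ ∣ M₂)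

/-- `y = β t = t(q^ℓ)` at the level `M₂`. -/
abbrev yV : ↥(Fbar M₂) := betaL ℓ h (tV n e M hb hnM)

theorem coe_tV : ((tV n e M hb hnM : ↥(Fbar M)) : LaurentSeries Qbar) = tq Qbar n e := rfl

theorem coe_yV : ((yV n e M M₂ hb hnM ℓ h : ↥(Fbar M₂)) : LaurentSeries Qbar) =
    qExpand Qbar ℓ (tq Qbar n e) := by
  rw [yV, coe_betaL, coe_tV]

theorem yV_ne_zero : yV n e M M₂ hb hnM ℓ h ≠ 0 := by
  intro h0
  have := betaL_injective ℓ h (h0.trans (map_zero _).symm)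
  exact (hxV n e M hb hnM).1 (this ▸ isAlgebraic_zero)

/-- **(I1)** at the level `M₂`: `y` is integral over `ℚ̄[t₂]`. -/
theorem isIntegral_yV (hℓ : ℓ.Prime) (hℓn : ¬ ℓ ∣ n) :
    IsIntegral (Algebra.adjoin Qbar {tV n e M₂ hb hnM₂}) (yV n e M M₂ hb hnM ℓ h) := by
  apply Fermat.Agent.RED.PUR.PlaceIntegral3.isIntegral_polyRing_of_map (K := Qbar)
    (F' := LaurentSeries Qbar)
  have h1 : algebraMap ↥(Fbar M₂) (LaurentSeries Qbar) (tV n e M₂ hb hnM₂) = tq Qbar n e := rfl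
  have h2 : algebraMap ↥(Fbar M₂) (LaurentSeries Qbar) (yV n e M M₂ hb hnM ℓ h) =
      qExpand Qbar ℓ (tq Qbar n e) := coe_yV n e M M₂ hb hnM ℓ h
  rw [h1, h2]
  exact Fermat.Agent.ES.N34.ModEqBar23.isIntegral_qExpand_tK ℓ hb hℓ hℓn

/-- **(I3)** at the level `M₂`: `y⁻¹` is integral over `ℚ̄[t₂⁻¹]`. -/
theorem isIntegral_yV_inv (hℓ : ℓ.Prime) (hℓn : ¬ ℓ ∣ n) :
    IsIntegral (Algebra.adjoin Qbar {(tV n e M₂ hb hnM₂)⁻¹}) (yV n e M M₂ hb hnM ℓ h)⁻¹ := by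
  apply Fermat.Agent.RED.PUR.PlaceIntegral3.isIntegral_polyRing_of_map (K := Qbar)
    (F' := LaurentSeries Qbar)
  have h1 : algebraMap ↥(Fbar M₂) (LaurentSeries Qbar) (tV n e M₂ hb hnM₂)⁻¹ =
      (tq Qbar n e)⁻¹ := rfl
  have h2 : algebraMap ↥(Fbar M₂) (LaurentSeries Qbar) (yV n e M M₂ hb hnM ℓ h)⁻¹ =
      (qExpand Qbar ℓ (tq Qbar n e))⁻¹ := by
    rw [map_inv₀]
    exact congrArg _ (coe_yV n e M M₂ hb hnM ℓ h)
  rw [h1, h2]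
  exact Fermat.Agent.ES.N34.ModEqBar23.isIntegral_inv_qExpand_tK ℓ hb hℓ hℓn

include hpM₂ hA in
/-- **`y ∈ chart ↥A t₂`** : the modular equation over `A`, chart 0. -/
theorem yV_mem_chart (hℓ : ℓ.Prime) (hℓn : ¬ ℓ ∣ n) :
    yV n e M M₂ hb hnM ℓ h ∈ chart ↥A (tV n e M₂ hb hnM₂) := by
  have hS := (inputs0V n e M₂ p hpM₂ hb hnM₂ A hA).compat
  refine Fermat.Agent.ES.X44.ChartSat15.mem_of_isIntegral
    (S := (TV n e M₂ p hpM₂ hb hnM₂ A hA).S0) hS (fun z hz => hz) ?_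
    (isIntegral_yV n e M M₂ hb hnM hnM₂ ℓ h hℓ hℓn)
  refine ⟨qExpand ↥A ℓ (tq ↥A n e), ?_⟩
  rw [ModularCurve.coeffMap_qExpand, coeffMap_tq]
  exact (coe_yV n e M M₂ hb hnM ℓ h).symm

include hpM₂ hA in
/-- **`y⁻¹ ∈ chart ↥A t₂⁻¹`** : the modular equation over `A`, chart 1. -/
theorem yV_inv_mem_chart (hℓ : ℓ.Prime) (hℓn : ¬ ℓ ∣ n) :
    (yV n e M M₂ hb hnM ℓ h)⁻¹ ∈ chart ↥A (tV n e M₂ hb hnM₂)⁻¹ := by
  have hS := (inputs1V n e M₂ p hpM₂ hb hnM₂ A hA).compat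
  refine Fermat.Agent.ES.X44.ChartSat15.mem_of_isIntegral
    (S := (TV n e M₂ p hpM₂ hb hnM₂ A hA).S1) hS (fun z hz => hz) ?_
    (isIntegral_yV_inv n e M M₂ hb hnM hnM₂ ℓ h hℓ hℓn)
  refine ⟨qExpand ↥A ℓ (tqInv ↥A n e), ?_⟩
  rw [ModularCurve.coeffMap_qExpand, coeffMap_tqInv, tqInv_eq_inv, map_inv₀]
  show (qExpand Qbar ℓ (tq Qbar n e))⁻¹ =
    (((yV n e M M₂ hb hnM ℓ h)⁻¹ : ↥(Fbar M₂)) : LaurentSeries Qbar)
  rw [← coe_yV n e M M₂ hb hnM ℓ h]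
  rfl

end Fermat.Agent.ES.X44.ModEqGood15
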