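/-
Programme X (S44), chapter (W2), input (INT) of ruling x3 (helper15): **THE MODULAR EQUATION OF THE
HAUPTMODUL `t` OVER `A`, in all four forms, for `q`-series and at every pair of levels.**

`(n, e)` a Hauptmodul base (`hb : BaseHyp n e`), `ℓ` a prime, `ℓ ∤ n`; `p` a prime with `p ∤ n ℓ`,
`A ≤ ℚ̄` a valuation ring over `p`.  `t = tq ℚ̄ n e`, `y = qExpand ℚ̄ ℓ t = t(q^ℓ)` in `ℚ̄((q))`;
`chart ↥A s` = the integral closure of `A[s]` (`RED/PUR/ChartGeneric22`).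

* `mem_chart_of_map` (generic) : integrality over `R[s]` descends along an injective ring homomorphism;
* **series forms** (in `LaurentSeries Qbar`): `qy_mem_chart` (I1) `y ∈ chart ↥A t`,
  `t_mem_chart_qy` (I2) `t ∈ chart ↥A y`, `qy_inv_mem_chart` (I3) `y⁻¹ ∈ chart ↥A t⁻¹`,
  `t_inv_mem_chart_qy_inv` (I4) `t⁻¹ ∈ chart ↥A y⁻¹`
  ((I1), (I3) from the good level `n ℓ` — `ModEqGood15` —; (I2), (I4) by the Atkin–Lehner embedding
  `Conjugates11.exists_W`: `W ∘ β = id`, `W ∘ α = (q ↦ q^ℓ)`, i.e. the symmetry of the modular equation);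
* **level forms**, ANY levels `N`, `N₂` with `n ∣ N`, `N ℓ ∣ N₂` (no condition on `p ∣ N`):
  `beta_mem_chart`, `t_mem_chart_beta`, `beta_inv_mem_chart`, `t_inv_mem_chart_beta_inv` for
  `β t = betaL ℓ h (tV n e N hb hnN)` and `t₂ = tV n e N₂ hb hnN₂` (`= α t`).
-/
import Mathlib
import Fermat.Agent.ES.KRON.Conjugates11
import Fermat.Agent.ES.P36.IntBeta23
import Fermat.Agent.ES.X44.ModEqGood15

set_option autoImplicit false
set_option synthInstance.maxHeartbeats 400000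
set_option linter.unusedSectionVars false
set_option linter.style.haveILetI false

open HahnSeries ModularCurve AlgebraicCurve Polynomial

noncomputable section

namespace Fermat.Agent.ES.X44.ModEqSeries15

open Fermat.Agent.RED.Interface4 Fermat.Agent.RED.BASE.Interface12 Fermat.Agent.RED.BASE.Hauptmodul12
  Fermat.Agent.RED.BASE.EtaQuot12 Fermat.Agent.RED.PUR.ChartGeneric22
  Fermat.Agent.X0 Fermat.Agent.X0.FF
  Fermat.Agent.ES.V19.InstNames3 Fermat.Agent.ES.X44.DegenMaps20 Fermat.Agent.ES.X44.ModEqGood15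

attribute [local instance 5000] HahnSeries.powerSeriesAlgebra SubalgebraClass.toAlgebra

/-! ### generic: descent of integrality along an injective homomorphism -/

section Generic

variable {R F F' : Type*} [CommRing R] [Field F] [Field F'] [Algebra R F] [Algebra R F']

/-- integrality over `R[s]` is intrinsic: it descends along an injective ring homomorphism over `R`. -/
theorem mem_chart_of_map (φ : F →+* F') (hφ : ∀ r : R, φ (algebraMap R F r) = algebraMap R F' r)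
    {s x : F} (h : φ x ∈ chart R (φ s)) : x ∈ chart R s := by
  rw [mem_chart_iff, isIntegral_subalgebra_iff] at h ⊢
  obtain ⟨P, hP, hcoeff, hx⟩ := h
  obtain ⟨G, hG, hGc, hGP⟩ := Fermat.Agent.ES.P36.IntBeta23.exists_monic_lift φ
    (Algebra.adjoin R {s}) P hP
    (fun i => Fermat.Agent.ES.P36.IntBeta23.exists_of_mem_adjoin_map φ hφ s (hcoeff i))
  refine ⟨G, hG, hGc, ?_⟩
  apply φ.injective
  rw [map_zero, ← Polynomial.eval_map_apply, hGP]
  exact hx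

end Generic

/-! ### the four series forms -/

section Series

variable (n e : ℕ) [NeZero n] (p : ℕ) [Fact p.Prime] (hb : BaseHyp n e)
  (A : ValuationSubring Qbar) (hA : A.LiesOverPrime p) (ℓ : ℕ) [NeZero ℓ]
  (hℓ : ℓ.Prime) (hℓn : ¬ ℓ ∣ n) (hpn : ¬ p ∣ n * ℓ)

/-- the coercion `Fbar N → ℚ̄((q))` as a ring homomorphism. -/
abbrev valL (N : ℕ) [NeZero N] : ↥(Fbar N) →+* LaurentSeries Qbar :=
  (modularFunctionFieldBar N).val.toRingHom

/-- constants of `A` in `ℚ̄((q))`. -/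
theorem algebraMap_series (r : ↥A) :
    algebraMap ↥A (LaurentSeries Qbar) r = algebraMap Qbar (LaurentSeries Qbar) (r : Qbar) := by
  rw [HahnSeries.algebraMap_apply', HahnSeries.algebraMap_apply', PowerSeries.algebraMap_apply,
    PowerSeries.algebraMap_apply]
  rfl

theorem valL_algebraMap (N : ℕ) [NeZero N] (r : ↥A) :
    valL N (algebraMap ↥A ↥(Fbar N) r) = algebraMap ↥A (LaurentSeries Qbar) r := by
  rw [IsScalarTower.algebraMap_apply ↥A Qbar ↥(Fbar N), algebraMap_series]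
  exact (modularFunctionFieldBar N).val.commutes _

include hb hA hℓ hℓn hpn in
/-- **(I1) over `A`**: `t(q^ℓ)` is integral over `A[t]`. -/
theorem qy_mem_chart :
    qExpand Qbar ℓ (tq Qbar n e) ∈ chart ↥A (tq Qbar n e : LaurentSeries Qbar) := by
  have : NeZero (n * ℓ) := neZero_mul (N := n) ℓ
  have h1 := yV_mem_chart n e n (n * ℓ) p hpn hb (dvd_refl n) (dvd_mul_right n ℓ) A hA ℓ
    (dvd_refl _) hℓ hℓn
  have h2 := Fermat.Agent.ES.N34.ModelN4.map_mem_chart (R := ↥A) (valL (n * ℓ))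
    (valL_algebraMap A (n * ℓ)) (s := tV n e (n * ℓ) hb (dvd_mul_right n ℓ))
    (t := (tq Qbar n e : LaurentSeries Qbar)) (self_mem_chart (R := ↥A) _) h1
  have h3 : valL (n * ℓ) (yV n e n (n * ℓ) hb (dvd_refl n) ℓ (dvd_refl _)) =
      qExpand Qbar ℓ (tq Qbar n e) := coe_yV n e n (n * ℓ) hb (dvd_refl n) ℓ (dvd_refl _)
  rw [h3] at h2
  exact h2

include hb hA hℓ hℓn hpn in
/-- **(I3) over `A`**: `t(q^ℓ)⁻¹` is integral over `A[t⁻¹]`. -/
theorem qy_inv_mem_chart :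
    (qExpand Qbar ℓ (tq Qbar n e))⁻¹ ∈ chart ↥A ((tq Qbar n e : LaurentSeries Qbar))⁻¹ := by
  have : NeZero (n * ℓ) := neZero_mul (N := n) ℓ
  have h1 := yV_inv_mem_chart n e n (n * ℓ) p hpn hb (dvd_refl n) (dvd_mul_right n ℓ) A hA ℓ
    (dvd_refl _) hℓ hℓn
  have hs : valL (n * ℓ) (tV n e (n * ℓ) hb (dvd_mul_right n ℓ))⁻¹ =
      ((tq Qbar n e : LaurentSeries Qbar))⁻¹ := by
    rw [map_inv₀]; rfl
  have h2 := Fermat.Agent.ES.N34.ModelN4.map_mem_chart (R := ↥A) (valL (n * ℓ))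
    (valL_algebraMap A (n * ℓ)) (s := (tV n e (n * ℓ) hb (dvd_mul_right n ℓ))⁻¹)
    (t := ((tq Qbar n e : LaurentSeries Qbar))⁻¹)
    (by rw [hs]; exact self_mem_chart (R := ↥A) _) h1
  have h3 : valL (n * ℓ) (yV n e n (n * ℓ) hb (dvd_refl n) ℓ (dvd_refl _))⁻¹ =
      (qExpand Qbar ℓ (tq Qbar n e))⁻¹ := by
    rw [map_inv₀]
    exact congrArg _ (coe_yV n e n (n * ℓ) hb (dvd_refl n) ℓ (dvd_refl _))
  rw [h3] at h2
  exact h2

/-- the two coordinates at the level `n ℓ` in the Prelude's terms. -/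
theorem tV_eq_alpha :
    haveI : NeZero (n * ℓ) := neZero_mul (N := n) ℓ
    tV n e (n * ℓ) hb (dvd_mul_right n ℓ) =
      heckeAlphaBar Qbar n ℓ (tV n e n hb (dvd_refl n)) := by
  haveI : NeZero (n * ℓ) := neZero_mul (N := n) ℓ
  apply Subtype.ext
  rw [coe_heckeAlphaBar]
  exact (coe_tV n e (n * ℓ) hb (dvd_mul_right n ℓ)).trans (coe_tV n e n hb (dvd_refl n)).symm

theorem yV_eq_beta :
    haveI : NeZero (n * ℓ) := neZero_mul (N := n) ℓ
    yV n e n (n * ℓ) hb (dvd_refl n) ℓ (dvd_refl _) =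
      heckeBetaBar Qbar n ℓ (tV n e n hb (dvd_refl n)) := by
  haveI : NeZero (n * ℓ) := neZero_mul (N := n) ℓ
  apply Subtype.ext
  rw [coe_yV, coe_heckeBetaBar]
  exact congrArg _ (coe_tV n e n hb (dvd_refl n)).symm

include hb hA hℓ hℓn hpn in
/-- **(I2) and (I4) over `A`**: `t` is integral over `A[t(q^ℓ)]` and `t⁻¹` over `A[t(q^ℓ)⁻¹]`
(the symmetry of the modular equation: apply the Atkin–Lehner embedding `W`). -/
theorem t_mem_chart_qy_both :
    (tq Qbar n e : LaurentSeries Qbar) ∈ chart ↥A (qExpand Qbar ℓ (tq Qbar n e)) ∧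
      ((tq Qbar n e : LaurentSeries Qbar))⁻¹ ∈ chart ↥A (qExpand Qbar ℓ (tq Qbar n e))⁻¹ := by
  haveI : NeZero (n * ℓ) := neZero_mul (N := n) ℓ
  obtain ⟨W, hWβ, hWα⟩ := Fermat.Agent.ES.KRON.Conjugates11.exists_W n ℓ hℓ hℓn
  have hWc : ∀ r : ↥A, W (algebraMap ↥A ↥(Fbar (n * ℓ)) r) =
      algebraMap ↥A (LaurentSeries Qbar) r := by
    intro r
    rw [IsScalarTower.algebraMap_apply ↥A Qbar ↥(Fbar (n * ℓ)), algebraMap_series]
    have h1 : algebraMap Qbar ↥(Fbar (n * ℓ)) (algebraMap ↥A Qbar r) =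
        heckeAlphaBar Qbar n ℓ (algebraMap Qbar ↥(Fbar n) (algebraMap ↥A Qbar r)) :=
      (AlgHom.commutes _ _).symm
    rw [h1, hWα]
    show qExpand Qbar ℓ (algebraMap Qbar (LaurentSeries Qbar) (r : Qbar)) = _
    rw [algebraMap_laurentSeries_eq_single, qExpand_single, mul_zero]
  have hWt : W (tV n e (n * ℓ) hb (dvd_mul_right n ℓ)) = qExpand Qbar ℓ (tq Qbar n e) := by
    rw [tV_eq_alpha n e hb ℓ, hWα]
    exact congrArg _ (coe_tV n e n hb (dvd_refl n))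
  have hWy : W (yV n e n (n * ℓ) hb (dvd_refl n) ℓ (dvd_refl _)) = tq Qbar n e := by
    rw [yV_eq_beta n e hb ℓ, hWβ]
    exact coe_tV n e n hb (dvd_refl n)
  constructor
  · have h1 := yV_mem_chart n e n (n * ℓ) p hpn hb (dvd_refl n) (dvd_mul_right n ℓ) A hA ℓ
      (dvd_refl _) hℓ hℓn
    have h2 := Fermat.Agent.ES.N34.ModelN4.map_mem_chart (R := ↥A) W hWc
      (s := tV n e (n * ℓ) hb (dvd_mul_right n ℓ)) (t := qExpand Qbar ℓ (tq Qbar n e))
      (by rw [hWt]; exact self_mem_chart (R := ↥A) _) h1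
    rw [hWy] at h2
    exact h2
  · have h1 := yV_inv_mem_chart n e n (n * ℓ) p hpn hb (dvd_refl n) (dvd_mul_right n ℓ) A hA ℓ
      (dvd_refl _) hℓ hℓn
    have h2 := Fermat.Agent.ES.N34.ModelN4.map_mem_chart (R := ↥A) W hWc
      (s := (tV n e (n * ℓ) hb (dvd_mul_right n ℓ))⁻¹)
      (t := (qExpand Qbar ℓ (tq Qbar n e))⁻¹)
      (by rw [map_inv₀, hWt]; exact self_mem_chart (R := ↥A) _) h1
    rw [map_inv₀, hWy] at h2
    exact h2

include hb hA hℓ hℓn hpn in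
/-- **(I2) over `A`**. -/
theorem t_mem_chart_qy :
    (tq Qbar n e : LaurentSeries Qbar) ∈ chart ↥A (qExpand Qbar ℓ (tq Qbar n e)) :=
  (t_mem_chart_qy_both n e p hb A hA ℓ hℓ hℓn hpn).1

include hb hA hℓ hℓn hpn in
/-- **(I4) over `A`**. -/
theorem t_inv_mem_chart_qy_inv :
    ((tq Qbar n e : LaurentSeries Qbar))⁻¹ ∈ chart ↥A (qExpand Qbar ℓ (tq Qbar n e))⁻¹ :=
  (t_mem_chart_qy_both n e p hb A hA ℓ hℓ hℓn hpn).2

end Series

/-! ### the level forms -/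

section Levels

variable (n e N N₂ : ℕ) [NeZero n] [NeZero N] [NeZero N₂] (p : ℕ) [Fact p.Prime]
  (hb : BaseHyp n e) (hnN : n ∣ N) (hnN₂ : n ∣ N₂)
  (A : ValuationSubring Qbar) (hA : A.LiesOverPrime p) (ℓ : ℕ) [NeZero ℓ]
  (hℓ : ℓ.Prime) (hℓn : ¬ ℓ ∣ n) (hpn : ¬ p ∣ n * ℓ) (h : N * ℓ ∣ N₂)

include hA hℓ hℓn hpn in
/-- **(INT-1)**: `β t` is integral over `A[t₂]` (`t₂ = α t` the coordinate of the level `N₂`). -/
theorem beta_mem_chart :
    betaL ℓ h (tV n e N hb hnN) ∈ chart ↥A (tV n e N₂ hb hnN₂) := by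
  apply mem_chart_of_map (valL N₂) (valL_algebraMap A N₂)
  have h1 : valL N₂ (betaL ℓ h (tV n e N hb hnN)) = qExpand Qbar ℓ (tq Qbar n e) :=
    coe_yV n e N N₂ hb hnN ℓ h
  have h2 : valL N₂ (tV n e N₂ hb hnN₂) = tq Qbar n e := coe_tV n e N₂ hb hnN₂
  rw [h1, h2]
  exact qy_mem_chart n e p hb A hA ℓ hℓ hℓn hpn

include hA hℓ hℓn hpn in
/-- **(INT-2)**: `t₂` is integral over `A[β t]`. -/
theorem t_mem_chart_beta :
    tV n e N₂ hb hnN₂ ∈ chart ↥A (betaL ℓ h (tV n e N hb hnN)) := by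
  apply mem_chart_of_map (valL N₂) (valL_algebraMap A N₂)
  have h1 : valL N₂ (betaL ℓ h (tV n e N hb hnN)) = qExpand Qbar ℓ (tq Qbar n e) :=
    coe_yV n e N N₂ hb hnN ℓ h
  have h2 : valL N₂ (tV n e N₂ hb hnN₂) = tq Qbar n e := coe_tV n e N₂ hb hnN₂
  rw [h1, h2]
  exact t_mem_chart_qy n e p hb A hA ℓ hℓ hℓn hpn

include hA hℓ hℓn hpn in
/-- **(INT-3)**: `(β t)⁻¹` is integral over `A[t₂⁻¹]`. -/
theorem beta_inv_mem_chart :
    (betaL ℓ h (tV n e N hb hnN))⁻¹ ∈ chart ↥A (tV n e N₂ hb hnN₂)⁻¹ := by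
  apply mem_chart_of_map (valL N₂) (valL_algebraMap A N₂)
  have h1 : valL N₂ (betaL ℓ h (tV n e N hb hnN)) = qExpand Qbar ℓ (tq Qbar n e) :=
    coe_yV n e N N₂ hb hnN ℓ h
  have h2 : valL N₂ (tV n e N₂ hb hnN₂) = tq Qbar n e := coe_tV n e N₂ hb hnN₂
  rw [map_inv₀, map_inv₀, h1, h2]
  exact qy_inv_mem_chart n e p hb A hA ℓ hℓ hℓn hpn

include hA hℓ hℓn hpn in
/-- **(INT-4)**: `t₂⁻¹` is integral over `A[(β t)⁻¹]`. -/
theorem t_inv_mem_chart_beta_inv :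
    (tV n e N₂ hb hnN₂)⁻¹ ∈ chart ↥A (betaL ℓ h (tV n e N hb hnN))⁻¹ := by
  apply mem_chart_of_map (valL N₂) (valL_algebraMap A N₂)
  have h1 : valL N₂ (betaL ℓ h (tV n e N hb hnN)) = qExpand Qbar ℓ (tq Qbar n e) :=
    coe_yV n e N N₂ hb hnN ℓ h
  have h2 : valL N₂ (tV n e N₂ hb hnN₂) = tq Qbar n e := coe_tV n e N₂ hb hnN₂
  rw [map_inv₀, map_inv₀, h1, h2]
  exact t_inv_mem_chart_qy_inv n e p hb A hA ℓ hℓ hℓn hpn

end Levels

end Fermat.Agent.ES.X44.ModEqSeries15
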