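/-
Programme X (S44), chapter (W2)/(X-a), input (i) of ruling x5 (helper15): **THE COEFFICIENTS OF THE
CHARACTERISTIC POLYNOMIAL OF `β f` OVER `α` ARE INTEGRAL OVER `A[s]`** for `f` integral over `A[s]`,
`s = t^{±1}` the chart coordinate of ANY level `N` (`n ∣ N`, `ℓ ∤ N`).

`α = heckeAlphaBar ℚ̄ N ℓ`, `β = heckeBetaBar ℚ̄ N ℓ`, `χ_f = Conjugates11.charpolyAlong α β hfin f`.
Main's (POLY-α) `ConjAlpha24.charpolyAlong_alpha_map`: `χ_f` read through `ι = (q ↦ q^ℓ) ∘ coe` is the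
Kronecker product `∏_{b<ℓ} (Y − f(ζ^b q)) · (Y − f(q^{ℓ²}))`.  Every root is `τ f` for a ring homomorphism
`τ` over `A` (`τ = twist ∘ coe`, resp. `(q ↦ q^{ℓ²}) ∘ coe`), hence integral over `A[τ s]`, and `τ s` is
integral over `A[ι s]` by the modular equation over `A` (`ModEqSeries15`: twist applied to (I2)/(I4),
`q ↦ q^ℓ` applied to (I1)/(I3)); the coefficients therefore lie in the subalgebra `chart ↥A (ι s)`, and
integrality descends along the injective `ι` (`ModEqSeries15.mem_chart_of_map`).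

* `coeff_mem_of_roots` (generic), `coeff_charpoly_mem_chart_core`;
* **`coeff_charpoly_mem_chart0`** (`s = t`), **`coeff_charpoly_mem_chart1`** (`s = t⁻¹`).
-/
import Mathlib
import Fermat.Agent.ES.KRON.ConjAlpha24
import Fermat.Agent.ES.KRON.KronInst10
import Fermat.Agent.ES.X44.ModEqSeries15

set_option autoImplicit false
set_option synthInstance.maxHeartbeats 400000
set_option linter.unusedSectionVars false
set_option linter.style.haveILetI false

open HahnSeries ModularCurve AlgebraicCurve Polynomial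

noncomputable section

namespace Fermat.Agent.ES.X44.CharpolyInt15

open Fermat.Agent.RED.Interface4 Fermat.Agent.RED.BASE.Interface12 Fermat.Agent.RED.BASE.Hauptmodul12
  Fermat.Agent.RED.BASE.EtaQuot12 Fermat.Agent.RED.PUR.ChartGeneric22
  Fermat.Agent.X0 Fermat.Agent.X0.FF
  Fermat.Agent.ES.KRON.KronCong24 Fermat.Agent.ES.KRON.Conjugates11
  Fermat.Agent.ES.V19.InstNames3 Fermat.Agent.ES.X44.ModEqGood15 Fermat.Agent.ES.X44.ModEqSeries15

attribute [local instance 5000] HahnSeries.powerSeriesAlgebra SubalgebraClass.toAlgebra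

/-! ### generic: coefficients of a product of linear factors -/

section Generic

variable {R S : Type*} [CommRing R] [CommRing S] [Algebra R S]

/-- the coefficients of `∏ (X - r_j) · (X - r)` lie in every subalgebra containing the roots. -/
theorem coeff_mem_of_roots (B : Subalgebra R S) {J : Type*} (s : Finset J) (r : J → S)
    (hr : ∀ j, r j ∈ B) (r' : S) (hr' : r' ∈ B) (i : ℕ) :
    ((∏ j ∈ s, (X - Polynomial.C (r j))) * (X - Polynomial.C r')).coeff i ∈ B := by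
  have h : (∏ j ∈ s, (X - Polynomial.C (r j))) * (X - Polynomial.C r') =
      ((∏ j ∈ s, (X - Polynomial.C (⟨r j, hr j⟩ : ↥B))) * (X - Polynomial.C (⟨r', hr'⟩ : ↥B))).map
        (algebraMap ↥B S) := by
    rw [Polynomial.map_mul, Polynomial.map_prod, Polynomial.map_sub, Polynomial.map_X,
      Polynomial.map_C]
    congr 1
    refine Finset.prod_congr rfl fun j _ => ?_
    rw [Polynomial.map_sub, Polynomial.map_X, Polynomial.map_C]
    rfl
  rw [h, Polynomial.coeff_map]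
  exact SetLike.coe_mem _

end Generic

/-! ### ring homomorphisms of series over `A` -/

section SeriesHoms

variable (A : ValuationSubring Qbar)

theorem twistU_algebraMap (u : Qbarˣ) (r : ↥A) :
    twistU u (algebraMap ↥A (LaurentSeries Qbar) r) = algebraMap ↥A (LaurentSeries Qbar) r := by
  rw [algebraMap_series, algebraMap_laurentSeries_eq_single]
  ext k
  rw [twistU_coeff, HahnSeries.coeff_single]
  split_ifs with hk
  · subst hk
    rw [zpow_zero, Units.val_one, one_mul]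
  · rw [mul_zero]

theorem qExpand_algebraMap (m : ℕ) [NeZero m] (r : ↥A) :
    qExpand Qbar m (algebraMap ↥A (LaurentSeries Qbar) r) =
      algebraMap ↥A (LaurentSeries Qbar) r := by
  rw [algebraMap_series, algebraMap_laurentSeries_eq_single, qExpand_single, mul_zero]

end SeriesHoms

/-! ### the core -/

section Core

variable (N ℓ : ℕ) [NeZero N] [NeZero ℓ] (A : ValuationSubring Qbar)

/-- **core**: if the twists and the `q ↦ q^{ℓ²}`-image of the series of `s` are integral over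
`A[s(q^ℓ)]`, then the coefficients of `χ_f` are integral over `A[s]` for `f` integral over `A[s]`. -/
theorem coeff_charpoly_mem_chart_core (hℓ : ℓ.Prime) (hℓN : ¬ ℓ ∣ N) (ζ : Qbarˣ)
    (hζ : IsPrimitiveRoot ζ ℓ)
    (hfin : FiniteAlong Qbar (heckeAlphaBar Qbar N ℓ)) (s f : ↥(Fbar N))
    (hf : f ∈ chart ↥A s)
    (h1 : ∀ b : ℕ, twistU (ζ ^ b) (s : LaurentSeries Qbar) ∈
      chart ↥A (qExpand Qbar ℓ (s : LaurentSeries Qbar)))
    (h2 : qExpand Qbar (ℓ ^ 2) (s : LaurentSeries Qbar) ∈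
      chart ↥A (qExpand Qbar ℓ (s : LaurentSeries Qbar))) (i : ℕ) :
    (charpolyAlong (heckeAlphaBar Qbar N ℓ) (heckeBetaBar Qbar N ℓ) hfin f).coeff i ∈
      chart ↥A s := by
  set ι : ↥(Fbar N) →+* LaurentSeries Qbar := (qExpand Qbar ℓ).comp (valL N) with hι
  have hιc : ∀ r : ↥A, ι (algebraMap ↥A ↥(Fbar N) r) = algebraMap ↥A (LaurentSeries Qbar) r := by
    intro r
    rw [hι, RingHom.comp_apply, valL_algebraMap, qExpand_algebraMap]
  apply mem_chart_of_map ι hιc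
  -- the image of the coefficient is the coefficient of the Kronecker product
  have hpoly := Fermat.Agent.ES.KRON.ConjAlpha24.charpolyAlong_alpha_map_of_val N ℓ hℓ hℓN ζ hζ
    (algebraMap ↥(Fbar N) (LaurentSeries Qbar)) (fun _ => rfl) hfin f
  have hcoeff : ι ((charpolyAlong (heckeAlphaBar Qbar N ℓ) (heckeBetaBar Qbar N ℓ) hfin f).coeff i)
      = (kronProd ℓ ζ (f : LaurentSeries Qbar)).coeff i := by
    rw [← hpoly, Polynomial.coeff_map, Polynomial.coeff_map]
    rfl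
  rw [hcoeff, kronProd]
  -- the roots lie in `chart ↥A (ι s)`
  have hroot : ∀ (τ : ↥(Fbar N) →+* LaurentSeries Qbar),
      (∀ r : ↥A, τ (algebraMap ↥A ↥(Fbar N) r) = algebraMap ↥A (LaurentSeries Qbar) r) →
      τ s ∈ chart ↥A (ι s) → τ f ∈ chart ↥A (ι s) := by
    intro τ hτ hτs
    have h3 := Fermat.Agent.ES.N34.ModelN4.map_mem_chart (R := ↥A) τ hτ (s := s) (t := τ s)
      (self_mem_chart (R := ↥A) _) hf
    exact Fermat.Agent.ES.P36.IntBeta23.chart_le_chart hτs h3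
  refine coeff_mem_of_roots (chart ↥A (ι s)) (Finset.range ℓ)
    (fun b => twistU (ζ ^ b) (f : LaurentSeries Qbar)) (fun b => ?_) _ ?_ i
  · refine hroot ((twistU (ζ ^ b)).comp (valL N)) (fun r => ?_) (h1 b)
    rw [RingHom.comp_apply, valL_algebraMap, twistU_algebraMap]
  · refine hroot ((qExpand Qbar (ℓ ^ 2)).comp (valL N)) (fun r => ?_) h2
    rw [RingHom.comp_apply, valL_algebraMap, qExpand_algebraMap]

end Core

/-! ### the two charts -/

section Charts

variable (n e N : ℕ) [NeZero n] [NeZero N] (p : ℕ) [Fact p.Prime] (hb : BaseHyp n e) (hnN : n ∣ N)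
  (A : ValuationSubring Qbar) (hA : A.LiesOverPrime p) (ℓ : ℕ) [NeZero ℓ]
  (hℓ : ℓ.Prime) (hℓN : ¬ ℓ ∣ N) (hpn : ¬ p ∣ n * ℓ)
  (hfin : FiniteAlong Qbar (heckeAlphaBar Qbar N ℓ))

include hnN hℓN in
theorem not_dvd_base : ¬ ℓ ∣ n := fun h => hℓN (h.trans hnN)

include hA hℓ hℓN hpn in
/-- **chart 0**: `f` integral over `A[t]` ⇒ the coefficients of `χ_f` are integral over `A[t]`. -/
theorem coeff_charpoly_mem_chart0 {f : ↥(Fbar N)} (hf : f ∈ chart ↥A (tV n e N hb hnN)) (i : ℕ) :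
    (charpolyAlong (heckeAlphaBar Qbar N ℓ) (heckeBetaBar Qbar N ℓ) hfin f).coeff i ∈
      chart ↥A (tV n e N hb hnN) := by
  have hℓn : ¬ ℓ ∣ n := not_dvd_base n N hnN ℓ hℓN
  haveI : Fact ℓ.Prime := ⟨hℓ⟩
  obtain ⟨ζ, hζ1, hζp⟩ := Fermat.Agent.ES.KRON.KronInst10.exists_primitiveRoot_unit (L := Qbar) ℓ
  have hζ : IsPrimitiveRoot ζ ℓ := by
    rw [← IsPrimitiveRoot.coe_units_iff]; exact hζp
  refine coeff_charpoly_mem_chart_core N ℓ A hℓ hℓN ζ hζ hfin _ f hf (fun b => ?_) ?_ i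
  · -- twist of (I2)
    have h := Fermat.Agent.ES.N34.ModelN4.map_mem_chart (R := ↥A) (twistU (ζ ^ b))
      (twistU_algebraMap A (ζ ^ b)) (s := qExpand Qbar ℓ (tq Qbar n e))
      (t := qExpand Qbar ℓ (tq Qbar n e))
      (by
        rw [twistU_qExpand ℓ (ζ ^ b) (by rw [← pow_mul, mul_comm, pow_mul, hζ1, one_pow])]
        exact self_mem_chart (R := ↥A) _)
      (t_mem_chart_qy n e p hb A hA ℓ hℓ hℓn hpn)
    exact h
  · -- `q ↦ q^ℓ` of (I1)
    have h := Fermat.Agent.ES.N34.ModelN4.map_mem_chart (R := ↥A) (qExpand Qbar ℓ)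
      (qExpand_algebraMap A ℓ) (s := (tq Qbar n e : LaurentSeries Qbar))
      (t := qExpand Qbar ℓ (tq Qbar n e)) (self_mem_chart (R := ↥A) _)
      (qy_mem_chart n e p hb A hA ℓ hℓ hℓn hpn)
    rw [qExpand_qExpand] at h
    have h2 : qExpand Qbar (ℓ ^ 2) (tq Qbar n e) = qExpand Qbar (ℓ * ℓ) (tq Qbar n e) :=
      qExpand_congr (sq ℓ) _
    show qExpand Qbar (ℓ ^ 2) (tq Qbar n e) ∈ chart ↥A (qExpand Qbar ℓ (tq Qbar n e))
    rw [h2]
    exact h

include hA hℓ hℓN hpn in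
/-- **chart 1**: `f` integral over `A[t⁻¹]` ⇒ the coefficients of `χ_f` are integral over
`A[t⁻¹]`. -/
theorem coeff_charpoly_mem_chart1 {f : ↥(Fbar N)} (hf : f ∈ chart ↥A (tV n e N hb hnN)⁻¹)
    (i : ℕ) :
    (charpolyAlong (heckeAlphaBar Qbar N ℓ) (heckeBetaBar Qbar N ℓ) hfin f).coeff i ∈
      chart ↥A (tV n e N hb hnN)⁻¹ := by
  have hℓn : ¬ ℓ ∣ n := not_dvd_base n N hnN ℓ hℓN
  haveI : Fact ℓ.Prime := ⟨hℓ⟩
  obtain ⟨ζ, hζ1, hζp⟩ := Fermat.Agent.ES.KRON.KronInst10.exists_primitiveRoot_unit (L := Qbar) ℓ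
  have hζ : IsPrimitiveRoot ζ ℓ := by
    rw [← IsPrimitiveRoot.coe_units_iff]; exact hζp
  have hs : (((tV n e N hb hnN)⁻¹ : ↥(Fbar N)) : LaurentSeries Qbar) = (tq Qbar n e)⁻¹ := rfl
  refine coeff_charpoly_mem_chart_core N ℓ A hℓ hℓN ζ hζ hfin _ f hf (fun b => ?_) ?_ i
  · -- twist of (I4)
    rw [hs, map_inv₀ (qExpand Qbar ℓ)]
    have h := Fermat.Agent.ES.N34.ModelN4.map_mem_chart (R := ↥A) (twistU (ζ ^ b))
      (twistU_algebraMap A (ζ ^ b)) (s := (qExpand Qbar ℓ (tq Qbar n e))⁻¹)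
      (t := (qExpand Qbar ℓ (tq Qbar n e))⁻¹)
      (by
        rw [map_inv₀,
          twistU_qExpand ℓ (ζ ^ b) (by rw [← pow_mul, mul_comm, pow_mul, hζ1, one_pow])]
        exact self_mem_chart (R := ↥A) _)
      (t_inv_mem_chart_qy_inv n e p hb A hA ℓ hℓ hℓn hpn)
    exact h
  · -- `q ↦ q^ℓ` of (I3)
    rw [hs, map_inv₀ (qExpand Qbar ℓ), map_inv₀ (qExpand Qbar (ℓ ^ 2))]
    have h := Fermat.Agent.ES.N34.ModelN4.map_mem_chart (R := ↥A) (qExpand Qbar ℓ)
      (qExpand_algebraMap A ℓ) (s := ((tq Qbar n e : LaurentSeries Qbar))⁻¹)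
      (t := (qExpand Qbar ℓ (tq Qbar n e))⁻¹)
      (by rw [map_inv₀]; exact self_mem_chart (R := ↥A) _)
      (qy_inv_mem_chart n e p hb A hA ℓ hℓ hℓn hpn)
    rw [map_inv₀, qExpand_qExpand] at h
    have h2 : qExpand Qbar (ℓ ^ 2) (tq Qbar n e) = qExpand Qbar (ℓ * ℓ) (tq Qbar n e) :=
      qExpand_congr (sq ℓ) _
    rw [h2]
    exact h

end Charts

end Fermat.Agent.ES.X44.CharpolyInt15
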