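/-
Programme X (S44), chapter (W2), ruling x3 (helper21): **THE FRICKE INVOLUTION COMMUTES WITH
`Θ = N_α ∘ β`** on functions (level `N`, `ℓ ∤ N` prime; characteristic `0` only).

`α = heckeAlphaBar Kbar N ℓ`, `β = heckeBetaBar Kbar N ℓ : F̄_N → F̄_{Nℓ}`; `W_N = frickeBarEquiv N`.

Part 1 (generic, two maps `φ, ψ : F → F'` and two ring automorphisms with `e₂ ∘ φ = ψ ∘ e₁`):
* `normAlong_transport`      : `e₁ (N_φ g) = N_ψ (e₂ g)`;
* `charpolyAlong_eval`       : `(charpolyAlong φ ψ hfin f).eval t = N_φ (φ t - ψ f)`;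
* `charpolyAlong_transport`  : `(charpolyAlong φ ψ _ f).map e₁ = charpolyAlong φ' ψ' _ (e₁ f)`.

Part 2 (the modular instance):
* `fricke_alpha`, `fricke_beta` : `W_{Nℓ} (α x) = β (W_N x)`, `W_{Nℓ} (β x) = α (W_N x)`
  (main: `FrickeBeta15.frickeBar_levelIncl` + involutivity);
* `fricke_normAlong_alpha/beta` : `W_N (N_α g) = N_β (W_{Nℓ} g)`, `W_N (N_β g) = N_α (W_{Nℓ} g)`;
* **`fricke_theta`** : `W_N (N_α (β f)) = N_α (β (W_N f))`
  (`= N_β (α (W_N f))` by transport, then main's `ConjNorm11.normAlong_alpha_beta_eq`);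
* `charpolyAlong_alpha_beta_eq` : (POLY-α) `=` (POLY): `charpolyAlong α β _ f = charpolyAlong β α _ f`
  (the two Kronecker products of `ConjAlpha24` / `Conjugates11` coincide);
* **`fricke_charpolyAlong`** : `(charpolyAlong α β _ f).map W_N = charpolyAlong α β _ (W_N f)`;
  `fricke_charpolyAlong_coeff` : `W_N (c_i (f)) = c_i (W_N f)`.
* `theta`, `theta_apply`, `theta_mul`, `theta_one`, `theta_pow`, `theta_ne_zero`, `fricke_theta'` :
  the same with the name `theta N ℓ f := N_α (β f)`.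

At the nodal level `N = M' * p` one has `NodalDefs3.frickeN M' p = frickeBarEquiv (M' * p)` by
definition (`abbrev`), so every statement applies verbatim to `frickeN`.
-/
import Mathlib
import Fermat.Agent.ES.KRON.ConjNorm11
import Fermat.Agent.ES.KRON.ConjAlpha24
import Fermat.Agent.ES.W33.FrickeBeta15

set_option autoImplicit false
set_option linter.unusedSectionVars false
set_option linter.style.haveILetI false

open ModularCurve AlgebraicCurve Polynomial

noncomputable section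

namespace Fermat.Agent.ES.X44.ThetaFricke21

open Fermat.Agent.X0 Fermat.Agent.ES.N34.FrickeFK8 Fermat.Agent.ES.HECKE.LevelPullback12
open Fermat.Agent.ES.HECKE.PointFormula28 Fermat.Agent.ES.KRON.Conjugates11

/-! ### Part 1: generic transport of norms and characteristic polynomials -/

section Generic

variable {K F F' : Type*} [Field K] [Field F] [Field F'] [Algebra K F] [Algebra K F']

/-- **Transport of the norm**: if `e₂ ∘ φ = ψ ∘ e₁` then `e₁ (N_φ g) = N_ψ (e₂ g)`. -/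
theorem normAlong_transport (φ ψ : F →ₐ[K] F') (e₁ : F ≃+* F) (e₂ : F' ≃+* F')
    (he : ∀ x, e₂ (φ x) = ψ (e₁ x)) (g : F') :
    e₁ (normAlong φ g) = normAlong ψ (e₂ g) := by
  have hcomp : RingHom.comp (@algebraMap F F' _ _ (algebraAlong ψ)) (e₁ : F →+* F) =
      RingHom.comp (e₂ : F' →+* F') (@algebraMap F F' _ _ (algebraAlong φ)) := by
    ext x
    exact (he x).symm
  have h := @Algebra.norm_eq_of_equiv_equiv F F' F F' _ _ _ _ (algebraAlong φ) (algebraAlong ψ)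
    e₁ e₂ hcomp g
  show e₁ (@Algebra.norm F F' _ _ (algebraAlong φ) g) = @Algebra.norm F F' _ _ (algebraAlong ψ) (e₂ g)
  rw [h, RingEquiv.apply_symm_apply]

/-- the characteristic polynomial of multiplication by `g`, evaluated at `t`, is `N (t - g)`. -/
theorem charpoly_lmul_eval {A B : Type*} [Field A] [Field B] [Algebra A B] [Module.Finite A B]
    (g : B) (t : A) :
    (LinearMap.charpoly (Algebra.lmul A B g)).eval t = Algebra.norm A (algebraMap A B t - g) := by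
  rw [LinearMap.eval_charpoly, Algebra.norm_apply]
  congr 1
  apply LinearMap.ext
  intro x
  rw [LinearMap.sub_apply, Module.algebraMap_end_apply]
  show t • x - g * x = (algebraMap A B t - g) * x
  rw [Algebra.smul_def, sub_mul]

/-- `(charpolyAlong φ ψ hfin f)(t) = N_φ (φ t - ψ f)`. -/
theorem charpolyAlong_eval (φ ψ : F →ₐ[K] F') (hfin : FiniteAlong K φ) (f t : F) :
    (charpolyAlong φ ψ hfin f).eval t = normAlong φ (φ t - ψ f) := by
  letI := algebraAlong φ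
  haveI : Module.Finite F F' := hfin
  exact charpoly_lmul_eval (A := F) (B := F') (ψ f) t

/-- **Transport of the characteristic polynomial.** -/
theorem charpolyAlong_transport [Infinite F] (φ ψ φ' ψ' : F →ₐ[K] F') (hfin : FiniteAlong K φ)
    (hfin' : FiniteAlong K φ') (e₁ : F ≃+* F) (e₂ : F' ≃+* F')
    (hφ : ∀ x, e₂ (φ x) = φ' (e₁ x)) (hψ : ∀ x, e₂ (ψ x) = ψ' (e₁ x)) (f : F) :
    (charpolyAlong φ ψ hfin f).map (e₁ : F →+* F) = charpolyAlong φ' ψ' hfin' (e₁ f) := by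
  apply Polynomial.funext
  intro s
  obtain ⟨t, rfl⟩ := e₁.surjective s
  have h1 : ((charpolyAlong φ ψ hfin f).map (e₁ : F →+* F)).eval ((e₁ : F →+* F) t) =
      (e₁ : F →+* F) ((charpolyAlong φ ψ hfin f).eval t) := Polynomial.eval_map_apply _ t
  have h2 : (e₁ : F →+* F) t = e₁ t := rfl
  rw [h2] at h1
  rw [h1, charpolyAlong_eval, charpolyAlong_eval]
  show e₁ (normAlong φ (φ t - ψ f)) = _
  rw [normAlong_transport φ φ' e₁ e₂ hφ, map_sub, hφ, hψ]

end Generic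

/-! ### Part 2: the modular instance -/

section Modular

variable (N ℓ : ℕ) [NeZero N] [NeZero ℓ]

/-- `levelIncl` at `N ∣ N * ℓ` is the Prelude's `α`. -/
theorem levelIncl_eq_alpha (h : N ∣ N * ℓ) (x : FF N) :
    levelIncl h x = heckeAlphaBar Kbar N ℓ x := by
  apply Subtype.ext
  rw [coe_levelIncl, coe_heckeAlphaBar]

/-- **`W_{Nℓ} ∘ α = β ∘ W_N`**. -/
theorem fricke_alpha (x : FF N) :
    frickeBar (N * ℓ) (heckeAlphaBar Kbar N ℓ x) = heckeBetaBar Kbar N ℓ (frickeBar N x) := by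
  rw [← levelIncl_eq_alpha N ℓ (Dvd.intro ℓ rfl) x]
  exact Fermat.Agent.ES.W33.FrickeBeta15.frickeBar_levelIncl N ℓ x

/-- **`W_{Nℓ} ∘ β = α ∘ W_N`**. -/
theorem fricke_beta (x : FF N) :
    frickeBar (N * ℓ) (heckeBetaBar Kbar N ℓ x) = heckeAlphaBar Kbar N ℓ (frickeBar N x) := by
  have h1 := fricke_alpha N ℓ (frickeBar N x)
  rw [frickeBar_frickeBar] at h1
  rw [← h1, frickeBar_frickeBar]

/-- `W_N (N_α g) = N_β (W_{Nℓ} g)`. -/
theorem fricke_normAlong_alpha (g : FF (N * ℓ)) :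
    frickeBarEquiv N (normAlong (heckeAlphaBar Kbar N ℓ) g) =
      normAlong (heckeBetaBar Kbar N ℓ) (frickeBarEquiv (N * ℓ) g) :=
  normAlong_transport (heckeAlphaBar Kbar N ℓ) (heckeBetaBar Kbar N ℓ)
    (frickeBarEquiv N).toRingEquiv (frickeBarEquiv (N * ℓ)).toRingEquiv
    (fun x => fricke_alpha N ℓ x) g

/-- `W_N (N_β g) = N_α (W_{Nℓ} g)`. -/
theorem fricke_normAlong_beta (g : FF (N * ℓ)) :
    frickeBarEquiv N (normAlong (heckeBetaBar Kbar N ℓ) g) =
      normAlong (heckeAlphaBar Kbar N ℓ) (frickeBarEquiv (N * ℓ) g) :=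
  normAlong_transport (heckeBetaBar Kbar N ℓ) (heckeAlphaBar Kbar N ℓ)
    (frickeBarEquiv N).toRingEquiv (frickeBarEquiv (N * ℓ)).toRingEquiv
    (fun x => fricke_beta N ℓ x) g

/-- **The Fricke involution commutes with `Θ = N_α ∘ β`.** -/
theorem fricke_theta (hℓ : ℓ.Prime) (hℓN : ¬ ℓ ∣ N) (f : FF N) :
    frickeBarEquiv N (normAlong (heckeAlphaBar Kbar N ℓ) (heckeBetaBar Kbar N ℓ f)) =
      normAlong (heckeAlphaBar Kbar N ℓ) (heckeBetaBar Kbar N ℓ (frickeBarEquiv N f)) := by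
  rw [fricke_normAlong_alpha]
  have h1 : frickeBarEquiv (N * ℓ) (heckeBetaBar Kbar N ℓ f) =
      heckeAlphaBar Kbar N ℓ (frickeBarEquiv N f) := fricke_beta N ℓ f
  rw [h1]
  exact (Fermat.Agent.ES.KRON.ConjNorm11.normAlong_alpha_beta_eq N ℓ hℓ hℓN
    (frickeBarEquiv N f)).symm

/-- the same for `N_β ∘ α`. -/
theorem fricke_theta_beta (hℓ : ℓ.Prime) (hℓN : ¬ ℓ ∣ N) (f : FF N) :
    frickeBarEquiv N (normAlong (heckeBetaBar Kbar N ℓ) (heckeAlphaBar Kbar N ℓ f)) =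
      normAlong (heckeBetaBar Kbar N ℓ) (heckeAlphaBar Kbar N ℓ (frickeBarEquiv N f)) := by
  rw [← Fermat.Agent.ES.KRON.ConjNorm11.normAlong_alpha_beta_eq N ℓ hℓ hℓN f,
    ← Fermat.Agent.ES.KRON.ConjNorm11.normAlong_alpha_beta_eq N ℓ hℓ hℓN (frickeBarEquiv N f)]
  exact fricke_theta N ℓ hℓ hℓN f

/-- the map `F̄_N → ℚ̄((q))`, `x ↦ x(q^ℓ)`, is injective on polynomials. -/
theorem map_val_qExpand_injective :
    Function.Injective (fun P : Polynomial (FF N) =>
      (P.map (algebraMap (FF N) (LaurentSeries Kbar))).map (qExpand Kbar ℓ)) := by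
  intro P Q h
  have h1 : Function.Injective (Polynomial.map (qExpand Kbar ℓ)) :=
    Polynomial.map_injective _ (qExpand_injective (R := Kbar) (N := ℓ))
  have h2 : Function.Injective (Polynomial.map (algebraMap (FF N) (LaurentSeries Kbar))) :=
    Polynomial.map_injective _ (algebraMap (FF N) (LaurentSeries Kbar)).injective
  exact h2 (h1 h)

/-- **(POLY-α) = (POLY)**: the characteristic polynomial of `β f` over `α` is the one of `α f`
over `β`. -/
theorem charpolyAlong_alpha_beta_eq (hℓ : ℓ.Prime) (hℓN : ¬ ℓ ∣ N)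
    (hfinα : FiniteAlong Kbar (heckeAlphaBar Kbar N ℓ))
    (hfinβ : FiniteAlong Kbar (heckeBetaBar Kbar N ℓ)) (f : FF N) :
    charpolyAlong (heckeAlphaBar Kbar N ℓ) (heckeBetaBar Kbar N ℓ) hfinα f =
      charpolyAlong (heckeBetaBar Kbar N ℓ) (heckeAlphaBar Kbar N ℓ) hfinβ f := by
  obtain ⟨ζ₀, hζ₀⟩ := HasEnoughRootsOfUnity.exists_primitiveRoot Kbar ℓ
  have hu : IsUnit ζ₀ := hζ₀.isUnit (NeZero.ne ℓ)
  have hζ : IsPrimitiveRoot hu.unit ℓ := by
    rw [← IsPrimitiveRoot.coe_units_iff, IsUnit.unit_spec]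
    exact hζ₀
  apply map_val_qExpand_injective N ℓ
  show ((charpolyAlong (heckeAlphaBar Kbar N ℓ) (heckeBetaBar Kbar N ℓ) hfinα f).map
      (algebraMap (FF N) (LaurentSeries Kbar))).map (qExpand Kbar ℓ) =
    ((charpolyAlong (heckeBetaBar Kbar N ℓ) (heckeAlphaBar Kbar N ℓ) hfinβ f).map
      (algebraMap (FF N) (LaurentSeries Kbar))).map (qExpand Kbar ℓ)
  rw [Fermat.Agent.ES.KRON.ConjAlpha24.charpolyAlong_alpha_map_of_val N ℓ hℓ hℓN hu.unit hζ
      (algebraMap (FF N) (LaurentSeries Kbar)) (fun _ => rfl) hfinα f,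
    charpolyAlong_map_of_val N ℓ hℓ hℓN hu.unit hζ
      (algebraMap (FF N) (LaurentSeries Kbar)) (fun _ => rfl) hfinβ f]

/-- `F̄_N` is infinite (it contains `ℚ̄`). -/
theorem infinite_FF : Infinite (FF N) :=
  Infinite.of_injective (algebraMap Kbar (FF N)) (algebraMap Kbar (FF N)).injective

/-- **The Fricke involution commutes with the Hecke characteristic polynomial** (of `β f` over
`α`). -/
theorem fricke_charpolyAlong (hℓ : ℓ.Prime) (hℓN : ¬ ℓ ∣ N)
    (hfin : FiniteAlong Kbar (heckeAlphaBar Kbar N ℓ)) (f : FF N) :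
    (charpolyAlong (heckeAlphaBar Kbar N ℓ) (heckeBetaBar Kbar N ℓ) hfin f).map
        ((frickeBarEquiv N).toRingEquiv : FF N →+* FF N) =
      charpolyAlong (heckeAlphaBar Kbar N ℓ) (heckeBetaBar Kbar N ℓ) hfin (frickeBarEquiv N f) := by
  haveI : Infinite (FF N) := infinite_FF N
  have hfinβ : FiniteAlong Kbar (heckeBetaBar Kbar N ℓ) :=
    Fermat.Agent.ES.HECKE.AlongDegree25.finiteAlong_beta Kbar N ℓ hℓ hℓN
  rw [charpolyAlong_alpha_beta_eq N ℓ hℓ hℓN hfin hfinβ (frickeBarEquiv N f)]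
  exact charpolyAlong_transport (heckeAlphaBar Kbar N ℓ) (heckeBetaBar Kbar N ℓ)
    (heckeBetaBar Kbar N ℓ) (heckeAlphaBar Kbar N ℓ) hfin hfinβ
    (frickeBarEquiv N).toRingEquiv (frickeBarEquiv (N * ℓ)).toRingEquiv
    (fun x => fricke_alpha N ℓ x) (fun x => fricke_beta N ℓ x) f

/-- coefficientwise: `W_N (c_i (f)) = c_i (W_N f)`. -/
theorem fricke_charpolyAlong_coeff (hℓ : ℓ.Prime) (hℓN : ¬ ℓ ∣ N)
    (hfin : FiniteAlong Kbar (heckeAlphaBar Kbar N ℓ)) (f : FF N) (i : ℕ) :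
    frickeBarEquiv N
        ((charpolyAlong (heckeAlphaBar Kbar N ℓ) (heckeBetaBar Kbar N ℓ) hfin f).coeff i) =
      (charpolyAlong (heckeAlphaBar Kbar N ℓ) (heckeBetaBar Kbar N ℓ) hfin
        (frickeBarEquiv N f)).coeff i := by
  rw [← fricke_charpolyAlong N ℓ hℓ hℓN hfin f, Polynomial.coeff_map]
  rfl

/-! ### the operator `Θ` with a name -/

/-- `Θ f = N_α (β f)`: the function with `div (Θ f) = T_ℓ (div f)`. -/
def theta (f : FF N) : FF N :=
  normAlong (heckeAlphaBar Kbar N ℓ) (heckeBetaBar Kbar N ℓ f)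

theorem theta_apply (f : FF N) :
    theta N ℓ f = normAlong (heckeAlphaBar Kbar N ℓ) (heckeBetaBar Kbar N ℓ f) := rfl

theorem theta_one : theta N ℓ 1 = 1 := by
  letI := algebraAlong (heckeAlphaBar Kbar N ℓ)
  show Algebra.norm (FF N) (heckeBetaBar Kbar N ℓ 1) = 1
  rw [map_one, map_one]

theorem theta_mul (f g : FF N) : theta N ℓ (f * g) = theta N ℓ f * theta N ℓ g := by
  letI := algebraAlong (heckeAlphaBar Kbar N ℓ)
  show Algebra.norm (FF N) (heckeBetaBar Kbar N ℓ (f * g)) =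
    Algebra.norm (FF N) (heckeBetaBar Kbar N ℓ f) * Algebra.norm (FF N) (heckeBetaBar Kbar N ℓ g)
  rw [map_mul, map_mul]

theorem theta_pow (f : FF N) (n : ℕ) : theta N ℓ (f ^ n) = theta N ℓ f ^ n := by
  letI := algebraAlong (heckeAlphaBar Kbar N ℓ)
  show Algebra.norm (FF N) (heckeBetaBar Kbar N ℓ (f ^ n)) =
    Algebra.norm (FF N) (heckeBetaBar Kbar N ℓ f) ^ n
  rw [map_pow, map_pow]

theorem theta_ne_zero (hℓ : ℓ.Prime) (hℓN : ¬ ℓ ∣ N) {f : FF N} (hf : f ≠ 0) :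
    theta N ℓ f ≠ 0 := by
  letI := algebraAlong (heckeAlphaBar Kbar N ℓ)
  haveI : Module.Finite (FF N) (FF (N * ℓ)) :=
    Fermat.Agent.ES.HECKE.AlongDegree25.finiteAlong_alpha Kbar N ℓ hℓ hℓN
  show Algebra.norm (FF N) (heckeBetaBar Kbar N ℓ f) ≠ 0
  rw [Algebra.norm_ne_zero_iff]
  exact (_root_.map_ne_zero _).mpr hf

/-- `W_N ∘ Θ = Θ ∘ W_N`. -/
theorem fricke_theta' (hℓ : ℓ.Prime) (hℓN : ¬ ℓ ∣ N) (f : FF N) :
    frickeBarEquiv N (theta N ℓ f) = theta N ℓ (frickeBarEquiv N f) :=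
  fricke_theta N ℓ hℓ hℓN f

end Modular

end Fermat.Agent.ES.X44.ThetaFricke21
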