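/-
Programme X (S44), chapter (QH)/(X-a), leaf **C2** of helper8's x4/x5 (helper21): **THE `O2`-TWIN OF THE
COEFFICIENT LEMMA C1**, by Fricke transport.

`χ_f := charpolyAlong α β hfin f` is the characteristic polynomial of `β f` over `α (F̄_N)`
(`N = M' * p`, `ℓ ∤ N` prime).  C1 (helper20) says: for `f ∈ O1` every coefficient of `χ_f` lies in `O1`,
and the coefficients of index `< ℓ + 1` have `rho1 = 0` if `rho1 f = 0`.  Since `W_N` commutes with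
`f ↦ χ_f` (`ThetaFricke21.fricke_charpolyAlong`) and `O2 = W_N⁻¹ O1`, `rho2 = rho1 ∘ W_N`, the same holds
for `(O2, rho2)`, hence for `GN = O1 ⊓ O2`.

* `CoeffIn R ρ P d` : the literal (`R` a subring, `ρ` its reduction, `P : F → F[X]`, `d` the degree);
* `coeffIn_comap`   : generic transport through a ring automorphism `W` with `(P f).map W = P (W f)`;
* `coeffIn_congr`   : `P = P'` pointwise;
* **`coeffIn_O2`**   : `CoeffIn O1 rho1 χ (ℓ+1) → CoeffIn O2 rho2 χ (ℓ+1)`;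
* `coeffIn_beta_alpha` : the other orientation `charpolyAlong β α` is THE SAME polynomial
  (`ThetaFricke21.charpolyAlong_alpha_beta_eq`), so C1 is needed in ONE orientation only;
* unfolded consumer forms: `coeff_mem_O2`, `rho2_coeff_eq_zero`, `coeff_mem_GN`,
  `redN_coeff_fst_eq_zero`, `redN_coeff_snd_eq_zero`.
-/
import Mathlib
import Fermat.Agent.ES.X44.ThetaFricke21
import Fermat.Agent.ES.W33.NodalDefs3

set_option autoImplicit false
set_option linter.unusedSectionVars false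
set_option linter.style.haveILetI false
set_option synthInstance.maxHeartbeats 400000

open ModularCurve AlgebraicCurve Polynomial

noncomputable section

namespace Fermat.Agent.ES.X44.CharpolyW21

/-! ### the literal and its generic transport -/

section Generic

variable {F k : Type*} [Field F] [CommRing k]

/-- **The coefficient literal**: for `f ∈ R` every coefficient of `P f` lies in `R`, and those of index
`< d` are killed by `ρ` as soon as `ρ f = 0`. -/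
def CoeffIn (R : Subring F) (ρ : ↥R →+* k) (P : F → Polynomial F) (d : ℕ) : Prop :=
  ∀ (f : F) (hf : f ∈ R) (i : ℕ), ∃ h : (P f).coeff i ∈ R,
    ρ ⟨f, hf⟩ = 0 → i < d → ρ ⟨(P f).coeff i, h⟩ = 0

theorem coeffIn_congr {R : Subring F} {ρ : ↥R →+* k} {P P' : F → Polynomial F} {d : ℕ}
    (hPP' : ∀ f, P f = P' f) (h : CoeffIn R ρ P d) : CoeffIn R ρ P' d := by
  intro f hf i
  obtain ⟨h1, h2⟩ := h f hf i
  have e : (P' f).coeff i = (P f).coeff i := by rw [hPP' f]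
  refine ⟨by rw [e]; exact h1, fun h0 hi => ?_⟩
  have : (⟨(P' f).coeff i, by rw [e]; exact h1⟩ : ↥R) = ⟨(P f).coeff i, h1⟩ := Subtype.ext e
  rw [this]
  exact h2 h0 hi

/-- **Transport of the literal** through a ring automorphism commuting with `P`. -/
theorem coeffIn_comap (R : Subring F) (ρ : ↥R →+* k) (P : F → Polynomial F) (d : ℕ) (W : F ≃+* F)
    (hP : ∀ f, (P f).map (W : F →+* F) = P (W f)) (h : CoeffIn R ρ P d) :
    CoeffIn (R.comap (W : F →+* F))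
      (ρ.comp ((W : F →+* F).restrict (R.comap (W : F →+* F)) R (fun _ hx => hx))) P d := by
  intro f hf i
  have hWf : W f ∈ R := hf
  obtain ⟨h1, h2⟩ := h (W f) hWf i
  have e : W ((P f).coeff i) = (P (W f)).coeff i := by
    rw [← hP f, Polynomial.coeff_map]
    rfl
  have hmem : (P f).coeff i ∈ R.comap (W : F →+* F) := by
    show W ((P f).coeff i) ∈ R
    rw [e]
    exact h1
  refine ⟨hmem, fun h0 hi => ?_⟩
  have h0' : ρ ⟨W f, hWf⟩ = 0 := h0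
  have h3 := h2 h0' hi
  show ρ ⟨W ((P f).coeff i), hmem⟩ = 0
  have : (⟨W ((P f).coeff i), hmem⟩ : ↥R) = ⟨(P (W f)).coeff i, h1⟩ := Subtype.ext e
  rw [this]
  exact h3

end Generic

/-! ### the nodal instance -/

section Nodal

open Fermat.Agent.X0 Fermat.Agent.RED.Interface4 Fermat.Agent.ES.RED.Contract8
  Fermat.Agent.ES.RED.ModelInst4 Fermat.Agent.ES.W33.NodalDefs3
  Fermat.Agent.ES.KRON.Conjugates11 Fermat.Agent.ES.X44.ThetaFricke21

attribute [local instance 5000] HahnSeries.powerSeriesAlgebra SubalgebraClass.toAlgebra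

variable (M' : ℕ) [NeZero M'] (p : ℕ) [Fact p.Prime] (A : ValuationSubring Qbar)
  (ℓ : ℕ) [NeZero ℓ]

/-- the Hecke characteristic polynomial `χ_f` at the level `N = M' * p`. -/
abbrev chi (hfin : FiniteAlong Qbar (heckeAlphaBar Qbar (M' * p) ℓ)) (f : ↥(Fbar (M' * p))) :
    Polynomial ↥(Fbar (M' * p)) :=
  charpolyAlong (heckeAlphaBar Qbar (M' * p) ℓ) (heckeBetaBar Qbar (M' * p) ℓ) hfin f

/-- **C2**: the `O2`-twin of C1. -/
theorem coeffIn_O2 (hℓ : ℓ.Prime) (hℓN : ¬ ℓ ∣ M' * p)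
    (hfin : FiniteAlong Qbar (heckeAlphaBar Qbar (M' * p) ℓ))
    (h : CoeffIn (O1 M' p A) (rho1 M' p A) (chi M' p ℓ hfin) (ℓ + 1)) :
    CoeffIn (O2 M' p A) (rho2 M' p A) (chi M' p ℓ hfin) (ℓ + 1) :=
  coeffIn_comap (O1 M' p A) (rho1 M' p A) (chi M' p ℓ hfin) (ℓ + 1)
    (frickeN M' p).toRingEquiv (fun f => fricke_charpolyAlong (M' * p) ℓ hℓ hℓN hfin f) h

/-- the orientation `charpolyAlong β α` gives THE SAME polynomial, hence the same literal. -/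
theorem coeffIn_beta_alpha (hℓ : ℓ.Prime) (hℓN : ¬ ℓ ∣ M' * p)
    (hfin : FiniteAlong Qbar (heckeAlphaBar Qbar (M' * p) ℓ))
    (hfinβ : FiniteAlong Qbar (heckeBetaBar Qbar (M' * p) ℓ))
    {k : Type*} [CommRing k] (R : Subring ↥(Fbar (M' * p))) (ρ : ↥R →+* k) (d : ℕ)
    (h : CoeffIn R ρ (chi M' p ℓ hfin) d) :
    CoeffIn R ρ (fun f => charpolyAlong (heckeBetaBar Qbar (M' * p) ℓ)
      (heckeAlphaBar Qbar (M' * p) ℓ) hfinβ f) d :=
  coeffIn_congr (fun f => charpolyAlong_alpha_beta_eq (M' * p) ℓ hℓ hℓN hfin hfinβ f) h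

/-! ### unfolded consumer forms -/

theorem coeff_mem_O2 (hℓ : ℓ.Prime) (hℓN : ¬ ℓ ∣ M' * p)
    (hfin : FiniteAlong Qbar (heckeAlphaBar Qbar (M' * p) ℓ))
    (h : CoeffIn (O1 M' p A) (rho1 M' p A) (chi M' p ℓ hfin) (ℓ + 1))
    {f : ↥(Fbar (M' * p))} (hf : f ∈ O2 M' p A) (i : ℕ) :
    (chi M' p ℓ hfin f).coeff i ∈ O2 M' p A :=
  (coeffIn_O2 M' p A ℓ hℓ hℓN hfin h f hf i).1

theorem rho2_coeff_eq_zero (hℓ : ℓ.Prime) (hℓN : ¬ ℓ ∣ M' * p)
    (hfin : FiniteAlong Qbar (heckeAlphaBar Qbar (M' * p) ℓ))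
    (h : CoeffIn (O1 M' p A) (rho1 M' p A) (chi M' p ℓ hfin) (ℓ + 1))
    {f : ↥(Fbar (M' * p))} (hf : f ∈ O2 M' p A) (h0 : rho2 M' p A ⟨f, hf⟩ = 0) {i : ℕ}
    (hi : i < ℓ + 1) :
    rho2 M' p A ⟨(chi M' p ℓ hfin f).coeff i, coeff_mem_O2 M' p A ℓ hℓ hℓN hfin h hf i⟩ = 0 :=
  (coeffIn_O2 M' p A ℓ hℓ hℓN hfin h f hf i).2 h0 hi

/-- for `g ∈ GN` the coefficients of `χ_g` lie in `GN`. -/
theorem coeff_mem_GN (hℓ : ℓ.Prime) (hℓN : ¬ ℓ ∣ M' * p)
    (hfin : FiniteAlong Qbar (heckeAlphaBar Qbar (M' * p) ℓ))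
    (h : CoeffIn (O1 M' p A) (rho1 M' p A) (chi M' p ℓ hfin) (ℓ + 1))
    {g : ↥(Fbar (M' * p))} (hg : g ∈ GN M' p A) (i : ℕ) :
    (chi M' p ℓ hfin g).coeff i ∈ GN M' p A :=
  ⟨(h g (GN_le_O1 M' p A hg) i).1, coeff_mem_O2 M' p A ℓ hℓ hℓN hfin h (GN_le_O2 M' p A hg) i⟩

/-- first component of `redN` of the coefficients. -/
theorem redN_coeff_fst_eq_zero (hℓ : ℓ.Prime) (hℓN : ¬ ℓ ∣ M' * p)
    (hfin : FiniteAlong Qbar (heckeAlphaBar Qbar (M' * p) ℓ))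
    (h : CoeffIn (O1 M' p A) (rho1 M' p A) (chi M' p ℓ hfin) (ℓ + 1))
    {g : ↥(Fbar (M' * p))} (hg : g ∈ GN M' p A) (h0 : (redN M' p A ⟨g, hg⟩).1 = 0) {i : ℕ}
    (hi : i < ℓ + 1) :
    (redN M' p A ⟨(chi M' p ℓ hfin g).coeff i, coeff_mem_GN M' p A ℓ hℓ hℓN hfin h hg i⟩).1 = 0 := by
  rw [redN_fst] at h0 ⊢
  exact (h g (GN_le_O1 M' p A hg) i).2 h0 hi

/-- second component of `redN` of the coefficients. -/
theorem redN_coeff_snd_eq_zero (hℓ : ℓ.Prime) (hℓN : ¬ ℓ ∣ M' * p)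
    (hfin : FiniteAlong Qbar (heckeAlphaBar Qbar (M' * p) ℓ))
    (h : CoeffIn (O1 M' p A) (rho1 M' p A) (chi M' p ℓ hfin) (ℓ + 1))
    {g : ↥(Fbar (M' * p))} (hg : g ∈ GN M' p A) (h0 : (redN M' p A ⟨g, hg⟩).2 = 0) {i : ℕ}
    (hi : i < ℓ + 1) :
    (redN M' p A ⟨(chi M' p ℓ hfin g).coeff i, coeff_mem_GN M' p A ℓ hℓ hℓN hfin h hg i⟩).2 = 0 := by
  rw [redN_snd] at h0 ⊢
  exact rho2_coeff_eq_zero M' p A ℓ hℓ hℓN hfin h (GN_le_O2 M' p A hg) h0 hi

end Nodal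

end Fermat.Agent.ES.X44.CharpolyW21
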