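/-
Programme X (S44), chapter (W2), ruling x3 (helper20): **THE GAUSS VALUATION ON `q`-SERIES.**

`A ≤ L` a valuation subring, `π : A →+* k` a ring homomorphism into a field.
* `serRing A : Subring (LaurentSeries L)`   : the series with coefficients in `A` (`= A((q))`);
* `serRed A π : serRing A →+* LaurentSeries k` : coefficientwise reduction;
* the Gauss valuation ring of series is `gaussInt (serRing A) (serRed A π)` (fractions `a / b` of
  `A`-series with `b̄ ≠ 0`) with reduction `rho (serRing A) (serRed A π)` (`V19/GaussFrac15`);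
* `isRedOf_ser_iff` : `IsRedOf … X φ ↔ ∃ S₀ A₀ : A((q)), S̄₀ ≠ 0 ∧ X · S₀ = A₀ ∧ φ · S̄₀ = Ā₀`
  (the shape of main's `NodalGauss3.series_criterion` / `FrickeBar8.series_criterion`);
* transport along ring endomorphisms natural in the coefficients (`isRedOf_ser_map`): `twistU u`
  (`f(q) ↦ f(u q)`, `u ∈ Aˣ`), `qExpand ℓ` (`f(q) ↦ f(q^ℓ)`), finite products, `normProd ℓ u`
  (`∏_{b<ℓ} f(u^b q) · f(q^{ℓ²})`);
* THE CONVERSE FOR `q ↦ q^ℓ` (`isRedOf_of_qExpand`): if `X(q^ℓ)` is Gauss-integral with reduction `ψ`, then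
  `X` is Gauss-integral and `ψ = φ(q^ℓ)`, `φ` the reduction of `X` (through the `ℓ`-sections of
  `IG/AN/SectionKit3`; projection formula `sec_qExpand_mul`);
* `qExpand_red_eq_normProd` : reduction of the identity `Y(q^ℓ) = normProd ℓ u X`;
  `isPrimitiveRoot_units_map` : a primitive `ℓ`-th root of unity stays primitive mod `π` if `ℓ ≠ 0` in `k`;
* the link with the Gauss ring of a function field `E ≤ L((q))` (`isRedOf_coe`);
* constants (`isRedOf_const`, `const_mem_of_isGI`).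
-/
import Mathlib
import Fermat.Agent.ES.KRON.KronNorm10
import Fermat.Agent.IG.AN.SectionKit3
import Fermat.Agent.ES.RED.GaussRing15
import Fermat.Agent.ES.V19.GaussFrac15

set_option autoImplicit false
set_option linter.unusedSectionVars false

open HahnSeries ModularCurve

noncomputable section

namespace Fermat.Agent.ES.X44.GaussSer20

open Fermat.Agent.ES.RED.GaussRing15 Fermat.Agent.ES.V19.GaussFrac15
  Fermat.Agent.ES.KRON.KronCong24 Fermat.Agent.ES.KRON.KronNorm10 Fermat.Agent.IG.AN.SectionKit3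

/-! ### generic: finite products of reductions -/

section Prod

variable {F Ft : Type*} [Field F] [Field Ft] {G : Subring F} {red : ↥G →+* Ft}

open Classical in
theorem isRedOf_prod {ι : Type*} (s : Finset ι) (f : ι → F) (φ : ι → Ft)
    (h : ∀ i ∈ s, IsRedOf G red (f i) (φ i)) :
    IsRedOf G red (∏ i ∈ s, f i) (∏ i ∈ s, φ i) := by
  induction s using Finset.induction_on with
  | empty =>
    rw [Finset.prod_empty, Finset.prod_empty]
    exact isRedOf_one
  | insert a s ha ih =>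
    rw [Finset.prod_insert ha, Finset.prod_insert ha]
    exact (h a (Finset.mem_insert_self a s)).mul
      (ih fun i hi => h i (Finset.mem_insert_of_mem hi))

theorem isRedOf_pow {f : F} {φ : Ft} (h : IsRedOf G red f φ) (n : ℕ) :
    IsRedOf G red (f ^ n) (φ ^ n) := by
  induction n with
  | zero =>
    rw [pow_zero, pow_zero]
    exact isRedOf_one
  | succ n ih =>
    rw [pow_succ, pow_succ]
    exact ih.mul h

end Prod

/-! ### sections: the projection formula -/

section Sections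

variable {R : Type*} [CommRing R] (p : ℕ) [NeZero p]

theorem sec_sum {ι : Type*} (s : Finset ι) (f : ι → LaurentSeries R) (j : ℕ) :
    sec p j (∑ i ∈ s, f i) = ∑ i ∈ s, sec p j (f i) := by
  ext n
  rw [sec_coeff, HahnSeries.coeff_sum, HahnSeries.coeff_sum]
  exact Finset.sum_congr rfl fun i _ => (sec_coeff p j (f i) n).symm

theorem sec_single_mul_qExpand {i j : ℕ} (hi : i < p) (hj : j < p) (g : LaurentSeries R) :
    sec p j (single (i : ℤ) (1 : R) * qExpand R p g) = if i = j then g else 0 := by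
  have hp' : (p : ℤ) ≠ 0 := by exact_mod_cast NeZero.ne p
  ext n
  rw [sec_coeff, coeff_single_mul_qExpand]
  by_cases hij : i = j
  · subst hij
    rw [if_pos rfl]
    have h1 : (p : ℤ) * n + (i : ℤ) - (i : ℤ) = (p : ℤ) * n := by ring
    rw [h1, if_pos (dvd_mul_right _ _), Int.mul_ediv_cancel_left _ hp']
  · rw [if_neg hij, if_neg, HahnSeries.coeff_zero]
    rintro ⟨c, hc⟩
    apply hij
    have h2 : (p : ℤ) ∣ (j : ℤ) - (i : ℤ) := ⟨c - n, by rw [mul_sub]; linarith⟩
    have h3 : |(j : ℤ) - (i : ℤ)| < (p : ℤ) := by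
      rw [abs_lt]
      constructor <;> omega
    have h4 := Int.eq_zero_of_abs_lt_dvd h2 h3
    omega

/-- **projection formula**: the `j`-th `p`-section of `x(q^p) · b` is `x · (sec_j b)`. -/
theorem sec_qExpand_mul {j : ℕ} (hj : j < p) (x b : LaurentSeries R) :
    sec p j (qExpand R p x * b) = x * sec p j b := by
  have h1 : qExpand R p x * b =
      ∑ i : Fin p, single ((i : ℕ) : ℤ) (1 : R) * qExpand R p (x * sec p i b) := by
    conv_lhs => rw [eq_sum_sec p b, Finset.mul_sum]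
    refine Finset.sum_congr rfl fun i _ => ?_
    rw [map_mul]
    ring
  rw [h1, sec_sum, Finset.sum_eq_single (⟨j, hj⟩ : Fin p)]
  · rw [sec_single_mul_qExpand p hj hj, if_pos rfl]
  · intro i _ hij
    rw [sec_single_mul_qExpand p i.2 hj, if_neg]
    exact fun h => hij (Fin.ext h)
  · intro h
    exact absurd (Finset.mem_univ _) h

/-- a nonzero series has a nonzero section. -/
theorem exists_sec_ne_zero {f : LaurentSeries R} (hf : f ≠ 0) : ∃ j : ℕ, j < p ∧ sec p j f ≠ 0 := by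
  by_contra hcon
  have hcon' : ∀ j : ℕ, j < p → sec p j f = 0 := fun j hj =>
    by_contra fun h => hcon ⟨j, hj, h⟩
  apply hf
  rw [eq_sum_sec p f]
  refine Finset.sum_eq_zero fun i _ => ?_
  rw [hcon' i i.2, map_zero, mul_zero]

end Sections

/-! ### the ring of `A`-series and its reduction -/

section Ring

variable {L : Type*} [Field L] (A : ValuationSubring L) {k : Type*} [Field k] (π : ↥A →+* k)

/-- **`A((q)) ⊆ L((q))`**: the series with coefficients in `A`. -/
def serRing : Subring (LaurentSeries L) := (coeffMap A.subtype).range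

theorem mem_serRing_iff (f : LaurentSeries L) :
    f ∈ serRing A ↔ ∃ Y : LaurentSeries ↥A, coeffMap A.subtype Y = f := RingHom.mem_range

theorem coeffMap_mem_serRing (Y : LaurentSeries ↥A) : coeffMap A.subtype Y ∈ serRing A :=
  ⟨Y, rfl⟩

/-- `A((q)) ≃ serRing A`. -/
def serEquiv : LaurentSeries ↥A ≃+* ↥(serRing A) :=
  RingEquiv.ofBijective (coeffMap A.subtype).rangeRestrict
    ⟨fun _ _ h => coeffMap_subtype_injective A (congrArg Subtype.val h),
      (coeffMap A.subtype).rangeRestrict_surjective⟩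

theorem coe_serEquiv (Y : LaurentSeries ↥A) :
    ((serEquiv A Y : ↥(serRing A)) : LaurentSeries L) = coeffMap A.subtype Y := rfl

/-- **coefficientwise reduction** of `A`-series. -/
def serRed : ↥(serRing A) →+* LaurentSeries k :=
  (coeffMap π).comp ((serEquiv A).symm : ↥(serRing A) →+* LaurentSeries ↥A)

/-- the reduction is computed by ANY `A`-series with the given image. -/
theorem serRed_eq (f : ↥(serRing A)) {Y : LaurentSeries ↥A}
    (hY : coeffMap A.subtype Y = (f : LaurentSeries L)) : serRed A π f = coeffMap π Y := by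
  have h1 : (serEquiv A).symm f = Y := by
    apply (serEquiv A).injective
    rw [RingEquiv.apply_symm_apply]
    exact Subtype.ext hY.symm
  show coeffMap π ((serEquiv A).symm f) = coeffMap π Y
  rw [h1]

theorem serRed_mk (Y : LaurentSeries ↥A) :
    serRed A π ⟨coeffMap A.subtype Y, coeffMap_mem_serRing A Y⟩ = coeffMap π Y :=
  serRed_eq A π _ rfl

/-- **`IsRedOf` for series, fraction form.** -/
theorem isRedOf_ser_iff {X : LaurentSeries L} {φ : LaurentSeries k} :
    IsRedOf (serRing A) (serRed A π) X φ ↔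
      ∃ S₀ A₀ : LaurentSeries ↥A, coeffMap π S₀ ≠ 0 ∧
        X * coeffMap A.subtype S₀ = coeffMap A.subtype A₀ ∧
          φ * coeffMap π S₀ = coeffMap π A₀ := by
  constructor
  · rintro ⟨a, b, hb, hab, hφ⟩
    obtain ⟨A₀, hA₀⟩ := (mem_serRing_iff A _).1 a.2
    obtain ⟨S₀, hS₀⟩ := (mem_serRing_iff A _).1 b.2
    refine ⟨S₀, A₀, ?_, ?_, ?_⟩
    · rwa [← serRed_eq A π b hS₀]
    · rw [hS₀, hA₀]
      exact hab
    · rw [← serRed_eq A π b hS₀, ← serRed_eq A π a hA₀]
      exact hφ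
  · rintro ⟨S₀, A₀, hS, hrel, hφ⟩
    refine ⟨⟨_, coeffMap_mem_serRing A A₀⟩, ⟨_, coeffMap_mem_serRing A S₀⟩, ?_, hrel, ?_⟩
    · rw [serRed_mk]
      exact hS
    · rw [serRed_mk, serRed_mk]
      exact hφ

/-- `IsGI` for series, fraction form. -/
theorem isGI_ser_iff {X : LaurentSeries L} :
    IsGI (serRing A) (serRed A π) X ↔
      ∃ S₀ A₀ : LaurentSeries ↥A, coeffMap π S₀ ≠ 0 ∧
        X * coeffMap A.subtype S₀ = coeffMap A.subtype A₀ := by
  constructor
  · intro h
    obtain ⟨φ, hφ⟩ := h.exists_isRedOf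
    obtain ⟨S₀, A₀, hS, hrel, -⟩ := (isRedOf_ser_iff A π).1 hφ
    exact ⟨S₀, A₀, hS, hrel⟩
  · rintro ⟨S₀, A₀, hS, hrel⟩
    exact ((isRedOf_ser_iff A π).2
      ⟨S₀, A₀, hS, hrel, div_mul_cancel₀ (coeffMap π A₀) hS⟩).isGI

/-! ### constants -/

theorem isRedOf_const (a : ↥A) :
    IsRedOf (serRing A) (serRed A π) (HahnSeries.single 0 (a : L)) (HahnSeries.single 0 (π a)) := by
  rw [isRedOf_ser_iff]
  refine ⟨1, HahnSeries.single 0 a, ?_, ?_, ?_⟩
  · rw [map_one]
    exact one_ne_zero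
  · rw [map_one, mul_one, coeffMap_single]
    rfl
  · rw [map_one, mul_one, coeffMap_single]

/-- a Gauss-integral constant lies in `A` (for a LOCAL `π`). -/
theorem const_mem_of_isGI (hπ : ∀ a : ↥A, ¬ IsUnit a → π a = 0) {c : L}
    (h : IsGI (serRing A) (serRed A π) (HahnSeries.single 0 c)) : c ∈ A := by
  obtain ⟨S₀, A₀, hS, hrel⟩ := (isGI_ser_iff A π).1 h
  by_contra hc
  have hc0 : c ≠ 0 := fun h0 => hc (h0 ▸ A.zero_mem)
  have hd : c⁻¹ ∈ A := (A.mem_or_inv_mem c).resolve_left hc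
  have hdu : ¬ IsUnit (⟨c⁻¹, hd⟩ : ↥A) := by
    intro hU
    obtain ⟨e, he⟩ := hU.exists_right_inv
    apply hc
    have h2 : c⁻¹ * (e : L) = 1 := congrArg Subtype.val he
    have h3 : c = (e : L) := by
      rw [← mul_one c, ← h2, ← mul_assoc, mul_inv_cancel₀ hc0, one_mul]
    rw [h3]
    exact e.2
  apply hS
  have h4 : coeffMap A.subtype S₀ =
      coeffMap A.subtype (HahnSeries.single 0 (⟨c⁻¹, hd⟩ : ↥A) * A₀) := by
    rw [map_mul, ← hrel, coeffMap_single, ← mul_assoc]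
    have h5 : (HahnSeries.single 0 (A.subtype ⟨c⁻¹, hd⟩) : LaurentSeries L) *
        HahnSeries.single 0 c = 1 := by
      rw [HahnSeries.single_mul_single, add_zero]
      show HahnSeries.single 0 (c⁻¹ * c) = 1
      rw [inv_mul_cancel₀ hc0]
      rfl
    rw [h5, one_mul]
  have h6 := coeffMap_subtype_injective A h4
  rw [h6, map_mul, coeffMap_single, hπ _ hdu, HahnSeries.single_eq_zero, zero_mul]

/-! ### transport along series operations natural in the coefficients -/

section Nat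

variable (ΨL : LaurentSeries L →+* LaurentSeries L) (ΨA : LaurentSeries ↥A →+* LaurentSeries ↥A)
  (Ψk : LaurentSeries k →+* LaurentSeries k)
  (hΨA : ∀ Y : LaurentSeries ↥A, coeffMap A.subtype (ΨA Y) = ΨL (coeffMap A.subtype Y))
  (hΨk : ∀ Y : LaurentSeries ↥A, coeffMap π (ΨA Y) = Ψk (coeffMap π Y))

include hΨA hΨk in
theorem isRedOf_ser_map {X : LaurentSeries L} {φ : LaurentSeries k}
    (h : IsRedOf (serRing A) (serRed A π) X φ) :
    IsRedOf (serRing A) (serRed A π) (ΨL X) (Ψk φ) := by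
  rw [isRedOf_ser_iff] at h ⊢
  obtain ⟨S₀, A₀, hS, hrel, hφ⟩ := h
  refine ⟨ΨA S₀, ΨA A₀, ?_, ?_, ?_⟩
  · rw [hΨk]
    exact fun h0 => hS (Ψk.injective (by rw [h0, map_zero]))
  · rw [hΨA, hΨA, ← map_mul, hrel]
  · rw [hΨk, hΨk, ← map_mul, hφ]

end Nat

/-- **`f(q) ↦ f(u q)`**, `u ∈ Aˣ`. -/
theorem isRedOf_twistU (u : (↥A)ˣ) {X : LaurentSeries L} {φ : LaurentSeries k}
    (h : IsRedOf (serRing A) (serRed A π) X φ) :
    IsRedOf (serRing A) (serRed A π)
      (twistU (Units.map ((A.subtype : ↥A →+* L) : ↥A →* L) u) X)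
      (twistU (Units.map ((π : ↥A →+* k) : ↥A →* k) u) φ) :=
  isRedOf_ser_map A π (twistU _) (twistU u) (twistU _)
    (fun Y => coeffMap_twistU A.subtype u Y) (fun Y => coeffMap_twistU π u Y) h

/-- **`f(q) ↦ f(q^ℓ)`.** -/
theorem isRedOf_qExpand (ℓ : ℕ) [NeZero ℓ] {X : LaurentSeries L} {φ : LaurentSeries k}
    (h : IsRedOf (serRing A) (serRed A π) X φ) :
    IsRedOf (serRing A) (serRed A π) (qExpand L ℓ X) (qExpand k ℓ φ) :=
  isRedOf_ser_map A π (qExpand L ℓ) (qExpand ↥A ℓ) (qExpand k ℓ)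
    (fun Y => coeffMap_qExpand A.subtype ℓ Y) (fun Y => coeffMap_qExpand π ℓ Y) h

/-- **`f ↦ ∏_{b<ℓ} f(u^b q) · f(q^{ℓ²})`**, `u ∈ Aˣ`. -/
theorem isRedOf_normProd (ℓ : ℕ) [NeZero ℓ] (u : (↥A)ˣ) {X : LaurentSeries L}
    {φ : LaurentSeries k} (h : IsRedOf (serRing A) (serRed A π) X φ) :
    IsRedOf (serRing A) (serRed A π)
      (normProd ℓ (Units.map ((A.subtype : ↥A →+* L) : ↥A →* L) u) X)
      (normProd ℓ (Units.map ((π : ↥A →+* k) : ↥A →* k) u) φ) := by
  show IsRedOf (serRing A) (serRed A π)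
    ((∏ b ∈ Finset.range ℓ, twistU (Units.map ((A.subtype : ↥A →+* L) : ↥A →* L) u ^ b) X) *
      qExpand L (ℓ ^ 2) X)
    ((∏ b ∈ Finset.range ℓ, twistU (Units.map ((π : ↥A →+* k) : ↥A →* k) u ^ b) φ) *
      qExpand k (ℓ ^ 2) φ)
  refine (isRedOf_prod _ _ _ fun b _ => ?_).mul (isRedOf_qExpand A π (ℓ ^ 2) h)
  have h1 := isRedOf_twistU A π (u ^ b) h
  rwa [map_pow, map_pow] at h1

/-- **THE CONVERSE FOR `q ↦ q^ℓ`.** -/
theorem isRedOf_of_qExpand (ℓ : ℕ) [NeZero ℓ] {X : LaurentSeries L} {ψ : LaurentSeries k}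
    (h : IsRedOf (serRing A) (serRed A π) (qExpand L ℓ X) ψ) :
    ∃ φ : LaurentSeries k, IsRedOf (serRing A) (serRed A π) X φ ∧ ψ = qExpand k ℓ φ := by
  obtain ⟨S₀, A₀, hS, hrel, -⟩ := (isRedOf_ser_iff A π).1 h
  obtain ⟨j, hj, hjS⟩ := exists_sec_ne_zero ℓ hS
  have hS1 : coeffMap π (sec ℓ j S₀) ≠ 0 := by
    rw [coeffMap_sec]
    exact hjS
  have hrel1 : X * coeffMap A.subtype (sec ℓ j S₀) = coeffMap A.subtype (sec ℓ j A₀) := by
    rw [coeffMap_sec, coeffMap_sec, ← hrel, sec_qExpand_mul ℓ hj]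
  have hX : IsRedOf (serRing A) (serRed A π) X
      (coeffMap π (sec ℓ j A₀) / coeffMap π (sec ℓ j S₀)) :=
    (isRedOf_ser_iff A π).2 ⟨sec ℓ j S₀, sec ℓ j A₀, hS1, hrel1, div_mul_cancel₀ _ hS1⟩
  exact ⟨_, hX, h.unique (isRedOf_qExpand A π ℓ hX)⟩

/-- membership form of the converse. -/
theorem isGI_of_qExpand (ℓ : ℕ) [NeZero ℓ] {X : LaurentSeries L}
    (h : IsGI (serRing A) (serRed A π) (qExpand L ℓ X)) : IsGI (serRing A) (serRed A π) X := by
  obtain ⟨ψ, hψ⟩ := h.exists_isRedOf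
  obtain ⟨φ, hφ, -⟩ := isRedOf_of_qExpand A π ℓ hψ
  exact hφ.isGI

/-! ### the reduced norm-product identity -/

/-- **reduction of a norm-product identity**: if `Y(q^ℓ) = ∏_{b<ℓ} X(u^b q) · X(q^{ℓ²})` in `L((q))` and
`X`, `Y` are Gauss-integral with reductions `φ`, `ψ`, then `ψ(q^ℓ) = ∏_{b<ℓ} φ(ū^b q) · φ(q^{ℓ²})` in
`k((q))`. -/
theorem qExpand_red_eq_normProd (ℓ : ℕ) [NeZero ℓ] (u : (↥A)ˣ) {X Y : LaurentSeries L}
    {φ ψ : LaurentSeries k}
    (hXY : qExpand L ℓ Y = normProd ℓ (Units.map ((A.subtype : ↥A →+* L) : ↥A →* L) u) X)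
    (hX : IsRedOf (serRing A) (serRed A π) X φ) (hY : IsRedOf (serRing A) (serRed A π) Y ψ) :
    qExpand k ℓ ψ = normProd ℓ (Units.map ((π : ↥A →+* k) : ↥A →* k) u) φ := by
  have h1 := isRedOf_qExpand A π ℓ hY
  rw [hXY] at h1
  exact h1.unique (isRedOf_normProd A π ℓ u hX)

/-- the same for a root of unity `ζ ∈ Lˣ` (automatically a unit of `A`). -/
theorem qExpand_red_eq_normProd_of_pow_eq_one (ℓ : ℕ) [NeZero ℓ] (ζ : Lˣ) (hζ : ζ ^ ℓ = 1)
    {X Y : LaurentSeries L} {φ ψ : LaurentSeries k}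
    (hXY : qExpand L ℓ Y = normProd ℓ ζ X)
    (hX : IsRedOf (serRing A) (serRed A π) X φ) (hY : IsRedOf (serRing A) (serRed A π) Y ψ) :
    ∃ u : (↥A)ˣ, Units.map ((A.subtype : ↥A →+* L) : ↥A →* L) u = ζ ∧ u ^ ℓ = 1 ∧
      qExpand k ℓ ψ = normProd ℓ (Units.map ((π : ↥A →+* k) : ↥A →* k) u) φ := by
  have hℓpos : 0 < ℓ := Nat.pos_of_ne_zero (NeZero.ne ℓ)
  have hζL : (ζ : L) ^ ℓ = 1 := by rw [← Units.val_pow_eq_pow_val, hζ, Units.val_one]
  have hmap : Units.map ((A.subtype : ↥A →+* L) : ↥A →* L)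
      (Fermat.Agent.ES.KRON.KronInst10.unitOfPowEqOne A hℓpos hζL) = ζ := Units.ext rfl
  refine ⟨Fermat.Agent.ES.KRON.KronInst10.unitOfPowEqOne A hℓpos hζL, hmap,
    Fermat.Agent.ES.KRON.KronInst10.unitOfPowEqOne_pow A hℓpos hζL, ?_⟩
  exact qExpand_red_eq_normProd A π ℓ _ (by rw [hmap]; exact hXY) hX hY

/-- **a primitive `ℓ`-th root of unity of `A` (`ℓ` prime) reduces to a primitive `ℓ`-th root of unity**
as soon as `ℓ ≠ 0` in `k`. -/
theorem isPrimitiveRoot_units_map {ℓ : ℕ} (hℓ : ℓ.Prime) (hℓk : (ℓ : k) ≠ 0) (u : (↥A)ˣ)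
    (hu : IsPrimitiveRoot u ℓ) :
    IsPrimitiveRoot (Units.map ((π : ↥A →+* k) : ↥A →* k) u) ℓ := by
  have : Fact ℓ.Prime := ⟨hℓ⟩
  rw [IsPrimitiveRoot.iff_orderOf]
  apply orderOf_eq_prime
  · rw [← map_pow, hu.pow_eq_one, map_one]
  · intro h1
    apply hℓk
    have h2 : π (u : ↥A) = 1 := by
      have := congrArg Units.val h1
      rwa [Units.coe_map, Units.val_one] at this
    have hu' : IsPrimitiveRoot (u : ↥A) ℓ := IsPrimitiveRoot.coe_units_iff.2 hu
    have h3 := hu'.geom_sum_eq_zero hℓ.one_lt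
    have h4 := congrArg π h3
    rw [map_sum, map_zero] at h4
    have h5 : ∀ i ∈ Finset.range ℓ, π ((u : ↥A) ^ i) = 1 := fun i _ => by
      rw [map_pow, h2, one_pow]
    rw [Finset.sum_congr rfl h5, Finset.sum_const, Finset.card_range, nsmul_eq_mul, mul_one] at h4
    exact h4

/-! ### the link with the Gauss ring of a function field `E ≤ L((q))` -/

/-- a Gauss-integral function of `E` has a Gauss-integral `q`-expansion, with the same reduction. -/
theorem isRedOf_coe {E : IntermediateField L (LaurentSeries L)}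
    {Et : IntermediateField k (LaurentSeries k)} {f : ↥E} {φ : ↥Et}
    (h : IsRedOf (gaussRing A π E Et) (gaussRed A π E Et) f φ) :
    IsRedOf (serRing A) (serRed A π) (f : LaurentSeries L) (φ : LaurentSeries k) := by
  obtain ⟨a, b, hb, hab, hφ⟩ := h
  rw [isRedOf_ser_iff]
  refine ⟨gaussLift A π E Et b, gaussLift A π E Et a, ?_, ?_, ?_⟩
  · intro h0
    apply hb
    apply Subtype.ext
    rw [coe_gaussRed, h0]
    rfl
  · rw [coeffMap_gaussLift, coeffMap_gaussLift]
    exact congrArg Subtype.val hab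
  · rw [← coe_gaussRed, ← coe_gaussRed]
    exact congrArg Subtype.val hφ

/-- the same for the reduction map `rho`. -/
theorem isRedOf_coe_rho {E : IntermediateField L (LaurentSeries L)}
    {Et : IntermediateField k (LaurentSeries k)}
    (f : ↥(gaussInt (gaussRing A π E Et) (gaussRed A π E Et))) :
    IsRedOf (serRing A) (serRed A π) ((f : ↥E) : LaurentSeries L)
      ((rho (gaussRing A π E Et) (gaussRed A π E Et) f : ↥Et) : LaurentSeries k) :=
  isRedOf_coe A π (isRedOf_rho _ _ f)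

end Ring

end Fermat.Agent.ES.X44.GaussSer20
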