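/-
Programme X (S44), chapter (W2), ruling x3 (helper20): **THE GAUSS VALUATION RINGS `O1`, `O2` OF THE NODAL
LEVEL (AND `GV` OF THE GOOD LEVEL) ARE THE RESTRICTIONS OF THE GAUSS VALUATION OF `q`-SERIES.**

`Ser := (serRing A, serRed A (resA A))` the Gauss context of `q`-series of `X44/GaussSer20`.

NODAL LEVEL (`W33/NodalDefs3`, `f ∈ Fbar (M' * p)`):
* `isRedOf_coe_rho1`  : `f ∈ O1 ⇒ IsRedOf Ser (f : ℚ̄((q))) (rho1 f : k̄((q)))`               (no hypothesis);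
* `mem_O1_of_isGI_coe`, `mem_O1_iff_isGI_coe` : `f ∈ O1 ⇔ IsGI Ser (f : ℚ̄((q)))`
  (`⇐` is main's series criterion `NodalGauss3.mem_O1_of_series`: `p ≠ 2`, `p ∤ M'`, `4 ∣ M'`, `A` over `p`);
* `coe_rho1_eq_of_isRedOf`, `rho1_eq_zero_iff` : `rho1 f` is THE reduction of the `q`-expansion;
* `isRedOf_coe_rho2`, `mem_O2_iff_isGI_coe`, `rho2_eq_zero_iff` : the same for `O2`, `rho2` through
  `frickeN` (`rho2 f = rho1 (W f)` by definition);
* `isRedOf_betaL_coe`, `isRedOf_alphaL_coe` : the `q`-expansion of `β f`, `α f` for `f ∈ O1` (at ANY level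
  `N₂`): reductions `(rho1 f)(q^ℓ)`, `rho1 f`; in particular `β (𝔪(O1))`, `α (𝔪(O1))` have `q`-series
  with zero reduction (`isRedOf_betaL_coe_zero`, `isRedOf_alphaL_coe_zero`).

GOOD LEVEL (`V19/InstNames3`, `f ∈ Fbar M`): `isRedOf_coe_gredV`, `mem_GV_iff_isGI_coe`.
-/
import Mathlib
import Fermat.Agent.ES.X44.GaussSer20
import Fermat.Agent.ES.X44.DegenMaps20
import Fermat.Agent.ES.W33.NodalGauss3
import Fermat.Agent.ES.W33.FrickeBar8
import Fermat.Agent.ES.V19.RedCtxInst15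

set_option autoImplicit false
set_option synthInstance.maxHeartbeats 400000
set_option linter.unusedSectionVars false

open HahnSeries ModularCurve AlgebraicCurve

noncomputable section

namespace Fermat.Agent.ES.X44.GaussSerInst20

open Fermat.Agent.RED.Interface4 Fermat.Agent.RED.BASE.Interface12 Fermat.Agent.RED.BASE.Hauptmodul12
  Fermat.Agent.ES.RED.Contract8 Fermat.Agent.ES.RED.ModelInst4 Fermat.Agent.ES.RED.GaussRing15
  Fermat.Agent.ES.V19.GaussFrac15 Fermat.Agent.ES.V19.InstNames3 Fermat.Agent.ES.V19.RedCtxInst15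
  Fermat.Agent.ES.W33.NodalDefs3
  Fermat.Agent.ES.X44.DegenMaps20 Fermat.Agent.ES.X44.GaussSer20

attribute [local instance 5000] HahnSeries.powerSeriesAlgebra SubalgebraClass.toAlgebra

/-! ### the nodal level -/

section Nodal

variable {M' : ℕ} [NeZero M'] {p : ℕ} [Fact p.Prime] {A : ValuationSubring Qbar}

/-- **the `q`-expansion of `f ∈ O1` is Gauss-integral with reduction `rho1 f`.** -/
theorem isRedOf_coe_rho1 {f : ↥(Fbar (M' * p))} (hf : f ∈ O1 M' p A) :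
    IsRedOf (serRing A) (serRed A (resA A)) (f : LaurentSeries Qbar)
      ((rho1 M' p A ⟨f, hf⟩ : Ft M' A) : LaurentSeries (kA A)) :=
  isRedOf_coe_rho A (resA A) ⟨f, hf⟩

/-- `rho1 f` is THE reduction of the `q`-expansion of `f`. -/
theorem coe_rho1_eq_of_isRedOf {f : ↥(Fbar (M' * p))} (hf : f ∈ O1 M' p A)
    {ψ : LaurentSeries (kA A)}
    (h : IsRedOf (serRing A) (serRed A (resA A)) (f : LaurentSeries Qbar) ψ) :
    ((rho1 M' p A ⟨f, hf⟩ : Ft M' A) : LaurentSeries (kA A)) = ψ :=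
  (isRedOf_coe_rho1 hf).unique h

/-- `rho1 f = 0` iff the `q`-expansion of `f` has zero reduction. -/
theorem rho1_eq_zero_iff {f : ↥(Fbar (M' * p))} (hf : f ∈ O1 M' p A) :
    rho1 M' p A ⟨f, hf⟩ = 0 ↔
      IsRedOf (serRing A) (serRed A (resA A)) (f : LaurentSeries Qbar) 0 := by
  constructor
  · intro h0
    have h1 := isRedOf_coe_rho1 hf
    rw [h0] at h1
    exact h1
  · intro h
    apply Subtype.ext
    rw [coe_rho1_eq_of_isRedOf hf h]
    rfl

/-- **series criterion**: a function with Gauss-integral `q`-expansion lies in `O1`. -/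
theorem mem_O1_of_isGI_coe (hp2 : p ≠ 2) (hpM : ¬ p ∣ M') (hM : 4 ∣ M') (hA : A.LiesOverPrime p)
    {f : ↥(Fbar (M' * p))}
    (h : IsGI (serRing A) (serRed A (resA A)) (f : LaurentSeries Qbar)) : f ∈ O1 M' p A := by
  obtain ⟨S₀, A₀, hS, hrel⟩ := (isGI_ser_iff A (resA A)).1 h
  exact Fermat.Agent.ES.W33.NodalGauss3.mem_O1_of_series M' p A hp2 hpM hM hA f S₀ A₀ hS hrel

theorem mem_O1_iff_isGI_coe (hp2 : p ≠ 2) (hpM : ¬ p ∣ M') (hM : 4 ∣ M') (hA : A.LiesOverPrime p)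
    (f : ↥(Fbar (M' * p))) :
    f ∈ O1 M' p A ↔ IsGI (serRing A) (serRed A (resA A)) (f : LaurentSeries Qbar) :=
  ⟨fun hf => (isRedOf_coe_rho1 hf).isGI, mem_O1_of_isGI_coe hp2 hpM hM hA⟩

/-- the full series criterion: membership and value of `rho1`. -/
theorem exists_mem_O1_of_isRedOf_coe (hp2 : p ≠ 2) (hpM : ¬ p ∣ M') (hM : 4 ∣ M')
    (hA : A.LiesOverPrime p) {f : ↥(Fbar (M' * p))} {ψ : LaurentSeries (kA A)}
    (h : IsRedOf (serRing A) (serRed A (resA A)) (f : LaurentSeries Qbar) ψ) :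
    ∃ hf : f ∈ O1 M' p A, ((rho1 M' p A ⟨f, hf⟩ : Ft M' A) : LaurentSeries (kA A)) = ψ :=
  ⟨mem_O1_of_isGI_coe hp2 hpM hM hA h.isGI,
    coe_rho1_eq_of_isRedOf (mem_O1_of_isGI_coe hp2 hpM hM hA h.isGI) h⟩

/-! #### the second Gauss valuation ring -/

/-- **the `q`-expansion of `W f`, `f ∈ O2`, is Gauss-integral with reduction `rho2 f`.** -/
theorem isRedOf_coe_rho2 {f : ↥(Fbar (M' * p))} (hf : f ∈ O2 M' p A) :
    IsRedOf (serRing A) (serRed A (resA A)) ((frickeN M' p f : ↥(Fbar (M' * p))) : LaurentSeries Qbar)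
      ((rho2 M' p A ⟨f, hf⟩ : Ft M' A) : LaurentSeries (kA A)) := by
  rw [rho2_apply]
  exact isRedOf_coe_rho1 ((mem_O2_iff M' p A f).1 hf)

theorem mem_O2_iff_isGI_coe (hp2 : p ≠ 2) (hpM : ¬ p ∣ M') (hM : 4 ∣ M') (hA : A.LiesOverPrime p)
    (f : ↥(Fbar (M' * p))) :
    f ∈ O2 M' p A ↔ IsGI (serRing A) (serRed A (resA A))
      ((frickeN M' p f : ↥(Fbar (M' * p))) : LaurentSeries Qbar) := by
  rw [mem_O2_iff]
  exact mem_O1_iff_isGI_coe hp2 hpM hM hA _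

theorem rho2_eq_zero_iff {f : ↥(Fbar (M' * p))} (hf : f ∈ O2 M' p A) :
    rho2 M' p A ⟨f, hf⟩ = 0 ↔
      IsRedOf (serRing A) (serRed A (resA A))
        ((frickeN M' p f : ↥(Fbar (M' * p))) : LaurentSeries Qbar) 0 := by
  rw [rho2_apply]
  exact rho1_eq_zero_iff ((mem_O2_iff M' p A f).1 hf)

/-! #### the `q`-expansions of `α f`, `β f` -/

variable {N₂ : ℕ} [NeZero N₂]

/-- the `q`-expansion of `α f`, `f ∈ O1` (any level `N₂`). -/
theorem isRedOf_alphaL_coe (h : M' * p ∣ N₂) {f : ↥(Fbar (M' * p))} (hf : f ∈ O1 M' p A) :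
    IsRedOf (serRing A) (serRed A (resA A))
      ((alphaL h f : ↥(modularFunctionFieldBar N₂)) : LaurentSeries Qbar)
      ((rho1 M' p A ⟨f, hf⟩ : Ft M' A) : LaurentSeries (kA A)) := by
  rw [coe_alphaL]
  exact isRedOf_coe_rho1 hf

/-- the `q`-expansion of `β f`, `f ∈ O1` (any level `N₂`): reduction `(rho1 f)(q^ℓ)`. -/
theorem isRedOf_betaL_coe (ℓ : ℕ) [NeZero ℓ] (h : M' * p * ℓ ∣ N₂) {f : ↥(Fbar (M' * p))}
    (hf : f ∈ O1 M' p A) :
    IsRedOf (serRing A) (serRed A (resA A))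
      ((betaL ℓ h f : ↥(modularFunctionFieldBar N₂)) : LaurentSeries Qbar)
      (qExpand (kA A) ℓ ((rho1 M' p A ⟨f, hf⟩ : Ft M' A) : LaurentSeries (kA A))) := by
  rw [coe_betaL]
  exact isRedOf_qExpand A (resA A) ℓ (isRedOf_coe_rho1 hf)

/-- **`α (𝔪(O1))` has `q`-series with zero reduction.** -/
theorem isRedOf_alphaL_coe_zero (h : M' * p ∣ N₂) {f : ↥(Fbar (M' * p))} (hf : f ∈ O1 M' p A)
    (h0 : rho1 M' p A ⟨f, hf⟩ = 0) :
    IsRedOf (serRing A) (serRed A (resA A))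
      ((alphaL h f : ↥(modularFunctionFieldBar N₂)) : LaurentSeries Qbar) 0 := by
  have h1 := isRedOf_alphaL_coe h hf
  rw [h0] at h1
  exact h1

/-- **`β (𝔪(O1))` has `q`-series with zero reduction.** -/
theorem isRedOf_betaL_coe_zero (ℓ : ℕ) [NeZero ℓ] (h : M' * p * ℓ ∣ N₂) {f : ↥(Fbar (M' * p))}
    (hf : f ∈ O1 M' p A) (h0 : rho1 M' p A ⟨f, hf⟩ = 0) :
    IsRedOf (serRing A) (serRed A (resA A))
      ((betaL ℓ h f : ↥(modularFunctionFieldBar N₂)) : LaurentSeries Qbar) 0 := by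
  have h1 := isRedOf_betaL_coe ℓ h hf
  rw [h0] at h1
  have h2 : qExpand (kA A) ℓ (((0 : Ft M' A) : Ft M' A) : LaurentSeries (kA A)) = 0 := map_zero _
  rw [h2] at h1
  exact h1

end Nodal

/-! ### the good level -/

section Good

variable (n e M : ℕ) [NeZero n] [NeZero M] (p : ℕ) [Fact p.Prime] (hpM : ¬ p ∣ M)
  (hb : BaseHyp n e) (hnM : n ∣ M) (A : ValuationSubring Qbar) (hA : A.LiesOverPrime p)

/-- **the `q`-expansion of `f ∈ GV` is Gauss-integral with reduction `gredV f`.** -/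
theorem isRedOf_coe_gredV {f : ↥(Fbar M)} (hf : f ∈ GV n e M p hpM hb hnM A hA) :
    IsRedOf (serRing A) (serRed A (resA A)) (f : LaurentSeries Qbar)
      ((gredV n e M p hpM hb hnM A hA ⟨f, hf⟩ : Ft M A) : LaurentSeries (kA A)) := by
  have h1 := isRedOf_rho _ _ (⟨f, hf⟩ : ↥(GV n e M p hpM hb hnM A hA))
  rw [isRedOf_chart_iff A _ (hS0V n e M p hpM hb hnM A hA)] at h1
  exact isRedOf_coe A (resA A) h1

/-- **series criterion at the good level.** -/
theorem mem_GV_of_isGI_coe {f : ↥(Fbar M)}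
    (h : IsGI (serRing A) (serRed A (resA A)) (f : LaurentSeries Qbar)) :
    f ∈ GV n e M p hpM hb hnM A hA := by
  obtain ⟨S₀, A₀, hS, hrel⟩ := (isGI_ser_iff A (resA A)).1 h
  have h1 := Fermat.Agent.ES.W33.FrickeBar8.isGI_of_series M p A hA hpM f S₀ A₀ hS hrel
  obtain ⟨φ, hφ⟩ := h1.exists_isRedOf
  rw [← isRedOf_chart_iff A (TV n e M p hpM hb hnM A hA) (hS0V n e M p hpM hb hnM A hA)] at hφ
  exact hφ.isGI

theorem mem_GV_iff_isGI_coe (f : ↥(Fbar M)) :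
    f ∈ GV n e M p hpM hb hnM A hA ↔
      IsGI (serRing A) (serRed A (resA A)) (f : LaurentSeries Qbar) :=
  ⟨fun hf => (isRedOf_coe_gredV n e M p hpM hb hnM A hA hf).isGI,
    mem_GV_of_isGI_coe n e M p hpM hb hnM A hA⟩

/-- `gredV f` is THE reduction of the `q`-expansion of `f`. -/
theorem coe_gredV_eq_of_isRedOf {f : ↥(Fbar M)} (hf : f ∈ GV n e M p hpM hb hnM A hA)
    {ψ : LaurentSeries (kA A)}
    (h : IsRedOf (serRing A) (serRed A (resA A)) (f : LaurentSeries Qbar) ψ) :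
    ((gredV n e M p hpM hb hnM A hA ⟨f, hf⟩ : Ft M A) : LaurentSeries (kA A)) = ψ :=
  (isRedOf_coe_gredV n e M p hpM hb hnM A hA hf).unique h

end Good

end Fermat.Agent.ES.X44.GaussSerInst20
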