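/-
Programme X (S44), chapter (W2), ruling x3 (4) (helper20): **COEFFICIENTWISE REDUCTION OF POLYNOMIALS;
THE KRONECKER PRODUCT `kronProd ℓ ζ X = ∏_{b<ℓ} (Y − X(ζ^b q)) · (Y − X(q^{ℓ²}))` OF A GAUSS-INTEGRAL SERIES.**

* `PolyRed G red P Q` : `Q` is the coefficientwise reduction of `P` (`∀ i, IsRedOf G red (P.coeff i) (Q.coeff i)`);
  `PolyRed.mul`, `PolyRed.prod`, `PolyRed.X_sub_C`, `PolyRed.one` (generic Gauss context of `V19/GaussFrac15`);
* `polyRed_kronProd` : `IsRedOf Ser X φ → PolyRed Ser (kronProd ℓ u X) (kronProd ℓ ū φ)` (`Ser` = the Gauss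
  context of `q`-series, `X44/GaussSer20`);
* `kronProd_zero` : `kronProd ℓ ζ 0 = Y^(ℓ+1)`; `isRedOf_kronProd_coeff_zero` : if `X` has zero reduction then
  every coefficient of `kronProd ℓ u X` of index `≤ ℓ` has zero reduction;
* NODAL INSTANCE (`coeff_mem_O1_of_kronProd`): `P ∈ (Fbar (M' p))[Y]` with
  `(P.map coe).map (q ↦ q^ℓ) = kronProd ℓ ζ e₀`, `e₀ ∈ 𝔪(O1)` ⇒ `P.coeff i ∈ 𝔪(O1)` for all `i ≤ ℓ`
  (the characteristic polynomial of `β e₀` over `α`: main's `ConjAlpha24.charpolyAlong_alpha_map`).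
-/
import Mathlib
import Fermat.Agent.ES.X44.GaussSerInst20

set_option autoImplicit false
set_option synthInstance.maxHeartbeats 400000
set_option linter.unusedSectionVars false

open HahnSeries ModularCurve Polynomial

noncomputable section

namespace Fermat.Agent.ES.X44.GaussSerPoly20

open Fermat.Agent.ES.V19.GaussFrac15 Fermat.Agent.ES.KRON.KronCong24
  Fermat.Agent.ES.X44.GaussSer20

/-! ### coefficientwise reduction of polynomials -/

section Poly

variable {F Ft : Type*} [Field F] [Field Ft] {G : Subring F} {red : ↥G →+* Ft}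

open Classical in
theorem isRedOf_sum {ι : Type*} (s : Finset ι) (f : ι → F) (φ : ι → Ft)
    (h : ∀ i ∈ s, IsRedOf G red (f i) (φ i)) :
    IsRedOf G red (∑ i ∈ s, f i) (∑ i ∈ s, φ i) := by
  induction s using Finset.induction_on with
  | empty =>
    rw [Finset.sum_empty, Finset.sum_empty]
    exact isRedOf_zero
  | insert a s ha ih =>
    rw [Finset.sum_insert ha, Finset.sum_insert ha]
    exact (h a (Finset.mem_insert_self a s)).add
      (ih fun i hi => h i (Finset.mem_insert_of_mem hi))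

variable (G red) in
/-- `Q` is the coefficientwise reduction of `P`. -/
def PolyRed (P : F[X]) (Q : Ft[X]) : Prop := ∀ i : ℕ, IsRedOf G red (P.coeff i) (Q.coeff i)

theorem PolyRed.one : PolyRed G red (1 : F[X]) (1 : Ft[X]) := by
  intro i
  rw [Polynomial.coeff_one, Polynomial.coeff_one]
  split_ifs
  · exact isRedOf_one
  · exact isRedOf_zero

theorem PolyRed.mul {P P' : F[X]} {Q Q' : Ft[X]} (h : PolyRed G red P Q)
    (h' : PolyRed G red P' Q') : PolyRed G red (P * P') (Q * Q') := by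
  intro i
  rw [Polynomial.coeff_mul, Polynomial.coeff_mul]
  exact isRedOf_sum _ _ _ fun x _ => (h x.1).mul (h' x.2)

theorem PolyRed.X_sub_C {f : F} {φ : Ft} (h : IsRedOf G red f φ) :
    PolyRed G red (Polynomial.X - Polynomial.C f) (Polynomial.X - Polynomial.C φ) := by
  intro i
  rw [Polynomial.coeff_sub, Polynomial.coeff_sub, Polynomial.coeff_X, Polynomial.coeff_X,
    Polynomial.coeff_C, Polynomial.coeff_C]
  refine IsRedOf.sub ?_ ?_
  · split_ifs
    · exact isRedOf_one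
    · exact isRedOf_zero
  · split_ifs
    · exact h
    · exact isRedOf_zero

open Classical in
theorem PolyRed.prod {ι : Type*} (s : Finset ι) (P : ι → F[X]) (Q : ι → Ft[X])
    (h : ∀ i ∈ s, PolyRed G red (P i) (Q i)) :
    PolyRed G red (∏ i ∈ s, P i) (∏ i ∈ s, Q i) := by
  induction s using Finset.induction_on with
  | empty =>
    rw [Finset.prod_empty, Finset.prod_empty]
    exact PolyRed.one
  | insert a s ha ih =>
    rw [Finset.prod_insert ha, Finset.prod_insert ha]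
    exact (h a (Finset.mem_insert_self a s)).mul
      (ih fun i hi => h i (Finset.mem_insert_of_mem hi))

end Poly

/-! ### the Kronecker product of a Gauss-integral series -/

section Kron

variable {L : Type*} [Field L] (A : ValuationSubring L) {k : Type*} [Field k] (π : ↥A →+* k)

/-- **the Kronecker product reduces coefficientwise.** -/
theorem polyRed_kronProd (ℓ : ℕ) [NeZero ℓ] (u : (↥A)ˣ) {X : LaurentSeries L}
    {φ : LaurentSeries k} (h : IsRedOf (serRing A) (serRed A π) X φ) :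
    PolyRed (serRing A) (serRed A π)
      (kronProd ℓ (Units.map ((A.subtype : ↥A →+* L) : ↥A →* L) u) X)
      (kronProd ℓ (Units.map ((π : ↥A →+* k) : ↥A →* k) u) φ) := by
  show PolyRed (serRing A) (serRed A π)
    ((∏ b ∈ Finset.range ℓ,
        (Polynomial.X - Polynomial.C
          (twistU (Units.map ((A.subtype : ↥A →+* L) : ↥A →* L) u ^ b) X))) *
      (Polynomial.X - Polynomial.C (qExpand L (ℓ ^ 2) X)))
    ((∏ b ∈ Finset.range ℓ,
        (Polynomial.X - Polynomial.C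
          (twistU (Units.map ((π : ↥A →+* k) : ↥A →* k) u ^ b) φ))) *
      (Polynomial.X - Polynomial.C (qExpand k (ℓ ^ 2) φ)))
  refine (PolyRed.prod _ _ _ fun b _ => PolyRed.X_sub_C ?_).mul
    (PolyRed.X_sub_C (isRedOf_qExpand A π (ℓ ^ 2) h))
  have h1 := isRedOf_twistU A π (u ^ b) h
  rwa [map_pow, map_pow] at h1

/-- `kronProd ℓ ζ 0 = Y^(ℓ+1)`. -/
theorem kronProd_zero {R : Type*} [CommRing R] (ℓ : ℕ) [NeZero ℓ] (ζ : Rˣ) :
    kronProd ℓ ζ (0 : LaurentSeries R) = Polynomial.X ^ (ℓ + 1) := by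
  rw [kronProd]
  have h1 : ∀ b ∈ Finset.range ℓ,
      (Polynomial.X - Polynomial.C (twistU (ζ ^ b) (0 : LaurentSeries R)) :
        (LaurentSeries R)[X]) = Polynomial.X := fun b _ => by
    rw [map_zero, map_zero, sub_zero]
  rw [Finset.prod_congr rfl h1, Finset.prod_const, Finset.card_range, map_zero, map_zero, sub_zero,
    pow_succ]

/-- **if `X` has zero reduction, every coefficient of index `≤ ℓ` of `kronProd ℓ u X` has zero
reduction.** -/
theorem isRedOf_kronProd_coeff_zero (ℓ : ℕ) [NeZero ℓ] (u : (↥A)ˣ) {X : LaurentSeries L}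
    (h : IsRedOf (serRing A) (serRed A π) X 0) {i : ℕ} (hi : i ≤ ℓ) :
    IsRedOf (serRing A) (serRed A π)
      ((kronProd ℓ (Units.map ((A.subtype : ↥A →+* L) : ↥A →* L) u) X).coeff i) 0 := by
  have h1 := polyRed_kronProd A π ℓ u h i
  rw [kronProd_zero, Polynomial.coeff_X_pow, if_neg (by omega)] at h1
  exact h1

end Kron

/-! ### the nodal instance -/

section Nodal

open Fermat.Agent.RED.Interface4 Fermat.Agent.ES.RED.Contract8 Fermat.Agent.ES.RED.ModelInst4
  Fermat.Agent.ES.W33.NodalDefs3 Fermat.Agent.ES.X44.GaussSerInst20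

attribute [local instance 5000] HahnSeries.powerSeriesAlgebra SubalgebraClass.toAlgebra

variable {M' : ℕ} [NeZero M'] {p : ℕ} [Fact p.Prime] {A : ValuationSubring Qbar}

/-- **descent of the Kronecker product to `O1`**: if `P ∈ (Fbar (M' p))[Y]` has `q`-expansion
`P(q^ℓ) = kronProd ℓ ζ e₀` with `ζ^ℓ = 1`, `e₀ ∈ O1`, `rho1 e₀ = 0`, then every coefficient of `P` of index
`≤ ℓ` lies in `O1` and has `rho1 = 0`. -/
theorem coeff_mem_O1_of_kronProd (hp2 : p ≠ 2) (hpM : ¬ p ∣ M') (hM : 4 ∣ M')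
    (hA : A.LiesOverPrime p) (ℓ : ℕ) [NeZero ℓ] (ζ : Qbarˣ) (hζ : ζ ^ ℓ = 1)
    {P : (↥(Fbar (M' * p)))[X]} {e₀ : ↥(Fbar (M' * p))}
    (val : ↥(Fbar (M' * p)) →+* LaurentSeries Qbar)
    (hval : ∀ x : ↥(Fbar (M' * p)), val x = (x : LaurentSeries Qbar))
    (hP : (P.map val).map (qExpand Qbar ℓ) = kronProd ℓ ζ (e₀ : LaurentSeries Qbar))
    (he : e₀ ∈ O1 M' p A) (h0 : rho1 M' p A ⟨e₀, he⟩ = 0) {i : ℕ} (hi : i ≤ ℓ) :
    ∃ h : P.coeff i ∈ O1 M' p A, rho1 M' p A ⟨P.coeff i, h⟩ = 0 := by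
  have hℓpos : 0 < ℓ := Nat.pos_of_ne_zero (NeZero.ne ℓ)
  have hζL : (ζ : Qbar) ^ ℓ = 1 := by rw [← Units.val_pow_eq_pow_val, hζ, Units.val_one]
  have hmap : Units.map ((A.subtype : ↥A →+* Qbar) : ↥A →* Qbar)
      (Fermat.Agent.ES.KRON.KronInst10.unitOfPowEqOne A hℓpos hζL) = ζ := Units.ext rfl
  have h1 := isRedOf_kronProd_coeff_zero A (resA A) ℓ
    (Fermat.Agent.ES.KRON.KronInst10.unitOfPowEqOne A hℓpos hζL)
    ((rho1_eq_zero_iff he).1 h0) hi
  rw [hmap, ← hP, Polynomial.coeff_map, Polynomial.coeff_map, hval] at h1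
  obtain ⟨φ, hφ, hφ0⟩ := isRedOf_of_qExpand A (resA A) ℓ h1
  have hφ' : φ = 0 := by
    apply qExpand_injective (R := kA A) (N := ℓ)
    rw [← hφ0, map_zero]
  rw [hφ'] at hφ
  obtain ⟨hmem, hrho⟩ := exists_mem_O1_of_isRedOf_coe hp2 hpM hM hA hφ
  exact ⟨hmem, Subtype.ext hrho⟩

end Nodal

end Fermat.Agent.ES.X44.GaussSerPoly20
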