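/-
Programme X (S44), chapter (QH)/(X-a), leaf **C1** of helper8's x4/x5 (helper20): **THE COEFFICIENT LEMMA
FOR THE HECKE CHARACTERISTIC POLYNOMIAL AT `O1`.**

`χ_f := charpolyAlong α β hfin f` the characteristic polynomial of `β f` over `α (F̄_N)`, `N = M' * p`,
`ℓ ∤ N` prime (helper21's `CharpolyW21.chi`).  For `f ∈ O1` every coefficient of `χ_f` lies in `O1`, and the
coefficients of index `< ℓ + 1` have `rho1 = 0` as soon as `rho1 f = 0`: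

  **`coeffIn_O1 … : CoeffIn (O1 M' p A) (rho1 M' p A) (chi M' p ℓ hfin) (ℓ + 1)`**   (helper21's literal).

Proof: main's (POLY-α) `ConjAlpha24.charpolyAlong_alpha_map_of_val` (`χ_f(q^ℓ) = kronProd ℓ ζ f`), the
coefficientwise reduction of the Kronecker product (`GaussSerPoly20.polyRed_kronProd`), the converse for
`q ↦ q^ℓ` (`GaussSer20.isRedOf_of_qExpand`) and the series criterion for `O1`
(`GaussSerInst20.exists_mem_O1_of_isRedOf_coe`, main's `NodalGauss3`: `p ≠ 2`, `p ∤ M'`, `4 ∣ M'`, `A ∣ p`).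
Corollaries (through helper21's C2): `coeffIn_O2`, and the unfolded `GN`-forms.
-/
import Mathlib
import Fermat.Agent.ES.X44.GaussSerPoly20
import Fermat.Agent.ES.X44.CharpolyW21

set_option autoImplicit false
set_option synthInstance.maxHeartbeats 400000
set_option linter.unusedSectionVars false

open HahnSeries ModularCurve AlgebraicCurve Polynomial

noncomputable section

namespace Fermat.Agent.ES.X44.CharpolyM20

open Fermat.Agent.X0 Fermat.Agent.RED.Interface4 Fermat.Agent.ES.RED.Contract8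
  Fermat.Agent.ES.RED.ModelInst4 Fermat.Agent.ES.W33.NodalDefs3
  Fermat.Agent.ES.V19.GaussFrac15 Fermat.Agent.ES.KRON.KronCong24 Fermat.Agent.ES.KRON.Conjugates11
  Fermat.Agent.ES.X44.GaussSer20 Fermat.Agent.ES.X44.GaussSerInst20
  Fermat.Agent.ES.X44.GaussSerPoly20 Fermat.Agent.ES.X44.CharpolyW21

attribute [local instance 5000] HahnSeries.powerSeriesAlgebra SubalgebraClass.toAlgebra

variable {M' : ℕ} [NeZero M'] {p : ℕ} [Fact p.Prime] {A : ValuationSubring Qbar}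

/-- **descent of the Kronecker product to `O1`, full form**: if `P ∈ (Fbar (M' p))[Y]` has `q`-expansion
`P(q^ℓ) = kronProd ℓ ζ f` with `ζ^ℓ = 1`, `f ∈ O1`, then every coefficient of `P` lies in `O1`, and those
of index `< ℓ + 1` have `rho1 = 0` if `rho1 f = 0`. -/
theorem coeff_of_kronProd (hp2 : p ≠ 2) (hpM : ¬ p ∣ M') (hM : 4 ∣ M') (hA : A.LiesOverPrime p)
    (ℓ : ℕ) [NeZero ℓ] (ζ : Qbarˣ) (hζ : ζ ^ ℓ = 1)
    {P : (↥(Fbar (M' * p)))[X]} {f : ↥(Fbar (M' * p))}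
    (val : ↥(Fbar (M' * p)) →+* LaurentSeries Qbar)
    (hval : ∀ x : ↥(Fbar (M' * p)), val x = (x : LaurentSeries Qbar))
    (hP : (P.map val).map (qExpand Qbar ℓ) = kronProd ℓ ζ (f : LaurentSeries Qbar))
    (hf : f ∈ O1 M' p A) (i : ℕ) :
    ∃ h : P.coeff i ∈ O1 M' p A,
      rho1 M' p A ⟨f, hf⟩ = 0 → i < ℓ + 1 → rho1 M' p A ⟨P.coeff i, h⟩ = 0 := by
  have hℓpos : 0 < ℓ := Nat.pos_of_ne_zero (NeZero.ne ℓ)
  have hζL : (ζ : Qbar) ^ ℓ = 1 := by rw [← Units.val_pow_eq_pow_val, hζ, Units.val_one]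
  have hmap : Units.map ((A.subtype : ↥A →+* Qbar) : ↥A →* Qbar)
      (Fermat.Agent.ES.KRON.KronInst10.unitOfPowEqOne A hℓpos hζL) = ζ := Units.ext rfl
  have h1 := polyRed_kronProd A (resA A) ℓ
    (Fermat.Agent.ES.KRON.KronInst10.unitOfPowEqOne A hℓpos hζL) (isRedOf_coe_rho1 hf) i
  rw [hmap, ← hP, Polynomial.coeff_map, Polynomial.coeff_map, hval] at h1
  obtain ⟨φ, hφ, hφ0⟩ := isRedOf_of_qExpand A (resA A) ℓ h1
  obtain ⟨hmem, hrho⟩ := exists_mem_O1_of_isRedOf_coe hp2 hpM hM hA hφ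
  refine ⟨hmem, fun h0 hi => ?_⟩
  apply Subtype.ext
  rw [hrho]
  apply qExpand_injective (R := kA A) (N := ℓ)
  rw [← hφ0, h0]
  have h2 : ((0 : Ft M' A) : LaurentSeries (kA A)) = 0 := rfl
  rw [h2, kronProd_zero, Polynomial.coeff_X_pow, if_neg (by omega), map_zero]

/-- **C1**: helper21's literal at `(O1, rho1)`. -/
theorem coeffIn_O1 (hp2 : p ≠ 2) (hpM : ¬ p ∣ M') (hM : 4 ∣ M') (hA : A.LiesOverPrime p)
    (ℓ : ℕ) [NeZero ℓ] (hℓ : ℓ.Prime) (hℓN : ¬ ℓ ∣ M' * p)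
    (hfin : FiniteAlong Qbar (heckeAlphaBar Qbar (M' * p) ℓ)) :
    CoeffIn (O1 M' p A) (rho1 M' p A) (chi M' p ℓ hfin) (ℓ + 1) := by
  intro f hf i
  obtain ⟨ζ₀, hζ₀⟩ := HasEnoughRootsOfUnity.exists_primitiveRoot Qbar ℓ
  have hu : IsUnit ζ₀ := hζ₀.isUnit (NeZero.ne ℓ)
  have hζ : IsPrimitiveRoot hu.unit ℓ := by
    rw [← IsPrimitiveRoot.coe_units_iff, IsUnit.unit_spec]
    exact hζ₀
  have hP := Fermat.Agent.ES.KRON.ConjAlpha24.charpolyAlong_alpha_map_of_val (M' * p) ℓ hℓ hℓN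
    hu.unit hζ (algebraMap ↥(Fbar (M' * p)) (LaurentSeries Qbar)) (fun _ => rfl) hfin f
  exact coeff_of_kronProd hp2 hpM hM hA ℓ hu.unit hζ.pow_eq_one
    (algebraMap ↥(Fbar (M' * p)) (LaurentSeries Qbar)) (fun _ => rfl) hP hf i

/-- **C1 + C2**: the same at `(O2, rho2)` (helper21's Fricke transport). -/
theorem coeffIn_O2 (hp2 : p ≠ 2) (hpM : ¬ p ∣ M') (hM : 4 ∣ M') (hA : A.LiesOverPrime p)
    (ℓ : ℕ) [NeZero ℓ] (hℓ : ℓ.Prime) (hℓN : ¬ ℓ ∣ M' * p)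
    (hfin : FiniteAlong Qbar (heckeAlphaBar Qbar (M' * p) ℓ)) :
    CoeffIn (O2 M' p A) (rho2 M' p A) (chi M' p ℓ hfin) (ℓ + 1) :=
  Fermat.Agent.ES.X44.CharpolyW21.coeffIn_O2 M' p A ℓ hℓ hℓN hfin
    (coeffIn_O1 hp2 hpM hM hA ℓ hℓ hℓN hfin)

/-- for `g ∈ GN` every coefficient of `χ_g` lies in `GN`. -/
theorem coeff_mem_GN (hp2 : p ≠ 2) (hpM : ¬ p ∣ M') (hM : 4 ∣ M') (hA : A.LiesOverPrime p)
    (ℓ : ℕ) [NeZero ℓ] (hℓ : ℓ.Prime) (hℓN : ¬ ℓ ∣ M' * p)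
    (hfin : FiniteAlong Qbar (heckeAlphaBar Qbar (M' * p) ℓ))
    {g : ↥(Fbar (M' * p))} (hg : g ∈ GN M' p A) (i : ℕ) :
    (chi M' p ℓ hfin g).coeff i ∈ GN M' p A :=
  Fermat.Agent.ES.X44.CharpolyW21.coeff_mem_GN M' p A ℓ hℓ hℓN hfin
    (coeffIn_O1 hp2 hpM hM hA ℓ hℓ hℓN hfin) hg i

end Fermat.Agent.ES.X44.CharpolyM20
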