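/-
Programme X (S44), chapter (W2), leaf L2 (helper15), file 2/5: **SATURATION OF A CHART RING OVER `A`**
(the valuation ring of `ℚ̄`, not a number-field level) **and the integrality criterion.**

`S : ChartSpec A hx F̃` a chart of the level `N`, compatible with `q`-expansions (`RedCharts15.Compat`):
every element of the chart ring has an `A`-integral `q`-expansion and `S.red` is the coefficientwise
reduction.

* `mem_of_const_mul_mem` : `c ∈ A`, `c ≠ 0`, `c · x ∈ B`, `x` has an `A`-integral `q`-expansion ⇒ `x ∈ B`
  (content of `c · x` by `ChartSpec.sat`: `c · x = c' · b'` with `b̄' ≠ 0`; if `c' / c ∉ A` then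
  `b' = (c / c') · x` reduces to `0`);
* `mem_of_isIntegral` : if `B` contains the integral closure of `A[s]`, then every `x` integral over
  `L[s]` with an `A`-integral `q`-expansion lies in `B` ("integral on the generic fibre + integral at the
  generic point of the special fibre ⇒ integral"; clearing of denominators = `SatIntegral18`).
-/
import Mathlib
import Fermat.Agent.ES.RED.RedCharts15
import Fermat.Agent.ES.N34.SatIntegral18

set_option autoImplicit false
set_option synthInstance.maxHeartbeats 400000
set_option linter.unusedSectionVars false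

open AlgebraicCurve ModularCurve HahnSeries

noncomputable section

namespace Fermat.Agent.ES.X44.ChartSat15

open Fermat.Agent.X0 Fermat.Agent.ES.RED.Contract8 Fermat.Agent.ES.RED.GaussRing15
  Fermat.Agent.ES.RED.RedCharts15

attribute [local instance 5000] HahnSeries.powerSeriesAlgebra SubalgebraClass.toAlgebra

variable {L : Type*} [Field L] [Algebra ℚ L] [IsAlgClosed L] {A : ValuationSubring L} {N : ℕ}
variable {x : ↥(laurentBaseChange L (modularFunctionFieldFull N))} {hx : FF.IsGen L x}
variable {S : ChartSpec A hx ↥(modularFunctionFieldFullC (kA A) N)}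

/-- **Saturation over `A`.** -/
theorem mem_of_const_mul_mem (hS : Compat A N S) {y : ↥(laurentBaseChange L (modularFunctionFieldFull N))}
    (hy : ∃ Y : LaurentSeries ↥A, coeffMap A.subtype Y = (y : LaurentSeries L)) {c : ↥A}
    (hc : c ≠ 0) (h : algebraMap L ↥(laurentBaseChange L (modularFunctionFieldFull N)) (c : L) * y ∈ S.B) : y ∈ S.B := by
  rcases eq_or_ne y 0 with rfl | hy0
  · exact S.B.zero_mem
  have hcL : (c : L) ≠ 0 := fun h0 => hc (Subtype.ext h0)
  have hcF : algebraMap L ↥(laurentBaseChange L (modularFunctionFieldFull N)) (c : L) ≠ 0 := by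
    rw [Ne, map_eq_zero]; exact hcL
  have hb0 : (⟨algebraMap L ↥(laurentBaseChange L (modularFunctionFieldFull N)) (c : L) * y, h⟩ : ↥S.B) ≠ 0 := by
    intro h0
    have := congrArg Subtype.val h0
    exact mul_ne_zero hcF hy0 this
  obtain ⟨c', b', hbc, hb'⟩ := S.sat _ hb0
  have hbc' : algebraMap L ↥(laurentBaseChange L (modularFunctionFieldFull N)) (c : L) * y = algebraMap L ↥(laurentBaseChange L (modularFunctionFieldFull N)) (c' : L) * (b' : ↥(laurentBaseChange L (modularFunctionFieldFull N))) := hbc
  have hc'L : (c' : L) ≠ 0 := by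
    intro h0
    rw [h0, map_zero, zero_mul] at hbc'
    exact mul_ne_zero hcF hy0 hbc'
  have key : (c' : L) / (c : L) ∈ A → y ∈ S.B := by
    intro hu
    have hyb : y = algebraMap L ↥(laurentBaseChange L (modularFunctionFieldFull N))
        ((c' : L) / (c : L)) * (b' : ↥(laurentBaseChange L (modularFunctionFieldFull N))) := by
      rw [map_div₀, div_mul_eq_mul_div, eq_div_iff hcF, mul_comm y]
      exact hbc'
    rw [hyb]
    exact S.B.mul_mem (S.const_mem ⟨_, hu⟩) b'.2
  rcases A.mem_or_inv_mem ((c' : L) / (c : L)) with hu | hu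
  · exact key hu
  · -- `b' = d · y` with `d = c / c'` a non-unit, unless `c' / c ∈ A`
    by_cases hu' : (c' : L) / (c : L) ∈ A
    · exact key hu'
    exfalso
    apply hb'
    set d : ↥A := ⟨((c' : L) / (c : L))⁻¹, hu⟩ with hd
    have hdL : (d : L) = (c : L) / (c' : L) := by
      show ((c' : L) / (c : L))⁻¹ = _
      rw [inv_div]
    have hdu : ¬ IsUnit d := by
      intro hunit
      obtain ⟨w, hw⟩ := hunit.exists_right_inv
      have hw' : (d : L) * (w : L) = 1 := by
        have := congrArg Subtype.val hw
        simpa using this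
      have : (w : L) = (c' : L) / (c : L) := by
        have h1 : (d : L) ≠ 0 := left_ne_zero_of_mul_eq_one hw'
        rw [← inv_eq_of_mul_eq_one_right hw']
        show (((c' : L) / (c : L))⁻¹)⁻¹ = _
        rw [inv_inv]
      exact hu' (this ▸ w.2)
    have hres : resA A d = 0 := (IsLocalRing.residue_eq_zero_iff d).2 hdu
    have hb'y : (b' : ↥(laurentBaseChange L (modularFunctionFieldFull N))) = algebraMap L ↥(laurentBaseChange L (modularFunctionFieldFull N)) (d : L) * y := by
      have hc'F : algebraMap L ↥(laurentBaseChange L (modularFunctionFieldFull N)) (c' : L) ≠ 0 := by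
        rw [Ne, map_eq_zero]; exact hc'L
      rw [hdL, map_div₀, div_mul_eq_mul_div, eq_div_iff hc'F, mul_comm]
      exact hbc'.symm
    obtain ⟨Y, hY⟩ := hy
    obtain ⟨Y', hY', hYr⟩ := hS b'
    have hYY : Y' = HahnSeries.single 0 d * Y := by
      apply coeffMap_subtype_injective A
      rw [hY', map_mul, coeffMap_subtype_C, hY, hb'y]
      rfl
    apply Subtype.ext
    rw [hYr, hYY, map_mul, coeffMap_C, hres, map_zero, zero_mul]
    rfl

/-- **The integrality criterion**: integral over `L[s]` + `A`-integral `q`-expansion ⇒ in the chart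
ring (which contains the integral closure of `A[s]`). -/
theorem mem_of_isIntegral (hS : Compat A N S)
    (hB : ∀ z : ↥(laurentBaseChange L (modularFunctionFieldFull N)), IsIntegral (Algebra.adjoin ↥A {S.s}) z → z ∈ S.B) {y : ↥(laurentBaseChange L (modularFunctionFieldFull N))}
    (hy : ∃ Y : LaurentSeries ↥A, coeffMap A.subtype Y = (y : LaurentSeries L))
    (hint : IsIntegral (Algebra.adjoin L {S.s}) y) : y ∈ S.B := by
  obtain ⟨r, hr0, hrx⟩ :=
    Fermat.Agent.ES.N34.SatIntegral18.exists_mul_isIntegral_adjoin (R := ↥A) (K := L) S.s hint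
  exact mem_of_const_mul_mem hS hy hr0 (hB _ hrx)

end Fermat.Agent.ES.X44.ChartSat15
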