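/-
Programme X (S44, spine `X44_SPINE14.md`), chapter (W1) "equal slopes", leaf (b,c) "local factors",
part 1 (helper12): **THE POLYNOMIAL ALGEBRA OF A LOCAL FACTOR** (Mathlib only).

`K` a field (`ℚ̄`), `A ⊆ K` a subring (the valuation ring), `F / K` a field (the function field),
`G ⊆ F` a subring containing the constants of `A` (`O₁ ⊓ O₂`, or one of the two Gauss rings),
`w ∈ F` a coordinate, `Qof roots := ∏_{b ∈ roots} (X − b)`.

* `coeff_Qof_mem`     : the coefficients of `Qof roots` lie in `A` if the roots do;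
* `aeval_div_mem`     : **(U) ⇒ integrality of the partial fractions**: if `(w − b)⁻¹ ∈ G` for every root
                        `b` and `N` has coefficients in `A` and degree `≤ #roots`, then
                        `N(w) / Qof(roots)(w) ∈ G` (Newton-basis induction);
* `exists_map_sub`    : if `σ c − c ∈ ϖ^m A` for every coefficient `c` of `Q`, then
                        `σQ − Q = ϖ^m · N` with `N` over `A`, `deg N ≤ deg Q`;
* `factor_eq`         : **the local factor at a smooth point**: for `Q⁺ = Qof roots⁺`, `Q⁻ = Qof roots⁻`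
                        with coefficients moved by `σ` only modulo `ϖ^m A` and (U) at the roots of `Q⁺` and
                        of `σQ⁻`:  `σQ⁺(w) · Q⁻(w) = Q⁺(w) · σQ⁻(w) · (1 + ϖ^m ψ)`, `ψ ∈ G`.
-/
import Mathlib

set_option autoImplicit false

noncomputable section

namespace Fermat.Agent.ES.X44.LocFacPoly12

open Polynomial

variable {K F : Type*} [Field K] [Field F] [Algebra K F]

/-- the monic polynomial with the given multiset of roots. -/
def Qof (roots : Multiset K) : K[X] := (roots.map fun b => X - C b).prod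

@[simp] theorem Qof_zero : Qof (0 : Multiset K) = 1 := by simp [Qof]

@[simp] theorem Qof_cons (b : K) (s : Multiset K) : Qof (b ::ₘ s) = (X - C b) * Qof s := by
  simp [Qof]

theorem Qof_add (s t : Multiset K) : Qof (s + t) = Qof s * Qof t := by
  simp [Qof, Multiset.map_add]

theorem monic_Qof (roots : Multiset K) : (Qof roots).Monic :=
  monic_multiset_prod_of_monic _ _ fun b _ => monic_X_sub_C b

theorem natDegree_Qof (roots : Multiset K) : (Qof roots).natDegree = roots.card := by
  unfold Qof
  exact natDegree_multiset_prod_X_sub_C_eq_card roots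

theorem map_Qof (σ : K →+* K) (roots : Multiset K) :
    (Qof roots).map σ = Qof (roots.map σ) := by
  unfold Qof
  rw [Polynomial.map_multiset_prod, Multiset.map_map, Multiset.map_map]
  congr 1
  apply Multiset.map_congr rfl
  intro b _
  simp

/-- a polynomial with coefficients in `A`. -/
def Over (A : Subring K) (N : K[X]) : Prop := ∀ i, N.coeff i ∈ A

theorem over_C {A : Subring K} {c : K} (hc : c ∈ A) : Over A (C c) := by
  intro i
  rw [coeff_C]
  split_ifs
  · exact hc
  · exact A.zero_mem

theorem over_X (A : Subring K) : Over A (X : K[X]) := by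
  intro i
  rw [coeff_X]
  split_ifs
  · exact A.one_mem
  · exact A.zero_mem

theorem Over.add {A : Subring K} {N M : K[X]} (hN : Over A N) (hM : Over A M) : Over A (N + M) := by
  intro i
  rw [coeff_add]
  exact A.add_mem (hN i) (hM i)

theorem Over.sub {A : Subring K} {N M : K[X]} (hN : Over A N) (hM : Over A M) : Over A (N - M) := by
  intro i
  rw [coeff_sub]
  exact A.sub_mem (hN i) (hM i)

theorem Over.mul {A : Subring K} {N M : K[X]} (hN : Over A N) (hM : Over A M) : Over A (N * M) := by
  intro i
  rw [coeff_mul]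
  exact A.sum_mem fun x _ => A.mul_mem (hN _) (hM _)

theorem over_one (A : Subring K) : Over A (1 : K[X]) := by
  have : (1 : K[X]) = C 1 := by simp
  rw [this]
  exact over_C A.one_mem

/-- the coefficients of `∏ (X − b)` lie in `A` if the roots do. -/
theorem over_Qof {A : Subring K} (roots : Multiset K) (h : ∀ b ∈ roots, b ∈ A) :
    Over A (Qof roots) := by
  induction roots using Multiset.induction_on with
  | empty => rw [Qof_zero]; exact over_one A
  | cons b s ih =>
    rw [Qof_cons]
    exact ((over_X A).sub (over_C (h b (Multiset.mem_cons_self b s)))).mul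
      (ih fun c hc => h c (Multiset.mem_cons_of_mem hc))

/-- **(U) ⇒ the partial fractions are integral.** -/
theorem aeval_div_mem {A : Subring K} (G : Subring F)
    (hconst : ∀ a ∈ A, algebraMap K F a ∈ G) (w : F) (roots : Multiset K)
    (hA : ∀ b ∈ roots, b ∈ A) (hU : ∀ b ∈ roots, (w - algebraMap K F b)⁻¹ ∈ G) :
    ∀ N : K[X], Over A N → N.natDegree ≤ Multiset.card roots →
      aeval w N * (aeval w (Qof roots))⁻¹ ∈ G := by
  induction roots using Multiset.induction_on with
  | empty =>
    intro N hN hdeg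
    rw [Multiset.card_zero, Nat.le_zero] at hdeg
    rw [Qof_zero, map_one, inv_one, mul_one, eq_C_of_natDegree_eq_zero hdeg, aeval_C]
    exact hconst _ (hN 0)
  | cons b s ih =>
    intro N hN hdeg
    rw [Multiset.card_cons] at hdeg
    have hAs : ∀ c ∈ s, c ∈ A := fun c hc => hA c (Multiset.mem_cons_of_mem hc)
    have hUs : ∀ c ∈ s, (w - algebraMap K F c)⁻¹ ∈ G := fun c hc => hU c (Multiset.mem_cons_of_mem hc)
    have hb : b ∈ A := hA b (Multiset.mem_cons_self b s)
    have hUb : (w - algebraMap K F b)⁻¹ ∈ G := hU b (Multiset.mem_cons_self b s)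
    set c : K := N.coeff (Multiset.card s + 1) with hc
    set Q : K[X] := Qof (b ::ₘ s) with hQ
    have hQmonic : Q.Monic := monic_Qof _
    have hQdeg : Q.natDegree = Multiset.card s + 1 := by
      rw [hQ, natDegree_Qof, Multiset.card_cons]
    have hQover : Over A Q := over_Qof _ hA
    set N₁ : K[X] := N - C c * Q with hN₁
    have hN₁over : Over A N₁ := hN.sub ((over_C (hN _)).mul hQover)
    have hN₁deg : N₁.natDegree ≤ Multiset.card s := by
      rw [natDegree_le_iff_coeff_eq_zero]
      intro n hn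
      rw [hN₁, coeff_sub, coeff_C_mul]
      rcases Nat.lt_or_ge (Multiset.card s + 1) n with h | h
      · rw [coeff_eq_zero_of_natDegree_lt (lt_of_le_of_lt hdeg h),
          coeff_eq_zero_of_natDegree_lt (by rw [hQdeg]; exact h), mul_zero, sub_zero]
      · have hn' : n = Multiset.card s + 1 := by omega
        rw [hn', ← hQdeg, hQmonic.coeff_natDegree, mul_one, hQdeg, sub_self]
    have hQeq : aeval w Q = (w - algebraMap K F b) * aeval w (Qof s) := by
      rw [hQ, Qof_cons, map_mul, map_sub, aeval_X, aeval_C]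
    by_cases h0 : aeval w Q = 0
    · rw [h0, inv_zero, mul_zero]
      exact G.zero_mem
    · have hwb : w - algebraMap K F b ≠ 0 := by
        intro h
        apply h0
        rw [hQeq, h, zero_mul]
      have hs0 : aeval w (Qof s) ≠ 0 := by
        intro h
        apply h0
        rw [hQeq, h, mul_zero]
      have key : aeval w N * (aeval w Q)⁻¹ =
          algebraMap K F c + (aeval w N₁ * (aeval w (Qof s))⁻¹) * (w - algebraMap K F b)⁻¹ := by
        have hN : aeval w N = algebraMap K F c * aeval w Q + aeval w N₁ := by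
          rw [hN₁, map_sub, map_mul, aeval_C]
          ring
        rw [hN, hQeq]
        field_simp
      rw [key]
      exact G.add_mem (hconst _ (hN _)) (G.mul_mem (ih hAs hUs N₁ hN₁over hN₁deg) hUb)

/-- if `σ` moves every coefficient of `Q` by an element of `ϖ^m A`, then `σQ − Q = ϖ^m N`, `N` over
`A`, `deg N ≤ deg Q`. -/
theorem exists_map_sub {A : Subring K} (σ : K →+* K) (ϖ : K) (m : ℕ) (Q : K[X])
    (hσ : ∀ i, ∃ d ∈ A, σ (Q.coeff i) - Q.coeff i = ϖ ^ m * d) :
    ∃ N : K[X], Over A N ∧ N.natDegree ≤ Q.natDegree ∧ Q.map σ - Q = C (ϖ ^ m) * N := by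
  choose d hdA hd using hσ
  refine ⟨∑ i ∈ Finset.range (Q.natDegree + 1), C (d i) * X ^ i, ?_, ?_, ?_⟩
  · intro j
    rw [finsetSum_coeff]
    refine A.sum_mem fun i _ => ?_
    rw [coeff_C_mul, coeff_X_pow]
    split_ifs
    · rw [mul_one]; exact hdA i
    · rw [mul_zero]; exact A.zero_mem
  · refine natDegree_sum_le_of_forall_le _ _ fun i hi => ?_
    refine (natDegree_C_mul_X_pow_le (d i) i).trans ?_
    have := Finset.mem_range.mp hi
    omega
  · ext j
    rw [coeff_sub, coeff_map, coeff_C_mul, finsetSum_coeff]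
    simp only [coeff_C_mul, coeff_X_pow]
    by_cases hj : j < Q.natDegree + 1
    · rw [Finset.sum_eq_single j]
      · rw [if_pos rfl, mul_one, hd j]
      · intro i _ hij
        rw [if_neg (Ne.symm hij), mul_zero]
      · intro hj'
        exact absurd (Finset.mem_range.mpr hj) hj'
    · have hj' : Q.natDegree < j := by omega
      rw [coeff_eq_zero_of_natDegree_lt hj', map_zero, sub_zero]
      rw [Finset.sum_eq_zero, mul_zero]
      intro i hi
      have := Finset.mem_range.mp hi
      rw [if_neg (by omega), mul_zero]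

/-- **the local factor at a smooth point.** -/
theorem factor_eq {A : Subring K} (G : Subring F) (hconst : ∀ a ∈ A, algebraMap K F a ∈ G)
    (σ : K →+* K) (ϖ : K) (m : ℕ) (w : F) (rp rm : Multiset K)
    (hAp : ∀ b ∈ rp, b ∈ A) (hAm : ∀ b ∈ rm, b ∈ A) (hσA : ∀ a ∈ A, σ a ∈ A)
    (hUp : ∀ b ∈ rp, (w - algebraMap K F b)⁻¹ ∈ G)
    (hUm : ∀ b ∈ rm, (w - algebraMap K F (σ b))⁻¹ ∈ G)
    (hσp : ∀ i, ∃ d ∈ A, σ ((Qof rp).coeff i) - (Qof rp).coeff i = ϖ ^ m * d)
    (hσm : ∀ i, ∃ d ∈ A, σ ((Qof rm).coeff i) - (Qof rm).coeff i = ϖ ^ m * d)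
    (hp0 : aeval w (Qof rp) ≠ 0) (hm0 : aeval w (Qof (rm.map σ)) ≠ 0) :
    ∃ ψ ∈ G, aeval w (Qof (rp.map σ)) * aeval w (Qof rm) =
      aeval w (Qof rp) * aeval w (Qof (rm.map σ)) * (1 + algebraMap K F ϖ ^ m * ψ) := by
  obtain ⟨Np, hNp, hNpdeg, hNpeq⟩ := exists_map_sub (A := A) σ ϖ m (Qof rp) hσp
  obtain ⟨Nm, hNm, hNmdeg, hNmeq⟩ := exists_map_sub (A := A) σ ϖ m (Qof rm) hσm
  rw [map_Qof] at hNpeq hNmeq
  -- the numerator
  set Num : K[X] := Np * Qof rm - Qof rp * Nm with hNum
  have hNumover : Over A Num :=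
    (hNp.mul (over_Qof rm hAm)).sub ((over_Qof rp hAp).mul hNm)
  have hNumdeg : Num.natDegree ≤ Multiset.card (rp + rm.map σ) := by
    rw [Multiset.card_add, Multiset.card_map]
    refine (natDegree_sub_le _ _).trans (max_le ?_ ?_)
    · refine natDegree_mul_le.trans ?_
      rw [natDegree_Qof] at hNpdeg ⊢
      omega
    · refine natDegree_mul_le.trans ?_
      rw [natDegree_Qof] at hNmdeg ⊢
      omega
  have hAden : ∀ b ∈ rp + rm.map σ, b ∈ A := by
    intro b hb
    rcases Multiset.mem_add.mp hb with h | h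
    · exact hAp b h
    · obtain ⟨c, hc, rfl⟩ := Multiset.mem_map.mp h
      exact hσA c (hAm c hc)
  have hUden : ∀ b ∈ rp + rm.map σ, (w - algebraMap K F b)⁻¹ ∈ G := by
    intro b hb
    rcases Multiset.mem_add.mp hb with h | h
    · exact hUp b h
    · obtain ⟨c, hc, rfl⟩ := Multiset.mem_map.mp h
      exact hUm c hc
  refine ⟨_, aeval_div_mem G hconst w (rp + rm.map σ) hAden hUden Num hNumover hNumdeg, ?_⟩
  rw [Qof_add, map_mul]
  have hden : aeval w (Qof rp) * aeval w (Qof (rm.map σ)) ≠ 0 := mul_ne_zero hp0 hm0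
  have e1 : aeval w (Qof (rp.map σ)) = aeval w (Qof rp) + algebraMap K F ϖ ^ m * aeval w Np := by
    have := congrArg (aeval w) hNpeq
    rw [map_sub, map_mul, aeval_C, map_pow] at this
    rw [← this]
    ring
  have e2 : aeval w (Qof (rm.map σ)) = aeval w (Qof rm) + algebraMap K F ϖ ^ m * aeval w Nm := by
    have := congrArg (aeval w) hNmeq
    rw [map_sub, map_mul, aeval_C, map_pow] at this
    rw [← this]
    ring
  have e3 : aeval w Num = aeval w Np * aeval w (Qof rm) - aeval w (Qof rp) * aeval w Nm := by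
    rw [hNum, map_sub, map_mul, map_mul]
  rw [e3]
  field_simp
  rw [e1, e2]
  ring

end Fermat.Agent.ES.X44.LocFacPoly12
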