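/-
Programme X (S44, spine `X44_SPINE14.md`), chapter (W1) "equal slopes", helper22:
**THE CONGRUENCES (★) OF THE LOCAL FACTORS** (`T2_W1_ROUTE14.md` §2 (c) = `W1_KEY12.md` §1 (b)), abstract
algebra over one or two "Gauss rings".

SETTING.  `A ≤ K` a valuation subring with residue map `π : A → k`; `O ⊆ F` a subring containing the
constants of `A`, with a reduction `rho : O → Ft` which is `π` on constants and such that the elements with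
nonzero reduction are units of `O` (`GaussRing`).  `τ : F ≃+* F` a ring automorphism acting on the constants
through `τ₀ : K ≃+* K`.  `ϖ ∈ A`, `t : ℕ`.

* `aeval_ratio` : `x ∈ O` with `rho x ≠ 0`, `τ x = x`; `Q = ∏ (X - ξ i)` with `ξ i ∈ A` nonunits, whose
  coefficients satisfy `τ₀ c ≡ c mod ϖ^(t+1) A` (they are `S`-fixed: (k3) of the tower).  Then
  `τ (Q(x)) / Q(x) = 1 + ϖ^(t+1)·w` with `w ∈ O`.                    [(★) on the branch where the coordinate is a unit]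
* `node_factor` : two Gauss rings `O₁, O₂`, node coordinates `x ∈ O₁`, `y ∈ O₂` with `x·y = π₀`, units on
  their own branch, `τ`-fixed; roots `ξ i` in the annulus (`ξ i` and `π₀ / ξ i` nonunits of `A`);
  `N = ∏ (-ξ i)` with `τ₀ N / N = 1 + ϖ^t·(κ + ϖ·d)`.  Then
  `τ (Q(x)) / Q(x) = 1 + ϖ^t·ψ` with `ψ ∈ O₁ ⊓ O₂`, `rho₁ ψ = 0`, `rho₂ ψ = κ̄`.            [(★) at a node]
* `smooth_factor` : a coordinate `w` which is a unit of both Gauss rings ⇒ `τ (Q(w)) / Q(w) = 1 + ϖ^n·ψ`,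
  `ψ ∈ O₁ ⊓ O₂`.                                                                   [(★) at a smooth point]
* `OneAdd` calculus: the functions `1 + ϖ^t·ψ`, `ψ ∈ O₁ ⊓ O₂`, form a group and `ψ ↦ (rho₁ ψ, rho₂ ψ)` is
  additive on it (`OneAdd.mul`, `OneAdd.inv`, `OneAdd.div`) — for divisors with multiplicities of both signs.
-/
import Mathlib

set_option autoImplicit false

noncomputable section

namespace Fermat.Agent.ES.X44.OrbitPoly22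

open Polynomial

variable {K F k Ft : Type*} [Field K] [Field F] [Algebra K F] [Field k] [Field Ft] [Algebra k Ft]

/-- a subring `O ⊆ F` with a reduction `rho`, in elementary form. -/
structure GaussRing (A : ValuationSubring K) (π : ↥A →+* k) (O : Subring F) (rho : ↥O →+* Ft) :
    Prop where
  const_mem : ∀ a : ↥A, algebraMap K F (a : K) ∈ O
  rho_const : ∀ a : ↥A, rho ⟨algebraMap K F (a : K), const_mem a⟩ = algebraMap k Ft (π a)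
  pi_nonunit : ∀ a : ↥A, ¬ IsUnit a → π a = 0
  unit : ∀ f : ↥O, rho f ≠ 0 → ((f : F))⁻¹ ∈ O

section One

variable {A : ValuationSubring K} {π : ↥A →+* k} {O : Subring F} {rho : ↥O →+* Ft}

theorem GaussRing.rho_nonunit (hO : GaussRing A π O rho) {a : K} (ha : a ∈ A)
    (hnu : ¬ IsUnit (⟨a, ha⟩ : ↥A)) : rho ⟨algebraMap K F a, hO.const_mem ⟨a, ha⟩⟩ = 0 := by
  rw [hO.rho_const ⟨a, ha⟩, hO.pi_nonunit _ hnu, map_zero]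

/-- a polynomial with coefficients in `A` takes values in `O` on `O`. -/
theorem sum_smul_pow_mem (hO : GaussRing A π O rho) {x : F} (hx : x ∈ O) (n : ℕ) (d : ℕ → K)
    (hd : ∀ i, d i ∈ A) : ∑ i ∈ Finset.range n, d i • x ^ i ∈ O := by
  refine Subring.sum_mem _ fun i _ => ?_
  rw [Algebra.smul_def]
  exact O.mul_mem (hO.const_mem ⟨d i, hd i⟩) (O.pow_mem hx i)

/-- semilinearity of evaluation at a fixed point. -/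
theorem map_aeval (τ : F ≃+* F) (τ₀ : K ≃+* K)
    (hτ : ∀ a : K, τ (algebraMap K F a) = algebraMap K F (τ₀ a)) {x : F} (hx : τ x = x)
    (Q : K[X]) : τ (aeval x Q) = aeval x (Q.map (τ₀ : K →+* K)) := by
  rw [aeval_def, aeval_def, eval₂_map]
  have h := Polynomial.hom_eval₂ Q (algebraMap K F) (τ : F →+* F) x
  have e : ((τ : F →+* F).comp (algebraMap K F)) = (algebraMap K F).comp (τ₀ : K →+* K) :=
    RingHom.ext fun a => hτ a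
  have h' : τ (eval₂ (algebraMap K F) x Q) =
      eval₂ ((τ : F →+* F).comp (algebraMap K F)) (τ x) Q := h
  rw [h', hx, e]

/-- the value of `∏ (X - ξ i)` at `x`. -/
theorem aeval_prod {m : ℕ} (ξ : Fin m → K) (x : F) :
    aeval x (∏ i, (X - C (ξ i))) = ∏ i, (x - algebraMap K F (ξ i)) := by
  rw [map_prod]
  refine Finset.prod_congr rfl fun i _ => ?_
  rw [map_sub, aeval_X, aeval_C]

/-- `Q(x)` is a unit of `O` when `x` is and the roots are nonunits of `A`. -/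
theorem prod_sub_unit (hO : GaussRing A π O rho) {x : F} (hx : x ∈ O)
    (hxu : rho ⟨x, hx⟩ ≠ 0) {m : ℕ} (ξ : Fin m → K) (hξ : ∀ i, ξ i ∈ A)
    (hξn : ∀ i, ¬ IsUnit (⟨ξ i, hξ i⟩ : ↥A)) :
    (∏ i, (x - algebraMap K F (ξ i))) ∈ O ∧ (∏ i, (x - algebraMap K F (ξ i)))⁻¹ ∈ O := by
  have hmem : ∀ i, x - algebraMap K F (ξ i) ∈ O := fun i =>
    O.sub_mem hx (hO.const_mem ⟨ξ i, hξ i⟩)
  have hprod : (∏ i, (x - algebraMap K F (ξ i))) ∈ O := Subring.prod_mem _ fun i _ => hmem i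
  refine ⟨hprod, ?_⟩
  have hrho : rho ⟨_, hprod⟩ = (rho ⟨x, hx⟩) ^ m := by
    have e : (⟨∏ i, (x - algebraMap K F (ξ i)), hprod⟩ : ↥O) =
        ∏ i, (⟨x - algebraMap K F (ξ i), hmem i⟩ : ↥O) := by
      apply Subtype.ext
      rw [SubmonoidClass.coe_finsetProd]
    rw [e, map_prod]
    have h1 : ∀ i, rho ⟨x - algebraMap K F (ξ i), hmem i⟩ = rho ⟨x, hx⟩ := by
      intro i
      have e' : (⟨x - algebraMap K F (ξ i), hmem i⟩ : ↥O) =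
          ⟨x, hx⟩ - ⟨algebraMap K F (ξ i), hO.const_mem ⟨ξ i, hξ i⟩⟩ := rfl
      rw [e', map_sub, hO.rho_nonunit (hξ i) (hξn i), sub_zero]
    rw [Finset.prod_congr rfl fun i _ => h1 i, Finset.prod_const, Finset.card_univ,
      Fintype.card_fin]
  exact hO.unit ⟨_, hprod⟩ (by rw [hrho]; exact pow_ne_zero _ hxu)

/-- **(★) on the branch where the coordinate is a unit.** -/
theorem aeval_ratio (hO : GaussRing A π O rho) (τ : F ≃+* F) (τ₀ : K ≃+* K)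
    (hτ : ∀ a : K, τ (algebraMap K F a) = algebraMap K F (τ₀ a)) {x : F} (hx : x ∈ O)
    (hxu : rho ⟨x, hx⟩ ≠ 0) (hτx : τ x = x) {m : ℕ} (ξ : Fin m → K) (hξ : ∀ i, ξ i ∈ A)
    (hξn : ∀ i, ¬ IsUnit (⟨ξ i, hξ i⟩ : ↥A)) (ϖ : K) (n : ℕ)
    (hcoef : ∀ j : ℕ, ∃ d ∈ A, τ₀ ((∏ i, (X - C (ξ i))).coeff j) -
      (∏ i, (X - C (ξ i))).coeff j = ϖ ^ n * d) :
    ∃ w ∈ O, τ (aeval x (∏ i, (X - C (ξ i)))) / aeval x (∏ i, (X - C (ξ i))) =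
      1 + algebraMap K F ϖ ^ n * w := by
  classical
  set Q : K[X] := ∏ i, (X - C (ξ i)) with hQ
  obtain ⟨hQmem, hQinv⟩ := prod_sub_unit hO hx hxu ξ hξ hξn
  rw [← aeval_prod] at hQmem hQinv
  have hQ0 : aeval x Q ≠ 0 := by
    intro h0
    have h1 := (prod_sub_unit hO hx hxu ξ hξ hξn).2
    rw [← aeval_prod, ← hQ, h0, inv_zero] at h1
    -- `0⁻¹ = 0 ∈ O` is no contradiction; use the reduction instead
    have h2 : (∏ i, (x - algebraMap K F (ξ i))) = 0 := by rw [← aeval_prod, ← hQ, h0]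
    obtain ⟨i, -, hi⟩ := Finset.prod_eq_zero_iff.mp h2
    have hxi : x = algebraMap K F (ξ i) := sub_eq_zero.mp hi
    apply hxu
    have e : (⟨x, hx⟩ : ↥O) = ⟨algebraMap K F (ξ i), hO.const_mem ⟨ξ i, hξ i⟩⟩ :=
      Subtype.ext hxi
    rw [e, hO.rho_nonunit (hξ i) (hξn i)]
  choose d hdA hd using hcoef
  set N := Q.natDegree + 1 with hN
  have hdeg : (Q.map (τ₀ : K →+* K)).natDegree < N := by
    rw [natDegree_map_eq_of_injective τ₀.injective]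
    omega
  have h1 : aeval x (Q.map (τ₀ : K →+* K)) = ∑ j ∈ Finset.range N,
      (Q.map (τ₀ : K →+* K)).coeff j • x ^ j := aeval_eq_sum_range' hdeg x
  have h2 : aeval x Q = ∑ j ∈ Finset.range N, Q.coeff j • x ^ j :=
    aeval_eq_sum_range' (by omega) x
  have hdiff : τ (aeval x Q) - aeval x Q =
      algebraMap K F ϖ ^ n * ∑ j ∈ Finset.range N, d j • x ^ j := by
    rw [map_aeval τ τ₀ hτ hτx, h1, h2, ← Finset.sum_sub_distrib, Finset.mul_sum]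
    refine Finset.sum_congr rfl fun j _ => ?_
    rw [coeff_map, ← sub_smul]
    have : ((τ₀ : K →+* K) (Q.coeff j)) - Q.coeff j = ϖ ^ n * d j := hd j
    rw [this, Algebra.smul_def, Algebra.smul_def, map_mul, map_pow]
    ring
  refine ⟨(∑ j ∈ Finset.range N, d j • x ^ j) * (aeval x Q)⁻¹,
    O.mul_mem (sum_smul_pow_mem hO hx N d hdA) hQinv, ?_⟩
  have : τ (aeval x Q) / aeval x Q = 1 + (τ (aeval x Q) - aeval x Q) * (aeval x Q)⁻¹ := by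
    field_simp
    ring
  rw [this, hdiff]
  ring

end One

/-! ### The calculus of `1 + ϖ^t ψ` -/

section OneAdd

variable {Ft₁ Ft₂ : Type*} [Field Ft₁] [Field Ft₂]

/-- `φ = 1 + c·ψ` with `ψ ∈ O₁ ⊓ O₂`, `rho₁ ψ = e₁`, `rho₂ ψ = e₂`. -/
def OneAdd (O₁ O₂ : Subring F) (rho₁ : ↥O₁ →+* Ft₁) (rho₂ : ↥O₂ →+* Ft₂) (c : F) (φ : F)
    (e₁ : Ft₁) (e₂ : Ft₂) : Prop :=
  ∃ (ψ : F) (h₁ : ψ ∈ O₁) (h₂ : ψ ∈ O₂), φ = 1 + c * ψ ∧ rho₁ ⟨ψ, h₁⟩ = e₁ ∧ rho₂ ⟨ψ, h₂⟩ = e₂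

variable {O₁ O₂ : Subring F} {rho₁ : ↥O₁ →+* Ft₁} {rho₂ : ↥O₂ →+* Ft₂} {c : F}

theorem OneAdd.one : OneAdd O₁ O₂ rho₁ rho₂ c 1 0 0 :=
  ⟨0, O₁.zero_mem, O₂.zero_mem, by ring, map_zero rho₁, map_zero rho₂⟩

/-- products: the first-order terms add (`c` has reduction `0` on both sides). -/
theorem OneAdd.mul (hc₁ : ∃ h : c ∈ O₁, rho₁ ⟨c, h⟩ = 0) (hc₂ : ∃ h : c ∈ O₂, rho₂ ⟨c, h⟩ = 0)
    {φ φ' : F} {e₁ e₁' : Ft₁} {e₂ e₂' : Ft₂} (h : OneAdd O₁ O₂ rho₁ rho₂ c φ e₁ e₂)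
    (h' : OneAdd O₁ O₂ rho₁ rho₂ c φ' e₁' e₂') :
    OneAdd O₁ O₂ rho₁ rho₂ c (φ * φ') (e₁ + e₁') (e₂ + e₂') := by
  obtain ⟨ψ, h₁, h₂, rfl, r₁, r₂⟩ := h
  obtain ⟨ψ', h₁', h₂', rfl, r₁', r₂'⟩ := h'
  obtain ⟨hc1, hc1r⟩ := hc₁
  obtain ⟨hc2, hc2r⟩ := hc₂
  refine ⟨ψ + ψ' + c * ψ * ψ',
    O₁.add_mem (O₁.add_mem h₁ h₁') (O₁.mul_mem (O₁.mul_mem hc1 h₁) h₁'),
    O₂.add_mem (O₂.add_mem h₂ h₂') (O₂.mul_mem (O₂.mul_mem hc2 h₂) h₂'), by ring, ?_, ?_⟩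
  · have e : (⟨ψ + ψ' + c * ψ * ψ', O₁.add_mem (O₁.add_mem h₁ h₁')
        (O₁.mul_mem (O₁.mul_mem hc1 h₁) h₁')⟩ : ↥O₁) =
        ⟨ψ, h₁⟩ + ⟨ψ', h₁'⟩ + ⟨c, hc1⟩ * ⟨ψ, h₁⟩ * ⟨ψ', h₁'⟩ := rfl
    rw [e, map_add, map_add, map_mul, map_mul, hc1r, r₁, r₁']
    ring
  · have e : (⟨ψ + ψ' + c * ψ * ψ', O₂.add_mem (O₂.add_mem h₂ h₂')
        (O₂.mul_mem (O₂.mul_mem hc2 h₂) h₂')⟩ : ↥O₂) =
        ⟨ψ, h₂⟩ + ⟨ψ', h₂'⟩ + ⟨c, hc2⟩ * ⟨ψ, h₂⟩ * ⟨ψ', h₂'⟩ := rfl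
    rw [e, map_add, map_add, map_mul, map_mul, hc2r, r₂, r₂']
    ring

/-- inverses: the first-order term changes sign. -/
theorem OneAdd.inv (hc₁ : ∃ h : c ∈ O₁, rho₁ ⟨c, h⟩ = 0) (hc₂ : ∃ h : c ∈ O₂, rho₂ ⟨c, h⟩ = 0)
    (hu₁ : ∀ f : ↥O₁, rho₁ f ≠ 0 → ((f : F))⁻¹ ∈ O₁)
    (hu₂ : ∀ f : ↥O₂, rho₂ f ≠ 0 → ((f : F))⁻¹ ∈ O₂)
    {φ : F} {e₁ : Ft₁} {e₂ : Ft₂} (h : OneAdd O₁ O₂ rho₁ rho₂ c φ e₁ e₂) :
    OneAdd O₁ O₂ rho₁ rho₂ c φ⁻¹ (-e₁) (-e₂) := by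
  obtain ⟨ψ, h₁, h₂, rfl, r₁, r₂⟩ := h
  obtain ⟨hc1, hc1r⟩ := hc₁
  obtain ⟨hc2, hc2r⟩ := hc₂
  have hd1 : 1 + c * ψ ∈ O₁ := O₁.add_mem O₁.one_mem (O₁.mul_mem hc1 h₁)
  have hd2 : 1 + c * ψ ∈ O₂ := O₂.add_mem O₂.one_mem (O₂.mul_mem hc2 h₂)
  have hr1 : rho₁ ⟨1 + c * ψ, hd1⟩ = 1 := by
    have e : (⟨1 + c * ψ, hd1⟩ : ↥O₁) = 1 + ⟨c, hc1⟩ * ⟨ψ, h₁⟩ := rfl
    rw [e, map_add, map_one, map_mul, hc1r, zero_mul, add_zero]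
  have hr2 : rho₂ ⟨1 + c * ψ, hd2⟩ = 1 := by
    have e : (⟨1 + c * ψ, hd2⟩ : ↥O₂) = 1 + ⟨c, hc2⟩ * ⟨ψ, h₂⟩ := rfl
    rw [e, map_add, map_one, map_mul, hc2r, zero_mul, add_zero]
  have hi1 : (1 + c * ψ)⁻¹ ∈ O₁ := hu₁ ⟨_, hd1⟩ (by rw [hr1]; exact one_ne_zero)
  have hi2 : (1 + c * ψ)⁻¹ ∈ O₂ := hu₂ ⟨_, hd2⟩ (by rw [hr2]; exact one_ne_zero)
  have hd0 : 1 + c * ψ ≠ 0 := by
    intro h0
    have : (⟨1 + c * ψ, hd1⟩ : ↥O₁) = 0 := Subtype.ext h0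
    rw [this, map_zero] at hr1
    exact zero_ne_one hr1
  have hri1 : rho₁ ⟨(1 + c * ψ)⁻¹, hi1⟩ = 1 := by
    have e : (⟨1 + c * ψ, hd1⟩ : ↥O₁) * ⟨(1 + c * ψ)⁻¹, hi1⟩ = 1 :=
      Subtype.ext (mul_inv_cancel₀ hd0)
    have := congrArg rho₁ e
    rwa [map_mul, hr1, one_mul, map_one] at this
  have hri2 : rho₂ ⟨(1 + c * ψ)⁻¹, hi2⟩ = 1 := by
    have e : (⟨1 + c * ψ, hd2⟩ : ↥O₂) * ⟨(1 + c * ψ)⁻¹, hi2⟩ = 1 :=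
      Subtype.ext (mul_inv_cancel₀ hd0)
    have := congrArg rho₂ e
    rwa [map_mul, hr2, one_mul, map_one] at this
  refine ⟨-ψ * (1 + c * ψ)⁻¹, O₁.mul_mem (O₁.neg_mem h₁) hi1, O₂.mul_mem (O₂.neg_mem h₂) hi2,
    ?_, ?_, ?_⟩
  · field_simp
    ring
  · have e : (⟨-ψ * (1 + c * ψ)⁻¹, O₁.mul_mem (O₁.neg_mem h₁) hi1⟩ : ↥O₁) =
        -⟨ψ, h₁⟩ * ⟨(1 + c * ψ)⁻¹, hi1⟩ := rfl
    rw [e, map_mul, map_neg, hri1, r₁, mul_one]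
  · have e : (⟨-ψ * (1 + c * ψ)⁻¹, O₂.mul_mem (O₂.neg_mem h₂) hi2⟩ : ↥O₂) =
        -⟨ψ, h₂⟩ * ⟨(1 + c * ψ)⁻¹, hi2⟩ := rfl
    rw [e, map_mul, map_neg, hri2, r₂, mul_one]

theorem OneAdd.div (hc₁ : ∃ h : c ∈ O₁, rho₁ ⟨c, h⟩ = 0) (hc₂ : ∃ h : c ∈ O₂, rho₂ ⟨c, h⟩ = 0)
    (hu₁ : ∀ f : ↥O₁, rho₁ f ≠ 0 → ((f : F))⁻¹ ∈ O₁)
    (hu₂ : ∀ f : ↥O₂, rho₂ f ≠ 0 → ((f : F))⁻¹ ∈ O₂)
    {φ φ' : F} {e₁ e₁' : Ft₁} {e₂ e₂' : Ft₂} (h : OneAdd O₁ O₂ rho₁ rho₂ c φ e₁ e₂)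
    (h' : OneAdd O₁ O₂ rho₁ rho₂ c φ' e₁' e₂') :
    OneAdd O₁ O₂ rho₁ rho₂ c (φ / φ') (e₁ - e₁') (e₂ - e₂') := by
  rw [div_eq_mul_inv, sub_eq_add_neg, sub_eq_add_neg]
  exact h.mul hc₁ hc₂ (h'.inv hc₁ hc₂ hu₁ hu₂)

theorem OneAdd.prod (hc₁ : ∃ h : c ∈ O₁, rho₁ ⟨c, h⟩ = 0) (hc₂ : ∃ h : c ∈ O₂, rho₂ ⟨c, h⟩ = 0)
    {ι : Type*} (s : Finset ι) (φ : ι → F) (e₁ : ι → Ft₁) (e₂ : ι → Ft₂)
    (h : ∀ i ∈ s, OneAdd O₁ O₂ rho₁ rho₂ c (φ i) (e₁ i) (e₂ i)) :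
    OneAdd O₁ O₂ rho₁ rho₂ c (∏ i ∈ s, φ i) (∑ i ∈ s, e₁ i) (∑ i ∈ s, e₂ i) := by
  classical
  induction s using Finset.induction_on with
  | empty => simpa using OneAdd.one
  | insert a s ha ih =>
    rw [Finset.prod_insert ha, Finset.sum_insert ha, Finset.sum_insert ha]
    exact (h a (Finset.mem_insert_self a s)).mul hc₁ hc₂
      (ih fun i hi => h i (Finset.mem_insert_of_mem hi))

end OneAdd

/-! ### The local factor at a node -/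

section Node

variable {Ft₁ Ft₂ : Type*} [Field Ft₁] [Algebra k Ft₁] [Field Ft₂] [Algebra k Ft₂]
  {A : ValuationSubring K} {π : ↥A →+* k} {O₁ O₂ : Subring F} {rho₁ : ↥O₁ →+* Ft₁}
  {rho₂ : ↥O₂ →+* Ft₂}

/-- `x - ξ = -ξ·y⁻¹·(y - π₀/ξ)` when `x·y = π₀`. -/
theorem sub_eq_of_mul_eq {x y : F} {π₀ ξ : K} (hxy : x * y = algebraMap K F π₀) (hy : y ≠ 0)
    (hξ : ξ ≠ 0) :
    x - algebraMap K F ξ = algebraMap K F (-ξ) * y⁻¹ * (y - algebraMap K F (π₀ / ξ)) := by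
  have hξF : algebraMap K F ξ ≠ 0 := (_root_.map_ne_zero _).mpr hξ
  have hx : x = algebraMap K F π₀ * y⁻¹ := by
    rw [← hxy, mul_assoc, mul_inv_cancel₀ hy, mul_one]
  rw [hx, map_neg, map_div₀]
  field_simp
  ring

/-- `Q(x) = N·y^{-m}·Q^Y(y)`. -/
theorem prod_sub_eq {x y : F} {π₀ : K} (hxy : x * y = algebraMap K F π₀) (hy : y ≠ 0) {m : ℕ}
    (ξ : Fin m → K) (hξ0 : ∀ i, ξ i ≠ 0) :
    ∏ i, (x - algebraMap K F (ξ i)) =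
      algebraMap K F (∏ i, (-ξ i)) * (y⁻¹) ^ m * ∏ i, (y - algebraMap K F (π₀ / ξ i)) := by
  rw [Finset.prod_congr rfl fun i _ => sub_eq_of_mul_eq hxy hy (hξ0 i), Finset.prod_mul_distrib,
    Finset.prod_mul_distrib, Finset.prod_const, Finset.card_univ, Fintype.card_fin, map_prod]

/-- **(★) at a node.** -/
theorem node_factor (h₁ : GaussRing A π O₁ rho₁) (h₂ : GaussRing A π O₂ rho₂) (τ : F ≃+* F)
    (τ₀ : K ≃+* K) (hτ : ∀ a : K, τ (algebraMap K F a) = algebraMap K F (τ₀ a))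
    {x y : F} (hx : x ∈ O₁) (hxu : rho₁ ⟨x, hx⟩ ≠ 0) (hτx : τ x = x)
    (hy : y ∈ O₂) (hyu : rho₂ ⟨y, hy⟩ ≠ 0) (hτy : τ y = y)
    {π₀ : K} (hxy : x * y = algebraMap K F π₀)
    {m : ℕ} (ξ : Fin m → K) (hξ : ∀ i, ξ i ∈ A) (hξn : ∀ i, ¬ IsUnit (⟨ξ i, hξ i⟩ : ↥A))
    (hξ0 : ∀ i, ξ i ≠ 0) (hη : ∀ i, π₀ / ξ i ∈ A)
    (hηn : ∀ i, ¬ IsUnit (⟨π₀ / ξ i, hη i⟩ : ↥A))
    {ϖ : K} (hϖ : ϖ ∈ A) (hϖn : ¬ IsUnit (⟨ϖ, hϖ⟩ : ↥A)) (hϖ0 : ϖ ≠ 0) (t : ℕ)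
    (hcoef : ∀ j : ℕ, ∃ d ∈ A, τ₀ ((∏ i, (X - C (ξ i))).coeff j) -
      (∏ i, (X - C (ξ i))).coeff j = ϖ ^ (t + 1) * d)
    (hcoefY : ∀ j : ℕ, ∃ d ∈ A, τ₀ ((∏ i, (X - C (π₀ / ξ i))).coeff j) -
      (∏ i, (X - C (π₀ / ξ i))).coeff j = ϖ ^ (t + 1) * d)
    {κ : K} (hκ : κ ∈ A)
    (hN : ∃ d ∈ A, τ₀ (∏ i, (-ξ i)) / (∏ i, (-ξ i)) = 1 + ϖ ^ t * (κ + ϖ * d)) :
    OneAdd O₁ O₂ rho₁ rho₂ (algebraMap K F ϖ ^ t)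
      (τ (aeval x (∏ i, (X - C (ξ i)))) / aeval x (∏ i, (X - C (ξ i)))) 0
      (algebraMap k Ft₂ (π ⟨κ, hκ⟩)) := by
  classical
  have hϖF : algebraMap K F ϖ ≠ 0 := (_root_.map_ne_zero _).mpr hϖ0
  have hϖt : algebraMap K F ϖ ^ t ≠ 0 := pow_ne_zero _ hϖF
  have hy0 : y ≠ 0 := by
    rintro rfl
    apply hyu
    have : (⟨0, hy⟩ : ↥O₂) = 0 := rfl
    rw [this, map_zero]
  -- the first branch
  obtain ⟨w₁, hw₁, e₁⟩ := aeval_ratio h₁ τ τ₀ hτ hx hxu hτx ξ hξ hξn ϖ (t + 1) hcoef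
  -- the second branch
  obtain ⟨w₂, hw₂, e₂⟩ := aeval_ratio h₂ τ τ₀ hτ hy hyu hτy (fun i => π₀ / ξ i) hη hηn ϖ (t + 1)
    hcoefY
  obtain ⟨d, hd, hN⟩ := hN
  set N : K := ∏ i, (-ξ i) with hNdef
  have hN0 : N ≠ 0 := Finset.prod_ne_zero_iff.mpr fun i _ => neg_ne_zero.mpr (hξ0 i)
  have hQY0 : aeval y (∏ i, (X - C (π₀ / ξ i))) ≠ 0 := by
    obtain ⟨hmem, hinv⟩ := prod_sub_unit h₂ hy hyu (fun i => π₀ / ξ i) hη hηn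
    rw [aeval_prod]
    intro h0
    obtain ⟨i, -, hi⟩ := Finset.prod_eq_zero_iff.mp h0
    have hyi : y = algebraMap K F (π₀ / ξ i) := sub_eq_zero.mp hi
    apply hyu
    have e : (⟨y, hy⟩ : ↥O₂) = ⟨algebraMap K F (π₀ / ξ i), h₂.const_mem ⟨π₀ / ξ i, hη i⟩⟩ :=
      Subtype.ext hyi
    rw [e, h₂.rho_nonunit (hη i) (hηn i)]
  have hfac : aeval x (∏ i, (X - C (ξ i))) =
      algebraMap K F N * (y⁻¹) ^ m * aeval y (∏ i, (X - C (π₀ / ξ i))) := by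
    rw [aeval_prod, aeval_prod]
    exact prod_sub_eq hxy hy0 ξ hξ0
  have hφ : τ (aeval x (∏ i, (X - C (ξ i)))) / aeval x (∏ i, (X - C (ξ i))) =
      algebraMap K F (τ₀ N / N) *
        (τ (aeval y (∏ i, (X - C (π₀ / ξ i)))) / aeval y (∏ i, (X - C (π₀ / ξ i)))) := by
    rw [hfac, map_mul, map_mul, map_pow, map_inv₀, hτy, hτ, map_div₀]
    have hNF : algebraMap K F N ≠ 0 := (_root_.map_ne_zero _).mpr hN0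
    have hym : (y⁻¹) ^ m ≠ 0 := pow_ne_zero _ (inv_ne_zero hy0)
    field_simp
  -- the element `ψ`
  have hψ₂ : τ (aeval x (∏ i, (X - C (ξ i)))) / aeval x (∏ i, (X - C (ξ i))) =
      1 + algebraMap K F ϖ ^ t * (algebraMap K F κ + algebraMap K F ϖ *
        (algebraMap K F d + w₂ * algebraMap K F (τ₀ N / N))) := by
    rw [hφ, e₂, hN]
    simp only [map_add, map_mul, map_one, map_pow]
    ring
  have hψ₁ : τ (aeval x (∏ i, (X - C (ξ i)))) / aeval x (∏ i, (X - C (ξ i))) =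
      1 + algebraMap K F ϖ ^ t * (algebraMap K F ϖ * w₁) := by
    rw [e₁, pow_succ]
    ring
  have heq : algebraMap K F ϖ * w₁ = algebraMap K F κ + algebraMap K F ϖ *
      (algebraMap K F d + w₂ * algebraMap K F (τ₀ N / N)) := by
    have := hψ₁.symm.trans hψ₂
    exact mul_left_cancel₀ hϖt (add_left_cancel this)
  have hϖ₁ : algebraMap K F ϖ ∈ O₁ := h₁.const_mem ⟨ϖ, hϖ⟩
  have hϖ₂ : algebraMap K F ϖ ∈ O₂ := h₂.const_mem ⟨ϖ, hϖ⟩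
  have hτN : τ₀ N / N ∈ A := by
    rw [hN]
    exact A.add_mem _ _ A.one_mem (A.mul_mem _ _ (pow_mem hϖ t)
      (A.add_mem _ _ hκ (A.mul_mem _ _ hϖ hd)))
  have hmem₂ : algebraMap K F κ + algebraMap K F ϖ *
      (algebraMap K F d + w₂ * algebraMap K F (τ₀ N / N)) ∈ O₂ :=
    O₂.add_mem (h₂.const_mem ⟨κ, hκ⟩) (O₂.mul_mem hϖ₂
      (O₂.add_mem (h₂.const_mem ⟨d, hd⟩) (O₂.mul_mem hw₂ (h₂.const_mem ⟨_, hτN⟩))))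
  refine ⟨algebraMap K F ϖ * w₁, O₁.mul_mem hϖ₁ hw₁, by rw [heq]; exact hmem₂, hψ₁, ?_, ?_⟩
  · have e : (⟨algebraMap K F ϖ * w₁, O₁.mul_mem hϖ₁ hw₁⟩ : ↥O₁) =
        ⟨algebraMap K F ϖ, hϖ₁⟩ * ⟨w₁, hw₁⟩ := rfl
    rw [e, map_mul, h₁.rho_nonunit hϖ hϖn, zero_mul]
  · have e : (⟨algebraMap K F ϖ * w₁, by rw [heq]; exact hmem₂⟩ : ↥O₂) =
        ⟨algebraMap K F κ, h₂.const_mem ⟨κ, hκ⟩⟩ + ⟨algebraMap K F ϖ, hϖ₂⟩ *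
          ⟨algebraMap K F d + w₂ * algebraMap K F (τ₀ N / N),
            O₂.add_mem (h₂.const_mem ⟨d, hd⟩) (O₂.mul_mem hw₂ (h₂.const_mem ⟨_, hτN⟩))⟩ :=
      Subtype.ext heq
    rw [e, map_add, map_mul, h₂.rho_nonunit hϖ hϖn, zero_mul, add_zero, h₂.rho_const ⟨κ, hκ⟩]

/-- **(★) at a smooth point**: a coordinate `w` which is a unit of BOTH Gauss rings. -/
theorem smooth_factor (h₁ : GaussRing A π O₁ rho₁) (h₂ : GaussRing A π O₂ rho₂) (τ : F ≃+* F)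
    (τ₀ : K ≃+* K) (hτ : ∀ a : K, τ (algebraMap K F a) = algebraMap K F (τ₀ a))
    {w : F} (hw₁ : w ∈ O₁) (hwu₁ : rho₁ ⟨w, hw₁⟩ ≠ 0) (hw₂ : w ∈ O₂) (hwu₂ : rho₂ ⟨w, hw₂⟩ ≠ 0)
    (hτw : τ w = w) {m : ℕ} (ξ : Fin m → K) (hξ : ∀ i, ξ i ∈ A)
    (hξn : ∀ i, ¬ IsUnit (⟨ξ i, hξ i⟩ : ↥A)) {ϖ : K} (hϖ0 : ϖ ≠ 0) (n : ℕ)
    (hcoef : ∀ j : ℕ, ∃ d ∈ A, τ₀ ((∏ i, (X - C (ξ i))).coeff j) -
      (∏ i, (X - C (ξ i))).coeff j = ϖ ^ n * d) :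
    ∃ ψ : F, ψ ∈ O₁ ∧ ψ ∈ O₂ ∧
      τ (aeval w (∏ i, (X - C (ξ i)))) / aeval w (∏ i, (X - C (ξ i))) =
        1 + algebraMap K F ϖ ^ n * ψ := by
  obtain ⟨w₁, hw₁', e₁⟩ := aeval_ratio h₁ τ τ₀ hτ hw₁ hwu₁ hτw ξ hξ hξn ϖ n hcoef
  obtain ⟨w₂, hw₂', e₂⟩ := aeval_ratio h₂ τ τ₀ hτ hw₂ hwu₂ hτw ξ hξ hξn ϖ n hcoef
  have hϖn : algebraMap K F ϖ ^ n ≠ 0 := pow_ne_zero _ ((_root_.map_ne_zero _).mpr hϖ0)
  have : w₁ = w₂ := mul_left_cancel₀ hϖn (add_left_cancel (e₁.symm.trans e₂))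
  subst this
  exact ⟨w₁, hw₁', hw₂', e₁⟩

end Node

end Fermat.Agent.ES.X44.OrbitPoly22
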