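/-
Programme X (S44, spine `X44_SPINE14.md`), chapter (W1) "equal slopes", leaf (b,c) "local factors",
part 2 (helper12): **THE LOCAL FACTOR OF ONE RESIDUE CLASS** (abstract; over helper22's `OrbitPoly22`).

`K ⊆ F` a function field with its places, `g : SemilinearAut K F` (the element `σ`), `w : F` a coordinate
of the residue class (a disc or an annulus), `T` a finite set of places of the class, `ξ P = w(P)` the
values, `n P : ℕ` multiplicities.

* `fam`, `prod_fam`     : a finite family with multiplicities as a family indexed by `Fin m`;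
* `locProd w ξ T n`     : `∏_{P ∈ T} (w - ξ P) ^ n P`; `ord_locProd` : its order at the places of the class;
* `Qpoly ξ T n`         : the polynomial `∏ (X - ξ P) ^ n P` in the `Fin m`-form of `OrbitPoly22`;
  `Qpoly_map`           : it is fixed by a base automorphism `s₀` permuting `(T, n, ξ)`;
  `coeff_cong`          : hence (k3) applies to its coefficients;
* `smooth_class`        : `g • Ξ / Ξ = 1 + ϖ^m ψ`, `ψ ∈ O₁ ∩ O₂` (coordinate a unit of both Gauss rings);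
* `node_class`          : `OneAdd … (ϖ^t) (g • Ξ / Ξ) 0 κ̄` at a node.
-/
import Mathlib
import Fermat.Prelude.Def_AlgebraicCurve_BaseChangeGalois
import Fermat.Agent.X0.FFDict
import Fermat.Agent.ES.X44.OrbitPoly22
import Fermat.Agent.ES.X44.LocFacPoly12

set_option autoImplicit false

noncomputable section

namespace Fermat.Agent.ES.X44.ClassFactor12

open Polynomial AlgebraicCurve Fermat.Agent.ES.X44.OrbitPoly22 Fermat.Agent.X0.FF

/-! ### families with multiplicities -/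

section Fam

variable {α : Type*} (T : Finset α) (n : α → ℕ)

/-- the number of elements of `T` counted with the multiplicities `n`. -/
def famCard : ℕ := Fintype.card (Σ a : {a // a ∈ T}, Fin (n a))

/-- the family: every `a ∈ T` repeated `n a` times. -/
def fam (i : Fin (famCard T n)) : α := ((Fintype.equivFin (Σ a : {a // a ∈ T}, Fin (n a))).symm i).1

theorem fam_mem (i : Fin (famCard T n)) : fam T n i ∈ T :=
  ((Fintype.equivFin (Σ a : {a // a ∈ T}, Fin (n a))).symm i).1.2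

theorem prod_fam {M : Type*} [CommMonoid M] (f : α → M) :
    ∏ i, f (fam T n i) = ∏ a ∈ T, f a ^ n a := by
  classical
  have h := Equiv.prod_comp (Fintype.equivFin (Σ a : {a // a ∈ T}, Fin (n a))).symm
    (fun x : (Σ a : {a // a ∈ T}, Fin (n a)) => f x.1)
  have h2 : ∏ x : (Σ a : {a // a ∈ T}, Fin (n a)), f x.1 = ∏ a ∈ T, f a ^ n a := by
    rw [Fintype.prod_sigma]
    simp only [Finset.prod_const, Finset.card_univ, Fintype.card_fin]
    exact Finset.prod_coe_sort T (fun a => f a ^ n a)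
  exact h.trans h2

end Fam

variable {K F : Type*} [Field K] [Field F] [Algebra K F]

/-! ### the local product and its orders -/

/-- `∏_{P ∈ T} (w - ξ P) ^ n P`. -/
def locProd (w : F) (ξ : Place K F → K) (T : Finset (Place K F)) (n : Place K F → ℕ) : F :=
  ∏ P ∈ T, (w - algebraMap K F (ξ P)) ^ n P

theorem factor_ne_zero {w : F} {ξ : Place K F → K} {P : Place K F}
    (h1 : P.ord (w - algebraMap K F (ξ P)) = 1) : w - algebraMap K F (ξ P) ≠ 0 := by
  intro h
  rw [h, Place.ord_zero] at h1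
  exact zero_ne_one h1

theorem locProd_ne_zero {w : F} {ξ : Place K F → K} {T : Finset (Place K F)} (n : Place K F → ℕ)
    (h1 : ∀ P ∈ T, P.ord (w - algebraMap K F (ξ P)) = 1) : locProd w ξ T n ≠ 0 :=
  Finset.prod_ne_zero_iff.mpr fun P hP => pow_ne_zero _ (factor_ne_zero (h1 P hP))

open Classical in
/-- the order of the local product at a place `P` of the class. -/
theorem ord_locProd {w : F} {ξ : Place K F → K} {T : Finset (Place K F)} (n : Place K F → ℕ)
    (h1 : ∀ P ∈ T, P.ord (w - algebraMap K F (ξ P)) = 1) (P : Place K F)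
    (h0 : ∀ P' ∈ T, P' ≠ P → P.ord (w - algebraMap K F (ξ P')) = 0) :
    P.ord (locProd w ξ T n) = if P ∈ T then (n P : ℤ) else 0 := by
  classical
  unfold locProd
  induction T using Finset.induction_on with
  | empty => simp [Place.ord_one]
  | insert a T ha ih =>
    have h1' : ∀ P ∈ T, P.ord (w - algebraMap K F (ξ P)) = 1 := fun P' hP' =>
      h1 P' (Finset.mem_insert_of_mem hP')
    have h0' : ∀ P' ∈ T, P' ≠ P → P.ord (w - algebraMap K F (ξ P')) = 0 := fun P' hP' =>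
      h0 P' (Finset.mem_insert_of_mem hP')
    have hne : ∏ P ∈ T, (w - algebraMap K F (ξ P)) ^ n P ≠ 0 := locProd_ne_zero n h1'
    have hane : (w - algebraMap K F (ξ a)) ^ n a ≠ 0 :=
      pow_ne_zero _ (factor_ne_zero (h1 a (Finset.mem_insert_self a T)))
    rw [Finset.prod_insert ha, P.ord_mul hane hne, ih h1' h0', ord_pow]
    by_cases hPa : a = P
    · subst hPa
      rw [h1 a (Finset.mem_insert_self a T), if_neg ha, if_pos (Finset.mem_insert_self a T)]
      ring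
    · rw [h0 a (Finset.mem_insert_self a T) hPa, mul_zero, zero_add]
      have : P ∈ insert a T ↔ P ∈ T := by
        rw [Finset.mem_insert]
        exact ⟨fun h => h.resolve_left (Ne.symm hPa), Or.inr⟩
      simp only [this]

/-! ### the polynomial of the class -/

/-- `∏ (X - ξ P) ^ n P` in the `Fin m`-indexed form of `OrbitPoly22`. -/
def Qpoly (ξ : Place K F → K) (T : Finset (Place K F)) (n : Place K F → ℕ) : K[X] :=
  ∏ i, (X - C (ξ (fam T n i)))

theorem Qpoly_eq (ξ : Place K F → K) (T : Finset (Place K F)) (n : Place K F → ℕ) :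
    Qpoly ξ T n = ∏ P ∈ T, (X - C (ξ P)) ^ n P :=
  prod_fam T n fun P => X - C (ξ P)

theorem aeval_Qpoly (w : F) (ξ : Place K F → K) (T : Finset (Place K F)) (n : Place K F → ℕ) :
    aeval w (Qpoly ξ T n) = locProd w ξ T n := by
  unfold Qpoly locProd
  rw [OrbitPoly22.aeval_prod]
  exact prod_fam T n fun P => w - algebraMap K F (ξ P)

/-- the polynomial of the class is fixed by a base automorphism permuting `(T, n, ξ)`. -/
theorem Qpoly_map (ξ : Place K F → K) (T : Finset (Place K F)) (n : Place K F → ℕ)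
    (s₀ : K ≃+* K) (e : Place K F → Place K F) (he : ∀ P ∈ T, e P ∈ T)
    (hinj : Set.InjOn e (T : Set (Place K F))) (hn : ∀ P ∈ T, n (e P) = n P)
    (hξ : ∀ P ∈ T, ξ (e P) = s₀ (ξ P)) :
    (Qpoly ξ T n).map (s₀ : K →+* K) = Qpoly ξ T n := by
  classical
  rw [Qpoly_eq, Polynomial.map_prod]
  have himg : T.image e = T := by
    apply Finset.eq_of_subset_of_card_le
    · intro P hP
      obtain ⟨P', hP', rfl⟩ := Finset.mem_image.mp hP
      exact he P' hP'
    · rw [Finset.card_image_of_injOn hinj]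
  conv_rhs => rw [← himg, Finset.prod_image hinj]
  refine Finset.prod_congr rfl fun P hP => ?_
  rw [Polynomial.map_pow, Polynomial.map_sub, Polynomial.map_X, Polynomial.map_C, hn P hP,
    hξ P hP]
  rfl

/-- the coefficients of the polynomial of the class lie in `A` when the values do. -/
theorem coeff_Qpoly_mem {A : ValuationSubring K} (ξ : Place K F → K) (T : Finset (Place K F))
    (n : Place K F → ℕ) (hξ : ∀ P ∈ T, ξ P ∈ A) (j : ℕ) : (Qpoly ξ T n).coeff j ∈ A := by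
  have h : LocFacPoly12.Over A.toSubring (Qpoly ξ T n) := by
    unfold Qpoly
    refine Finset.prod_induction _ (LocFacPoly12.Over A.toSubring) (fun a b => LocFacPoly12.Over.mul)
      (LocFacPoly12.over_one _) fun i _ => ?_
    exact (LocFacPoly12.over_X _).sub (LocFacPoly12.over_C (hξ _ (fam_mem T n i)))
  exact h j

/-- **(k3) applies to the coefficients of the polynomial of a stable class.** -/
theorem coeff_cong {A : ValuationSubring K} (ξ : Place K F → K) (T : Finset (Place K F))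
    (n : Place K F → ℕ) (hξ : ∀ P ∈ T, ξ P ∈ A) (S₀ : Set (K ≃+* K))
    (hS : ∀ s₀ ∈ S₀, (Qpoly ξ T n).map (s₀ : K →+* K) = Qpoly ξ T n) (τ₀ : K ≃+* K) (ϖ : K)
    (m : ℕ)
    (k3 : ∀ c ∈ A, (∀ s₀ ∈ S₀, s₀ c = c) → ∃ d ∈ A, τ₀ c - c = ϖ ^ m * d) (j : ℕ) :
    ∃ d ∈ A, τ₀ ((Qpoly ξ T n).coeff j) - (Qpoly ξ T n).coeff j = ϖ ^ m * d := by
  refine k3 _ (coeff_Qpoly_mem ξ T n hξ j) fun s₀ hs₀ => ?_
  have := congrArg (fun q : K[X] => q.coeff j) (hS s₀ hs₀)
  simpa [coeff_map] using this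

/-! ### the congruences -/

section Cong

variable {k Ft₁ Ft₂ : Type*} [Field k] [Field Ft₁] [Algebra k Ft₁] [Field Ft₂] [Algebra k Ft₂]
  {A : ValuationSubring K} {π : ↥A →+* k} {O₁ O₂ : Subring F} {rho₁ : ↥O₁ →+* Ft₁}
  {rho₂ : ↥O₂ →+* Ft₂}

/-- **the factor of a smooth class** (effective part). -/
theorem smooth_class (h₁ : GaussRing A π O₁ rho₁) (h₂ : GaussRing A π O₂ rho₂)
    (g : SemilinearAut K F) {w : F} (hw₁ : w ∈ O₁) (hwu₁ : rho₁ ⟨w, hw₁⟩ ≠ 0) (hw₂ : w ∈ O₂)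
    (hwu₂ : rho₂ ⟨w, hw₂⟩ ≠ 0) (hgw : g • w = w) (ξ : Place K F → K) (T : Finset (Place K F))
    (n : Place K F → ℕ) (hξ : ∀ P ∈ T, ξ P ∈ A)
    (hξn : ∀ P (hP : P ∈ T), ¬ IsUnit (⟨ξ P, hξ P hP⟩ : ↥A)) {ϖ : K} (hϖ0 : ϖ ≠ 0) (m : ℕ)
    (hcoef : ∀ j : ℕ, ∃ d ∈ A, SemilinearAut.baseAut g ((Qpoly ξ T n).coeff j) -
      (Qpoly ξ T n).coeff j = ϖ ^ m * d) :
    ∃ ψ : F, ψ ∈ O₁ ∧ ψ ∈ O₂ ∧
      g • locProd w ξ T n / locProd w ξ T n = 1 + algebraMap K F ϖ ^ m * ψ := by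
  obtain ⟨ψ, hψ₁, hψ₂, e⟩ := smooth_factor h₁ h₂ (SemilinearAut.toRingAut g)
    (SemilinearAut.baseAut g) (SemilinearAut.commutes g) hw₁ hwu₁ hw₂ hwu₂ hgw
    (fun i => ξ (fam T n i)) (fun i => hξ _ (fam_mem T n i))
    (fun i => hξn _ (fam_mem T n i)) hϖ0 m hcoef
  refine ⟨ψ, hψ₁, hψ₂, ?_⟩
  rw [← aeval_Qpoly]
  exact e

/-- **the factor of a node class** (effective part). -/
theorem node_class (h₁ : GaussRing A π O₁ rho₁) (h₂ : GaussRing A π O₂ rho₂)
    (g : SemilinearAut K F) {x y : F} (hx : x ∈ O₁) (hxu : rho₁ ⟨x, hx⟩ ≠ 0) (hgx : g • x = x)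
    (hy : y ∈ O₂) (hyu : rho₂ ⟨y, hy⟩ ≠ 0) (hgy : g • y = y) {π₀ : K}
    (hxy : x * y = algebraMap K F π₀) (ξ : Place K F → K) (T : Finset (Place K F))
    (n : Place K F → ℕ) (hξ : ∀ P ∈ T, ξ P ∈ A)
    (hξn : ∀ P (hP : P ∈ T), ¬ IsUnit (⟨ξ P, hξ P hP⟩ : ↥A)) (hξ0 : ∀ P ∈ T, ξ P ≠ 0)
    (hη : ∀ P ∈ T, π₀ / ξ P ∈ A)
    (hηn : ∀ P (hP : P ∈ T), ¬ IsUnit (⟨π₀ / ξ P, hη P hP⟩ : ↥A))
    {ϖ : K} (hϖ : ϖ ∈ A) (hϖn : ¬ IsUnit (⟨ϖ, hϖ⟩ : ↥A)) (hϖ0 : ϖ ≠ 0) (t : ℕ)
    (hcoef : ∀ j : ℕ, ∃ d ∈ A, SemilinearAut.baseAut g ((Qpoly ξ T n).coeff j) -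
      (Qpoly ξ T n).coeff j = ϖ ^ (t + 1) * d)
    (hcoefY : ∀ j : ℕ, ∃ d ∈ A,
      SemilinearAut.baseAut g ((Qpoly (fun P => π₀ / ξ P) T n).coeff j) -
        (Qpoly (fun P => π₀ / ξ P) T n).coeff j = ϖ ^ (t + 1) * d)
    {κ : K} (hκ : κ ∈ A)
    (hN : ∃ d ∈ A, SemilinearAut.baseAut g (∏ P ∈ T, (-ξ P) ^ n P) / (∏ P ∈ T, (-ξ P) ^ n P) =
      1 + ϖ ^ t * (κ + ϖ * d)) :
    OneAdd O₁ O₂ rho₁ rho₂ (algebraMap K F ϖ ^ t)
      (g • locProd x ξ T n / locProd x ξ T n) 0 (algebraMap k Ft₂ (π ⟨κ, hκ⟩)) := by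
  have hN' : ∃ d ∈ A, SemilinearAut.baseAut g (∏ i, (-ξ (fam T n i))) / (∏ i, (-ξ (fam T n i))) =
      1 + ϖ ^ t * (κ + ϖ * d) := by
    rw [prod_fam T n fun P => -ξ P]
    exact hN
  have := node_factor h₁ h₂ (SemilinearAut.toRingAut g) (SemilinearAut.baseAut g)
    (SemilinearAut.commutes g) hx hxu hgx hy hyu hgy hxy
    (fun i => ξ (fam T n i)) (fun i => hξ _ (fam_mem T n i))
    (fun i => hξn _ (fam_mem T n i)) (fun i => hξ0 _ (fam_mem T n i))
    (fun i => hη _ (fam_mem T n i)) (fun i => hηn _ (fam_mem T n i)) hϖ hϖn hϖ0 t hcoef hcoefY hκ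
    hN'
  rw [← aeval_Qpoly]
  exact this

end Cong

end Fermat.Agent.ES.X44.ClassFactor12
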