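/-
Programme X (S44, spine `X44_SPINE14.md`), chapter (W1) "equal slopes", leaf (b,c) "local factors",
part 3 (helper12): **THE SIGNED LOCAL FACTOR OF ONE RESIDUE CLASS OF AN `S`-STABLE DIVISOR** (abstract).

`r : Place K F → β` the reduction of places (`β` = smooth points ⊕ nodes), `c : β` a class,
`g : SemilinearAut K F` (the element `σ`), `S` a set of semilinear automorphisms (the stabiliser), all
preserving the classes; `D` an `S`-stable divisor; `w` a coordinate of the class `c` with value function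
`ξ` (`CoordAt`).  `Ξ := ∏ (w - ξ P) ^ D⁺ P / ∏ (w - ξ P) ^ D⁻ P` over the points of `D` in the class.

* `value_unique`, `xi_smul` : the value function is `S`-equivariant;
* `ord_Xi`, `ord_smul_Xi`   : `ord_P Ξ = D P`, `ord_P (g • Ξ) = (g • D) P` on the class;
* `hcoef_of_stable`         : (k3) applies to the coefficients of the two polynomials of the class;
* `smooth_signed`           : `g • Ξ / Ξ = 1 + ϖ^m ψ`, `ψ ∈ O₁ ∩ O₂` (smooth class);
* `node_signed`             : `OneAdd … (ϖ^t) (g • Ξ / Ξ) 0 (κ̄⁺ - κ̄⁻)` (node class).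
-/
import Mathlib
import Fermat.Agent.ES.X44.ClassFactor12

set_option autoImplicit false

noncomputable section

namespace Fermat.Agent.ES.X44.ClassSigned12

open Polynomial AlgebraicCurve Fermat.Agent.ES.X44.OrbitPoly22 Fermat.Agent.X0.FF
  Fermat.Agent.ES.X44.ClassFactor12

variable {K F : Type*} [Field K] [Field F] [Algebra K F] {β : Type*}

/-- `w` is a coordinate of the class `c` with value function `ξ`, fixed by `g` and by `S`. -/
structure CoordAt (A : ValuationSubring K) (r : Place K F → β) (g : SemilinearAut K F)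
    (S : Set (SemilinearAut K F)) (c : β) (w : F) (ξ : Place K F → K) : Prop where
  fix_g : g • w = w
  fix_S : ∀ s ∈ S, s • w = w
  mem : ∀ P, r P = c → ξ P ∈ A
  nonunit : ∀ P (h : r P = c), ¬ IsUnit (⟨ξ P, mem P h⟩ : ↥A)
  ord_one : ∀ P, r P = c → P.ord (w - algebraMap K F (ξ P)) = 1
  ord_zero : ∀ P P', r P = c → r P' = c → P' ≠ P → P'.ord (w - algebraMap K F (ξ P)) = 0

/-- two values of `w` at the same place agree. -/
theorem value_unique {P : Place K F} {w : F} {a b : K}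
    (ha : 0 < P.ord (w - algebraMap K F a)) (hb : 0 < P.ord (w - algebraMap K F b)) : a = b := by
  by_contra hab
  have hne : (w - algebraMap K F a) - (w - algebraMap K F b) ≠ 0 := by
    intro h
    apply hab
    have : algebraMap K F b - algebraMap K F a = 0 := by rw [← h]; ring
    exact ((algebraMap K F).injective (sub_eq_zero.mp this)).symm
  have h1 := ord_sub_ge P hne
  have e : (w - algebraMap K F a) - (w - algebraMap K F b) = algebraMap K F (b - a) := by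
    rw [map_sub]; ring
  rw [e, ord_algebraMap] at h1
  have := lt_min ha hb
  omega

section Stable

variable {A : ValuationSubring K} {r : Place K F → β} {g : SemilinearAut K F}
  {S : Set (SemilinearAut K F)} {c : β} {w : F} {ξ : Place K F → K}

/-- the value function is `S`-equivariant on the class. -/
theorem xi_smul (hw : CoordAt A r g S c w ξ) (hrS : ∀ s ∈ S, ∀ P, r (s • P) = r P)
    {s : SemilinearAut K F} (hs : s ∈ S) {P : Place K F} (hP : r P = c) :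
    ξ (s • P) = SemilinearAut.baseAut s (ξ P) := by
  have hsP : r (s • P) = c := by rw [hrS s hs, hP]
  have h1 : (s • P).ord (w - algebraMap K F (ξ (s • P))) = 1 := hw.ord_one _ hsP
  have h2 : (s • P).ord (w - algebraMap K F (SemilinearAut.baseAut s (ξ P))) = 1 := by
    have := SemilinearAut.ord_smul s P (w - algebraMap K F (ξ P))
    rw [smul_sub, hw.fix_S s hs, SemilinearAut.smul_algebraMap, hw.ord_one P hP] at this
    exact this
  exact value_unique (by rw [h1]; exact one_pos) (by rw [h2]; exact one_pos)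

variable (D : Divisor K F)

open Classical in
/-- the points of `D` in the class `c`. -/
def classSupp (r : Place K F → β) (c : β) : Finset (Place K F) :=
  D.support.filter fun P => r P = c

/-- the positive part of the multiplicities. -/
def nPos (P : Place K F) : ℕ := (D P).toNat

/-- the negative part of the multiplicities. -/
def nNeg (P : Place K F) : ℕ := (-D P).toNat

theorem nPos_sub_nNeg (P : Place K F) : (nPos D P : ℤ) - (nNeg D P : ℤ) = D P := by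
  unfold nPos nNeg
  omega

theorem mem_classSupp {P : Place K F} : P ∈ classSupp D r c ↔ D P ≠ 0 ∧ r P = c := by
  classical
  unfold classSupp
  rw [Finset.mem_filter, Finsupp.mem_support_iff]

variable {D}

theorem apply_smul_of_stable {s : SemilinearAut K F} (hD : s • D = D) (P : Place K F) :
    D (s • P) = D P := by
  have := SemilinearAut.divisor_smul_apply_smul s D P
  rwa [hD] at this

theorem smul_mem_classSupp (hrS : ∀ s ∈ S, ∀ P, r (s • P) = r P)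
    (hDS : ∀ s ∈ S, s • D = D) {s : SemilinearAut K F} (hs : s ∈ S) {P : Place K F}
    (hP : P ∈ classSupp D r c) : s • P ∈ classSupp D r c := by
  rw [mem_classSupp] at hP ⊢
  exact ⟨by rw [apply_smul_of_stable (hDS s hs)]; exact hP.1, by rw [hrS s hs]; exact hP.2⟩

/-- the polynomial of the class for an `S`-equivariant value function `ζ` (multiplicities `n`,
`S`-invariant) is fixed by `S`. -/
theorem Qpoly_map_of_equivariant (hrS : ∀ s ∈ S, ∀ P, r (s • P) = r P) (hDS : ∀ s ∈ S, s • D = D)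
    (n : Place K F → ℕ) (hn : ∀ s ∈ S, ∀ P, n (s • P) = n P) (ζ : Place K F → K)
    (hζ : ∀ s ∈ S, ∀ P ∈ classSupp D r c, ζ (s • P) = SemilinearAut.baseAut s (ζ P))
    {s : SemilinearAut K F} (hs : s ∈ S) :
    (Qpoly ζ (classSupp D r c) n).map ((SemilinearAut.baseAut s : K ≃+* K) : K →+* K) =
      Qpoly ζ (classSupp D r c) n :=
  Qpoly_map ζ _ n (SemilinearAut.baseAut s) (fun P => s • P)
    (fun _ hP => smul_mem_classSupp hrS hDS hs hP)
    (fun _ _ _ _ h => MulAction.injective s h) (fun P _ => hn s hs P)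
    (fun P hP => hζ s hs P hP)

/-- **(k3) applies to the coefficients of the polynomial of the class**, equivariant value function. -/
theorem hcoef_of_equivariant (hrS : ∀ s ∈ S, ∀ P, r (s • P) = r P) (hDS : ∀ s ∈ S, s • D = D)
    (n : Place K F → ℕ) (hn : ∀ s ∈ S, ∀ P, n (s • P) = n P) (ζ : Place K F → K)
    (hζA : ∀ P ∈ classSupp D r c, ζ P ∈ A)
    (hζ : ∀ s ∈ S, ∀ P ∈ classSupp D r c, ζ (s • P) = SemilinearAut.baseAut s (ζ P))
    (ϖ : K) (m : ℕ)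
    (k3 : ∀ a ∈ A, (∀ s ∈ S, SemilinearAut.baseAut s a = a) →
      ∃ d ∈ A, SemilinearAut.baseAut g a - a = ϖ ^ m * d) (j : ℕ) :
    ∃ d ∈ A, SemilinearAut.baseAut g ((Qpoly ζ (classSupp D r c) n).coeff j) -
      (Qpoly ζ (classSupp D r c) n).coeff j = ϖ ^ m * d := by
  refine k3 _ (coeff_Qpoly_mem ζ _ n hζA j) fun s hs => ?_
  have := congrArg (fun q : K[X] => q.coeff j)
    (Qpoly_map_of_equivariant hrS hDS n hn ζ hζ hs)
  simpa [coeff_map] using this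

/-- **(k3) applies to the coefficients of the polynomial of the class.** -/
theorem hcoef_of_stable (hw : CoordAt A r g S c w ξ)
    (hrS : ∀ s ∈ S, ∀ P, r (s • P) = r P) (hDS : ∀ s ∈ S, s • D = D) (n : Place K F → ℕ)
    (hn : ∀ s ∈ S, ∀ P, n (s • P) = n P) (ϖ : K) (m : ℕ)
    (k3 : ∀ a ∈ A, (∀ s ∈ S, SemilinearAut.baseAut s a = a) →
      ∃ d ∈ A, SemilinearAut.baseAut g a - a = ϖ ^ m * d) (j : ℕ) :
    ∃ d ∈ A, SemilinearAut.baseAut g ((Qpoly ξ (classSupp D r c) n).coeff j) -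
      (Qpoly ξ (classSupp D r c) n).coeff j = ϖ ^ m * d :=
  hcoef_of_equivariant hrS hDS n hn ξ (fun P hP => hw.mem P ((mem_classSupp D).mp hP).2)
    (fun _ hs _ hP => xi_smul hw hrS hs ((mem_classSupp D).mp hP).2) ϖ m k3 j

theorem nPos_smul (hDS : ∀ s ∈ S, s • D = D) : ∀ s ∈ S, ∀ P, nPos D (s • P) = nPos D P :=
  fun s hs P => by unfold nPos; rw [apply_smul_of_stable (hDS s hs)]

theorem nNeg_smul (hDS : ∀ s ∈ S, s • D = D) : ∀ s ∈ S, ∀ P, nNeg D (s • P) = nNeg D P :=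
  fun s hs P => by unfold nNeg; rw [apply_smul_of_stable (hDS s hs)]

/-! ### the signed product and its orders -/

variable (D) in
/-- `Ξ`: the signed local product of the class. -/
def Xi (r : Place K F → β) (c : β) (w : F) (ξ : Place K F → K) : F :=
  locProd w ξ (classSupp D r c) (nPos D) / locProd w ξ (classSupp D r c) (nNeg D)

theorem ord_one_of_mem (hw : CoordAt A r g S c w ξ) :
    ∀ P ∈ classSupp D r c, P.ord (w - algebraMap K F (ξ P)) = 1 :=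
  fun P hP => hw.ord_one P ((mem_classSupp D).mp hP).2

theorem Xi_ne_zero (hw : CoordAt A r g S c w ξ) : Xi D r c w ξ ≠ 0 :=
  div_ne_zero (locProd_ne_zero _ (ord_one_of_mem hw)) (locProd_ne_zero _ (ord_one_of_mem hw))

/-- `ord_P Ξ = D P` on the class. -/
theorem ord_Xi (hw : CoordAt A r g S c w ξ) {P : Place K F} (hP : r P = c) :
    P.ord (Xi D r c w ξ) = D P := by
  classical
  have h0 : ∀ P' ∈ classSupp D r c, P' ≠ P → P.ord (w - algebraMap K F (ξ P')) = 0 :=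
    fun P' hP' hne => hw.ord_zero P' P ((mem_classSupp D).mp hP').2 hP hne.symm
  unfold Xi
  rw [div_eq_mul_inv, P.ord_mul (locProd_ne_zero _ (ord_one_of_mem hw))
    (inv_ne_zero (locProd_ne_zero _ (ord_one_of_mem hw))), Place.ord_inv,
    ord_locProd _ (ord_one_of_mem hw) P h0, ord_locProd _ (ord_one_of_mem hw) P h0]
  by_cases hPm : P ∈ classSupp D r c
  · rw [if_pos hPm, if_pos hPm, ← sub_eq_add_neg, nPos_sub_nNeg]
  · rw [if_neg hPm, if_neg hPm]
    have : D P = 0 := by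
      by_contra h
      exact hPm ((mem_classSupp D).mpr ⟨h, hP⟩)
    rw [this]; ring

/-- `ord_P (g • Ξ) = (g • D) P` on the class. -/
theorem ord_smul_Xi (hw : CoordAt A r g S c w ξ) (hr : ∀ P, r (g • P) = r P) {P : Place K F}
    (hP : r P = c) : P.ord (g • Xi D r c w ξ) = (g • D) P := by
  have h1 := SemilinearAut.ord_smul g (g⁻¹ • P) (Xi D r c w ξ)
  rw [smul_inv_smul] at h1
  have hP' : r (g⁻¹ • P) = c := by
    have := hr (g⁻¹ • P)
    rw [smul_inv_smul] at this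
    rw [← this, hP]
  rw [h1, ord_Xi hw hP', SemilinearAut.divisor_smul_apply]

/-- `g • Ξ / Ξ` as a quotient of the two effective factors. -/
theorem smul_Xi_div (hw : CoordAt A r g S c w ξ) :
    g • Xi D r c w ξ / Xi D r c w ξ =
      (g • locProd w ξ (classSupp D r c) (nPos D) / locProd w ξ (classSupp D r c) (nPos D)) /
        (g • locProd w ξ (classSupp D r c) (nNeg D) / locProd w ξ (classSupp D r c) (nNeg D)) := by
  have h1 : locProd w ξ (classSupp D r c) (nPos D) ≠ 0 := locProd_ne_zero _ (ord_one_of_mem hw)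
  have h2 : locProd w ξ (classSupp D r c) (nNeg D) ≠ 0 := locProd_ne_zero _ (ord_one_of_mem hw)
  have h3 : g • locProd w ξ (classSupp D r c) (nNeg D) ≠ 0 := by
    rw [SemilinearAut.smul_def]
    exact (map_ne_zero_iff _ (SemilinearAut.toRingAut g).injective).mpr h2
  unfold Xi
  rw [smul_div₀']
  field_simp

end Stable

/-! ### the congruences of the signed factor -/

section Cong

variable {k Ft₁ Ft₂ : Type*} [Field k] [Field Ft₁] [Algebra k Ft₁] [Field Ft₂] [Algebra k Ft₂]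
  {A : ValuationSubring K} {π : ↥A →+* k} {O₁ O₂ : Subring F} {rho₁ : ↥O₁ →+* Ft₁}
  {rho₂ : ↥O₂ →+* Ft₂} {r : Place K F → β} {g : SemilinearAut K F}
  {S : Set (SemilinearAut K F)} {c : β} {w : F} {ξ : Place K F → K} {D : Divisor K F}

/-- the constant `ϖ^m`, `m ≥ 1`, has reduction `0` in a Gauss ring. -/
theorem rho_pow_eq_zero {O : Subring F} {Ft : Type*} [Field Ft] [Algebra k Ft] {rho : ↥O →+* Ft}
    (hO : GaussRing A π O rho) {ϖ : K} (hϖ : ϖ ∈ A) (hϖn : ¬ IsUnit (⟨ϖ, hϖ⟩ : ↥A)) {m : ℕ}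
    (hm : 1 ≤ m) : ∃ h : algebraMap K F ϖ ^ m ∈ O, rho ⟨_, h⟩ = 0 := by
  have hmem : ϖ ^ m ∈ A := pow_mem hϖ m
  have hnu : ¬ IsUnit (⟨ϖ ^ m, hmem⟩ : ↥A) := by
    intro hu
    have e : (⟨ϖ ^ m, hmem⟩ : ↥A) = (⟨ϖ, hϖ⟩ : ↥A) ^ m := rfl
    rw [e] at hu
    exact hϖn ((isUnit_pow_iff (by omega)).mp hu)
  have h := hO.rho_nonunit hmem hnu
  have e : algebraMap K F (ϖ ^ m) = algebraMap K F ϖ ^ m := map_pow _ _ _
  refine ⟨e ▸ hO.const_mem ⟨ϖ ^ m, hmem⟩, ?_⟩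
  have : (⟨algebraMap K F ϖ ^ m, e ▸ hO.const_mem ⟨ϖ ^ m, hmem⟩⟩ : ↥O) =
      ⟨algebraMap K F (ϖ ^ m), hO.const_mem ⟨ϖ ^ m, hmem⟩⟩ := Subtype.ext e.symm
  rw [this]
  exact h

/-- **the signed factor of a smooth class.** -/
theorem smooth_signed (h₁ : GaussRing A π O₁ rho₁) (h₂ : GaussRing A π O₂ rho₂)
    (hw : CoordAt A r g S c w ξ) (hw₁ : w ∈ O₁) (hwu₁ : rho₁ ⟨w, hw₁⟩ ≠ 0) (hw₂ : w ∈ O₂)
    (hwu₂ : rho₂ ⟨w, hw₂⟩ ≠ 0) (hrS : ∀ s ∈ S, ∀ P, r (s • P) = r P)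
    (hDS : ∀ s ∈ S, s • D = D) {ϖ : K} (hϖ : ϖ ∈ A) (hϖn : ¬ IsUnit (⟨ϖ, hϖ⟩ : ↥A))
    (hϖ0 : ϖ ≠ 0) {m : ℕ} (hm : 1 ≤ m)
    (k3 : ∀ a ∈ A, (∀ s ∈ S, SemilinearAut.baseAut s a = a) →
      ∃ d ∈ A, SemilinearAut.baseAut g a - a = ϖ ^ m * d) :
    ∃ e₁ e₂, OneAdd O₁ O₂ rho₁ rho₂ (algebraMap K F ϖ ^ m)
      (g • Xi D r c w ξ / Xi D r c w ξ) e₁ e₂ := by
  have hmemT : ∀ P ∈ classSupp D r c, ξ P ∈ A := fun P hP => hw.mem P ((mem_classSupp D).mp hP).2
  have hnuT : ∀ P (hP : P ∈ classSupp D r c), ¬ IsUnit (⟨ξ P, hmemT P hP⟩ : ↥A) :=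
    fun P hP => hw.nonunit P ((mem_classSupp D).mp hP).2
  obtain ⟨ψp, hp₁, hp₂, ep⟩ := smooth_class h₁ h₂ g hw₁ hwu₁ hw₂ hwu₂ hw.fix_g ξ
    (classSupp D r c) (nPos D) hmemT hnuT hϖ0 m
    (hcoef_of_stable hw hrS hDS (nPos D) (nPos_smul hDS) ϖ m k3)
  obtain ⟨ψn, hn₁, hn₂, en⟩ := smooth_class h₁ h₂ g hw₁ hwu₁ hw₂ hwu₂ hw.fix_g ξ
    (classSupp D r c) (nNeg D) hmemT hnuT hϖ0 m
    (hcoef_of_stable hw hrS hDS (nNeg D) (nNeg_smul hDS) ϖ m k3)
  have Hp : OneAdd O₁ O₂ rho₁ rho₂ (algebraMap K F ϖ ^ m) _ _ _ :=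
    ⟨ψp, hp₁, hp₂, ep, rfl, rfl⟩
  have Hn : OneAdd O₁ O₂ rho₁ rho₂ (algebraMap K F ϖ ^ m) _ _ _ :=
    ⟨ψn, hn₁, hn₂, en, rfl, rfl⟩
  have H := Hp.div (rho_pow_eq_zero h₁ hϖ hϖn hm) (rho_pow_eq_zero h₂ hϖ hϖn hm) h₁.unit
    h₂.unit Hn
  rw [← smul_Xi_div hw] at H
  exact ⟨_, _, H⟩

/-- **the signed factor of a node class.** -/
theorem node_signed (h₁ : GaussRing A π O₁ rho₁) (h₂ : GaussRing A π O₂ rho₂)
    (hw : CoordAt A r g S c w ξ) (hw₁ : w ∈ O₁) (hwu₁ : rho₁ ⟨w, hw₁⟩ ≠ 0) {y : F}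
    (hy : y ∈ O₂) (hyu : rho₂ ⟨y, hy⟩ ≠ 0) (hgy : g • y = y) {π₀ : K}
    (hxy : w * y = algebraMap K F π₀)
    (hπ₀S : ∀ s ∈ S, SemilinearAut.baseAut s π₀ = π₀)
    (hξ0 : ∀ P, r P = c → ξ P ≠ 0) (hη : ∀ P, r P = c → π₀ / ξ P ∈ A)
    (hηn : ∀ P (h : r P = c), ¬ IsUnit (⟨π₀ / ξ P, hη P h⟩ : ↥A))
    (hrS : ∀ s ∈ S, ∀ P, r (s • P) = r P) (hDS : ∀ s ∈ S, s • D = D) {ϖ : K} (hϖ : ϖ ∈ A)
    (hϖn : ¬ IsUnit (⟨ϖ, hϖ⟩ : ↥A)) (hϖ0 : ϖ ≠ 0) {t : ℕ} (ht : 1 ≤ t)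
    (k3 : ∀ a ∈ A, (∀ s ∈ S, SemilinearAut.baseAut s a = a) →
      ∃ d ∈ A, SemilinearAut.baseAut g a - a = ϖ ^ (t + 1) * d)
    {κp κn : K} (hκp : κp ∈ A) (hκn : κn ∈ A)
    (hNp : ∃ d ∈ A, SemilinearAut.baseAut g (∏ P ∈ classSupp D r c, (-ξ P) ^ nPos D P) /
      (∏ P ∈ classSupp D r c, (-ξ P) ^ nPos D P) = 1 + ϖ ^ t * (κp + ϖ * d))
    (hNn : ∃ d ∈ A, SemilinearAut.baseAut g (∏ P ∈ classSupp D r c, (-ξ P) ^ nNeg D P) /
      (∏ P ∈ classSupp D r c, (-ξ P) ^ nNeg D P) = 1 + ϖ ^ t * (κn + ϖ * d)) :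
    OneAdd O₁ O₂ rho₁ rho₂ (algebraMap K F ϖ ^ t) (g • Xi D r c w ξ / Xi D r c w ξ) (0 - 0)
      (algebraMap k Ft₂ (π ⟨κp, hκp⟩) - algebraMap k Ft₂ (π ⟨κn, hκn⟩)) := by
  have hcl : ∀ P ∈ classSupp D r c, r P = c := fun P hP => ((mem_classSupp D).mp hP).2
  have hmemT : ∀ P ∈ classSupp D r c, ξ P ∈ A := fun P hP => hw.mem P (hcl P hP)
  have hnuT : ∀ P (hP : P ∈ classSupp D r c), ¬ IsUnit (⟨ξ P, hmemT P hP⟩ : ↥A) :=
    fun P hP => hw.nonunit P (hcl P hP)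
  have hζ : ∀ s ∈ S, ∀ P ∈ classSupp D r c,
      (fun P => π₀ / ξ P) (s • P) = SemilinearAut.baseAut s ((fun P => π₀ / ξ P) P) := by
    intro s hs P hP
    show π₀ / ξ (s • P) = SemilinearAut.baseAut s (π₀ / ξ P)
    rw [xi_smul hw hrS hs (hcl P hP), map_div₀, hπ₀S s hs]
  have Hp := node_class h₁ h₂ g hw₁ hwu₁ hw.fix_g hy hyu hgy hxy ξ (classSupp D r c) (nPos D)
    hmemT hnuT (fun P hP => hξ0 P (hcl P hP)) (fun P hP => hη P (hcl P hP))
    (fun P hP => hηn P (hcl P hP)) hϖ hϖn hϖ0 t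
    (hcoef_of_stable hw hrS hDS (nPos D) (nPos_smul hDS) ϖ (t + 1) k3)
    (hcoef_of_equivariant hrS hDS (nPos D) (nPos_smul hDS) (fun P => π₀ / ξ P)
      (fun P hP => hη P (hcl P hP)) hζ ϖ (t + 1) k3) hκp hNp
  have Hn := node_class h₁ h₂ g hw₁ hwu₁ hw.fix_g hy hyu hgy hxy ξ (classSupp D r c) (nNeg D)
    hmemT hnuT (fun P hP => hξ0 P (hcl P hP)) (fun P hP => hη P (hcl P hP))
    (fun P hP => hηn P (hcl P hP)) hϖ hϖn hϖ0 t
    (hcoef_of_stable hw hrS hDS (nNeg D) (nNeg_smul hDS) ϖ (t + 1) k3)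
    (hcoef_of_equivariant hrS hDS (nNeg D) (nNeg_smul hDS) (fun P => π₀ / ξ P)
      (fun P hP => hη P (hcl P hP)) hζ ϖ (t + 1) k3) hκn hNn
  have H := Hp.div (rho_pow_eq_zero h₁ hϖ hϖn ht) (rho_pow_eq_zero h₂ hϖ hϖn ht) h₁.unit
    h₂.unit Hn
  rw [← smul_Xi_div hw] at H
  exact H

end Cong

end Fermat.Agent.ES.X44.ClassSigned12
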