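/-
Programme X (S44), chapter (QP), leaf I-a (helper4): **derivatives are compatible with reduction**
— the input `RegRed26.DRed` of helper26's (L3) `RegRed26.regRed`, for the `q`-integral Gauss ring.

§1 `thetaDer E` : for an intermediate field `E ≤ L((q))`, `f ↦ θ f` (`θ = q d/dq`, main's
   `IG/PR/Theta20.theta`) is an `L`-derivation of `E` with values in `L((q))` (as an `E`-module through
   the inclusion; a type synonym `ThetaMod E` keeps the instances apart).  Hence (`theta_eq_of_D_eq`):
   `D x = c • D T` in `Ω[E⁄L]` implies `θ x = c · θ T`.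
§2 `isRedOf_of_series` (THE FRACTION LEMMA): `c ∈ E`, `B, A' ∈ A((q))` ARBITRARY integral series (not
   in `E`) with `c · B = A'`, `B̄ ≠ 0`, and `φ ∈ Et` with `φ · B̄ = Ā'` ⇒ `c` is Gauss-integral with
   reduction `φ`.  (Scale `c = λ u` with `u` a Gauss unit and compare in the domain `k((q))`:
   `λ ∉ A` would give `(red a) · B̄ = 0`.)
§3 `dRed_gaussRing` : `DRed (gaussRing A π E Et) (gaussRed A π E Et) x xt` for `x` with an integral
   expansion `X` reducing to `xt`, `θ xt ≠ 0`.  (`θ T · Y_b² = N := θY_a · Y_b - Y_a · θY_b` for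
   `T = a / b`; `c · N = θX · Y_b²`; reduce.)  Neither `KaehlerHyp` nor `D Tt ≠ 0` is used.
§4 `dRed_modL` : the instance at the block (IB) of `V19/LHypFt13`: `x = tF`, `xt = tRes`
   (`θ t̃ ≠ 0` since `t̃ = q⁻¹ + …`).
-/
import Mathlib
import Fermat.Agent.IG.PR.Theta20
import Fermat.Agent.ES.RED.GaussRing15
import Fermat.Agent.ES.V19.GaussFrac15
import Fermat.Agent.ES.V19.ScaleQbar8
import Fermat.Agent.ES.V19.SupTrickInst15
import Fermat.Agent.ES.RED.SpecialGen25
import Fermat.Agent.ES.RED.Contract8
import Fermat.Agent.ES.X44.RegRed26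

set_option autoImplicit false
set_option linter.unusedSectionVars false
set_option synthInstance.maxHeartbeats 400000

noncomputable section

open HahnSeries ModularCurve KaehlerDifferential

namespace Fermat.Agent.ES.X44.DRedInst4

open Fermat.Agent.IG.PR.Theta20 Fermat.Agent.ES.RED.GaussRing15 Fermat.Agent.ES.V19.GaussFrac15

/-! ### §1  `θ` as a derivation of a subfield of `L((q))` -/

section Der

variable {L : Type*} [Field L] (E : IntermediateField L (LaurentSeries L))

/-- `L((q))` as an `E`-module through the inclusion (a type synonym). -/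
def ThetaMod (_E : IntermediateField L (LaurentSeries L)) : Type _ := LaurentSeries L

instance instAddCommGroupThetaMod : AddCommGroup (ThetaMod E) :=
  inferInstanceAs (AddCommGroup (LaurentSeries L))

instance instModuleThetaMod : Module ↥E (ThetaMod E) :=
  Module.compHom (LaurentSeries L) (E.val : ↥E →+* LaurentSeries L)

instance instModuleBaseThetaMod : Module L (ThetaMod E) :=
  Module.compHom (LaurentSeries L)
    ((E.val : ↥E →+* LaurentSeries L).comp (algebraMap L ↥E))

/-- the identity `L((q)) → ThetaMod E`. -/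
def ofLS : LaurentSeries L → ThetaMod E := id

/-- the identity `ThetaMod E → L((q))`. -/
def toLS : ThetaMod E → LaurentSeries L := id

theorem thetaMod_smul_def (f : ↥E) (m : ThetaMod E) :
    f • m = ofLS E ((f : LaurentSeries L) * toLS E m) := rfl

theorem thetaMod_base_smul_def (c : L) (m : ThetaMod E) :
    c • m = ofLS E (((algebraMap L ↥E c : ↥E) : LaurentSeries L) * toLS E m) := rfl

instance instIsScalarTowerThetaMod : IsScalarTower L ↥E (ThetaMod E) :=
  ⟨fun c f m => by
    rw [thetaMod_base_smul_def, thetaMod_smul_def, thetaMod_smul_def, Algebra.smul_def]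
    show (((algebraMap L ↥E c * f : ↥E) : LaurentSeries L)) * toLS E m =
      ((algebraMap L ↥E c : ↥E) : LaurentSeries L) * ((f : LaurentSeries L) * toLS E m)
    rw [MulMemClass.coe_mul, mul_assoc]⟩

/-- the constants are constant series. -/
theorem coe_algebraMap (c : L) :
    ((algebraMap L ↥E c : ↥E) : LaurentSeries L) = HahnSeries.C c := by
  show algebraMap L (LaurentSeries L) c = HahnSeries.C c
  rw [HahnSeries.algebraMap_apply']
  simp

/-- **`θ` as a derivation.** -/
def thetaDer : Derivation L ↥E (ThetaMod E) where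
  toFun f := ofLS E (theta (f : LaurentSeries L))
  map_add' f g := by
    show theta ((f + g : ↥E) : LaurentSeries L) = theta (f : LaurentSeries L) + theta (g : LaurentSeries L)
    rw [AddMemClass.coe_add, map_add]
  map_smul' c f := by
    show theta ((c • f : ↥E) : LaurentSeries L) =
      ((algebraMap L ↥E c : ↥E) : LaurentSeries L) * theta (f : LaurentSeries L)
    rw [Algebra.smul_def, MulMemClass.coe_mul, theta_mul, coe_algebraMap, theta_C, zero_mul,
      zero_add]
  map_one_eq_zero' := by
    show theta ((1 : ↥E) : LaurentSeries L) = 0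
    rw [OneMemClass.coe_one, theta_one]
  leibniz' f g := by
    show theta ((f * g : ↥E) : LaurentSeries L) =
      (f : LaurentSeries L) * theta (g : LaurentSeries L) +
        (g : LaurentSeries L) * theta (f : LaurentSeries L)
    rw [MulMemClass.coe_mul, theta_mul]
    ring

theorem thetaDer_apply (f : ↥E) : thetaDer E f = ofLS E (theta (f : LaurentSeries L)) := rfl

/-- **`D x = c • D T` implies `θ x = c · θ T`.** -/
theorem theta_eq_of_D_eq {x T c : ↥E} (h : D L ↥E x = c • D L ↥E T) :
    theta (x : LaurentSeries L) = (c : LaurentSeries L) * theta (T : LaurentSeries L) := by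
  have h1 := congrArg (thetaDer E).liftKaehlerDifferential h
  rw [map_smul, Derivation.liftKaehlerDifferential_comp_D,
    Derivation.liftKaehlerDifferential_comp_D] at h1
  exact h1

end Der

/-! ### §2  The fraction lemma -/

section Frac

open Fermat.Agent.ES.V19.SupTrick15 (inv_nonunit_of_notMem)

variable {L : Type*} [Field L] (A : ValuationSubring L) {k : Type*} [Field k] (π : ↥A →+* k)
  (E : IntermediateField L (LaurentSeries L)) (Et : IntermediateField k (LaurentSeries k))

/-- a constant of `A` as an integral series. -/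
theorem coeffMap_subtype_single (a : ↥A) :
    coeffMap A.subtype (HahnSeries.single 0 a) = HahnSeries.C (a : L) := by
  rw [coeffMap_single]
  rfl

theorem coeffMap_pi_single (a : ↥A) :
    coeffMap π (HahnSeries.single 0 a) = HahnSeries.C (π a) := by
  rw [coeffMap_single]
  rfl

/-- **THE FRACTION LEMMA.** -/
theorem isRedOf_of_series (hπ : ∀ a : ↥A, ¬ IsUnit a → π a = 0)
    (hscale : ∀ f : ↥E, f ≠ 0 → ∃ c : L, c ≠ 0 ∧
      IsGU (gaussRing A π E Et) (gaussRed A π E Et) ((algebraMap L ↥E c)⁻¹ * f))
    (c : ↥E) (φ : ↥Et) (B A' : LaurentSeries ↥A)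
    (h : (c : LaurentSeries L) * coeffMap A.subtype B = coeffMap A.subtype A')
    (hB : coeffMap π B ≠ 0) (hφ : (φ : LaurentSeries k) * coeffMap π B = coeffMap π A') :
    IsRedOf (gaussRing A π E Et) (gaussRed A π E Et) c φ := by
  have hinj := coeffMap_subtype_injective A
  by_cases hc0 : c = 0
  · -- `c = 0`
    have hA' : A' = 0 := by
      apply hinj
      rw [← h, hc0, ZeroMemClass.coe_zero, zero_mul, map_zero]
    have hφ0 : φ = 0 := by
      apply Subtype.ext
      rw [hA', map_zero] at hφ
      rcases mul_eq_zero.mp hφ with h1 | h1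
      · exact h1
      · exact absurd h1 hB
    rw [hc0, hφ0]
    exact isRedOf_zero
  obtain ⟨lam, hlam0, a, b, ha, hb, hab⟩ := hscale c hc0
  have hlamE : algebraMap L ↥E lam ≠ 0 := (map_ne_zero _).mpr hlam0
  -- `c * b = lam * a` in `E`, then in `L((q))`
  have hab' : c * (b : ↥E) = algebraMap L ↥E lam * (a : ↥E) := by
    rw [← hab, ← mul_assoc, ← mul_assoc, mul_inv_cancel₀ hlamE, one_mul]
  have hYa := coeffMap_gaussLift A π E Et a
  have hYb := coeffMap_gaussLift A π E Et b
  have hra : coeffMap π (gaussLift A π E Et a) ≠ 0 := by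
    intro h0
    apply ha
    apply Subtype.ext
    rw [coe_gaussRed, h0]
    rfl
  have h1 : (c : LaurentSeries L) * coeffMap A.subtype (gaussLift A π E Et b) =
      HahnSeries.C lam * coeffMap A.subtype (gaussLift A π E Et a) := by
    rw [hYa, hYb, ← coe_algebraMap E lam, ← MulMemClass.coe_mul, ← MulMemClass.coe_mul, hab']
  -- `lam * Ya * B = A' * Yb`
  have h2 : HahnSeries.C lam * coeffMap A.subtype (gaussLift A π E Et a) * coeffMap A.subtype B =
      coeffMap A.subtype A' * coeffMap A.subtype (gaussLift A π E Et b) := by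
    rw [← h1, ← h]
    ring
  by_cases hlamA : lam ∈ A
  · -- `lam ∈ A`
    have h3 : HahnSeries.single 0 (⟨lam, hlamA⟩ : ↥A) * gaussLift A π E Et a * B =
        A' * gaussLift A π E Et b := by
      apply hinj
      rw [map_mul, map_mul, map_mul, coeffMap_subtype_single]
      exact h2
    have h4 := congrArg (coeffMap π) h3
    rw [map_mul, map_mul, map_mul, coeffMap_pi_single] at h4
    refine ⟨⟨algebraMap L ↥E lam, algebraMap_mem_gaussRing A π E Et ⟨lam, hlamA⟩⟩ * a, b, hb, ?_, ?_⟩
    · exact hab'
    · have hred : gaussRed A π E Et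
          ⟨algebraMap L ↥E lam, algebraMap_mem_gaussRing A π E Et ⟨lam, hlamA⟩⟩ =
          algebraMap k ↥Et (π ⟨lam, hlamA⟩) := gaussRed_algebraMap A π E Et ⟨lam, hlamA⟩
      rw [map_mul, hred]
      apply Subtype.ext
      show (φ : LaurentSeries k) * ((gaussRed A π E Et b : ↥Et) : LaurentSeries k) =
        ((algebraMap k ↥Et (π ⟨lam, hlamA⟩) : ↥Et) : LaurentSeries k) *
          ((gaussRed A π E Et a : ↥Et) : LaurentSeries k)
      rw [coe_gaussRed, coe_gaussRed, coe_algebraMap Et]
      have h5 : ((φ : LaurentSeries k) * coeffMap π (gaussLift A π E Et b) -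
          HahnSeries.C (π ⟨lam, hlamA⟩) * coeffMap π (gaussLift A π E Et a)) * coeffMap π B = 0 := by
        rw [sub_mul, mul_right_comm, hφ, ← h4]
        ring
      rcases mul_eq_zero.mp h5 with h6 | h6
      · exact sub_eq_zero.mp h6
      · exact absurd h6 hB
  · -- `lam ∉ A`: impossible
    exfalso
    obtain ⟨hinv, hnu⟩ := inv_nonunit_of_notMem hlamA
    have h3 : gaussLift A π E Et a * B =
        HahnSeries.single 0 (⟨lam⁻¹, hinv⟩ : ↥A) * (A' * gaussLift A π E Et b) := by
      apply hinj
      rw [map_mul, map_mul, map_mul, coeffMap_subtype_single, ← h2]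
      show _ = HahnSeries.C lam⁻¹ * _
      rw [← mul_assoc, ← mul_assoc, ← map_mul HahnSeries.C, inv_mul_cancel₀ hlam0, map_one,
        one_mul]
    have h4 := congrArg (coeffMap π) h3
    rw [map_mul, map_mul, coeffMap_pi_single, hπ _ hnu, map_zero, zero_mul] at h4
    rcases mul_eq_zero.mp h4 with h5 | h5
    · exact hra h5
    · exact hB h5

end Frac

/-! ### §3  `DRed` for the Gauss ring of `q`-integral functions -/

section DRedGauss

open Fermat.Agent.ES.X44.RegRed26 (DRed)

variable {L : Type*} [Field L] (A : ValuationSubring L) {k : Type*} [Field k] (π : ↥A →+* k)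
  (E : IntermediateField L (LaurentSeries L)) (Et : IntermediateField k (LaurentSeries k))

/-- `θ T · b² = θa · b - a · θb` for `T · b = a` (series over any commutative ring). -/
theorem theta_mul_sq {R : Type*} [CommRing R] {T a b : LaurentSeries R} (h : T * b = a) :
    theta T * b ^ 2 = theta a * b - a * theta b := by
  have h1 := congrArg theta h
  rw [theta_mul] at h1
  rw [← h1, ← h]
  ring

/-- **`DRed` for the Gauss ring**: `x` has an integral expansion `X` reducing to `xt`, and
`θ xt ≠ 0`. -/
theorem dRed_gaussRing (hπ : ∀ a : ↥A, ¬ IsUnit a → π a = 0)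
    (hscale : ∀ f : ↥E, f ≠ 0 → ∃ c : L, c ≠ 0 ∧
      IsGU (gaussRing A π E Et) (gaussRed A π E Et) ((algebraMap L ↥E c)⁻¹ * f))
    (x : ↥E) (xt : ↥Et) (X : LaurentSeries ↥A)
    (hX : coeffMap A.subtype X = (x : LaurentSeries L))
    (hXt : coeffMap π X = (xt : LaurentSeries k))
    (hθ : theta (xt : LaurentSeries k) ≠ 0) :
    DRed (L := L) (k := k) (gaussRing A π E Et) (gaussRed A π E Et) x xt := by
  intro T Tt hT _ c ct hc hct
  obtain ⟨a, b, hb, hab, hred⟩ := hT
  have hYa := coeffMap_gaussLift A π E Et a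
  have hYb := coeffMap_gaussLift A π E Et b
  have hc' := theta_eq_of_D_eq E hc
  have hct' := theta_eq_of_D_eq Et hct
  -- the two fibres
  have habL : (T : LaurentSeries L) * coeffMap A.subtype (gaussLift A π E Et b) =
      coeffMap A.subtype (gaussLift A π E Et a) := by
    rw [hYa, hYb, ← MulMemClass.coe_mul, hab]
  have habk : (Tt : LaurentSeries k) * coeffMap π (gaussLift A π E Et b) =
      coeffMap π (gaussLift A π E Et a) := by
    rw [← coe_gaussRed, ← coe_gaussRed, ← MulMemClass.coe_mul, hred]
  have hNL := theta_mul_sq habL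
  have hNk := theta_mul_sq habk
  have hbk : coeffMap π (gaussLift A π E Et b) ≠ 0 := by
    intro h0
    apply hb
    apply Subtype.ext
    rw [coe_gaussRed, h0]
    rfl
  have hθTt : theta (Tt : LaurentSeries k) ≠ 0 := by
    intro h0
    apply hθ
    rw [hct', h0, mul_zero]
  refine isRedOf_of_series A π E Et hπ hscale c ct
    (theta (gaussLift A π E Et a) * gaussLift A π E Et b -
      gaussLift A π E Et a * theta (gaussLift A π E Et b))
    (theta X * gaussLift A π E Et b ^ 2) ?_ ?_ ?_
  · rw [map_sub, map_mul, map_mul, map_mul, map_pow, coeffMap_theta, coeffMap_theta, coeffMap_theta,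
      ← hNL, hX, hc']
    ring
  · rw [map_sub, map_mul, map_mul, coeffMap_theta, coeffMap_theta, ← hNk]
    exact mul_ne_zero hθTt (pow_ne_zero 2 hbk)
  · rw [map_sub, map_mul, map_mul, map_mul, map_pow, coeffMap_theta, coeffMap_theta, coeffMap_theta,
      ← hNk, hXt, hct']
    ring

end DRedGauss

/-! ### §4  The instance at the block (IB) of `V19/LHypFt13` -/

section Inst

open Fermat.Agent.ES.X44.RegRed26 (DRed)
open Fermat.Agent.RED.Interface4 Fermat.Agent.RED.BASE Fermat.Agent.RED.BASE.EtaQuot12
open Fermat.Agent.ES.RED.SpecialGen25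

/-- `θ t ≠ 0` for the formal Hauptmodul `t = q⁻¹ + …` over any nontrivial ring. -/
theorem theta_tq_ne_zero (R : Type*) [CommRing R] [Nontrivial R] (n e : ℕ) [NeZero n] :
    theta (tq R n e) ≠ 0 := by
  intro h
  have h1 := congrArg (fun f : LaurentSeries R => f.coeff (-1)) h
  simp only [theta_coeff, coeff_tq_neg_one, HahnSeries.coeff_zero, mul_one] at h1
  have h2 : ((-1 : ℤ) : R) = -1 := by push_cast; rfl
  rw [h2, neg_eq_zero] at h1
  exact one_ne_zero h1

variable (n e M : ℕ) [NeZero n] [NeZero M] (ℓ : ℕ) [Fact ℓ.Prime] (hℓM : ¬ ℓ ∣ M)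
  (hmem : Interface12.TMem n e M) (hgen : Interface12.TGenBase n e)
  (A : ValuationSubring Qbar) (hA : A.LiesOverPrime ℓ)

/-- **(I-a) `DRed` at the instance block**: `x = tF`, `xt = tRes`, `G = gaussRingN`,
`red = gaussRedN`.  (No place reduction `r` is needed.) -/
theorem dRed_modL :
    DRed (L := Qbar) (k := IsLocalRing.ResidueField ↥A)
      (gaussRingN A (IsLocalRing.residue ↥A) M) (gaussRedN A (IsLocalRing.residue ↥A) M)
      (Interface12.tF M hmem) (tRes n e M ℓ hℓM hmem hgen A hA) :=
  dRed_gaussRing A (IsLocalRing.residue ↥A) _ _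
    (Fermat.Agent.ES.V19.SupTrickInst15.residue_eq_zero_of_not_isUnit A)
    (Fermat.Agent.ES.V19.ScaleQbar8.exists_scale A ℓ hA M hℓM)
    (Interface12.tF M hmem) (tRes n e M ℓ hℓM hmem hgen A hA) (tq ↥A n e)
    (coeffMap_tq ↥A A.subtype n e) (coeffMap_tq ↥A (IsLocalRing.residue ↥A) n e)
    (theta_tq_ne_zero (IsLocalRing.ResidueField ↥A) n e)

/-- the same statement in the vocabulary of `V19/RedCtxInst15` (`X0.FF M`, `kA A`, `resA A`), with
the place reduction of the instance block (unused). -/
theorem dRed_IB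
    {r : AlgebraicCurve.Place Qbar (modularFunctionFieldBar M) →
      AlgebraicCurve.Place (Fermat.Agent.ES.RED.Contract8.kA A)
        (modularFunctionFieldFullC (Fermat.Agent.ES.RED.Contract8.kA A) M)}
    (_hr : IsPlaceReductionModL A M r) :
    DRed (L := Qbar) (F := Fermat.Agent.X0.FF M) (k := Fermat.Agent.ES.RED.Contract8.kA A)
      (Ft := ↥(modularFunctionFieldFullC (Fermat.Agent.ES.RED.Contract8.kA A) M))
      (gaussRingN A (Fermat.Agent.ES.RED.Contract8.resA A) M)
      (gaussRedN A (Fermat.Agent.ES.RED.Contract8.resA A) M)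
      (Interface12.tF M hmem) (tRes n e M ℓ hℓM hmem hgen A hA) :=
  dRed_modL n e M ℓ hℓM hmem hgen A hA

end Inst

end Fermat.Agent.ES.X44.DRedInst4
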