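/-
Programme X (S44), rulings x2 + x3 of helper14, helper9: **STATEMENT-ONLY border literals `EigQAt`, `EigQ`
(exit of the geometric side (QH), in characteristic `p`, `q`-series form; entry of (Old)) and `QPStmt`,
`QPChapter` (chapter (QP): the mod `p` `q`-expansion principle at the GOOD level `M₁`, `4 ∣ M₁`, `p ∤ M₁`).**

Only definitions and `Prop`-valued literals; nothing is proved here.

VOCABULARY (Prelude + main only).
* `k̄ := IsLocalRing.ResidueField ↥A` (`= Contract8.kA A = GeoNames23.kW A`), `A ≤ ℚ̄` a valuation subring over `p`;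
* `FtQ M₁ A := ↥(modularFunctionFieldFullC k̄ M₁)` (`= ModelInst4.Ft M₁ A = GeoNames23.FtW M₁ A`): the function field of
  `X₀(M₁)` over `k̄`, a SUBFIELD OF `LaurentSeries k̄` (the `q`-expansion at `∞`);
* `theta` := main's `IG/PR/Theta20.theta` (`q d/dq`, coefficientwise `n ↦ n • c_n`);
* `dlogQ G := theta G * G⁻¹ ∈ LaurentSeries k̄` : the `q`-expansion of `dG/G` against `dq/q`;
* `IsHeckeEigQ ℓ c b` : `T_ℓ b = c • b` COEFFICIENTWISE, `(T_ℓ b)_n = b_{nℓ} + ℓ • b_{n/ℓ}`
  (`b_{n/ℓ} := 0` if `ℓ ∤ n`; it is the `n`-th coefficient of `U_ℓ b + ℓ • b(q^ℓ)`);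
* `IsRegDlog p G` : `p ∣ ord_Q G` at EVERY place `Q` of `FtQ M₁ A / k̄` (= `dG/G` is a regular differential);
* `EigQAt p M₁ A a good` : `∃ G ≠ 0` regular-dlog with `dlogQ G ≠ 0` an eigenvector of the `T_ℓ`, `good ℓ`,
  with eigenvalues `a ℓ`;
* `EigQ p M₁ a good` : `∃ A` over `p` with `EigQAt p M₁ A a good` -- THE BORDER LITERAL, of the exact type
  `ℕ → ∀ (M' : ℕ) [NeZero M'], (Nat.Primes → ℤ) → (Nat.Primes → Prop) → Prop` consumed by `S44Chain14c`;
* `QPStmt p M₁ A` : for every regular-dlog `G ≠ 0` there is a cusp form of weight `2` and level `M₁` whose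
  `q`-expansion has coefficients in `A` (through main's `X0.iotaK : ℚ̄ →+* ℂ`) and reduces to `dlogQ G`
  coefficientwise; moreover `dlogQ G` has no coefficients in degrees `≤ 0`;
* `QPChapter` : `QPStmt` for every prime `p ≥ 5`, every `A` over `p` and every level `M₁` with `4 ∣ M₁`, `p ∤ M₁`.
-/
import Mathlib
import Fermat.Prelude.Def_ModularCurve_X0ModL
import Fermat.Prelude.Def_FLTPrelim_Ramification
import Fermat.Prelude.Def_FLTPrelim_Modularity
import Fermat.Agent.IG.PR.Theta20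
import Fermat.Agent.X0.Defs

set_option autoImplicit false

noncomputable section

open HahnSeries ModularCurve AlgebraicCurve

namespace Fermat.Agent.ES.X44.EigQLit9

open Fermat.Agent.IG.PR.Theta20 (theta)

local notation "Qb" => AlgebraicClosure ℚ

/-- the function field of `X₀(M₁)` over the residue field of `A`, inside `LaurentSeries`. -/
abbrev FtQ (M₁ : ℕ) (A : ValuationSubring Qb) : Type :=
  ↥(modularFunctionFieldFullC (IsLocalRing.ResidueField ↥A) M₁)

/-- the `q`-expansion of `dG/G` against `dq/q`. -/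
def dlogQ {k : Type*} [Field k] (G : LaurentSeries k) : LaurentSeries k :=
  theta G * G⁻¹

/-- `T_ℓ b = c • b`, coefficientwise: `b_{nℓ} + ℓ • b_{n/ℓ} = c • b_n` for every `n : ℤ`
(`b_{n/ℓ} := 0` when `ℓ ∤ n`). -/
def IsHeckeEigQ {k : Type*} [Field k] (ℓ : ℕ) (c : k) (b : LaurentSeries k) : Prop :=
  ∀ n : ℤ, b.coeff (n * (ℓ : ℤ)) + (ℓ : k) * (if (ℓ : ℤ) ∣ n then b.coeff (n / (ℓ : ℤ)) else 0) =
    c * b.coeff n

variable (p M₁ : ℕ) [NeZero M₁]

section At

variable (A : ValuationSubring Qb)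

/-- `dG/G` is a regular differential: `p ∣ ord_Q G` at every place of the special fibre. -/
def IsRegDlog (G : FtQ M₁ A) : Prop :=
  ∀ Q : Place (IsLocalRing.ResidueField ↥A) (FtQ M₁ A), (p : ℤ) ∣ Q.ord G

/-- **EigQAt** (characteristic `p`, place `A` fixed): a regular logarithmic differential of the special fibre
of the GOOD level `M₁` whose `q`-expansion is a nonzero eigenvector of the `T_ℓ`, `good ℓ`. -/
def EigQAt (a : Nat.Primes → ℤ) (good : Nat.Primes → Prop) : Prop :=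
  ∃ G : FtQ M₁ A, G ≠ 0 ∧ IsRegDlog p M₁ A G ∧
    dlogQ (G : LaurentSeries (IsLocalRing.ResidueField ↥A)) ≠ 0 ∧
    ∀ ℓ : Nat.Primes, good ℓ → IsHeckeEigQ (ℓ : ℕ) ((a ℓ : ℤ) : IsLocalRing.ResidueField ↥A)
      (dlogQ (G : LaurentSeries (IsLocalRing.ResidueField ↥A)))

end At

/-- **EigQ** (border Geo → Old): `EigQAt` at SOME place `A` of `ℚ̄` over `p`. -/
def EigQ (p M' : ℕ) [NeZero M'] (a : Nat.Primes → ℤ) (good : Nat.Primes → Prop) : Prop :=
  ∃ A : ValuationSubring Qb, A.LiesOverPrime p ∧ EigQAt p M' A a good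

/-- the border literal has exactly the type consumed by `S44Chain14c.s44_of_chapters3`. -/
example : ℕ → ∀ (M' : ℕ) [NeZero M'], (Nat.Primes → ℤ) → (Nat.Primes → Prop) → Prop :=
  fun p M' _ a good => EigQ p M' a good

/-- **(QP)** at the level `M₁` and the place `A`: every regular logarithmic differential of the special fibre
is, on `q`-expansions, the reduction of a cusp form of weight `2` and level `M₁` with coefficients in `A`. -/
def QPStmt (A : ValuationSubring Qb) : Prop :=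
  ∀ G : FtQ M₁ A, G ≠ 0 → IsRegDlog p M₁ A G →
    (∀ n : ℤ, n ≤ 0 → (dlogQ (G : LaurentSeries (IsLocalRing.ResidueField ↥A))).coeff n = 0) ∧
    ∃ (f : CuspForm (CongruenceSubgroup.Gamma0 M₁) 2) (c : ℕ → ↥A),
      (∀ n : ℕ, ModularFormClass.qCoeff f n = Fermat.Agent.X0.iotaK ((c n : ↥A) : Qb)) ∧
      ∀ n : ℕ, IsLocalRing.residue ↥A (c n) =
        (dlogQ (G : LaurentSeries (IsLocalRing.ResidueField ↥A))).coeff (n : ℤ)

/-- **chapter (QP)**. -/
def QPChapter : Prop :=
  ∀ (p M₁ : ℕ) [NeZero M₁] (A : ValuationSubring Qb), p.Prime → 5 ≤ p → A.LiesOverPrime p →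
    ¬ p ∣ M₁ → 4 ∣ M₁ → QPStmt p M₁ A

end Fermat.Agent.ES.X44.EigQLit9
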