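/-
Programme X (S44), chapter (Old), helper14: **the Deligne–Serre glue (DS)** between (QP) and (R) at the good level.

`QPStmt p M A` turns the border literal `EigQAt p M A a good` into a cusp form `f` of weight `2` and level `M` whose
`q`-coefficients lie in the valuation ring `A` (through `X0.iotaK`) and whose reduction `b̄ ≠ 0` satisfies the Hecke
relations `T_ℓ b̄ = a_ℓ b̄` for the good primes.  Working DIRECTLY ON `q`-COEFFICIENTS (no integral basis is needed):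

* `CoeffIn A I h` : every `q`-coefficient of `h` is `iotaK c` with `c ∈ I` (`I` an ideal of `A`); stable under `+`,
  `ℤ`-multiples, `T_ℓ`, `U_q`, hence under the whole Prelude Hecke algebra `𝕋 = heckeAlgebra M 2 S`;
* `congrI` : `{t ∈ 𝕋 | CoeffIn A 𝔪_A (t f)}` is an ideal of `𝕋`; it is proper (`b̄ ≠ 0`), contains `p` and the
  `T_ℓ - a_ℓ`, `good ℓ`;
* `ds_glue` : main's abstract lifting lemma `S49.exists_eigenvector_lift` at a maximal ideal above `congrI` gives an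
  eigencharacter `χ : 𝕋 → ℤ̄` and a maximal ideal `𝔪' ∋ p` of `ℤ̄` with `χ(T_ℓ) ≡ a_ℓ`; its eigenspace is stable under
  all `T`, `U`, so it contains a normalised eigenform (`EigenformOfCommon23`).
-/
import Mathlib
import Fermat.Agent.ES.X44.EigQLit9
import Fermat.Agent.S49.CommAlg
import Fermat.Agent.S49.QExp
import Fermat.Agent.ES.LR.EigenformOfCommon23
import Fermat.Agent.S23
import Fermat.Agent.S21.Assembly
import Fermat.Prelude.Def_CuspForm_HeckeLocal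

set_option autoImplicit false

noncomputable section

namespace Fermat.Agent.ES.X44.DSGlue14

open CuspForm CongruenceSubgroup ModularFormClass
open Fermat.Agent.ES.X44.EigQLit9

local notation "Qb" => AlgebraicClosure ℚ
local notation "Zbar" => integralClosure ℤ ℂ

section Coeff

variable {M : ℕ} (A : ValuationSubring Qb)

/-- the embedding `A → ℂ`. -/
def embA : ↥A →+* ℂ := Fermat.Agent.X0.iotaK.comp A.subtype

theorem embA_apply (c : ↥A) : embA A c = Fermat.Agent.X0.iotaK ((c : ↥A) : Qb) := rfl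

theorem embA_injective : Function.Injective (embA A) := by
  intro x y h
  exact Subtype.ext (Fermat.Agent.X0.iotaK_injective h)

/-- every `q`-coefficient of `h` is the image of an element of the ideal `I` of `A`. -/
def CoeffIn (I : Ideal ↥A) (h : CuspForm (Gamma0 M) 2) : Prop :=
  ∀ n : ℕ, ∃ c : ↥A, c ∈ I ∧ qCoeff ⇑h n = embA A c

variable {A}

theorem coeffIn_zero (I : Ideal ↥A) : CoeffIn A I (0 : CuspForm (Gamma0 M) 2) := by
  intro n
  exact ⟨0, I.zero_mem, by rw [Fermat.Agent.S49.qCoeff_zero_form, map_zero]⟩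

theorem coeffIn_add {I : Ideal ↥A} {h₁ h₂ : CuspForm (Gamma0 M) 2} (H₁ : CoeffIn A I h₁)
    (H₂ : CoeffIn A I h₂) : CoeffIn A I (h₁ + h₂) := by
  intro n
  obtain ⟨c₁, hc₁, e₁⟩ := H₁ n
  obtain ⟨c₂, hc₂, e₂⟩ := H₂ n
  exact ⟨c₁ + c₂, I.add_mem hc₁ hc₂, by rw [Fermat.Agent.S49.qCoeff_add, e₁, e₂, map_add]⟩

theorem coeffIn_zsmul {I : Ideal ↥A} (z : ℤ) {h : CuspForm (Gamma0 M) 2} (H : CoeffIn A I h) :
    CoeffIn A I (z • h) := by
  intro n
  obtain ⟨c, hc, e⟩ := H n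
  exact ⟨(z : ↥A) * c, I.mul_mem_left _ hc, by
    rw [Fermat.Agent.S49.qCoeff_zsmul, e, map_mul, map_intCast]⟩

theorem coeffIn_zsmul_of_mem {I : Ideal ↥A} {z : ℤ} (hz : ((z : ℤ) : ↥A) ∈ I)
    {h : CuspForm (Gamma0 M) 2} (H : CoeffIn A ⊤ h) : CoeffIn A I (z • h) := by
  intro n
  obtain ⟨c, -, e⟩ := H n
  exact ⟨(z : ↥A) * c, I.mul_mem_right _ hz, by
    rw [Fermat.Agent.S49.qCoeff_zsmul, e, map_mul, map_intCast]⟩

theorem coeffIn_heckeT {I : Ideal ↥A} {ℓ : ℕ} (hℓ : ℓ.Prime) (hℓM : ¬ ℓ ∣ M)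
    {h : CuspForm (Gamma0 M) 2} (H : CoeffIn A I h) : CoeffIn A I (CuspForm.heckeTLin 2 hℓ hℓM h) := by
  intro n
  obtain ⟨c₁, hc₁, e₁⟩ := H (n * ℓ)
  by_cases hd : ℓ ∣ n
  · obtain ⟨c₂, hc₂, e₂⟩ := H (n / ℓ)
    refine ⟨c₁ + (ℓ : ↥A) * c₂, I.add_mem hc₁ (I.mul_mem_left _ hc₂), ?_⟩
    rw [Fermat.Agent.S49.qCoeff_heckeTLin, if_pos hd, e₁, e₂, map_add, map_mul, map_natCast]
  · refine ⟨c₁, hc₁, ?_⟩
    rw [Fermat.Agent.S49.qCoeff_heckeTLin, if_neg hd, e₁, add_zero]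

theorem coeffIn_heckeU [NeZero M] {I : Ideal ↥A} {q : ℕ} (hq : q.Prime) (hqM : q ∣ M)
    {h : CuspForm (Gamma0 M) 2} (H : CoeffIn A I h) : CoeffIn A I (CuspForm.heckeULin 2 hqM h) := by
  intro n
  obtain ⟨c₁, hc₁, e₁⟩ := H (n * q)
  exact ⟨c₁, hc₁, by rw [Fermat.Agent.S49.qCoeff_heckeULin hq, e₁]⟩

/-- the Prelude Hecke algebra preserves `CoeffIn`. -/
theorem coeffIn_of_mem_heckeAlgebra [NeZero M] {S : Set ℕ}
    {t : Module.End ℂ (CuspForm (Gamma0 M) 2)} (ht : t ∈ heckeAlgebra M 2 S) :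
    ∀ (I : Ideal ↥A) (h : CuspForm (Gamma0 M) 2), CoeffIn A I h → CoeffIn A I (t h) := by
  unfold heckeAlgebra at ht
  induction ht using Algebra.adjoin_induction with
  | mem t ht =>
    intro I h H
    rcases ht with ⟨ℓ, hℓ, hℓM, -, rfl⟩ | ⟨q, hqM, hq, -, rfl⟩
    · exact coeffIn_heckeT hℓ hℓM H
    · exact coeffIn_heckeU hq hqM H
  | algebraMap z =>
    intro I h H
    have e : (algebraMap ℤ (Module.End ℂ (CuspForm (Gamma0 M) 2)) z) h = z • h := by
      rw [Algebra.algebraMap_eq_smul_one, LinearMap.smul_apply, Module.End.one_apply]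
    rw [e]
    exact coeffIn_zsmul z H
  | add s t _ _ hs ht =>
    intro I h H
    rw [LinearMap.add_apply]
    exact coeffIn_add (hs I h H) (ht I h H)
  | mul s t _ _ hs ht =>
    intro I h H
    rw [Module.End.mul_apply]
    exact hs I _ (ht I h H)

end Coeff

section Glue

variable {M : ℕ} [NeZero M] (A : ValuationSubring Qb) (S : Set ℕ)

/-- the congruence ideal of `f`: the Hecke operators sending `f` into `𝔪_A`-coefficients. -/
def congrI (f : CuspForm (Gamma0 M) 2) : Ideal ↥(heckeAlgebra M 2 S) where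
  carrier := {t | CoeffIn A (IsLocalRing.maximalIdeal ↥A)
    ((t : Module.End ℂ (CuspForm (Gamma0 M) 2)) f)}
  add_mem' := by
    intro s t hs ht
    show CoeffIn A _ (((s + t : ↥(heckeAlgebra M 2 S)) : Module.End ℂ (CuspForm (Gamma0 M) 2)) f)
    rw [Subalgebra.coe_add, LinearMap.add_apply]
    exact coeffIn_add hs ht
  zero_mem' := by
    show CoeffIn A _ (((0 : ↥(heckeAlgebra M 2 S)) : Module.End ℂ (CuspForm (Gamma0 M) 2)) f)
    rw [Subalgebra.coe_zero, LinearMap.zero_apply]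
    exact coeffIn_zero _
  smul_mem' := by
    intro c t ht
    show CoeffIn A _ (((c • t : ↥(heckeAlgebra M 2 S)) : Module.End ℂ (CuspForm (Gamma0 M) 2)) f)
    rw [smul_eq_mul, Subalgebra.coe_mul, Module.End.mul_apply]
    exact coeffIn_of_mem_heckeAlgebra c.2 _ _ ht

theorem mem_congrI {f : CuspForm (Gamma0 M) 2} {t : ↥(heckeAlgebra M 2 S)} :
    t ∈ congrI A S f ↔ CoeffIn A (IsLocalRing.maximalIdeal ↥A)
      ((t : Module.End ℂ (CuspForm (Gamma0 M) 2)) f) := Iff.rfl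

theorem moduleFinite_heckeAlgebra : Module.Finite ℤ ↥(heckeAlgebra M 2 S) := by
  have hint : CuspForm.HasIntegralStructure M 2 := Fermat.Agent.S23.result M
  have hinj := (latticeRestrictHom_bijective M S hint).1
  exact Module.Finite.of_injective (latticeRestrictHom M S).toLinearMap hinj

end Glue

section Main

variable {M : ℕ} [NeZero M]

/-- every element of the Hecke algebra `𝕋_S` commutes with every element of `𝕋_∅`. -/
theorem commute_of_mem {S : Set ℕ} {t T : Module.End ℂ (CuspForm (Gamma0 M) 2)}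
    (ht : t ∈ heckeAlgebra M 2 S) (hT : T ∈ heckeAlgebra M 2 (∅ : Set ℕ)) : t * T = T * t := by
  have ht' : t ∈ heckeAlgebra M 2 (∅ : Set ℕ) := heckeAlgebra_mono (Set.empty_subset S) ht
  exact congrArg Subtype.val
    (mul_comm (⟨t, ht'⟩ : ↥(heckeAlgebra M 2 (∅ : Set ℕ))) ⟨T, hT⟩)

/-- **(DS)**: from (QP) and the border literal `EigQAt` to a normalised eigenform of level `M` congruent to the
eigensystem `a` modulo a maximal ideal over `p`. -/
theorem ds_glue {p : ℕ} (A : ValuationSubring Qb) (hA : A.LiesOverPrime p)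
    (a : Nat.Primes → ℤ) (good : Nat.Primes → Prop)
    (hgood : ∀ ℓ : Nat.Primes, good ℓ → ¬ (ℓ : ℕ) ∣ M)
    (hQP : QPStmt p M A) (hE : EigQAt p M A a good) :
    ∃ (g : CuspForm (Gamma0 M) 2) (𝔪' : Ideal Zbar), g.IsNormalizedEigenform ∧ 𝔪'.IsMaximal ∧
      ((p : ℕ) : Zbar) ∈ 𝔪' ∧
      ∀ ℓ : Nat.Primes, good ℓ →
        ∃ c : Zbar, (c : ℂ) = qCoeff g (ℓ : ℕ) ∧ c - ((a ℓ : ℤ) : Zbar) ∈ 𝔪' := by
  classical
  obtain ⟨G, hG0, hGreg, hb0, hbeig⟩ := hE
  obtain ⟨hbneg, f, c, hfc, hres⟩ := hQP G hG0 hGreg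
  set b := dlogQ (G : LaurentSeries (IsLocalRing.ResidueField ↥A)) with hb
  -- the set of excluded primes
  let S : Set ℕ := {n | ¬ ∃ h : n.Prime, good ⟨n, h⟩}
  have hS : ∀ ℓ : Nat.Primes, good ℓ → (ℓ : ℕ) ∉ S := fun ℓ hℓ hmem => hmem ⟨ℓ.2, hℓ⟩
  -- `f` has coefficients in `A`
  have hfA : CoeffIn A ⊤ f := fun n => ⟨c n, Submodule.mem_top, hfc n⟩
  -- `p ∈ 𝔪_A`
  have hpA : ((p : ℤ) : ↥A) ∈ IsLocalRing.maximalIdeal ↥A := by
    obtain ⟨hmem, hmax⟩ := (ValuationSubring.mem_nonunits_iff_exists_mem_maximalIdeal).mp hA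
    have e : ((p : ℤ) : ↥A) = ⟨(p : Qb), hmem⟩ := by
      apply Subtype.ext
      push_cast
      rfl
    rw [e]
    exact hmax
  -- the congruence ideal is proper
  have hne : congrI A S f ≠ ⊤ := by
    intro htop
    have h1 : (1 : ↥(heckeAlgebra M 2 S)) ∈ congrI A S f := (Ideal.eq_top_iff_one _).mp htop
    rw [mem_congrI, Subalgebra.coe_one, Module.End.one_apply] at h1
    -- a nonzero coefficient of `b`
    obtain ⟨n, hn⟩ : ∃ n : ℤ, b.coeff n ≠ 0 := by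
      by_contra hcon
      push Not at hcon
      exact hb0 (HahnSeries.ext (funext hcon))
    have hnpos : 0 < n := by
      by_contra hle
      exact hn (hbneg n (not_lt.mp hle))
    obtain ⟨k, rfl⟩ : ∃ k : ℕ, n = (k : ℤ) := ⟨n.toNat, (Int.toNat_of_nonneg hnpos.le).symm⟩
    obtain ⟨c', hc', e'⟩ := h1 k
    have e2 : embA A c' = embA A (c k) := by rw [← e', hfc k, embA_apply]
    have e3 : c' = c k := embA_injective A e2
    rw [e3] at hc'
    apply hn
    rw [← hres k]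
    exact (IsLocalRing.residue_eq_zero_iff _).mpr hc'
  obtain ⟨𝔫, h𝔫max, h𝔫le⟩ := Ideal.exists_le_maximal _ hne
  have h𝔫prime : 𝔫.IsPrime := h𝔫max.isPrime
  -- `p ∈ congrI`
  have hpI : ((p : ℤ) : ↥(heckeAlgebra M 2 S)) ∈ congrI A S f := by
    rw [mem_congrI]
    have h1 : (((p : ℤ) : ↥(heckeAlgebra M 2 S)) : Module.End ℂ (CuspForm (Gamma0 M) 2)) =
        ((p : ℤ) : Module.End ℂ (CuspForm (Gamma0 M) 2)) := rfl
    rw [h1, Module.End.intCast_apply]
    exact coeffIn_zsmul_of_mem hpA hfA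
  -- `T_ℓ - a_ℓ ∈ congrI`
  have hTI : ∀ (ℓ : Nat.Primes) (hℓ : good ℓ),
      (heckeAlgebra.T ℓ.2 (hgood ℓ hℓ) (hS ℓ hℓ) - ((a ℓ : ℤ) : ↥(heckeAlgebra M 2 S)))
        ∈ congrI A S f := by
    intro ℓ hℓ
    rw [mem_congrI]
    have h1 : (((a ℓ : ℤ) : ↥(heckeAlgebra M 2 S)) : Module.End ℂ (CuspForm (Gamma0 M) 2)) =
        ((a ℓ : ℤ) : Module.End ℂ (CuspForm (Gamma0 M) 2)) := rfl
    rw [Subalgebra.coe_sub, heckeAlgebra.coe_T, h1, LinearMap.sub_apply, Module.End.intCast_apply]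
    intro n
    have hrel := hbeig ℓ hℓ (n : ℤ)
    have e1 : b.coeff ((n : ℤ) * (((ℓ : ℕ) : ℕ) : ℤ)) =
        IsLocalRing.residue ↥A (c (n * (ℓ : ℕ))) := by
      rw [hres, Nat.cast_mul]
    have e2 : (if (((ℓ : ℕ) : ℕ) : ℤ) ∣ (n : ℤ) then b.coeff ((n : ℤ) / (((ℓ : ℕ) : ℕ) : ℤ)) else 0) =
        IsLocalRing.residue ↥A (if (ℓ : ℕ) ∣ n then c (n / (ℓ : ℕ)) else 0) := by
      by_cases hd : (ℓ : ℕ) ∣ n
      · rw [if_pos hd, if_pos (Int.natCast_dvd_natCast.mpr hd), hres, Int.natCast_div]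
      · rw [if_neg hd, if_neg (fun h => hd (Int.natCast_dvd_natCast.mp h)), map_zero]
    rw [e1, e2, ← hres n] at hrel
    have e3 : ∀ m : ℕ, qCoeff ⇑f m = embA A (c m) := fun m => by rw [hfc m, embA_apply]
    refine ⟨c (n * (ℓ : ℕ)) + ((ℓ : ℕ) : ↥A) * (if (ℓ : ℕ) ∣ n then c (n / (ℓ : ℕ)) else 0)
      - ((a ℓ : ℤ) : ↥A) * c n, ?_, ?_⟩
    · rw [← IsLocalRing.residue_eq_zero_iff, map_sub, map_add, map_mul, map_mul, map_natCast,
        map_intCast, hrel, sub_self]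
    · rw [Fermat.Agent.S49.qCoeff_sub, Fermat.Agent.S49.qCoeff_heckeTLin,
        Fermat.Agent.S49.qCoeff_zsmul, map_sub, map_add, map_mul, map_mul, map_natCast,
        map_intCast]
      by_cases hd : (ℓ : ℕ) ∣ n
      · rw [if_pos hd, if_pos hd, e3, e3, e3]
      · rw [if_neg hd, if_neg hd, map_zero, mul_zero, e3, e3]
  -- the lifting lemma
  have : Module.Finite ℤ ↥(heckeAlgebra M 2 S) := moduleFinite_heckeAlgebra S
  have : Module.Finite ℂ (CuspForm (Gamma0 M) 2) := Fermat.Agent.S21.Assembly.finite_cusp M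
  obtain ⟨w, χ, 𝔪', hw0, hχ, h𝔪'max, hle⟩ :=
    Fermat.Agent.S49.exists_eigenvector_lift (A := ↥(heckeAlgebra M 2 S))
      (V := CuspForm (Gamma0 M) 2) (heckeAlgebra M 2 S).val.toRingHom
      (fun x y h => Subtype.ext h) 𝔫
  -- the eigenspace of `χ`
  let V : Submodule ℂ (CuspForm (Gamma0 M) 2) :=
    { carrier := {v | ∀ t : ↥(heckeAlgebra M 2 S),
        (t : Module.End ℂ (CuspForm (Gamma0 M) 2)) v = ((χ t : Zbar) : ℂ) • v}
      add_mem' := by
        intro v₁ v₂ h₁ h₂ t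
        rw [map_add, h₁ t, h₂ t, smul_add]
      zero_mem' := by
        intro t
        rw [map_zero, smul_zero]
      smul_mem' := by
        intro z v hv t
        rw [map_smul, hv t, smul_comm] }
  have hwV : w ∈ V := fun t => hχ t
  have hV : V ≠ ⊥ := fun hbot => hw0 ((Submodule.eq_bot_iff V).mp hbot w hwV)
  have hstab : ∀ T ∈ heckeAlgebra M 2 (∅ : Set ℕ), ∀ v ∈ V, T v ∈ V := by
    intro T hT v hv t
    have hc := commute_of_mem t.2 hT
    have h1 : (t : Module.End ℂ (CuspForm (Gamma0 M) 2)) (T v) =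
        T ((t : Module.End ℂ (CuspForm (Gamma0 M) 2)) v) := by
      rw [← Module.End.mul_apply, hc, Module.End.mul_apply]
    rw [h1, hv t, map_smul]
  obtain ⟨g, hgV, hg⟩ :=
    Fermat.Agent.ES.LR.EigenformOfCommon23.exists_normalizedEigenform_mem V hV
      (fun ℓ hℓ hℓM v hv =>
        hstab _ (heckeTLin_mem_heckeAlgebra hℓ hℓM (Set.notMem_empty _)) v hv)
      (fun ℓ hℓ hℓM v hv =>
        hstab _ (heckeULin_mem_heckeAlgebra hℓ hℓM (Set.notMem_empty _)) v hv)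
  refine ⟨g, 𝔪', hg, h𝔪'max, ?_, ?_⟩
  · have h1 := hle (h𝔫le hpI)
    rw [Ideal.mem_comap, map_intCast] at h1
    exact_mod_cast h1
  · intro ℓ hℓ
    refine ⟨χ (heckeAlgebra.T ℓ.2 (hgood ℓ hℓ) (hS ℓ hℓ)), ?_, ?_⟩
    · have h1 := hgV (heckeAlgebra.T ℓ.2 (hgood ℓ hℓ) (hS ℓ hℓ))
      rw [heckeAlgebra.coe_T] at h1
      exact (Fermat.Agent.ES.LR.EigenformOfCommon23.qCoeff_eq_of_heckeTLin_eq_smul hg ℓ.2
        (hgood ℓ hℓ) h1).symm
    · have h1 := hle (h𝔫le (hTI ℓ hℓ))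
      rw [Ideal.mem_comap, map_sub, map_intCast] at h1
      exact h1

end Main

end Fermat.Agent.ES.X44.DSGlue14
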