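/-
Programme X (S44), chapter (W1), leaf (a) DESCENT, abstract form (helper4):
**a class of `Pic⁰` fixed by a set `S` of semilinear automorphisms which fix ONE place `P₀` of degree one
has an `S`-invariant representative.**  No Hilbert 90, no cocycle: "minimal twist by the fixed point".

`exists_invariant_rep` : `LHyp K F`, Riemann's inequality in the form `deg D ≥ g ⇒ L(D) ≠ 0`,
`S : Set (SemilinearAut K F)`, `τ • P₀ = P₀` and `τ • x = x` for `τ ∈ S`.  Then
`∃ D, IsRep x D ∧ ∀ τ ∈ S, τ • D = D`.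

Proof.  `D₀` any representative; `n` the LEAST natural number with `L(D₀ + n P₀) ≠ 0` (`n ≤ g`);
`D₁ := D₀ + n P₀`.  Then `L(D₁ - P₀) = 0` (minimality, or degree `-1` when `n = 0`), so any two nonzero
elements of `L(D₁)` are proportional (`LSpace.exists_sub_smul_mem`), i.e. `E := D₁ + div f` is THE unique
effective divisor linearly equivalent to `D₁`.  For `τ ∈ S`: `τ • E ≥ 0` and
`τ • E = D₁ + div (h · τ f)` where `div h = τ • D₀ - D₀` (`τ • x = x`, `τ • P₀ = P₀`), hence `τ • E = E`.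
`D := E - n P₀ = D₀ + div f`.
-/
import Mathlib
import Fermat.Prelude.Def_AlgebraicCurve_BaseChangeGalois
import Fermat.Agent.RR.LSpace
import Fermat.Agent.X0.FFDict
import Fermat.Agent.ES.V19.XiPic5
import Fermat.Agent.ES.W33.XiIfaceN29

set_option autoImplicit false
set_option linter.unusedSectionVars false

noncomputable section

open AlgebraicCurve

namespace Fermat.Agent.ES.X44.DescentAbs4

open Fermat.Agent.X0.FF Fermat.Agent.RR.LSpace Fermat.Agent.ES.V19.XiPic5
open Fermat.Agent.ES.W33.XiIfaceN29 (IsRep)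

variable {K F : Type*} [Field K] [Field F] [Algebra K F]

/-- `D + div f ≥ 0` for `f ∈ L(D)`. -/
theorem nonneg_add_divOf (H : LHyp K F) {D : Divisor K F} {f : F} (hf0 : f ≠ 0)
    (hf : f ∈ riemannRochSpace D) : 0 ≤ D + divOf H hf0 := by
  intro v
  rw [Finsupp.add_apply, divOf_apply]
  have := (mem_L_iff hf0).mp hf v
  simp only [Finsupp.coe_zero, Pi.zero_apply]
  omega

/-- … and conversely. -/
theorem mem_L_of_nonneg_add_divOf (H : LHyp K F) {D : Divisor K F} {f : F} (hf0 : f ≠ 0)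
    (h : 0 ≤ D + divOf H hf0) : f ∈ riemannRochSpace D := by
  rw [mem_L_iff hf0]
  intro v
  have := h v
  rw [Finsupp.add_apply, divOf_apply] at this
  simp only [Finsupp.coe_zero, Pi.zero_apply] at this
  omega

/-- a semilinear automorphism maps `div f` to `div (τ f)`. -/
theorem smul_divOf (H : LHyp K F) (τ : SemilinearAut K F) {f : F} (hf : f ≠ 0)
    (hτf : τ • f ≠ 0) : τ • divOf H hf = divOf H hτf := by
  ext w
  rw [SemilinearAut.divisor_smul_apply, divOf_apply, divOf_apply]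
  have h := SemilinearAut.ord_smul τ (τ⁻¹ • w) f
  rw [smul_inv_smul] at h
  exact h.symm

/-- a semilinear automorphism preserves effectivity. -/
theorem smul_nonneg (τ : SemilinearAut K F) {E : Divisor K F} (hE : 0 ≤ E) : 0 ≤ τ • E := by
  intro w
  rw [SemilinearAut.divisor_smul_apply]
  exact hE _

/-- `div (c f) = div f` for a constant `c ≠ 0`. -/
theorem divOf_smul (H : LHyp K F) {c : K} (hc : c ≠ 0) {f : F} (hf : f ≠ 0)
    (hcf : c • f ≠ 0) : divOf H hcf = divOf H hf := by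
  ext w
  rw [divOf_apply, divOf_apply, Algebra.smul_def,
    w.ord_mul ((map_ne_zero _).mpr hc) hf, ord_algebraMap, zero_add]

/-- if `L(D₁ - P₀) = 0`, any element of `L(D₁)` is a constant multiple of a given nonzero one. -/
theorem exists_smul_eq (H : LHyp K F) (D₁ : Divisor K F) (P₀ : Place K F)
    (hbot : riemannRochSpace (D₁ - Finsupp.single P₀ 1) = ⊥) {f f' : F} (hf0 : f ≠ 0)
    (hf : f ∈ riemannRochSpace D₁) (hf' : f' ∈ riemannRochSpace D₁) : ∃ c : K, f' = c • f := by
  have e : D₁ - Finsupp.single P₀ 1 + Finsupp.single P₀ 1 = D₁ := sub_add_cancel _ _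
  have hfn : f ∉ riemannRochSpace (D₁ - Finsupp.single P₀ 1) := by
    rw [hbot, Submodule.mem_bot]
    exact hf0
  obtain ⟨c, hc⟩ := exists_sub_smul_mem H (D₁ - Finsupp.single P₀ 1) P₀ (f := f') (g := f)
    (by rw [e]; exact hf') (by rw [e]; exact hf) hfn
  rw [hbot, Submodule.mem_bot] at hc
  exact ⟨c, sub_eq_zero.mp hc⟩

/-- **DESCENT, abstract form.** -/
theorem exists_invariant_rep (H : LHyp K F) {g : ℕ}
    (hR : ∀ D : Divisor K F, (g : ℤ) ≤ Divisor.degree D →
      ∃ f : F, f ≠ 0 ∧ f ∈ riemannRochSpace D)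
    (S : Set (SemilinearAut K F)) (P₀ : Place K F) (hP₀ : ∀ τ ∈ S, τ • P₀ = P₀)
    (x : Pic0 K F) (hx : ∀ τ ∈ S, τ • x = x) :
    ∃ D : Divisor K F, IsRep x D ∧ ∀ τ ∈ S, τ • D = D := by
  classical
  obtain ⟨⟨D₀, hD₀⟩, rfl⟩ := Pic0.mk_surjective x
  have hdeg0 : Divisor.degree D₀ = 0 := hD₀
  -- the least twist
  have hex : ∃ n : ℕ, ∃ f : F, f ≠ 0 ∧
      f ∈ riemannRochSpace (D₀ + Finsupp.single P₀ (n : ℤ)) := by
    obtain ⟨f, hf0, hf⟩ := hR (D₀ + Finsupp.single P₀ (g : ℤ))
      (by rw [map_add, degree_single H, hdeg0, zero_add])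
    exact ⟨g, f, hf0, hf⟩
  obtain ⟨f, hf0, hf⟩ := Nat.find_spec hex
  have hmin : ∀ m : ℕ, m < Nat.find hex → ∀ f' : F,
      f' ∈ riemannRochSpace (D₀ + Finsupp.single P₀ (m : ℤ)) → f' = 0 := by
    intro m hm f' hf'
    by_contra h0
    exact Nat.find_min hex hm ⟨f', h0, hf'⟩
  generalize Nat.find hex = n at hf hmin
  have hbot : riemannRochSpace (D₀ + Finsupp.single P₀ (n : ℤ) - Finsupp.single P₀ 1) = ⊥ := by
    rcases Nat.eq_zero_or_pos n with hn | hn
    · apply L_eq_bot_of_degree_neg H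
      rw [map_sub, map_add, degree_single H, degree_single H, hdeg0, hn]
      norm_num
    · rw [eq_bot_iff]
      intro f' hf'
      rw [Submodule.mem_bot]
      refine hmin (n - 1) (by omega) f' ?_
      have e : D₀ + Finsupp.single P₀ (n : ℤ) - Finsupp.single P₀ 1 =
          D₀ + Finsupp.single P₀ ((n - 1 : ℕ) : ℤ) := by
        rw [add_sub_assoc, ← Finsupp.single_sub]
        congr 2
        omega
      rwa [e] at hf'
  -- the unique effective divisor
  have hE : 0 ≤ D₀ + Finsupp.single P₀ (n : ℤ) + divOf H hf0 := nonneg_add_divOf H hf0 hf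
  have hinv : ∀ τ ∈ S, τ • (D₀ + Finsupp.single P₀ (n : ℤ) + divOf H hf0) =
      D₀ + Finsupp.single P₀ (n : ℤ) + divOf H hf0 := by
    intro τ hτ
    have h1 := hx τ hτ
    rw [SemilinearAut.pic0_smul_mk, mk_eq_mk_iff] at h1
    obtain ⟨h, hh0, hh⟩ := h1
    have hτf0 : τ • f ≠ 0 := by
      intro h0
      apply hf0
      have := congrArg (τ⁻¹ • ·) h0
      simpa using this
    have hf'0 : h * (τ • f) ≠ 0 := mul_ne_zero hh0 hτf0
    have key : τ • (D₀ + Finsupp.single P₀ (n : ℤ) + divOf H hf0) =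
        D₀ + Finsupp.single P₀ (n : ℤ) + divOf H hf'0 := by
      rw [smul_add, smul_add, smul_divOf H τ hf0 hτf0, SemilinearAut.smul_single, hP₀ τ hτ]
      ext w
      have hw := hh w
      rw [Finsupp.sub_apply, SemilinearAut.coe_degZeroSMulHom] at hw
      simp only [Finsupp.add_apply, divOf_apply]
      rw [w.ord_mul hh0 hτf0, ← hw]
      ring
    have hf'mem : h * (τ • f) ∈ riemannRochSpace (D₀ + Finsupp.single P₀ (n : ℤ)) := by
      apply mem_L_of_nonneg_add_divOf H hf'0
      rw [← key]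
      exact smul_nonneg τ hE
    obtain ⟨c, hc⟩ := exists_smul_eq H _ P₀ hbot hf0 hf hf'mem
    have hc0 : c ≠ 0 := by
      rintro rfl
      rw [zero_smul] at hc
      exact hf'0 hc
    have hcf : c • f ≠ 0 := hc ▸ hf'0
    have e2 : divOf H hf'0 = divOf H hf0 := by
      rw [← divOf_smul H hc0 hf0 hcf]
      ext w
      rw [divOf_apply, divOf_apply, hc]
    rw [key, e2]
  -- the invariant representative
  refine ⟨D₀ + divOf H hf0, ⟨?_, ?_⟩, fun τ hτ => ?_⟩
  · rw [Divisor.mem_degZero, map_add, hdeg0, degree_divOf, add_zero]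
  · rw [mk_eq_mk_iff]
    show D₀ + divOf H hf0 - D₀ ∈ _
    rw [add_sub_cancel_left]
    exact ⟨f, hf0, fun v => divOf_apply H hf0 v⟩
  · have e : D₀ + divOf H hf0 =
        D₀ + Finsupp.single P₀ (n : ℤ) + divOf H hf0 - Finsupp.single P₀ (n : ℤ) := by abel
    rw [e, smul_sub, hinv τ hτ, SemilinearAut.smul_single, hP₀ τ hτ]

end Fermat.Agent.ES.X44.DescentAbs4
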