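/-
Programme X (S44), chapter (W1), leaf (a) DESCENT at the nodal instance (helper4):
**a class of `J₀(M' p)` fixed by a set `S` of elements of the inertia group `I_A` has an `S`-invariant
representative.**

The fixed place of `DescentAbs4.exists_invariant_rep` is the CENTRE `I.centre Q̄` of the disc of any good
point `Q̄` of Programme W's nodal instance: by `NodalInstHyp.level` some `Γ_{f₀} ⊇ I_A` fixes the
coordinate `I.coord Q̄` and preserves the disc, and the centre is the unique point of the disc where the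
coordinate vanishes (`val_unique` at `a = 0`).  No cusp, no `q`-expansion.

* `smul_centre`             : `τ • I.centre Q̄ = I.centre Q̄` for `τ ∈ I_A`, `Q̄` good;
* `exists_invariant_rep_of_hyp` : the descent from `NodalInstHyp I`, one good point, `RedHypN` of the
                              generic fibre;
* `exists_invariant_rep`    : the descent at every instance of Programme W's `GeoInput` (base `(4, 8)`).
The action on divisors is `arithmeticGalois (modularFunctionFieldFull (M' * p)) τ • D`
(the one of `NodalInstHyp.r_smul_inertia`; `τ • x = arithmeticGalois … τ • x` on `JZero` by `rfl`).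
-/
import Mathlib
import Fermat.Agent.ES.W33.GeoW23
import Fermat.Agent.ES.X44.DescentAbs4

set_option autoImplicit false
set_option linter.unusedSectionVars false
set_option synthInstance.maxHeartbeats 400000

noncomputable section

open AlgebraicCurve ModularCurve

namespace Fermat.Agent.ES.X44.DescentN4

open Fermat.Agent.X0 Fermat.Agent.X0.FF Fermat.Agent.RED.Interface4 Fermat.Agent.RED.BASE
  Fermat.Agent.RED.BASE.Hauptmodul12 Fermat.Agent.ES.RED Fermat.Agent.ES.RED.Contract8
  Fermat.Agent.ES.V19.InstNames3 Fermat.Agent.ES.V19.GammaF16 Fermat.Agent.ES.V19.XiEqvInst29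
  Fermat.Agent.ES.W33.XiIfaceN29 Fermat.Agent.ES.W33.GeoNames23 Fermat.Agent.ES.W33.GeoJoin23
  Fermat.Agent.ES.W33.GeoGeneric23 Fermat.Agent.ES.W33.GeoW23

attribute [local instance 5000] HahnSeries.powerSeriesAlgebra SubalgebraClass.toAlgebra

local notation "Qb" => AlgebraicClosure ℚ
local notation "GQ" => (AlgebraicClosure ℚ ≃ₐ[ℚ] AlgebraicClosure ℚ)

variable {p M' : ℕ} {A : ValuationSubring Qb} {I : NodalInst p M' A}

/-- **the centre of the disc of a good point is fixed by the inertia group.** -/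
theorem smul_centre (hI : NodalInstHyp I) {Q : SPtW M' A} (hQ : I.Good Q) {τ : GQ}
    (hτ : τ ∈ A.inertiaSubgroupIn ℚ) :
    arithmeticGalois (modularFunctionFieldFull (M' * p)) τ • I.centre Q = I.centre Q := by
  obtain ⟨f₀, -, hlev⟩ := hI.level Q hQ
  obtain ⟨hcoord', hdisc⟩ := hlev ⟨τ, inertia_le_gammaF f₀ hτ⟩
  have hcoord : arithmeticGalois (modularFunctionFieldFull (M' * p)) τ • I.coord Q = I.coord Q :=
    hcoord'
  have hdisc' : I.r (arithmeticGalois (modularFunctionFieldFull (M' * p)) τ • I.centre Q) =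
      Sum.inl Q := hdisc (I.centre Q) (hI.centre_red Q hQ)
  have h0 : (0 : Qb) ∈ A.nonunits := by
    rw [ValuationSubring.mem_nonunits_iff, map_zero]
    exact zero_lt_one
  obtain ⟨P, -, hP⟩ := hI.val_unique Q hQ 0 h0
  have e1 : I.centre Q = P := hP _ ⟨hI.centre_red Q hQ, by
    rw [map_zero, sub_zero]
    exact hI.centre_zero Q hQ⟩
  have e2 : arithmeticGalois (modularFunctionFieldFull (M' * p)) τ • I.centre Q = P :=
    hP _ ⟨hdisc', by
      rw [map_zero, sub_zero]
      have h := SemilinearAut.ord_smul (arithmeticGalois (modularFunctionFieldFull (M' * p)) τ)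
        (I.centre Q) (I.coord Q)
      rw [hcoord] at h
      rw [h]
      exact hI.centre_zero Q hQ⟩
  rw [e2, ← e1]

/-- **DESCENT at the nodal instance**, from `NodalInstHyp`, one good point and the hypotheses on the
generic fibre. -/
theorem exists_invariant_rep_of_hyp (hI : NodalInstHyp I) {Q : SPtW M' A} (hQ : I.Good Q)
    {g : ℕ} (HR : RedHypN (K := Qb) (F := FW p M') g) (S : Set GQ)
    (hS : S ⊆ A.inertiaSubgroupIn ℚ) (x : JZero (M' * p)) (hx : ∀ τ ∈ S, τ • x = x) :
    ∃ D : Divisor Qb (FW p M'), IsRep x D ∧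
      ∀ τ ∈ S, arithmeticGalois (modularFunctionFieldFull (M' * p)) τ • D = D := by
  obtain ⟨D, hD, hinv⟩ := Fermat.Agent.ES.X44.DescentAbs4.exists_invariant_rep HR.lhyp HR.riemann
    (arithmeticGalois (modularFunctionFieldFull (M' * p)) '' S) (I.centre Q)
    (by
      rintro _ ⟨τ, hτ, rfl⟩
      exact smul_centre hI hQ (hS hτ))
    x
    (by
      rintro _ ⟨τ, hτ, rfl⟩
      exact hx τ hτ)
  exact ⟨D, hD, fun τ hτ => hinv _ ⟨τ, hτ, rfl⟩⟩

/-- **DESCENT at every instance of Programme W's `GeoInput`** (Hauptmodul base `(4, 8)`). -/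
theorem exists_invariant_rep (M' : ℕ) [NeZero M'] (p : ℕ) [Fact p.Prime] (hpM : ¬ p ∣ M')
    (h4 : 4 ∣ M') (A : ValuationSubring Qb) (hA : A.LiesOverPrime p) {I : NodalInst p M' A}
    (hI : NodalInstHyp I) (S : Set GQ) (hS : S ⊆ A.inertiaSubgroupIn ℚ) (x : JZero (M' * p))
    (hx : ∀ τ ∈ S, τ • x = x) :
    ∃ D : Divisor Qb (FW p M'), IsRep x D ∧
      ∀ τ ∈ S, arithmeticGalois (modularFunctionFieldFull (M' * p)) τ • D = D := by
  have : NeZero 4 := ⟨by norm_num⟩
  have : IsAlgClosed (kW A) := Fermat.Agent.ES.KRON.KronInst10.isAlgClosed_residueField A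
  have hin := inputs0V 4 8 M' p hpM baseHyp_four h4 A hA
  have : Infinite (Place (kW A) (FtW M' A)) :=
    Fermat.Agent.ES.V19.GoodCofinite16.infinite_place hin.gent hin.sep
  have : NeZero (M' * p) := ⟨Nat.mul_ne_zero (NeZero.ne M') (Fact.out : p.Prime).ne_zero⟩
  have HR := redHypN_main 4 8 (M' * p) baseHyp_four (Dvd.dvd.mul_right h4 p)
  obtain ⟨Q, hQ⟩ := (goodOne_infinite hI).nonempty
  exact exists_invariant_rep_of_hyp hI (Q := Sum.inl Q) hQ HR S hS x hx

end Fermat.Agent.ES.X44.DescentN4
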