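/-
Programme X (S44), chapter (W1), leaf (SC-D), last clause (helper15): **THE CHART COORDINATE IS REGULAR ON
THE WHOLE DISC OF A SMOOTH POINT AT WHICH ITS REDUCTION IS REGULAR.**

Generic (`T : TwoChartsN A hx Ft₁ Ft₂ nn`, charts `S0` (coordinate `s`), `S1` (coordinate `s⁻¹`),
`s̃_i := ρ_i s` the two reductions of `s`):
* `inv_rho_not_mem_cSubring` : `χ s = 0`, `ρ s ≠ 0`, centre on the component ⇒ `(ρ s)⁻¹ ∉ cSubring χ ρ`;
* `inChart0_of_chi1_ne_zero` : a place of chart 1 at which `s⁻¹` has a unit value lies in chart 0;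
* **`inChart0_of_r₁`** : `T.r P = inl (inl Q)`, `s̃₁ ∈ O_Q` ⇒ `P` lies in chart 0;
  **`inChart1_of_r₁`** : `T.r P = inl (inl Q)`, `s̃₁ ∉ O_Q` ⇒ `P` lies in chart 1;
  `inChart0_of_r₂`, `inChart1_of_r₂` : the same for the second component.
Instance (`GeoLit12.IX`, base `(4, 8)`, `p ≠ 2`; `t = tN 4 8 …`, `(t̃₁, t̃₂) = redN t`):
* **`t_mem_of_r₁`**, **`t_inv_mem_of_r₁`**, **`t_mem_of_r₂`**, **`t_inv_mem_of_r₂`** :
  for EVERY place `P` of the disc of `Q` (`(IX …).r P = inl (inl Q)` resp. `inl (inr Q)`), `t` (resp. `t⁻¹`)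
  is regular at `P` with value in `A`, if `t̃_i ∈ O_Q` (resp. `t̃_i ∉ O_Q`).
-/
import Mathlib
import Fermat.Agent.ES.X44.GeoLit12
import Fermat.Agent.ES.W33.GeoLeaves23

set_option autoImplicit false
set_option linter.unusedSectionVars false
set_option linter.style.haveILetI false
set_option synthInstance.maxHeartbeats 400000

noncomputable section

open AlgebraicCurve ModularCurve

namespace Fermat.Agent.ES.X44.DiscReg15

open Fermat.Agent.RED.Interface4 Fermat.Agent.RED.BASE.Interface12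
  Fermat.Agent.RED.BASE.Hauptmodul12 Fermat.Agent.ES.RED.Contract8 Fermat.Agent.ES.RED.ModelInst4
  Fermat.Agent.ES.RED.PlaceValue13 Fermat.Agent.X0.FF
  Fermat.Agent.ES.W33.XiIfaceN29 Fermat.Agent.ES.W33.GeoNames23 Fermat.Agent.ES.W33.NodalDefs3
  Fermat.Agent.ES.W33.CentreN20 Fermat.Agent.ES.W33.NodalChart20 Fermat.Agent.ES.W33.TwoChartsN20
  Fermat.Agent.ES.W33.TwoChartsNInst20 Fermat.Agent.ES.W33.TwoChartsNRN20
  Fermat.Agent.ES.W33.NodalCtxRN20 Fermat.Agent.ES.W33.GeoInput23 Fermat.Agent.ES.W33.GeoLeaves23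
  Fermat.Agent.ES.X44.GeoLit12

attribute [local instance 5000] HahnSeries.powerSeriesAlgebra SubalgebraClass.toAlgebra

/-! ### the local ring of a component at a centre -/

section Centre

variable {k : Type*} [Field k] {B : Type*} [CommRing B] {Ft : Type*} [Field Ft]
  (χ : B →+* k) (ρ : B →+* Ft)

/-- if the centre `χ` lies on the component `ρ` and `s` vanishes at the centre, then `1 / ρ s` is not
in the local ring of the component at the centre. -/
theorem inv_rho_not_mem_cSubring (hC : ∀ b : B, ρ b = 0 → χ b = 0) {s : B} (hχs : χ s = 0)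
    (hρs : ρ s ≠ 0) : (ρ s)⁻¹ ∉ cSubring χ ρ := by
  rintro ⟨a, d, hd, h⟩
  apply hd
  have h1 : ρ (d - s * a) = 0 := by
    rw [map_sub, map_mul, ← h, ← mul_assoc, mul_inv_cancel₀ hρs, one_mul, sub_self]
  have h2 := hC _ h1
  rw [map_sub, map_mul, hχs, zero_mul, sub_zero] at h2
  exact h2

end Centre

/-! ### generic two-chart models -/

section TwoCharts

variable {L : Type*} [Field L] [IsAlgClosed L] {A : ValuationSubring L}
variable {F : Type*} [Field F] [Algebra L F] {x : F} {hx : IsGen L x}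
variable {Ft₁ Ft₂ : Type*} [Field Ft₁] [Algebra (kA A) Ft₁] [Field Ft₂] [Algebra (kA A) Ft₂]
variable {nn : ℕ} (T : TwoChartsN A hx Ft₁ Ft₂ nn)

/-- a place of chart 1 at which `s⁻¹` has a unit value lies in chart 0. -/
theorem inChart0_of_chi1_ne_zero (P : Place L F) (h1 : T.S1.InChart P)
    (h : T.S1.chi P h1 T.S1.sB ≠ 0) : T.S0.InChart P := by
  obtain ⟨hinvA, hne⟩ := (chi_ne_zero_iff T.S1 P h1 T.S1.sB).1 h
  obtain ⟨hinv, hval⟩ := Fermat.Agent.ES.RED.TwoCharts8.TwoCharts.inv_mem_and_value (hx := hx)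
    (T.S1.mem_place P h1 _ T.S1.sB.2) hne
  have e : T.S0.s = ((T.S1.sB : ↥T.S1.B) : F)⁻¹ := by
    show T.S0.s = (T.S1.s)⁻¹
    rw [T.s_inv, inv_inv]
  have hmem : T.S0.s ∈ P.toValuationSubring := by
    rw [e]
    exact hinv
  refine ⟨hmem, ?_⟩
  have h2 : (⟨T.S0.s, hmem⟩ : ↥P.toValuationSubring) = ⟨((T.S1.sB : ↥T.S1.B) : F)⁻¹, hinv⟩ :=
    Subtype.ext e
  rw [h2, hval]
  exact hinvA

/-- **first component, `s̃₁` regular at `Q`**: the whole disc of `Q` lies in chart 0. -/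
theorem inChart0_of_r₁ {P : Place L F} {Q : Place (kA A) Ft₁}
    (hr : T.r P = Sum.inl (Sum.inl Q)) (hQ : T.S0.ρ₁ T.S0.sB ∈ Q.toValuationSubring) :
    T.S0.InChart P := by
  rcases (T.r_eq_inl_inl_iff P Q).1 hr with ⟨h0, -⟩ | ⟨h1, hon, -, hmem⟩
  · exact h0
  · by_contra h0
    have hχ : T.S1.chi P h1 T.S1.sB = 0 := by
      by_contra hne
      exact h0 (inChart0_of_chi1_ne_zero T P h1 hne)
    have hy : T.S0.ρ₁ T.S0.sB = (T.S1.ρ₁ T.S1.sB)⁻¹ := by rw [T.ρ₁_s1_eq, inv_inv]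
    rw [hy] at hQ
    exact inv_rho_not_mem_cSubring _ _ hon hχ T.ρ₁_s1_ne_zero ((hmem _).1 hQ)

/-- **first component, `s̃₁` not regular at `Q`**: the whole disc of `Q` lies in chart 1. -/
theorem inChart1_of_r₁ {P : Place L F} {Q : Place (kA A) Ft₁}
    (hr : T.r P = Sum.inl (Sum.inl Q)) (hQ : T.S0.ρ₁ T.S0.sB ∉ Q.toValuationSubring) :
    T.S1.InChart P := by
  rcases (T.r_eq_inl_inl_iff P Q).1 hr with ⟨h0, -, -, hmem⟩ | ⟨h1, -⟩
  · exact absurd ((hmem _).2 (rho_mem_cSubring _ _ _)) hQ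
  · exact h1

/-- **second component, `s̃₂` regular at `Q`**: the whole disc of `Q` lies in chart 0. -/
theorem inChart0_of_r₂ {P : Place L F} {Q : Place (kA A) Ft₂}
    (hr : T.r P = Sum.inl (Sum.inr Q)) (hQ : T.S0.ρ₂ T.S0.sB ∈ Q.toValuationSubring) :
    T.S0.InChart P := by
  rcases (T.r_eq_inl_inr_iff P Q).1 hr with ⟨h0, -⟩ | ⟨h1, hon, -, hmem⟩
  · exact h0
  · by_contra h0
    have hχ : T.S1.chi P h1 T.S1.sB = 0 := by
      by_contra hne
      exact h0 (inChart0_of_chi1_ne_zero T P h1 hne)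
    have hy : T.S0.ρ₂ T.S0.sB = (T.S1.ρ₂ T.S1.sB)⁻¹ := by rw [T.ρ₂_s1_eq, inv_inv]
    rw [hy] at hQ
    exact inv_rho_not_mem_cSubring _ _ hon hχ T.ρ₂_s1_ne_zero ((hmem _).1 hQ)

/-- **second component, `s̃₂` not regular at `Q`**: the whole disc of `Q` lies in chart 1. -/
theorem inChart1_of_r₂ {P : Place L F} {Q : Place (kA A) Ft₂}
    (hr : T.r P = Sum.inl (Sum.inr Q)) (hQ : T.S0.ρ₂ T.S0.sB ∉ Q.toValuationSubring) :
    T.S1.InChart P := by
  rcases (T.r_eq_inl_inr_iff P Q).1 hr with ⟨h0, -, -, hmem⟩ | ⟨h1, -⟩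
  · exact absurd ((hmem _).2 (rho_mem_cSubring _ _ _)) hQ
  · exact h1

end TwoCharts

/-! ### THE instance -/

section Inst

variable (M' : ℕ) [NeZero M'] (p : ℕ) [Fact p.Prime] (hpM : ¬ p ∣ M') (h4M : 4 ∣ M')
  (A : ValuationSubring (AlgebraicClosure ℚ)) (hA : A.LiesOverPrime p)

/-- **component 1, `t̃₁` regular at `Q`**: `t` is regular with value in `A` on the disc of `Q`. -/
theorem t_mem_of_r₁ (hp2 : p ≠ 2)
    (htG : haveI := neZero_four; tN 4 8 M' p baseHyp_four h4M ∈ GN M' p A)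
    {Q : Place (kW A) (FtW M' A)}
    (hQ : (redN M' p A ⟨_, htG⟩).1 ∈ Q.toValuationSubring)
    (P : Place (AlgebraicClosure ℚ) (FW p M'))
    (hP : (IX M' p hpM h4M A hA).r P = Sum.inl (Sum.inl Q)) :
    haveI := neZero_four
    ∃ hs : tN 4 8 M' p baseHyp_four h4M ∈ P.toValuationSubring,
      valueHom (hxN 4 8 M' p baseHyp_four h4M) P ⟨_, hs⟩ ∈ A := by
  haveI := neZero_four
  have HR := rnLeaves M' p hpM h4M A hA hp2
  have hP' : (TR HR.placeLeaves HR.R).r P = Sum.inl (Sum.inl Q) :=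
    (TR_r HR.placeLeaves HR.R P).trans hP
  exact inChart0_of_r₁ (TR HR.placeLeaves HR.R) hP' hQ

/-- **component 1, `t̃₁` not regular at `Q`**: `t⁻¹` is regular with value in `A` on the disc of
`Q`. -/
theorem t_inv_mem_of_r₁ (hp2 : p ≠ 2)
    (htG : haveI := neZero_four; tN 4 8 M' p baseHyp_four h4M ∈ GN M' p A)
    {Q : Place (kW A) (FtW M' A)}
    (hQ : (redN M' p A ⟨_, htG⟩).1 ∉ Q.toValuationSubring)
    (P : Place (AlgebraicClosure ℚ) (FW p M'))
    (hP : (IX M' p hpM h4M A hA).r P = Sum.inl (Sum.inl Q)) :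
    haveI := neZero_four
    ∃ hs : (tN 4 8 M' p baseHyp_four h4M)⁻¹ ∈ P.toValuationSubring,
      valueHom (hxN 4 8 M' p baseHyp_four h4M) P ⟨_, hs⟩ ∈ A := by
  haveI := neZero_four
  have HR := rnLeaves M' p hpM h4M A hA hp2
  have hP' : (TR HR.placeLeaves HR.R).r P = Sum.inl (Sum.inl Q) :=
    (TR_r HR.placeLeaves HR.R P).trans hP
  exact inChart1_of_r₁ (TR HR.placeLeaves HR.R) hP' hQ

/-- **component 2, `t̃₂` regular at `Q`**: `t` is regular with value in `A` on the disc of `Q`. -/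
theorem t_mem_of_r₂ (hp2 : p ≠ 2)
    (htG : haveI := neZero_four; tN 4 8 M' p baseHyp_four h4M ∈ GN M' p A)
    {Q : Place (kW A) (FtW M' A)}
    (hQ : (redN M' p A ⟨_, htG⟩).2 ∈ Q.toValuationSubring)
    (P : Place (AlgebraicClosure ℚ) (FW p M'))
    (hP : (IX M' p hpM h4M A hA).r P = Sum.inl (Sum.inr Q)) :
    haveI := neZero_four
    ∃ hs : tN 4 8 M' p baseHyp_four h4M ∈ P.toValuationSubring,
      valueHom (hxN 4 8 M' p baseHyp_four h4M) P ⟨_, hs⟩ ∈ A := by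
  haveI := neZero_four
  have HR := rnLeaves M' p hpM h4M A hA hp2
  have hP' : (TR HR.placeLeaves HR.R).r P = Sum.inl (Sum.inr Q) :=
    (TR_r HR.placeLeaves HR.R P).trans hP
  exact inChart0_of_r₂ (TR HR.placeLeaves HR.R) hP' hQ

/-- **component 2, `t̃₂` not regular at `Q`**: `t⁻¹` is regular with value in `A` on the disc of
`Q`. -/
theorem t_inv_mem_of_r₂ (hp2 : p ≠ 2)
    (htG : haveI := neZero_four; tN 4 8 M' p baseHyp_four h4M ∈ GN M' p A)
    {Q : Place (kW A) (FtW M' A)}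
    (hQ : (redN M' p A ⟨_, htG⟩).2 ∉ Q.toValuationSubring)
    (P : Place (AlgebraicClosure ℚ) (FW p M'))
    (hP : (IX M' p hpM h4M A hA).r P = Sum.inl (Sum.inr Q)) :
    haveI := neZero_four
    ∃ hs : (tN 4 8 M' p baseHyp_four h4M)⁻¹ ∈ P.toValuationSubring,
      valueHom (hxN 4 8 M' p baseHyp_four h4M) P ⟨_, hs⟩ ∈ A := by
  haveI := neZero_four
  have HR := rnLeaves M' p hpM h4M A hA hp2
  have hP' : (TR HR.placeLeaves HR.R).r P = Sum.inl (Sum.inr Q) :=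
    (TR_r HR.placeLeaves HR.R P).trans hP
  exact inChart1_of_r₂ (TR HR.placeLeaves HR.R) hP' hQ

end Inst

end Fermat.Agent.ES.X44.DiscReg15
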