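/-
Programme X (S44), chapter (QP), helper26: **the differential interface of (QP)** — what the leaves
L3 (`RegRed`), L4 (`LiftReg`), K3 (`RegDimLe`), A (`DlogReg`) consume about Kähler differentials of a
function field `E / K` (Prelude vocabulary: `Place`, `dCoord`, `DCoordGenerates`,
`differentialCoeff`, `ordDifferential`), in ANY characteristic.

* `KaehlerHyp K E x` : `Ω[E⁄K] = E · dx`, `dx ≠ 0`, every place has a generating coordinate
  differential, `d a` is regular at `v` for `a ∈ O_v`, and `d a ≠ 0` has order `0` at `v` for a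
  uniformiser `a` at `v`.  (Leaf K1 proves it for the special fibre `Ft / k̄` with `x = t̃`.)
* `kaehlerHyp_of_isGen` : it holds in characteristic zero for `IsGen K x` (main's `X0/FFDiff`).
* consequences: `nontrivial`, `differentialCoeff_ne_zero`, `ordDifferential_smul`,
  `exists_eq_smul`, `ordDifferential_add_nonneg`;
* `regSpace hK : Submodule K E` : the `φ` with `φ • dx` regular at every place.
-/
import Mathlib
import Fermat.Prelude.Def_ModularCurve_CanonicalDivisor
import Fermat.Agent.X0.FFDiff
import Fermat.Agent.X0.FFDict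

set_option autoImplicit false

open AlgebraicCurve KaehlerDifferential

namespace Fermat.Agent.ES.X44.KaehlerLit26

open Fermat.Agent.X0.FF

variable {K E : Type*} [Field K] [Field E] [Algebra K E]

/-- The differential interface of (QP) for the function field `E / K` and the generator `x`. -/
structure KaehlerHyp (K E : Type*) [Field K] [Field E] [Algebra K E] (x : E) : Prop where
  span_D : Submodule.span E {D K E x} = ⊤
  D_ne_zero : D K E x ≠ 0
  gen : ∀ v : Place K E, v.DCoordGenerates
  ord_D_nonneg : ∀ (v : Place K E) (a : E), a ∈ v.toValuationSubring →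
    0 ≤ v.ordDifferential (D K E a)
  ord_D_unif : ∀ (v : Place K E) (a : E), v.ord a = 1 →
    D K E a ≠ 0 ∧ v.ordDifferential (D K E a) = 0

/-- Characteristic zero: main's `X0/FFDiff`. -/
theorem kaehlerHyp_of_isGen [IsAlgClosed K] [CharZero K] {x : E} (hx : IsGen K x) :
    KaehlerHyp K E x where
  span_D := span_D_eq_top hx
  D_ne_zero := Fermat.Agent.X0.FF.D_ne_zero hx
  gen := dCoordGenerates hx
  ord_D_nonneg := fun v a ha =>
    ord_differentialCoeff_D_nonneg hx v (ord_nonneg_of_mem v ha)
  ord_D_unif := fun v a ha => by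
    have h1 : v.ord a ≠ 0 := by rw [ha]; exact one_ne_zero
    have h2 := ordDifferential_D_of_ord_ne_zero hx v h1
    rw [ha, sub_self] at h2
    refine ⟨fun h0 => ?_, h2⟩
    -- `D a = 0` would give `ordDifferential (D a) = ord 0`, fine, so argue through `Hurwitz`
    have hgen := dCoordGenerates hx v
    have hnt := nontrivial_kaehler hx
    -- `a` is transcendental, hence `D a ≠ 0`
    have htr : Transcendental K a :=
      ffp_transcendental_of_ord_ne_zero v h1
    have halg : Algebra.IsAlgebraic (IntermediateField.adjoin K {a}) E :=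
      ffx_isAlgebraic_of_transcendental x a (ffg_isAlgebraic hx) htr
    exact ffd_D_ne_zero a htr halg h0

variable {x : E} (hK : KaehlerHyp K E x)

include hK

theorem KaehlerHyp.nontrivial : Nontrivial Ω[E⁄K] := ⟨⟨D K E x, 0, hK.D_ne_zero⟩⟩

/-- every differential is a multiple of `dx`. -/
theorem KaehlerHyp.exists_eq_smul (ω : Ω[E⁄K]) : ∃ c : E, ω = c • D K E x := by
  have hω : ω ∈ (⊤ : Submodule E Ω[E⁄K]) := Submodule.mem_top
  rw [← hK.span_D, Submodule.mem_span_singleton] at hω
  exact hω.imp fun _ h => h.symm

theorem KaehlerHyp.differentialCoeff_ne_zero (v : Place K E) {ω : Ω[E⁄K]} (hω : ω ≠ 0) :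
    v.differentialCoeff ω ≠ 0 := by
  have := hK.gen v
  intro h
  apply hω
  rw [← v.differentialCoeff_smul_dCoord ω, h, zero_smul]

theorem KaehlerHyp.ordDifferential_smul (v : Place K E) {g : E} (hg : g ≠ 0) {ω : Ω[E⁄K]}
    (hω : ω ≠ 0) : v.ordDifferential (g • ω) = v.ord g + v.ordDifferential ω := by
  have := hK.gen v
  have := hK.nontrivial
  exact v.ordDifferential_smul hg (hK.differentialCoeff_ne_zero v hω)

theorem KaehlerHyp.differentialCoeff_add (v : Place K E) (ω ω' : Ω[E⁄K]) :
    v.differentialCoeff (ω + ω') = v.differentialCoeff ω + v.differentialCoeff ω' := by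
  have := hK.gen v
  have := hK.nontrivial
  apply v.differentialCoeff_unique
  rw [add_smul, v.differentialCoeff_smul_dCoord, v.differentialCoeff_smul_dCoord]

/-- a sum of two differentials regular at `v` is regular at `v`. -/
theorem KaehlerHyp.ordDifferential_add_nonneg (v : Place K E) {ω ω' : Ω[E⁄K]}
    (h : 0 ≤ v.ordDifferential ω) (h' : 0 ≤ v.ordDifferential ω') :
    0 ≤ v.ordDifferential (ω + ω') := by
  unfold Place.ordDifferential at h h' ⊢
  rw [hK.differentialCoeff_add]
  by_cases h0 : v.differentialCoeff ω + v.differentialCoeff ω' = 0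
  · rw [h0, Place.ord_zero]
  · exact le_trans (le_min h h') (ord_add_ge v h0)

/-- a constant multiple of a differential regular at `v` is regular at `v`. -/
theorem KaehlerHyp.ordDifferential_smul_const_nonneg (v : Place K E) (c : K) {ω : Ω[E⁄K]}
    (h : 0 ≤ v.ordDifferential ω) : 0 ≤ v.ordDifferential (c • ω) := by
  have := hK.gen v
  have := hK.nontrivial
  by_cases hc : c = 0
  · rw [hc, zero_smul]
    unfold Place.ordDifferential
    rw [v.differentialCoeff_zero, Place.ord_zero]
  by_cases hω : ω = 0
  · rw [hω, smul_zero]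
    unfold Place.ordDifferential
    rw [v.differentialCoeff_zero, Place.ord_zero]
  have hcE : algebraMap K E c ≠ 0 :=
    fun h0 => hc ((algebraMap K E).injective (by rw [h0, map_zero]))
  have : c • ω = algebraMap K E c • ω := (algebraMap_smul E c ω).symm
  rw [this, hK.ordDifferential_smul v hcE hω, ord_algebraMap, zero_add]
  exact h

/-- **The space of `φ` with `φ • dx` regular at every place.** -/
def regSpace : Submodule K E where
  carrier := {φ | ∀ v : Place K E, 0 ≤ v.ordDifferential (φ • D K E x)}
  zero_mem' := by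
    intro v
    have := hK.gen v
    have := hK.nontrivial
    show 0 ≤ v.ordDifferential ((0 : E) • D K E x)
    rw [zero_smul]
    unfold Place.ordDifferential
    rw [v.differentialCoeff_zero, Place.ord_zero]
  add_mem' := by
    intro φ ψ hφ hψ v
    show 0 ≤ v.ordDifferential ((φ + ψ) • D K E x)
    rw [add_smul]
    exact hK.ordDifferential_add_nonneg v (hφ v) (hψ v)
  smul_mem' := by
    intro c φ hφ v
    show 0 ≤ v.ordDifferential ((c • φ) • D K E x)
    rw [smul_assoc]
    exact hK.ordDifferential_smul_const_nonneg v c (hφ v)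

theorem mem_regSpace {φ : E} :
    φ ∈ regSpace hK ↔ ∀ v : Place K E, 0 ≤ v.ordDifferential (φ • D K E x) := Iff.rfl

end Fermat.Agent.ES.X44.KaehlerLit26
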