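/-
Programme X (S44), chapter (QP), leaf A (helper10): **a logarithmic differential `dG/G` with `p ∣ ord_Q G`
at every place is a regular differential, in characteristic `p`**, and its `q`-expansion.

ABSTRACT PART (any function field `E / K` of characteristic `p` with the differential interface
`KaehlerLit26.KaehlerHyp K E x`):
* `D_pow_char` : `d (y ^ p) = 0`;
* `ordDifferential_dlog_nonneg` : `p ∣ ord_v G` ⇒ `G⁻¹ • dG` is regular at `v`
  (`G = y ^ p * u` with `ord_v u = 0`, so `G⁻¹ • dG = u⁻¹ • du`);
* `exists_regSpace_dlog` : `∃ φ ∈ regSpace hK, G⁻¹ • dG = φ • dx`.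
LAURENT PART (`S` an intermediate field of `LaurentSeries k`, i.e. a function field given by `q`-expansions):
* `thetaDer S : Derivation k S (LaurentSeries k)`, `f ↦ theta f` (`theta = q d/dq`, main's `IG/PR/Theta20`);
* `theta_eq_of_D_eq` : `dg = c • dx` ⇒ `theta g = c * theta x`;
* `dlogQ_coeff_eq_zero_of_dvd_order` : `p ∣ order G` ⇒ `dlogQ G = theta G / G` has no coefficients in degrees `≤ 0`;
* `dvd_order_of_forall_dvd_ord` : `p ∣ ord_Q G` at the place of the `q`-expansion ⇒ `p ∣ order G`.
EXIT (leaf A of (QP), at `S = modularFunctionFieldFullC k M`, `k` of characteristic `p`):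
* `dlogReg` : for `G ≠ 0` with `p ∣ ord_Q G` everywhere: `∃ φ ∈ regSpace hK, φ * theta x = dlogQ G`, and
  `(dlogQ G).coeff n = 0` for `n ≤ 0`;
* `dlogReg_FtQ` : the same in the vocabulary of `EigQLit9` (`FtQ M A`, `IsRegDlog p M A G`).
-/
import Mathlib
import Fermat.Agent.ES.X44.KaehlerLit26
import Fermat.Agent.ES.X44.EigQLit9
import Fermat.Agent.X0.LaurentPlace
import Fermat.Agent.ES.KRON.KronInst10

set_option autoImplicit false
set_option linter.unusedSectionVars false

open AlgebraicCurve KaehlerDifferential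

namespace Fermat.Agent.ES.X44.DlogReg10

open Fermat.Agent.X0.FF Fermat.Agent.ES.X44.KaehlerLit26
open Fermat.Agent.IG.PR.Theta20 (theta theta_mul theta_one theta_coeff theta_C)
open Fermat.Agent.ES.X44.EigQLit9 (dlogQ)

/-! ### Abstract part -/

section Abstract

variable {K E : Type*} [Field K] [Field E] [Algebra K E]

/-- In characteristic `p`, `d (y ^ p) = 0`. -/
theorem D_pow_char (p : ℕ) [CharP E p] (y : E) : D K E (y ^ p) = 0 := by
  rw [Derivation.leibniz_pow, ← Nat.cast_smul_eq_nsmul E, CharP.cast_eq_zero, zero_smul]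

variable {x : E} (hK : KaehlerHyp K E x)

include hK

/-- the zero differential is regular. -/
theorem ordDifferential_zero_nonneg (v : Place K E) : 0 ≤ v.ordDifferential (0 : Ω[E⁄K]) := by
  have := hK.gen v
  have := hK.nontrivial
  unfold Place.ordDifferential
  rw [v.differentialCoeff_zero, Place.ord_zero]

/-- **`dG/G` is regular at `v` when `p ∣ ord_v G`** (characteristic `p`). -/
theorem ordDifferential_dlog_nonneg (p : ℕ) [Fact p.Prime] [CharP E p] (v : Place K E) {G : E}
    (hG : G ≠ 0) (hdvd : (p : ℤ) ∣ v.ord G) : 0 ≤ v.ordDifferential (G⁻¹ • D K E G) := by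
  obtain ⟨m, hm⟩ := hdvd
  obtain ⟨ϖ, hϖ0, hϖ⟩ := Fermat.Agent.X0.LaurentPlace.exists_ord_eq_one v
  -- `y = ϖ ^ m`, `G = y ^ p * u`
  set y : E := ϖ ^ m with hy
  have hy0 : y ≠ 0 := zpow_ne_zero m hϖ0
  have hyp0 : y ^ p ≠ 0 := pow_ne_zero p hy0
  set u : E := G * (y ^ p)⁻¹ with hu
  have hu0 : u ≠ 0 := mul_ne_zero hG (inv_ne_zero hyp0)
  have hGu : G = y ^ p * u := by
    rw [hu, mul_comm G, ← mul_assoc, mul_inv_cancel₀ hyp0, one_mul]
  have hordy : v.ord (y ^ p) = v.ord G := by
    rw [ord_pow, hy, Place.ord_zpow, hϖ, mul_one, hm]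
  have hordu : v.ord u = 0 := by
    rw [hu, v.ord_mul hG (inv_ne_zero hyp0), Place.ord_inv, hordy, add_neg_cancel]
  have huO : u ∈ v.toValuationSubring := mem_of_ord_nonneg v (by rw [hordu])
  -- `dG = y ^ p • du`
  have hDG : D K E G = (y ^ p) • D K E u := by
    conv_lhs => rw [hGu]
    rw [Derivation.leibniz, D_pow_char p y, smul_zero, add_zero]
  have hdlog : G⁻¹ • D K E G = u⁻¹ • D K E u := by
    rw [hDG, smul_smul]
    congr 1
    rw [hGu, mul_inv, mul_assoc, mul_comm u⁻¹, ← mul_assoc, inv_mul_cancel₀ hyp0, one_mul]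
  rw [hdlog]
  by_cases hDu : D K E u = 0
  · rw [hDu, smul_zero]
    exact ordDifferential_zero_nonneg hK v
  · rw [hK.ordDifferential_smul v (inv_ne_zero hu0) hDu, Place.ord_inv, hordu, neg_zero, zero_add]
    exact hK.ord_D_nonneg v u huO

/-- **the coefficient of `dG/G` against `dx` lies in `regSpace`.** -/
theorem exists_regSpace_dlog (p : ℕ) [Fact p.Prime] [CharP E p] {G : E} (hG : G ≠ 0)
    (hdvd : ∀ v : Place K E, (p : ℤ) ∣ v.ord G) :
    ∃ φ ∈ regSpace hK, G⁻¹ • D K E G = φ • D K E x := by
  obtain ⟨φ, hφ⟩ := hK.exists_eq_smul (G⁻¹ • D K E G)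
  refine ⟨φ, fun v => ?_, hφ⟩
  rw [← hφ]
  exact ordDifferential_dlog_nonneg hK p v hG (hdvd v)

end Abstract

/-! ### Laurent part: the derivation `theta` on a field of `q`-expansions -/

section Laurent

set_option synthInstance.maxHeartbeats 400000

variable {k : Type*} [Field k]

/-- constants of `LaurentSeries k` (for the algebra structure used by `IntermediateField k (LaurentSeries k)`). -/
theorem algebraMap_eq_C (c : k) : algebraMap k (LaurentSeries k) c = HahnSeries.C c := by
  have h1 : algebraMap k (PowerSeries k) c = PowerSeries.C c := by simp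
  rw [HahnSeries.algebraMap_apply', h1, HahnSeries.ofPowerSeries_C]

/-- multiplication by a constant is the coefficientwise scalar multiplication. -/
theorem algebraMap_mul_eq_smul (c : k) (z : LaurentSeries k) :
    algebraMap k (LaurentSeries k) c * z = c • z := by
  rw [algebraMap_eq_C, HahnSeries.C_mul_eq_smul]

variable (S : IntermediateField k (LaurentSeries k))

/-- the scalar tower `k → S → LaurentSeries k` for the COEFFICIENTWISE `k`-module structure of
`LaurentSeries k` (the one found by instance search; Mathlib's two `k`-actions on `LaurentSeries k` are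
equal but not definitionally). -/
theorem isScalarTower_laurent : IsScalarTower k ↥S (LaurentSeries k) :=
  ⟨fun c s z => by
    rw [Algebra.smul_def c s, Algebra.smul_def (_ * s) z, map_mul, Algebra.smul_def s z, mul_assoc,
      ← IsScalarTower.algebraMap_apply, algebraMap_mul_eq_smul]⟩

/-- `theta = q d/dq` restricted to a field of `q`-expansions, as a `k`-derivation with values in all
Laurent series. -/
noncomputable def thetaDer : Derivation k S (LaurentSeries k) where
  toFun f := theta (f : LaurentSeries k)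
  map_add' f g := by
    show theta (((f + g : S) : LaurentSeries k)) = _
    rw [IntermediateField.coe_add, map_add]
  map_smul' c f := by
    show theta (((c • f : S) : LaurentSeries k)) = c • theta (f : LaurentSeries k)
    rw [IntermediateField.coe_smul, Algebra.smul_def, theta_mul, algebraMap_eq_C, theta_C,
      zero_mul, zero_add, HahnSeries.C_mul_eq_smul]
  map_one_eq_zero' := by
    show theta (((1 : S) : LaurentSeries k)) = 0
    rw [IntermediateField.coe_one, theta_one]
  leibniz' a b := by
    show theta (((a * b : S) : LaurentSeries k)) =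
      a • theta (b : LaurentSeries k) + b • theta (a : LaurentSeries k)
    rw [IntermediateField.coe_mul, theta_mul, Algebra.smul_def, Algebra.smul_def,
      IntermediateField.algebraMap_apply, IntermediateField.algebraMap_apply]
    ring

@[simp]
theorem thetaDer_apply (f : S) : thetaDer S f = theta (f : LaurentSeries k) := rfl

/-- **the `theta`-chain rule**: `dg = c • dx` in `Ω[S⁄k]` gives `theta g = c * theta x`. -/
theorem theta_eq_of_D_eq {g x c : S} (h : D k S g = c • D k S x) :
    theta (g : LaurentSeries k) = (c : LaurentSeries k) * theta (x : LaurentSeries k) := by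
  have := isScalarTower_laurent S
  have h1 := congrArg (thetaDer S).liftKaehlerDifferential h
  rw [map_smul, Derivation.liftKaehlerDifferential_comp_D,
    Derivation.liftKaehlerDifferential_comp_D, thetaDer_apply, thetaDer_apply, Algebra.smul_def,
    IntermediateField.algebraMap_apply] at h1
  exact h1

/-- `dG/G = φ • dx` gives `φ * theta x = dlogQ G` on `q`-expansions. -/
theorem mul_theta_eq_dlogQ {G x φ : S} (hG : G ≠ 0) (h : G⁻¹ • D k S G = φ • D k S x) :
    (φ : LaurentSeries k) * theta (x : LaurentSeries k) = dlogQ (G : LaurentSeries k) := by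
  have h1 : D k S G = (G * φ) • D k S x := by
    rw [mul_smul, ← h, smul_smul, mul_inv_cancel₀ hG, one_smul]
  have h2 := theta_eq_of_D_eq S h1
  have hG' : (G : LaurentSeries k) ≠ 0 := fun h0 => hG (Subtype.ext h0)
  unfold dlogQ
  rw [h2, IntermediateField.coe_mul]
  field_simp

end Laurent

/-! ### The coefficients of `dlogQ G` in degrees `≤ 0` -/

section Coeff

variable {k : Type*} [Field k]

/-- the order of the inverse of a Laurent series. -/
theorem order_inv' {G : LaurentSeries k} (hG : G ≠ 0) : (G⁻¹).order = -G.order := by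
  have h1 : G * G⁻¹ = 1 := mul_inv_cancel₀ hG
  have h2 := HahnSeries.order_mul hG (inv_ne_zero hG)
  rw [h1, HahnSeries.order_one] at h2
  omega

/-- **`p ∣ order G` ⇒ `theta G / G` has no coefficients in degrees `≤ 0`** (characteristic `p`). -/
theorem dlogQ_coeff_eq_zero_of_dvd_order (p : ℕ) [CharP k p] {G : LaurentSeries k} (hG : G ≠ 0)
    (hdvd : (p : ℤ) ∣ G.order) (n : ℤ) (hn : n ≤ 0) : (dlogQ G).coeff n = 0 := by
  unfold dlogQ
  -- the coefficients of `theta G` vanish up to the order of `G`
  have hlow : ∀ i : ℤ, i ≤ G.order → (theta G).coeff i = 0 := by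
    intro i hi
    rw [theta_coeff]
    rcases lt_or_eq_of_le hi with h | h
    · rw [HahnSeries.coeff_eq_zero_of_lt_order h, mul_zero]
    · have : ((i : ℤ) : k) = 0 := by
        rw [h]; exact (CharP.intCast_eq_zero_iff k p _).mpr hdvd
      rw [this, zero_mul]
  by_cases hθ : theta G = 0
  · rw [hθ, zero_mul, HahnSeries.coeff_zero]
  · have h1 : G.order < (theta G).order := by
      by_contra hle
      rw [not_lt] at hle
      exact hθ (HahnSeries.coeff_order_eq_zero.mp (hlow _ hle))
    apply HahnSeries.coeff_eq_zero_of_lt_order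
    rw [HahnSeries.order_mul hθ (inv_ne_zero hG), order_inv' hG]
    omega

end Coeff

/-! ### Exit: the function field `modularFunctionFieldFullC k M` of `q`-expansions -/

section Exit

open ModularCurve

set_option synthInstance.maxHeartbeats 400000

variable {k : Type*} [Field k] (M : ℕ) [NeZero M]

/-- the order of the formal `j`. -/
theorem order_jqModC' : (jqModC k).order = -1 := by
  have hne : jqModC k ≠ 0 := jqModC_ne_zero_of_nontrivial k
  apply le_antisymm
  · exact HahnSeries.order_le_of_coeff_ne_zero (by rw [coeff_jqModC_neg_one]; exact one_ne_zero)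
  · by_contra hlt
    rw [not_le] at hlt
    exact (HahnSeries.coeff_order_eq_zero.not.2 hne) (coeff_jqModC_of_lt k hlt)

/-- **`p ∣ ord_Q G` at the place of the `q`-expansion gives `p ∣ order G`.** -/
theorem dvd_order_of_forall_dvd_ord (p : ℕ) {G : ↥(modularFunctionFieldFullC k M)} (hG : G ≠ 0)
    (hdvd : ∀ Q : Place k ↥(modularFunctionFieldFullC k M), (p : ℤ) ∣ Q.ord G) :
    (p : ℤ) ∣ (G : LaurentSeries k).order := by
  have hτ : ∀ c : k, (modularFunctionFieldFullC k M).val.toRingHom
      (algebraMap k ↥(modularFunctionFieldFullC k M) c) = HahnSeries.C c := fun c => algebraMap_eq_C c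
  have hnt : ∃ f : ↥(modularFunctionFieldFullC k M), f ≠ 0 ∧
      ((modularFunctionFieldFullC k M).val.toRingHom f).order ≠ 0 := by
    refine ⟨⟨jqModC k, jqModC_mem_full k M⟩, fun h0 => ?_, ?_⟩
    · exact jqModC_ne_zero_of_nontrivial k (congrArg Subtype.val h0)
    · show (jqModC k).order ≠ 0
      rw [order_jqModC']
      norm_num
  obtain ⟨m, -, hm⟩ := Fermat.Agent.X0.LaurentPlace.embPlace_spec _ hτ hnt
  have h1 := hm G hG
  have h2 : ((modularFunctionFieldFullC k M).val.toRingHom G) = (G : LaurentSeries k) := rfl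
  rw [h2] at h1
  rw [h1]
  exact Dvd.dvd.mul_left (hdvd _) _

/-- **Leaf A of (QP), general residue field.**  `k` of characteristic `p`, `x` with the differential interface,
`G ≠ 0` with `p ∣ ord_Q G` at every place: `dG/G = φ • dx` with `φ ∈ regSpace`, `φ * theta x = dlogQ G` on
`q`-expansions, and `dlogQ G` has no coefficients in degrees `≤ 0`. -/
theorem dlogReg (p : ℕ) [Fact p.Prime] [CharP k p] {x : ↥(modularFunctionFieldFullC k M)}
    (hK : KaehlerHyp k ↥(modularFunctionFieldFullC k M) x) (G : ↥(modularFunctionFieldFullC k M))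
    (hG : G ≠ 0) (hdvd : ∀ Q : Place k ↥(modularFunctionFieldFullC k M), (p : ℤ) ∣ Q.ord G) :
    (∃ φ ∈ regSpace hK,
      (φ : LaurentSeries k) * theta (x : LaurentSeries k) = dlogQ (G : LaurentSeries k)) ∧
    ∀ n : ℤ, n ≤ 0 → (dlogQ (G : LaurentSeries k)).coeff n = 0 := by
  have hchar : CharP ↥(modularFunctionFieldFullC k M) p :=
    charP_of_injective_algebraMap (algebraMap k ↥(modularFunctionFieldFullC k M)).injective p
  refine ⟨?_, ?_⟩
  · obtain ⟨φ, hφ, h⟩ := exists_regSpace_dlog hK p hG hdvd
    exact ⟨φ, hφ, mul_theta_eq_dlogQ _ hG h⟩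
  · have hG' : (G : LaurentSeries k) ≠ 0 := fun h0 => hG (Subtype.ext h0)
    exact dlogQ_coeff_eq_zero_of_dvd_order p hG' (dvd_order_of_forall_dvd_ord M p hG hdvd)

/-- **Leaf A of (QP) in the vocabulary of `EigQLit9`**: `A` a valuation subring of `ℚ̄` over `p`, `xt : FtQ M A`
with the differential interface (leaf K1 at `xt = t̃`), `G ≠ 0` with `IsRegDlog p M A G`. -/
theorem dlogReg_FtQ (p : ℕ) (A : ValuationSubring (AlgebraicClosure ℚ)) (hp : p.Prime)
    (hA : A.LiesOverPrime p) {xt : EigQLit9.FtQ M A}
    (hKt : KaehlerHyp (IsLocalRing.ResidueField ↥A) (EigQLit9.FtQ M A) xt)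
    (G : EigQLit9.FtQ M A) (hG : G ≠ 0) (hreg : EigQLit9.IsRegDlog p M A G) :
    (∃ φ ∈ regSpace hKt,
      (φ : LaurentSeries (IsLocalRing.ResidueField ↥A)) *
          theta (xt : LaurentSeries (IsLocalRing.ResidueField ↥A)) =
        dlogQ (G : LaurentSeries (IsLocalRing.ResidueField ↥A))) ∧
    ∀ n : ℤ, n ≤ 0 → (dlogQ (G : LaurentSeries (IsLocalRing.ResidueField ↥A))).coeff n = 0 := by
  have hfact : Fact p.Prime := ⟨hp⟩
  have hchar : CharP (IsLocalRing.ResidueField ↥A) p :=
    Fermat.Agent.ES.KRON.KronInst10.charP_residueField A hp hA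
  exact dlogReg M p hKt G hG hreg

end Exit

end Fermat.Agent.ES.X44.DlogReg10
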