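/-
Programme X (S44), chapter (L2) "Frey at p" — helper25.  (Mathlib only.)

Valuations of `p`-th roots of unity: `K` a field, `v` a valuation, `p` a prime, `ζ` a primitive `p`-th root of `1`.
`r := v (ζ - 1)`.

* `val_zeta`, `val_pow_sub_one_le`, `val_pow_sub_one`, `val_pow_sub_pow` : `v (ζ^j - ζ^k) = r` for `ζ^j ≠ ζ^k`;
* `val_sub_one_pow` : `r ^ (p - 1) = v p`;   `val_sub_one_lt_one`, `val_p_lt`;
* `val_pow_sub_one_eq_prod` : `v (w^p - 1) = ∏_{k<p} v (w - ζ^k)`;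
* `exists_near` : `v (w^p - 1) < v p * r` ⇒ `v (w - ζ^k) < r` for some `k < p`;
* `val_pow_sub_one_of_near` : `v (w - 1) < r` ⇒ `v (w^p - 1) = v (w - 1) * v p`;
* `near_one_of_pow` : `v p < 1`, `v w ≤ 1`, `v (w^p - 1) < 1` ⇒ `v (w - 1) < 1`;
* `pow_eq_of_near` : uniqueness of the nearby root of unity.
-/
import Mathlib

set_option autoImplicit false
set_option linter.unusedSectionVars false

namespace Fermat.Agent.ES.X44.MuP25

open Finset Polynomial

variable {K : Type*} [Field K] {Γ₀ : Type*} [LinearOrderedCommGroupWithZero Γ₀]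
  (v : Valuation K Γ₀)

/-- `v (x ^ n - 1) ≤ v (x - 1)` for integral `x`. -/
theorem val_pow_sub_one_le {x : K} (hx : v x ≤ 1) (n : ℕ) : v (x ^ n - 1) ≤ v (x - 1) := by
  rw [← mul_geom_sum, map_mul]
  have h1 : v (∑ i ∈ range n, x ^ i) ≤ 1 := by
    refine v.map_sum_le fun i _ => ?_
    rw [map_pow]; exact pow_le_one' hx i
  calc v (x - 1) * v (∑ i ∈ range n, x ^ i) ≤ v (x - 1) * 1 := mul_le_mul_right h1 _
    _ = v (x - 1) := mul_one _

variable {p : ℕ} (hp : p.Prime) {ζ : K} (hζ : IsPrimitiveRoot ζ p)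

include hp hζ

theorem val_zeta : v ζ = 1 := by
  have h1 : v ζ ^ p = 1 := by rw [← map_pow, hζ.pow_eq_one, map_one]
  rcases lt_trichotomy (v ζ) 1 with h | h | h
  · exact absurd h1 (ne_of_lt (pow_lt_one₀ zero_le h hp.ne_zero))
  · exact h
  · exact absurd h1 (ne_of_gt (one_lt_pow₀ h hp.ne_zero))

theorem val_pow_sub_one {k : ℕ} (hk : ¬ p ∣ k) : v (ζ ^ k - 1) = v (ζ - 1) := by
  refine le_antisymm (val_pow_sub_one_le v (val_zeta v hp hζ).le k) ?_
  have hcop : Nat.Coprime k p := (Nat.Prime.coprime_iff_not_dvd hp).mpr hk |>.symm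
  obtain ⟨m, -, hm⟩ := Nat.exists_mul_mod_eq_one_of_coprime hcop hp.one_lt
  have e : (ζ ^ k) ^ m = ζ := by
    rw [← pow_mul, ← Nat.div_add_mod (k * m) p, hm, pow_add, pow_mul, hζ.pow_eq_one, one_pow,
      one_mul, pow_one]
  have h1 : v (ζ ^ k) ≤ 1 := by rw [map_pow, val_zeta v hp hζ, one_pow]
  calc v (ζ - 1) = v ((ζ ^ k) ^ m - 1) := by rw [e]
    _ ≤ v (ζ ^ k - 1) := val_pow_sub_one_le v h1 m

theorem val_pow_sub_pow {j k : ℕ} (h : ζ ^ j ≠ ζ ^ k) : v (ζ ^ j - ζ ^ k) = v (ζ - 1) := by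
  have key : ∀ {j k : ℕ}, j ≤ k → ζ ^ j ≠ ζ ^ k → v (ζ ^ j - ζ ^ k) = v (ζ - 1) := by
    intro j k hjk h
    have e : ζ ^ j - ζ ^ k = -(ζ ^ j * (ζ ^ (k - j) - 1)) := by
      rw [mul_sub, ← pow_add, Nat.add_sub_cancel' hjk]; ring
    have hnd : ¬ p ∣ k - j := by
      intro hd
      apply h
      have := (hζ.pow_eq_one_iff_dvd _).mpr hd
      calc ζ ^ j = ζ ^ j * ζ ^ (k - j) := by rw [this, mul_one]
        _ = ζ ^ k := by rw [← pow_add, Nat.add_sub_cancel' hjk]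
    rw [e, Valuation.map_neg, map_mul, map_pow, val_zeta v hp hζ, one_pow, one_mul,
      val_pow_sub_one v hp hζ hnd]
  rcases le_total j k with hjk | hjk
  · exact key hjk h
  · rw [Valuation.map_sub_swap]; exact key hjk h.symm

theorem zeta_sub_one_ne_zero : ζ - 1 ≠ 0 := sub_ne_zero.mpr (hζ.ne_one hp.one_lt)

theorem val_sub_one_pos : 0 < v (ζ - 1) := by
  rw [Valuation.pos_iff]; exact zeta_sub_one_ne_zero hp hζ

theorem val_sub_one_pow : v (ζ - 1) ^ (p - 1) = v (p : K) := by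
  obtain ⟨n, rfl⟩ : ∃ n, p = n + 1 := ⟨p - 1, (Nat.sub_add_cancel hp.pos).symm⟩
  have h1 := hζ.prod_one_sub_pow_eq_order
  have h2 : v (∏ k ∈ range n, (1 - ζ ^ (k + 1))) = v (ζ - 1) ^ n := by
    rw [map_prod]
    have : ∀ k ∈ range n, v (1 - ζ ^ (k + 1)) = v (ζ - 1) := by
      intro k hk
      rw [Valuation.map_sub_swap]
      refine val_pow_sub_one v hp hζ ?_
      intro hd
      have := Nat.le_of_dvd (Nat.succ_pos k) hd
      have := mem_range.mp hk
      omega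
    rw [prod_congr rfl this, prod_const, card_range]
  rw [Nat.add_sub_cancel, ← h2, h1]
  push_cast
  rfl

theorem val_sub_one_lt_one (hp1 : v (p : K) < 1) : v (ζ - 1) < 1 := by
  by_contra h
  rw [not_lt] at h
  have := one_le_pow₀ h (n := p - 1)
  rw [val_sub_one_pow v hp hζ] at this
  exact absurd hp1 (not_lt.mpr this)

theorem val_p_lt (hp1 : v (p : K) < 1) (h3 : 3 ≤ p) : v (p : K) < v (ζ - 1) := by
  have hr1 := val_sub_one_lt_one v hp hζ hp1
  have hr0 := val_sub_one_pos v hp hζ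
  rw [← val_sub_one_pow v hp hζ]
  calc v (ζ - 1) ^ (p - 1) ≤ v (ζ - 1) ^ 2 := pow_le_pow_right_of_le_one' hr1.le (by omega)
    _ = v (ζ - 1) * v (ζ - 1) := sq _
    _ < v (ζ - 1) * 1 := mul_lt_mul_of_pos_left hr1 hr0
    _ = v (ζ - 1) := mul_one _

theorem val_pow_sub_one_eq_prod (w : K) :
    v (w ^ p - 1) = ∏ k ∈ range p, v (w - ζ ^ k) := by
  have h1 := X_pow_sub_C_eq_prod hζ hp.pos (one_pow p)
  have h2 := congrArg (Polynomial.eval w) h1
  simp only [eval_sub, eval_pow, eval_X, eval_C, eval_prod, mul_one] at h2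
  rw [h2, map_prod]

theorem exists_near {w : K} (hw : v (w ^ p - 1) < v (p : K) * v (ζ - 1)) :
    ∃ k < p, v (w - ζ ^ k) < v (ζ - 1) := by
  by_contra hcon
  have hall : ∀ k ∈ range p, v (ζ - 1) ≤ v (w - ζ ^ k) := by
    intro k hk
    by_contra hlt
    exact hcon ⟨k, mem_range.mp hk, not_le.mp hlt⟩
  have h1 : v (ζ - 1) ^ p ≤ v (w ^ p - 1) := by
    rw [val_pow_sub_one_eq_prod v hp hζ w]
    calc v (ζ - 1) ^ p = ∏ _k ∈ range p, v (ζ - 1) := by rw [prod_const, card_range]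
      _ ≤ ∏ k ∈ range p, v (w - ζ ^ k) := prod_le_prod' hall
  have h2 : v (ζ - 1) ^ p = v (p : K) * v (ζ - 1) := by
    rw [← val_sub_one_pow v hp hζ, ← pow_succ, Nat.sub_add_cancel hp.pos]
  rw [h2] at h1
  exact absurd hw (not_lt.mpr h1)

theorem val_pow_sub_one_of_near {w : K} (hw : v (w - 1) < v (ζ - 1)) :
    v (w ^ p - 1) = v (w - 1) * v (p : K) := by
  rw [val_pow_sub_one_eq_prod v hp hζ w]
  obtain ⟨n, hn⟩ : ∃ n, p = n + 1 := ⟨p - 1, (Nat.sub_add_cancel hp.pos).symm⟩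
  have h1 : ∀ k ∈ range n, v (w - ζ ^ (k + 1)) = v (ζ - 1) := by
    intro k hk
    have hnd : ¬ p ∣ k + 1 := by
      intro hd
      have := Nat.le_of_dvd (Nat.succ_pos k) hd
      have := mem_range.mp hk
      omega
    have h3 := val_pow_sub_one v hp hζ hnd
    have e : w - ζ ^ (k + 1) = (w - 1) - (ζ ^ (k + 1) - 1) := by ring
    rw [e, v.map_sub_eq_of_lt_right (by rw [h3]; exact hw), h3]
  have h4 : v (ζ - 1) ^ n = v (p : K) := by
    have := val_sub_one_pow v hp hζ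
    rw [show p - 1 = n by omega] at this
    exact this
  rw [show range p = range (n + 1) by rw [hn], prod_range_succ', pow_zero,
    prod_congr rfl h1, prod_const, card_range, h4, mul_comm]

theorem near_one_of_pow {w : K} (hp1 : v (p : K) < 1) (hw1 : v w ≤ 1)
    (hw : v (w ^ p - 1) < 1) : v (w - 1) < 1 := by
  by_contra hge
  rw [not_lt] at hge
  have hle : v (w - 1) ≤ 1 := v.map_sub_le hw1 (by rw [map_one])
  have heq : v (w - 1) = 1 := le_antisymm hle hge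
  have hr1 := val_sub_one_lt_one v hp hζ hp1
  have h1 : ∀ k ∈ range p, v (w - ζ ^ k) = 1 := by
    intro k _
    have h3 : v (ζ ^ k - 1) < 1 :=
      lt_of_le_of_lt (val_pow_sub_one_le v (val_zeta v hp hζ).le k) hr1
    have e : w - ζ ^ k = (w - 1) - (ζ ^ k - 1) := by ring
    rw [e, v.map_sub_eq_of_lt_left (by rw [heq]; exact h3), heq]
  rw [val_pow_sub_one_eq_prod v hp hζ w, prod_congr rfl h1, prod_const_one] at hw
  exact lt_irrefl _ hw

theorem pow_eq_of_near {w : K} {j k : ℕ} (hj : v (w - ζ ^ j) < v (ζ - 1))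
    (hk : v (w - ζ ^ k) < v (ζ - 1)) : ζ ^ j = ζ ^ k := by
  by_contra hne
  have h1 := val_pow_sub_pow v hp hζ hne
  have e : ζ ^ j - ζ ^ k = (w - ζ ^ k) - (w - ζ ^ j) := by ring
  rw [e] at h1
  have h2 : v ((w - ζ ^ k) - (w - ζ ^ j)) < v (ζ - 1) :=
    lt_of_le_of_lt (v.map_sub _ _) (max_lt hk hj)
  rw [h1] at h2
  exact lt_irrefl _ h2

end Fermat.Agent.ES.X44.MuP25
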