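/-
Programme X (S44), chapter (L2) "Frey at p" — helper25.

The **multiplicative coordinate** `u = (s - α)/(s + α)` (`s = y/x`, `α² = a`) on the model curve
`Wab a b : Y² = X³ + aX² + bX` with `v a = 1`, `v b < 1`, `v 2 = 1`, and its approximate multiplicativity
on `E₀` (the points with `1 ≤ v x`, and `O`):

* `u_identity` : the EXACT identity
  `u₃ - u₁u₂ = 2αb(1/x₁ + 1/x₂ + σ²/D)/((s₃+α)(s₁+α)(s₂+α))`, `σ = s₁+s₂`, `D = x₁x₂ - b`;
* `one_le_val_s_add` : `1 ≤ v (s + α)` on `E₀`;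
* `val_uc` : `v (uc α P) = 1` on `E₀`;  `val_uc_sub_one` : `v (uc α P - 1) * v (s + α) = 1`;
* `uc_sub_one_lt_iff` : for `P ∈ E₀`: `v (uc α P - 1) < 1 ↔ P ∈ E₁`;
* `uc_add` : `v (uc α (P + Q) - uc α P * uc α Q) ≤ v b` for `P, Q ∈ E₀`;
* `uc_nsmul` : `v (uc α (n • P) - uc α P ^ n) ≤ v b` for `P ∈ E₀`.
-/
import Mathlib
import Fermat.Agent.S05.Components
import Fermat.Agent.S05.KernelContract

set_option autoImplicit false
set_option linter.unusedSectionVars false

namespace Fermat.Agent.ES.X44.UMult25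

open WeierstrassCurve WeierstrassCurve.Affine Fermat.Agent.S05

/-! ### Pure algebra -/

section Algebra

variable {K : Type*} [Field K]

/-- `σ · s₃` for the `s`-coordinate `s₃ = addSs …` of the sum. -/
theorem sigma_mul_addSs {a b x₁ s₁ x₂ s₂ : K} (hS : s₁ + s₂ ≠ 0) :
    (s₁ + s₂) * addSs a b x₁ s₁ x₂ s₂ =
      s₁ * s₂ + a + b / x₁ + b / x₂ + (s₁ + s₂) ^ 2 * b / (x₁ * x₂ - b) := by
  unfold addSs
  field_simp
  ring

/-- The exact defect of multiplicativity of `u = (s - α)/(s + α)`. -/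
theorem u_identity {α a b x₁ x₂ s₁ s₂ s₃ : K} (hα : α ^ 2 = a)
    (h1 : s₁ + α ≠ 0) (h2 : s₂ + α ≠ 0) (h3 : s₃ + α ≠ 0)
    (hs₃ : (s₁ + s₂) * s₃ =
      s₁ * s₂ + a + b / x₁ + b / x₂ + (s₁ + s₂) ^ 2 * b / (x₁ * x₂ - b)) :
    (s₃ - α) / (s₃ + α) - (s₁ - α) / (s₁ + α) * ((s₂ - α) / (s₂ + α)) =
      2 * α * b * (1 / x₁ + 1 / x₂ + (s₁ + s₂) ^ 2 / (x₁ * x₂ - b)) /
        ((s₃ + α) * (s₁ + α) * (s₂ + α)) := by
  have key : (s₃ - α) * (s₁ + α) * (s₂ + α) - (s₃ + α) * (s₁ - α) * (s₂ - α) =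
      2 * α * b * (1 / x₁ + 1 / x₂ + (s₁ + s₂) ^ 2 / (x₁ * x₂ - b)) := by
    linear_combination (2 * α) * hs₃ - (2 * α) * hα
  rw [← key]
  field_simp

end Algebra

/-! ### Valuation estimates -/

section Val

variable {K : Type*} [Field K] {Γ₀ : Type*} [LinearOrderedCommGroupWithZero Γ₀]
  (v : Valuation K Γ₀) {a b α : K}

include v in
theorem ne_zero_of_one_le {x : K} (hx : 1 ≤ v x) : x ≠ 0 := by
  rintro rfl
  simp at hx

/-- `v (x + b/x) = v x` for `1 ≤ v x`. -/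
theorem val_x_add (hb : v b < 1) {x : K} (hx : 1 ≤ v x) : v (x + b / x) = v x := by
  have hx0 : x ≠ 0 := ne_zero_of_one_le v hx
  have hpos : 0 < v x := lt_of_lt_of_le zero_lt_one hx
  have h1 : v (b / x) < v x := by
    rw [map_div₀]
    calc v b / v x ≤ v b := (div_le_iff₀ hpos).mpr (le_mul_of_one_le_right' hx)
      _ < 1 := hb
      _ ≤ v x := hx
  exact v.map_add_eq_of_lt_left h1

/-- `1 ≤ v (s + α)` on `E₀`. -/
theorem one_le_val_s_add (h2 : v (2 : K) = 1) (hαv : v α = 1) (hb : v b < 1) (hα : α ^ 2 = a)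
    {x s : K} (hx : 1 ≤ v x) (es : s ^ 2 = x + a + b / x) : 1 ≤ v (s + α) := by
  by_contra hlt
  rw [not_le] at hlt
  have h2α : v (2 * α) = 1 := by rw [map_mul, h2, hαv, one_mul]
  have h3 : v (s - α) = 1 := by
    have : s - α = (s + α) - 2 * α := by ring
    rw [this, v.map_sub_eq_of_lt_right (by rw [h2α]; exact hlt), h2α]
  have h4 : (s + α) * (s - α) = x + b / x := by
    have : (s + α) * (s - α) = s ^ 2 - α ^ 2 := by ring
    rw [this, es, hα]; ring
  have h5 : v ((s + α) * (s - α)) = v x := by rw [h4]; exact val_x_add v hb hx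
  rw [map_mul, h3, mul_one] at h5
  rw [h5] at hlt
  exact absurd hx (not_le.mpr hlt)

/-- `1 ≤ v (s - α)` on `E₀`. -/
theorem one_le_val_s_sub (h2 : v (2 : K) = 1) (hαv : v α = 1) (hb : v b < 1) (hα : α ^ 2 = a)
    {x s : K} (hx : 1 ≤ v x) (es : s ^ 2 = x + a + b / x) : 1 ≤ v (s - α) := by
  have := one_le_val_s_add v (α := -α) h2 (by rw [Valuation.map_neg]; exact hαv) hb
    (by rw [neg_sq]; exact hα) hx es
  rwa [← sub_eq_add_neg] at this

/-- `v s ^ 2 ≤ v x` on `E₀`. -/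
theorem val_s_sq_le (ha : v a ≤ 1) (hb : v b < 1) {x s : K} (hx : 1 ≤ v x)
    (es : s ^ 2 = x + a + b / x) : v s ^ 2 ≤ v x := by
  have hpos : 0 < v x := lt_of_lt_of_le zero_lt_one hx
  rw [← map_pow, es]
  refine v.map_add_le (v.map_add_le le_rfl (ha.trans hx)) ?_
  rw [map_div₀]
  exact ((div_le_iff₀ hpos).mpr (le_mul_of_one_le_right' hx)).trans (hb.le.trans hx)

/-- `v (s - α) = v (s + α)` on `E₀`. -/
theorem val_s_sub_eq (h2 : v (2 : K) = 1) (hαv : v α = 1) (hb : v b < 1) (hα : α ^ 2 = a)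
    {x s : K} (hx : 1 ≤ v x) (es : s ^ 2 = x + a + b / x) : v (s - α) = v (s + α) := by
  rcases le_or_gt (v s) 1 with hs | hs
  · have h1 : v (s + α) ≤ 1 := v.map_add_le hs hαv.le
    have h2' : v (s - α) ≤ 1 := v.map_sub_le hs hαv.le
    exact le_antisymm (h2'.trans (one_le_val_s_add v h2 hαv hb hα hx es))
      (h1.trans (one_le_val_s_sub v h2 hαv hb hα hx es))
  · rw [v.map_sub_eq_of_lt_left (by rw [hαv]; exact hs),
      v.map_add_eq_of_lt_left (by rw [hαv]; exact hs)]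

end Val

/-! ### The coordinate `uc` on points -/

section Points

variable {K : Type*} [Field K] [DecidableEq K] {Γ₀ : Type*} [LinearOrderedCommGroupWithZero Γ₀]
  (v : Valuation K Γ₀) {a b : K}

/-- The multiplicative coordinate `u = (y - αx)/(y + αx) = (s - α)/(s + α)`; `u(O) = 1`. -/
def uc (α : K) : (Wab a b).toAffine.Point → K
  | .zero => 1
  | .some x y _ => (y - α * x) / (y + α * x)

@[simp] theorem uc_zero (α : K) : uc α (0 : (Wab a b).toAffine.Point) = 1 := rfl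

theorem uc_some (α : K) {x y : K} (h : (Wab a b).toAffine.Nonsingular x y) :
    uc α (Point.some x y h) = (y - α * x) / (y + α * x) := rfl

theorem uc_xs (α : K) {x s : K} (h : (Wab a b).toAffine.Nonsingular x (x * s)) (hx : x ≠ 0) :
    uc α (Point.some x (x * s) h) = (s - α) / (s + α) := by
  rw [uc_some, show x * s - α * x = x * (s - α) by ring, show x * s + α * x = x * (s + α) by ring,
    mul_div_mul_left _ _ hx]

/-- `u(-P) = u(P)⁻¹`. -/
theorem uc_neg (α : K) (P : (Wab a b).toAffine.Point) : uc α (-P) = (uc α P)⁻¹ := by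
  rcases P with _ | ⟨x, y, h⟩
  · change uc α (0 : (Wab a b).toAffine.Point) = (uc α (0 : (Wab a b).toAffine.Point))⁻¹
    simp
  · rw [Point.neg_some, uc_some, uc_some, Wab_negY, inv_div,
      show -y - α * x = -(y + α * x) by ring, show -y + α * x = -(y - α * x) by ring,
      neg_div_neg_eq]

theorem sub_div_sub_one {s α : K} (h3 : s + α ≠ 0) : (s - α) / (s + α) - 1 = -(2 * α) / (s + α) := by
  field_simp
  ring

variable {α : K}

/-- `v (u(P)) = 1` on `E₀`. -/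
theorem val_uc (h2 : v (2 : K) = 1) (hαv : v α = 1) (hb : v b < 1) (hα : α ^ 2 = a)
    {P : (Wab a b).toAffine.Point} (hP : InE0 v P) : v (uc α P) = 1 := by
  rcases P with _ | ⟨x, y, h⟩
  · change v (uc α (0 : (Wab a b).toAffine.Point)) = 1
    simp
  · have hx : 1 ≤ v x := hP
    have hx0 : x ≠ 0 := ne_zero_of_one_le v hx
    obtain ⟨h', e⟩ := some_eq_xs h hx0
    rw [e, uc_xs α h' hx0, map_div₀, val_s_sub_eq v h2 hαv hb hα hx (s_sq h' hx0)]
    have h1 := one_le_val_s_add v h2 hαv hb hα hx (s_sq h' hx0)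
    exact div_self (ne_of_gt (lt_of_lt_of_le zero_lt_one h1))

/-- For `P ∈ E₀`: `v (u(P) - 1) < 1` iff `P ∈ E₁`. -/
theorem uc_sub_one_lt_iff (h2 : v (2 : K) = 1) (ha : v a = 1) (hαv : v α = 1) (hb : v b < 1)
    (hα : α ^ 2 = a) {P : (Wab a b).toAffine.Point} (hP : InE0 v P) :
    v (uc α P - 1) < 1 ↔ InE1 v P := by
  rcases P with _ | ⟨x, y, h⟩
  · change v (uc α (0 : (Wab a b).toAffine.Point) - 1) < 1 ↔ True
    simp
  · have hx : 1 ≤ v x := hP
    have hx0 : x ≠ 0 := ne_zero_of_one_le v hx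
    obtain ⟨h', e⟩ := some_eq_xs h hx0
    have es := s_sq h' hx0
    have h1 := one_le_val_s_add v h2 hαv hb hα hx es
    have h10 : y / x + α ≠ 0 := by
      intro h0
      rw [h0, map_zero] at h1
      exact absurd h1 (not_le.mpr zero_lt_one)
    have hpos : 0 < v (y / x + α) := lt_of_lt_of_le zero_lt_one h1
    have h2α : v (2 * α) = 1 := by rw [map_mul, h2, hαv, one_mul]
    rw [e, uc_xs α h' hx0, sub_div_sub_one h10, map_div₀, Valuation.map_neg, h2α,
      div_lt_one₀ hpos]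
    change 1 < v (y / x + α) ↔ 1 < v x
    constructor
    · intro h3
      have hs : 1 < v (y / x) := by
        by_contra hs
        rw [not_lt] at hs
        exact absurd h3 (not_lt.mpr (v.map_add_le hs hαv.le))
      have h4 := val_s_sq_le v ha.le hb hx es
      exact lt_of_lt_of_le (one_lt_pow₀ hs (by norm_num)) h4
    · intro h3
      have hax : v (a + b / x) < v x := by
        refine lt_of_le_of_lt (v.map_add_le ha.le ?_) h3
        rw [map_div₀]
        exact ((div_le_iff₀ (lt_of_lt_of_le zero_lt_one hx)).mpr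
          (le_mul_of_one_le_right' hx)).trans hb.le
      have h5 : v (y / x) ^ 2 = v x := by
        rw [← map_pow, es, add_assoc, v.map_add_eq_of_lt_left hax]
      have hs : 1 < v (y / x) := by
        by_contra hs
        rw [not_lt] at hs
        have : v (y / x) ^ 2 ≤ 1 := pow_le_one' hs 2
        rw [h5] at this
        exact absurd h3 (not_lt.mpr this)
      rw [v.map_add_eq_of_lt_left (by rw [hαv]; exact hs)]
      exact hs

/-- **Approximate multiplicativity of `u` on `E₀`.** -/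
theorem uc_add (h2 : v (2 : K) = 1) (ha : v a = 1) (hαv : v α = 1) (hb : v b < 1) (hb0 : b ≠ 0)
    (hα : α ^ 2 = a) {P Q : (Wab a b).toAffine.Point} (hP : InE0 v P) (hQ : InE0 v Q) :
    v (uc α (P + Q) - uc α P * uc α Q) ≤ v b := by
  rcases point_cases hb0 P with rfl | rfl | ⟨x₁, s₁, h₁, hx₁, rfl⟩
  · rw [zero_add, uc_zero, one_mul, sub_self, map_zero]; exact zero_le
  · exfalso
    have : (1 : Γ₀) ≤ v (0 : K) := hP
    simp at this
  rcases point_cases hb0 Q with rfl | rfl | ⟨x₂, s₂, h₂, hx₂, rfl⟩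
  · rw [add_zero, uc_zero, mul_one, sub_self, map_zero]; exact zero_le
  · exfalso
    have : (1 : Γ₀) ≤ v (0 : K) := hQ
    simp at this
  have hv₁ : 1 ≤ v x₁ := hP
  have hv₂ : 1 ≤ v x₂ := hQ
  have e₁ := s_sq h₁ hx₁
  have e₂ := s_sq h₂ hx₂
  have k1 := one_le_val_s_add v h2 hαv hb hα hv₁ e₁
  have k2 := one_le_val_s_add v h2 hαv hb hα hv₂ e₂
  have k1' := one_le_val_s_sub v h2 hαv hb hα hv₁ e₁
  have n1 : s₁ + α ≠ 0 := ne_zero_of_one_le v k1
  have n2 : s₂ + α ≠ 0 := ne_zero_of_one_le v k2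
  have n1' : s₁ - α ≠ 0 := ne_zero_of_one_le v k1'
  rw [uc_xs α h₁ hx₁, uc_xs α h₂ hx₂]
  by_cases hS : s₁ + s₂ = 0
  · rcases add_xs_of_S_eq_zero hb0 h₁ h₂ hx₁ hx₂ hS with ⟨-, h0⟩ | ⟨hxb, -⟩
    · rw [h0, uc_zero]
      have hs : s₂ = -s₁ := by linear_combination hS
      have : (1 : K) - (s₁ - α) / (s₁ + α) * ((s₂ - α) / (s₂ + α)) = 0 := by
        rw [hs]
        have n3 : -s₁ + α ≠ 0 := by
          intro h0; apply n1'; linear_combination -h0
        field_simp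
        ring
      rw [this, map_zero]; exact zero_le
    · exact absurd (sub_eq_zero.mpr hxb) (CompH12.mul_sub_ne_zero_of_one_le hb hv₁ hv₂)
  · have hD : x₁ * x₂ - b ≠ 0 := CompH12.mul_sub_ne_zero_of_one_le hb hv₁ hv₂
    have hxb : x₁ * x₂ ≠ b := sub_ne_zero.mp hD
    obtain ⟨h₃, e⟩ := add_xs h₁ h₂ hx₁ hx₂ hS hxb
    have hE0 : InE0 v (Point.some _ _ h₁ + Point.some _ _ h₂) :=
      inE0_add hb hb0 ha.le hP hQ
    rw [e] at hE0 ⊢
    have hv₃ : 1 ≤ v (addXs b x₁ s₁ x₂ s₂) := hE0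
    have hx₃ : addXs b x₁ s₁ x₂ s₂ ≠ 0 := ne_zero_of_one_le v hv₃
    have e₃ := s_sq h₃ hx₃
    have k3 := one_le_val_s_add v h2 hαv hb hα hv₃ e₃
    have n3 : addSs a b x₁ s₁ x₂ s₂ + α ≠ 0 := ne_zero_of_one_le v k3
    rw [uc_xs α h₃ hx₃, u_identity hα n1 n2 n3 (sigma_mul_addSs hS)]
    -- the numerator is integral times `b`, the denominator has valuation `≥ 1`
    have hN : v (1 / x₁ + 1 / x₂ + (s₁ + s₂) ^ 2 / (x₁ * x₂ - b)) ≤ 1 := by
      have i1 : v (1 / x₁) ≤ 1 := by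
        rw [map_div₀, map_one]
        exact (div_le_one₀ (lt_of_lt_of_le zero_lt_one hv₁)).mpr hv₁
      have i2 : v (1 / x₂) ≤ 1 := by
        rw [map_div₀, map_one]
        exact (div_le_one₀ (lt_of_lt_of_le zero_lt_one hv₂)).mpr hv₂
      have i3 : v ((s₁ + s₂) ^ 2 / (x₁ * x₂ - b)) ≤ 1 := by
        rw [map_div₀, map_pow, CompH12.v_mul_sub_of_one_le hb hv₁ hv₂]
        have hpos : 0 < v x₁ * v x₂ :=
          mul_pos (lt_of_lt_of_le zero_lt_one hv₁) (lt_of_lt_of_le zero_lt_one hv₂)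
        rw [div_le_one₀ hpos]
        have q1 := val_s_sq_le v ha.le hb hv₁ e₁
        have q2 := val_s_sq_le v ha.le hb hv₂ e₂
        rcases le_total (v s₁) (v s₂) with hle | hle
        · calc v (s₁ + s₂) ^ 2 ≤ v s₂ ^ 2 :=
                pow_le_pow_left' (v.map_add_le hle le_rfl) 2
            _ ≤ v x₂ := q2
            _ ≤ v x₁ * v x₂ := le_mul_of_one_le_left' hv₁
        · calc v (s₁ + s₂) ^ 2 ≤ v s₁ ^ 2 :=
                pow_le_pow_left' (v.map_add_le le_rfl hle) 2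
            _ ≤ v x₁ := q1
            _ ≤ v x₁ * v x₂ := le_mul_of_one_le_right' hv₂
      exact v.map_add_le (v.map_add_le i1 i2) i3
    have hden : 1 ≤ v ((addSs a b x₁ s₁ x₂ s₂ + α) * (s₁ + α) * (s₂ + α)) := by
      rw [map_mul, map_mul]
      calc (1 : Γ₀) = 1 * 1 * 1 := by simp
        _ ≤ _ := mul_le_mul' (mul_le_mul' k3 k1) k2
    have hdpos : 0 < v ((addSs a b x₁ s₁ x₂ s₂ + α) * (s₁ + α) * (s₂ + α)) :=
      lt_of_lt_of_le zero_lt_one hden
    rw [map_div₀, div_le_iff₀ hdpos, map_mul, map_mul, map_mul, h2, hαv, one_mul, one_mul]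
    calc v b * v (1 / x₁ + 1 / x₂ + (s₁ + s₂) ^ 2 / (x₁ * x₂ - b)) ≤ v b * 1 :=
          mul_le_mul_right hN _
      _ = v b * 1 := rfl
      _ ≤ v b * v ((addSs a b x₁ s₁ x₂ s₂ + α) * (s₁ + α) * (s₂ + α)) :=
          mul_le_mul_right hden _

/-- multiples of a point of `E₀` stay in `E₀`. -/
theorem inE0_nsmul (ha : v a ≤ 1) (hb : v b < 1) (hb0 : b ≠ 0) {P : (Wab a b).toAffine.Point}
    (hP : InE0 v P) (n : ℕ) : InE0 v (n • P) := by
  induction n with
  | zero => rw [zero_nsmul]; trivial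
  | succ n ih => rw [succ_nsmul]; exact inE0_add hb hb0 ha ih hP

/-- `u(n • P) ≡ u(P)^n` modulo `b`, on `E₀`. -/
theorem uc_nsmul (h2 : v (2 : K) = 1) (ha : v a = 1) (hαv : v α = 1) (hb : v b < 1) (hb0 : b ≠ 0)
    (hα : α ^ 2 = a) {P : (Wab a b).toAffine.Point} (hP : InE0 v P) (n : ℕ) :
    v (uc α (n • P) - uc α P ^ n) ≤ v b := by
  induction n with
  | zero => rw [zero_nsmul, uc_zero, pow_zero, sub_self, map_zero]; exact zero_le
  | succ n ih =>
    have hn := inE0_nsmul v ha.le hb hb0 hP n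
    have h1 := uc_add v h2 ha hαv hb hb0 hα hn hP
    have e : uc α ((n + 1) • P) - uc α P ^ (n + 1) =
        (uc α (n • P + P) - uc α (n • P) * uc α P) + (uc α (n • P) - uc α P ^ n) * uc α P := by
      rw [succ_nsmul]; ring
    rw [e]
    refine v.map_add_le h1 ?_
    rw [map_mul, val_uc v h2 hαv hb hα hP, mul_one]
    exact ih

end Points

end Fermat.Agent.ES.X44.UMult25
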