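/-
Programme X (S44), chapter (L2) "Frey at p" — helper25.

On the model `Wab a b` (`v 2 = 1`, `v a = 1`, `v b < 1`, `b ≠ 0`, `α² = a`) over a valued field whose residue
characteristic is the odd prime `p` (`v p < 1`), with a primitive `p`-th root of unity `ζ`:

* `inE1_of_inE0` : a point of `E₀` killed by `p` lies in `E₁` (`E₀/E₁ ↪ k^×` has no `p`-torsion in char. `p`);
* `annulus_of_nsmul` : a point `(x, y)` killed by `p` and NOT in `E₁` lies in the annulus
  `x ≠ 0`, `v b < v x < 1`.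
-/
import Mathlib
import Fermat.Agent.ES.X44.UMult25
import Fermat.Agent.ES.X44.MuP25

set_option autoImplicit false
set_option linter.unusedSectionVars false

namespace Fermat.Agent.ES.X44.E0Tors25

open WeierstrassCurve WeierstrassCurve.Affine Fermat.Agent.S05 Fermat.Agent.ES.X44.UMult25

variable {K : Type*} [Field K] [DecidableEq K] {Γ₀ : Type*} [LinearOrderedCommGroupWithZero Γ₀]
  (v : Valuation K Γ₀) {a b α : K}

/-- `E₁` is stable under multiples. -/
theorem inE1_nsmul (ha : v a ≤ 1) (hb : v b ≤ 1) {P : (Wab a b).toAffine.Point} (hP : InE1 v P)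
    (n : ℕ) : InE1 v (n • P) := by
  induction n with
  | zero => rw [zero_nsmul]; trivial
  | succ n ih => rw [succ_nsmul]; exact KernelContract.inE1_add v ha hb _ _ ih hP

variable {p : ℕ} {ζ : K}

/-- **`E₀[p] ⊆ E₁`.** -/
theorem inE1_of_inE0 (hp : p.Prime) (hζ : IsPrimitiveRoot ζ p) (hp1 : v (p : K) < 1)
    (h2 : v (2 : K) = 1) (ha : v a = 1) (hαv : v α = 1) (hb : v b < 1) (hb0 : b ≠ 0)
    (hα : α ^ 2 = a) {P : (Wab a b).toAffine.Point} (hP : InE0 v P) (hn : p • P = 0) :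
    InE1 v P := by
  have h1 := uc_nsmul v h2 ha hαv hb hb0 hα hP p
  rw [hn, uc_zero] at h1
  have h3 : v (uc α P ^ p - 1) < 1 := by
    rw [← Valuation.map_neg, neg_sub]
    exact lt_of_le_of_lt h1 hb
  have h4 := MuP25.near_one_of_pow v hp hζ hp1 (val_uc v h2 hαv hb hα hP).le h3
  exact (uc_sub_one_lt_iff v h2 ha hαv hb hα hP).mp h4

/-- odd multiples of `T0` are `T0`. -/
theorem odd_nsmul_T0 (hb0 : b ≠ 0) {n : ℕ} (hn : Odd n) :
    n • (T0 hb0 : (Wab a b).toAffine.Point) = T0 hb0 := by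
  obtain ⟨k, rfl⟩ := hn
  rw [add_nsmul, one_nsmul, mul_nsmul, two_nsmul, T0_add_T0, nsmul_zero, zero_add]

/-- **Torsion outside `E₁` lies in the annulus.** -/
theorem annulus_of_nsmul (hp : p.Prime) (hp2 : p ≠ 2) (hζ : IsPrimitiveRoot ζ p)
    (hp1 : v (p : K) < 1) (h2 : v (2 : K) = 1) (ha : v a = 1) (hαv : v α = 1) (hb : v b < 1)
    (hb0 : b ≠ 0) (hα : α ^ 2 = a) {x y : K} (h : (Wab a b).toAffine.Nonsingular x y)
    (hn : p • Point.some x y h = 0) (hx : ¬ 1 < v x) : x ≠ 0 ∧ v b < v x ∧ v x < 1 := by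
  have hodd : Odd p := hp.odd_of_ne_two hp2
  have hx0 : x ≠ 0 := by
    rintro rfl
    rw [eq_T0_of_x_eq_zero hb0 h, odd_nsmul_T0 hb0 hodd] at hn
    exact Point.some_ne_zero _ hn
  have hlt : v x < 1 := by
    by_contra hge
    rw [not_lt] at hge
    exact hx (inE1_of_inE0 v hp hζ hp1 h2 ha hαv hb hb0 hα (P := Point.some x y h) hge hn)
  refine ⟨hx0, ?_, hlt⟩
  by_contra hfar
  rw [not_lt] at hfar
  apply hx
  -- translate by `T0`
  obtain ⟨h', e⟩ := some_eq_xs h hx0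
  obtain ⟨hQ, eQ⟩ := add_T0_xs hb0 h' hx0
  have hxpos : 0 < v x := by rw [Valuation.pos_iff]; exact hx0
  have hQ0 : InE0 v (Point.some x y h + T0 hb0) := by
    rw [e, eQ]
    change 1 ≤ v (b / x)
    rw [map_div₀]
    exact (one_le_div₀ hxpos).mpr hfar
  have h2Q : InE0 v (2 • (Point.some x y h + T0 hb0)) := inE0_nsmul v ha.le hb hb0 hQ0 2
  have e2 : 2 • (Point.some x y h + T0 hb0) = 2 • Point.some x y h := by
    rw [nsmul_add, two_nsmul (T0 hb0), T0_add_T0, add_zero]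
  rw [e2] at h2Q
  have hp2P : p • (2 • Point.some x y h) = 0 := by
    rw [smul_comm, hn, nsmul_zero]
  have h1 := inE1_of_inE0 v hp hζ hp1 h2 ha hαv hb hb0 hα h2Q hp2P
  obtain ⟨k, hk⟩ := hodd
  have h3 := inE1_nsmul v ha.le hb.le h1 (k + 1)
  have e3 : (k + 1) • (2 • Point.some x y h) = Point.some x y h := by
    rw [← mul_nsmul, show 2 * (k + 1) = p + 1 by omega, add_nsmul, hn, zero_add, one_nsmul]
  rw [e3] at h3
  exact h3

end Fermat.Agent.ES.X44.E0Tors25
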