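/-
Programme X (S44), chapter (W2), leaf "θ-log" (helper5), part 1: **the operators `U_ℓ`, `T_ℓ` on
`q`-series and the two elementary identities of the θ-log argument.**

`R` a commutative ring, `LaurentSeries R = R((q))`.  From main: `theta = q d/dq` (`IG/PR/Theta20`),
`V_ℓ = qExpand R ℓ` (Prelude), `twistU u : f(q) ↦ f(u q)` (`KRON/KronCong24`).

* `heckeU ℓ : R((q)) →+ R((q))`, `(heckeU ℓ f).coeff n = f.coeff (ℓ n)`;
* `heckeT ℓ := U_ℓ + ℓ · V_ℓ` (the weight-two Hecke operator on `q`-expansions, `ℓ` prime to the level):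
  `(heckeT ℓ f).coeff (ℓ m) = f.coeff (ℓ² m) + ℓ · f.coeff m`, and `= f.coeff (ℓ n)` if `ℓ ∤ n`;
* `theta_twistU` : `θ (f(u q)) = (θ f)(u q)`;
* **`sum_twistU`** : for a primitive `ℓ`-th root of unity `ζ` in a domain,
  `∑_{b<ℓ} g(ζ^b q) = ℓ · (U_ℓ g)(q^ℓ)`.
-/
import Mathlib
import Fermat.Agent.IG.PR.Theta20
import Fermat.Agent.ES.KRON.KronCong24

set_option autoImplicit false

open HahnSeries ModularCurve

noncomputable section

namespace Fermat.Agent.ES.X44.QOps5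

open Fermat.Agent.IG.PR.Theta20 Fermat.Agent.ES.KRON.KronCong24

variable {R : Type*} [CommRing R]

/-! ### `U_ℓ` -/

section U

variable (ℓ : ℕ) [NeZero ℓ]

theorem ell_pos : (0 : ℤ) < (ℓ : ℤ) := by exact_mod_cast Nat.pos_of_ne_zero (NeZero.ne ℓ)

/-- the support of `n ↦ f.coeff (ℓ n)` is bounded below. -/
theorem bddBelow_support_U (f : LaurentSeries R) :
    BddBelow (Function.support fun n : ℤ => f.coeff ((ℓ : ℤ) * n)) := by
  refine ⟨min f.order 0, fun n hn => ?_⟩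
  have hn' : f.coeff ((ℓ : ℤ) * n) ≠ 0 := Function.mem_support.mp hn
  have h1 : f.order ≤ (ℓ : ℤ) * n := HahnSeries.order_le_of_coeff_ne_zero hn'
  have hℓ : (1 : ℤ) ≤ (ℓ : ℤ) := ell_pos ℓ
  rcases le_or_gt 0 n with hn0 | hn0
  · exact le_trans (min_le_right _ _) hn0
  · have h2 : (ℓ : ℤ) * n ≤ n := by nlinarith
    exact le_trans (min_le_left _ _) (le_trans h1 h2)

/-- `U_ℓ f = ∑ a_{ℓ n} q^n`. -/
def heckeUFun (f : LaurentSeries R) : LaurentSeries R :=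
  HahnSeries.ofSuppBddBelow (fun n : ℤ => f.coeff ((ℓ : ℤ) * n)) (bddBelow_support_U ℓ f)

@[simp]
theorem heckeUFun_coeff (f : LaurentSeries R) (n : ℤ) :
    (heckeUFun ℓ f).coeff n = f.coeff ((ℓ : ℤ) * n) := rfl

/-- **`U_ℓ`** as an additive map. -/
def heckeU : LaurentSeries R →+ LaurentSeries R where
  toFun := heckeUFun ℓ
  map_zero' := by
    ext n
    rw [heckeUFun_coeff, HahnSeries.coeff_zero, HahnSeries.coeff_zero]
  map_add' f g := by
    ext n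
    rw [heckeUFun_coeff, HahnSeries.coeff_add, HahnSeries.coeff_add, heckeUFun_coeff,
      heckeUFun_coeff]

@[simp]
theorem heckeU_coeff (f : LaurentSeries R) (n : ℤ) :
    (heckeU ℓ f).coeff n = f.coeff ((ℓ : ℤ) * n) := rfl

/-- `U_ℓ V_ℓ = id`. -/
theorem heckeU_qExpand (f : LaurentSeries R) : heckeU ℓ (qExpand R ℓ f) = f := by
  ext n
  rw [heckeU_coeff, qExpand_coeff_mul]

/-- `U_ℓ (C c · f) = C c · U_ℓ f`. -/
theorem heckeU_C_mul (c : R) (f : LaurentSeries R) :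
    heckeU ℓ (HahnSeries.C c * f) = HahnSeries.C c * heckeU ℓ f := by
  ext n
  rw [heckeU_coeff, HahnSeries.C_mul_eq_smul, HahnSeries.C_mul_eq_smul, HahnSeries.coeff_smul,
    HahnSeries.coeff_smul, heckeU_coeff]

/-- **`T_ℓ = U_ℓ + ℓ V_ℓ`** (weight two). -/
def heckeT : LaurentSeries R →+ LaurentSeries R :=
  heckeU ℓ + (AddMonoidHom.mulLeft (HahnSeries.C (ℓ : R))).comp (qExpand R ℓ).toAddMonoidHom

theorem heckeT_apply (f : LaurentSeries R) :
    heckeT ℓ f = heckeU ℓ f + HahnSeries.C (ℓ : R) * qExpand R ℓ f := rfl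

theorem heckeT_coeff_mul (f : LaurentSeries R) (m : ℤ) :
    (heckeT ℓ f).coeff ((ℓ : ℤ) * m) = f.coeff ((ℓ : ℤ) * ((ℓ : ℤ) * m)) + (ℓ : R) * f.coeff m := by
  rw [heckeT_apply, HahnSeries.coeff_add, heckeU_coeff, HahnSeries.C_mul_eq_smul,
    HahnSeries.coeff_smul, qExpand_coeff_mul, smul_eq_mul]

theorem heckeT_coeff_of_not_dvd (f : LaurentSeries R) {n : ℤ} (hn : ¬ (ℓ : ℤ) ∣ n) :
    (heckeT ℓ f).coeff n = f.coeff ((ℓ : ℤ) * n) := by
  rw [heckeT_apply, HahnSeries.coeff_add, heckeU_coeff, HahnSeries.C_mul_eq_smul,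
    HahnSeries.coeff_smul, qExpand_coeff_of_not_dvd ℓ f hn, smul_zero, add_zero]

end U

/-! ### `θ` and the twist -/

/-- **`θ (f(u q)) = (θ f)(u q)`.** -/
theorem theta_twistU (u : Rˣ) (f : LaurentSeries R) : theta (twistU u f) = twistU u (theta f) := by
  ext n
  rw [theta_coeff, twistU_coeff, twistU_coeff, theta_coeff]
  ring

/-! ### The sum over the twists by the `ℓ`-th roots of unity -/

section Sum

variable [IsDomain R] (ℓ : ℕ) [NeZero ℓ]

omit [NeZero ℓ] in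
/-- `∑_{b<ℓ} x^b = 0` for `x ^ ℓ = 1`, `x ≠ 1` in a domain. -/
theorem geom_sum_eq_zero_of_pow_eq_one {x : R} (hx : x ^ ℓ = 1) (hx1 : x ≠ 1) :
    ∑ b ∈ Finset.range ℓ, x ^ b = 0 := by
  have h := geom_sum_mul x ℓ
  rw [hx, sub_self] at h
  rcases mul_eq_zero.mp h with h0 | h0
  · exact h0
  · exact absurd (sub_eq_zero.mp h0) hx1

/-- **`∑_{b<ℓ} g(ζ^b q) = ℓ · (U_ℓ g)(q^ℓ)`** for a primitive `ℓ`-th root of unity `ζ`. -/
theorem sum_twistU (ζ : Rˣ) (hζ : IsPrimitiveRoot ζ ℓ) (g : LaurentSeries R) :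
    ∑ b ∈ Finset.range ℓ, twistU (ζ ^ b) g =
      HahnSeries.C (ℓ : R) * qExpand R ℓ (heckeU ℓ g) := by
  ext n
  rw [HahnSeries.C_mul_eq_smul, HahnSeries.coeff_smul, smul_eq_mul]
  have hsum : (∑ b ∈ Finset.range ℓ, twistU (ζ ^ b) g).coeff n =
      ∑ b ∈ Finset.range ℓ, (twistU (ζ ^ b) g).coeff n := by
    rw [← HahnSeries.coeff.addMonoidHom_apply, map_sum]
    rfl
  rw [hsum]
  have hterm : ∀ b ∈ Finset.range ℓ, (twistU (ζ ^ b) g).coeff n =
      (((ζ ^ n : Rˣ) : R)) ^ b * g.coeff n := by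
    intro b _
    rw [twistU_coeff]
    congr 1
    rw [← Units.val_pow_eq_pow_val]
    congr 1
    rw [← zpow_natCast, ← zpow_natCast, ← zpow_mul, ← zpow_mul, mul_comm]
  rw [Finset.sum_congr rfl hterm, ← Finset.sum_mul]
  by_cases hn : (ℓ : ℤ) ∣ n
  · obtain ⟨m, rfl⟩ := hn
    have h1 : (ζ ^ ((ℓ : ℤ) * m) : Rˣ) = 1 := by
      rw [zpow_mul, zpow_natCast, hζ.pow_eq_one, one_zpow]
    rw [h1, Units.val_one, qExpand_coeff_mul, heckeU_coeff]
    simp only [one_pow, Finset.sum_const, Finset.card_range, nsmul_eq_mul, mul_one]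
  · rw [qExpand_coeff_of_not_dvd ℓ _ hn, mul_zero]
    have hx : (((ζ ^ n : Rˣ) : R)) ^ ℓ = 1 := by
      rw [← Units.val_pow_eq_pow_val, ← zpow_natCast, ← zpow_mul, mul_comm, zpow_mul, zpow_natCast,
        hζ.pow_eq_one, one_zpow, Units.val_one]
    have hx1 : (((ζ ^ n : Rˣ) : R)) ≠ 1 := by
      intro h
      apply hn
      have h' : (ζ ^ n : Rˣ) = 1 := Units.ext h
      exact (hζ.zpow_eq_one_iff_dvd n).mp h'
    rw [geom_sum_eq_zero_of_pow_eq_one ℓ hx hx1, zero_mul]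

end Sum

end Fermat.Agent.ES.X44.QOps5
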