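/-
Programme X (S44), chapter (W2), leaf (KerD) (helper5): **the kernel of `θ = q d/dq` on the special fibre
field is the field of `p`-th powers.**

`k` a perfect field of characteristic `p`, `K = k((q))`.

* `coeff_eq_zero_of_theta_eq_zero`, `qExpand_heckeU_of_theta_eq_zero` : `θ G = 0` ⇒ `G` is a series in `q^p`,
  `G = (U_p G)(q^p)`;
* `exists_pow_eq_of_theta_eq_zero` : `θ G = 0 ⇒ ∃ H ∈ k((q)), H ^ p = G` (`H = (U_p G)^{φ⁻¹}`, main's
  `KRON/KronCong24.pow_char`);
* `theta_pow_char` : conversely `θ (H ^ p) = 0`;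
* **`exists_mem_pow_eq_of_theta_eq_zero`** : for an intermediate field `E` of `k((q)) / k` which is finite over
  `k(x)`, `x ∈ E` of order `-1`: `G ∈ E`, `θ G = 0 ⇒ ∃ H ∈ E, H ^ p = G` (main's
  `RED/PUR/SepLaurent25.mem_of_pow_mem`: a finite separable extension of `k(x)` inside `k((q))` is closed under
  `p`-th roots; separability from `ES/RED/SpecialDegree25.finite_and_separable_of_order`);
* **`kerTheta_fullC`** : the instance `E = F̃_M = modularFunctionFieldFullC k M`, `p ∤ M`, `x = j̃`.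
-/
import Mathlib
import Fermat.Agent.ES.X44.QOps5
import Fermat.Agent.RED.PUR.SepLaurent25
import Fermat.Agent.ES.RED.SpecialDegree25
import Fermat.Agent.RED.PUR.DegBaseChange25
import Fermat.Agent.IG.AN.ModPoly3

set_option autoImplicit false

open HahnSeries ModularCurve IntermediateField

noncomputable section

namespace Fermat.Agent.ES.X44.KerTheta5

open Fermat.Agent.IG.PR.Theta20 Fermat.Agent.ES.X44.QOps5

section Abstract

variable {k : Type*} [Field k] (p : ℕ) [hp : Fact p.Prime] [CharP k p]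

omit hp in
/-- `θ G = 0` kills the coefficients of index prime to `p`. -/
theorem coeff_eq_zero_of_theta_eq_zero {G : LaurentSeries k} (h : theta G = 0) {n : ℤ}
    (hn : ¬ (p : ℤ) ∣ n) : G.coeff n = 0 := by
  have h1 : (n : k) * G.coeff n = 0 := by
    rw [← theta_coeff, h, HahnSeries.coeff_zero]
  rcases mul_eq_zero.mp h1 with h0 | h0
  · exact absurd ((CharP.intCast_eq_zero_iff k p n).mp h0) hn
  · exact h0

/-- `θ G = 0 ⇒ G = (U_p G)(q^p)`. -/
theorem qExpand_heckeU_of_theta_eq_zero {G : LaurentSeries k} (h : theta G = 0) :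
    haveI : NeZero p := ⟨hp.out.ne_zero⟩
    qExpand k p (heckeU p G) = G := by
  have : NeZero p := ⟨hp.out.ne_zero⟩
  ext n
  by_cases hn : (p : ℤ) ∣ n
  · obtain ⟨m, rfl⟩ := hn
    rw [qExpand_coeff_mul, heckeU_coeff]
  · rw [qExpand_coeff_of_not_dvd p _ hn, coeff_eq_zero_of_theta_eq_zero p h hn]

/-- `θ (H ^ p) = 0` in characteristic `p`. -/
theorem theta_pow_char (H : LaurentSeries k) : theta (H ^ p) = 0 := by
  obtain ⟨m, hm⟩ := Nat.exists_eq_succ_of_ne_zero hp.out.ne_zero
  have h0 : ((m + 1 : ℕ) : LaurentSeries k) = 0 := by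
    rw [← Nat.succ_eq_add_one, ← hm, ← map_natCast (HahnSeries.C : k →+* LaurentSeries k) p,
      CharP.cast_eq_zero k p, map_zero]
  rw [hm, Nat.succ_eq_add_one, theta_pow, h0, zero_mul, zero_mul]

variable [PerfectField k]

/-- **`θ G = 0 ⇒ G` is a `p`-th power in `k((q))`.** -/
theorem exists_pow_eq_of_theta_eq_zero {G : LaurentSeries k} (h : theta G = 0) :
    ∃ H : LaurentSeries k, H ^ p = G := by
  have : NeZero p := ⟨hp.out.ne_zero⟩
  refine ⟨coeffMap ((frobeniusEquiv k p).symm : k →+* k) (heckeU p G), ?_⟩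
  rw [Fermat.Agent.ES.KRON.KronCong24.pow_char p, coeffMap_coeffMap]
  have hid : (frobenius k p).comp ((frobeniusEquiv k p).symm : k →+* k) = RingHom.id k := by
    ext a
    simp
  rw [hid, coeffMap_id]
  exact qExpand_heckeU_of_theta_eq_zero p h

/-- **(KerD), abstract form**: in an intermediate field `E` of `k((q)) / k`, finite over `k(x)` for some
`x ∈ E` of order `-1`, the kernel of `θ` is `E^p`. -/
theorem exists_mem_pow_eq_of_theta_eq_zero (E : IntermediateField k (LaurentSeries k))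
    {x : LaurentSeries k} (hx : x.order = -1) (hxE : k⟮x⟯ ≤ E) (hfin : relfinrank k⟮x⟯ E ≠ 0)
    {G : LaurentSeries k} (hG : G ∈ E) (h : theta G = 0) :
    ∃ H : LaurentSeries k, H ∈ E ∧ H ^ p = G := by
  obtain ⟨H, hH⟩ := exists_pow_eq_of_theta_eq_zero p h
  obtain ⟨hfd, hsep⟩ :=
    Fermat.Agent.ES.RED.SpecialDegree25.finite_and_separable_of_order p hx E hxE hfin
  have hx0 : x ≠ 0 := by
    rintro rfl
    rw [HahnSeries.order_zero] at hx
    omega
  have hcop : IsCoprime x.order (p : ℤ) := by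
    rw [hx]
    exact (isCoprime_one_left (x := (p : ℤ))).neg_left
  have hmem : H ∈ extendScalars hxE :=
    Fermat.Agent.RED.PUR.SepLaurent25.mem_of_pow_mem p hx0 hcop (extendScalars hxE)
      (by rw [hH]; exact hG)
  exact ⟨H, hmem, hH⟩

end Abstract

/-- **(KerD) on the special fibre field `F̃_M`**, `p ∤ M`, `k` perfect of characteristic `p`:
`G ∈ F̃_M`, `θ G = 0 ⇒ G = H ^ p` with `H ∈ F̃_M`. -/
theorem kerTheta_fullC (k : Type) [Field k] [PerfectField k] (p : ℕ) [Fact p.Prime] [CharP k p]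
    (M : ℕ) [NeZero M] (hpM : ¬ p ∣ M) (G : ↥(modularFunctionFieldFullC k M))
    (h : theta (G : LaurentSeries k) = 0) :
    ∃ H : ↥(modularFunctionFieldFullC k M), H ^ p = G := by
  have hxE : k⟮jqModC k⟯ ≤ modularFunctionFieldFullC k M :=
    adjoin_simple_le_iff.mpr (jqModC_mem_full k M)
  have hfin : relfinrank k⟮jqModC k⟯ (modularFunctionFieldFullC k M) ≠ 0 := by
    rw [Fermat.Agent.RED.PUR.DegBaseChange25.relfinrank_fullC_eq_psi_of_charP p k M hpM]
    exact (Fermat.Agent.X0.GNPsi.gnp_dedekindPsi_pos (NeZero.ne M)).ne'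
  obtain ⟨H, hHE, hH⟩ := exists_mem_pow_eq_of_theta_eq_zero p (modularFunctionFieldFullC k M)
    (Fermat.Agent.IG.AN.ModPoly3.order_jqModC k) hxE hfin G.2 h
  exact ⟨⟨H, hHE⟩, Subtype.ext hH⟩

end Fermat.Agent.ES.X44.KerTheta5
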