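/-
Programme X (S44), chapter (W2), leaf "θ-log" (helper5), part 2: **the logarithmic derivative on
`q`-series and THE DEDUCTION: the reduced product identity gives a `T_ℓ`-eigenvector.**

`k` a field, `K = k((q)) = LaurentSeries k` (a field), `dlog f = θ f / f`.

* `dlog_mul`, `dlog_pow`, `dlog_prod`, `dlog_C`, `dlog_one`, `dlog_twistU : dlog (f(u q)) = (dlog f)(u q)`,
  `dlog_qExpand : dlog (f(q^m)) = m · (dlog f)(q^m)`, `dlog_pow_char : dlog (u ^ p) = 0` in characteristic `p`;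
* **`heckeT_dlog`** : `ζ` a primitive `ℓ`-th root of unity of `k`, `ℓ ≠ 0` in `k`, `char k = p`, `G, u ≠ 0`, `c ≠ 0`:
  if `normProd ℓ ζ G · (G^m)(q^ℓ) = (c · G^n · u^p)(q^ℓ)` then `T_ℓ (θG/G) = (n - m) • (θG/G)`
  (`normProd ℓ ζ G = ∏_{b<ℓ} G(ζ^b q) · G(q^{ℓ²})` is main's `KRON/KronNorm10.normProd`, the `q`-expansion of
  `N_α(β G)(q^ℓ)` by main's `ConjAlpha24.qExpand_normAlong_alpha`);
* `heckeT_dlog_int` : the same with `m = (-a).toNat`, `n = a.toNat`, `a : ℤ`: eigenvalue `a`.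
-/
import Mathlib
import Fermat.Agent.ES.X44.QOps5
import Fermat.Agent.ES.KRON.KronNorm10

set_option autoImplicit false

open HahnSeries ModularCurve

noncomputable section

namespace Fermat.Agent.ES.X44.ThetaLogQ5

open Fermat.Agent.IG.PR.Theta20 Fermat.Agent.ES.KRON.KronCong24 Fermat.Agent.ES.KRON.KronNorm10
  Fermat.Agent.ES.X44.QOps5

variable {k : Type*} [Field k]

/-! ### The logarithmic derivative -/

/-- `dlog f = θ f / f`. -/
def dlog (f : LaurentSeries k) : LaurentSeries k := theta f / f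

theorem dlog_one : dlog (1 : LaurentSeries k) = 0 := by
  unfold dlog
  rw [theta_one, zero_div]

theorem dlog_C (c : k) : dlog (HahnSeries.C c : LaurentSeries k) = 0 := by
  unfold dlog
  rw [theta_C, zero_div]

theorem dlog_mul {f g : LaurentSeries k} (hf : f ≠ 0) (hg : g ≠ 0) :
    dlog (f * g) = dlog f + dlog g := by
  unfold dlog
  rw [theta_mul]
  field_simp

theorem dlog_pow {f : LaurentSeries k} (hf : f ≠ 0) (n : ℕ) :
    dlog (f ^ n) = (n : LaurentSeries k) * dlog f := by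
  induction n with
  | zero => rw [pow_zero, dlog_one, Nat.cast_zero, zero_mul]
  | succ n ih =>
    rw [pow_succ, dlog_mul (pow_ne_zero n hf) hf, ih]
    push_cast
    ring

theorem dlog_prod {ι : Type*} (s : Finset ι) (f : ι → LaurentSeries k)
    (hf : ∀ i ∈ s, f i ≠ 0) : dlog (∏ i ∈ s, f i) = ∑ i ∈ s, dlog (f i) := by
  classical
  induction s using Finset.induction_on with
  | empty => rw [Finset.prod_empty, Finset.sum_empty, dlog_one]
  | insert a s ha ih =>
    rw [Finset.prod_insert ha, Finset.sum_insert ha,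
      dlog_mul (hf a (Finset.mem_insert_self a s))
        (Finset.prod_ne_zero_iff.mpr fun i hi => hf i (Finset.mem_insert_of_mem hi)),
      ih fun i hi => hf i (Finset.mem_insert_of_mem hi)]

theorem dlog_twistU (u : kˣ) (f : LaurentSeries k) : dlog (twistU u f) = twistU u (dlog f) := by
  unfold dlog
  rw [theta_twistU, map_div₀]

theorem dlog_qExpand (m : ℕ) [NeZero m] (f : LaurentSeries k) :
    dlog (qExpand k m f) = (m : LaurentSeries k) * qExpand k m (dlog f) := by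
  unfold dlog
  rw [theta_qExpand, map_div₀, mul_div_assoc]

/-- `(p : k((q))) = 0` in characteristic `p`. -/
theorem natCast_char_eq_zero (p : ℕ) [CharP k p] : ((p : ℕ) : LaurentSeries k) = 0 := by
  rw [← map_natCast (HahnSeries.C : k →+* LaurentSeries k) p, CharP.cast_eq_zero k p, map_zero]

theorem dlog_pow_char (p : ℕ) [CharP k p] {u : LaurentSeries k} (hu : u ≠ 0) :
    dlog (u ^ p) = 0 := by
  rw [dlog_pow hu, natCast_char_eq_zero p, zero_mul]

/-! ### The deduction -/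

section Deduction

variable (ℓ : ℕ) [NeZero ℓ]

omit [NeZero ℓ] in
theorem natCast_ne_zero_of (hℓ : (ℓ : k) ≠ 0) : ((ℓ : ℕ) : LaurentSeries k) ≠ 0 := by
  rw [← map_natCast (HahnSeries.C : k →+* LaurentSeries k) ℓ]
  exact fun h => hℓ (HahnSeries.C_injective (by rw [h, map_zero]))

/-- `normProd` unfolded. -/
theorem normProd_eq (ζ : kˣ) (G : LaurentSeries k) :
    normProd ℓ ζ G = (∏ b ∈ Finset.range ℓ, twistU (ζ ^ b) G) * qExpand k (ℓ ^ 2) G := rfl

/-- `G(q^{ℓ²}) = (G(q^ℓ))(q^ℓ)`. -/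
theorem qExpand_sq (G : LaurentSeries k) :
    qExpand k (ℓ ^ 2) G = qExpand k ℓ (qExpand k ℓ G) := by
  rw [qExpand_qExpand]
  exact qExpand_congr (pow_two ℓ) G

/-- **THE DEDUCTION.**  The reduced product identity gives a `T_ℓ`-eigenvector `θG/G`. -/
theorem heckeT_dlog (p : ℕ) [CharP k p] (hℓ : (ℓ : k) ≠ 0) (ζ : kˣ) (hζ : IsPrimitiveRoot ζ ℓ)
    {G u : LaurentSeries k} (hG : G ≠ 0) (hu : u ≠ 0) {c : k} (hc : c ≠ 0) (m n : ℕ)
    (h : normProd ℓ ζ G * qExpand k ℓ (G ^ m) =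
      qExpand k ℓ (HahnSeries.C c * G ^ n * u ^ p)) :
    heckeT ℓ (dlog G) = ((n : k) - (m : k)) • dlog G := by
  have hV : ∀ {f : LaurentSeries k}, f ≠ 0 → qExpand k ℓ f ≠ 0 := fun hf h0 =>
    hf (qExpand_injective ℓ (by rw [h0, map_zero]))
  have hV2 : qExpand k (ℓ ^ 2) G ≠ 0 := fun h0 =>
    hG (qExpand_injective (ℓ ^ 2) (by rw [h0, map_zero]))
  have hTw : ∀ b ∈ Finset.range ℓ, twistU (ζ ^ b) G ≠ 0 := fun b _ h0 =>
    hG ((twistU (ζ ^ b)).injective (by rw [h0, map_zero]))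
  have hprod : (∏ b ∈ Finset.range ℓ, twistU (ζ ^ b) G) ≠ 0 := Finset.prod_ne_zero_iff.mpr hTw
  have hCc : (HahnSeries.C c : LaurentSeries k) ≠ 0 := fun h0 =>
    hc (HahnSeries.C_injective (by rw [h0, map_zero]))
  have hGm : G ^ m ≠ 0 := pow_ne_zero m hG
  have hGn : G ^ n ≠ 0 := pow_ne_zero n hG
  have hup : u ^ p ≠ 0 := pow_ne_zero p hu
  -- the logarithmic derivative of the left-hand side
  have hL : dlog (normProd ℓ ζ G * qExpand k ℓ (G ^ m)) =
      qExpand k ℓ ((ℓ : LaurentSeries k) * heckeU ℓ (dlog G)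
        + (ℓ : LaurentSeries k) * ((ℓ : LaurentSeries k) * qExpand k ℓ (dlog G))
        + (ℓ : LaurentSeries k) * ((m : LaurentSeries k) * dlog G)) := by
    rw [normProd_eq, dlog_mul (mul_ne_zero hprod hV2) (hV hGm), dlog_mul hprod hV2,
      dlog_prod _ _ hTw, dlog_qExpand, dlog_qExpand, dlog_pow hG, qExpand_sq]
    have h1 : ∑ b ∈ Finset.range ℓ, dlog (twistU (ζ ^ b) G) =
        HahnSeries.C (ℓ : k) * qExpand k ℓ (heckeU ℓ (dlog G)) := by
      rw [← sum_twistU ℓ ζ hζ (dlog G)]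
      exact Finset.sum_congr rfl fun b _ => dlog_twistU _ _
    rw [h1]
    generalize heckeU ℓ (dlog G) = X
    generalize dlog G = B
    simp only [map_add, map_mul, map_natCast]
    push_cast
    ring
  -- the logarithmic derivative of the right-hand side
  have hR : dlog (qExpand k ℓ (HahnSeries.C c * G ^ n * u ^ p)) =
      qExpand k ℓ ((ℓ : LaurentSeries k) * ((n : LaurentSeries k) * dlog G)) := by
    rw [dlog_qExpand, dlog_mul (mul_ne_zero hCc hGn) hup, dlog_mul hCc hGn, dlog_C, zero_add,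
      dlog_pow hG, dlog_pow_char p hu, add_zero]
    generalize dlog G = B
    simp only [map_mul, map_natCast]
  have hkey := congrArg dlog h
  rw [hL, hR] at hkey
  have hkey' := qExpand_injective ℓ hkey
  have hℓK := natCast_ne_zero_of (k := k) ℓ hℓ
  have hfin : heckeU ℓ (dlog G) + (ℓ : LaurentSeries k) * qExpand k ℓ (dlog G) =
      ((n : LaurentSeries k) - (m : LaurentSeries k)) * dlog G := by
    apply mul_left_cancel₀ hℓK
    linear_combination hkey'
  rw [heckeT_apply, map_natCast (HahnSeries.C : k →+* LaurentSeries k) ℓ, hfin,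
    ← HahnSeries.C_mul_eq_smul, map_sub, map_natCast, map_natCast]

/-- **THE DEDUCTION, integer exponent**: eigenvalue `a`. -/
theorem heckeT_dlog_int (p : ℕ) [CharP k p] (hℓ : (ℓ : k) ≠ 0) (ζ : kˣ) (hζ : IsPrimitiveRoot ζ ℓ)
    {G u : LaurentSeries k} (hG : G ≠ 0) (hu : u ≠ 0) {c : k} (hc : c ≠ 0) (a : ℤ)
    (h : normProd ℓ ζ G * qExpand k ℓ (G ^ (-a).toNat) =
      qExpand k ℓ (HahnSeries.C c * G ^ a.toNat * u ^ p)) :
    heckeT ℓ (dlog G) = (a : k) • dlog G := by
  rw [heckeT_dlog ℓ p hℓ ζ hζ hG hu hc _ _ h]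
  congr 1
  have ha : ((a.toNat : ℤ)) - ((-a).toNat : ℤ) = a := Int.toNat_sub_toNat_neg a
  have := congrArg (Int.cast : ℤ → k) ha
  push_cast at this
  exact this

end Deduction

end Fermat.Agent.ES.X44.ThetaLogQ5
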