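/-
Programme X (S44), chapter (QH), leaf (KerD), second half (helper5): **non-vanishing of `θ Ḡ` and of
`dḠ/Ḡ` from the divisor of `Ḡ`.**

`k` perfect of characteristic `p`, `p ∤ M`, `F̃ = modularFunctionFieldFullC k M ⊆ k((q))`.

* `ord_pow_char` : `ord_Q (H ^ p) = p * ord_Q H`;
* `isPrincipal_of_pow_eq` : `G = H ^ p ≠ 0`, `ord_Q G = p * D Q` for all `Q` ⇒ `D = div H` is principal;
* **`theta_ne_zero_of_not_isPrincipal`** : `G ≠ 0`, `div G = p • D` with `D` NOT principal ⇒ `θ G ≠ 0`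
  (`KerTheta5.kerTheta_fullC`);
* **`dlog_ne_zero_of_not_isPrincipal`** : the same for `dlog G = θ G / G` (`ThetaLogQ5.dlog`), and
  `theta_mul_inv_ne_zero_of_not_isPrincipal` for the spelling `θ G * G⁻¹`.
-/
import Mathlib
import Fermat.Prelude.Def_AlgebraicCurve_DivisorClassGroup
import Fermat.Agent.ES.X44.KerTheta5
import Fermat.Agent.ES.X44.ThetaLogQ5

set_option autoImplicit false

open HahnSeries ModularCurve AlgebraicCurve

noncomputable section

namespace Fermat.Agent.ES.X44.KerThetaDiv5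

open Fermat.Agent.IG.PR.Theta20 Fermat.Agent.ES.X44.KerTheta5 Fermat.Agent.ES.X44.ThetaLogQ5

section abstract

variable {K F : Type*} [Field K] [Field F] [Algebra K F]

/-- `ord_Q (H ^ n) = n * ord_Q H`. -/
theorem ord_pow_nat (Q : Place K F) (H : F) (n : ℕ) : Q.ord (H ^ n) = (n : ℤ) * Q.ord H := by
  rw [← zpow_natCast, Q.ord_zpow]

/-- if `G = H ^ n ≠ 0`, `n ≠ 0`, and `div G = n • D`, then `D = div H` is principal. -/
theorem isPrincipal_of_pow_eq {G H : F} {n : ℕ} (hn : n ≠ 0) (hG : G ≠ 0) (hH : H ^ n = G)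
    {D : Divisor K F} (hD : ∀ Q : Place K F, Q.ord G = (n : ℤ) * D Q) : Divisor.IsPrincipal D := by
  refine ⟨H, ?_, fun Q => ?_⟩
  · rintro rfl
    rw [zero_pow hn] at hH
    exact hG hH.symm
  · have h1 : (n : ℤ) * D Q = (n : ℤ) * Q.ord H := by
      rw [← hD Q, ← hH, ord_pow_nat]
    exact mul_left_cancel₀ (Int.natCast_ne_zero.mpr hn) h1

end abstract

variable (k : Type) [Field k] [PerfectField k] (p : ℕ) [hp : Fact p.Prime] [CharP k p]
  (M : ℕ) [NeZero M]

/-- **`θ G ≠ 0`** for `G ∈ F̃_M`, `G ≠ 0`, whose divisor is `p • D` with `D` not principal. -/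
theorem theta_ne_zero_of_not_isPrincipal (hpM : ¬ p ∣ M) (G : ↥(modularFunctionFieldFullC k M))
    (hG : G ≠ 0) (D : Divisor k ↥(modularFunctionFieldFullC k M))
    (hD : ∀ Q : Place k ↥(modularFunctionFieldFullC k M), Q.ord G = (p : ℤ) * D Q)
    (hnp : ¬ Divisor.IsPrincipal D) : theta (G : LaurentSeries k) ≠ 0 := by
  intro h
  obtain ⟨H, hH⟩ := kerTheta_fullC k p M hpM G h
  exact hnp (isPrincipal_of_pow_eq hp.out.ne_zero hG hH hD)

/-- **`dG/G ≠ 0`** (`dlog G = θ G / G`) under the same hypotheses. -/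
theorem dlog_ne_zero_of_not_isPrincipal (hpM : ¬ p ∣ M) (G : ↥(modularFunctionFieldFullC k M))
    (hG : G ≠ 0) (D : Divisor k ↥(modularFunctionFieldFullC k M))
    (hD : ∀ Q : Place k ↥(modularFunctionFieldFullC k M), Q.ord G = (p : ℤ) * D Q)
    (hnp : ¬ Divisor.IsPrincipal D) : dlog (G : LaurentSeries k) ≠ 0 := by
  have h1 := theta_ne_zero_of_not_isPrincipal k p M hpM G hG D hD hnp
  have h2 : (G : LaurentSeries k) ≠ 0 := fun h0 => hG (Subtype.ext h0)
  exact div_ne_zero h1 h2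

/-- the same for the spelling `θ G * G⁻¹`. -/
theorem theta_mul_inv_ne_zero_of_not_isPrincipal (hpM : ¬ p ∣ M)
    (G : ↥(modularFunctionFieldFullC k M))
    (hG : G ≠ 0) (D : Divisor k ↥(modularFunctionFieldFullC k M))
    (hD : ∀ Q : Place k ↥(modularFunctionFieldFullC k M), Q.ord G = (p : ℤ) * D Q)
    (hnp : ¬ Divisor.IsPrincipal D) :
    theta (G : LaurentSeries k) * (G : LaurentSeries k)⁻¹ ≠ 0 := by
  have h1 := theta_ne_zero_of_not_isPrincipal k p M hpM G hG D hD hnp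
  have h2 : (G : LaurentSeries k) ≠ 0 := fun h0 => hG (Subtype.ext h0)
  exact mul_ne_zero h1 (inv_ne_zero h2)

end Fermat.Agent.ES.X44.KerThetaDiv5
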