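/-
Programme X (S44), chapter (QH), helper5: **bridge from the operator form of the `θ`-log deduction to the
coefficientwise border literal of `X44/EigQLit9` (helper9).**

* `dlogQ_eq_dlog` : `EigQLit9.dlogQ G = ThetaLogQ5.dlog G` (`θ G * G⁻¹ = θ G / G`);
* `isHeckeEigQ_of_heckeT` : `heckeT ℓ b = c • b ⇒ IsHeckeEigQ ℓ c b`
  (`heckeT = U_ℓ + ℓ V_ℓ` of `X44/QOps5`);
* `isHeckeEigQ_iff_heckeT` : the two are equivalent;
* **`isHeckeEigQ_dlogQ`** : the norm relation on `q`-expansions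
  `normProd ℓ ζ G * (G ^ (-a).toNat)(q^ℓ) = (C c * G ^ a.toNat * u ^ p)(q^ℓ)` (helper7's `EigQM`)
  ⇒ `IsHeckeEigQ ℓ (a : k) (dlogQ G)`;
* **`dlogQ_ne_zero_of_not_isPrincipal`** : `div G = p • D`, `D` not principal ⇒ `dlogQ G ≠ 0`.
-/
import Mathlib
import Fermat.Agent.ES.X44.EigQLit9
import Fermat.Agent.ES.X44.ThetaLogQ5
import Fermat.Agent.ES.X44.KerThetaDiv5

set_option autoImplicit false

open HahnSeries ModularCurve AlgebraicCurve

noncomputable section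

namespace Fermat.Agent.ES.X44.EigQBridge5

open Fermat.Agent.IG.PR.Theta20 Fermat.Agent.ES.X44.QOps5 Fermat.Agent.ES.X44.ThetaLogQ5
  Fermat.Agent.ES.X44.EigQLit9 Fermat.Agent.ES.KRON.KronNorm10

variable {k : Type*} [Field k]

/-- the two spellings of `dG/G`. -/
theorem dlogQ_eq_dlog (G : LaurentSeries k) : dlogQ G = dlog G :=
  (div_eq_mul_inv (theta G) G).symm

variable (ℓ : ℕ) [NeZero ℓ]

/-- the coefficientwise form of `T_ℓ b`. -/
theorem heckeT_coeff (b : LaurentSeries k) (n : ℤ) :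
    (heckeT ℓ b).coeff n =
      b.coeff (n * (ℓ : ℤ)) + (ℓ : k) * (if (ℓ : ℤ) ∣ n then b.coeff (n / (ℓ : ℤ)) else 0) := by
  have hℓ : (ℓ : ℤ) ≠ 0 := Int.natCast_ne_zero.mpr (NeZero.ne ℓ)
  by_cases hn : (ℓ : ℤ) ∣ n
  · obtain ⟨m, rfl⟩ := hn
    rw [heckeT_coeff_mul, if_pos (dvd_mul_right _ _), Int.mul_ediv_cancel_left m hℓ,
      mul_comm ((ℓ : ℤ) * m) (ℓ : ℤ)]
  · rw [heckeT_coeff_of_not_dvd ℓ b hn, if_neg hn, mul_zero, add_zero, mul_comm]

/-- **operator form ⇔ coefficientwise literal.** -/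
theorem isHeckeEigQ_iff_heckeT (c : k) (b : LaurentSeries k) :
    IsHeckeEigQ ℓ c b ↔ heckeT ℓ b = c • b := by
  constructor
  · intro h
    ext n
    rw [heckeT_coeff, HahnSeries.coeff_smul, smul_eq_mul]
    exact h n
  · intro h n
    rw [← heckeT_coeff, h, HahnSeries.coeff_smul, smul_eq_mul]

theorem isHeckeEigQ_of_heckeT {c : k} {b : LaurentSeries k} (h : heckeT ℓ b = c • b) :
    IsHeckeEigQ ℓ c b :=
  (isHeckeEigQ_iff_heckeT ℓ c b).mpr h

/-- **the `θ`-log deduction, literal form**: the norm relation on `q`-expansions gives the `T_ℓ`-eigen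
property of `dlogQ G` with eigenvalue `a`. -/
theorem isHeckeEigQ_dlogQ (p : ℕ) [CharP k p] {ζ : kˣ} (hζ : IsPrimitiveRoot ζ ℓ)
    (hℓk : (ℓ : k) ≠ 0) {G u : LaurentSeries k} (hG : G ≠ 0) (hu : u ≠ 0) {c : k} (hc : c ≠ 0)
    (a : ℤ)
    (h : normProd ℓ ζ G * qExpand k ℓ (G ^ (-a).toNat) =
      qExpand k ℓ (HahnSeries.C c * G ^ a.toNat * u ^ p)) :
    IsHeckeEigQ ℓ (a : k) (dlogQ G) := by
  rw [dlogQ_eq_dlog]
  exact isHeckeEigQ_of_heckeT ℓ (heckeT_dlog_int ℓ p hℓk ζ hζ hG hu hc a h)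

/-- **non-vanishing of `dlogQ G`** from the divisor of `G`. -/
theorem dlogQ_ne_zero_of_not_isPrincipal (κ : Type) [Field κ] [PerfectField κ] (p : ℕ)
    [Fact p.Prime] [CharP κ p] (M : ℕ) [NeZero M] (hpM : ¬ p ∣ M)
    (G : ↥(modularFunctionFieldFullC κ M)) (hG : G ≠ 0)
    (D : Divisor κ ↥(modularFunctionFieldFullC κ M))
    (hD : ∀ Q : Place κ ↥(modularFunctionFieldFullC κ M), Q.ord G = (p : ℤ) * D Q)
    (hnp : ¬ Divisor.IsPrincipal D) : dlogQ (G : LaurentSeries κ) ≠ 0 := by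
  rw [dlogQ_eq_dlog]
  exact KerThetaDiv5.dlog_ne_zero_of_not_isPrincipal κ p M hpM G hG D hD hnp

end Fermat.Agent.ES.X44.EigQBridge5
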