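/-
Programme X (S44), chapter (QH), helper5: **consumers of the exit shape of `ThetaFix7.theta_fix`** (complement
of `X44/EigQBridge5`, which is byte-frozen in the trunk).

* `isHeckeEigQ_dlogQ_of_isTh` : from `X(q^ℓ) = normProd ℓ ζ G` (`ThetaQ7.IsTh ℓ ζ G X`, by delta) and
  `X * G ^ (-a).toNat = C c * G ^ a.toNat * u ^ p` ⇒ `IsHeckeEigQ ℓ (a : k) (dlogQ G)`;
* **`isHeckeEigQ_dlogQ_fullC`** : the same for `X G u : ↥(modularFunctionFieldFullC κ M)` and the relation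
  `X * G ^ (-a).toNat = algebraMap κ _ c * G ^ a.toNat * u ^ p` IN the function field (the exit shape of
  `ThetaFix7.theta_fix`); `isHeckeEigQ_dlogQ_fullC'` : the constant as any `c' : Ft` with `↑c' = C c`;
* `theta_eq_zero_iff_coeff` : in characteristic `p`, `θ G = 0 ↔ ∀ n, ¬ p ∣ n → G.coeff n = 0`.
-/
import Mathlib
import Fermat.Agent.ES.X44.EigQBridge5
import Fermat.Agent.RED.PUR.GaussGen8

set_option autoImplicit false

open HahnSeries ModularCurve AlgebraicCurve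

noncomputable section

namespace Fermat.Agent.ES.X44.EigQRel5

open Fermat.Agent.IG.PR.Theta20 Fermat.Agent.ES.X44.QOps5 Fermat.Agent.ES.X44.ThetaLogQ5
  Fermat.Agent.ES.X44.EigQLit9 Fermat.Agent.ES.KRON.KronNorm10 Fermat.Agent.ES.X44.EigQBridge5

variable {k : Type*} [Field k] (ℓ : ℕ) [NeZero ℓ]

/-- from `X(q^ℓ) = normProd ℓ ζ G` and `X * G ^ a⁻ = C c * G ^ a⁺ * u ^ p`. -/
theorem isHeckeEigQ_dlogQ_of_isTh (p : ℕ) [CharP k p] {ζ : kˣ} (hζ : IsPrimitiveRoot ζ ℓ)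
    (hℓk : (ℓ : k) ≠ 0) {G u X : LaurentSeries k} (hG : G ≠ 0) (hu : u ≠ 0) {c : k} (hc : c ≠ 0)
    (a : ℤ) (hX : qExpand k ℓ X = normProd ℓ ζ G)
    (hrel : X * G ^ (-a).toNat = HahnSeries.C c * G ^ a.toNat * u ^ p) :
    IsHeckeEigQ ℓ (a : k) (dlogQ G) := by
  refine isHeckeEigQ_dlogQ ℓ p hζ hℓk hG hu hc a ?_
  rw [← hX, ← map_mul, hrel]

/-- **the exit shape of `ThetaFix7.theta_fix`** at `Ft = ↥(modularFunctionFieldFullC κ M)`, the constant
given as ANY element `c'` of `Ft` whose `q`-expansion is `C c` (robust to the choice of the `Algebra κ Ft`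
instance). -/
theorem isHeckeEigQ_dlogQ_fullC' (κ : Type) [Field κ] (p : ℕ) [CharP κ p] (M : ℕ) [NeZero M]
    {ζ : κˣ} (hζ : IsPrimitiveRoot ζ ℓ) (hℓk : (ℓ : κ) ≠ 0)
    {G u X c' : ↥(modularFunctionFieldFullC κ M)} (hG : G ≠ 0) (hu : u ≠ 0) {c : κ} (hc : c ≠ 0)
    (hc' : (c' : LaurentSeries κ) = HahnSeries.C c)
    (a : ℤ) (hX : qExpand κ ℓ (X : LaurentSeries κ) = normProd ℓ ζ (G : LaurentSeries κ))
    (hrel : X * G ^ (-a).toNat = c' * G ^ a.toNat * u ^ p) :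
    IsHeckeEigQ ℓ (a : κ) (dlogQ (G : LaurentSeries κ)) := by
  have hG' : (G : LaurentSeries κ) ≠ 0 := fun h0 => hG (Subtype.ext h0)
  have hu' : (u : LaurentSeries κ) ≠ 0 := fun h0 => hu (Subtype.ext h0)
  refine isHeckeEigQ_dlogQ_of_isTh ℓ p hζ hℓk hG' hu' hc a hX ?_
  have h1 := congrArg (Subtype.val : ↥(modularFunctionFieldFullC κ M) → LaurentSeries κ) hrel
  rw [show ((X * G ^ (-a).toNat : ↥(modularFunctionFieldFullC κ M)) : LaurentSeries κ) =
    (X : LaurentSeries κ) * (G : LaurentSeries κ) ^ (-a).toNat from rfl] at h1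
  rw [← hc', h1]
  rfl

/-- the same with `c' = algebraMap κ Ft c`. -/
theorem isHeckeEigQ_dlogQ_fullC (κ : Type) [Field κ] (p : ℕ) [CharP κ p] (M : ℕ) [NeZero M]
    {ζ : κˣ} (hζ : IsPrimitiveRoot ζ ℓ) (hℓk : (ℓ : κ) ≠ 0)
    {G u X : ↥(modularFunctionFieldFullC κ M)} (hG : G ≠ 0) (hu : u ≠ 0) {c : κ} (hc : c ≠ 0)
    (a : ℤ) (hX : qExpand κ ℓ (X : LaurentSeries κ) = normProd ℓ ζ (G : LaurentSeries κ))
    (hrel : X * G ^ (-a).toNat =
      algebraMap κ ↥(modularFunctionFieldFullC κ M) c * G ^ a.toNat * u ^ p) :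
    IsHeckeEigQ ℓ (a : κ) (dlogQ (G : LaurentSeries κ)) :=
  isHeckeEigQ_dlogQ_fullC' ℓ κ p M hζ hℓk hG hu hc
    (Fermat.Agent.RED.PUR.GaussGen8.algebraMap_eq_C c) a hX hrel

omit [NeZero ℓ] in
/-- **the hinge to the coefficientwise (KerD)**: in characteristic `p`, `θ G = 0` iff `G` is supported on the
multiples of `p`. -/
theorem theta_eq_zero_iff_coeff (p : ℕ) [CharP k p] (G : LaurentSeries k) :
    theta G = 0 ↔ ∀ n : ℤ, ¬ (p : ℤ) ∣ n → G.coeff n = 0 := by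
  constructor
  · intro h n hn
    have h1 : (n : k) * G.coeff n = 0 := by
      rw [← theta_coeff, h, HahnSeries.coeff_zero]
    rcases mul_eq_zero.mp h1 with h0 | h0
    · exact absurd ((CharP.intCast_eq_zero_iff k p n).mp h0) hn
    · exact h0
  · intro h
    ext n
    rw [theta_coeff, HahnSeries.coeff_zero]
    by_cases hn : (p : ℤ) ∣ n
    · rw [(CharP.intCast_eq_zero_iff k p n).mpr hn, zero_mul]
    · rw [h n hn, mul_zero]

end Fermat.Agent.ES.X44.EigQRel5
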