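/-
Programme X (S44), chapter (QH), helper8: **the divisor-level inputs of `ThetaRel7.theta_rel` at a level
`N`, `ℓ ∤ N` prime** (characteristic `0`, main only).

`T = heckeT N ℓ` is the Prelude's `heckeDivBar` (`= α_* β^*` on divisors) with main's integrality proofs,
`Θ = ThetaFricke21.theta N ℓ = N_α ∘ β`.

* `heckeT_eq_ord_theta` : `div f = E ⇒ div (Θ f) = T E`            (the hypothesis `hΘ` of `theta_rel`);
* `theta_hyp`           : the same in the literal shape of `hΘ`;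
* `heckeOperatorBar_isRep` : `D` represents `x` ⇒ `T D` represents `T_ℓ x`;
* `exists_div_hecke_sub`   : `T_ℓ x = a • x`, `D` represents `x` ⇒ `T D - a • D = div u`
                             (the hypothesis `hu` of `theta_rel`).
-/
import Mathlib
import Fermat.Agent.ES.HECKE.PointFormula28
import Fermat.Agent.ES.HECKE.InputsFinal15
import Fermat.Agent.ES.W33.XiIfaceN29
import Fermat.Agent.ES.X44.ThetaFricke21

set_option autoImplicit false
set_option linter.unusedSectionVars false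
set_option linter.style.haveILetI false

open ModularCurve AlgebraicCurve

noncomputable section

namespace Fermat.Agent.ES.X44.HeckeRelInst8

open Fermat.Agent.X0 Fermat.Agent.ES.HECKE Fermat.Agent.ES.HECKE.PointFormula28
  Fermat.Agent.ES.W33.XiIfaceN29 Fermat.Agent.ES.X44.ThetaFricke21

variable (N ℓ : ℕ) [NeZero N] [NeZero ℓ]

/-- **`T_ℓ` on the divisors of level `N`** (`ℓ ∤ N` prime): the Prelude's `heckeDivBar`. -/
def heckeT (hℓ : ℓ.Prime) (hℓN : ¬ ℓ ∣ N) : Divisor Kbar (FF N) →+ Divisor Kbar (FF N) :=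
  haveI := InputsMain19.hasPrincipalDivisors_level N ℓ
  heckeDivBar (AlongDegree25.heckeAlphaBarIntegral Kbar N ℓ hℓ hℓN)
    (AlongDegree25.heckeBetaBarIntegral Kbar N ℓ hℓ hℓN)

/-- **`div (Θ f) = T_ℓ (div f)`.** -/
theorem heckeT_eq_ord_theta (hℓ : ℓ.Prime) (hℓN : ¬ ℓ ∣ N) {f : FF N} (hf : f ≠ 0)
    {E : Divisor Kbar (FF N)} (hE : ∀ P : Place Kbar (FF N), E P = P.ord f)
    (P : Place Kbar (FF N)) : heckeT N ℓ hℓ hℓN E P = P.ord (theta N ℓ f) := by
  haveI := InputsMain19.hasPrincipalDivisors_level N ℓ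
  exact correspondence_eq_ord_norm (heckeBetaBar Kbar N ℓ) (heckeAlphaBar Kbar N ℓ)
    (AlongDegree25.heckeBetaBarIntegral Kbar N ℓ hℓ hℓN)
    (AlongDegree25.heckeAlphaBarIntegral Kbar N ℓ hℓ hℓN)
    (AlongDegree25.finiteAlong_alpha Kbar N ℓ hℓ hℓN)
    (InputsFinal15.normFormulaAlong_alpha N ℓ hℓ hℓN) hf hE P

/-- the hypothesis `hΘ` of `ThetaRel7.theta_rel`, literally. -/
theorem theta_hyp (hℓ : ℓ.Prime) (hℓN : ¬ ℓ ∣ N) (f : FF N) (hf : f ≠ 0) :
    theta N ℓ f ≠ 0 ∧ ∀ E : Divisor Kbar (FF N), (∀ P, E P = P.ord f) →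
      ∀ P, heckeT N ℓ hℓ hℓN E P = P.ord (theta N ℓ f) :=
  ⟨theta_ne_zero N ℓ hℓ hℓN hf, fun _ hE P => heckeT_eq_ord_theta N ℓ hℓ hℓN hf hE P⟩

/-- **`T_ℓ x = a • x` on a representative**: `T D - a • D` is principal. -/
theorem exists_div_hecke_sub (q : Nat.Primes) (hqN : ¬ (q : ℕ) ∣ N) {x : JZero N}
    {D : Divisor Kbar (FF N)} (hD : IsRep x D) {a : ℤ} (hx : heckeOperatorBar N q x = a • x) :
    haveI : NeZero (q : ℕ) := ⟨q.2.ne_zero⟩
    ∃ u : FF N, u ≠ 0 ∧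
      ∀ P : Place Kbar (FF N), heckeT N (q : ℕ) q.2 hqN D P - a * D P = P.ord u := by
  haveI : NeZero (q : ℕ) := ⟨q.2.ne_zero⟩
  haveI := InputsMain19.hasPrincipalDivisors_level N (q : ℕ)
  obtain ⟨h, rfl⟩ := hD
  have hmk := heckeOperatorBar_mk (N := N) q
    (AlongDegree25.heckeAlphaBarIntegral Kbar N (q : ℕ) q.2 hqN)
    (AlongDegree25.heckeBetaBarIntegral Kbar N (q : ℕ) q.2 hqN)
    (InputsMain19.fundamentalIdentityAlong_beta N (q : ℕ) q.2 hqN)
    (AlongDegree25.finiteAlong_alpha Kbar N (q : ℕ) q.2 hqN)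
    (InputsFinal15.normFormulaAlong_alpha N (q : ℕ) q.2 hqN) ⟨D, h⟩
  rw [hmk] at hx
  set D' : Divisor.degZero (K := Kbar) (F := FF N) :=
    Pic0.degZeroCorrespondence (heckeBetaBar Kbar N (q : ℕ)) (heckeAlphaBar Kbar N (q : ℕ))
      (AlongDegree25.heckeBetaBarIntegral Kbar N (q : ℕ) q.2 hqN)
      (AlongDegree25.heckeAlphaBarIntegral Kbar N (q : ℕ) q.2 hqN)
      (InputsMain19.fundamentalIdentityAlong_beta N (q : ℕ) q.2 hqN) ⟨D, h⟩ with hD'
  have h1 : (QuotientAddGroup.mk (D' - a • (⟨D, h⟩ : Divisor.degZero (K := Kbar) (F := FF N))) :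
      Pic0 Kbar (FF N)) = 0 := by
    rw [QuotientAddGroup.mk_sub, QuotientAddGroup.mk_zsmul]
    exact sub_eq_zero.mpr hx
  have h2 := (QuotientAddGroup.eq_zero_iff _).mp h1
  rw [AddSubgroup.mem_addSubgroupOf] at h2
  obtain ⟨u, hu0, hu⟩ := Divisor.mem_principal.mp h2
  refine ⟨u, hu0, fun P => ?_⟩
  rw [← hu P, AddSubgroup.coe_sub, AddSubgroup.coe_zsmul, Finsupp.sub_apply, Finsupp.smul_apply,
    smul_eq_mul, hD', Pic0.coe_degZeroCorrespondence]
  rfl

end Fermat.Agent.ES.X44.HeckeRelInst8
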