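/-
Programme X (S44), chapter (W2), helper7: **the abstract core of the function-level route to the
Hecke-equivariance of the reduction** (no place of a second level, no nodal context of a second level).

Vocabulary of `W33/XiIfaceN29` (`RedCtxN`, `redN`, `OffNodes`, `SDiv.comp₁/comp₂`, `ValAt`).

Part 1 (this file): a divisor `D` off the nodes with `m • D = div g`, `g ∈ G`, `red g ≠ 0`:
* `red_fst_ne_zero`, `red_snd_ne_zero` (LEMMA A): if the component degrees of `redN r D` vanish and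
  there is at least one node, both components of `red g` are nonzero;
* `ord_fst_eq`, `ord_snd_eq` (LEMMA B): then `div (red g).i = m • comp_i (redN r D)` EXACTLY (at the
  smooth places by `(r1)`, at the node places by `glue_unit`).
-/
import Mathlib
import Fermat.Agent.ES.W33.RedCtxN29
import Fermat.Agent.ES.W33.ValAt29

set_option autoImplicit false

noncomputable section

namespace Fermat.Agent.ES.X44.ThetaCore7

open AlgebraicCurve Fermat.Agent.X0.FF Fermat.Agent.RR.LSpace Fermat.Agent.ES.W33.XiIfaceN29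
  Fermat.Agent.ES.W33.RedCtxN29 Fermat.Agent.ES.W33.ValAt29

variable {K F k Ft₁ Ft₂ : Type*} [Field K] [Field F] [Algebra K F] [Field k]
  [Field Ft₁] [Algebra k Ft₁] [Field Ft₂] [Algebra k Ft₂]
variable {s : ℕ} {A : ValuationSubring K} {π : ↥A →+* k} {N : Nodes k Ft₁ Ft₂ s}
  {G : Subring F} {red : ↥G →+* Ft₁ × Ft₂} {r : Place K F → SPt k Ft₁ Ft₂ ⊕ Fin s}

/-! ### Bookkeeping -/

theorem comp₁_redN_apply (D : Divisor K F) (Q : Place k Ft₁) :
    SDiv.comp₁ (redN r D) Q = Finsupp.mapDomain r D (Sum.inl (Sum.inl Q)) := rfl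

theorem comp₂_redN_apply (D : Divisor K F) (Q : Place k Ft₂) :
    SDiv.comp₂ (redN r D) Q = Finsupp.mapDomain r D (Sum.inl (Sum.inr Q)) := rfl

/-- no place reduces to a node place of the first component. -/
theorem comp₁_redN_node (C : RedCtxN A π N G red r) (D : Divisor K F) (j : Fin s) :
    SDiv.comp₁ (redN r D) (N.ν₁ j) = 0 := by
  rw [comp₁_redN_apply]
  apply Finsupp.mapDomain_of_notMem_range
  rintro ⟨P, hP⟩
  exact C.smooth P (Sum.inl (N.ν₁ j)) hP j rfl

theorem comp₂_redN_node (C : RedCtxN A π N G red r) (D : Divisor K F) (j : Fin s) :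
    SDiv.comp₂ (redN r D) (N.ν₂ j) = 0 := by
  rw [comp₂_redN_apply]
  apply Finsupp.mapDomain_of_notMem_range
  rintro ⟨P, hP⟩
  exact C.smooth P (Sum.inr (N.ν₂ j)) hP j rfl

/-- a divisor off the nodes vanishes at the places through a node. -/
theorem apply_eq_zero_of_offNodes {D : Divisor K F} (hoff : OffNodes r D) {P : Place K F}
    {j : Fin s} (hP : r P = Sum.inr j) : D P = 0 := by
  by_contra h
  exact hoff P (Finsupp.mem_support_iff.mpr h) j hP

theorem ord_eq_zero_of_offNodes {D : Divisor K F} (hoff : OffNodes r D) {m : ℤ} {g : F}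
    (hg : ∀ P : Place K F, m * D P = P.ord g) {P : Place K F} {j : Fin s}
    (hP : r P = Sum.inr j) : P.ord g = 0 := by
  rw [← hg P, apply_eq_zero_of_offNodes hoff hP, mul_zero]

/-- a place of the first component is smooth or a node place. -/
theorem smooth_or_node₁ (Q : Place k Ft₁) : N.IsSmooth (Sum.inl Q) ∨ ∃ j, Q = N.ν₁ j := by
  by_cases h : ∃ j, Q = N.ν₁ j
  · exact Or.inr h
  · exact Or.inl fun j hj => h ⟨j, hj⟩

theorem smooth_or_node₂ (Q : Place k Ft₂) : N.IsSmooth (Sum.inr Q) ∨ ∃ j, Q = N.ν₂ j := by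
  by_cases h : ∃ j, Q = N.ν₂ j
  · exact Or.inr h
  · exact Or.inl fun j hj => h ⟨j, hj⟩

/-- `(r1)` for the divisor `m • D` of `g`, first component. -/
theorem r1₁_smul (C : RedCtxN A π N G red r) {D : Divisor K F} {m : ℤ} (g : ↥G)
    (hg : ∀ P : Place K F, m * D P = P.ord (g : F)) (h1 : (red g).1 ≠ 0) (Q : Place k Ft₁)
    (hQ : N.IsSmooth (Sum.inl Q)) : m * SDiv.comp₁ (redN r D) Q = Q.ord (red g).1 := by
  have h := C.r1₁ g h1 (m • D) (fun P => by rw [Finsupp.smul_apply, smul_eq_mul, hg P]) Q hQ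
  rw [Finsupp.mapDomain_smul, Finsupp.smul_apply, smul_eq_mul] at h
  rw [comp₁_redN_apply, h]

theorem r1₂_smul (C : RedCtxN A π N G red r) {D : Divisor K F} {m : ℤ} (g : ↥G)
    (hg : ∀ P : Place K F, m * D P = P.ord (g : F)) (h2 : (red g).2 ≠ 0) (Q : Place k Ft₂)
    (hQ : N.IsSmooth (Sum.inr Q)) : m * SDiv.comp₂ (redN r D) Q = Q.ord (red g).2 := by
  have h := C.r1₂ g h2 (m • D) (fun P => by rw [Finsupp.smul_apply, smul_eq_mul, hg P]) Q hQ
  rw [Finsupp.mapDomain_smul, Finsupp.smul_apply, smul_eq_mul] at h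
  rw [comp₂_redN_apply, h]

/-! ### LEMMA A -/

/-- **LEMMA A, first component.**  `D` off the nodes, `m • D = div g`, the second component of
`redN r D` has degree zero, at least one node: if `red g ≠ 0` then `(red g).1 ≠ 0`. -/
theorem red_fst_ne_zero (C : RedCtxN A π N G red r) (H₂ : LHyp k Ft₂) (hs : 0 < s)
    {D : Divisor K F} (hoff : OffNodes r D)
    (hdeg₂ : Divisor.degree (SDiv.comp₂ (redN r D)) = 0) {m : ℤ} (g : ↥G)
    (hg : ∀ P : Place K F, m * D P = P.ord (g : F)) (hred : red g ≠ 0) : (red g).1 ≠ 0 := by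
  intro h1
  have h2 : (red g).2 ≠ 0 := fun h2 => hred (Prod.ext h1 h2)
  -- the second component vanishes at every node place
  have hz : ∀ j, 0 < (N.ν₂ j).ord (red g).2 := by
    intro j
    have hgl : N.GluedAt (red g) j :=
      C.glue g j fun P hP => by rw [ord_eq_zero_of_offNodes hoff hg hP]
    rcases gluedAt_inMax_right_of_left_eq_zero hgl h1 with h | h
    · exact absurd h h2
    · exact h
  -- the divisor of the second component
  set d : Divisor k Ft₂ := divOf H₂ h2 with hd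
  set e : Divisor k Ft₂ := d - m • SDiv.comp₂ (redN r D) with he
  have he_apply : ∀ Q, e Q = Q.ord (red g).2 - m * SDiv.comp₂ (redN r D) Q := by
    intro Q
    rw [he, Finsupp.sub_apply, Finsupp.smul_apply, smul_eq_mul, hd, divOf_apply]
  have hnonneg : 0 ≤ e := by
    intro Q
    rw [he_apply]
    simp only [Finsupp.coe_zero, Pi.zero_apply]
    rcases smooth_or_node₂ (N := N) Q with hQ | ⟨j, rfl⟩
    · rw [r1₂_smul C g hg h2 Q hQ, sub_self]
    · rw [comp₂_redN_node C, mul_zero, sub_zero]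
      exact (hz j).le
  have hdeg : Divisor.degree e = 0 := by
    rw [he, map_sub, map_zsmul, hdeg₂, smul_zero, sub_zero, hd, degree_divOf]
  have h0 := eq_zero_of_degree_eq_zero H₂ hnonneg hdeg
  have h3 := he_apply (N.ν₂ ⟨0, hs⟩)
  rw [h0, comp₂_redN_node C, mul_zero, sub_zero] at h3
  have := hz ⟨0, hs⟩
  simp only [Finsupp.coe_zero, Pi.zero_apply] at h3
  omega

/-- **LEMMA A, second component.** -/
theorem red_snd_ne_zero (C : RedCtxN A π N G red r) (H₁ : LHyp k Ft₁) (hs : 0 < s)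
    {D : Divisor K F} (hoff : OffNodes r D)
    (hdeg₁ : Divisor.degree (SDiv.comp₁ (redN r D)) = 0) {m : ℤ} (g : ↥G)
    (hg : ∀ P : Place K F, m * D P = P.ord (g : F)) (hred : red g ≠ 0) : (red g).2 ≠ 0 := by
  intro h2
  have h1 : (red g).1 ≠ 0 := fun h1 => hred (Prod.ext h1 h2)
  have hz : ∀ j, 0 < (N.ν₁ j).ord (red g).1 := by
    intro j
    have hgl : N.GluedAt (red g) j :=
      C.glue g j fun P hP => by rw [ord_eq_zero_of_offNodes hoff hg hP]
    rcases gluedAt_inMax_left_of_right_eq_zero hgl h2 with h | h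
    · exact absurd h h1
    · exact h
  set d : Divisor k Ft₁ := divOf H₁ h1 with hd
  set e : Divisor k Ft₁ := d - m • SDiv.comp₁ (redN r D) with he
  have he_apply : ∀ Q, e Q = Q.ord (red g).1 - m * SDiv.comp₁ (redN r D) Q := by
    intro Q
    rw [he, Finsupp.sub_apply, Finsupp.smul_apply, smul_eq_mul, hd, divOf_apply]
  have hnonneg : 0 ≤ e := by
    intro Q
    rw [he_apply]
    simp only [Finsupp.coe_zero, Pi.zero_apply]
    rcases smooth_or_node₁ (N := N) Q with hQ | ⟨j, rfl⟩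
    · rw [r1₁_smul C g hg h1 Q hQ, sub_self]
    · rw [comp₁_redN_node C, mul_zero, sub_zero]
      exact (hz j).le
  have hdeg : Divisor.degree e = 0 := by
    rw [he, map_sub, map_zsmul, hdeg₁, smul_zero, sub_zero, hd, degree_divOf]
  have h0 := eq_zero_of_degree_eq_zero H₁ hnonneg hdeg
  have h3 := he_apply (N.ν₁ ⟨0, hs⟩)
  rw [h0, comp₁_redN_node C, mul_zero, sub_zero] at h3
  have := hz ⟨0, hs⟩
  simp only [Finsupp.coe_zero, Pi.zero_apply] at h3
  omega

/-! ### LEMMA B -/

/-- **LEMMA B, first component**: `div (red g).1 = m • comp₁ (redN r D)` exactly. -/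
theorem ord_fst_eq (C : RedCtxN A π N G red r) {D : Divisor K F} (hoff : OffNodes r D) {m : ℤ}
    (g : ↥G) (hg : ∀ P : Place K F, m * D P = P.ord (g : F)) (h1 : (red g).1 ≠ 0)
    (h2 : (red g).2 ≠ 0) (Q : Place k Ft₁) :
    Q.ord (red g).1 = m * SDiv.comp₁ (redN r D) Q := by
  rcases smooth_or_node₁ (N := N) Q with hQ | ⟨j, rfl⟩
  · exact (r1₁_smul C g hg h1 Q hQ).symm
  · obtain ⟨c, hc, hv1, -⟩ :=
      C.glue_unit g j (fun P hP => ord_eq_zero_of_offNodes hoff hg hP) h1 h2
    rw [comp₁_redN_node C, mul_zero, ValAt.ord_eq_zero hv1 hc]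

/-- **LEMMA B, second component.** -/
theorem ord_snd_eq (C : RedCtxN A π N G red r) {D : Divisor K F} (hoff : OffNodes r D) {m : ℤ}
    (g : ↥G) (hg : ∀ P : Place K F, m * D P = P.ord (g : F)) (h1 : (red g).1 ≠ 0)
    (h2 : (red g).2 ≠ 0) (Q : Place k Ft₂) :
    Q.ord (red g).2 = m * SDiv.comp₂ (redN r D) Q := by
  rcases smooth_or_node₂ (N := N) Q with hQ | ⟨j, rfl⟩
  · exact (r1₂_smul C g hg h2 Q hQ).symm
  · obtain ⟨c, hc, -, hv2⟩ :=
      C.glue_unit g j (fun P hP => ord_eq_zero_of_offNodes hoff hg hP) h1 h2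
    rw [comp₂_redN_node C, mul_zero, ValAt.ord_eq_zero hv2 hc]

end Fermat.Agent.ES.X44.ThetaCore7
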