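/-
Programme X (S44), chapter (W2), helper7: **the function-level Hecke relation on the nodal fibre.**

`Θ : F → F` (at the instance `Θ = N_α ∘ β`, so that `div Θ(f) = T (div f)` with `T = T_ℓ` on divisors) is
compatible with the reduction: `Θ G ⊆ G`, `red (Θ g) = (Θ₁ (red g).1, Θ₂ (red g).2)` (`ThetaHyp`).

`theta_rel` : `D` off the nodes with component degrees `0`, `p • D = div h`, `T D - a • D = div u`.  Then on
each component there are `h̄, ū ≠ 0` and a constant `c ≠ 0` with `div h̄ = p • comp_i (redN r D)` and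

    `Θ_i h̄ * h̄ ^ (-a).toNat = c * h̄ ^ a.toNat * ū ^ p`        (`ThetaRel`).

(No place of a second level, no Hecke operator in characteristic `p`.)
-/
import Mathlib
import Fermat.Agent.ES.X44.ThetaCore7

set_option autoImplicit false

noncomputable section

namespace Fermat.Agent.ES.X44.ThetaRel7

open AlgebraicCurve Fermat.Agent.X0.FF Fermat.Agent.RR.LSpace Fermat.Agent.ES.W33.XiIfaceN29
  Fermat.Agent.ES.W33.RedCtxN29 Fermat.Agent.ES.W33.ValAt29 Fermat.Agent.ES.V19.SupTrick15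
  Fermat.Agent.ES.X44.ThetaCore7

variable {K F k Ft₁ Ft₂ : Type*} [Field K] [Field F] [Algebra K F] [Field k]
  [Field Ft₁] [Algebra k Ft₁] [Field Ft₂] [Algebra k Ft₂]
variable {s : ℕ} {A : ValuationSubring K} {π : ↥A →+* k} {N : Nodes k Ft₁ Ft₂ s}
  {G : Subring F} {red : ↥G →+* Ft₁ × Ft₂} {r : Place K F → SPt k Ft₁ Ft₂ ⊕ Fin s}

/-- the function-level operator `Θ` is compatible with the reduction. -/
structure ThetaHyp (G : Subring F) (red : ↥G →+* Ft₁ × Ft₂) (Θ : F → F) (Θ₁ : Ft₁ → Ft₁)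
    (Θ₂ : Ft₂ → Ft₂) : Prop where
  mem : ∀ g : ↥G, Θ (g : F) ∈ G
  red_eq : ∀ g : ↥G, red ⟨Θ (g : F), mem g⟩ = (Θ₁ (red g).1, Θ₂ (red g).2)
  ne_zero₁ : ∀ f : Ft₁, f ≠ 0 → Θ₁ f ≠ 0
  ne_zero₂ : ∀ f : Ft₂, f ≠ 0 → Θ₂ f ≠ 0

/-- the relation on one component. -/
def ThetaRel {Ft : Type*} [Field Ft] [Algebra k Ft] (Θ' : Ft → Ft) (p : ℕ) (a : ℤ)
    (d : Divisor k Ft) : Prop :=
  ∃ (hb ub : Ft) (c : k), hb ≠ 0 ∧ ub ≠ 0 ∧ c ≠ 0 ∧
    (∀ Q : Place k Ft, Q.ord hb = (p : ℤ) * d Q) ∧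
    Θ' hb * hb ^ (-a).toNat = algebraMap k Ft c * hb ^ a.toNat * ub ^ p

/-- **The function-level Hecke relation.** -/
theorem theta_rel (C : RedCtxN A π N G red r) (HF : LHyp K F) (H₁ : LHyp k Ft₁)
    (H₂ : LHyp k Ft₂) (hs : 0 < s) {D : Divisor K F} (hoff : OffNodes r D)
    (hdeg₁ : Divisor.degree (SDiv.comp₁ (redN r D)) = 0)
    (hdeg₂ : Divisor.degree (SDiv.comp₂ (redN r D)) = 0)
    {p : ℕ} (hp : p ≠ 0) {h : F} (hh0 : h ≠ 0) (hh : ∀ P : Place K F, (p : ℤ) * D P = P.ord h)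
    (T : Divisor K F →+ Divisor K F) {Θ : F → F} {Θ₁ : Ft₁ → Ft₁} {Θ₂ : Ft₂ → Ft₂}
    (hΘ : ∀ f : F, f ≠ 0 → Θ f ≠ 0 ∧ ∀ E : Divisor K F, (∀ P, E P = P.ord f) →
      ∀ P, T E P = P.ord (Θ f))
    (TH : ThetaHyp G red Θ Θ₁ Θ₂) {a : ℤ} {u : F} (hu0 : u ≠ 0)
    (hu : ∀ P : Place K F, T D P - a * D P = P.ord u) :
    ThetaRel Θ₁ p a (SDiv.comp₁ (redN r D)) ∧ ThetaRel Θ₂ p a (SDiv.comp₂ (redN r D)) := by
  -- scale `h`
  obtain ⟨c, hc0, hgmem, hgred⟩ := C.scale h hh0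
  set g : ↥G := ⟨_, hgmem⟩ with hgdef
  have hg0 : (g : F) ≠ 0 := mul_ne_zero (inv_ne_zero ((map_ne_zero _).mpr hc0)) hh0
  have hg : ∀ P : Place K F, (p : ℤ) * D P = P.ord (g : F) := fun P => by
    rw [hh P]; exact (ord_scale hc0 hh0 P).symm
  have hg1 : (red g).1 ≠ 0 := red_fst_ne_zero C H₂ hs hoff hdeg₂ g hg hgred
  have hg2 : (red g).2 ≠ 0 := red_snd_ne_zero C H₁ hs hoff hdeg₁ g hg hgred
  -- scale `u`
  obtain ⟨c₁, hc₁0, humem, hured⟩ := C.scale u hu0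
  set gu : ↥G := ⟨_, humem⟩ with hgudef
  have hgu0 : (gu : F) ≠ 0 := mul_ne_zero (inv_ne_zero ((map_ne_zero _).mpr hc₁0)) hu0
  have hgu : ∀ P : Place K F, T D P - a * D P = P.ord (gu : F) := fun P => by
    rw [hu P]; exact (ord_scale hc₁0 hu0 P).symm
  -- `Θ g`
  obtain ⟨hΘg0, hΘg⟩ := hΘ (g : F) hg0
  have hΘord : ∀ P : Place K F, (p : ℤ) * T D P = P.ord (Θ (g : F)) := fun P => by
    have := hΘg ((p : ℤ) • D) (fun P => by rw [Finsupp.smul_apply, smul_eq_mul, hg P]) P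
    rw [map_zsmul, Finsupp.smul_apply, smul_eq_mul] at this
    exact this
  set tg : ↥G := ⟨Θ (g : F), TH.mem g⟩ with htg
  -- the two sides of the relation
  set X : ↥G := tg * g ^ (-a).toNat with hX
  set Y : ↥G := g ^ a.toNat * gu ^ p with hY
  have hX0 : (X : F) ≠ 0 := by
    rw [hX]; push_cast
    exact mul_ne_zero hΘg0 (pow_ne_zero _ hg0)
  have hY0 : (Y : F) ≠ 0 := by
    rw [hY]; push_cast
    exact mul_ne_zero (pow_ne_zero _ hg0) (pow_ne_zero _ hgu0)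
  have hordX : ∀ P : Place K F, P.ord (X : F) = (p : ℤ) * T D P + ((-a).toNat : ℤ) * ((p : ℤ) * D P) := by
    intro P
    rw [hX]; push_cast
    rw [P.ord_mul hΘg0 (pow_ne_zero _ hg0), ← zpow_natCast, P.ord_zpow, ← hΘord P, ← hg P]
  have hordY : ∀ P : Place K F, P.ord (Y : F) =
      (a.toNat : ℤ) * ((p : ℤ) * D P) + (p : ℤ) * (T D P - a * D P) := by
    intro P
    rw [hY]; push_cast
    rw [P.ord_mul (pow_ne_zero _ hg0) (pow_ne_zero _ hgu0), ← zpow_natCast, P.ord_zpow,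
      ← zpow_natCast, P.ord_zpow, ← hg P, ← hgu P]
  have hXY : ∀ P : Place K F, P.ord ((X : F) * (Y : F)⁻¹) = 0 := by
    intro P
    rw [P.ord_mul hX0 (inv_ne_zero hY0), P.ord_inv, hordX, hordY]
    have ha : ((a.toNat : ℤ)) - ((-a).toNat : ℤ) = a := Int.toNat_sub_toNat_neg a
    linear_combination (-(p : ℤ) * D P) * ha
  obtain ⟨c₂, hc₂⟩ := eq_algebraMap_of_forall_ord_nonneg HF (f := (X : F) * (Y : F)⁻¹)
    (fun P => (hXY P).ge)
  have hc₂0 : c₂ ≠ 0 := by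
    rintro rfl
    rw [map_zero] at hc₂
    exact mul_ne_zero hX0 (inv_ne_zero hY0) hc₂
  have hXeq : (X : F) = algebraMap K F c₂ * (Y : F) := by
    rw [← hc₂, mul_assoc, inv_mul_cancel₀ hY0, mul_one]
  -- reductions
  have hredtg : red tg = (Θ₁ (red g).1, Θ₂ (red g).2) := TH.red_eq g
  have hredX : red X = (Θ₁ (red g).1 * (red g).1 ^ (-a).toNat,
      Θ₂ (red g).2 * (red g).2 ^ (-a).toNat) := by
    rw [hX, map_mul, map_pow, hredtg]
    rfl
  have hredY : red Y = ((red g).1 ^ a.toNat * (red gu).1 ^ p,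
      (red g).2 ^ a.toNat * (red gu).2 ^ p) := by
    rw [hY, map_mul, map_pow, map_pow]
    rfl
  have hX1 : Θ₁ (red g).1 * (red g).1 ^ (-a).toNat ≠ 0 :=
    mul_ne_zero (TH.ne_zero₁ _ hg1) (pow_ne_zero _ hg1)
  have hX2 : Θ₂ (red g).2 * (red g).2 ^ (-a).toNat ≠ 0 :=
    mul_ne_zero (TH.ne_zero₂ _ hg2) (pow_ne_zero _ hg2)
  have key : ∃ cb : k, cb ≠ 0 ∧ (red gu).1 ≠ 0 ∧ (red gu).2 ≠ 0 ∧
      Θ₁ (red g).1 * (red g).1 ^ (-a).toNat =
        algebraMap k Ft₁ cb * (red g).1 ^ a.toNat * (red gu).1 ^ p ∧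
      Θ₂ (red g).2 * (red g).2 ^ (-a).toNat =
        algebraMap k Ft₂ cb * (red g).2 ^ a.toNat * (red gu).2 ^ p := by
    by_cases hcA : c₂ ∈ A
    · -- `c₂ ∈ A`
      have hXG : X = const C ⟨c₂, hcA⟩ * Y := Subtype.ext hXeq
      have hr : red X = red (const C ⟨c₂, hcA⟩) * red Y := by rw [← map_mul, ← hXG]
      rw [red_const', hredX, hredY] at hr
      have hr1 := congrArg Prod.fst hr
      have hr2 := congrArg Prod.snd hr
      simp only [Prod.fst_mul, Prod.snd_mul] at hr1 hr2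
      have hπ : π ⟨c₂, hcA⟩ ≠ 0 := by
        intro h0
        rw [h0, map_zero, zero_mul] at hr1
        exact hX1 hr1
      have hu1 : (red gu).1 ≠ 0 := by
        intro h0
        rw [h0, zero_pow hp, mul_zero, mul_zero] at hr1
        exact hX1 hr1
      have hu2 : (red gu).2 ≠ 0 := by
        intro h0
        rw [h0, zero_pow hp, mul_zero, mul_zero] at hr2
        exact hX2 hr2
      exact ⟨π ⟨c₂, hcA⟩, hπ, hu1, hu2, by rw [hr1, mul_assoc], by rw [hr2, mul_assoc]⟩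
    · -- `c₂ ∉ A`: impossible
      exfalso
      obtain ⟨hinv, hnu⟩ := inv_nonunit_of_notMem hcA
      have hYG : Y = const C ⟨c₂⁻¹, hinv⟩ * X := by
        apply Subtype.ext
        show (Y : F) = algebraMap K F c₂⁻¹ * (X : F)
        rw [hXeq, ← mul_assoc, ← map_mul, inv_mul_cancel₀ hc₂0, map_one, one_mul]
      have hr : red Y = red (const C ⟨c₂⁻¹, hinv⟩) * red X := by rw [← map_mul, ← hYG]
      rw [red_const_of_nonunit C _ hnu, zero_mul, hredY] at hr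
      have hr1 := congrArg Prod.fst hr
      have hr2 := congrArg Prod.snd hr
      simp only [Prod.fst_zero, Prod.snd_zero] at hr1 hr2
      have hu1 : (red gu).1 = 0 := by
        rcases mul_eq_zero.mp hr1 with h0 | h0
        · exact absurd (eq_zero_of_pow_eq_zero h0) hg1
        · exact pow_eq_zero_iff hp |>.mp h0
      exact hured (Prod.ext hu1 (by
        rcases mul_eq_zero.mp hr2 with h0 | h0
        · exact absurd (eq_zero_of_pow_eq_zero h0) hg2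
        · exact pow_eq_zero_iff hp |>.mp h0))
  obtain ⟨cb, hcb, hu1, hu2, hrel1, hrel2⟩ := key
  exact ⟨⟨(red g).1, (red gu).1, cb, hg1, hu1, hcb,
      fun Q => ord_fst_eq C hoff g hg hg1 hg2 Q, hrel1⟩,
    ⟨(red g).2, (red gu).2, cb, hg2, hu2, hcb,
      fun Q => ord_snd_eq C hoff g hg hg1 hg2 Q, hrel2⟩⟩

end Fermat.Agent.ES.X44.ThetaRel7
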