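/-
Programme X (S44), chapter (W2), helper7: **the function-level Hecke relation with the scaled function FIXED.**

Same statement as `ThetaRel7.theta_rel`, but the scaled function `g` (`p • D = div g`, `red g ≠ 0`) is an
INPUT, so that the reductions `(red g).1`, `(red g).2` are the same for all operators `Θ` (all primes `ℓ`):

    `Θ_i (red g).i * (red g).i ^ (-a).toNat = c * (red g).i ^ a.toNat * ū_i ^ p`,   `ū_i ≠ 0`, `c ≠ 0`.

`theta_fix_data` collects what `ThetaCore7` says about `(red g).i`.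
-/
import Mathlib
import Fermat.Agent.ES.X44.ThetaRel7

set_option autoImplicit false

noncomputable section

namespace Fermat.Agent.ES.X44.ThetaFix7

open AlgebraicCurve Fermat.Agent.X0.FF Fermat.Agent.RR.LSpace Fermat.Agent.ES.W33.XiIfaceN29
  Fermat.Agent.ES.W33.RedCtxN29 Fermat.Agent.ES.W33.ValAt29 Fermat.Agent.ES.V19.SupTrick15
  Fermat.Agent.ES.X44.ThetaCore7 Fermat.Agent.ES.X44.ThetaRel7

variable {K F k Ft₁ Ft₂ : Type*} [Field K] [Field F] [Algebra K F] [Field k]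
  [Field Ft₁] [Algebra k Ft₁] [Field Ft₂] [Algebra k Ft₂]
variable {s : ℕ} {A : ValuationSubring K} {π : ↥A →+* k} {N : Nodes k Ft₁ Ft₂ s}
  {G : Subring F} {red : ↥G →+* Ft₁ × Ft₂} {r : Place K F → SPt k Ft₁ Ft₂ ⊕ Fin s}

/-- every nonzero function has a scaled form in `G` with nonzero reduction and the same divisor. -/
theorem exists_scaled (C : RedCtxN A π N G red r) {D : Divisor K F} {p : ℕ} {h : F} (hh0 : h ≠ 0)
    (hh : ∀ P : Place K F, (p : ℤ) * D P = P.ord h) :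
    ∃ g : ↥G, red g ≠ 0 ∧ ∀ P : Place K F, (p : ℤ) * D P = P.ord (g : F) := by
  obtain ⟨c, hc0, hgmem, hgred⟩ := C.scale h hh0
  exact ⟨⟨_, hgmem⟩, hgred, fun P => by rw [hh P]; exact (ord_scale hc0 hh0 P).symm⟩

/-- what `ThetaCore7` says about the two reductions of the scaled function. -/
theorem theta_fix_data (C : RedCtxN A π N G red r) (H₁ : LHyp k Ft₁) (H₂ : LHyp k Ft₂)
    (hs : 0 < s) {D : Divisor K F} (hoff : OffNodes r D)
    (hdeg₁ : Divisor.degree (SDiv.comp₁ (redN r D)) = 0)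
    (hdeg₂ : Divisor.degree (SDiv.comp₂ (redN r D)) = 0)
    {p : ℕ} (g : ↥G) (hg : ∀ P : Place K F, (p : ℤ) * D P = P.ord (g : F)) (hgred : red g ≠ 0) :
    (red g).1 ≠ 0 ∧ (red g).2 ≠ 0 ∧
      (∀ Q : Place k Ft₁, Q.ord (red g).1 = (p : ℤ) * SDiv.comp₁ (redN r D) Q) ∧
      ∀ Q : Place k Ft₂, Q.ord (red g).2 = (p : ℤ) * SDiv.comp₂ (redN r D) Q := by
  have hg1 : (red g).1 ≠ 0 := red_fst_ne_zero C H₂ hs hoff hdeg₂ g hg hgred
  have hg2 : (red g).2 ≠ 0 := red_snd_ne_zero C H₁ hs hoff hdeg₁ g hg hgred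
  exact ⟨hg1, hg2, fun Q => ord_fst_eq C hoff g hg hg1 hg2 Q,
    fun Q => ord_snd_eq C hoff g hg hg1 hg2 Q⟩

/-- **The function-level Hecke relation, scaled function fixed.** -/
theorem theta_fix (C : RedCtxN A π N G red r) (HF : LHyp K F)
    {D : Divisor K F} {p : ℕ} (hp : p ≠ 0) (g : ↥G)
    (hg : ∀ P : Place K F, (p : ℤ) * D P = P.ord (g : F))
    (hg1 : (red g).1 ≠ 0) (hg2 : (red g).2 ≠ 0)
    (T : Divisor K F →+ Divisor K F) {Θ : F → F} {Θ₁ : Ft₁ → Ft₁} {Θ₂ : Ft₂ → Ft₂}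
    (hΘ : ∀ f : F, f ≠ 0 → Θ f ≠ 0 ∧ ∀ E : Divisor K F, (∀ P, E P = P.ord f) →
      ∀ P, T E P = P.ord (Θ f))
    (TH : ThetaHyp G red Θ Θ₁ Θ₂) {a : ℤ} {u : F} (hu0 : u ≠ 0)
    (hu : ∀ P : Place K F, T D P - a * D P = P.ord u) :
    ∃ (u₁ : Ft₁) (u₂ : Ft₂) (c : k), u₁ ≠ 0 ∧ u₂ ≠ 0 ∧ c ≠ 0 ∧
      Θ₁ (red g).1 * (red g).1 ^ (-a).toNat =
        algebraMap k Ft₁ c * (red g).1 ^ a.toNat * u₁ ^ p ∧
      Θ₂ (red g).2 * (red g).2 ^ (-a).toNat =
        algebraMap k Ft₂ c * (red g).2 ^ a.toNat * u₂ ^ p := by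
  have hg0 : (g : F) ≠ 0 := by
    intro h0
    apply hg1
    have : g = 0 := Subtype.ext h0
    rw [this, map_zero]
    rfl
  -- scale `u`
  obtain ⟨c₁, hc₁0, humem, hured⟩ := C.scale u hu0
  set gu : ↥G := ⟨_, humem⟩ with hgudef
  have hgu0 : (gu : F) ≠ 0 := mul_ne_zero (inv_ne_zero ((map_ne_zero _).mpr hc₁0)) hu0
  have hgu : ∀ P : Place K F, T D P - a * D P = P.ord (gu : F) := fun P => by
    rw [hu P]; exact (ord_scale hc₁0 hu0 P).symm
  -- `Θ g`
  obtain ⟨hΘg0, hΘg⟩ := hΘ (g : F) hg0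
  have hΘord : ∀ P : Place K F, (p : ℤ) * T D P = P.ord (Θ (g : F)) := fun P => by
    have := hΘg ((p : ℤ) • D) (fun P => by rw [Finsupp.smul_apply, smul_eq_mul, hg P]) P
    rw [map_zsmul, Finsupp.smul_apply, smul_eq_mul] at this
    exact this
  set tg : ↥G := ⟨Θ (g : F), TH.mem g⟩ with htg
  -- the two sides of the relation
  set X : ↥G := tg * g ^ (-a).toNat with hX
  set Y : ↥G := g ^ a.toNat * gu ^ p with hY
  have hX0 : (X : F) ≠ 0 := by
    rw [hX]; push_cast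
    exact mul_ne_zero hΘg0 (pow_ne_zero _ hg0)
  have hY0 : (Y : F) ≠ 0 := by
    rw [hY]; push_cast
    exact mul_ne_zero (pow_ne_zero _ hg0) (pow_ne_zero _ hgu0)
  have hordX : ∀ P : Place K F, P.ord (X : F) = (p : ℤ) * T D P + ((-a).toNat : ℤ) * ((p : ℤ) * D P) := by
    intro P
    rw [hX]; push_cast
    rw [P.ord_mul hΘg0 (pow_ne_zero _ hg0), ← zpow_natCast, P.ord_zpow, ← hΘord P, ← hg P]
  have hordY : ∀ P : Place K F, P.ord (Y : F) =
      (a.toNat : ℤ) * ((p : ℤ) * D P) + (p : ℤ) * (T D P - a * D P) := by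
    intro P
    rw [hY]; push_cast
    rw [P.ord_mul (pow_ne_zero _ hg0) (pow_ne_zero _ hgu0), ← zpow_natCast, P.ord_zpow,
      ← zpow_natCast, P.ord_zpow, ← hg P, ← hgu P]
  have hXY : ∀ P : Place K F, P.ord ((X : F) * (Y : F)⁻¹) = 0 := by
    intro P
    rw [P.ord_mul hX0 (inv_ne_zero hY0), P.ord_inv, hordX, hordY]
    have ha : ((a.toNat : ℤ)) - ((-a).toNat : ℤ) = a := Int.toNat_sub_toNat_neg a
    linear_combination (-(p : ℤ) * D P) * ha
  obtain ⟨c₂, hc₂⟩ := eq_algebraMap_of_forall_ord_nonneg HF (f := (X : F) * (Y : F)⁻¹)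
    (fun P => (hXY P).ge)
  have hc₂0 : c₂ ≠ 0 := by
    rintro rfl
    rw [map_zero] at hc₂
    exact mul_ne_zero hX0 (inv_ne_zero hY0) hc₂
  have hXeq : (X : F) = algebraMap K F c₂ * (Y : F) := by
    rw [← hc₂, mul_assoc, inv_mul_cancel₀ hY0, mul_one]
  -- reductions
  have hredtg : red tg = (Θ₁ (red g).1, Θ₂ (red g).2) := TH.red_eq g
  have hredX : red X = (Θ₁ (red g).1 * (red g).1 ^ (-a).toNat,
      Θ₂ (red g).2 * (red g).2 ^ (-a).toNat) := by
    rw [hX, map_mul, map_pow, hredtg]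
    rfl
  have hredY : red Y = ((red g).1 ^ a.toNat * (red gu).1 ^ p,
      (red g).2 ^ a.toNat * (red gu).2 ^ p) := by
    rw [hY, map_mul, map_pow, map_pow]
    rfl
  have hX1 : Θ₁ (red g).1 * (red g).1 ^ (-a).toNat ≠ 0 :=
    mul_ne_zero (TH.ne_zero₁ _ hg1) (pow_ne_zero _ hg1)
  have hX2 : Θ₂ (red g).2 * (red g).2 ^ (-a).toNat ≠ 0 :=
    mul_ne_zero (TH.ne_zero₂ _ hg2) (pow_ne_zero _ hg2)
  by_cases hcA : c₂ ∈ A
  · -- `c₂ ∈ A`
    have hXG : X = const C ⟨c₂, hcA⟩ * Y := Subtype.ext hXeq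
    have hr : red X = red (const C ⟨c₂, hcA⟩) * red Y := by rw [← map_mul, ← hXG]
    rw [red_const', hredX, hredY] at hr
    have hr1 := congrArg Prod.fst hr
    have hr2 := congrArg Prod.snd hr
    simp only [Prod.fst_mul, Prod.snd_mul] at hr1 hr2
    have hπ : π ⟨c₂, hcA⟩ ≠ 0 := by
      intro h0
      rw [h0, map_zero, zero_mul] at hr1
      exact hX1 hr1
    have hu1 : (red gu).1 ≠ 0 := by
      intro h0
      rw [h0, zero_pow hp, mul_zero, mul_zero] at hr1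
      exact hX1 hr1
    have hu2 : (red gu).2 ≠ 0 := by
      intro h0
      rw [h0, zero_pow hp, mul_zero, mul_zero] at hr2
      exact hX2 hr2
    exact ⟨(red gu).1, (red gu).2, π ⟨c₂, hcA⟩, hu1, hu2, hπ, by rw [hr1, mul_assoc],
      by rw [hr2, mul_assoc]⟩
  · -- `c₂ ∉ A`: impossible
    exfalso
    obtain ⟨hinv, hnu⟩ := inv_nonunit_of_notMem hcA
    have hYG : Y = const C ⟨c₂⁻¹, hinv⟩ * X := by
      apply Subtype.ext
      show (Y : F) = algebraMap K F c₂⁻¹ * (X : F)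
      rw [hXeq, ← mul_assoc, ← map_mul, inv_mul_cancel₀ hc₂0, map_one, one_mul]
    have hr : red Y = red (const C ⟨c₂⁻¹, hinv⟩) * red X := by rw [← map_mul, ← hYG]
    rw [red_const_of_nonunit C _ hnu, zero_mul, hredY] at hr
    have hr1 := congrArg Prod.fst hr
    have hr2 := congrArg Prod.snd hr
    simp only [Prod.fst_zero, Prod.snd_zero] at hr1 hr2
    have hu1 : (red gu).1 = 0 := by
      rcases mul_eq_zero.mp hr1 with h0 | h0
      · exact absurd (eq_zero_of_pow_eq_zero h0) hg1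
      · exact pow_eq_zero_iff hp |>.mp h0
    exact hured (Prod.ext hu1 (by
      rcases mul_eq_zero.mp hr2 with h0 | h0
      · exact absurd (eq_zero_of_pow_eq_zero h0) hg2
      · exact pow_eq_zero_iff hp |>.mp h0))

end Fermat.Agent.ES.X44.ThetaFix7
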