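/-
Programme X (S44), chapter (QH), helper8: **THE EXIT OF (QH): `RedNe` + the Hecke eigen-relations on
`V ⊂ J₀(M'p)[p]` give helper9's border literal `EigQLit9.EigQ` (v1) `= EigQAt` (v2)** (characteristic `p`, `q`-series form),
given the compatibility of `Θ = N_α ∘ β` with the pair reduction at the nodal instance (`ThetaInput`,
delivered by `ThetaO17` + `ThetaInst24`).

Chain: `RedNe` witness `(x, D)` → `p • D = div h` (`BridgeN4.exists_div_nsmul`) → the scaled `g ∈ GN`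
(`ThetaFix7.exists_scaled`), both reductions `Ḡ₁, Ḡ₂ ≠ 0` and `div Ḡ_i = p • comp_i (redN D)` EXACTLY
(`ThetaFix7.theta_fix_data`; one node exists: `NodeCountPos14.sN_pos`) → for each `ℓ ∈ S`:
`T_ℓ D - a_ℓ D = div u` (`HeckeRelInst8.exists_div_hecke_sub`), `ThetaFix7.theta_fix` ⇒
`Θ̄ Ḡ_i * Ḡ_i ^ a⁻ = c̄ * Ḡ_i ^ a⁺ * ū_i ^ p` ⇒ (`q ↦ q^ℓ`, spec of `Θ̄`) the norm relation on `q`-series ⇒
`EigQBridge5.isHeckeEigQ_dlogQ`.  `dlogQ Ḡ_i ≠ 0` for ONE `i`: otherwise both `comp_i (redN D)` are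
principal (`EigQBridge5.dlogQ_ne_zero_of_not_isPrincipal`), i.e. `CompPrin (redN D)`, against `RedNe`.
-/
import Mathlib
import Fermat.Agent.ES.X44.GeoLit12
import Fermat.Agent.ES.X44.BridgeN4
import Fermat.Agent.ES.X44.ThetaFix7
import Fermat.Agent.ES.X44.HeckeRelInst8
import Fermat.Agent.ES.X44.EigQBridge5
import Fermat.Agent.ES.X44.EigQRel5
import Fermat.Agent.ES.W33.NodeCountPos14
import Fermat.Agent.RR.LHypGen
import Fermat.Agent.RED.TOP.FbarFacts20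

set_option autoImplicit false
set_option linter.unusedSectionVars false
set_option linter.style.haveILetI false
set_option synthInstance.maxHeartbeats 400000

noncomputable section

open AlgebraicCurve ModularCurve HahnSeries

namespace Fermat.Agent.ES.X44.EigQExit8

open Fermat.Agent.ES.W33.XiIfaceN29 Fermat.Agent.ES.W33.GeoNames23 Fermat.Agent.ES.W33.GeoW23
  Fermat.Agent.ES.W33.GeoInput23 Fermat.Agent.ES.W33.GeoLeaves23 Fermat.Agent.ES.X44.GeoLit12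
  Fermat.Agent.ES.X44.ThetaRel7 Fermat.Agent.ES.X44.ThetaFix7 Fermat.Agent.ES.X44.EigQLit9
  Fermat.Agent.ES.KRON.KronNorm10

attribute [local instance 5000] HahnSeries.powerSeriesAlgebra SubalgebraClass.toAlgebra

local notation "Qb" => AlgebraicClosure ℚ

variable (M' : ℕ) [NeZero M'] (p : ℕ) [Fact p.Prime] (hpM : ¬ p ∣ M') (h4M : 4 ∣ M')
  (A : ValuationSubring Qb) (hA : A.LiesOverPrime p)

/-- **the input from `ThetaO17` + `ThetaInst24`** at one prime `ℓ`: a primitive `ℓ`-th root of unity `ζ̄`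
of the residue field and an operator `Θ̄` on `F̃_{M'}` with `(Θ̄ y)(q^ℓ) = ∏_b y(ζ̄^b q) · y(q^{ℓ²})` on the
reductions, such that `Θ = N_α ∘ β` reduces to `(Θ̄, Θ̄)`. -/
def ThetaInput (ℓ : ℕ) [NeZero ℓ] : Prop :=
  ∃ (ζ : (kW A)ˣ) (Θb : FtW M' A → FtW M' A), IsPrimitiveRoot ζ ℓ ∧
    ThetaHyp (IX M' p hpM h4M A hA).G (IX M' p hpM h4M A hA).red
      (Fermat.Agent.ES.X44.ThetaFricke21.theta (M' * p) ℓ) Θb Θb ∧
    ∀ g : ↥(IX M' p hpM h4M A hA).G,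
      qExpand (kW A) ℓ ((Θb ((IX M' p hpM h4M A hA).red g).1 : FtW M' A) : LaurentSeries (kW A)) =
          normProd ℓ ζ ((((IX M' p hpM h4M A hA).red g).1 : FtW M' A) : LaurentSeries (kW A)) ∧
        qExpand (kW A) ℓ ((Θb ((IX M' p hpM h4M A hA).red g).2 : FtW M' A) : LaurentSeries (kW A)) =
          normProd ℓ ζ ((((IX M' p hpM h4M A hA).red g).2 : FtW M' A) : LaurentSeries (kW A))

/-- the component divisors of a componentwise principal divisor are principal, and conversely. -/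
theorem compPrin_of_isPrincipal {k Ft₁ Ft₂ : Type*} [Field k] [Field Ft₁] [Algebra k Ft₁] [Field Ft₂]
    [Algebra k Ft₂] {d : SDiv k Ft₁ Ft₂} (h1 : Divisor.IsPrincipal (SDiv.comp₁ d))
    (h2 : Divisor.IsPrincipal (SDiv.comp₂ d)) : CompPrin d := by
  obtain ⟨f1, hf1, h1⟩ := h1
  obtain ⟨f2, hf2, h2⟩ := h2
  exact ⟨(f1, f2), hf1, hf2, fun Q => h1 Q, fun Q => h2 Q⟩

variable {M' p hpM h4M A hA}

/-- the `q`-expansion of a constant of `F̃_{M'}` (for the `Algebra` instance of the nodal instance). -/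
theorem coe_algebraMap_FtW (c : kW A) :
    ((algebraMap (kW A) (FtW M' A) c : FtW M' A) : LaurentSeries (kW A)) = HahnSeries.C c := by
  show algebraMap (kW A) (LaurentSeries (kW A)) c = HahnSeries.C c
  rw [HahnSeries.algebraMap_apply', PowerSeries.algebraMap_apply, Algebra.algebraMap_self,
    RingHom.id_apply]
  exact (HahnSeries.ofPowerSeries_C (Γ := ℤ) c)

/-- **the `T_ℓ`-eigen property of `dlogQ Ḡ_i`** from the relation of `ThetaFix7.theta_fix` on one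
component (pure `q`-series bookkeeping: `EigQRel5.isHeckeEigQ_dlogQ_fullC'`). -/
theorem isHeckeEigQ_of_rel (hp : p.Prime) (hA : A.LiesOverPrime p) (ℓ : ℕ) [NeZero ℓ] (hℓp : ℓ ≠ p)
    (hℓ : ℓ.Prime) {ζ : (kW A)ˣ} (hζ : IsPrimitiveRoot ζ ℓ) {Gb ub X : FtW M' A} (hG : Gb ≠ 0)
    (hu : ub ≠ 0) {c : kW A} (hc : c ≠ 0) (a : ℤ)
    (hX : qExpand (kW A) ℓ (X : LaurentSeries (kW A)) = normProd ℓ ζ (Gb : LaurentSeries (kW A)))
    (hrel : X * Gb ^ (-a).toNat = algebraMap (kW A) (FtW M' A) c * Gb ^ a.toNat * ub ^ p) :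
    IsHeckeEigQ ℓ ((a : ℤ) : kW A) (dlogQ (Gb : LaurentSeries (kW A))) := by
  haveI : CharP (kW A) p := Fermat.Agent.ES.KRON.KronInst10.charP_residueField A hp hA
  have hℓk : ((ℓ : ℕ) : kW A) ≠ 0 := by
    intro h0
    have := (CharP.cast_eq_zero_iff (kW A) p ℓ).mp h0
    exact hℓp ((Nat.prime_dvd_prime_iff_eq hp hℓ).mp this).symm
  exact Fermat.Agent.ES.X44.EigQRel5.isHeckeEigQ_dlogQ_fullC' ℓ (kW A) p M' hζ hℓk hG hu hc
    (coe_algebraMap_FtW c) a hX hrel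

variable (M' p hpM h4M A hA)

/-- **THE EXIT OF (QH).**  The conclusion is spelled out with the constants `dlogQ`, `IsHeckeEigQ`, `IsRegDlog`
common to both versions of `X44/EigQLit9`: it is BY DEFINITION `EigQLit9.EigQ p M' A a {ℓ | good ℓ}` of v1
(`1a22c06d`) and `EigQLit9.EigQAt p M' A a good` of v2 (`2d55df4f`). -/
theorem eigQ_of_redNe (hp2 : p ≠ 2) (V : Set (JZero (M' * p))) (hV : ∀ x ∈ V, p • x = 0)
    (a : Nat.Primes → ℤ) (good : Nat.Primes → Prop)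
    (hS : ∀ ℓ : Nat.Primes, good ℓ → ¬ (ℓ : ℕ) ∣ M' * p)
    (hT : ∀ ℓ : Nat.Primes, good ℓ → ∀ x ∈ V, heckeOperatorBar (M' * p) ℓ x = a ℓ • x)
    (hΘ : ∀ ℓ : Nat.Primes, good ℓ → haveI : NeZero (ℓ : ℕ) := ⟨ℓ.2.ne_zero⟩
      ThetaInput M' p hpM h4M A hA (ℓ : ℕ))
    (hRed : RedNe (IX M' p hpM h4M A hA) V) :
    ∃ G : FtW M' A, G ≠ 0 ∧ IsRegDlog p M' A G ∧ dlogQ (G : LaurentSeries (kW A)) ≠ 0 ∧
      ∀ ℓ : Nat.Primes, good ℓ →
        IsHeckeEigQ (ℓ : ℕ) ((a ℓ : ℤ) : kW A) (dlogQ (G : LaurentSeries (kW A))) := by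
  classical
  have hp : p.Prime := Fact.out
  haveI : NeZero p := ⟨hp.ne_zero⟩
  haveI : CharP (kW A) p := Fermat.Agent.ES.KRON.KronInst10.charP_residueField A hp hA
  haveI : IsAlgClosed (kW A) := Fermat.Agent.ES.KRON.KronInst10.isAlgClosed_residueField A
  have hI : NodalInstHyp (IX M' p hpM h4M A hA) := (instInput_IX M' p hpM h4M A hA hp2).hyp
  have C := hI.ctx
  have HL : Fermat.Agent.RR.LSpace.LHyp (kW A) (FtW M' A) :=
    Fermat.Agent.ES.X44.BridgeN4.lHyp_FtW M' p hpM h4M A hA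
  have HF : Fermat.Agent.RR.LSpace.LHyp Qb (FW p M') :=
    haveI : NeZero (M' * p) := ⟨Nat.mul_ne_zero (NeZero.ne M') hp.ne_zero⟩
    Fermat.Agent.RR.LHypGen.lHyp_of_isGen (Fermat.Agent.RED.TOP.FbarFacts20.isGen_j (M' * p))
  have hs : 0 < (IX M' p hpM h4M A hA).s :=
    haveI := neZero_four
    Fermat.Agent.ES.W33.NodeCountPos14.sN_pos M' p hpM h4M A hA hp2
      (ctxLeaves M' p hpM h4M A hA hp2).H
  obtain ⟨x, hxV, D, ⟨hrep, hoff, hd1, hd2⟩, hne⟩ := hRed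
  obtain ⟨h, hh0, hh⟩ := Fermat.Agent.ES.X44.BridgeN4.exists_div_nsmul p hrep (hV x hxV)
  have hh' : ∀ P : Place Qb (FW p M'), (p : ℤ) * D P = P.ord h := fun P => by
    rw [← hh P, Finsupp.smul_apply, nsmul_eq_mul]
  obtain ⟨g, hgred, hg⟩ := exists_scaled C hh0 hh'
  obtain ⟨hg1, hg2, ho1, ho2⟩ := theta_fix_data C HL HL hs hoff hd1 hd2 g hg hgred
  -- the Hecke relations on both components
  have hrel : ∀ ℓ : Nat.Primes, good ℓ →
      IsHeckeEigQ ((ℓ : Nat.Primes) : ℕ) ((a ℓ : ℤ) : kW A)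
        (dlogQ ((((IX M' p hpM h4M A hA).red g).1 : FtW M' A) : LaurentSeries (kW A))) ∧
      IsHeckeEigQ ((ℓ : Nat.Primes) : ℕ) ((a ℓ : ℤ) : kW A)
        (dlogQ ((((IX M' p hpM h4M A hA).red g).2 : FtW M' A) : LaurentSeries (kW A))) := by
    intro ℓ hℓS
    haveI : NeZero ((ℓ : Nat.Primes) : ℕ) := ⟨(ℓ : Nat.Primes).2.ne_zero⟩
    have hℓN : ¬ ((ℓ : Nat.Primes) : ℕ) ∣ M' * p := hS ℓ hℓS
    have hℓp : ((ℓ : Nat.Primes) : ℕ) ≠ p := fun h => hℓN (h ▸ dvd_mul_left _ _)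
    obtain ⟨ζ, Θb, hζ, TH, hspec⟩ := hΘ ℓ hℓS
    obtain ⟨u, hu0, hu⟩ := Fermat.Agent.ES.X44.HeckeRelInst8.exists_div_hecke_sub (M' * p) ℓ hℓN hrep
      (hT ℓ hℓS x hxV)
    obtain ⟨u₁, u₂, c, hu1, hu2, hc, hr1, hr2⟩ := theta_fix C HF hp.ne_zero g hg hg1 hg2
      (Fermat.Agent.ES.X44.HeckeRelInst8.heckeT (M' * p) (ℓ : ℕ) ℓ.2 hℓN)
      (Fermat.Agent.ES.X44.HeckeRelInst8.theta_hyp (M' * p) (ℓ : ℕ) ℓ.2 hℓN) TH hu0 hu
    exact ⟨isHeckeEigQ_of_rel hp hA (ℓ : ℕ) hℓp ℓ.2 hζ hg1 hu1 hc (a ℓ) (hspec g).1 hr1,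
      isHeckeEigQ_of_rel hp hA (ℓ : ℕ) hℓp ℓ.2 hζ hg2 hu2 hc (a ℓ) (hspec g).2 hr2⟩
  -- one of the two `dlogQ` is nonzero
  by_cases h1 : dlogQ ((((IX M' p hpM h4M A hA).red g).1 : FtW M' A) : LaurentSeries (kW A)) ≠ 0
  · exact ⟨((IX M' p hpM h4M A hA).red g).1, hg1, fun Q => ⟨_, ho1 Q⟩, h1,
      fun ℓ hℓ => (hrel ℓ hℓ).1⟩
  · have h2 : dlogQ ((((IX M' p hpM h4M A hA).red g).2 : FtW M' A) : LaurentSeries (kW A)) ≠ 0 := by
      intro h2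
      apply hne
      apply compPrin_of_isPrincipal
      · by_contra hnp
        exact h1 (Fermat.Agent.ES.X44.EigQBridge5.dlogQ_ne_zero_of_not_isPrincipal (kW A) p M' hpM
          _ hg1 _ ho1 hnp)
      · by_contra hnp
        exact (Fermat.Agent.ES.X44.EigQBridge5.dlogQ_ne_zero_of_not_isPrincipal (kW A) p M' hpM
          _ hg2 _ ho2 hnp) h2
    exact ⟨((IX M' p hpM h4M A hA).red g).2, hg2, fun Q => ⟨_, ho2 Q⟩, h2,
      fun ℓ hℓ => (hrel ℓ hℓ).2⟩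

end Fermat.Agent.ES.X44.EigQExit8
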