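/-
Programme X (S44), chapter (W2), helper7: **the norm product on `q`-series and its reduction modulo a prime
different from `l`** (pure `q`-series algebra on top of `KRON/KronNorm10`).

`normProd l ζ y = ∏_{b<l} y(ζ^b q) · y(q^{l²})` (main's `KronNorm10.normProd`; main's
`ConjNorm11.qExpand_normAlong_alpha_beta` says `N_α (β f)(q^l) = normProd l ζ f`).

* `normProd_one`, `normProd_mul`, `normProd_ne_zero` (coefficients in a field), `normProd_single` (constants);
* `IsTh l ζ x X` : `X (q^l) = normProd l ζ x` ("`X = Θ x`"); `IsTh.unique`, `IsTh.mul`, `IsTh.one`, `IsTh.inv`,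
  `IsTh.div`, `IsTh.ne_zero`, `IsTh.pow`;
* `th_descent` : if `Nn (q^l) = ι (normProd l ζ y)` for an injective coefficient extension `ι : R → K`, then `Nn`
  has coefficients in `R`, and its image under ANY coefficient homomorphism `res : R → k` is `Θ (res y)`;
* `th_descent_val` : the same at a valuation subring `A` of an algebraically closed field.
-/
import Mathlib
import Fermat.Agent.ES.KRON.KronNorm10

set_option autoImplicit false
set_option linter.style.haveILetI false
set_option linter.unusedSectionVars false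
set_option linter.unusedVariables false

open HahnSeries ModularCurve

noncomputable section

namespace Fermat.Agent.ES.X44.ThetaQ7

open Fermat.Agent.ES.KRON.KronCong24 Fermat.Agent.ES.KRON.KronNorm10 Fermat.Agent.ES.KRON.KronInst10

section Generic

variable {R : Type*} [CommRing R] (l : ℕ) [NeZero l] (ζ : Rˣ)

theorem normProd_one : normProd l ζ (1 : LaurentSeries R) = 1 := by
  unfold normProd
  simp only [map_one, Finset.prod_const_one, mul_one]

theorem normProd_mul (x y : LaurentSeries R) :
    normProd l ζ (x * y) = normProd l ζ x * normProd l ζ y := by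
  unfold normProd
  simp only [map_mul, Finset.prod_mul_distrib]
  ring

theorem normProd_pow (x : LaurentSeries R) (n : ℕ) :
    normProd l ζ (x ^ n) = normProd l ζ x ^ n := by
  induction n with
  | zero => rw [pow_zero, pow_zero, normProd_one]
  | succ n ih => rw [pow_succ, pow_succ, normProd_mul, ih]

/-- `X = Θ x`: `X (q^l)` is the norm product of `x`. -/
def IsTh (x X : LaurentSeries R) : Prop := qExpand R l X = normProd l ζ x

variable {l ζ}

theorem IsTh.unique {x X X' : LaurentSeries R} (h : IsTh l ζ x X) (h' : IsTh l ζ x X') : X = X' :=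
  qExpand_injective (R := R) l (h.trans h'.symm)

theorem isTh_one : IsTh l ζ (1 : LaurentSeries R) 1 := by
  unfold IsTh
  rw [map_one, normProd_one]

theorem IsTh.mul {x y X Y : LaurentSeries R} (hx : IsTh l ζ x X) (hy : IsTh l ζ y Y) :
    IsTh l ζ (x * y) (X * Y) := by
  unfold IsTh at *
  rw [map_mul, hx, hy, normProd_mul]

theorem IsTh.pow {x X : LaurentSeries R} (hx : IsTh l ζ x X) (n : ℕ) :
    IsTh l ζ (x ^ n) (X ^ n) := by
  unfold IsTh at *
  rw [map_pow, hx, normProd_pow]

end Generic

section Field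

variable {k : Type*} [Field k] {l : ℕ} [NeZero l] {ζ : kˣ}

theorem normProd_ne_zero {x : LaurentSeries k} (hx : x ≠ 0) : normProd l ζ x ≠ 0 := by
  unfold normProd
  refine mul_ne_zero (Finset.prod_ne_zero_iff.mpr fun b _ => ?_) ?_
  · exact (map_ne_zero (twistU (ζ ^ b))).mpr hx
  · exact (map_ne_zero (qExpand k (l ^ 2))).mpr hx

theorem IsTh.ne_zero {x X : LaurentSeries k} (h : IsTh l ζ x X) (hx : x ≠ 0) : X ≠ 0 := by
  intro h0
  unfold IsTh at h
  rw [h0, map_zero] at h
  exact normProd_ne_zero hx h.symm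

theorem normProd_inv (x : LaurentSeries k) : normProd l ζ x⁻¹ = (normProd l ζ x)⁻¹ := by
  rcases eq_or_ne x 0 with rfl | hx
  · have h0 : normProd l ζ (0 : LaurentSeries k) = 0 := by
      unfold normProd
      rw [map_zero, mul_zero]
    rw [inv_zero, h0, inv_zero]
  · refine eq_inv_of_mul_eq_one_left ?_
    rw [← normProd_mul, inv_mul_cancel₀ hx, normProd_one]

theorem IsTh.inv {x X : LaurentSeries k} (hx : IsTh l ζ x X) : IsTh l ζ x⁻¹ X⁻¹ := by
  unfold IsTh at *
  rw [map_inv₀, hx, normProd_inv]

theorem IsTh.div {x y X Y : LaurentSeries k} (hx : IsTh l ζ x X) (hy : IsTh l ζ y Y) :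
    IsTh l ζ (x / y) (X / Y) := by
  rw [div_eq_mul_inv, div_eq_mul_inv]
  exact hx.mul hy.inv

/-- the norm product of a constant `c` is the constant `c ^ (l + 1)`. -/
theorem isTh_C (hζ : ζ ^ l = 1) (c : k) :
    IsTh l ζ (HahnSeries.C c : LaurentSeries k) (HahnSeries.C (c ^ (l + 1))) := by
  unfold IsTh normProd
  have h1 : ∀ b : ℕ, twistU (ζ ^ b) (HahnSeries.C c : LaurentSeries k) = HahnSeries.C c := by
    intro b
    ext n
    show (((ζ ^ b) ^ n : kˣ) : k) * (HahnSeries.C c : LaurentSeries k).coeff n = _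
    by_cases hn : n = 0
    · subst hn
      rw [zpow_zero, Units.val_one, one_mul]
    · have : (HahnSeries.C c : LaurentSeries k).coeff n = 0 := by
        rw [HahnSeries.C_apply, HahnSeries.coeff_single_of_ne hn]
      rw [this, mul_zero]
  rw [qExpand_C, qExpand_C, Finset.prod_congr rfl (fun b _ => h1 b), Finset.prod_const,
    Finset.card_range, ← map_pow, ← map_mul, ← pow_succ]

end Field

section Descent

variable {R K k : Type*} [CommRing R] [CommRing K] [CommRing k] (l : ℕ) [NeZero l]

/-- **descent of the norm product.** -/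
theorem th_descent (ι : R →+* K) (hι : Function.Injective ι) (res : R →+* k) (ζ : Rˣ)
    (y : LaurentSeries R) (Nn : LaurentSeries K)
    (hN : qExpand K l Nn = coeffMap ι (normProd l ζ y)) :
    ∃ NR : LaurentSeries R, coeffMap ι NR = Nn ∧
      IsTh l (Units.map (res : R →* k) ζ) (coeffMap res y) (coeffMap res NR) := by
  obtain ⟨z, hz⟩ := mem_range_qExpand_of_coeffMap ι hι l (normProd l ζ y) Nn hN.symm
  refine ⟨z, ?_, ?_⟩
  · apply qExpand_injective (R := K) l
    rw [hN, ← hz, ModularCurve.coeffMap_qExpand]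
  · unfold IsTh
    rw [← ModularCurve.coeffMap_qExpand, hz, normProd_map]

end Descent

section Val

variable {L : Type*} [Field L] [IsAlgClosed L] (A : ValuationSubring L) (l : ℕ) [NeZero l]

/-- the root of unity `ζ` of `L`, as a unit of `A`, reduced to the residue field. -/
def zetaBar (ζ : Lˣ) (hζ : ζ ^ l = 1) : (IsLocalRing.ResidueField ↥A)ˣ :=
  Units.map ((IsLocalRing.residue ↥A : ↥A →+* IsLocalRing.ResidueField ↥A) : ↥A →* _)
    (unitOfPowEqOne A (Nat.pos_of_ne_zero (NeZero.ne l))
      (show (ζ : L) ^ l = 1 by rw [← Units.val_pow_eq_pow_val, hζ, Units.val_one]))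

theorem zetaBar_pow (ζ : Lˣ) (hζ : ζ ^ l = 1) : zetaBar A l ζ hζ ^ l = 1 := by
  unfold zetaBar
  rw [← map_pow, unitOfPowEqOne_pow, map_one]

/-- **descent of the norm product at a valuation subring**: if `Nn (q^l) = ∏_b f(ζ^b q) · f(q^{l²})` with
`f = coeffMap A.subtype y`, then `Nn` has coefficients in `A` and reduces to `Θ ȳ`. -/
theorem th_descent_val (ζ : Lˣ) (hζ : ζ ^ l = 1) (y : LaurentSeries ↥A) (Nn : LaurentSeries L)
    (hN : qExpand L l Nn = normProd l ζ (coeffMap A.subtype y)) :
    ∃ NR : LaurentSeries ↥A, coeffMap A.subtype NR = Nn ∧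
      IsTh l (zetaBar A l ζ hζ) (coeffMap (IsLocalRing.residue ↥A) y)
        (coeffMap (IsLocalRing.residue ↥A) NR) := by
  have hlpos : 0 < l := Nat.pos_of_ne_zero (NeZero.ne l)
  have hζL : (ζ : L) ^ l = 1 := by rw [← Units.val_pow_eq_pow_val, hζ, Units.val_one]
  set ζA : (↥A)ˣ := unitOfPowEqOne A hlpos hζL with hζA
  have hmap : Units.map ((A.subtype : ↥A →+* L) : ↥A →* L) ζA = ζ := Units.ext rfl
  have hN' : qExpand L l Nn = coeffMap A.subtype (normProd l ζA y) := by
    rw [normProd_map, hmap]
    exact hN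
  exact th_descent l A.subtype Subtype.val_injective (IsLocalRing.residue ↥A) ζA y Nn hN'

end Val

end Fermat.Agent.ES.X44.ThetaQ7
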