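/-
Programme X (S44), chapter (QH), ruling x7 (helper24): **`ThetaHyp` AT THE NODAL INSTANCE, from the `O1`
literal.**

Level `N' = M' * p`, `ℓ ∤ N'` a prime, `Θ f = N_α (β f)` (`ThetaFricke21.theta (M' * p) ℓ`),
`ζ̄ : (kA A)ˣ`.  `Θ̄ : Ft M' A → Ft M' A` is THE `Z` with `Z (q^ℓ) = normProd ℓ ζ̄ y` if there is one in
`Ft M' A`, and `1` otherwise (`thetaBar`).

INPUT (helper7's `ThetaO17`, here a hypothesis `hO1`, inline):
  `∀ f (hf : f ∈ O1), ∃ h : Θ f ∈ O1, IsTh ℓ ζ̄ (rho1 ⟨f, hf⟩) (rho1 ⟨Θ f, h⟩)`.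

OUTPUT:
* **`thetaHyp`**   : `ThetaRel7.ThetaHyp (GN M' p A) (redN M' p A) Θ Θ̄ Θ̄`
  (`O2`, `rho2` through `W_{N'} ∘ Θ = Θ ∘ W_{N'}`, `ThetaFricke21.fricke_theta'`: the SAME `Θ̄` on both
  components);
* **`thetaBar_spec_fst`**, **`thetaBar_spec_snd`** : `qExpand ℓ (Θ̄ (redN g).i) = normProd ℓ ζ̄ (redN g).i` for
  `g ∈ GN`;
* `theta_mem_O2`, `rho2_theta` : the `O2` twin of the literal.
-/
import Mathlib
import Fermat.Agent.ES.W33.NodalDefs3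
import Fermat.Agent.ES.X44.ThetaRel7
import Fermat.Agent.ES.X44.ThetaQ7
import Fermat.Agent.ES.X44.ThetaFricke21

set_option autoImplicit false
set_option synthInstance.maxHeartbeats 400000
set_option linter.unusedSectionVars false
set_option linter.style.haveILetI false

open HahnSeries ModularCurve AlgebraicCurve

noncomputable section

namespace Fermat.Agent.ES.X44.ThetaInst24

open Fermat.Agent.RED.Interface4 Fermat.Agent.ES.RED.Contract8 Fermat.Agent.ES.RED.ModelInst4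
  Fermat.Agent.ES.KRON.KronNorm10
  Fermat.Agent.ES.W33.NodalDefs3 Fermat.Agent.ES.X44.ThetaRel7 Fermat.Agent.ES.X44.ThetaQ7
  Fermat.Agent.ES.X44.ThetaFricke21

attribute [local instance 5000] HahnSeries.powerSeriesAlgebra SubalgebraClass.toAlgebra

variable (M' : ℕ) [NeZero M'] (p : ℕ) [Fact p.Prime] (A : ValuationSubring Qbar)
  (ℓ : ℕ) [NeZero ℓ] (ζb : (kA A)ˣ)

/-! ### `Θ̄` -/

/-- there is `Z ∈ Ft M' A` with `Z (q^ℓ) = normProd ℓ ζ̄ y`. -/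
def HasTh (y : Ft M' A) : Prop :=
  ∃ Z : Ft M' A, IsTh ℓ ζb ((y : Ft M' A) : LaurentSeries (kA A))
    ((Z : Ft M' A) : LaurentSeries (kA A))

open Classical in
/-- **`Θ̄`** : THE `Z ∈ Ft M' A` with `Z (q^ℓ) = normProd ℓ ζ̄ y` if there is one, `1` otherwise. -/
def thetaBar (y : Ft M' A) : Ft M' A :=
  if h : HasTh M' A ℓ ζb y then h.choose else 1

variable {M' A ℓ ζb}

theorem thetaBar_isTh {y : Ft M' A} (h : HasTh M' A ℓ ζb y) :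
    IsTh ℓ ζb ((y : Ft M' A) : LaurentSeries (kA A))
      ((thetaBar M' A ℓ ζb y : Ft M' A) : LaurentSeries (kA A)) := by
  unfold thetaBar
  rw [dif_pos h]
  exact h.choose_spec

/-- `Θ̄ y = Z` as soon as `Z (q^ℓ) = normProd ℓ ζ̄ y`. -/
theorem thetaBar_eq {y Z : Ft M' A}
    (h : IsTh ℓ ζb ((y : Ft M' A) : LaurentSeries (kA A)) ((Z : Ft M' A) : LaurentSeries (kA A))) :
    thetaBar M' A ℓ ζb y = Z :=
  Subtype.ext ((thetaBar_isTh ⟨Z, h⟩).unique h)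

/-- `Θ̄ y ≠ 0` for `y ≠ 0`. -/
theorem thetaBar_ne_zero {y : Ft M' A} (hy : y ≠ 0) : thetaBar M' A ℓ ζb y ≠ 0 := by
  by_cases h : HasTh M' A ℓ ζb y
  · intro h0
    have hy' : ((y : Ft M' A) : LaurentSeries (kA A)) ≠ 0 := fun h1 => hy (Subtype.ext h1)
    exact (thetaBar_isTh h).ne_zero hy' (congrArg Subtype.val h0)
  · unfold thetaBar
    rw [dif_neg h]
    exact one_ne_zero

variable (M' A ℓ ζb)

/-! ### the literal and its `O2` twin -/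

/-- **the `O1` literal** (helper7's `ThetaO17`). -/
def O1Lit : Prop :=
  ∀ (f : ↥(Fbar (M' * p))) (hf : f ∈ O1 M' p A),
    ∃ h : theta (M' * p) ℓ f ∈ O1 M' p A,
      IsTh ℓ ζb ((rho1 M' p A ⟨f, hf⟩ : Ft M' A) : LaurentSeries (kA A))
        ((rho1 M' p A ⟨theta (M' * p) ℓ f, h⟩ : Ft M' A) : LaurentSeries (kA A))

variable {M' p A ℓ ζb}

/-- `rho1 (Θ f) = Θ̄ (rho1 f)`. -/
theorem rho1_theta (hO1 : O1Lit M' p A ℓ ζb) {f : ↥(Fbar (M' * p))} (hf : f ∈ O1 M' p A)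
    (h : theta (M' * p) ℓ f ∈ O1 M' p A) :
    rho1 M' p A ⟨theta (M' * p) ℓ f, h⟩ = thetaBar M' A ℓ ζb (rho1 M' p A ⟨f, hf⟩) := by
  obtain ⟨h', hth⟩ := hO1 f hf
  exact (thetaBar_eq hth).symm

/-- **the `O2` twin, membership**: `Θ (O2) ⊆ O2`. -/
theorem theta_mem_O2 (hℓ : ℓ.Prime) (hℓN : ¬ ℓ ∣ M' * p) (hO1 : O1Lit M' p A ℓ ζb)
    {f : ↥(Fbar (M' * p))} (hf : f ∈ O2 M' p A) : theta (M' * p) ℓ f ∈ O2 M' p A := by
  rw [mem_O2_iff]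
  have h1 : frickeN M' p (theta (M' * p) ℓ f) = theta (M' * p) ℓ (frickeN M' p f) :=
    fricke_theta' (M' * p) ℓ hℓ hℓN f
  rw [h1]
  exact (hO1 (frickeN M' p f) ((mem_O2_iff M' p A f).1 hf)).1

/-- **the `O2` twin, reduction**: `rho2 (Θ f) = Θ̄ (rho2 f)`. -/
theorem rho2_theta (hℓ : ℓ.Prime) (hℓN : ¬ ℓ ∣ M' * p) (hO1 : O1Lit M' p A ℓ ζb)
    {f : ↥(Fbar (M' * p))} (hf : f ∈ O2 M' p A) (h : theta (M' * p) ℓ f ∈ O2 M' p A) :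
    rho2 M' p A ⟨theta (M' * p) ℓ f, h⟩ = thetaBar M' A ℓ ζb (rho2 M' p A ⟨f, hf⟩) := by
  have hf1 : frickeN M' p f ∈ O1 M' p A := (mem_O2_iff M' p A f).1 hf
  have h1 : frickeN M' p (theta (M' * p) ℓ f) = theta (M' * p) ℓ (frickeN M' p f) :=
    fricke_theta' (M' * p) ℓ hℓ hℓN f
  have h2 : theta (M' * p) ℓ (frickeN M' p f) ∈ O1 M' p A := (hO1 _ hf1).1
  rw [rho2_apply, rho2_apply]
  have h3 : (⟨frickeN M' p (theta (M' * p) ℓ f), h⟩ : ↥(O1 M' p A)) =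
      ⟨theta (M' * p) ℓ (frickeN M' p f), h2⟩ := Subtype.ext h1
  show rho1 M' p A ⟨frickeN M' p (theta (M' * p) ℓ f), h⟩ = _
  rw [h3]
  exact rho1_theta hO1 hf1 h2

/-! ### `ThetaHyp` -/

/-- `Θ (GN) ⊆ GN`. -/
theorem theta_mem_GN (hℓ : ℓ.Prime) (hℓN : ¬ ℓ ∣ M' * p) (hO1 : O1Lit M' p A ℓ ζb)
    (g : ↥(GN M' p A)) : theta (M' * p) ℓ (g : ↥(Fbar (M' * p))) ∈ GN M' p A :=
  ⟨(hO1 _ (GN_le_O1 M' p A g.2)).1, theta_mem_O2 hℓ hℓN hO1 (GN_le_O2 M' p A g.2)⟩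

/-- **`ThetaHyp` at the nodal instance**, with the SAME `Θ̄` on both components. -/
theorem thetaHyp (hℓ : ℓ.Prime) (hℓN : ¬ ℓ ∣ M' * p) (hO1 : O1Lit M' p A ℓ ζb) :
    ThetaHyp (GN M' p A) (redN M' p A) (theta (M' * p) ℓ) (thetaBar M' A ℓ ζb)
      (thetaBar M' A ℓ ζb) where
  mem := theta_mem_GN hℓ hℓN hO1
  red_eq := fun g => by
    apply Prod.ext
    · rw [redN_fst, redN_fst]
      exact rho1_theta hO1 (GN_le_O1 M' p A g.2) _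
    · rw [redN_snd, redN_snd]
      exact rho2_theta hℓ hℓN hO1 (GN_le_O2 M' p A g.2) _
  ne_zero₁ := fun f hf => thetaBar_ne_zero hf
  ne_zero₂ := fun f hf => thetaBar_ne_zero hf

/-! ### the spec of `Θ̄` on reductions -/

/-- `rho1 f` has a `Θ̄`. -/
theorem hasTh_rho1 (hO1 : O1Lit M' p A ℓ ζb) {f : ↥(Fbar (M' * p))} (hf : f ∈ O1 M' p A) :
    HasTh M' A ℓ ζb (rho1 M' p A ⟨f, hf⟩) := by
  obtain ⟨h, hth⟩ := hO1 f hf
  exact ⟨_, hth⟩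

/-- **spec, first component**: `(Θ̄ ḡ₁)(q^ℓ) = normProd ℓ ζ̄ ḡ₁`. -/
theorem thetaBar_spec_fst (hO1 : O1Lit M' p A ℓ ζb) (g : ↥(GN M' p A)) :
    qExpand (kA A) ℓ ((thetaBar M' A ℓ ζb (redN M' p A g).1 : Ft M' A) : LaurentSeries (kA A)) =
      normProd ℓ ζb (((redN M' p A g).1 : Ft M' A) : LaurentSeries (kA A)) := by
  rw [redN_fst]
  exact thetaBar_isTh (hasTh_rho1 hO1 (GN_le_O1 M' p A g.2))

/-- **spec, second component**: `(Θ̄ ḡ₂)(q^ℓ) = normProd ℓ ζ̄ ḡ₂`. -/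
theorem thetaBar_spec_snd (hO1 : O1Lit M' p A ℓ ζb) (g : ↥(GN M' p A)) :
    qExpand (kA A) ℓ ((thetaBar M' A ℓ ζb (redN M' p A g).2 : Ft M' A) : LaurentSeries (kA A)) =
      normProd ℓ ζb (((redN M' p A g).2 : Ft M' A) : LaurentSeries (kA A)) := by
  rw [redN_snd, rho2_apply]
  exact thetaBar_isTh (hasTh_rho1 hO1 ((mem_O2_iff M' p A _).1 (GN_le_O2 M' p A g.2)))

end Fermat.Agent.ES.X44.ThetaInst24
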