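/-
Programme X (S44), chapter (QH), helper8: **(QH) CLOSED.**  `EigQExit8.ThetaInput` is discharged by helper7's
`ThetaO17.thetaO1` (`Θ (O1) ⊆ O1`, `rho1 ∘ Θ = Θ̄ ∘ rho1`) and helper24's `ThetaInst24.thetaHyp` (the `O2` twin
through the Fricke involution, `ThetaHyp (GN) (redN) Θ Θ̄ Θ̄`), so that

  `eigQ_final` : `RedNe (IX …) V`, `V` killed by `p`, `T_ℓ x = a_ℓ x` on `V` for the good primes `ℓ ∤ M' p`
                ⊢ a nonzero `Ḡ ∈ F̃_{M'}` with `p ∣ ord_Q Ḡ` at every place, `dlogQ Ḡ ≠ 0` and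
                  `T_ℓ (dlogQ Ḡ) = a_ℓ • dlogQ Ḡ` on `q`-expansions for the good `ℓ`

which is BY DEFINITION `EigQLit9.EigQ p M' A a {ℓ | good ℓ}` (v1) `= EigQLit9.EigQAt p M' A a good` (v2).
`eigQ_of_iota` : the same for `V = Set.range ι`, `ι` an additive map from a group killed by `p` (the shape of the
chain: `ι : E[p] →+ J₀(M' p)` of `RealExit`).
-/
import Mathlib
import Fermat.Agent.ES.X44.EigQExit8
import Fermat.Agent.ES.X44.ThetaO17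
import Fermat.Agent.ES.X44.ThetaInst24

set_option autoImplicit false
set_option linter.unusedSectionVars false
set_option linter.style.haveILetI false
set_option synthInstance.maxHeartbeats 400000

noncomputable section

open AlgebraicCurve ModularCurve HahnSeries

namespace Fermat.Agent.ES.X44.EigQFinal8

open Fermat.Agent.ES.W33.XiIfaceN29 Fermat.Agent.ES.W33.GeoNames23 Fermat.Agent.ES.W33.GeoW23
  Fermat.Agent.ES.W33.GeoInput23 Fermat.Agent.ES.X44.GeoLit12 Fermat.Agent.ES.X44.EigQLit9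
  Fermat.Agent.ES.X44.EigQExit8 Fermat.Agent.ES.X44.ThetaQ7

attribute [local instance 5000] HahnSeries.powerSeriesAlgebra SubalgebraClass.toAlgebra

local notation "Qb" => AlgebraicClosure ℚ

variable (M' : ℕ) [NeZero M'] (p : ℕ) [Fact p.Prime] (hpM : ¬ p ∣ M') (h4M : 4 ∣ M')
  (A : ValuationSubring Qb) (hA : A.LiesOverPrime p)

/-- **`ThetaInput` at every prime `ℓ ∤ M' p`.** -/
theorem thetaInput (ℓ : ℕ) [NeZero ℓ] (hℓ : ℓ.Prime) (hℓN : ¬ ℓ ∣ M' * p) :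
    ThetaInput M' p hpM h4M A hA ℓ := by
  have hp : p.Prime := Fact.out
  haveI : CharP (kW A) p := Fermat.Agent.ES.KRON.KronInst10.charP_residueField A hp hA
  have hℓp : ℓ ≠ p := fun h => hℓN (h ▸ dvd_mul_left _ _)
  have hℓk : ((ℓ : ℕ) : kW A) ≠ 0 := by
    intro h0
    have := (CharP.cast_eq_zero_iff (kW A) p ℓ).mp h0
    exact hℓp ((Nat.prime_dvd_prime_iff_eq hp hℓ).mp this).symm
  obtain ⟨ζ₀, hζ₀⟩ := HasEnoughRootsOfUnity.exists_primitiveRoot Qb ℓ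
  have hu : IsUnit ζ₀ := hζ₀.isUnit (NeZero.ne ℓ)
  have hζ : IsPrimitiveRoot hu.unit ℓ := by
    rw [← IsPrimitiveRoot.coe_units_iff, IsUnit.unit_spec]
    exact hζ₀
  have hO1 := Fermat.Agent.ES.X44.ThetaO17.thetaO1 M' p A hA hpM ℓ hℓ hℓN hu.unit hζ
  refine ⟨zetaBar A ℓ hu.unit hζ.pow_eq_one,
    Fermat.Agent.ES.X44.ThetaInst24.thetaBar M' A ℓ (zetaBar A ℓ hu.unit hζ.pow_eq_one),
    Fermat.Agent.ES.X44.ThetaO17.zetaBar_isPrimitiveRoot ℓ A hℓ hu.unit hζ hℓk,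
    Fermat.Agent.ES.X44.ThetaInst24.thetaHyp hℓ hℓN hO1, fun g => ⟨?_, ?_⟩⟩
  · exact Fermat.Agent.ES.X44.ThetaInst24.thetaBar_spec_fst hO1 g
  · exact Fermat.Agent.ES.X44.ThetaInst24.thetaBar_spec_snd hO1 g

/-- **(QH), FINAL FORM.** -/
theorem eigQ_final (hp2 : p ≠ 2) (V : Set (JZero (M' * p))) (hV : ∀ x ∈ V, p • x = 0)
    (a : Nat.Primes → ℤ) (good : Nat.Primes → Prop)
    (hS : ∀ ℓ : Nat.Primes, good ℓ → ¬ (ℓ : ℕ) ∣ M' * p)
    (hT : ∀ ℓ : Nat.Primes, good ℓ → ∀ x ∈ V, heckeOperatorBar (M' * p) ℓ x = a ℓ • x)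
    (hRed : RedNe (IX M' p hpM h4M A hA) V) :
    ∃ G : FtW M' A, G ≠ 0 ∧ IsRegDlog p M' A G ∧ dlogQ (G : LaurentSeries (kW A)) ≠ 0 ∧
      ∀ ℓ : Nat.Primes, good ℓ →
        IsHeckeEigQ (ℓ : ℕ) ((a ℓ : ℤ) : kW A) (dlogQ (G : LaurentSeries (kW A))) :=
  eigQ_of_redNe M' p hpM h4M A hA hp2 V hV a good hS hT
    (fun ℓ hℓ => haveI : NeZero (ℓ : ℕ) := ⟨ℓ.2.ne_zero⟩
      thetaInput M' p hpM h4M A hA (ℓ : ℕ) ℓ.2 (hS ℓ hℓ)) hRed

/-- **(QH) in the shape of the chain**: `V = Set.range ι` for an additive `ι` from a group killed by `p`. -/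
theorem eigQ_of_iota (hp2 : p ≠ 2) {E : Type*} [AddCommGroup E] (ι : E →+ JZero (M' * p))
    (hE : ∀ v : E, p • v = 0) (a : Nat.Primes → ℤ) (good : Nat.Primes → Prop)
    (hS : ∀ ℓ : Nat.Primes, good ℓ → ¬ (ℓ : ℕ) ∣ M' * p)
    (hT : ∀ ℓ : Nat.Primes, good ℓ → ∀ v : E, heckeOperatorBar (M' * p) ℓ (ι v) = a ℓ • ι v)
    (hRed : RedNe (IX M' p hpM h4M A hA) (Set.range ι)) :
    ∃ G : FtW M' A, G ≠ 0 ∧ IsRegDlog p M' A G ∧ dlogQ (G : LaurentSeries (kW A)) ≠ 0 ∧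
      ∀ ℓ : Nat.Primes, good ℓ →
        IsHeckeEigQ (ℓ : ℕ) ((a ℓ : ℤ) : kW A) (dlogQ (G : LaurentSeries (kW A))) := by
  refine eigQ_final M' p hpM h4M A hA hp2 (Set.range ι) ?_ a good hS ?_ hRed
  · rintro _ ⟨v, rfl⟩
    rw [← map_nsmul, hE v, map_zero]
  · rintro ℓ hℓ _ ⟨v, rfl⟩
    exact hT ℓ hℓ v

end Fermat.Agent.ES.X44.EigQFinal8
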