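/-
Programme X (S44), chapter (R), leaf R4-a (helper18), ABSTRACT part: **the joint eigenspace in the `p`-torsion
of an abelian group with commuting group action and operators**, as an `𝔽_p`-representation.

`J` an abelian group with a `DistribMulAction` of a group `G`; `D ≤ J` a `G`-stable subgroup; `T i : J →+ J`
(`i : ι`) additive operators commuting with `G`; `a i : ℤ`.
`eigSub D p T a = {x ∈ D | p • x = 0 ∧ ∀ i, T i x = a i • x}`.

* `Module (ZMod p)`, `rho : G →* End_{𝔽_p}`;
* `rho_relation` : a relation `σ² x - T_i (σ x) + ℓ x = 0` on `J[p]` gives `rho σ + ℓ • rho σ⁻¹ = a i • 1`.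
-/
import Mathlib

set_option autoImplicit false

noncomputable section

namespace Fermat.Agent.ES.X44.EigenAbs18

variable {G : Type*} [Group G] {J : Type*} [AddCommGroup J] [DistribMulAction G J]
  (D : AddSubgroup J) (p : ℕ) {ι : Type*} (T : ι → J →+ J) (a : ι → ℤ)

/-- **the joint eigenspace** in `J[p]`. -/
def eigSub : AddSubgroup J where
  carrier := {x | x ∈ D ∧ p • x = 0 ∧ ∀ i, T i x = a i • x}
  zero_mem' := ⟨D.zero_mem, smul_zero _, fun i => by rw [map_zero, smul_zero]⟩
  add_mem' := by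
    rintro x y ⟨hxD, hx, hx'⟩ ⟨hyD, hy, hy'⟩
    exact ⟨D.add_mem hxD hyD, by rw [smul_add, hx, hy, add_zero],
      fun i => by rw [map_add, hx' i, hy' i, smul_add]⟩
  neg_mem' := by
    rintro x ⟨hxD, hx, hx'⟩
    exact ⟨D.neg_mem hxD, by rw [smul_neg, hx, neg_zero],
      fun i => by rw [map_neg, hx' i, smul_neg]⟩

variable {D p T a}

theorem mem_eigSub {x : J} :
    x ∈ eigSub D p T a ↔ x ∈ D ∧ p • x = 0 ∧ ∀ i, T i x = a i • x := Iff.rfl

variable (D p T a)

instance instModule : Module (ZMod p) ↥(eigSub D p T a) :=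
  AddCommGroup.zmodModule fun x => Subtype.ext (by
    rw [AddSubgroup.coe_nsmul, x.2.2.1]; rfl)

theorem intCast_smul (c : ℤ) (x : ↥(eigSub D p T a)) : (c : ZMod p) • x = c • x :=
  Int.cast_smul_eq_zsmul (ZMod p) c x

theorem natCast_smul (c : ℕ) (x : ↥(eigSub D p T a)) : (c : ZMod p) • x = c • x :=
  Nat.cast_smul_eq_nsmul (ZMod p) c x

variable (hD : ∀ (σ : G) (x : J), x ∈ D → σ • x ∈ D)
  (hT : ∀ (i : ι) (σ : G) (x : J), T i (σ • x) = σ • T i x)

include hD hT in
/-- the eigenspace is `G`-stable. -/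
theorem smul_mem (σ : G) {x : J} (hx : x ∈ eigSub D p T a) : σ • x ∈ eigSub D p T a := by
  refine ⟨hD σ x hx.1, ?_, fun i => ?_⟩
  · rw [smul_comm, hx.2.1, smul_zero]
  · rw [hT, hx.2.2 i, smul_comm]

/-- the action of `σ`, additive. -/
def act (σ : G) : ↥(eigSub D p T a) →+ ↥(eigSub D p T a) where
  toFun x := ⟨σ • (x : J), smul_mem D p T a hD hT σ x.2⟩
  map_zero' := Subtype.ext (smul_zero σ)
  map_add' x y := Subtype.ext (smul_add σ (x : J) y)

/-- **the representation of `G` on the eigenspace.** -/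
def rho : G →* Module.End (ZMod p) ↥(eigSub D p T a) where
  toFun σ := (act D p T a hD hT σ).toZModLinearMap p
  map_one' := LinearMap.ext fun x => Subtype.ext (one_smul G (x : J))
  map_mul' σ τ := LinearMap.ext fun x => Subtype.ext (mul_smul σ τ (x : J))

theorem coe_rho (σ : G) (x : ↥(eigSub D p T a)) :
    ((rho D p T a hD hT σ x : ↥(eigSub D p T a)) : J) = σ • (x : J) := rfl

/-- **the linearised relation**: `σ² - T_i σ + ℓ = 0` on `J[p]` gives `σ + ℓ σ⁻¹ = a_i` on the
eigenspace. -/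
theorem rho_relation (σ : G) (i : ι) (ℓ : ℕ)
    (h : ∀ x : J, p • x = 0 → σ • σ • x - T i (σ • x) + ℓ • x = 0) :
    rho D p T a hD hT σ + (ℓ : ZMod p) • rho D p T a hD hT σ⁻¹ =
      ((a i : ℤ) : ZMod p) • (1 : Module.End (ZMod p) ↥(eigSub D p T a)) := by
  refine LinearMap.ext fun y => Subtype.ext ?_
  set x : J := σ⁻¹ • (y : J) with hx
  have hxM : x ∈ eigSub D p T a := smul_mem D p T a hD hT σ⁻¹ y.2
  have hσx : σ • x = (y : J) := by rw [hx, smul_inv_smul]
  have h1 := h x hxM.2.1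
  rw [hσx, y.2.2.2 i] at h1
  rw [LinearMap.add_apply, LinearMap.smul_apply, LinearMap.smul_apply, Module.End.one_apply,
    intCast_smul, natCast_smul, AddSubgroup.coe_add, AddSubgroup.coe_nsmul,
    AddSubgroup.coe_zsmul, coe_rho, coe_rho, ← hx]
  rw [sub_add_eq_add_sub, sub_eq_zero] at h1
  exact h1

/-- if `σ` fixes `J[p]` pointwise then `rho σ = 1`. -/
theorem rho_eq_one (σ : G) (h : ∀ x : J, p • x = 0 → σ • x = x) : rho D p T a hD hT σ = 1 :=
  LinearMap.ext fun x => Subtype.ext (h x x.2.2.1)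

/-- finiteness. -/
theorem finite_eigSub (hfin : {x : J | p • x = 0}.Finite) : Finite ↥(eigSub D p T a) :=
  (hfin.subset fun _ hx => hx.2.1).to_subtype

end Fermat.Agent.ES.X44.EigenAbs18
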