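/-
Programme X (S44), chapter (Old), leaf TorsToForm, file 2 of 3 (helper23):
**Deligne–Serre lifting from an eigenvector modulo `p` of a finite free `ℤ`-module.**

`X` finite free over `ℤ`, `T_i` commuting endomorphisms, `m ∈ X ∖ pX` with `T_i m ≡ a_i m mod pX`.

* `aevalComm_mod` : every polynomial `s` in the `T_i` acts on `m` by `eval a s` modulo `pX`;
* `dvd_eval_of_mod_eigen` : if `s(T) m = 0` then `p ∣ eval a s`;
* `exists_eigensystem_of_mod_eigen` : there is a complex eigenvector `w ≠ 0` in `ℂ ⊗ X` whose eigenvalues `lam i`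
  are algebraic integers congruent to `a i` modulo a maximal ideal over `p`
  (`ES/LR/DSNewB8.exists_eigensystem_of_ann` with `K = ⊤`).
-/
import Mathlib
import Fermat.Agent.ES.LR.DSNewB8

set_option autoImplicit false

open scoped TensorProduct

namespace Fermat.Agent.ES.X44.EigenLam23

open Fermat.Agent.ES.LR.AevalComm4

variable {X : Type*} [AddCommGroup X] {ι : Type*}
  (TX : ι → Module.End ℤ X) (hTX : ∀ i j, Commute (TX i) (TX j))

/-- every polynomial in the `T_i` acts on an eigenvector modulo `p` through the character. -/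
theorem aevalComm_mod (p : ℕ) (a : ι → ℤ) (m : X)
    (heig : ∀ i, ∃ m' : X, TX i m - a i • m = (p : ℤ) • m') (s : MvPolynomial ι ℤ) :
    ∃ m' : X, aevalComm (O := ℤ) TX hTX s m - MvPolynomial.eval a s • m = (p : ℤ) • m' := by
  induction s using MvPolynomial.induction_on with
  | C c =>
    refine ⟨0, ?_⟩
    rw [aevalComm_C, MvPolynomial.eval_C, Module.algebraMap_end_apply, sub_self, smul_zero]
  | add s t hs ht =>
    obtain ⟨m1, h1⟩ := hs
    obtain ⟨m2, h2⟩ := ht
    refine ⟨m1 + m2, ?_⟩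
    rw [map_add, LinearMap.add_apply, map_add, add_smul, smul_add, ← h1, ← h2]
    abel
  | mul_X s i hs =>
    obtain ⟨m1, h1⟩ := hs
    obtain ⟨mi, hi⟩ := heig i
    refine ⟨a i • m1 + aevalComm (O := ℤ) TX hTX s mi, ?_⟩
    have e1 : TX i m = a i • m + (p : ℤ) • mi := by rw [← hi]; abel
    have e2 : aevalComm (O := ℤ) TX hTX s m = MvPolynomial.eval a s • m + (p : ℤ) • m1 := by
      rw [← h1]; abel
    rw [map_mul, aevalComm_X, Module.End.mul_apply, e1, map_add, map_zsmul, map_zsmul, e2,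
      map_mul, MvPolynomial.eval_X, smul_add, smul_add, smul_smul, smul_smul, smul_smul,
      mul_comm (a i) (MvPolynomial.eval a s), mul_comm (a i) (p : ℤ)]
    abel

/-- a polynomial in the `T_i` killing an eigenvector modulo `p` lies in the kernel of the character. -/
theorem dvd_eval_of_mod_eigen {p : ℕ} (hp : p.Prime) (a : ι → ℤ) (m : X)
    (hm : ¬ ∃ m' : X, m = (p : ℤ) • m')
    (heig : ∀ i, ∃ m' : X, TX i m - a i • m = (p : ℤ) • m') (s : MvPolynomial ι ℤ)
    (hs : aevalComm (O := ℤ) TX hTX s m = 0) : (p : ℤ) ∣ MvPolynomial.eval a s := by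
  by_contra hnd
  apply hm
  obtain ⟨m', h'⟩ := aevalComm_mod TX hTX p a m heig s
  rw [hs, zero_sub] at h'
  have hcop : IsCoprime (MvPolynomial.eval a s) (p : ℤ) := by
    have hpZ : Prime (p : ℤ) := Nat.prime_iff_prime_int.mp hp
    exact ((Prime.coprime_iff_not_dvd hpZ).mpr hnd).symm
  obtain ⟨u, v, huv⟩ := hcop
  refine ⟨v • m - u • m', ?_⟩
  have h1 : m = (u * MvPolynomial.eval a s + v * (p : ℤ)) • m := by rw [huv, one_smul]
  have h2 : MvPolynomial.eval a s • m = -((p : ℤ) • m') := by rw [← h', neg_neg]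
  rw [add_smul, mul_smul, h2, mul_smul] at h1
  rw [smul_sub, smul_comm (p : ℤ) v m, smul_comm (p : ℤ) u m']
  rw [smul_neg] at h1
  rw [sub_eq_add_neg, add_comm]
  exact h1

variable [Module.Free ℤ X] [Module.Finite ℤ X]

include hTX in
/-- **Deligne–Serre lifting from one eigenvector modulo `p`.** -/
theorem exists_eigensystem_of_mod_eigen {p : ℕ} (hp : p.Prime) (a : ι → ℤ) (m : X)
    (hm : ¬ ∃ m' : X, m = (p : ℤ) • m')
    (heig : ∀ i, ∃ m' : X, TX i m - a i • m = (p : ℤ) • m') :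
    ∃ (lam : ι → integralClosure ℤ ℂ) (𝔪' : Ideal (integralClosure ℤ ℂ)) (w : ℂ ⊗[ℤ] X),
      𝔪'.IsMaximal ∧ (p : integralClosure ℤ ℂ) ∈ 𝔪' ∧ w ≠ 0 ∧
      (∀ i, (TX i).baseChange ℂ w = ((lam i : integralClosure ℤ ℂ) : ℂ) • w) ∧
      ∀ i, lam i - ((a i : ℤ) : integralClosure ℤ ℂ) ∈ 𝔪' := by
  obtain ⟨lam, 𝔪', w, hmax, hp𝔪, hw, -, heigw, hcong⟩ :=
    Fermat.Agent.ES.LR.DSNewB8.exists_eigensystem_of_ann hp TX hTX a ⊤
      (fun _ _ _ => Submodule.mem_top)
      (fun s hs => dvd_eval_of_mod_eigen TX hTX hp a m hm heig s (hs m Submodule.mem_top))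
  exact ⟨lam, 𝔪', w, hmax, hp𝔪, hw, heigw, hcong⟩

end Fermat.Agent.ES.X44.EigenLam23
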