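/-
Programme X (S44), chapter (R), leaf R3-a (helper18): **occurrence of the eigensystem of `W` in the
lattice `Λ_N = Lam N` modulo `p`**, in integral form.

From the hypotheses of S44's `hmod` (an eigenform `f` of level `N` congruent to `W` modulo a maximal ideal
`𝔪 ∋ p` of `ℤ̄`):

* `exists_occurrence_field` : a field `k` of characteristic `p` and `v ≠ 0` in `k ⊗ Λ_N` with
  `T_ℓ v = a_ℓ(W) v` for the good `ℓ ∤ N`, `ℓ ≠ p` (`LR/Occur16.exists_occurrence` without its level-raising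
  clause);
* `exists_occurrence_int` : DESCENT to the prime field, in integral form: `m ∈ Λ_N`, `m ∉ p Λ_N`, with
  `T_ℓ m - a_ℓ(W) m ∈ p Λ_N` (a `𝔽_p`-linear functional of `k` not killing a coordinate of `v`).
-/
import Mathlib
import Fermat.Agent.ES.LR.Occur16

set_option autoImplicit false
set_option linter.unusedSectionVars false

noncomputable section

namespace Fermat.Agent.ES.X44.OccFp18

open CongruenceSubgroup CuspForm TensorProduct ModularCurve ModularCurve.Period
open Fermat.Agent.ES.HEQ.FaithFinal26 Fermat.Agent.ES.HEQ.FaithInst26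
open Fermat.Agent.ES.LR.Occur16

/-- **(OCC)** without the level-raising clause. -/
theorem exists_occurrence_field {N p : ℕ} [NeZero N] (hp : p.Prime)
    (W : WeierstrassCurve ℤ)
    (f : CuspForm (Gamma0 N) 2) (𝔪 : Ideal (integralClosure ℤ ℂ))
    (hf : f.IsNormalizedEigenform) (hmax : 𝔪.IsMaximal) (hpm : (p : integralClosure ℤ ℂ) ∈ 𝔪)
    (hcong : ∀ ℓ : ℕ, ℓ.Prime → W.IsGoodPrimeFor ℓ → ¬ ℓ ∣ N → ℓ ≠ p →
      ∃ a : integralClosure ℤ ℂ, (a : ℂ) = ModularFormClass.qCoeff f ℓ ∧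
        a - ((W.apOfModel ℓ : ℤ) : integralClosure ℤ ℂ) ∈ 𝔪) :
    ∃ (k : Type) (_ : Field k) (_ : CharP k p) (v : k ⊗[ℤ] ↥(Lam N)), v ≠ 0 ∧
      (∀ (ℓ : ℕ) (hℓ : ℓ.Prime) (hℓN : ¬ ℓ ∣ N), W.IsGoodPrimeFor ℓ → ℓ ≠ p →
          (dcZ N ℓ hℓ hℓN).baseChange k v = ((W.apOfModel ℓ : ℤ) : k) • v) := by
  classical
  set S : Set ℕ := {ℓ | ℓ.Prime ∧ ℓ ∣ N} with hSdef
  have hS : ∀ r : ℕ, r.Prime → r ∣ N → r ∈ S := fun r hr hrN => ⟨hr, hrN⟩
  -- an eigenvector over `ℂ`
  obtain ⟨v, hv0, hv⟩ := exists_eigenvector S hS (K := ℂ) (Fermat.Agent.ES.J7.EigenChar1.chiC hf S)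
  -- a valuation subring of `ℂ` dominating `(ℤ̄, 𝔪)`
  let A : Subring ℂ := (integralClosure ℤ ℂ).toSubring
  let I : Ideal ↥A := 𝔪
  have hI : I ≠ ⊤ := hmax.ne_top
  obtain ⟨O, hAO, hIO⟩ := Ideal.image_subset_nonunits_valuationSubring I hI
  let j : ↥(integralClosure ℤ ℂ) →+* ↥O :=
    { toFun := fun a => ⟨(a : ℂ), hAO a.2⟩
      map_one' := rfl
      map_mul' := fun _ _ => rfl
      map_zero' := rfl
      map_add' := fun _ _ => rfl }
  let φ : ↥(integralClosure ℤ ℂ) →+* IsLocalRing.ResidueField ↥O := (IsLocalRing.residue ↥O).comp j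
  have hker : ∀ a : ↥(integralClosure ℤ ℂ), a ∈ 𝔪 → φ a = 0 := by
    intro a ha
    show IsLocalRing.residue ↥O (j a) = 0
    rw [IsLocalRing.residue_eq_zero_iff]
    have h1 : (a : ℂ) ∈ O.nonunits := hIO ⟨a, ha, rfl⟩
    obtain ⟨h2, h3⟩ := (ValuationSubring.mem_nonunits_iff_exists_mem_maximalIdeal).mp h1
    exact h3
  have hφ : ∀ (a : ↥(integralClosure ℤ ℂ)) (n : ℤ), a - (n : ↥(integralClosure ℤ ℂ)) ∈ 𝔪 →
      φ a = (n : IsLocalRing.ResidueField ↥O) := by
    intro a n h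
    have := hker _ h
    rw [map_sub, map_intCast, sub_eq_zero] at this
    exact this
  obtain ⟨w, hw0, hw⟩ := exists_reduction O (IsLocalRing.residue ↥O) v hv0
  refine ⟨IsLocalRing.ResidueField ↥O, inferInstance, ?_, w, hw0, ?_⟩
  · rw [CharP.charP_iff_prime_eq_zero hp]
    have := hker _ hpm
    rwa [map_natCast] at this
  · intro ℓ hℓ hℓN hgood hℓp
    obtain ⟨a, ha, ham⟩ := hcong ℓ hℓ hgood hℓN hℓp
    have hℓS : ℓ ∉ S := fun h => hℓN h.2
    have h1 := hv (heckeAlgebra.T hℓ hℓN hℓS)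
    rw [heckeLam_T' S hS ℓ hℓ hℓN hℓS, Fermat.Agent.ES.J7.EigenChar1.chiC_T hf hℓ hℓN hℓS, ← ha] at h1
    have h2 := hw (dcZ N ℓ hℓ hℓN) (j a) h1
    rw [h2]
    congr 1
    exact hφ a _ ham

/-! ### descent to the prime field -/

section descent

variable {M : Type*} [AddCommGroup M] {ι : Type*} [Fintype ι] [DecidableEq ι]
  (b : Module.Basis ι ℤ M)

/-- the vector of `M` with integer coordinates `n`. -/
def ivec (n : ι → ℤ) : M := ∑ i, n i • b i

theorem repr_ivec (n : ι → ℤ) (i : ι) : b.repr (ivec b n) i = n i := by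
  unfold ivec
  rw [map_sum, Finsupp.coe_finsetSum, Finset.sum_apply]
  simp_rw [map_smul, Finsupp.smul_apply, b.repr_self, Finsupp.single_apply, smul_eq_mul,
    mul_ite, mul_one, mul_zero]
  rw [Finset.sum_ite_eq' Finset.univ i]
  simp

theorem apply_ivec (T : Module.End ℤ M) (n : ι → ℤ) :
    T (ivec b n) = ivec b (fun r => ∑ i, mat b T r i * n i) := by
  unfold ivec
  rw [map_sum]
  simp_rw [map_smul]
  have key : ∀ i, T (b i) = ∑ r, mat b T r i • b r := fun i => (b.sum_repr (T (b i))).symm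
  simp_rw [key, Finset.smul_sum, smul_smul]
  rw [Finset.sum_comm]
  refine Finset.sum_congr rfl fun r _ => ?_
  rw [Finset.sum_smul]
  refine Finset.sum_congr rfl fun i _ => ?_
  rw [mul_comm]

theorem ivec_sub_smul (n n' : ι → ℤ) (a : ℤ) :
    ivec b n - a • ivec b n' = ivec b (fun r => n r - a * n' r) := by
  unfold ivec
  rw [Finset.smul_sum, ← Finset.sum_sub_distrib]
  refine Finset.sum_congr rfl fun i _ => ?_
  rw [sub_smul, mul_smul]

theorem ivec_smul (c : ℤ) (n : ι → ℤ) : ivec b (fun r => c * n r) = c • ivec b n := by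
  unfold ivec
  rw [Finset.smul_sum]
  refine Finset.sum_congr rfl fun i _ => ?_
  rw [mul_smul]

end descent

/-- **descent of eigenvectors to the prime field, integral form.**  `M` finite free over `ℤ`, `k` a field of
characteristic `p`, `v ≠ 0` in `k ⊗ M`.  There is `m ∈ M`, `m ∉ p M`, such that every eigen-relation
`T v = a v` with an INTEGER eigenvalue `a` gives `T m - a m ∈ p M`. -/
theorem exists_descent {p : ℕ} (hp : p.Prime) {k : Type*} [Field k] [CharP k p] {M : Type*}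
    [AddCommGroup M] [Module.Free ℤ M] [Module.Finite ℤ M] (v : k ⊗[ℤ] M) (hv : v ≠ 0) :
    ∃ m : M, (¬ ∃ m' : M, m = (p : ℤ) • m') ∧
      ∀ (T : Module.End ℤ M) (a : ℤ), T.baseChange k v = (a : k) • v →
        ∃ m' : M, T m - a • m = (p : ℤ) • m' := by
  classical
  have : Fact p.Prime := ⟨hp⟩
  let _ : Algebra (ZMod p) k := ZMod.algebra k p
  let b := Module.Free.chooseBasis ℤ M
  obtain ⟨c, rfl⟩ := exists_vec b k v
  -- a nonzero coordinate
  have hex : ∃ j, c j ≠ 0 := by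
    by_contra hne
    apply hv
    have : c = fun _ => (0 : k) := funext fun i => not_not.mp fun hi => hne ⟨i, hi⟩
    rw [this, vec_zero]
  obtain ⟨j, hj⟩ := hex
  -- a functional not killing it
  obtain ⟨φ, hφ⟩ : ∃ φ : Module.Dual (ZMod p) k, φ (c j) ≠ 0 := by
    by_contra hne
    exact hj ((Module.forall_dual_apply_eq_zero_iff (ZMod p) (c j)).mp
      fun φ => not_not.mp fun h => hne ⟨φ, h⟩)
  -- `φ` on integer multiples
  have hφint : ∀ (n : ℤ) (x : k), φ ((n : k) * x) = (n : ZMod p) * φ x := by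
    intro n x
    have : (n : k) * x = (n : ZMod p) • x := by
      rw [Algebra.smul_def, map_intCast]
    rw [this, map_smul, smul_eq_mul]
  -- integer lifts
  let n : Module.Free.ChooseBasisIndex ℤ M → ℤ := fun i => ((φ (c i)).val : ℤ)
  have hn : ∀ i, ((n i : ℤ) : ZMod p) = φ (c i) := by
    intro i
    show (((φ (c i)).val : ℤ) : ZMod p) = φ (c i)
    rw [Int.cast_natCast, ZMod.natCast_zmod_val]
  refine ⟨ivec b n, ?_, ?_⟩
  · rintro ⟨m', hm'⟩
    have h1 := congrArg (fun x => b.repr x j) hm'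
    simp only [repr_ivec, map_smul, Finsupp.smul_apply, smul_eq_mul] at h1
    have h2 := congrArg (Int.cast : ℤ → ZMod p) h1
    rw [hn, Int.cast_mul, Int.cast_natCast, ZMod.natCast_self, zero_mul] at h2
    exact hφ h2
  · intro T a hT
    rw [baseChange_vec, vec_smul] at hT
    have hk := fun r => congrFun (vec_injective b k hT) r
    have hmod : ∀ r, (((∑ i, mat b T r i * n i) - a * n r : ℤ) : ZMod p) = 0 := by
      intro r
      have h1 := congrArg φ (hk r)
      rw [map_sum] at h1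
      simp_rw [hφint] at h1
      push_cast
      simp_rw [hn]
      rw [h1, sub_self]
    have hdvd : ∀ r, ∃ e : ℤ, (∑ i, mat b T r i * n i) - a * n r = (p : ℤ) * e := by
      intro r
      exact (ZMod.intCast_zmod_eq_zero_iff_dvd _ p).mp (hmod r)
    choose e he using hdvd
    refine ⟨ivec b e, ?_⟩
    rw [apply_ivec, ivec_sub_smul, ← ivec_smul]
    congr 1
    funext r
    exact he r

end Fermat.Agent.ES.X44.OccFp18
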