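/-
Programme X (S44), chapter (R), leaf R3-b (helper18): **from the lattice modulo `p` to `J₀(N)[p]`**.

`lamToTors p N : Λ_N →+ J₀(N)` is `proj 1 ∘ iotaJ` (`iotaJ : Λ_N → T_p J₀(N)` the comparison (K2) of Programme J,
a base change `ℤ → ℤ_p`, Hecke equivariant).  It takes values in `J₀(N)[p]`, its kernel is `p Λ_N`, and it
intertwines the double coset operator `dcZ ℓ` with `heckeOperatorBar N ℓ`.

* `exists_eigen_torsion` **(R3)**: under the hypotheses of S44's `hmod`, there is `x ≠ 0` in `J₀(N)` with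
  `p • x = 0` and `T_ℓ x = a_ℓ(W) • x` for all good `ℓ ∤ N`, `ℓ ≠ p`.
-/
import Mathlib
import Fermat.Agent.ES.K.HeckeTate26
import Fermat.Agent.ES.X44.OccFp18

set_option autoImplicit false
set_option linter.unusedSectionVars false

noncomputable section

namespace Fermat.Agent.ES.X44.OccTors18

open CongruenceSubgroup CuspForm TensorProduct ModularCurve ModularCurve.Period
open Fermat.Agent.ES.HEQ.FaithFinal26 Fermat.Agent.ES.HEQ.FaithInst26
open Fermat.Agent.ES.J.TateModule13 Fermat.Agent.ES.J.TateJZero13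
open Fermat.Agent.ES.K.HeckeTate26

variable (p : ℕ) [hp : Fact p.Prime] (N : ℕ) [NeZero N]

/-- the comparison modulo `p`: `Λ_N → J₀(N)[p]`. -/
def lamToTors : ↥(Lam N) →+ JZero N := (proj 1).comp (iotaJ p N).toAddMonoidHom

theorem lamToTors_apply (m : ↥(Lam N)) : lamToTors p N m = proj 1 (iotaJ p N m) := rfl

theorem p_smul_lamToTors (m : ↥(Lam N)) : p • lamToTors p N m = 0 := by
  have := pow_smul_proj 1 (iotaJ p N m)
  rwa [pow_one] at this

/-- Hecke equivariance. -/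
theorem hecke_lamToTors (ℓ : ℕ) (hℓ : ℓ.Prime) (hℓN : ¬ ℓ ∣ N) (m : ↥(Lam N)) :
    heckeOperatorBar N ⟨ℓ, hℓ⟩ (lamToTors p N m) = lamToTors p N (dcZ N ℓ hℓ hℓN m) := by
  rw [lamToTors_apply, lamToTors_apply, ← tT_iotaJ p N ℓ hℓ hℓN m, proj_tT]

/-- an integer divisible by `p` in `ℤ_p` is divisible by `p`. -/
theorem int_dvd_of_padic {n : ℤ} {z : ℤ_[p]} (h : (n : ℤ_[p]) = (p : ℤ_[p]) * z) : (p : ℤ) ∣ n := by
  have h1 := congrArg (PadicInt.toZMod (p := p)) h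
  rw [map_intCast, map_mul, map_natCast, ZMod.natCast_self, zero_mul] at h1
  exact (ZMod.intCast_zmod_eq_zero_iff_dvd n p).mp h1

/-- **the kernel of the comparison modulo `p` is `p Λ`.** -/
theorem lamToTors_eq_zero (m : ↥(Lam N)) (h : lamToTors p N m = 0) :
    ∃ m' : ↥(Lam N), m = (p : ℤ) • m' := by
  classical
  rw [lamToTors_apply, proj_eq_zero_iff] at h
  obtain ⟨y, hy⟩ := h
  rw [pow_one] at hy
  have hbc := isBaseChange_iotaJ p N
  let b := Module.Free.chooseBasis ℤ ↥(Lam N)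
  let B : Module.Basis _ ℤ_[p] (TJ p N) := (Algebra.TensorProduct.basis ℤ_[p] b).map hbc.equiv
  have hB : ∀ i, B i = iotaJ p N (b i) := by
    intro i
    show hbc.equiv (Algebra.TensorProduct.basis ℤ_[p] b i) = _
    rw [Algebra.TensorProduct.basis_apply, IsBaseChange.equiv_tmul, one_smul]
  -- coordinates of `iotaJ m`
  have hrepr : ∀ i, B.repr (iotaJ p N m) i = ((b.repr m i : ℤ) : ℤ_[p]) := by
    intro i
    conv_lhs => rw [← b.sum_repr m]
    rw [map_sum, map_sum, Finsupp.coe_finsetSum, Finset.sum_apply]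
    have : ∀ r, B.repr (iotaJ p N (b.repr m r • b r)) i =
        if i = r then ((b.repr m r : ℤ) : ℤ_[p]) else 0 := by
      intro r
      rw [map_zsmul, ← hB, ← Int.cast_smul_eq_zsmul ℤ_[p], map_smul, B.repr_self,
        Finsupp.smul_apply, Finsupp.single_apply, smul_eq_mul]
      split_ifs with h1 h2 h2
      · rw [mul_one]
      · exact absurd h1.symm h2
      · exact absurd h2.symm h1
      · rw [mul_zero]
    rw [Finset.sum_congr rfl fun r _ => this r, Finset.sum_ite_eq Finset.univ i,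
      if_pos (Finset.mem_univ i)]
  have hdvd : ∀ i, ∃ e : ℤ, b.repr m i = (p : ℤ) * e := by
    intro i
    apply int_dvd_of_padic p (z := B.repr y i)
    rw [← hrepr, hy, map_smul, Finsupp.smul_apply, smul_eq_mul]
  choose e he using hdvd
  refine ⟨∑ i, e i • b i, ?_⟩
  conv_lhs => rw [← b.sum_repr m]
  rw [Finset.smul_sum]
  refine Finset.sum_congr rfl fun i _ => ?_
  rw [he, mul_smul]

variable {p N}

/-- **(R3)**, lattice form: the eigensystem of `W` occurs in `J₀(N)[p]`, at a point `lamToTors m`. -/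
theorem exists_eigen_torsion_lam
    (W : WeierstrassCurve ℤ)
    (f : CuspForm (Gamma0 N) 2) (𝔪 : Ideal (integralClosure ℤ ℂ))
    (hf : f.IsNormalizedEigenform) (hmax : 𝔪.IsMaximal) (hpm : (p : integralClosure ℤ ℂ) ∈ 𝔪)
    (hcong : ∀ ℓ : ℕ, ℓ.Prime → W.IsGoodPrimeFor ℓ → ¬ ℓ ∣ N → ℓ ≠ p →
      ∃ a : integralClosure ℤ ℂ, (a : ℂ) = ModularFormClass.qCoeff f ℓ ∧
        a - ((W.apOfModel ℓ : ℤ) : integralClosure ℤ ℂ) ∈ 𝔪) :
    ∃ m : ↥(Lam N), lamToTors p N m ≠ 0 ∧ p • lamToTors p N m = 0 ∧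
      ∀ ℓ : Nat.Primes, W.IsGoodPrimeFor ℓ → ¬ (ℓ : ℕ) ∣ N → (ℓ : ℕ) ≠ p →
        heckeOperatorBar N ℓ (lamToTors p N m) = W.apOfModel ℓ • lamToTors p N m := by
  obtain ⟨k, _, _, v, hv0, hv⟩ :=
    Fermat.Agent.ES.X44.OccFp18.exists_occurrence_field hp.out W f 𝔪 hf hmax hpm hcong
  obtain ⟨m, hm0, hm⟩ := Fermat.Agent.ES.X44.OccFp18.exists_descent hp.out v hv0
  refine ⟨m, fun h => hm0 (lamToTors_eq_zero p N m h), p_smul_lamToTors p N m, ?_⟩
  rintro ⟨ℓ, hℓ⟩ hgood hℓN hℓp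
  obtain ⟨m', hm'⟩ := hm (dcZ N ℓ hℓ hℓN) (W.apOfModel ℓ) (hv ℓ hℓ hℓN hgood hℓp)
  rw [hecke_lamToTors p N ℓ hℓ hℓN m]
  have h1 : dcZ N ℓ hℓ hℓN m = W.apOfModel ℓ • m + (p : ℤ) • m' := by
    rw [← hm']; abel
  rw [h1, map_add, map_zsmul, map_zsmul, natCast_zsmul, p_smul_lamToTors, add_zero]

/-- **(R3)** the eigensystem of `W` occurs in `J₀(N)[p]`. -/
theorem exists_eigen_torsion
    (W : WeierstrassCurve ℤ)
    (f : CuspForm (Gamma0 N) 2) (𝔪 : Ideal (integralClosure ℤ ℂ))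
    (hf : f.IsNormalizedEigenform) (hmax : 𝔪.IsMaximal) (hpm : (p : integralClosure ℤ ℂ) ∈ 𝔪)
    (hcong : ∀ ℓ : ℕ, ℓ.Prime → W.IsGoodPrimeFor ℓ → ¬ ℓ ∣ N → ℓ ≠ p →
      ∃ a : integralClosure ℤ ℂ, (a : ℂ) = ModularFormClass.qCoeff f ℓ ∧
        a - ((W.apOfModel ℓ : ℤ) : integralClosure ℤ ℂ) ∈ 𝔪) :
    ∃ x : JZero N, x ≠ 0 ∧ p • x = 0 ∧
      ∀ ℓ : Nat.Primes, W.IsGoodPrimeFor ℓ → ¬ (ℓ : ℕ) ∣ N → (ℓ : ℕ) ≠ p →
        heckeOperatorBar N ℓ x = W.apOfModel ℓ • x := by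
  obtain ⟨m, h⟩ := exists_eigen_torsion_lam W f 𝔪 hf hmax hpm hcong
  exact ⟨lamToTors p N m, h⟩

end Fermat.Agent.ES.X44.OccTors18
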