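/-
Programme X (S44 by hand, route `T2_W1_ROUTE14.md` / `T2_NOTE25.md` / `W1_KEY12.md`), SPINE `X44_SPINE14.md`,
helper14 (programme lead): **STATEMENT-ONLY interface of the GLOBAL chapter exits** and the top-level chain.

Only definitions and `Prop`-valued literals; nothing is proved here except the composition `s44_of_exits`.

FIXED DATA: `P : FreyPackage`, `p = P.p`; `N'` the auxiliary level (`= auxLevel p N = lcm N 4` in the application),
`M' = N' / p`; `W` an integral model of the Frey curve, `a ℓ = W.apOfModel ℓ`; `A` ONE valuation subring of `ℚ̄`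
over `p`.

* `Ep P`            : `E[p]`, the `p`-torsion of the Frey curve over `ℚ̄`, with its `G_ℚ`-action (Prelude).
* `H1 A p`          : the elements of the inertia group of `A` fixing the `p`-th roots of unity.
* `GoodAt W N' p ℓ` : `ℓ` is good for `W`, `ℓ ∤ N'`, `ℓ ≠ p`.
* `RealExit`  (R)   : `ι : E[p] →+ J₀(N')`, injective, `G_ℚ`-equivariant, `T_ℓ ∘ ι = a_ℓ • ι` at the good primes.
* `NonEis`    (NE)  : a good prime `ℓ₀` with `p ∤ a_ℓ₀ - ℓ₀ - 1`.
* `FreyLocal` (L2)  : the local package of `E[p]` at `A`: the line `L`, and the BREAK CERTIFICATE.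
* `EigBar`          : COMMON EXIT of the geometric chapters (K), (W1), (LL'), (Eis), (C), (W2): a Hecke-equivariant
                      quotient `π : J₀(M') → Q` (in the application: the reduction of V19 at the good level `M'` onto
                      `Pic⁰` of the special fibre) and a `p`-torsion point `y₀` with `π y₀ ≠ 0` an eigenvector with the
                      eigenvalues `a_ℓ`.
* `GeoCore`         : `RealExit ∧ NonEis ∧ FreyLocal → EigBar` (the whole geometric side).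
* `OldExit`   (Old) : `EigBar` at level `M' = N'/p` gives `∃ M ∣ N, ¬ p ∣ M ∧ P.ModularRepOfLevel M`.
-/
import Mathlib
import Fermat.Prelude.Def_FLTPrelim_FreyPackage
import Fermat.Prelude.Def_FLTPrelim_GaloisRep
import Fermat.Prelude.Def_FLTPrelim_Modularity
import Fermat.Prelude.Def_FLTPrelim_ModularRep
import Fermat.Prelude.Def_FreyPackage_IsConductorLevel
import Fermat.Prelude.Def_ModularCurve_HeckeModule
import Fermat.Prelude.Def_FLTPrelim_Ramification
import Fermat.Agent.RED.Interface4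

set_option autoImplicit false

noncomputable section

namespace Fermat.Agent.ES.X44.XIface14

open WeierstrassCurve WeierstrassCurve.Affine WeierstrassCurve.Affine.Point ModularCurve
open Fermat.Agent.RED.Interface4 (auxLevel)

local notation "Qb" => AlgebraicClosure ℚ
local notation "GQ" => (AlgebraicClosure ℚ ≃ₐ[ℚ] AlgebraicClosure ℚ)

/-- `E[p]`: the `p`-torsion of the Frey curve over `ℚ̄` (the module of `FreyPackage.GaloisRepUnramifiedAt`). -/
abbrev Ep (P : FreyPackage) : Type :=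
  Submodule.torsionBy ℤ ((P.freyCurve : Affine ℚ)⁄Qb).Point P.p

/-- `H₁`: the elements of the inertia group of `A` fixing every `p`-th root of unity. -/
def H1 (A : ValuationSubring Qb) (p : ℕ) : Set GQ :=
  {σ | σ ∈ A.inertiaSubgroupIn ℚ ∧ ∀ ζ : Qb, ζ ^ p = 1 → σ ζ = ζ}

/-- `ℓ` is a good prime for the chain: good for `W`, prime to the level `N'`, different from `p`. -/
def GoodAt (W : WeierstrassCurve ℤ) (N' p : ℕ) (ℓ : Nat.Primes) : Prop :=
  W.IsGoodPrimeFor ℓ ∧ ¬ (ℓ : ℕ) ∣ N' ∧ (ℓ : ℕ) ≠ p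

/-- **(R)** realisation of `E[p]` inside `J₀(N')` with the Hecke eigenvalues `a_ℓ`. -/
def RealExit (P : FreyPackage) (N' : ℕ) [NeZero N'] (W : WeierstrassCurve ℤ) : Prop :=
  ∃ ι : Ep P →+ JZero N', Function.Injective ι ∧
    (∀ (σ : GQ) (v : Ep P), ι (σ • v) = σ • ι v) ∧
    ∀ ℓ : Nat.Primes, GoodAt W N' P.p ℓ → ∀ v : Ep P,
      heckeOperatorBar N' ℓ (ι v) = W.apOfModel ℓ • ι v

/-- **(NE)** the eigensystem is not Eisenstein. -/
def NonEis (P : FreyPackage) (N' : ℕ) (W : WeierstrassCurve ℤ) : Prop :=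
  ∃ ℓ : Nat.Primes, GoodAt W N' P.p ℓ ∧ ¬ (P.p : ℤ) ∣ W.apOfModel ℓ - (ℓ : ℕ) - 1

/-- **(L2)** the local package of `E[p]` at the place `A` over `p` (multiplicative reduction, `p ∣ v_p(Δ)`). -/
def FreyLocal (P : FreyPackage) (A : ValuationSubring Qb) : Prop :=
  ∃ L : AddSubgroup (Ep P),
    L ≠ ⊤ ∧
    (∀ σ ∈ A.inertiaSubgroupIn ℚ, ∀ v : Ep P, σ • v - v ∈ L) ∧
    (∀ τ ∈ H1 A P.p, ∀ w ∈ L, τ • w = w) ∧
    (∃ τ' ∈ A.inertiaSubgroupIn ℚ, ∃ c : ℤ, ¬ (P.p : ℤ) ∣ c ∧ ∀ w ∈ L, τ' • w - w = c • w) ∧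
    ∀ (v : Ep P) (σ : GQ), σ ∈ H1 A P.p → σ • v ≠ v →
      ∃ z : Qb, z ≠ 0 ∧ (∀ τ ∈ H1 A P.p, τ • v = v → τ z = z) ∧
        (∃ q : ℚ, A.valuation z = A.valuation (algebraMap ℚ Qb q)) ∧
        ∀ ζ : Qb, ζ ^ P.p = 1 → ζ ≠ 1 → A.valuation z * A.valuation (ζ - 1) ≤ A.valuation (σ z - z)

/-- **COMMON EXIT of the geometric chapters**: a Hecke-equivariant quotient of `J₀(M')` and a `p`-torsion point
whose image is a nonzero eigenvector with the eigenvalues `a ℓ` at the good primes. -/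
def EigBar (p M' : ℕ) [NeZero M'] (a : Nat.Primes → ℤ) (good : Nat.Primes → Prop) : Prop :=
  ∃ (Q : Type) (_ : AddCommGroup Q) (π : JZero M' →+ Q) (Tbar : Nat.Primes → Q →+ Q),
    (∀ ℓ, good ℓ → ∀ x : JZero M', π (heckeOperatorBar M' ℓ x) = Tbar ℓ (π x)) ∧
    ∃ y₀ : JZero M', p • y₀ = 0 ∧ π y₀ ≠ 0 ∧ ∀ ℓ, good ℓ → Tbar ℓ (π y₀) = a ℓ • π y₀

/-- **the geometric side**: at the level `N' = M' * p` (`p` odd, `p ∤ M'`, `4 ∣ M'`). -/
def GeoCore (P : FreyPackage) (M' : ℕ) [NeZero M'] [NeZero (M' * P.p)] (W : WeierstrassCurve ℤ) : Prop :=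
  ¬ P.p ∣ M' → 4 ∣ M' → RealExit P (M' * P.p) W → NonEis P (M' * P.p) W →
    (∀ A : ValuationSubring Qb, A.LiesOverPrime P.p → FreyLocal P A) →
    EigBar P.p M' (fun ℓ => W.apOfModel ℓ) (GoodAt W (M' * P.p) P.p)

/-- **(Old)**: the eigenvector at the level `M'` gives the old form, and the auxiliary `4` is removed. -/
def OldExit (P : FreyPackage) (N M' : ℕ) [NeZero M'] (W : WeierstrassCurve ℤ) : Prop :=
  P.IsConductorLevel N → P.p ∣ N → M' * P.p = auxLevel P.p N → W.IsIntegralModelOf P.freyCurve →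
    GaloisRepIsIrreducible (K := AlgebraicClosure ℚ) ℚ P.freyCurve P.p →
    EigBar P.p M' (fun ℓ => W.apOfModel ℓ) (GoodAt W (M' * P.p) P.p) →
    ∃ M : ℕ, M ∣ N ∧ ¬ P.p ∣ M ∧ P.ModularRepOfLevel M

end Fermat.Agent.ES.X44.XIface14
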