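/-
Programme X (S44), chapter (R), leaf R4-a (helper18): **the joint eigenspace `M ⊆ J₀(N)[p]` of the eigensystem
of `W`**, as a finite `𝔽_p`-representation of `G_ℚ` satisfying the Eichler–Shimura relations.

`divPart p N = range (proj 1 : T_p J₀(N) → J₀(N))` (the `p`-divisible part of `J₀(N)[p]`; `G_ℚ`-stable), and
`eigM p N W = {x ∈ divPart p N | p • x = 0, T_ℓ x = a_ℓ(W) • x for all ℓ with GoodAt W N p ℓ}`
(an instance of `EigenAbs18.eigSub`, index type `GoodIdx p N W = {ℓ : Nat.Primes // GoodAt W N p ℓ}`).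

* `eigM_ne_bot`     : `M ≠ 0` under the hypotheses of S44's `hmod` (R3, `OccTors18`);
* `finite_eigM`     : `M` is finite; `Module (ZMod p) M` (from `EigenAbs18`), `Module.Finite`;
* `smul_mem_eigM`   : `M` is `G_ℚ`-stable; `rhoM : G_ℚ →* End_{𝔽_p} M`, `coe_rhoM`;
* `hecke_eigM`      : `T_ℓ = a_ℓ(W)` on `M`;
* `frobenius_eigM`  : `φ • φ • x - a_ℓ(W) • φ • x + ℓ • x = 0` on `M` for every Frobenius element `φ` at a good
  `ℓ ∤ N p` (Eichler–Shimura on `J₀(N)[p]`, `TOP/TorsionGalois12.frobenius_relation`);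
  `rhoM_frobenius`  : the same, linearised in `End_{𝔽_p} M`: `rhoM φ + ℓ • rhoM φ⁻¹ = a_ℓ(W) • 1`;
* `level_eigM`, `rhoM_level` : `G_ℚ` acts on `M` through `Gal(L/ℚ)` for a number field `L`;
* `mem_range_proj` : `M ⊆ range (proj 1 : T_p J₀(N) → J₀(N))`;
  `exists_pow_smul_eq` : every `x ∈ M` is infinitely `p`-divisible in `J₀(N)` (`p ^ k • z = x`).
-/
import Mathlib
import Fermat.Agent.ES.X44.XIface14
import Fermat.Agent.ES.X44.OccTors18
import Fermat.Agent.ES.X44.EigenAbs18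
import Fermat.Agent.ES.KUM.FiniteTorsion15
import Fermat.Agent.ES.TOP.TorsionGalois12
import Fermat.Agent.ES.HECKE.HeckeGalois12
import Fermat.Agent.ES.GAL.OpenStab12

set_option autoImplicit false
set_option linter.unusedSectionVars false

noncomputable section

namespace Fermat.Agent.ES.X44.EigenSpace18

open CongruenceSubgroup CuspForm ModularCurve
open Fermat.Agent.ES.X44.XIface14 (GoodAt)
open Fermat.Agent.ES.X44.EigenAbs18
open Fermat.Agent.ES.J.TateModule13 Fermat.Agent.ES.J.TateJZero13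

local notation "Qb" => AlgebraicClosure ℚ
local notation "GQ" => (AlgebraicClosure ℚ ≃ₐ[ℚ] AlgebraicClosure ℚ)

variable (p : ℕ) [hp : Fact p.Prime] (N : ℕ) [NeZero N] (W : WeierstrassCurve ℤ)

/-- the `p`-divisible part of `J₀(N)[p]`: the image of the Tate module. -/
def divPart : AddSubgroup (JZero N) := (proj 1 : TJ p N →+ JZero N).range

theorem smul_mem_divPart (σ : GQ) (x : JZero N) (hx : x ∈ divPart p N) : σ • x ∈ divPart p N := by
  obtain ⟨y, rfl⟩ := hx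
  exact ⟨rhoT p N σ y, proj_rhoT σ y 1⟩

theorem lamToTors_mem_divPart (m : ↥(Fermat.Agent.ES.HEQ.FaithInst26.Lam N)) :
    Fermat.Agent.ES.X44.OccTors18.lamToTors p N m ∈ divPart p N :=
  ⟨Fermat.Agent.ES.K.HeckeTate26.iotaJ p N m, rfl⟩

/-- the elements of the divisible part are infinitely `p`-divisible. -/
theorem exists_pow_smul_eq_of_mem_divPart {x : JZero N} (hx : x ∈ divPart p N) (k : ℕ) :
    ∃ z : JZero N, p ^ k • z = x := by
  obtain ⟨y, rfl⟩ := hx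
  exact ⟨proj (k + 1) y, pow_smul_apply_add y k 1⟩

/-- the index type: the good primes. -/
abbrev GoodIdx : Type := {ℓ : Nat.Primes // GoodAt W N p ℓ}

/-- the Hecke operators at the good primes, additive. -/
def opT (ℓ : GoodIdx p N W) : JZero N →+ JZero N := (heckeOperatorBar N ℓ.1).toAddMonoidHom

/-- the eigenvalues. -/
def evA (ℓ : GoodIdx p N W) : ℤ := W.apOfModel (ℓ.1 : ℕ)

theorem opT_apply (ℓ : GoodIdx p N W) (x : JZero N) : opT p N W ℓ x = heckeOperatorBar N ℓ.1 x := rfl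

theorem opT_smul (ℓ : GoodIdx p N W) (σ : GQ) (x : JZero N) :
    opT p N W ℓ (σ • x) = σ • opT p N W ℓ x :=
  Fermat.Agent.ES.HECKE.HeckeGalois12.heckeOperatorBar_smul N ℓ.1 σ x

/-- **the joint eigenspace** of the eigensystem of `W` in (the divisible part of) `J₀(N)[p]`. -/
def eigM : AddSubgroup (JZero N) := eigSub (divPart p N) p (opT p N W) (evA p N W)

variable {p N W}

theorem mem_eigM {x : JZero N} :
    x ∈ eigM p N W ↔ x ∈ divPart p N ∧ p • x = 0 ∧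
      ∀ ℓ : Nat.Primes, GoodAt W N p ℓ → heckeOperatorBar N ℓ x = W.apOfModel (ℓ : ℕ) • x :=
  ⟨fun h => ⟨h.1, h.2.1, fun ℓ hℓ => h.2.2 ⟨ℓ, hℓ⟩⟩, fun h => ⟨h.1, h.2.1, fun ℓ => h.2.2 ℓ.1 ℓ.2⟩⟩

/-- (i) `M` is killed by `p`. -/
theorem nsmul_eq_zero_of_mem {x : JZero N} (hx : x ∈ eigM p N W) : p • x = 0 := hx.2.1

/-- (v) `T_ℓ = a_ℓ(W)` on `M`. -/
theorem hecke_eigM {x : JZero N} (hx : x ∈ eigM p N W) {ℓ : Nat.Primes} (hℓ : GoodAt W N p ℓ) :
    heckeOperatorBar N ℓ x = W.apOfModel (ℓ : ℕ) • x := (mem_eigM.mp hx).2.2 ℓ hℓ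

/-- (iv) `M` is `G_ℚ`-stable. -/
theorem smul_mem_eigM (σ : GQ) {x : JZero N} (hx : x ∈ eigM p N W) : σ • x ∈ eigM p N W :=
  smul_mem (divPart p N) p (opT p N W) (evA p N W) (smul_mem_divPart p N) (opT_smul p N W) σ hx

/-- (viii) `M` lies in the image of the Tate module. -/
theorem mem_range_proj {x : JZero N} (hx : x ∈ eigM p N W) :
    x ∈ Set.range (proj 1 : TJ p N → JZero N) := by
  obtain ⟨y, hy⟩ := hx.1
  exact ⟨y, hy⟩

/-- the elements of `M` are infinitely `p`-divisible in `J₀(N)`. -/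
theorem exists_pow_smul_eq {x : JZero N} (hx : x ∈ eigM p N W) (k : ℕ) :
    ∃ z : JZero N, p ^ k • z = x := exists_pow_smul_eq_of_mem_divPart p N hx.1 k

/-- (iii) `M` is finite. -/
theorem finite_eigM : Finite ↥(eigM p N W) :=
  haveI : NeZero p := ⟨hp.out.ne_zero⟩
  finite_eigSub (divPart p N) p (opT p N W) (evA p N W)
    (Fermat.Agent.ES.KUM.FiniteTorsion15.finite_setOf_nsmul_eq_zero (N := N) p)

/-- (ii) **(R3)** `M ≠ 0`. -/
theorem eigM_ne_bot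
    (f : CuspForm (Gamma0 N) 2) (𝔪 : Ideal (integralClosure ℤ ℂ))
    (hf : f.IsNormalizedEigenform) (hmax : 𝔪.IsMaximal) (hpm : (p : integralClosure ℤ ℂ) ∈ 𝔪)
    (hcong : ∀ ℓ : ℕ, ℓ.Prime → W.IsGoodPrimeFor ℓ → ¬ ℓ ∣ N → ℓ ≠ p →
      ∃ a : integralClosure ℤ ℂ, (a : ℂ) = ModularFormClass.qCoeff f ℓ ∧
        a - ((W.apOfModel ℓ : ℤ) : integralClosure ℤ ℂ) ∈ 𝔪) :
    eigM p N W ≠ ⊥ := by
  obtain ⟨m, hx0, hpx, hx⟩ :=
    Fermat.Agent.ES.X44.OccTors18.exists_eigen_torsion_lam W f 𝔪 hf hmax hpm hcong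
  intro hbot
  have hmem : Fermat.Agent.ES.X44.OccTors18.lamToTors p N m ∈ eigM p N W :=
    mem_eigM.mpr ⟨lamToTors_mem_divPart p N m, hpx, fun ℓ hℓ => hx ℓ hℓ.1 hℓ.2.1 hℓ.2.2⟩
  rw [hbot, AddSubgroup.mem_bot] at hmem
  exact hx0 hmem

/-- (vi') **Eichler–Shimura on `M`.** -/
theorem frobenius_eigM {ℓ : ℕ} (hℓ : ℓ.Prime) (hgood : W.IsGoodPrimeFor ℓ) (hℓN : ¬ ℓ ∣ N)
    (hℓp : ℓ ≠ p) {A : ValuationSubring Qb} (hA : A.LiesOverPrime ℓ) {φ : GQ}
    (hφ : A.IsFrobeniusAt φ ℓ) {x : JZero N} (hx : x ∈ eigM p N W) :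
    φ • φ • x - W.apOfModel ℓ • (φ • x) + ℓ • x = 0 := by
  have hℓ' : ¬ ℓ ∣ p := fun h => hℓp ((Nat.prime_dvd_prime_iff_eq hℓ hp.out).mp h)
  have h := Fermat.Agent.ES.TOP.TorsionGalois12.frobenius_relation hℓ hℓN hA hℓ' hx.2.1 hφ
  have h2 : heckeOperatorBar N ⟨ℓ, hℓ⟩ (φ • x) = W.apOfModel ℓ • (φ • x) :=
    hecke_eigM (smul_mem_eigM φ hx) (ℓ := ⟨ℓ, hℓ⟩) ⟨hgood, hℓN, hℓp⟩
  rw [h2] at h
  exact h

/-- (vii) **finite level.** -/
theorem level_eigM :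
    ∃ L : IntermediateField ℚ Qb, FiniteDimensional ℚ L ∧
      ∀ g : GQ, (∀ z ∈ L, g z = z) → ∀ x ∈ eigM p N W, g • x = x := by
  have : NeZero p := ⟨hp.out.ne_zero⟩
  obtain ⟨L, hL, H⟩ := Fermat.Agent.ES.GAL.OpenStab12.hasLevel_torsion N p
    (Fermat.Agent.ES.KUM.FiniteTorsion15.finite_setOf_nsmul_eq_zero (N := N) p)
  exact ⟨L, hL, fun g hg x hx => H g hg x hx.2.1⟩

/-! ### the `𝔽_p`-structure and the representation -/

variable (p N W)

instance instModuleEigM : Module (ZMod p) ↥(eigM p N W) :=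
  EigenAbs18.instModule (divPart p N) p (opT p N W) (evA p N W)

instance instFiniteEigM : Module.Finite (ZMod p) ↥(eigM p N W) :=
  haveI := finite_eigM (p := p) (N := N) (W := W)
  Module.Finite.of_finite

/-- **the representation of `G_ℚ` on `M`.** -/
def rhoM : GQ →* Module.End (ZMod p) ↥(eigM p N W) :=
  rho (divPart p N) p (opT p N W) (evA p N W) (smul_mem_divPart p N) (opT_smul p N W)

variable {p N W}

theorem coe_rhoM (σ : GQ) (x : ↥(eigM p N W)) :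
    ((rhoM p N W σ x : ↥(eigM p N W)) : JZero N) = σ • (x : JZero N) := rfl

/-- **Eichler–Shimura on `M`**, linearised: `σ + ℓ σ⁻¹ = a_ℓ`. -/
theorem rhoM_frobenius {ℓ : Nat.Primes} (hℓ : GoodAt W N p ℓ)
    {A : ValuationSubring Qb} (hA : A.LiesOverPrime ℓ) {σ : GQ} (hσ : A.IsFrobeniusAt σ ℓ) :
    rhoM p N W σ + ((ℓ : ℕ) : ZMod p) • rhoM p N W σ⁻¹ =
      ((W.apOfModel (ℓ : ℕ) : ℤ) : ZMod p) • (1 : Module.End (ZMod p) ↥(eigM p N W)) := by
  have hℓ' : ¬ (ℓ : ℕ) ∣ p := fun h => hℓ.2.2 ((Nat.prime_dvd_prime_iff_eq ℓ.2 hp.out).mp h)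
  exact rho_relation (divPart p N) p (opT p N W) (evA p N W) (smul_mem_divPart p N)
    (opT_smul p N W) σ ⟨ℓ, hℓ⟩ (ℓ : ℕ) fun x hx =>
    Fermat.Agent.ES.TOP.TorsionGalois12.frobenius_relation ℓ.2 hℓ.2.1 hA hℓ' hx hσ

/-- `rhoM` has finite level. -/
theorem rhoM_level :
    ∃ L : IntermediateField ℚ Qb, FiniteDimensional ℚ L ∧
      ∀ σ : GQ, (∀ a ∈ L, σ a = a) → rhoM p N W σ = 1 := by
  obtain ⟨L, hL, H⟩ := level_eigM (p := p) (N := N) (W := W)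
  exact ⟨L, hL, fun σ hσ => LinearMap.ext fun x => Subtype.ext (H σ hσ x x.2)⟩

end Fermat.Agent.ES.X44.EigenSpace18
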