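/-
Programme X (S44, spine `X44_SPINE14.md`), chapter (Eis) (helper11), ABSTRACT HALF.

**From "off the nodes" to "multidegree `(0,0)`" by one Hecke operator — pure algebra.**

Setting: the vocabulary of `W33/XiIfaceN29` (`r : Place K F → SPt k Ft₁ Ft₂ ⊕ Fin s`, `redN`, `OffNodes`,
`IsRep`).  Let `T` be an additive operator on divisors inducing `Tpic` on `Pic0`, such that for every
divisor `E` off the nodes

* (H1) `T E` is off the nodes,
* (H2) `deg_i (redN r (T E)) = n * deg_i (redN r E)` for both components `i = 1, 2`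

(for `T = T_ℓ`: `n = ℓ + 1`, because `T_ℓ` preserves the component of the reduction).  If `x` is a class
with `p • x = 0`, `Tpic x = a • x`, `IsCoprime p (a - n)`, and `x` has a representative `D` off the nodes,
then `D' := w • (T D - n • D)` (`u p + w (a - n) = 1`) is a representative of `x` off the nodes whose
reduction has degree `0` on each component.

No map `M : J^{f+} → ℤ/s` is needed: whatever the lattice of multidegrees of principal divisors off the
nodes is, `p • M x = 0 = (a - n) • M x` kills `M x`; `(T - n)` maps `J^{f+}` into `J^f` and is invertible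
on the `a`-eigenspace of `p`-torsion.
-/
import Mathlib
import Fermat.Agent.ES.W33.XiIfaceN29

set_option autoImplicit false

noncomputable section

namespace Fermat.Agent.ES.X44.EisAbs11

open AlgebraicCurve Fermat.Agent.ES.W33.XiIfaceN29

variable {K F k Ft₁ Ft₂ : Type*} [Field K] [Field F] [Algebra K F] [Field k]
  [Field Ft₁] [Algebra k Ft₁] [Field Ft₂] [Algebra k Ft₂]

/-! ### additivity of `redN` and of the component degrees -/

/-- `redN r` as an additive map. -/
def redNHom {s : ℕ} (r : Place K F → SPt k Ft₁ Ft₂ ⊕ Fin s) :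
    Divisor K F →+ SDiv k Ft₁ Ft₂ :=
  (Finsupp.comapDomain.addMonoidHom (M := ℤ) Sum.inl_injective).comp
    (Finsupp.mapDomain.addMonoidHom r)

theorem redNHom_apply {s : ℕ} (r : Place K F → SPt k Ft₁ Ft₂ ⊕ Fin s) (D : Divisor K F) :
    redNHom r D = redN r D := rfl

/-- the first component as an additive map. -/
def comp₁Hom : SDiv k Ft₁ Ft₂ →+ Divisor k Ft₁ :=
  Finsupp.comapDomain.addMonoidHom (M := ℤ) Sum.inl_injective

/-- the second component as an additive map. -/
def comp₂Hom : SDiv k Ft₁ Ft₂ →+ Divisor k Ft₂ :=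
  Finsupp.comapDomain.addMonoidHom (M := ℤ) Sum.inr_injective

theorem comp₁Hom_apply (d : SDiv k Ft₁ Ft₂) : comp₁Hom d = SDiv.comp₁ d := rfl

theorem comp₂Hom_apply (d : SDiv k Ft₁ Ft₂) : comp₂Hom d = SDiv.comp₂ d := rfl

/-- the degree of the reduction on the first component, as an additive map. -/
def degRed₁ {s : ℕ} (r : Place K F → SPt k Ft₁ Ft₂ ⊕ Fin s) : Divisor K F →+ ℤ :=
  (Divisor.degree (K := k) (F := Ft₁)).comp ((comp₁Hom (k := k) (Ft₁ := Ft₁) (Ft₂ := Ft₂)).comp
    (redNHom r))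

/-- the degree of the reduction on the second component, as an additive map. -/
def degRed₂ {s : ℕ} (r : Place K F → SPt k Ft₁ Ft₂ ⊕ Fin s) : Divisor K F →+ ℤ :=
  (Divisor.degree (K := k) (F := Ft₂)).comp ((comp₂Hom (k := k) (Ft₁ := Ft₁) (Ft₂ := Ft₂)).comp
    (redNHom r))

theorem degRed₁_apply {s : ℕ} (r : Place K F → SPt k Ft₁ Ft₂ ⊕ Fin s) (D : Divisor K F) :
    degRed₁ r D = Divisor.degree (SDiv.comp₁ (redN r D)) := rfl

theorem degRed₂_apply {s : ℕ} (r : Place K F → SPt k Ft₁ Ft₂ ⊕ Fin s) (D : Divisor K F) :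
    degRed₂ r D = Divisor.degree (SDiv.comp₂ (redN r D)) := rfl

/-! ### `OffNodes` is stable under the group operations -/

theorem offNodes_add {s : ℕ} {r : Place K F → SPt k Ft₁ Ft₂ ⊕ Fin s} {D E : Divisor K F}
    (hD : OffNodes r D) (hE : OffNodes r E) : OffNodes r (D + E) := by
  classical
  intro P hP j
  rcases Finset.mem_union.mp (Finsupp.support_add hP) with h | h
  · exact hD P h j
  · exact hE P h j

theorem offNodes_neg {s : ℕ} {r : Place K F → SPt k Ft₁ Ft₂ ⊕ Fin s} {D : Divisor K F}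
    (hD : OffNodes r D) : OffNodes r (-D) := by
  intro P hP j
  rw [Finsupp.support_neg] at hP
  exact hD P hP j

theorem offNodes_sub {s : ℕ} {r : Place K F → SPt k Ft₁ Ft₂ ⊕ Fin s} {D E : Divisor K F}
    (hD : OffNodes r D) (hE : OffNodes r E) : OffNodes r (D - E) := by
  rw [sub_eq_add_neg]
  exact offNodes_add hD (offNodes_neg hE)

theorem offNodes_zsmul {s : ℕ} {r : Place K F → SPt k Ft₁ Ft₂ ⊕ Fin s} {D : Divisor K F}
    (hD : OffNodes r D) (n : ℤ) : OffNodes r (n • D) := by
  intro P hP j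
  exact hD P (Finsupp.support_smul hP) j

/-! ### the theorem -/

/-- **(Eis), abstract form.** -/
theorem exists_fRep {s : ℕ} (r : Place K F → SPt k Ft₁ Ft₂ ⊕ Fin s)
    (T : Divisor K F →+ Divisor K F) (Tpic : Pic0 K F →+ Pic0 K F)
    (hTdeg : ∀ D : Divisor K F, D ∈ Divisor.degZero (K := K) (F := F) →
      T D ∈ Divisor.degZero (K := K) (F := F))
    (hTmk : ∀ (D : Divisor K F) (h : D ∈ Divisor.degZero (K := K) (F := F)),
      Tpic (Pic0.mk ⟨D, h⟩) = Pic0.mk ⟨T D, hTdeg D h⟩)
    (n : ℤ)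
    (H1 : ∀ E : Divisor K F, OffNodes r E → OffNodes r (T E))
    (H2₁ : ∀ E : Divisor K F, OffNodes r E →
      Divisor.degree (SDiv.comp₁ (redN r (T E))) = n * Divisor.degree (SDiv.comp₁ (redN r E)))
    (H2₂ : ∀ E : Divisor K F, OffNodes r E →
      Divisor.degree (SDiv.comp₂ (redN r (T E))) = n * Divisor.degree (SDiv.comp₂ (redN r E)))
    (p : ℕ) (a : ℤ) (hcop : IsCoprime (p : ℤ) (a - n))
    (x : Pic0 K F) (hpx : p • x = 0) (hTx : Tpic x = a • x)
    (D : Divisor K F) (hD : IsRep x D) (hoff : OffNodes r D) :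
    ∃ D' : Divisor K F, IsRep x D' ∧ OffNodes r D' ∧
      Divisor.degree (SDiv.comp₁ (redN r D')) = 0 ∧
      Divisor.degree (SDiv.comp₂ (redN r D')) = 0 := by
  obtain ⟨u, w, huw⟩ := hcop
  obtain ⟨hD0, hDx⟩ := hD
  have hT0 : T D ∈ Divisor.degZero (K := K) (F := F) := hTdeg D hD0
  have hD'0 : w • (T D - n • D) ∈ Divisor.degZero (K := K) (F := F) :=
    AddSubgroup.zsmul_mem _ (AddSubgroup.sub_mem _ hT0 (AddSubgroup.zsmul_mem _ hD0 n)) w
  refine ⟨w • (T D - n • D), ⟨hD'0, ?_⟩, ?_, ?_, ?_⟩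
  · -- the class
    have hsub : (⟨w • (T D - n • D), hD'0⟩ : Divisor.degZero (K := K) (F := F)) =
        w • ((⟨T D, hT0⟩ : Divisor.degZero (K := K) (F := F)) - n • ⟨D, hD0⟩) :=
      Subtype.ext rfl
    have hmk : Pic0.mk (⟨w • (T D - n • D), hD'0⟩ : Divisor.degZero (K := K) (F := F)) =
        w • (Pic0.mk ⟨T D, hT0⟩ - n • Pic0.mk ⟨D, hD0⟩) := by
      rw [hsub]
      rfl
    rw [hmk, ← hTmk D hD0, hDx, hTx]
    have h1 : w • (a • x - n • x) = (w * (a - n)) • x := by
      rw [← sub_smul, smul_smul]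
    have h2 : (w * (a - n)) = 1 - u * (p : ℤ) := by linarith
    have h3 : ((p : ℤ)) • x = 0 := by
      rw [natCast_zsmul]
      exact hpx
    rw [h1, h2, sub_smul, one_smul, mul_smul, h3, smul_zero, sub_zero]
  · exact offNodes_zsmul (offNodes_sub (H1 D hoff) (offNodes_zsmul hoff n)) w
  · have h := H2₁ D hoff
    rw [← degRed₁_apply, ← degRed₁_apply] at h
    rw [← degRed₁_apply, map_zsmul, map_sub, map_zsmul, h]
    simp
  · have h := H2₂ D hoff
    rw [← degRed₂_apply, ← degRed₂_apply] at h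
    rw [← degRed₂_apply, map_zsmul, map_sub, map_zsmul, h]
    simp

end Fermat.Agent.ES.X44.EisAbs11
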