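/-
Programme X (S44, spine `X44_SPINE14.md`), chapter **(Eis)** — THE BORDER LITERALS (Eis) ← (W2)
(helper29).  Definitions only.  Three forms of Programme X's `(X-a)` at one prime `ℓ`, from the most
primitive to the one consumed by `EisExit29.fExit_of_offExit`
(`EisExit29`: `HeckeComp → HeckeSupp → HeckeOffNodes`, the last step for `ℓ ∤ M' p`).

* `On₁ I P`, `On₂ I P`   : the place `P` of the generic fibre reduces to a smooth point of the first
                           (second) component of the nodal fibre.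
* `HeckeComp I ℓ`        : PLACE form.  For every place `R` of the level `M' p ℓ`: if `R ∘ β` lies on
                           the component `i` then so does `R ∘ α` (`α = heckeAlphaBar`,
                           `β = heckeBetaBar`, the two degeneracy maps of the Prelude; `i = 1, 2`).
* `HeckeSupp I ℓ`        : SUPPORT form.  Every place in the support of `T_ℓ [P]`
                           (`T_ℓ = heckeDivBar = α_* β^*` on divisors) lies on the component of `P`.
* `HeckeOffNodes I ℓ`    : LINEAR form.  Some additive `T` on divisors induces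
                           `heckeOperatorBar (M' * p) ℓ` on classes, keeps divisors off the nodes, and
                           multiplies both component degrees of the reduction by `ℓ + 1`.
-/
import Mathlib
import Fermat.Agent.ES.X44.GeoLit12

set_option autoImplicit false
set_option linter.unusedSectionVars false
set_option synthInstance.maxHeartbeats 400000

noncomputable section

open AlgebraicCurve ModularCurve

namespace Fermat.Agent.ES.X44.EisLit29

open Fermat.Agent.ES.W33.XiIfaceN29 Fermat.Agent.ES.W33.GeoNames23 Fermat.Agent.ES.X44.GeoLit12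

attribute [local instance 5000] HahnSeries.powerSeriesAlgebra SubalgebraClass.toAlgebra

variable {p M' : ℕ} {A : ValuationSubring (AlgebraicClosure ℚ)}

/-- `P` reduces to a smooth point of the first component. -/
def On₁ (I : NodalInst p M' A) (P : Place (AlgebraicClosure ℚ) (FW p M')) : Prop :=
  ∃ Q : Place (kW A) (FtW M' A), I.r P = Sum.inl (Sum.inl Q)

/-- `P` reduces to a smooth point of the second component. -/
def On₂ (I : NodalInst p M' A) (P : Place (AlgebraicClosure ℚ) (FW p M')) : Prop :=
  ∃ Q : Place (kW A) (FtW M' A), I.r P = Sum.inl (Sum.inr Q)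

/-- **PLACE form of `(X-a)`**: the two degeneracy maps `α, β : X₀(M' p ℓ) → X₀(M' p)` send a point to
the same component of the nodal fibre (direction `β ⇒ α`, which is the one `T_ℓ = α_* β^*` uses). -/
def HeckeComp [NeZero (M' * p)] (I : NodalInst p M' A) (ℓ : Nat.Primes) : Prop :=
  haveI : NeZero (ℓ : ℕ) := ⟨ℓ.2.ne_zero⟩
  ∀ (hα : HeckeAlphaBarIntegral (AlgebraicClosure ℚ) (M' * p) (ℓ : ℕ))
    (hβ : HeckeBetaBarIntegral (AlgebraicClosure ℚ) (M' * p) (ℓ : ℕ))
    (R : Place (AlgebraicClosure ℚ) ↥(modularFunctionFieldBar (M' * p * (ℓ : ℕ)))),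
    (On₁ I (R.restrictAlong (heckeBetaBar (AlgebraicClosure ℚ) (M' * p) (ℓ : ℕ)) hβ) →
      On₁ I (R.restrictAlong (heckeAlphaBar (AlgebraicClosure ℚ) (M' * p) (ℓ : ℕ)) hα)) ∧
    (On₂ I (R.restrictAlong (heckeBetaBar (AlgebraicClosure ℚ) (M' * p) (ℓ : ℕ)) hβ) →
      On₂ I (R.restrictAlong (heckeAlphaBar (AlgebraicClosure ℚ) (M' * p) (ℓ : ℕ)) hα))

/-- **SUPPORT form of `(X-a)`**: every place of `T_ℓ [P]` lies on the component of `P`. -/
def HeckeSupp [NeZero (M' * p)] (I : NodalInst p M' A) (ℓ : Nat.Primes) : Prop :=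
  haveI : NeZero (ℓ : ℕ) := ⟨ℓ.2.ne_zero⟩
  ∀ (hα : HeckeAlphaBarIntegral (AlgebraicClosure ℚ) (M' * p) (ℓ : ℕ))
    (hβ : HeckeBetaBarIntegral (AlgebraicClosure ℚ) (M' * p) (ℓ : ℕ))
    [HasPrincipalDivisors (AlgebraicClosure ℚ)
      (laurentBaseChange (AlgebraicClosure ℚ) (modularFunctionFieldFull (M' * p * (ℓ : ℕ))))]
    (P P' : Place (AlgebraicClosure ℚ) (FW p M')),
    P' ∈ (heckeDivBar hα hβ (Finsupp.single P 1)).support →
      (On₁ I P → On₁ I P') ∧ (On₂ I P → On₂ I P')

/-- **LINEAR form of `(X-a)`** = the input of `EisExit29.fExit_of_offExit`: a correspondence `T` on the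
divisors of the generic fibre which induces `heckeOperatorBar (M' * p) ℓ` on classes, keeps divisors
off the nodes, and multiplies both component degrees of the reduction by `ℓ + 1`. -/
def HeckeOffNodes [NeZero (M' * p)] (I : NodalInst p M' A) (ℓ : Nat.Primes) : Prop :=
  ∃ T : Divisor (AlgebraicClosure ℚ) (FW p M') →+ Divisor (AlgebraicClosure ℚ) (FW p M'),
    (∀ (x : Pic0 (AlgebraicClosure ℚ) (FW p M')) (D : Divisor (AlgebraicClosure ℚ) (FW p M')),
      IsRep x D → IsRep (heckeOperatorBar (M' * p) ℓ x) (T D)) ∧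
    (∀ D : Divisor (AlgebraicClosure ℚ) (FW p M'), OffNodes I.r D → OffNodes I.r (T D)) ∧
    (∀ D : Divisor (AlgebraicClosure ℚ) (FW p M'), OffNodes I.r D →
      deg₁ (redN I.r (T D)) = (((ℓ : ℕ) : ℤ) + 1) * deg₁ (redN I.r D)) ∧
    (∀ D : Divisor (AlgebraicClosure ℚ) (FW p M'), OffNodes I.r D →
      deg₂ (redN I.r (T D)) = (((ℓ : ℕ) : ℤ) + 1) * deg₂ (redN I.r D))

end Fermat.Agent.ES.X44.EisLit29
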