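/-
Programme X (S44, spine `X44_SPINE14.md`), chapter **(Eis)** — degree bookkeeping (helper29).

Abstract (vocabulary of `W33/XiIfaceN29`, additive maps `degRed₁`, `degRed₂` of `X44/EisAbs11`):

* `degRed_single_inl/inr/node` : the two component degrees of the reduction of ONE place;
* `clauses_of_pointwise` : the three clauses `H1`, `H2₁`, `H2₂` of `EisAbs11.exists_fRep` follow from
  their restriction to single places off the nodes (linearity);
* `clauses_of_support` : they follow from the SUPPORT form of Programme X's `(X-a)`: every place in the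
  support of `T [P]` reduces to the same component as `P`, `T [P]` has degree `n`, and all places
  (generic fibre and both components) have degree one.
-/
import Mathlib
import Fermat.Agent.ES.X44.EisAbs11

set_option autoImplicit false
set_option linter.unusedSectionVars false

noncomputable section

open AlgebraicCurve

namespace Fermat.Agent.ES.X44.EisPt29

open Fermat.Agent.ES.W33.XiIfaceN29 Fermat.Agent.ES.X44.EisAbs11

variable {K F k Ft₁ Ft₂ : Type*} [Field K] [Field F] [Algebra K F] [Field k]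
  [Field Ft₁] [Algebra k Ft₁] [Field Ft₂] [Algebra k Ft₂] {s : ℕ}
  {r : Place K F → SPt k Ft₁ Ft₂ ⊕ Fin s}

/-! ### the reduction of one place -/

theorem redN_single_inl {P : Place K F} {x : SPt k Ft₁ Ft₂} (h : r P = Sum.inl x) (n : ℤ) :
    redN r (Finsupp.single P n) = Finsupp.single x n := by
  classical
  ext y
  show (Finsupp.mapDomain r (Finsupp.single P n)) (Sum.inl y) = _
  rw [Finsupp.mapDomain_single, h, Finsupp.single_apply, Finsupp.single_apply]
  by_cases hxy : x = y
  · rw [if_pos hxy, if_pos (congrArg Sum.inl hxy)]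
  · rw [if_neg hxy, if_neg fun h' => hxy (Sum.inl_injective h')]

theorem redN_single_node {P : Place K F} {j : Fin s} (h : r P = Sum.inr j) (n : ℤ) :
    redN r (Finsupp.single P n) = 0 := by
  classical
  ext y
  show (Finsupp.mapDomain r (Finsupp.single P n)) (Sum.inl y) = _
  rw [Finsupp.mapDomain_single, h, Finsupp.single_apply, if_neg (by simp), Finsupp.zero_apply]

theorem comp₁_single_inl (Q : Place k Ft₁) (n : ℤ) :
    SDiv.comp₁ (Finsupp.single (Sum.inl Q : SPt k Ft₁ Ft₂) n) = Finsupp.single Q n := by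
  classical
  ext Q'
  show (Finsupp.single (Sum.inl Q : SPt k Ft₁ Ft₂) n) (Sum.inl Q') = _
  rw [Finsupp.single_apply, Finsupp.single_apply]
  by_cases hQ : Q = Q'
  · rw [if_pos hQ, if_pos (congrArg Sum.inl hQ)]
  · rw [if_neg hQ, if_neg fun h' => hQ (Sum.inl_injective h')]

theorem comp₁_single_inr (Q : Place k Ft₂) (n : ℤ) :
    SDiv.comp₁ (Finsupp.single (Sum.inr Q : SPt k Ft₁ Ft₂) n) = 0 := by
  classical
  ext Q'
  show (Finsupp.single (Sum.inr Q : SPt k Ft₁ Ft₂) n) (Sum.inl Q') = _
  rw [Finsupp.single_apply, if_neg (by simp), Finsupp.zero_apply]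

theorem comp₂_single_inr (Q : Place k Ft₂) (n : ℤ) :
    SDiv.comp₂ (Finsupp.single (Sum.inr Q : SPt k Ft₁ Ft₂) n) = Finsupp.single Q n := by
  classical
  ext Q'
  show (Finsupp.single (Sum.inr Q : SPt k Ft₁ Ft₂) n) (Sum.inr Q') = _
  rw [Finsupp.single_apply, Finsupp.single_apply]
  by_cases hQ : Q = Q'
  · rw [if_pos hQ, if_pos (congrArg Sum.inr hQ)]
  · rw [if_neg hQ, if_neg fun h' => hQ (Sum.inr_injective h')]

theorem comp₂_single_inl (Q : Place k Ft₁) (n : ℤ) :
    SDiv.comp₂ (Finsupp.single (Sum.inl Q : SPt k Ft₁ Ft₂) n) = 0 := by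
  classical
  ext Q'
  show (Finsupp.single (Sum.inl Q : SPt k Ft₁ Ft₂) n) (Sum.inr Q') = _
  rw [Finsupp.single_apply, if_neg (by simp), Finsupp.zero_apply]

/-- a place on the first component: `(d₁, d₂) = (n deg Q, 0)`. -/
theorem degRed_single_inl {P : Place K F} {Q : Place k Ft₁} (h : r P = Sum.inl (Sum.inl Q))
    (n : ℤ) :
    degRed₁ r (Finsupp.single P n) = n * (Q.deg : ℤ) ∧ degRed₂ r (Finsupp.single P n) = 0 := by
  rw [degRed₁_apply, degRed₂_apply, redN_single_inl h, comp₁_single_inl, comp₂_single_inl,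
    Divisor.degree_single, map_zero]
  exact ⟨rfl, rfl⟩

/-- a place on the second component: `(d₁, d₂) = (0, n deg Q)`. -/
theorem degRed_single_inr {P : Place K F} {Q : Place k Ft₂} (h : r P = Sum.inl (Sum.inr Q))
    (n : ℤ) :
    degRed₁ r (Finsupp.single P n) = 0 ∧ degRed₂ r (Finsupp.single P n) = n * (Q.deg : ℤ) := by
  rw [degRed₁_apply, degRed₂_apply, redN_single_inl h, comp₁_single_inr, comp₂_single_inr,
    Divisor.degree_single, map_zero]
  exact ⟨rfl, rfl⟩

/-! ### every divisor is the sum of its points -/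

theorem eq_sum_single (E : Divisor K F) :
    E = ∑ P ∈ E.support, (E P) • Finsupp.single P (1 : ℤ) := by
  classical
  conv_lhs => rw [← Finsupp.sum_single E]
  rw [Finsupp.sum]
  refine Finset.sum_congr rfl fun P _ => ?_
  rw [Finsupp.smul_single, smul_eq_mul, mul_one]

theorem map_eq_sum_single {M : Type*} [AddCommGroup M] (f : Divisor K F →+ M) (E : Divisor K F) :
    f E = ∑ P ∈ E.support, (E P) • f (Finsupp.single P (1 : ℤ)) := by
  conv_lhs => rw [eq_sum_single E]
  rw [map_sum]
  exact Finset.sum_congr rfl fun P _ => map_zsmul f _ _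

theorem offNodes_zero : OffNodes r (0 : Divisor K F) := by
  intro P hP
  rw [Finsupp.support_zero] at hP
  exact absurd hP (Finset.notMem_empty P)

theorem offNodes_sum {ι : Type*} (S : Finset ι) (f : ι → Divisor K F)
    (h : ∀ i ∈ S, OffNodes r (f i)) : OffNodes r (∑ i ∈ S, f i) := by
  classical
  induction S using Finset.induction_on with
  | empty => rw [Finset.sum_empty]; exact offNodes_zero
  | insert i S hiS ih =>
    rw [Finset.sum_insert hiS]
    exact offNodes_add (h i (Finset.mem_insert_self i S))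
      (ih fun j hj => h j (Finset.mem_insert_of_mem hj))

/-! ### from single places to all divisors off the nodes -/

/-- the clauses `H1`, `H2₁`, `H2₂` of `EisAbs11.exists_fRep` from their restriction to single places
off the nodes. -/
theorem clauses_of_pointwise (T : Divisor K F →+ Divisor K F) (n : ℤ)
    (hoffpt : ∀ P : Place K F, (∀ j : Fin s, r P ≠ Sum.inr j) →
      OffNodes r (T (Finsupp.single P 1)))
    (hd1pt : ∀ P : Place K F, (∀ j : Fin s, r P ≠ Sum.inr j) →
      degRed₁ r (T (Finsupp.single P 1)) = n * degRed₁ r (Finsupp.single P 1))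
    (hd2pt : ∀ P : Place K F, (∀ j : Fin s, r P ≠ Sum.inr j) →
      degRed₂ r (T (Finsupp.single P 1)) = n * degRed₂ r (Finsupp.single P 1)) :
    (∀ E : Divisor K F, OffNodes r E → OffNodes r (T E)) ∧
    (∀ E : Divisor K F, OffNodes r E →
      Divisor.degree (SDiv.comp₁ (redN r (T E))) = n * Divisor.degree (SDiv.comp₁ (redN r E))) ∧
    (∀ E : Divisor K F, OffNodes r E →
      Divisor.degree (SDiv.comp₂ (redN r (T E))) = n * Divisor.degree (SDiv.comp₂ (redN r E))) := by
  classical
  refine ⟨fun E hE => ?_, fun E hE => ?_, fun E hE => ?_⟩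
  · rw [map_eq_sum_single T E]
    exact offNodes_sum _ _ fun P hP => offNodes_zsmul (hoffpt P (hE P hP)) _
  · rw [← degRed₁_apply, ← degRed₁_apply]
    have h1 := map_eq_sum_single ((degRed₁ r).comp T) E
    rw [AddMonoidHom.comp_apply] at h1
    rw [h1, map_eq_sum_single (degRed₁ r) E, Finset.mul_sum]
    refine Finset.sum_congr rfl fun P hP => ?_
    rw [AddMonoidHom.comp_apply, hd1pt P (hE P hP), smul_eq_mul, smul_eq_mul]
    ring
  · rw [← degRed₂_apply, ← degRed₂_apply]
    have h1 := map_eq_sum_single ((degRed₂ r).comp T) E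
    rw [AddMonoidHom.comp_apply] at h1
    rw [h1, map_eq_sum_single (degRed₂ r) E, Finset.mul_sum]
    refine Finset.sum_congr rfl fun P hP => ?_
    rw [AddMonoidHom.comp_apply, hd2pt P (hE P hP), smul_eq_mul, smul_eq_mul]
    ring

/-! ### from the support form to the pointwise form -/

/-- a divisor all of whose points reduce to the first component, all places of degree one:
`(d₁, d₂) = (deg, 0)`. -/
theorem degRed_of_support_inl (hdegF : ∀ P : Place K F, P.deg = 1)
    (hdeg₁ : ∀ Q : Place k Ft₁, Q.deg = 1) {E : Divisor K F}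
    (hE : ∀ P ∈ E.support, ∃ Q : Place k Ft₁, r P = Sum.inl (Sum.inl Q)) :
    degRed₁ r E = Divisor.degree E ∧ degRed₂ r E = 0 := by
  classical
  rw [map_eq_sum_single (degRed₁ r) E, map_eq_sum_single (degRed₂ r) E,
    map_eq_sum_single (Divisor.degree (K := K) (F := F)) E]
  refine ⟨Finset.sum_congr rfl fun P hP => ?_, Finset.sum_eq_zero fun P hP => ?_⟩
  · obtain ⟨Q, hQ⟩ := hE P hP
    rw [(degRed_single_inl hQ 1).1, Divisor.degree_single, hdeg₁ Q, hdegF P]
  · obtain ⟨Q, hQ⟩ := hE P hP
    rw [(degRed_single_inl hQ 1).2, smul_zero]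

/-- a divisor all of whose points reduce to the second component, all places of degree one:
`(d₁, d₂) = (0, deg)`. -/
theorem degRed_of_support_inr (hdegF : ∀ P : Place K F, P.deg = 1)
    (hdeg₂ : ∀ Q : Place k Ft₂, Q.deg = 1) {E : Divisor K F}
    (hE : ∀ P ∈ E.support, ∃ Q : Place k Ft₂, r P = Sum.inl (Sum.inr Q)) :
    degRed₁ r E = 0 ∧ degRed₂ r E = Divisor.degree E := by
  classical
  rw [map_eq_sum_single (degRed₁ r) E, map_eq_sum_single (degRed₂ r) E,
    map_eq_sum_single (Divisor.degree (K := K) (F := F)) E]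
  refine ⟨Finset.sum_eq_zero fun P hP => ?_, Finset.sum_congr rfl fun P hP => ?_⟩
  · obtain ⟨Q, hQ⟩ := hE P hP
    rw [(degRed_single_inr hQ 1).1, smul_zero]
  · obtain ⟨Q, hQ⟩ := hE P hP
    rw [(degRed_single_inr hQ 1).2, Divisor.degree_single, hdeg₂ Q, hdegF P]

/-- **the SUPPORT form of `(X-a)` gives the three clauses of `EisAbs11.exists_fRep`.** -/
theorem clauses_of_support (T : Divisor K F →+ Divisor K F) (n : ℤ)
    (hdegF : ∀ P : Place K F, P.deg = 1)
    (hdeg₁ : ∀ Q : Place k Ft₁, Q.deg = 1) (hdeg₂ : ∀ Q : Place k Ft₂, Q.deg = 1)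
    (hTdeg : ∀ P : Place K F, Divisor.degree (T (Finsupp.single P 1)) = n)
    (hs1 : ∀ (P : Place K F) (Q : Place k Ft₁), r P = Sum.inl (Sum.inl Q) →
      ∀ P' ∈ (T (Finsupp.single P 1)).support, ∃ Q' : Place k Ft₁, r P' = Sum.inl (Sum.inl Q'))
    (hs2 : ∀ (P : Place K F) (Q : Place k Ft₂), r P = Sum.inl (Sum.inr Q) →
      ∀ P' ∈ (T (Finsupp.single P 1)).support, ∃ Q' : Place k Ft₂, r P' = Sum.inl (Sum.inr Q')) :
    (∀ E : Divisor K F, OffNodes r E → OffNodes r (T E)) ∧
    (∀ E : Divisor K F, OffNodes r E →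
      Divisor.degree (SDiv.comp₁ (redN r (T E))) = n * Divisor.degree (SDiv.comp₁ (redN r E))) ∧
    (∀ E : Divisor K F, OffNodes r E →
      Divisor.degree (SDiv.comp₂ (redN r (T E))) = n * Divisor.degree (SDiv.comp₂ (redN r E))) := by
  refine clauses_of_pointwise T n (fun P hP => ?_) (fun P hP => ?_) (fun P hP => ?_)
  · intro P' hP' j hj
    rcases hrP : r P with (Q | Q) | j'
    · obtain ⟨Q', hQ'⟩ := hs1 P Q hrP P' hP'
      rw [hQ'] at hj
      exact Sum.inl_ne_inr hj
    · obtain ⟨Q', hQ'⟩ := hs2 P Q hrP P' hP'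
      rw [hQ'] at hj
      exact Sum.inl_ne_inr hj
    · exact hP j' hrP
  · rcases hrP : r P with (Q | Q) | j'
    · rw [(degRed_of_support_inl hdegF hdeg₁ (hs1 P Q hrP)).1, hTdeg P,
        (degRed_single_inl hrP 1).1, hdeg₁ Q]
      simp
    · rw [(degRed_of_support_inr hdegF hdeg₂ (hs2 P Q hrP)).1, (degRed_single_inr hrP 1).1,
        mul_zero]
    · exact absurd hrP (hP j')
  · rcases hrP : r P with (Q | Q) | j'
    · rw [(degRed_of_support_inl hdegF hdeg₁ (hs1 P Q hrP)).2, (degRed_single_inl hrP 1).2,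
        mul_zero]
    · rw [(degRed_of_support_inr hdegF hdeg₂ (hs2 P Q hrP)).2, hTdeg P,
        (degRed_single_inr hrP 1).2, hdeg₂ Q]
      simp
    · exact absurd hrP (hP j')

end Fermat.Agent.ES.X44.EisPt29
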