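/-
Programme X (S44, spine `X44_SPINE14.md`), chapter **(Eis)** — the exit `GeoLit12.FExit` (helper29).

`FExit I V` from `OffExit I V` (exit of (K)+(W1)+(LL′)), the eigen-relation of (R) at ONE prime `ℓ₀`
(`T_ℓ₀ x = a • x`, `p • x = 0` on `V`), the non-Eisenstein condition of (NE) (`p ∤ a - ℓ₀ - 1`) and
Programme X's `(X-a)` from (W2), in any of the three forms of `EisLit29`:

* `heckeSupp_of_comp`     : `HeckeComp I ℓ → HeckeSupp I ℓ`        (point formula for `T_ℓ`);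
* `heckeOffNodes_of_supp` : `HeckeSupp I ℓ → HeckeOffNodes I ℓ`    (`ℓ ∤ M' p`; all places have degree
                            one, `T_ℓ [P]` has degree `ℓ + 1`, `T_ℓ` on classes is induced by
                            `heckeDivBar`);
* `fExit_of_offExit`      : `HeckeOffNodes I ℓ₀ → FExit I V`       (`EisAbs11.exists_fRep`: Bezout on
                            divisors; no multidegree map, no winding number, no thickness);
* `fExit_of_comp`         : the composite, with the degree-one facts of the nodal fibre discharged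
                            (`NodalInst14.lHyp_FtV`);
* `fExit_of_iota`         : the same for `V = Set.range ι`, `ι` additive from a group killed by `p`
                            (the shape of the chain: `ι` of `RealExit`, `ℓ₀` of `NonEis`).
-/
import Mathlib
import Fermat.Agent.ES.X44.GeoLit12
import Fermat.Agent.ES.X44.EisLit29
import Fermat.Agent.ES.X44.EisAbs11
import Fermat.Agent.ES.X44.EisPt29
import Fermat.Agent.ES.HECKE.PointFormula28
import Fermat.Agent.ES.HECKE.InputsFinal15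
import Fermat.Agent.RED.TOP.FbarFacts20
import Fermat.Agent.ES.W33.NodalInst14

set_option autoImplicit false
set_option linter.unusedSectionVars false
set_option linter.style.haveILetI false
set_option synthInstance.maxHeartbeats 400000

noncomputable section

open AlgebraicCurve ModularCurve

namespace Fermat.Agent.ES.X44.EisExit29

open Fermat.Agent.ES.W33.XiIfaceN29 Fermat.Agent.ES.W33.GeoNames23 Fermat.Agent.ES.X44.GeoLit12
  Fermat.Agent.ES.X44.EisLit29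

attribute [local instance 5000] HahnSeries.powerSeriesAlgebra SubalgebraClass.toAlgebra

variable {p M' : ℕ} {A : ValuationSubring (AlgebraicClosure ℚ)}

/-! ### `HeckeComp → HeckeSupp` -/

theorem heckeSupp_of_comp [NeZero (M' * p)] {I : NodalInst p M' A} {ℓ : Nat.Primes}
    (h : HeckeComp I ℓ) : HeckeSupp I ℓ := by
  classical
  haveI : NeZero (ℓ : ℕ) := ⟨ℓ.2.ne_zero⟩
  intro hα hβ _ P P' hP'
  rw [Fermat.Agent.ES.HECKE.PointFormula28.heckeDivBar_single hα hβ P 1] at hP'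
  obtain ⟨R, hR, hP'R⟩ := Finset.mem_biUnion.mp (Finsupp.support_finsetSum hP')
  have hPR : P' = R.restrictAlong (heckeAlphaBar (AlgebraicClosure ℚ) (M' * p) (ℓ : ℕ)) hα :=
    Finset.mem_singleton.mp (Finsupp.support_single_subset hP'R)
  have hRP : R.restrictAlong (heckeBetaBar (AlgebraicClosure ℚ) (M' * p) (ℓ : ℕ)) hβ = P :=
    Place.mem_fiberAlong.mp hR
  have hh := h hα hβ R
  rw [hRP, ← hPR] at hh
  exact hh

/-! ### `HeckeSupp → HeckeOffNodes` -/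

theorem heckeOffNodes_of_supp [NeZero (M' * p)] {I : NodalInst p M' A} {ℓ : Nat.Primes}
    (hℓ : ¬ (ℓ : ℕ) ∣ M' * p)
    (hdegFt : ∀ Q : Place (kW A) (FtW M' A), Q.deg = 1)
    (h : HeckeSupp I ℓ) : HeckeOffNodes I ℓ := by
  classical
  haveI : NeZero (ℓ : ℕ) := ⟨ℓ.2.ne_zero⟩
  have hα := Fermat.Agent.ES.HECKE.AlongDegree25.heckeAlphaBarIntegral (AlgebraicClosure ℚ)
    (M' * p) (ℓ : ℕ) ℓ.2 hℓ
  have hβ := Fermat.Agent.ES.HECKE.AlongDegree25.heckeBetaBarIntegral (AlgebraicClosure ℚ)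
    (M' * p) (ℓ : ℕ) ℓ.2 hℓ
  haveI := Fermat.Agent.ES.HECKE.InputsMain19.hasPrincipalDivisors_level (M' * p) (ℓ : ℕ)
  have hFI := Fermat.Agent.ES.HECKE.InputsMain19.fundamentalIdentityAlong_beta (M' * p) (ℓ : ℕ)
    ℓ.2 hℓ
  have hfin := Fermat.Agent.ES.HECKE.AlongDegree25.finiteAlong_alpha (AlgebraicClosure ℚ)
    (M' * p) (ℓ : ℕ) ℓ.2 hℓ
  have hN := Fermat.Agent.ES.HECKE.InputsFinal15.normFormulaAlong_alpha (M' * p) (ℓ : ℕ) ℓ.2 hℓ
  have hdegF : ∀ P : Place (AlgebraicClosure ℚ) (FW p M'), P.deg = 1 :=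
    Fermat.Agent.RED.TOP.FbarFacts20.deg_eq_one_bar (M' * p)
  -- the three clauses off the nodes
  have hTdeg : ∀ P : Place (AlgebraicClosure ℚ) (FW p M'),
      Divisor.degree (heckeDivBar hα hβ (Finsupp.single P 1)) = ((ℓ : ℕ) : ℤ) + 1 := by
    intro P
    have h1 := Fermat.Agent.ES.HECKE.PointFormula28.degree_correspondence_single
      (heckeBetaBar (AlgebraicClosure ℚ) (M' * p) (ℓ : ℕ))
      (heckeAlphaBar (AlgebraicClosure ℚ) (M' * p) (ℓ : ℕ)) hβ hα hFI P 1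
    rw [Fermat.Agent.ES.HECKE.AlongDegree25.finrankAlong_beta (AlgebraicClosure ℚ) (M' * p)
      (ℓ : ℕ) ℓ.2 hℓ, hdegF P] at h1
    rw [show heckeDivBar hα hβ (Finsupp.single P 1) = Divisor.correspondence
      (heckeBetaBar (AlgebraicClosure ℚ) (M' * p) (ℓ : ℕ))
      (heckeAlphaBar (AlgebraicClosure ℚ) (M' * p) (ℓ : ℕ)) hβ hα (Finsupp.single P 1) from rfl, h1]
    push_cast
    ring
  obtain ⟨c1, c2, c3⟩ := Fermat.Agent.ES.X44.EisPt29.clauses_of_support (r := I.r)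
    (heckeDivBar hα hβ) (((ℓ : ℕ) : ℤ) + 1) hdegF hdegFt hdegFt hTdeg
    (fun P Q hPQ P' hP' => (h hα hβ P P' hP').1 ⟨Q, hPQ⟩)
    (fun P Q hPQ P' hP' => (h hα hβ P P' hP').2 ⟨Q, hPQ⟩)
  refine ⟨heckeDivBar hα hβ, ?_, c1, c2, c3⟩
  -- `heckeDivBar` induces `heckeOperatorBar` on classes
  rintro x D ⟨hD0, rfl⟩
  have hmk := Fermat.Agent.ES.HECKE.PointFormula28.heckeOperatorBar_mk ℓ hα hβ hFI hfin hN
    ⟨D, hD0⟩
  exact ⟨(Pic0.degZeroCorrespondence (heckeBetaBar (AlgebraicClosure ℚ) (M' * p) (ℓ : ℕ))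
    (heckeAlphaBar (AlgebraicClosure ℚ) (M' * p) (ℓ : ℕ)) hβ hα hFI ⟨D, hD0⟩).2, hmk.symm⟩

/-! ### `HeckeOffNodes → FExit` -/

/-- **(Eis): `FExit` from `OffExit`.** -/
theorem fExit_of_offExit [NeZero (M' * p)] (hp : p.Prime) (I : NodalInst p M' A)
    (V : Set (Pic0 (AlgebraicClosure ℚ) (FW p M'))) (ℓ₀ : Nat.Primes) (a : ℤ)
    (hoffE : OffExit I V)
    (hpV : ∀ x ∈ V, p • x = 0)
    (heig : ∀ x ∈ V, heckeOperatorBar (M' * p) ℓ₀ x = a • x)
    (hNE : ¬ (p : ℤ) ∣ a - ((ℓ₀ : ℕ) : ℤ) - 1)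
    (hH : HeckeOffNodes I ℓ₀) : FExit I V := by
  obtain ⟨T, hrep, hoff, hd1, hd2⟩ := hH
  have hcop : IsCoprime (p : ℤ) (a - ((((ℓ₀ : ℕ) : ℤ)) + 1)) := by
    refine (Prime.coprime_iff_not_dvd (Nat.prime_iff_prime_int.mp hp)).mpr fun h => hNE ?_
    have e : a - ((ℓ₀ : ℕ) : ℤ) - 1 = a - ((((ℓ₀ : ℕ) : ℤ)) + 1) := by ring
    rw [e]
    exact h
  intro x hx
  obtain ⟨D, hD, hoffD⟩ := hoffE x hx
  exact Fermat.Agent.ES.X44.EisAbs11.exists_fRep I.r T
    (heckeOperatorBar (M' * p) ℓ₀).toAddMonoidHom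
    (fun E hE => (hrep (Pic0.mk ⟨E, hE⟩) E ⟨hE, rfl⟩).fst)
    (fun E hE => ((hrep (Pic0.mk ⟨E, hE⟩) E ⟨hE, rfl⟩).snd).symm)
    (((ℓ₀ : ℕ) : ℤ) + 1) hoff hd1 hd2 p a hcop x (hpV x hx) (heig x hx) D hD hoffD

/-! ### the composite -/

/-- the places of both components of the nodal fibre have degree one. -/
theorem deg_eq_one_FtW (M' : ℕ) [NeZero M'] (p : ℕ) [Fact p.Prime] (hpM : ¬ p ∣ M') (h4 : 4 ∣ M')
    (A : ValuationSubring (AlgebraicClosure ℚ)) (hA : A.LiesOverPrime p)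
    (Q : Place (kW A) (FtW M' A)) : Q.deg = 1 :=
  haveI : NeZero 4 := ⟨by norm_num⟩
  (Fermat.Agent.ES.W33.NodalInst14.lHyp_FtV 4 8 M' p hpM
    Fermat.Agent.RED.BASE.Hauptmodul12.baseHyp_four h4 A hA).deg_eq_one Q

/-- **(Eis), from the PLACE form of `(X-a)`.** -/
theorem fExit_of_comp (M' : ℕ) [NeZero M'] (p : ℕ) [Fact p.Prime] [NeZero (M' * p)]
    (hpM : ¬ p ∣ M') (h4 : 4 ∣ M')
    (A : ValuationSubring (AlgebraicClosure ℚ)) (hA : A.LiesOverPrime p) (I : NodalInst p M' A)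
    (V : Set (Pic0 (AlgebraicClosure ℚ) (FW p M'))) (ℓ₀ : Nat.Primes) (a : ℤ)
    (hℓ₀ : ¬ (ℓ₀ : ℕ) ∣ M' * p)
    (hoffE : OffExit I V)
    (hpV : ∀ x ∈ V, p • x = 0)
    (heig : ∀ x ∈ V, heckeOperatorBar (M' * p) ℓ₀ x = a • x)
    (hNE : ¬ (p : ℤ) ∣ a - ((ℓ₀ : ℕ) : ℤ) - 1)
    (hC : HeckeComp I ℓ₀) : FExit I V :=
  fExit_of_offExit Fact.out I V ℓ₀ a hoffE hpV heig hNE
    (heckeOffNodes_of_supp hℓ₀ (deg_eq_one_FtW M' p hpM h4 A hA) (heckeSupp_of_comp hC))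

/-- **(Eis) in the shape of the chain**: `V` the image of an additive map `ι` from a group killed by
`p` (in the chain: `E[p]` and the `ι` of `RealExit`), eigen-relation on the image of `ι`. -/
theorem fExit_of_iota (M' : ℕ) [NeZero M'] (p : ℕ) [Fact p.Prime] [NeZero (M' * p)]
    (hpM : ¬ p ∣ M') (h4 : 4 ∣ M')
    (A : ValuationSubring (AlgebraicClosure ℚ)) (hA : A.LiesOverPrime p) (I : NodalInst p M' A)
    {E : Type*} [AddCommGroup E] (ι : E →+ JZero (M' * p)) (hpE : ∀ v : E, p • v = 0)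
    (ℓ₀ : Nat.Primes) (a : ℤ) (hℓ₀ : ¬ (ℓ₀ : ℕ) ∣ M' * p)
    (heig : ∀ v : E, heckeOperatorBar (M' * p) ℓ₀ (ι v) = a • ι v)
    (hNE : ¬ (p : ℤ) ∣ a - ((ℓ₀ : ℕ) : ℤ) - 1)
    (hoffE : OffExit I (Set.range ι))
    (hC : HeckeComp I ℓ₀) : FExit I (Set.range ι) := by
  refine fExit_of_comp M' p hpM h4 A hA I (Set.range ι) ℓ₀ a hℓ₀ hoffE ?_ ?_ hNE hC
  · rintro x ⟨v, rfl⟩
    rw [← map_nsmul, hpE v, map_zero]
  · rintro x ⟨v, rfl⟩
    exact heig v

end Fermat.Agent.ES.X44.EisExit29
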