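/-
Programme X (S44, spine `X44_SPINE14.md`), chapter **(Eis)** — the dictionary between the border
literal `EisLit29.HeckeComp` at THE instance `GeoLit12.IX` and the place-level predicates
`NodalDefs3.InW1`, `NodalDefs3.InW2` (helper29).

* `not_inW1_and_inW2` : no place is both in `W₁` and in `W₂`;
* `on₁_IX_iff`        : `On₁ (IX …) P ↔ InW1 … P`;
* `on₂_IX_iff`        : `On₂ (IX …) P ↔ InW2 … P`;
* `heckeComp_IX`      : `HeckeComp (IX …) ℓ` from the statement "`R ∘ β ∈ W_i ⇒ R ∘ α ∈ W_i`" for the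
                        places `R` of the level `M' p ℓ` (`i = 1, 2`) — the deliverable of `(X-a)`.
-/
import Mathlib
import Fermat.Agent.ES.X44.GeoLit12
import Fermat.Agent.ES.X44.EisLit29
import Fermat.Agent.ES.W33.GeoLeaves23

set_option autoImplicit false
set_option linter.unusedSectionVars false
set_option linter.style.haveILetI false
set_option synthInstance.maxHeartbeats 400000

noncomputable section

open AlgebraicCurve ModularCurve

namespace Fermat.Agent.ES.X44.EisInW29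

open Fermat.Agent.RED.Interface4 Fermat.Agent.RED.BASE.Interface12
  Fermat.Agent.RED.BASE.Hauptmodul12 Fermat.Agent.ES.RED.Contract8 Fermat.Agent.ES.RED.ModelInst4
  Fermat.Agent.ES.W33.XiIfaceN29 Fermat.Agent.ES.W33.GeoNames23 Fermat.Agent.ES.W33.NodalDefs3
  Fermat.Agent.ES.W33.TwoChartsNInst20 Fermat.Agent.ES.W33.TwoChartsNRN20
  Fermat.Agent.ES.W33.NodalCtxRN20 Fermat.Agent.ES.W33.GeoInput23 Fermat.Agent.ES.W33.GeoLeaves23
  Fermat.Agent.ES.X44.GeoLit12 Fermat.Agent.ES.X44.EisLit29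

attribute [local instance 5000] HahnSeries.powerSeriesAlgebra SubalgebraClass.toAlgebra

/-! ### `W₁` and `W₂` are disjoint -/

section Disjoint

variable {n e M' : ℕ} [NeZero n] [NeZero M'] {p : ℕ} [Fact p.Prime] {hpM : ¬ p ∣ M'}
  {hb : BaseHyp n e} {hnM : n ∣ M'} {A : ValuationSubring Qbar} {hA : A.LiesOverPrime p}
  {L : ChartLeaves n e M' p hb hnM A} (L' : PlaceLeaves L)

include L' in
/-- no place is both in `W₁` and in `W₂`. -/
theorem not_inW1_and_inW2 {P : Place Qbar ↥(Fbar (M' * p))} (h1 : InW1 n e M' p hb hnM A P)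
    (h2 : InW2 n e M' p hb hnM A P) : False := by
  rcases (inW1_iff L P).1 h1 with ⟨h0, hn2⟩ | ⟨h1c, hn2⟩
  · have ho1 : (S0N L).On₁ P h0 := ((S0N L).on₁_or_on₂ P h0).resolve_right hn2
    rcases (inW2_iff L P).1 h2 with ⟨h0', hn1⟩ | ⟨h1c, hn1⟩
    · exact hn1 ho1
    · exact hn1 (((TN L').on₁_iff P h0 h1c).1 ho1)
  · have ho1 : (S1N L).On₁ P h1c := ((S1N L).on₁_or_on₂ P h1c).resolve_right hn2
    rcases (inW2_iff L P).1 h2 with ⟨h0, hn1⟩ | ⟨h1c', hn1⟩
    · exact hn1 (((TN L').on₁_iff P h0 h1c).2 ho1)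
    · exact hn1 ho1

end Disjoint

/-! ### the dictionary at THE instance -/

section Inst

variable (M' : ℕ) [NeZero M'] (p : ℕ) [Fact p.Prime] (hpM : ¬ p ∣ M') (h4M : 4 ∣ M')
  (A : ValuationSubring (AlgebraicClosure ℚ)) (hA : A.LiesOverPrime p)

/-- the reduction map of THE instance is `NodalDefs3.rN` at the base `(4, 8)`. -/
theorem r_IX (P : Place (AlgebraicClosure ℚ) (FW p M')) :
    haveI := neZero_four
    (IX M' p hpM h4M A hA).r P = rN 4 8 M' p hpM baseHyp_four h4M A hA P := rfl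

/-- `On₁` at THE instance is `InW1`. -/
theorem on₁_IX_iff (hp2 : p ≠ 2) (P : Place (AlgebraicClosure ℚ) (FW p M')) :
    haveI := neZero_four
    On₁ (IX M' p hpM h4M A hA) P ↔ InW1 4 8 M' p baseHyp_four h4M A P := by
  haveI := neZero_four
  have HR := rnLeaves M' p hpM h4M A hA hp2
  have hf : Finite ↥(nodePairs 4 8 M' p hpM baseHyp_four h4M A hA) :=
    finite_nodePairs HR.placeLeaves HR.R
  constructor
  · rintro ⟨Q, hQ⟩
    rw [r_IX] at hQ
    by_contra h1
    by_cases h2 : InW2 4 8 M' p baseHyp_four h4M A P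
    · rw [rN_of_inW2 4 8 M' p hpM baseHyp_four h4M A hA h1 h2] at hQ
      exact Sum.inr_ne_inl (Sum.inl_injective hQ)
    · rw [Fermat.Agent.ES.W33.NodalCtxAsm26.rN_of_node 4 8 M' p hpM baseHyp_four h4M A hA h1 h2
        hf] at hQ
      exact Sum.inr_ne_inl hQ
  · intro h1
    exact ⟨_, rN_of_inW1 4 8 M' p hpM baseHyp_four h4M A hA h1⟩

/-- `On₂` at THE instance is `InW2`. -/
theorem on₂_IX_iff (hp2 : p ≠ 2) (P : Place (AlgebraicClosure ℚ) (FW p M')) :
    haveI := neZero_four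
    On₂ (IX M' p hpM h4M A hA) P ↔ InW2 4 8 M' p baseHyp_four h4M A P := by
  haveI := neZero_four
  have HR := rnLeaves M' p hpM h4M A hA hp2
  have hf : Finite ↥(nodePairs 4 8 M' p hpM baseHyp_four h4M A hA) :=
    finite_nodePairs HR.placeLeaves HR.R
  constructor
  · rintro ⟨Q, hQ⟩
    rw [r_IX] at hQ
    by_contra h2
    by_cases h1 : InW1 4 8 M' p baseHyp_four h4M A P
    · rw [rN_of_inW1 4 8 M' p hpM baseHyp_four h4M A hA h1] at hQ
      exact Sum.inl_ne_inr (Sum.inl_injective hQ)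
    · rw [Fermat.Agent.ES.W33.NodalCtxAsm26.rN_of_node 4 8 M' p hpM baseHyp_four h4M A hA h1 h2
        hf] at hQ
      exact Sum.inr_ne_inl hQ
  · intro h2
    have h1 : ¬ InW1 4 8 M' p baseHyp_four h4M A P := fun h1 =>
      not_inW1_and_inW2 HR.placeLeaves h1 h2
    exact ⟨_, rN_of_inW2 4 8 M' p hpM baseHyp_four h4M A hA h1 h2⟩

/-- **`HeckeComp` at THE instance from the `InW` form of `(X-a)`.** -/
theorem heckeComp_IX [NeZero (M' * p)] (hp2 : p ≠ 2) (ℓ : Nat.Primes)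
    (h : haveI := neZero_four
      haveI : NeZero (ℓ : ℕ) := ⟨ℓ.2.ne_zero⟩
      ∀ (hα : HeckeAlphaBarIntegral (AlgebraicClosure ℚ) (M' * p) (ℓ : ℕ))
        (hβ : HeckeBetaBarIntegral (AlgebraicClosure ℚ) (M' * p) (ℓ : ℕ))
        (R : Place (AlgebraicClosure ℚ) ↥(modularFunctionFieldBar (M' * p * (ℓ : ℕ)))),
        (InW1 4 8 M' p baseHyp_four h4M A
            (R.restrictAlong (heckeBetaBar (AlgebraicClosure ℚ) (M' * p) (ℓ : ℕ)) hβ) →
          InW1 4 8 M' p baseHyp_four h4M A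
            (R.restrictAlong (heckeAlphaBar (AlgebraicClosure ℚ) (M' * p) (ℓ : ℕ)) hα)) ∧
        (InW2 4 8 M' p baseHyp_four h4M A
            (R.restrictAlong (heckeBetaBar (AlgebraicClosure ℚ) (M' * p) (ℓ : ℕ)) hβ) →
          InW2 4 8 M' p baseHyp_four h4M A
            (R.restrictAlong (heckeAlphaBar (AlgebraicClosure ℚ) (M' * p) (ℓ : ℕ)) hα))) :
    HeckeComp (IX M' p hpM h4M A hA) ℓ := by
  haveI := neZero_four
  haveI : NeZero (ℓ : ℕ) := ⟨ℓ.2.ne_zero⟩
  intro hα hβ R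
  obtain ⟨hh1, hh2⟩ := h hα hβ R
  exact ⟨fun h1 => (on₁_IX_iff M' p hpM h4M A hA hp2 _).2
      (hh1 ((on₁_IX_iff M' p hpM h4M A hA hp2 _).1 h1)),
    fun h2 => (on₂_IX_iff M' p hpM h4M A hA hp2 _).2
      (hh2 ((on₂_IX_iff M' p hpM h4M A hA hp2 _).1 h2))⟩

end Inst

end Fermat.Agent.ES.X44.EisInW29
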