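/-
Programme X (S44), chapter (R), file `EmbedE19` (helper19): **Boston–Lenstra–Ribet for `E[p]`** — an
`𝔽_p[G_ℚ]`-module on which the Frobenius elements satisfy the Eichler–Shimura relations of `E` contains `E[p]`.

`E / ℚ` elliptic with integral model `W`, `p` odd, `E[p]` irreducible; `M'` a finite NONZERO `ZMod p`-module
with `ρM : G_ℚ →* End (ZMod p) M'` of finite level such that, for every prime `ℓ ∉ T` (`T` finite) good for `W`,
`ℓ ≠ p`, every Frobenius element `φ` at a place over `ℓ` has `ρM φ ² - a_ℓ(W) ρM φ + ℓ = 0`.  Then there is an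
injective `ZMod p`-linear `G_ℚ`-equivariant map `E[p] → M'` (`exists_equivariant_injection`).

Chain: `DetChiE19.trace_det_frob` (the characteristic polynomial of EVERY Frobenius on `E[p]`) ⇒ linearised
relation on `M'` at the Frobenius elements ⇒ at every `g` (`V32/QuadAll18.quad_all` with the trivial filtration
`I n = ⊥`, generator Chebotarev `GAL/ChebQbar23` on the joint finite level) ⇒ `V32/Embed18.exists_embedding`
(BLR + Morita by hand; `BurnsideE19.span_rhoE_eq_top`) ⇒ `E[p] ↪ M'ⁿ`; a nonzero coordinate is injective because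
`E[p]` is irreducible.

`exists_injection_of_subgroup`: the same for a finite nonzero `G_ℚ`-stable subgroup `M` of `p`-torsion of any
`G_ℚ`-module `J` (in the application `J = J₀(N)(ℚ̄)`, `M` = the joint eigenspace of helper18's `EigenSpace18`).
-/
import Mathlib
import Fermat.Agent.ES.X44.BurnsideE19
import Fermat.Agent.ES.V32.Embed18
import Fermat.Agent.ES.ALG.RelDense9

set_option autoImplicit false
set_option linter.style.haveILetI false
set_option linter.unusedSectionVars false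

open WeierstrassCurve WeierstrassCurve.Affine WeierstrassCurve.Affine.Point Module

noncomputable section

namespace Fermat.Agent.ES.X44.EmbedE19

open Fermat.Agent.ES.X44.QuadScalar19 Fermat.Agent.ES.X44.FrobQuadE19 Fermat.Agent.ES.X44.DetChiE19
open Fermat.Agent.ES.X44.BurnsideE19 Fermat.Agent.ES.ALG.RelDense9

local notation "Qb" => AlgebraicClosure ℚ
local notation "GQ" => (AlgebraicClosure ℚ ≃ₐ[ℚ] AlgebraicClosure ℚ)

variable {E : WeierstrassCurve ℚ} {p : ℕ} [hp : Fact p.Prime]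

/-- `2` is a unit of `ZMod p`, `p` odd. -/
theorem isUnit_two (hp2 : p ≠ 2) : IsUnit (2 : ZMod p) := by
  rw [isUnit_iff_ne_zero]
  intro h0
  have h1 : ((2 : ℕ) : ZMod p) = 0 := by exact_mod_cast h0
  rw [ZMod.natCast_eq_zero_iff] at h1
  exact hp2 ((Nat.prime_dvd_prime_iff_eq hp.out Nat.prime_two).mp h1)

/-- the Frobenius elements at the good primes outside `T`. -/
def frobSet (W : WeierstrassCurve ℤ) (p : ℕ) (T : Finset ℕ) : Set GQ :=
  {φ | ∃ ℓ : ℕ, ℓ.Prime ∧ ℓ ∉ T ∧ W.IsGoodPrimeFor ℓ ∧ ℓ ≠ p ∧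
    ∃ A : ValuationSubring Qb, A.LiesOverPrime ℓ ∧ A.IsFrobeniusAt φ ℓ}

section Abstract

variable {M' : Type*} [AddCommGroup M'] [Module (ZMod p) M']

/-- **the quadratic relation at every `g`** on a module satisfying the Frobenius relations of `E`. -/
theorem quad_all_of_frob [E.IsElliptic] {W : WeierstrassCurve ℤ} (hW : W.IsIntegralModelOf E)
    (hp2 : p ≠ 2) (hirr : GaloisRepIsIrreducible (K := Qb) ℚ E.toAffine p)
    (ρM : GQ →* End (ZMod p) M') (T : Finset ℕ)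
    (hfrob : ∀ ℓ : ℕ, ℓ.Prime → ℓ ∉ T → W.IsGoodPrimeFor ℓ → ℓ ≠ p →
      ∀ A : ValuationSubring Qb, A.LiesOverPrime ℓ → ∀ φ : GQ, A.IsFrobeniusAt φ ℓ →
        ρM φ * ρM φ - ((W.apOfModel ℓ : ℤ) : ZMod p) • ρM φ +
          ((ℓ : ℕ) : ZMod p) • (1 : End (ZMod p) M') = 0)
    (hlevel : ∃ L : IntermediateField ℚ Qb, FiniteDimensional ℚ L ∧
      ∀ σ : GQ, (∀ x ∈ L, σ x = x) → ρM σ = 1) (g : GQ) :
    ρM g + LinearMap.det (rhoE E p g) • ρM g⁻¹ =
      LinearMap.trace (ZMod p) (Ep E p) (rhoE E p g) • (1 : End (ZMod p) M') := by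
  have h2 : finrank (ZMod p) (Ep E p) = 2 := finrank_Ep hp2
  have hfd : FiniteDimensional (ZMod p) (Ep E p) := FiniteDimensional.of_finrank_pos (by omega)
  have hΔW : W.Δ ≠ 0 := model_Δ_ne_zero hW
  refine Fermat.Agent.ES.V32.QuadAll18.quad_all h2 (rhoE E p) ρM (fun _ => (⊥ : Ideal (ZMod p)))
    (fun m hm => ?_) (frobSet W p T) (fun φ hφ => ?_) (fun n g => ?_) g
  · -- separatedness for the zero ideal
    have h0 := hm 0
    rw [Submodule.bot_smul, Submodule.mem_bot] at h0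
    exact h0
  · -- the relation at the Frobenius elements
    obtain ⟨ℓ, hℓ, hℓT, hgood, hℓp, A, hA, hFr⟩ := hφ
    obtain ⟨htr, hdet⟩ := trace_det_frob hW hp2 hirr hℓ hgood hℓp hA hFr
    rw [htr, hdet]
    exact rel_of_quadratic (by rw [← map_mul, mul_inv_cancel, map_one])
      (hfrob ℓ hℓ hℓT hgood hℓp A hA φ hFr)
  · -- density: every `g` is a power of a Frobenius element on the joint level
    obtain ⟨L₁, hL₁, hρL⟩ := rhoE_finiteLevel (E := E) hp.out hp2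
    obtain ⟨L₂, hL₂, hML⟩ := hlevel
    have := hL₁
    have := hL₂
    set T' : Finset ℕ := T ∪ {p} ∪ W.Δ.natAbs.primeFactors with hT'
    obtain ⟨ℓ, A, φ, j, hℓ, hℓT, hAℓ, hφ, hj⟩ :=
      Fermat.Agent.ES.GAL.ChebQbar23.exists_frobenius_pow_eq_on (L₁ ⊔ L₂) g T'
    have hℓT1 : ℓ ∉ T := fun h => hℓT (by simp [hT', h])
    have hℓp : ℓ ≠ p := fun h => hℓT (by simp [hT', h])
    have hgood : W.IsGoodPrimeFor ℓ := by
      intro hdvd
      apply hℓT
      have : ℓ ∈ W.Δ.natAbs.primeFactors := by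
        rw [Nat.mem_primeFactors]
        exact ⟨hℓ, Int.natCast_dvd.mp hdvd, Int.natAbs_ne_zero.mpr hΔW⟩
      simp [hT', this]
    have hfix : ∀ x ∈ L₁ ⊔ L₂, (g⁻¹ * φ ^ j) x = x := by
      intro x hx
      rw [AlgEquiv.mul_apply, hj x hx]
      exact g.symm_apply_apply x
    refine ⟨φ, ⟨ℓ, hℓ, hℓT1, hgood, hℓp, A, hAℓ, hφ⟩, j, ?_, ?_⟩
    · rw [hρL _ fun x hx => hfix x (le_sup_left (a := L₁) hx)]
      exact EndCongr.refl _ _
    · rw [hML _ fun x hx => hfix x (le_sup_right (a := L₁) hx)]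
      exact EndCongr.refl _ _

/-- **`E[p] ↪ M'`**, `ZMod p`-linear, injective and equivariant. -/
theorem exists_equivariant_injection [E.IsElliptic] {W : WeierstrassCurve ℤ}
    (hW : W.IsIntegralModelOf E) (hp2 : p ≠ 2)
    (hirr : GaloisRepIsIrreducible (K := Qb) ℚ E.toAffine p)
    [Finite M'] [Nontrivial M'] (ρM : GQ →* End (ZMod p) M') (T : Finset ℕ)
    (hfrob : ∀ ℓ : ℕ, ℓ.Prime → ℓ ∉ T → W.IsGoodPrimeFor ℓ → ℓ ≠ p →
      ∀ A : ValuationSubring Qb, A.LiesOverPrime ℓ → ∀ φ : GQ, A.IsFrobeniusAt φ ℓ →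
        ρM φ * ρM φ - ((W.apOfModel ℓ : ℤ) : ZMod p) • ρM φ +
          ((ℓ : ℕ) : ZMod p) • (1 : End (ZMod p) M') = 0)
    (hlevel : ∃ L : IntermediateField ℚ Qb, FiniteDimensional ℚ L ∧
      ∀ σ : GQ, (∀ x ∈ L, σ x = x) → ρM σ = 1) :
    ∃ j : Ep E p →ₗ[ZMod p] M', Function.Injective j ∧
      ∀ (g : GQ) (v : Ep E p), j (rhoE E p g v) = ρM g (j v) := by
  classical
  have h2 : finrank (ZMod p) (Ep E p) = 2 := finrank_Ep hp2
  have hfd : FiniteDimensional (ZMod p) (Ep E p) := FiniteDimensional.of_finrank_pos (by omega)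
  haveI : Module.Finite (ZMod p) M' := Module.Finite.of_finite
  have hfaith : ∀ t : ZMod p, (∀ m : M', t • m = 0) → t = 0 := by
    intro t ht
    obtain ⟨m, hm⟩ := exists_ne (0 : M')
    exact (smul_eq_zero.mp (ht m)).resolve_right hm
  obtain ⟨n, j, hjinj, hjeq⟩ := Fermat.Agent.ES.V32.Embed18.exists_embedding (isUnit_two hp2)
    (finBasisOfFinrankEq (ZMod p) (Ep E p) h2) (rhoE E p) (span_rhoE_eq_top hW hp2 hirr) ρM
    (quad_all_of_frob hW hp2 hirr ρM T hfrob hlevel) hfaith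
  -- a coordinate which does not vanish identically
  haveI : Nontrivial (Ep E p) := hirr.1
  obtain ⟨v₀, hv₀⟩ := exists_ne (0 : Ep E p)
  have hjv₀ : j v₀ ≠ 0 := fun h => hv₀ (hjinj (h.trans (_root_.map_zero j).symm))
  obtain ⟨i, hi⟩ : ∃ i, j v₀ i ≠ 0 := by
    by_contra hcon
    push Not at hcon
    exact hjv₀ (funext hcon)
  set ji : Ep E p →ₗ[ZMod p] M' := (LinearMap.proj i).comp j with hji
  have hjiapp : ∀ v, ji v = j v i := fun v => rfl
  refine ⟨ji, ?_, fun g v => ?_⟩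
  · -- the kernel is a stable submodule
    have hstab : IsGaloisStable ℚ (LinearMap.ker ji) := by
      intro σ x hx
      rw [LinearMap.mem_ker] at hx ⊢
      rw [← rhoE_apply, hjiapp, hjeq, ← hjiapp, hx, _root_.map_zero]
    rcases hirr.2 _ hstab with h | h
    · exact LinearMap.ker_eq_bot.mp h
    · exfalso
      have : v₀ ∈ LinearMap.ker ji := by rw [h]; exact Submodule.mem_top
      rw [LinearMap.mem_ker, hjiapp] at this
      exact hi this
  · rw [hjiapp, hjeq, ← hjiapp]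

end Abstract

/-! ### The subgroup form -/

section Subgroup

variable {J : Type*} [AddCommGroup J] [DistribMulAction GQ J]

/-- the action of `G_ℚ` on a stable subgroup. -/
def actM (M : AddSubgroup J) (hstab : ∀ (σ : GQ), ∀ x ∈ M, σ • x ∈ M) (σ : GQ) : ↥M →+ ↥M where
  toFun x := ⟨σ • (x : J), hstab σ x x.2⟩
  map_zero' := Subtype.ext (by
    show σ • ((0 : ↥M) : J) = ((0 : ↥M) : J)
    rw [AddSubgroup.coe_zero, smul_zero])
  map_add' x y := Subtype.ext (by
    show σ • ((x + y : ↥M) : J) = σ • (x : J) + σ • (y : J)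
    rw [AddSubgroup.coe_add, smul_add])

theorem coe_actM (M : AddSubgroup J) (hstab : ∀ (σ : GQ), ∀ x ∈ M, σ • x ∈ M) (σ : GQ) (x : ↥M) :
    ((actM M hstab σ x : ↥M) : J) = σ • (x : J) := rfl

/-- the representation on a stable subgroup of `p`-torsion. -/
def rhoM (M : AddSubgroup J) (hstab : ∀ (σ : GQ), ∀ x ∈ M, σ • x ∈ M) [Module (ZMod p) ↥M] :
    GQ →* End (ZMod p) ↥M where
  toFun σ := (actM M hstab σ).toZModLinearMap p
  map_one' := by
    ext x
    exact one_smul GQ (x : J)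
  map_mul' σ τ := by
    ext x
    exact mul_smul σ τ (x : J)

theorem coe_rhoM (M : AddSubgroup J) (hstab : ∀ (σ : GQ), ∀ x ∈ M, σ • x ∈ M) [Module (ZMod p) ↥M]
    (σ : GQ) (x : ↥M) : ((rhoM (p := p) M hstab σ x : ↥M) : J) = σ • (x : J) := rfl

/-- auxiliary form of `exists_injection_of_subgroup`, with the `ZMod p`-module structure as an instance. -/
theorem exists_injection_of_subgroup_aux [E.IsElliptic] {W : WeierstrassCurve ℤ}
    (hW : W.IsIntegralModelOf E) (hp2 : p ≠ 2)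
    (hirr : GaloisRepIsIrreducible (K := Qb) ℚ E.toAffine p)
    (M : AddSubgroup J) [Module (ZMod p) ↥M] (hne : M ≠ ⊥) (hfin : Finite M)
    (hstab : ∀ (σ : GQ), ∀ x ∈ M, σ • x ∈ M) (T : Finset ℕ)
    (hfrob : ∀ ℓ : ℕ, ℓ.Prime → ℓ ∉ T → W.IsGoodPrimeFor ℓ → ℓ ≠ p →
      ∀ A : ValuationSubring Qb, A.LiesOverPrime ℓ → ∀ φ : GQ, A.IsFrobeniusAt φ ℓ →
        ∀ x ∈ M, φ • φ • x - W.apOfModel ℓ • (φ • x) + ℓ • x = 0)
    (hlevel : ∃ L : IntermediateField ℚ Qb, FiniteDimensional ℚ L ∧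
      ∀ σ : GQ, (∀ z ∈ L, σ z = z) → ∀ x ∈ M, σ • x = x) :
    ∃ ι : Ep E p →+ J, Function.Injective ι ∧ (∀ (σ : GQ) (v : Ep E p), ι (σ • v) = σ • ι v) ∧
      ∀ v : Ep E p, ι v ∈ M := by
  classical
  have hρM : ∀ (σ : GQ) (x : ↥M), ((rhoM (p := p) M hstab σ x : ↥M) : J) = σ • (x : J) :=
    fun _ _ => rfl
  haveI : Finite ↥M := hfin
  haveI : Nontrivial ↥M := by
    rw [AddSubgroup.nontrivial_iff_ne_bot]
    exact hne
  -- the Frobenius relations
  have hfrob' : ∀ ℓ : ℕ, ℓ.Prime → ℓ ∉ T → W.IsGoodPrimeFor ℓ → ℓ ≠ p →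
      ∀ A : ValuationSubring Qb, A.LiesOverPrime ℓ → ∀ φ : GQ, A.IsFrobeniusAt φ ℓ →
        rhoM (p := p) M hstab φ * rhoM (p := p) M hstab φ -
          ((W.apOfModel ℓ : ℤ) : ZMod p) • rhoM (p := p) M hstab φ +
          ((ℓ : ℕ) : ZMod p) • (1 : End (ZMod p) ↥M) = 0 := by
    intro ℓ hℓ hℓT hgood hℓp A hA φ hφ
    apply LinearMap.ext
    intro x
    apply Subtype.ext
    have h1 := hfrob ℓ hℓ hℓT hgood hℓp A hA φ hφ (x : J) x.2
    rw [LinearMap.add_apply, LinearMap.sub_apply, Module.End.mul_apply, LinearMap.smul_apply,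
      LinearMap.smul_apply, Module.End.one_apply, LinearMap.zero_apply, Int.cast_smul_eq_zsmul,
      Nat.cast_smul_eq_nsmul]
    rw [AddSubgroup.coe_add, AddSubgroup.coe_sub, AddSubgroup.coe_zsmul, AddSubgroup.coe_nsmul,
      hρM, hρM, AddSubgroup.coe_zero]
    exact h1
  have hlevel' : ∃ L : IntermediateField ℚ Qb, FiniteDimensional ℚ L ∧
      ∀ σ : GQ, (∀ x ∈ L, σ x = x) → rhoM (p := p) M hstab σ = 1 := by
    obtain ⟨L, hL, hLM⟩ := hlevel
    refine ⟨L, hL, fun σ hσ => ?_⟩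
    apply LinearMap.ext
    intro x
    apply Subtype.ext
    rw [hρM, Module.End.one_apply]
    exact hLM σ hσ x x.2
  obtain ⟨j, hjinj, hjeq⟩ :=
    exists_equivariant_injection hW hp2 hirr (rhoM (p := p) M hstab) T hfrob' hlevel'
  refine ⟨M.subtype.comp j.toAddMonoidHom, ?_, ?_, ?_⟩
  · exact fun v w h => hjinj (Subtype.ext h)
  · intro σ v
    show ((j (σ • v) : ↥M) : J) = σ • ((j v : ↥M) : J)
    rw [← rhoE_apply, hjeq, hρM]
  · intro v
    exact (j v).2

/-- **`E[p] ↪ M ⊂ J`** for a finite nonzero `G_ℚ`-stable subgroup of `p`-torsion satisfying the Frobenius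
relations of `E`. -/
theorem exists_injection_of_subgroup [E.IsElliptic] {W : WeierstrassCurve ℤ}
    (hW : W.IsIntegralModelOf E) (hp2 : p ≠ 2)
    (hirr : GaloisRepIsIrreducible (K := Qb) ℚ E.toAffine p)
    (M : AddSubgroup J) (htors : ∀ x ∈ M, p • x = 0) (hne : M ≠ ⊥) (hfin : Finite M)
    (hstab : ∀ (σ : GQ), ∀ x ∈ M, σ • x ∈ M) (T : Finset ℕ)
    (hfrob : ∀ ℓ : ℕ, ℓ.Prime → ℓ ∉ T → W.IsGoodPrimeFor ℓ → ℓ ≠ p →
      ∀ A : ValuationSubring Qb, A.LiesOverPrime ℓ → ∀ φ : GQ, A.IsFrobeniusAt φ ℓ →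
        ∀ x ∈ M, φ • φ • x - W.apOfModel ℓ • (φ • x) + ℓ • x = 0)
    (hlevel : ∃ L : IntermediateField ℚ Qb, FiniteDimensional ℚ L ∧
      ∀ σ : GQ, (∀ z ∈ L, σ z = z) → ∀ x ∈ M, σ • x = x) :
    ∃ ι : Ep E p →+ J, Function.Injective ι ∧ (∀ (σ : GQ) (v : Ep E p), ι (σ • v) = σ • ι v) ∧
      ∀ v : Ep E p, ι v ∈ M := by
  have hh : ∀ x : ↥M, p • x = 0 := fun x => Subtype.ext (by
    rw [AddSubgroup.coe_nsmul, AddSubgroup.coe_zero]
    exact htors x x.2)
  exact @exists_injection_of_subgroup_aux E p hp J _ _ _ W hW hp2 hirr M (AddCommGroup.zmodModule hh)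
    hne hfin hstab T hfrob hlevel

end Subgroup

end Fermat.Agent.ES.X44.EmbedE19
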