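/-
Programme X (S44, spine `X44_SPINE14.md`), chapter (W1), leaf (SC)(b), sub-leaf (G3) (helper29, SPARE
written in parallel with helper22's `EpsMatch22`): **THE SIGN ON THE SECOND COMPONENT.**

Bad level `M' p`, base `(4, 8)`, `p` odd.  `(redN tN).2 = rho2 tN` is the coordinate of the second
component used by `DiscReg15`; the good-level lift (G1) is made at the `wBar`-transport of `Q₂`, which
needs the sign of `wBar t̃`.  They agree:

* `(redN tN).2 ∈ O_{Q₂}  →  wBar t̃ ∈ O_{Q₂}`,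
* `(redN tN).2 ∉ O_{Q₂}  →  (wBar t̃)⁻¹ ∈ O_{Q₂}`.

Proof: `y := β tV ∈ chart ↥A tN`, `y⁻¹ ∈ chart ↥A tN⁻¹` (`ExTwoN4.yLeaves_four`), `rho2 y = wBar t̃`
(`FrickeBar8.rho2_beta ∘ isRedOf_tV`), and the reduction of an element integral over `A[s]` is
integral over `k[s̄]`, hence lies in every `O_Q ∋ s̄`
(main's `ChartFacts9.ord_red_nonneg_of_mem_chart`, with `G := O2`, `red := rho2`).

* `rho2_mem_of_chart` : generic step (`s ∈ O2`, `chart ↥A s ⊆ O2`, `rho2 s ∈ O_Q`, `b ∈ chart ↥A s`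
  ⇒ `rho2 b ∈ O_Q`);
* `rho2_inv` : `rho2 (x⁻¹) = (rho2 x)⁻¹`;
* **`epsMatch (hp2 : p ≠ 2)`** : helper18's literal `SmoothAsmV18.EpsMatch M' p hpM h4M A hA`, verbatim
  (body of the `def`), so that `SmoothAsmV18.smoothCoords_of_goodLift hp2 H (epsMatch … hp2)` plugs.
-/
import Mathlib
import Fermat.Agent.ES.W33.FrickeBar8
import Fermat.Agent.ES.W33.ExTwoN4
import Fermat.Agent.ES.W33.ChartLeavesN16
import Fermat.Agent.ES.W33.NodalGauss3
import Fermat.Agent.ES.W33.GeoInput23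
import Fermat.Agent.ES.RED.ChartFacts9

set_option autoImplicit false
set_option linter.unusedSectionVars false
set_option linter.style.haveILetI false
set_option synthInstance.maxHeartbeats 400000

noncomputable section

open HahnSeries ModularCurve AlgebraicCurve

namespace Fermat.Agent.ES.X44.EpsMatch29

open Fermat.Agent.RED.Interface4 Fermat.Agent.RED.BASE.Interface12
  Fermat.Agent.RED.BASE.Hauptmodul12 Fermat.Agent.RED.PUR.ChartGeneric22
  Fermat.Agent.ES.RED.Contract8 Fermat.Agent.ES.RED.ModelInst4 Fermat.Agent.X0.FF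
  Fermat.Agent.ES.V19.GaussFrac15 Fermat.Agent.ES.V19.InstNames3
  Fermat.Agent.ES.W33.NodalDefs3 Fermat.Agent.ES.W33.BetaRed15 Fermat.Agent.ES.W33.FrickeBar8
  Fermat.Agent.ES.W33.TwoChartsNInst20 Fermat.Agent.ES.W33.GeoInput23

attribute [local instance 5000] HahnSeries.powerSeriesAlgebra SubalgebraClass.toAlgebra

variable (M' : ℕ) [NeZero M'] (p : ℕ) [Fact p.Prime] (A : ValuationSubring Qbar)

/-- **generic step**: the `rho2`-reduction of an element of `chart ↥A s` lies in every valuation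
ring of `F̃` containing `rho2 s`. -/
theorem rho2_mem_of_chart {s b : ↥(Fbar (M' * p))} (hs : s ∈ O2 M' p A)
    (hle : ∀ c ∈ chart ↥A s, c ∈ O2 M' p A) (hb : b ∈ chart ↥A s)
    (Q₂ : Place (kA A) (Ft M' A)) (hQ : rho2 M' p A ⟨s, hs⟩ ∈ Q₂.toValuationSubring) :
    rho2 M' p A ⟨b, hle b hb⟩ ∈ Q₂.toValuationSubring := by
  rw [ffp_mem_iff_ord_nonneg] at hQ ⊢
  exact Fermat.Agent.ES.RED.ChartFacts9.ord_red_nonneg_of_mem_chart A (resA A) (O2 M' p A)
    (rho2 M' p A) ⟨s, hs⟩ (fun c hc => hle c (adjoin_le_chart s hc))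
    (fun a _ => Fermat.Agent.ES.W33.NodalGauss3.rho2_const M' p A a) Q₂ hQ ⟨b, hle b hb⟩ hb

/-- `rho2 (x⁻¹) = (rho2 x)⁻¹` for a unit `x` of `O2`. -/
theorem rho2_inv {x : ↥(Fbar (M' * p))} (hx0 : x ≠ 0) (hx : x ∈ O2 M' p A)
    (hxi : x⁻¹ ∈ O2 M' p A) :
    rho2 M' p A ⟨x⁻¹, hxi⟩ = (rho2 M' p A ⟨x, hx⟩)⁻¹ := by
  have h1 : (⟨x, hx⟩ : ↥(O2 M' p A)) * ⟨x⁻¹, hxi⟩ = 1 := Subtype.ext (mul_inv_cancel₀ hx0)
  have h2 : rho2 M' p A ⟨x, hx⟩ * rho2 M' p A ⟨x⁻¹, hxi⟩ = 1 := by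
    rw [← map_mul, h1, map_one]
  exact eq_inv_of_mul_eq_one_right h2

/-- **(G3)**: the sign dictated on the second component by `(redN tN).2` is the sign of `wBar t̃`
(helper18's `SmoothAsmV18.EpsMatch`, verbatim). -/
theorem epsMatch (hpM : ¬ p ∣ M') (h4M : 4 ∣ M') (hA : A.LiesOverPrime p) (hp2 : p ≠ 2) :
    haveI := neZero_four
    ∀ (htG : tN 4 8 M' p baseHyp_four h4M ∈ GN M' p A) (Q₂ : Place (kA A) (Ft M' A)),
      ((redN M' p A ⟨_, htG⟩).2 ∈ Q₂.toValuationSubring →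
        wBar M' p A hA hpM (tResV 4 8 M' p hpM baseHyp_four h4M A hA) ∈ Q₂.toValuationSubring) ∧
      ((redN M' p A ⟨_, htG⟩).2 ∉ Q₂.toValuationSubring →
        (wBar M' p A hA hpM (tResV 4 8 M' p hpM baseHyp_four h4M A hA))⁻¹ ∈
          Q₂.toValuationSubring) := by
  haveI := neZero_four
  intro htG Q₂
  have L : ChartLeaves 4 8 M' p baseHyp_four h4M A :=
    Fermat.Agent.ES.W33.ChartLeavesN16.chartLeaves_four M' p hpM baseHyp_four h4M A hA hp2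
  have Y := Fermat.Agent.ES.W33.ExTwoN4.yLeaves_four M' p hpM baseHyp_four h4M A hA hp2
  have hle0 : ∀ c ∈ chart ↥A (tN 4 8 M' p baseHyp_four h4M), c ∈ O2 M' p A :=
    fun c hc => GN_le_O2 M' p A (L.h0 c hc)
  have hle1 : ∀ c ∈ chart ↥A (tN 4 8 M' p baseHyp_four h4M)⁻¹, c ∈ O2 M' p A :=
    fun c hc => GN_le_O2 M' p A (L.h1 c hc)
  -- `rho2 (β tV) = wBar t̃`
  obtain ⟨hy2, hy⟩ := rho2_beta M' p A hA hpM (isRedOf_tV M' p A hA hpM 4 8 baseHyp_four h4M)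
  have hsnd : (redN M' p A ⟨_, htG⟩).2 =
      rho2 M' p A ⟨tN 4 8 M' p baseHyp_four h4M, GN_le_O2 M' p A htG⟩ := redN_snd M' p A _
  refine ⟨fun h => ?_, fun h => ?_⟩
  · rw [hsnd] at h
    have h1 := rho2_mem_of_chart M' p A (GN_le_O2 M' p A htG) hle0 Y.y0 Q₂ h
    rw [← hy]
    exact h1
  · rw [hsnd] at h
    have ht0 : tN 4 8 M' p baseHyp_four h4M ≠ 0 := (hxN 4 8 M' p baseHyp_four h4M).ne_zero
    have hti : (tN 4 8 M' p baseHyp_four h4M)⁻¹ ∈ O2 M' p A := hle1 _ (self_mem_chart _)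
    have hQ : rho2 M' p A ⟨(tN 4 8 M' p baseHyp_four h4M)⁻¹, hti⟩ ∈ Q₂.toValuationSubring := by
      rw [rho2_inv M' p A ht0 (GN_le_O2 M' p A htG) hti]
      exact (Q₂.toValuationSubring.mem_or_inv_mem _).resolve_left h
    have h1 := rho2_mem_of_chart M' p A hti hle1 Y.y1 Q₂ hQ
    have hy0 : heckeBetaBar Qbar M' p (tV 4 8 M' baseHyp_four h4M) ≠ 0 := by
      intro h0
      have hz : tV 4 8 M' baseHyp_four h4M = 0 :=
        (heckeBetaBar Qbar M' p).toRingHom.injective (h0.trans (map_zero _).symm)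
      exact (hxV 4 8 M' baseHyp_four h4M).ne_zero hz
    rw [rho2_inv M' p A hy0 hy2 (hle1 _ Y.y1), hy] at h1
    exact h1

end Fermat.Agent.ES.X44.EpsMatch29
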