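/-
Programme X (S44, spine `X44_SPINE14.md`), chapter (W1) "equal slopes", helper22:
**THE ABSTRACT INDUCTION (d) ON THE FIRST-ORDER TERM** (`T2_W1_ROUTE14.md` §2 (d) = `W1_KEY12.md` §1 (c)),
in the vocabulary of Programme W's `XiIfaceN29` (nodal special fibre: two function fields `Ft₁, Ft₂ / k`
glued at `s` nodes).

SETTING.  `ϖ ∈ A` a nonzero nonunit (the uniformiser `π'` of `K'`), `R ⊆ F` a subfield (the rational
structure `K'(X)`), `h ∈ R` (the function with `div h = τD − D − cD₀`), `t ≥ 1` (the break).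
`Level G R ϖ h n c g` : `h = c·(1 + ϖ^n·g)` with `0 ≠ c ∈ K`, `c ∈ R`, `g ∈ G`.

INPUTS.
* `RatHyp` : `ϖ` is a uniformiser of the two Gauss valuations ON `R` (an element of `G ∩ R` with reduction
  `0` is divisible by `ϖ` in `G`), the constant residues of elements of `G ∩ R` lift to constants of `A`
  lying in `R`, and the elements of `R` are scaled by constants lying in `R`.  (`R` may be `K'(X)` with
  `ϖ = π'`, OR the function field `K_n(X)` of a large number field `K_n ∋ π'` with `ϖ` a uniformiser of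
  `A ∩ K_n` and `t` replaced by `t·e(K_n/K')`: `h` need not be `K'`-rational.)
* `FOHyp`  : the LOCAL ANALYSIS, for every level `1 ≤ n ≤ t` and every `h = c·(1 + ϖ^n·g)`:
  `red g` is regular at the smooth points of both components, and at the node `j` the pair
  `((red g).1, (red g).2 − [n = t]·κ_j)` is glued.  (`κ_j = ā·j_z(D)`; see `FirstOrderLoc22` for the
  derivation of these three fields from local factorisations `h = u·φ`.)
* every function on `Ft_i` without poles is a constant (`L(0) = k`).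

EXIT.  `kappa_eq` : `κ_j = κ_j'` for all nodes `j, j'`; `exists_kappa_eq_sub` : there is `e`
(`= e₂ − e₁`, the difference of the two constants at level `t`) with `κ_j = e` for all `j`; `int_dvd_sub` : if `κ_j = a₀·m_j` with `a₀ ≠ 0`, `m_j ∈ ℤ` and `k` of
characteristic `p`, then `p ∣ m_j − m_j'`.
-/
import Mathlib
import Fermat.Agent.ES.W33.XiIfaceN29
import Fermat.Agent.ES.W33.GaBridge13

set_option autoImplicit false

noncomputable section

namespace Fermat.Agent.ES.X44.FirstOrder22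

open AlgebraicCurve Fermat.Agent.RR.LSpace Fermat.Agent.ES.W33.XiIfaceN29 Fermat.Agent.X0.FF
  Fermat.Agent.ES.W33.GaBridge13

variable {K F k Ft₁ Ft₂ : Type*} [Field K] [Field F] [Algebra K F] [Field k]
  [Field Ft₁] [Algebra k Ft₁] [Field Ft₂] [Algebra k Ft₂]

/-- `h = c·(1 + ϖ^n·g)` with a nonzero rational constant `c` and `g ∈ G`. -/
def Level (G : Subring F) (R : Subfield F) (ϖ : K) (h : F) (n : ℕ) (c : K) (g : ↥G) : Prop :=
  c ≠ 0 ∧ algebraMap K F c ∈ R ∧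
    h = algebraMap K F c * (1 + algebraMap K F ϖ ^ n * (g : F))

/-- the rational structure: `ϖ` is a uniformiser of both Gauss valuations on `R`, and residues lift. -/
structure RatHyp (A : ValuationSubring K) (π : ↥A →+* k) (G : Subring F)
    (red : ↥G →+* Ft₁ × Ft₂) (R : Subfield F) (ϖ : K) : Prop where
  mem : ϖ ∈ A
  nonunit : ¬ IsUnit (⟨ϖ, mem⟩ : ↥A)
  ne_zero : ϖ ≠ 0
  rat : algebraMap K F ϖ ∈ R
  /-- the constant residues of RATIONAL elements lift to rational constants -/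
  lift : ∀ g : ↥G, (g : F) ∈ R → ∀ e : k, red g = (algebraMap k Ft₁ e, algebraMap k Ft₂ e) →
    ∃ a : ↥A, π a = e ∧ algebraMap K F (a : K) ∈ R
  /-- `ϖ` is a uniformiser of both Gauss valuations on `R` -/
  unif : ∀ g : ↥G, (g : F) ∈ R → red g = 0 →
    ∃ g₁ : ↥G, (g : F) = algebraMap K F ϖ * (g₁ : F)
  /-- rational elements are scaled by rational constants -/
  rscale : ∀ f : F, f ∈ R → f ≠ 0 → ∃ c : K, c ≠ 0 ∧ algebraMap K F c ∈ R ∧
    ∃ h : (algebraMap K F c)⁻¹ * f ∈ G, red ⟨_, h⟩ ≠ 0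

/-- the local analysis at the smooth points and at the nodes, at every level `1 ≤ n ≤ t`. -/
structure FOHyp {s : ℕ} (N : Nodes k Ft₁ Ft₂ s) (G : Subring F) (red : ↥G →+* Ft₁ × Ft₂)
    (R : Subfield F) (ϖ : K) (t : ℕ) (h : F) (κ : Fin s → k) : Prop where
  reg₁ : ∀ n : ℕ, 1 ≤ n → n ≤ t → ∀ (c : K) (g : ↥G), Level G R ϖ h n c g →
    ∀ Q : Place k Ft₁, N.IsSmooth (Sum.inl Q) → 0 ≤ Q.ord (red g).1
  reg₂ : ∀ n : ℕ, 1 ≤ n → n ≤ t → ∀ (c : K) (g : ↥G), Level G R ϖ h n c g →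
    ∀ Q : Place k Ft₂, N.IsSmooth (Sum.inr Q) → 0 ≤ Q.ord (red g).2
  node : ∀ n : ℕ, 1 ≤ n → n ≤ t → ∀ (c : K) (g : ↥G), Level G R ϖ h n c g → ∀ j : Fin s,
    ∃ c₀ : k, ValAt (N.ν₁ j) (red g).1 c₀ ∧
      ValAt (N.ν₂ j) ((red g).2 - algebraMap k Ft₂ (if n = t then κ j else 0)) c₀

/-! ### Generalities -/

section Val

variable {Ft : Type*} [Field Ft] [Algebra k Ft]

/-- the value of a constant is that constant. -/
theorem eq_of_valAt_const {Q : Place k Ft} {e c : k} (h : ValAt Q (algebraMap k Ft e) c) :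
    e = c := by
  rcases h with h | h
  · exact (algebraMap k Ft).injective h
  · rw [← map_sub, ffp_ord_algebraMap] at h
    exact absurd h (lt_irrefl _)

/-- if `f − c'` has a value at `Q` then `f` is regular at `Q`. -/
theorem ord_nonneg_of_valAt_sub {Q : Place k Ft} {f : Ft} {c' c : k}
    (h : ValAt Q (f - algebraMap k Ft c') c) : 0 ≤ Q.ord f := by
  have h1 := ord_nonneg_of_valAt h
  by_cases hf : f = 0
  · rw [hf, Place.ord_zero]
  · have e : f = (f - algebraMap k Ft c') + algebraMap k Ft c' := by ring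
    rw [e]
    refine ffp_le_ord_add Q h1 ?_ (by rwa [← e])
    rw [ffp_ord_algebraMap]

end Val

section Units

variable {A : ValuationSubring K}

/-- `1 + x` is a unit of `A` for a nonunit `x`. -/
theorem isUnit_one_add {x : ↥A} (hx : ¬ IsUnit x) : IsUnit (1 + x) := by
  have h1 : -x ∈ nonunits ↥A := by
    rw [mem_nonunits_iff]
    intro h
    exact hx (by simpa using h.neg)
  have := IsLocalRing.isUnit_one_sub_self_of_mem_nonunits (-x) h1
  rwa [sub_neg_eq_add] at this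

theorem not_isUnit_pow_mul {x : ↥A} (hx : ¬ IsUnit x) {n : ℕ} (hn : 1 ≤ n) (a : ↥A) :
    ¬ IsUnit (x ^ n * a) := by
  intro h
  have h1 : IsUnit (x ^ n) := isUnit_of_mul_isUnit_left h
  exact hx ((isUnit_pow_iff (by omega)).mp h1)

end Units

/-! ### The induction -/

section Core

variable {s : ℕ} {A : ValuationSubring K} {π : ↥A →+* k} {N : Nodes k Ft₁ Ft₂ s}
  {G : Subring F} {red : ↥G →+* Ft₁ × Ft₂} {r : Place K F → SPt k Ft₁ Ft₂ ⊕ Fin s}
  {R : Subfield F} {ϖ : K} {t : ℕ} {h : F} {κ : Fin s → k}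

/-- the element `g` of a level is rational. -/
theorem Level.mem_R (hϖ : ϖ ≠ 0) (hϖR : algebraMap K F ϖ ∈ R) (hR : h ∈ R) {n : ℕ} {c : K}
    {g : ↥G} (L : Level G R ϖ h n c g) : (g : F) ∈ R := by
  obtain ⟨hc, hcR, hh⟩ := L
  have hcF : algebraMap K F c ≠ 0 := (map_ne_zero _).mpr hc
  have hϖF : algebraMap K F ϖ ^ n ≠ 0 := pow_ne_zero _ ((map_ne_zero _).mpr hϖ)
  have e : (g : F) = ((algebraMap K F c)⁻¹ * h - 1) * (algebraMap K F ϖ ^ n)⁻¹ := by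
    rw [hh]
    field_simp
    ring
  rw [e]
  exact R.mul_mem (R.sub_mem (R.mul_mem (R.inv_mem hcR) hR) R.one_mem)
    (R.inv_mem (R.pow_mem hϖR n))

/-- the reduction of the constant `ϖ^n`, `n ≥ 1`, vanishes. -/
theorem red_varpi_pow (C : RedCtxN A π N G red r) (hm : ϖ ∈ A) (hnu : ¬ IsUnit (⟨ϖ, hm⟩ : ↥A))
    {n : ℕ} (hn : 1 ≤ n) (hG : algebraMap K F ϖ ^ n ∈ G) : red ⟨_, hG⟩ = 0 := by
  have h1 : (⟨algebraMap K F ϖ ^ n, hG⟩ : ↥G) =
      ⟨algebraMap K F (((⟨ϖ, hm⟩ : ↥A) ^ n : ↥A) : K), C.const_mem _⟩ := by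
    apply Subtype.ext
    simp
  rw [h1, C.red_const, C.pi_nonunit _ (fun hu => hnu ((isUnit_pow_iff (by omega)).mp hu))]
  simp

/-- the level `n` case of the local analysis: the reduction of `g` is a pair of constants, equal
for `n < t`, with difference `κ_j` (for every node `j`) for `n = t`. -/
theorem red_eq_const (L : FOHyp N G red R ϖ t h κ)
    (hc₁ : ∀ f : Ft₁, (∀ Q : Place k Ft₁, 0 ≤ Q.ord f) → ∃ c : k, f = algebraMap k Ft₁ c)
    (hc₂ : ∀ f : Ft₂, (∀ Q : Place k Ft₂, 0 ≤ Q.ord f) → ∃ c : k, f = algebraMap k Ft₂ c)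
    {n : ℕ} (hn1 : 1 ≤ n) (hnt : n ≤ t) {c : K} {g : ↥G} (Lv : Level G R ϖ h n c g) :
    ∃ e₁ e₂ : k, red g = (algebraMap k Ft₁ e₁, algebraMap k Ft₂ e₂) ∧
      ∀ j : Fin s, e₂ - e₁ = if n = t then κ j else 0 := by
  have hnode := L.node n hn1 hnt c g Lv
  obtain ⟨e₁, he₁⟩ := hc₁ (red g).1 (fun Q => by
    by_cases hQ : N.IsSmooth (Sum.inl Q)
    · exact L.reg₁ n hn1 hnt c g Lv Q hQ
    · obtain ⟨j, rfl⟩ := exists_eq_ν₁_of_not_smooth hQ
      obtain ⟨c₀, h1, -⟩ := hnode j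
      exact ord_nonneg_of_valAt h1)
  obtain ⟨e₂, he₂⟩ := hc₂ (red g).2 (fun Q => by
    by_cases hQ : N.IsSmooth (Sum.inr Q)
    · exact L.reg₂ n hn1 hnt c g Lv Q hQ
    · obtain ⟨j, rfl⟩ := exists_eq_ν₂_of_not_smooth hQ
      obtain ⟨c₀, -, h2⟩ := hnode j
      exact ord_nonneg_of_valAt_sub h2)
  refine ⟨e₁, e₂, Prod.ext he₁ he₂, fun j => ?_⟩
  obtain ⟨c₀, h1, h2⟩ := hnode j
  rw [he₁] at h1
  rw [he₂, ← map_sub] at h2
  have := eq_of_valAt_const h1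
  have := eq_of_valAt_const h2
  rw [← ‹e₁ = c₀›] at this
  rw [← this]
  ring

/-- the inductive step: from level `n < t` to level `n + 1`. -/
theorem level_succ (C : RedCtxN A π N G red r) (H : RatHyp A π G red R ϖ)
    (L : FOHyp N G red R ϖ t h κ)
    (hc₁ : ∀ f : Ft₁, (∀ Q : Place k Ft₁, 0 ≤ Q.ord f) → ∃ c : k, f = algebraMap k Ft₁ c)
    (hc₂ : ∀ f : Ft₂, (∀ Q : Place k Ft₂, 0 ≤ Q.ord f) → ∃ c : k, f = algebraMap k Ft₂ c)
    (hR : h ∈ R) (j : Fin s) {n : ℕ} (hn1 : 1 ≤ n) (hnt : n < t) {c : K} {g : ↥G}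
    (Lv : Level G R ϖ h n c g) : ∃ (c' : K) (g' : ↥G), Level G R ϖ h (n + 1) c' g' := by
  obtain ⟨e₁, e₂, hred, hκ⟩ := red_eq_const L hc₁ hc₂ hn1 hnt.le Lv
  have he : e₂ = e₁ := by
    have := hκ j
    rw [if_neg (by omega)] at this
    exact sub_eq_zero.mp this
  subst he
  have hgR := Lv.mem_R H.ne_zero H.rat hR
  obtain ⟨a, ha, haR⟩ := H.lift g hgR e₂ hred
  obtain ⟨hc, hcR, hh⟩ := Lv
  -- the unit `1 + ϖ^n a`
  set ϖA : ↥A := ⟨ϖ, H.mem⟩ with hϖA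
  have hu : IsUnit (1 + ϖA ^ n * a) := isUnit_one_add (not_isUnit_pow_mul H.nonunit hn1 a)
  obtain ⟨u, hu⟩ := hu
  have huK : ((u : ↥A) : K) = 1 + ϖ ^ n * (a : K) := by rw [hu]; simp [hϖA]
  have huK0 : ((u : ↥A) : K) ≠ 0 := by
    intro h0
    have : ((u : ↥A)) = 0 := Subtype.ext h0
    exact u.ne_zero this
  have hπu : π (u : ↥A) = 1 := by
    rw [hu, map_add, map_one, map_mul, map_pow,
      C.pi_nonunit ϖA H.nonunit, zero_pow (by omega), zero_mul, add_zero]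
  have huinv : (((u⁻¹ : (↥A)ˣ) : ↥A) : K) = (((u : ↥A) : K))⁻¹ := by
    have h1 : (((u⁻¹ : (↥A)ˣ) : ↥A) : K) * ((u : ↥A) : K) = 1 := by
      rw [← MulMemClass.coe_mul, Units.inv_mul]; rfl
    exact eq_inv_of_mul_eq_one_left h1
  have hπuinv : π ((u⁻¹ : (↥A)ˣ) : ↥A) = 1 := by
    have h1 : π ((u⁻¹ : (↥A)ˣ) : ↥A) * π (u : ↥A) = 1 := by
      rw [← map_mul, Units.inv_mul, map_one]
    rwa [hπu, mul_one] at h1
  -- the new element of `G`
  set aG : ↥G := ⟨algebraMap K F (a : K), C.const_mem a⟩ with haG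
  set vG : ↥G := ⟨algebraMap K F (((u⁻¹ : (↥A)ˣ) : ↥A) : K), C.const_mem _⟩ with hvG
  set g₀ : ↥G := (g - aG) * vG with hg₀
  have hg₀red : red g₀ = 0 := by
    rw [hg₀, map_mul, map_sub, hred, haG, C.red_const, ha, hvG, C.red_const, hπuinv]
    simp
  have huF : algebraMap K F ((u : ↥A) : K) ∈ R := by
    rw [huK, map_add, map_one, map_mul, map_pow]
    exact R.add_mem R.one_mem (R.mul_mem (R.pow_mem H.rat n) haR)
  have hg₀R : (g₀ : F) ∈ R := by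
    show ((g : F) - algebraMap K F (a : K)) * algebraMap K F (((u⁻¹ : (↥A)ˣ) : ↥A) : K) ∈ R
    rw [huinv, map_inv₀]
    exact R.mul_mem (R.sub_mem hgR haR) (R.inv_mem huF)
  obtain ⟨g₁, hg₁⟩ := H.unif g₀ hg₀R hg₀red
  refine ⟨c * ((u : ↥A) : K), g₁, mul_ne_zero hc huK0, ?_, ?_⟩
  · rw [map_mul]
    exact R.mul_mem hcR huF
  · have huF0 : algebraMap K F ((u : ↥A) : K) ≠ 0 := (map_ne_zero _).mpr huK0
    have e1 : (g₀ : F) = ((g : F) - algebraMap K F (a : K)) * (algebraMap K F ((u : ↥A) : K))⁻¹ := by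
      show ((g : F) - algebraMap K F (a : K)) * algebraMap K F (((u⁻¹ : (↥A)ˣ) : ↥A) : K) = _
      rw [huinv, map_inv₀]
    have e2 : algebraMap K F ((u : ↥A) : K) = 1 + algebraMap K F ϖ ^ n * algebraMap K F (a : K) := by
      rw [huK, map_add, map_one, map_mul, map_pow]
    rw [hh, map_mul, pow_succ, mul_assoc (algebraMap K F ϖ ^ n), ← hg₁, e1]
    field_simp
    rw [e2]
    ring

/-- every level `1 ≤ n ≤ t` is reached. -/
theorem exists_level (C : RedCtxN A π N G red r) (H : RatHyp A π G red R ϖ)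
    (L : FOHyp N G red R ϖ t h κ)
    (hc₁ : ∀ f : Ft₁, (∀ Q : Place k Ft₁, 0 ≤ Q.ord f) → ∃ c : k, f = algebraMap k Ft₁ c)
    (hc₂ : ∀ f : Ft₂, (∀ Q : Place k Ft₂, 0 ≤ Q.ord f) → ∃ c : k, f = algebraMap k Ft₂ c)
    (hR : h ∈ R) (j : Fin s) {c₀ : K} (hc₀ : c₀ ≠ 0) (hc₀R : algebraMap K F c₀ ∈ R)
    (hG : (algebraMap K F c₀)⁻¹ * h ∈ G) (hred : red ⟨_, hG⟩ = 1) :
    ∀ n : ℕ, 1 ≤ n → n ≤ t → ∃ (c : K) (g : ↥G), Level G R ϖ h n c g := by
  intro n hn1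
  induction n, hn1 using Nat.le_induction with
  | base =>
    intro _
    set g₀ : ↥G := ⟨_, hG⟩ - 1 with hg₀
    have h0 : red g₀ = 0 := by rw [hg₀, map_sub, hred, map_one, sub_self]
    have hR0 : (g₀ : F) ∈ R := by
      show (algebraMap K F c₀)⁻¹ * h - 1 ∈ R
      exact R.sub_mem (R.mul_mem (R.inv_mem hc₀R) hR) R.one_mem
    obtain ⟨g₁, hg₁⟩ := H.unif g₀ hR0 h0
    refine ⟨c₀, g₁, hc₀, hc₀R, ?_⟩
    have hcF : algebraMap K F c₀ ≠ 0 := (map_ne_zero _).mpr hc₀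
    have e : (g₀ : F) = (algebraMap K F c₀)⁻¹ * h - 1 := rfl
    rw [pow_one, ← hg₁, e]
    field_simp
    ring
  | succ n hn1 ih =>
    intro hnt
    obtain ⟨c, g, Lv⟩ := ih (by omega)
    exact level_succ C H L hc₁ hc₂ hR j hn1 (by omega) Lv

/-- **(W1)(d): `κ_j = e₂ − e₁` for every node `j`.** -/
theorem exists_kappa_eq_sub (C : RedCtxN A π N G red r) (H : RatHyp A π G red R ϖ)
    (L : FOHyp N G red R ϖ t h κ)
    (hc₁ : ∀ f : Ft₁, (∀ Q : Place k Ft₁, 0 ≤ Q.ord f) → ∃ c : k, f = algebraMap k Ft₁ c)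
    (hc₂ : ∀ f : Ft₂, (∀ Q : Place k Ft₂, 0 ≤ Q.ord f) → ∃ c : k, f = algebraMap k Ft₂ c)
    (ht : 1 ≤ t) (hR : h ∈ R) {c₀ : K} (hc₀ : c₀ ≠ 0) (hc₀R : algebraMap K F c₀ ∈ R)
    (hG : (algebraMap K F c₀)⁻¹ * h ∈ G) (hred : red ⟨_, hG⟩ = 1) :
    ∃ e : k, ∀ j : Fin s, κ j = e := by
  by_cases hs : Nonempty (Fin s)
  · obtain ⟨j₀⟩ := hs
    obtain ⟨c, g, Lv⟩ := exists_level C H L hc₁ hc₂ hR j₀ hc₀ hc₀R hG hred t ht le_rfl
    obtain ⟨e₁, e₂, -, hκ⟩ := red_eq_const L hc₁ hc₂ ht le_rfl Lv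
    refine ⟨e₂ - e₁, fun j => ?_⟩
    have := hκ j
    rw [if_pos rfl] at this
    exact this.symm
  · exact ⟨0, fun j => absurd ⟨j⟩ hs⟩

/-- **(W1)(d): the first-order terms at all nodes agree.** -/
theorem kappa_eq (C : RedCtxN A π N G red r) (H : RatHyp A π G red R ϖ)
    (L : FOHyp N G red R ϖ t h κ)
    (hc₁ : ∀ f : Ft₁, (∀ Q : Place k Ft₁, 0 ≤ Q.ord f) → ∃ c : k, f = algebraMap k Ft₁ c)
    (hc₂ : ∀ f : Ft₂, (∀ Q : Place k Ft₂, 0 ≤ Q.ord f) → ∃ c : k, f = algebraMap k Ft₂ c)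
    (ht : 1 ≤ t) (hR : h ∈ R) {c₀ : K} (hc₀ : c₀ ≠ 0) (hc₀R : algebraMap K F c₀ ∈ R)
    (hG : (algebraMap K F c₀)⁻¹ * h ∈ G) (hred : red ⟨_, hG⟩ = 1) (j j' : Fin s) :
    κ j = κ j' := by
  obtain ⟨e, he⟩ := exists_kappa_eq_sub C H L hc₁ hc₂ ht hR hc₀ hc₀R hG hred
  rw [he j, he j']

/-- the arithmetic exit: `κ_j = a₀·m_j`, `a₀ ≠ 0`, `char k = p` ⇒ `p ∣ m_j − m_j'`. -/
theorem int_dvd_sub (p : ℕ) [CharP k p] {a₀ : k} (ha₀ : a₀ ≠ 0) {κ : Fin s → k} {m : Fin s → ℤ}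
    (hκ : ∀ j, κ j = a₀ * (m j : k)) {j j' : Fin s} (h : κ j = κ j') :
    (p : ℤ) ∣ m j - m j' := by
  rw [hκ j, hκ j'] at h
  have h1 : ((m j - m j' : ℤ) : k) = 0 := by
    rw [Int.cast_sub]
    exact sub_eq_zero.mpr (mul_left_cancel₀ ha₀ h)
  exact (CharP.intCast_eq_zero_iff k p _).mp h1

end Core

end Fermat.Agent.ES.X44.FirstOrder22
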