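/-
Programme X (S44, spine `X44_SPINE14.md`), chapter (W1) "equal slopes", helper22:
**THE LOCAL ANALYSIS `FirstOrder22.FOHyp` FROM LOCAL FACTORISATIONS `h = u·φ`**
(`T2_W1_ROUTE14.md` §2 (c),(d) = `W1_KEY12.md` §1 (b),(c)), in the `RedCtxN` vocabulary.

`LocFactor` (the exit of the local-factor leaves):
* at every smooth point `Q` of either component: `h = u·(1 + ϖ^(t+1)·ψ)`, `ψ ∈ G`, and `u` has no zero
  and no pole through `Q`;
* at every node `j`: `h = u·(1 + ϖ^t·ψ)`, `ψ ∈ G`, `red ψ = (0, κ_j)`, and `u` has no zero and no pole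
  through `j`.
(`φ = τΞ/Ξ`: `φ ≡ 1 mod ϖ^(t+1)` for the first Gauss valuation and `φ ≡ 1 + κ_j ϖ^t` for the second.)

`foHyp_of_locFactor` : `LocFactor` ⇒ `FOHyp`, using only `RedCtxN.glue`, `RedCtxN.r1₁/r1₂` and the
closure of `G` under inverses of elements with reduction `1` (`UnitClosed`; true for `G = O₁ ⊓ O₂`).
`kappa_eq_of_locFactor` : the conclusion of `FirstOrder22.kappa_eq` from `LocFactor`.
-/
import Mathlib
import Fermat.Agent.ES.X44.FirstOrder22

set_option autoImplicit false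

noncomputable section

namespace Fermat.Agent.ES.X44.FirstOrderLoc22

open AlgebraicCurve Fermat.Agent.RR.LSpace Fermat.Agent.ES.W33.XiIfaceN29 Fermat.Agent.X0.FF
  Fermat.Agent.ES.W33.GaBridge13 Fermat.Agent.ES.X44.FirstOrder22

variable {K F k Ft₁ Ft₂ : Type*} [Field K] [Field F] [Algebra K F] [Field k]
  [Field Ft₁] [Algebra k Ft₁] [Field Ft₂] [Algebra k Ft₂]

/-- `G` contains the inverses of its elements with reduction `1`. -/
def UnitClosed (G : Subring F) (red : ↥G →+* Ft₁ × Ft₂) : Prop :=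
  ∀ g : ↥G, red g = 1 → ((g : F))⁻¹ ∈ G

/-- the local factorisations of `h`. -/
structure LocFactor {s : ℕ} (N : Nodes k Ft₁ Ft₂ s) (G : Subring F) (red : ↥G →+* Ft₁ × Ft₂)
    (r : Place K F → SPt k Ft₁ Ft₂ ⊕ Fin s) (ϖ : K) (t : ℕ) (h : F) (κ : Fin s → k) : Prop where
  smooth : ∀ Q : SPt k Ft₁ Ft₂, N.IsSmooth Q → ∃ (u : F) (ψ : ↥G),
    h = u * (1 + algebraMap K F ϖ ^ (t + 1) * (ψ : F)) ∧
      ∀ P : Place K F, r P = Sum.inl Q → P.ord u = 0
  node : ∀ j : Fin s, ∃ (u : F) (ψ : ↥G),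
    h = u * (1 + algebraMap K F ϖ ^ t * (ψ : F)) ∧
      red ψ = (0, algebraMap k Ft₂ (κ j)) ∧
      ∀ P : Place K F, r P = Sum.inr j → P.ord u = 0

section Core

variable {s : ℕ} {A : ValuationSubring K} {π : ↥A →+* k} {N : Nodes k Ft₁ Ft₂ s}
  {G : Subring F} {red : ↥G →+* Ft₁ × Ft₂} {r : Place K F → SPt k Ft₁ Ft₂ ⊕ Fin s}
  {R : Subfield F} {ϖ : K} {t : ℕ} {h : F} {κ : Fin s → k}

/-- the constant `ϖ^n` as an element of `G`. -/
def varpiPow (C : RedCtxN A π N G red r) (hm : ϖ ∈ A) (n : ℕ) : ↥G :=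
  ⟨algebraMap K F ϖ ^ n, by
    have := C.const_mem ((⟨ϖ, hm⟩ : ↥A) ^ n)
    simpa using this⟩

theorem coe_varpiPow (C : RedCtxN A π N G red r) (hm : ϖ ∈ A) (n : ℕ) :
    ((varpiPow C hm n : ↥G) : F) = algebraMap K F ϖ ^ n := rfl

theorem red_varpiPow (C : RedCtxN A π N G red r) (hm : ϖ ∈ A)
    (hnu : ¬ IsUnit (⟨ϖ, hm⟩ : ↥A)) {n : ℕ} (hn : 1 ≤ n) : red (varpiPow C hm n) = 0 :=
  red_varpi_pow C hm hnu hn _

theorem red_varpiPow_zero (C : RedCtxN A π N G red r) (hm : ϖ ∈ A) :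
    red (varpiPow C hm 0) = 1 := by
  have : varpiPow C hm 0 = 1 := Subtype.ext (by rw [coe_varpiPow, pow_zero]; rfl)
  rw [this, map_one]

/-- **transfer of a level along a factorisation** `h = u·(1 + ϖ^m ψ)`, `n ≤ m`: then
`u = c·(1 + ϖ^n g')` with `red g' = red g − [n = m]·red ψ`. -/
theorem exists_level_of_factor (C : RedCtxN A π N G red r) (hU : UnitClosed G red) (hm : ϖ ∈ A)
    (hnu : ¬ IsUnit (⟨ϖ, hm⟩ : ↥A)) {n m : ℕ} (hm1 : 1 ≤ m) (hnm : n ≤ m) {c : K} {g : ↥G}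
    (Lv : Level G R ϖ h n c g) (ψ : ↥G) (u : F)
    (hfac : h = u * (1 + algebraMap K F ϖ ^ m * (ψ : F))) :
    ∃ g' : ↥G, u = algebraMap K F c * (1 + algebraMap K F ϖ ^ n * (g' : F)) ∧
      red g' = red g - (if n = m then red ψ else 0) := by
  obtain ⟨hc, -, hh⟩ := Lv
  set d : ↥G := 1 + varpiPow C hm m * ψ with hd
  have hdred : red d = 1 := by
    rw [hd, map_add, map_one, map_mul, red_varpiPow C hm hnu hm1, zero_mul, add_zero]
  have hd0 : (d : F) ≠ 0 := by
    intro h0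
    have : d = 0 := Subtype.ext h0
    rw [this, map_zero] at hdred
    exact zero_ne_one hdred
  have hdF : (d : F) = 1 + algebraMap K F ϖ ^ m * (ψ : F) := rfl
  set dinv : ↥G := ⟨((d : F))⁻¹, hU d hdred⟩ with hdinv
  have hdd : d * dinv = 1 := Subtype.ext (by
    show (d : F) * ((d : F))⁻¹ = 1
    exact mul_inv_cancel₀ hd0)
  have hdinvred : red dinv = 1 := by
    have := congrArg red hdd
    rwa [map_mul, hdred, one_mul, map_one] at this
  refine ⟨(g - varpiPow C hm (m - n) * ψ) * dinv, ?_, ?_⟩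
  · have hcF : algebraMap K F c ≠ 0 := (map_ne_zero _).mpr hc
    have hu : u = h * ((d : F))⁻¹ := by
      rw [hfac, ← hdF, mul_assoc, mul_inv_cancel₀ hd0, mul_one]
    have hpow : algebraMap K F ϖ ^ m = algebraMap K F ϖ ^ n * algebraMap K F ϖ ^ (m - n) := by
      rw [← pow_add]
      congr 1
      omega
    show u = algebraMap K F c * (1 + algebraMap K F ϖ ^ n *
      (((g : F) - algebraMap K F ϖ ^ (m - n) * (ψ : F)) * ((d : F))⁻¹))
    rw [hu, hh]
    have e : (1 : F) + algebraMap K F ϖ ^ n * (g : F) =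
        (d : F) + algebraMap K F ϖ ^ n * ((g : F) - algebraMap K F ϖ ^ (m - n) * (ψ : F)) := by
      rw [hdF, hpow]
      ring
    rw [e]
    field_simp
  · rw [map_mul, hdinvred, mul_one, map_sub, map_mul]
    by_cases hnm' : n = m
    · subst hnm'
      rw [if_pos rfl, Nat.sub_self, red_varpiPow_zero, one_mul]
    · rw [if_neg hnm', red_varpiPow C hm hnu (by omega), zero_mul]

/-- an element `g'` with `u = c·(1 + ϖ^n g')` has no pole where `u` has none. -/
theorem ord_nonneg_of_eq (hϖ : ϖ ≠ 0) {c : K} (hc : c ≠ 0) {n : ℕ} {u g' : F}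
    (hu : u = algebraMap K F c * (1 + algebraMap K F ϖ ^ n * g')) (P : Place K F)
    (hP : 0 ≤ P.ord u) : 0 ≤ P.ord g' := by
  have hcF : algebraMap K F c ≠ 0 := (map_ne_zero _).mpr hc
  have hϖF : algebraMap K F ϖ ^ n ≠ 0 := pow_ne_zero _ ((map_ne_zero _).mpr hϖ)
  have e : g' = (algebraMap K F c⁻¹ * u - 1) * algebraMap K F ((ϖ ^ n)⁻¹) := by
    rw [hu, map_inv₀, map_inv₀, map_pow]
    field_simp
    ring
  rw [e]
  apply ffp_ord_nonneg_of_mem
  exact Subring.mul_mem _ (Subring.sub_mem _ (Subring.mul_mem _ (P.algebraMap_mem' _)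
    (ffp_mem_of_ord_nonneg P hP)) (Subring.one_mem _)) (P.algebraMap_mem' _)

/-- the push-forward of the divisor of `g'` is nonnegative where `g'` has no poles. -/
theorem mapDomain_nonneg_of_ord (D : Divisor K F) {f : F} (hD : ∀ P, D P = P.ord f)
    (w : SPt k Ft₁ Ft₂ ⊕ Fin s) (hw : ∀ P : Place K F, r P = w → 0 ≤ P.ord f) :
    0 ≤ Finsupp.mapDomain r D w := by
  classical
  rw [mapDomain_apply_eq_sum]
  refine Finset.sum_nonneg fun P hP => ?_
  rw [hD]
  exact hw P (Finset.mem_filter.mp hP).2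

/-- **`LocFactor` ⇒ `FOHyp`.** -/
theorem foHyp_of_locFactor (C : RedCtxN A π N G red r) (HL : LHyp K F) (hU : UnitClosed G red)
    (hm : ϖ ∈ A) (hnu : ¬ IsUnit (⟨ϖ, hm⟩ : ↥A)) (hϖ : ϖ ≠ 0) (ht : 1 ≤ t)
    (LF : LocFactor N G red r ϖ t h κ) : FOHyp N G red R ϖ t h κ := by
  refine ⟨?_, ?_, ?_⟩
  · intro n _ hnt c g Lv Q hQ
    obtain ⟨u, ψ, hfac, hu⟩ := LF.smooth (Sum.inl Q) hQ
    obtain ⟨g', hg', hred⟩ := exists_level_of_factor C hU hm hnu (Nat.succ_pos t)
      (by omega : n ≤ t + 1) Lv ψ u hfac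
    rw [if_neg (by omega), sub_zero] at hred
    by_cases h1 : (red g).1 = 0
    · rw [h1, Place.ord_zero]
    have h1' : (red g').1 ≠ 0 := by rwa [hred]
    have hg'0 : (g' : F) ≠ 0 := by
      intro h0
      have : g' = 0 := Subtype.ext h0
      rw [this, map_zero] at h1'
      exact h1' rfl
    have := C.r1₁ g' h1' (divOf HL hg'0) (fun P => divOf_apply HL hg'0 P) Q hQ
    rw [← hred, ← this]
    exact mapDomain_nonneg_of_ord _ (fun P => divOf_apply HL hg'0 P) _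
      fun P hP => ord_nonneg_of_eq hϖ Lv.1 hg' P (hu P hP).ge
  · intro n _ hnt c g Lv Q hQ
    obtain ⟨u, ψ, hfac, hu⟩ := LF.smooth (Sum.inr Q) hQ
    obtain ⟨g', hg', hred⟩ := exists_level_of_factor C hU hm hnu (Nat.succ_pos t)
      (by omega : n ≤ t + 1) Lv ψ u hfac
    rw [if_neg (by omega), sub_zero] at hred
    by_cases h2 : (red g).2 = 0
    · rw [h2, Place.ord_zero]
    have h2' : (red g').2 ≠ 0 := by rwa [hred]
    have hg'0 : (g' : F) ≠ 0 := by
      intro h0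
      have : g' = 0 := Subtype.ext h0
      rw [this, map_zero] at h2'
      exact h2' rfl
    have := C.r1₂ g' h2' (divOf HL hg'0) (fun P => divOf_apply HL hg'0 P) Q hQ
    rw [← hred, ← this]
    exact mapDomain_nonneg_of_ord _ (fun P => divOf_apply HL hg'0 P) _
      fun P hP => ord_nonneg_of_eq hϖ Lv.1 hg' P (hu P hP).ge
  · intro n _ hnt c g Lv j
    obtain ⟨u, ψ, hfac, hψ, hu⟩ := LF.node j
    obtain ⟨g', hg', hred⟩ := exists_level_of_factor C hU hm hnu ht hnt Lv ψ u hfac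
    obtain ⟨c₀, hv1, hv2⟩ := C.glue g' j
      fun P hP => ord_nonneg_of_eq hϖ Lv.1 hg' P (hu P hP).ge
    refine ⟨c₀, ?_, ?_⟩
    · have e : (red g').1 = (red g).1 := by
        rw [hred]
        by_cases hn : n = t
        · rw [if_pos hn, hψ]; simp
        · rw [if_neg hn]; simp
      rwa [e] at hv1
    · have e : (red g').2 = (red g).2 - algebraMap k Ft₂ (if n = t then κ j else 0) := by
        rw [hred]
        by_cases hn : n = t
        · rw [if_pos hn, if_pos hn, hψ]; simp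
        · rw [if_neg hn, if_neg hn]; simp
      rwa [e] at hv2

/-! ### The base case: `h` is a constant times an element with reduction `1` -/

/-- division by `1 + ϖ^m ψ` inside `G` does not change the reduction. -/
theorem exists_div_factor (C : RedCtxN A π N G red r) (hU : UnitClosed G red) (hm : ϖ ∈ A)
    (hnu : ¬ IsUnit (⟨ϖ, hm⟩ : ↥A)) {m : ℕ} (hm1 : 1 ≤ m) (g ψ : ↥G) (u c' : F)
    (hg : (g : F) = c' * (u * (1 + algebraMap K F ϖ ^ m * (ψ : F)))) :
    ∃ g' : ↥G, (g' : F) = c' * u ∧ red g' = red g := by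
  set d : ↥G := 1 + varpiPow C hm m * ψ with hd
  have hdred : red d = 1 := by
    rw [hd, map_add, map_one, map_mul, red_varpiPow C hm hnu hm1, zero_mul, add_zero]
  have hd0 : (d : F) ≠ 0 := by
    intro h0
    have : d = 0 := Subtype.ext h0
    rw [this, map_zero] at hdred
    exact zero_ne_one hdred
  have hdF : (d : F) = 1 + algebraMap K F ϖ ^ m * (ψ : F) := rfl
  set dinv : ↥G := ⟨((d : F))⁻¹, hU d hdred⟩ with hdinv
  have hdd : d * dinv = 1 := Subtype.ext (by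
    show (d : F) * ((d : F))⁻¹ = 1
    exact mul_inv_cancel₀ hd0)
  have hdinvred : red dinv = 1 := by
    have := congrArg red hdd
    rwa [map_mul, hdred, one_mul, map_one] at this
  refine ⟨g * dinv, ?_, by rw [map_mul, hdinvred, mul_one]⟩
  show (g : F) * ((d : F))⁻¹ = c' * u
  rw [hg, ← hdF, mul_assoc, mul_assoc, mul_inv_cancel₀ hd0, mul_one]

theorem ord_const_mul_eq (P : Place K F) {a : K} (ha : a ≠ 0) {f : F} (hf : f ≠ 0) :
    P.ord (algebraMap K F a * f) = P.ord f := by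
  rw [P.ord_mul ((map_ne_zero _).mpr ha) hf, ffp_ord_algebraMap, zero_add]

/-- the push-forward of the divisor of a function without zeros and poles over `w` vanishes at `w`. -/
theorem mapDomain_eq_zero_of_ord (D : Divisor K F) {f : F} (hD : ∀ P, D P = P.ord f)
    (w : SPt k Ft₁ Ft₂ ⊕ Fin s) (hw : ∀ P : Place K F, r P = w → P.ord f = 0) :
    Finsupp.mapDomain r D w = 0 := by
  classical
  rw [mapDomain_apply_eq_sum]
  refine Finset.sum_eq_zero fun P hP => ?_
  rw [hD]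
  exact hw P (Finset.mem_filter.mp hP).2

theorem valAt_zero_left {Ft : Type*} [Field Ft] [Algebra k Ft] {Q : Place k Ft} {c : k}
    (h : ValAt Q (0 : Ft) c) : c = 0 := by
  have h' : ValAt Q (algebraMap k Ft 0) c := by rwa [map_zero]
  exact (eq_of_valAt_const h').symm

/-- a function with the value `0` at `Q` which is a nonzero constant: impossible. -/
theorem not_valAt_zero_const {Ft : Type*} [Field Ft] [Algebra k Ft] {Q : Place k Ft} {e : k}
    (he : e ≠ 0) : ¬ ValAt Q (algebraMap k Ft e) 0 := fun h => he (eq_of_valAt_const h)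

set_option maxHeartbeats 1600000 in
/-- **the base case**: `h = c₀·g₀` with a rational constant `c₀` and `red g₀ = 1`. -/
theorem exists_red_eq_one (C : RedCtxN A π N G red r) (HL : LHyp K F) (hU : UnitClosed G red)
    (H : RatHyp A π G red R ϖ) (LF : LocFactor N G red r ϖ t h κ)
    (hc₁ : ∀ f : Ft₁, (∀ Q : Place k Ft₁, 0 ≤ Q.ord f) → ∃ c : k, f = algebraMap k Ft₁ c)
    (hc₂ : ∀ f : Ft₂, (∀ Q : Place k Ft₂, 0 ≤ Q.ord f) → ∃ c : k, f = algebraMap k Ft₂ c)
    (ht : 1 ≤ t) (hR : h ∈ R) (h0 : h ≠ 0) (j₀ : Fin s) :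
    ∃ c₀ : K, c₀ ≠ 0 ∧ algebraMap K F c₀ ∈ R ∧
      ∃ hG : (algebraMap K F c₀)⁻¹ * h ∈ G, red ⟨_, hG⟩ = 1 := by
  obtain ⟨c, hc, hcR, hG, hred⟩ := H.rscale h hR h0
  set g : ↥G := ⟨_, hG⟩ with hg
  have hgF : (g : F) = (algebraMap K F c)⁻¹ * h := rfl
  have hcinv : (algebraMap K F c)⁻¹ = algebraMap K F c⁻¹ := (map_inv₀ _ _).symm
  -- (A) at the smooth points the nonzero components have order `0`
  have hA1 : ∀ Q : Place k Ft₁, N.IsSmooth (Sum.inl Q) → (red g).1 ≠ 0 → Q.ord (red g).1 = 0 := by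
    intro Q hQ h1
    obtain ⟨u, ψ, hfac, hu⟩ := LF.smooth (Sum.inl Q) hQ
    have hu0 : u ≠ 0 := by
      rintro rfl
      rw [zero_mul] at hfac
      exact h0 hfac
    obtain ⟨g', hg', hred'⟩ := exists_div_factor C hU H.mem H.nonunit (Nat.succ_pos t) g ψ u
      (algebraMap K F c)⁻¹ (by rw [hgF, hfac])
    have h1' : (red g').1 ≠ 0 := by rwa [hred']
    have hg'0 : (g' : F) ≠ 0 := by
      intro h0'
      have : g' = 0 := Subtype.ext h0'
      rw [this, map_zero] at h1'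
      exact h1' rfl
    have := C.r1₁ g' h1' (divOf HL hg'0) (fun P => divOf_apply HL hg'0 P) Q hQ
    rw [← hred', ← this]
    refine mapDomain_eq_zero_of_ord _ (fun P => divOf_apply HL hg'0 P) _ fun P hP => ?_
    rw [hg', hcinv, ord_const_mul_eq P (inv_ne_zero hc) hu0]
    exact hu P hP
  have hA2 : ∀ Q : Place k Ft₂, N.IsSmooth (Sum.inr Q) → (red g).2 ≠ 0 → Q.ord (red g).2 = 0 := by
    intro Q hQ h2
    obtain ⟨u, ψ, hfac, hu⟩ := LF.smooth (Sum.inr Q) hQ
    have hu0 : u ≠ 0 := by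
      rintro rfl
      rw [zero_mul] at hfac
      exact h0 hfac
    obtain ⟨g', hg', hred'⟩ := exists_div_factor C hU H.mem H.nonunit (Nat.succ_pos t) g ψ u
      (algebraMap K F c)⁻¹ (by rw [hgF, hfac])
    have h2' : (red g').2 ≠ 0 := by rwa [hred']
    have hg'0 : (g' : F) ≠ 0 := by
      intro h0'
      have : g' = 0 := Subtype.ext h0'
      rw [this, map_zero] at h2'
      exact h2' rfl
    have := C.r1₂ g' h2' (divOf HL hg'0) (fun P => divOf_apply HL hg'0 P) Q hQ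
    rw [← hred', ← this]
    refine mapDomain_eq_zero_of_ord _ (fun P => divOf_apply HL hg'0 P) _ fun P hP => ?_
    rw [hg', hcinv, ord_const_mul_eq P (inv_ne_zero hc) hu0]
    exact hu P hP
  -- (B) at the nodes the reduction is glued
  have hB : ∀ j : Fin s, N.GluedAt (red g) j ∧ ((red g).1 ≠ 0 → (red g).2 ≠ 0 →
      ∃ c₁ : k, c₁ ≠ 0 ∧ ValAt (N.ν₁ j) (red g).1 c₁ ∧ ValAt (N.ν₂ j) (red g).2 c₁) := by
    intro j
    obtain ⟨u, ψ, hfac, -, hu⟩ := LF.node j
    have hu0 : u ≠ 0 := by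
      rintro rfl
      rw [zero_mul] at hfac
      exact h0 hfac
    obtain ⟨g', hg', hred'⟩ := exists_div_factor C hU H.mem H.nonunit ht g ψ u
      (algebraMap K F c)⁻¹ (by rw [hgF, hfac])
    have hord : ∀ P : Place K F, r P = Sum.inr j → P.ord (g' : F) = 0 := by
      intro P hP
      rw [hg', hcinv, ord_const_mul_eq P (inv_ne_zero hc) hu0]
      exact hu P hP
    refine ⟨?_, fun h1 h2 => ?_⟩
    · have := C.glue g' j fun P hP => (hord P hP).ge
      rwa [hred'] at this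
    · have := C.glue_unit g' j hord (by rwa [hred']) (by rwa [hred'])
      rwa [hred'] at this
  -- (C) both components are nonzero
  have h1 : (red g).1 ≠ 0 := by
    intro h1
    have h2 : (red g).2 ≠ 0 := fun h2 => hred (Prod.ext h1 h2)
    have hpos : ∀ j, 0 < (N.ν₂ j).ord (red g).2 := by
      intro j
      obtain ⟨c₁, hv1, hv2⟩ := (hB j).1
      rw [h1] at hv1
      have hc₁0 := valAt_zero_left hv1
      subst hc₁0
      rcases hv2 with hv2 | hv2
      · rw [map_zero] at hv2; exact absurd hv2 h2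
      · rwa [map_zero, sub_zero] at hv2
    obtain ⟨e, he⟩ := hc₂ (red g).2 (fun Q => by
      by_cases hQ : N.IsSmooth (Sum.inr Q)
      · exact (hA2 Q hQ h2).ge
      · obtain ⟨j, rfl⟩ := exists_eq_ν₂_of_not_smooth hQ
        exact (hpos j).le)
    have := hpos j₀
    rw [he, ffp_ord_algebraMap] at this
    exact lt_irrefl _ this
  have h2 : (red g).2 ≠ 0 := by
    intro h2
    have hpos : ∀ j, 0 < (N.ν₁ j).ord (red g).1 := by
      intro j
      obtain ⟨c₁, hv1, hv2⟩ := (hB j).1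
      rw [h2] at hv2
      have hc₁0 := valAt_zero_left hv2
      subst hc₁0
      rcases hv1 with hv1 | hv1
      · rw [map_zero] at hv1; exact absurd hv1 h1
      · rwa [map_zero, sub_zero] at hv1
    obtain ⟨e, he⟩ := hc₁ (red g).1 (fun Q => by
      by_cases hQ : N.IsSmooth (Sum.inl Q)
      · exact (hA1 Q hQ h1).ge
      · obtain ⟨j, rfl⟩ := exists_eq_ν₁_of_not_smooth hQ
        exact (hpos j).le)
    have := hpos j₀
    rw [he, ffp_ord_algebraMap] at this
    exact lt_irrefl _ this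
  -- (D) both are constants, equal and nonzero
  obtain ⟨e₁, he₁⟩ := hc₁ (red g).1 (fun Q => by
    by_cases hQ : N.IsSmooth (Sum.inl Q)
    · exact (hA1 Q hQ h1).ge
    · obtain ⟨j, rfl⟩ := exists_eq_ν₁_of_not_smooth hQ
      obtain ⟨c₁, hv1, -⟩ := (hB j).1
      exact ord_nonneg_of_valAt hv1)
  obtain ⟨e₂, he₂⟩ := hc₂ (red g).2 (fun Q => by
    by_cases hQ : N.IsSmooth (Sum.inr Q)
    · exact (hA2 Q hQ h2).ge
    · obtain ⟨j, rfl⟩ := exists_eq_ν₂_of_not_smooth hQ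
      obtain ⟨c₁, -, hv2⟩ := (hB j).1
      exact ord_nonneg_of_valAt hv2)
  have he : e₂ = e₁ := by
    obtain ⟨c₁, hv1, hv2⟩ := (hB j₀).1
    rw [he₁] at hv1
    rw [he₂] at hv2
    rw [eq_of_valAt_const hv1, eq_of_valAt_const hv2]
  subst he
  have he0 : e₂ ≠ 0 := by
    rintro rfl
    rw [map_zero] at he₂
    exact h2 he₂
  -- (E) rescale by a rational lift of the constant
  have hgR : (g : F) ∈ R := R.mul_mem (R.inv_mem hcR) hR
  obtain ⟨a, ha, haR⟩ := H.lift g hgR e₂ (Prod.ext he₁ he₂)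
  have hau : IsUnit a := by
    by_contra hnu
    exact he0 (ha ▸ C.pi_nonunit a hnu)
  obtain ⟨ua, rfl⟩ := hau
  have huK0 : ((ua : ↥A) : K) ≠ 0 := fun h0' => ua.ne_zero (Subtype.ext h0')
  have huinv : (((ua⁻¹ : (↥A)ˣ) : ↥A) : K) = (((ua : ↥A) : K))⁻¹ := by
    have h1' : (((ua⁻¹ : (↥A)ˣ) : ↥A) : K) * ((ua : ↥A) : K) = 1 := by
      rw [← MulMemClass.coe_mul, Units.inv_mul]; rfl
    exact eq_inv_of_mul_eq_one_left h1'
  have hπinv : π ((ua⁻¹ : (↥A)ˣ) : ↥A) * e₂ = 1 := by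
    rw [← ha, ← map_mul, Units.inv_mul, map_one]
  set vG : ↥G := ⟨algebraMap K F (((ua⁻¹ : (↥A)ˣ) : ↥A) : K), C.const_mem _⟩ with hvG
  have hmem : (algebraMap K F (c * ((ua : ↥A) : K)))⁻¹ * h = ((vG * g : ↥G) : F) := by
    show _ = algebraMap K F (((ua⁻¹ : (↥A)ˣ) : ↥A) : K) * ((algebraMap K F c)⁻¹ * h)
    rw [huinv, map_mul, map_inv₀, mul_inv]
    ring
  refine ⟨c * ((ua : ↥A) : K), mul_ne_zero hc huK0, ?_, ?_, ?_⟩
  · rw [map_mul]
    exact R.mul_mem hcR haR
  · rw [hmem]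
    exact (vG * g).2
  · have e : (⟨(algebraMap K F (c * ((ua : ↥A) : K)))⁻¹ * h, by rw [hmem]; exact (vG * g).2⟩ : ↥G) =
        vG * g := Subtype.ext hmem
    have hredg : red g = (algebraMap k Ft₁ e₂, algebraMap k Ft₂ e₂) := Prod.ext he₁ he₂
    rw [e, map_mul, hvG, C.red_const, hredg]
    ext
    · show algebraMap k Ft₁ _ * algebraMap k Ft₁ e₂ = 1
      rw [← map_mul, hπinv, map_one]
    · show algebraMap k Ft₂ _ * algebraMap k Ft₂ e₂ = 1
      rw [← map_mul, hπinv, map_one]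

/-- **(W1)(d) from the local factorisations.** -/
theorem kappa_eq_of_locFactor (C : RedCtxN A π N G red r) (HL : LHyp K F)
    (hU : UnitClosed G red) (H : RatHyp A π G red R ϖ) (LF : LocFactor N G red r ϖ t h κ)
    (hc₁ : ∀ f : Ft₁, (∀ Q : Place k Ft₁, 0 ≤ Q.ord f) → ∃ c : k, f = algebraMap k Ft₁ c)
    (hc₂ : ∀ f : Ft₂, (∀ Q : Place k Ft₂, 0 ≤ Q.ord f) → ∃ c : k, f = algebraMap k Ft₂ c)
    (ht : 1 ≤ t) (hR : h ∈ R) (h0 : h ≠ 0) (j j' : Fin s) : κ j = κ j' := by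
  obtain ⟨c₀, hc₀, hc₀R, hG, hred⟩ := exists_red_eq_one C HL hU H LF hc₁ hc₂ ht hR h0 j
  exact kappa_eq C H (foHyp_of_locFactor C HL hU H.mem H.nonunit H.ne_zero ht LF) hc₁ hc₂ ht hR
    hc₀ hc₀R hG hred j j'

end Core

end Fermat.Agent.ES.X44.FirstOrderLoc22
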