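/-
Programme X (S44), chapter (Old), leaf Rem4, file 1 (helper23):
**`E[p]` of the Frey curve has a nonzero vector fixed by the inertia group at `2`.**

The two internal steps of `S13/Local2.local_at_2` (helper16), exported: for `A` over `2` and `σ ∈ I_A`,
`σ • Q - Q ∈ E₀` for every `Q ∈ E[p]` (`sub_mem_E0`), and `σ • Q = Q` for `Q ∈ E[p] ∩ E₀` (`fixed_of_E0`).
Hence (`exists_inertia_fixed`): if `E[p] ≠ 0` there is `v ≠ 0` in `E[p]` fixed by all of `I_A`.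
-/
import Mathlib
import Fermat.Agent.S13.Local2

set_option autoImplicit false

open WeierstrassCurve WeierstrassCurve.Affine WeierstrassCurve.Affine.Point

namespace Fermat.Agent.ES.X44.FixedAtTwo23

open Fermat.Agent.S13.Node Fermat.Agent.S13 Fermat.Agent.S13.Local2

variable (P : FreyPackage)

/-- `(σ - 1) E[p] ⊆ E₀` for `σ` in the inertia group at `2`. -/
theorem sub_mem_E0 (A : ValuationSubring Qbar) (hA : A.LiesOverPrime 2)
    {σ : Qbar ≃ₐ[ℚ] Qbar} (hσ : σ ∈ A.inertiaSubgroupIn ℚ) (x : VV P) :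
    InE0 A.valuation (((σ • x - x : VV P)) : (P.freyCurve⁄Qbar).Point) := by
  have hW := FreyAtTwo.nodeShape (K := Qbar) P hA
  obtain ⟨α, β, hr⟩ := exists_roots (P.freyCurve⁄Qbar)
  have hσv : ∀ z, A.valuation ((σ : Qbar →+* Qbar) z) = A.valuation z :=
    fun x => S05.Inertia.valuation_apply_rat hσ x
  have hσr : ∀ z, A.valuation z ≤ 1 → A.valuation ((σ : Qbar →+* Qbar) z - z) < 1 :=
    fun _ hx => S05.Inertia.valuation_sub_lt_one_rat hσ hx
  have hp2 : P.p ≠ 2 := by have := P.hp5; omega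
  obtain ⟨Q, hQ⟩ := x
  show InE0 A.valuation (σ • Q - Q)
  have hQ' : P.p • Q = 0 := by
    rw [Submodule.mem_torsionBy_iff, natCast_zsmul] at hQ; exact hQ
  rcases Q with _ | ⟨x₀, y₀, h₀⟩
  · show InE0 A.valuation ((0 : (P.freyCurve⁄Qbar).Point) - 0)
    rw [sub_zero]; exact inE0_zero
  · have h₀' : (P.freyCurve⁄Qbar).Nonsingular (σ x₀) (σ y₀) :=
      (Affine.baseChange_nonsingular (W := P.freyCurve) (f := σ.toAlgHom)
        σ.toAlgHom.injective x₀ y₀).mpr h₀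
    have hs : σ • (Point.some x₀ y₀ h₀ : (P.freyCurve⁄Qbar).Point) =
        Point.some (σ x₀) (σ y₀) h₀' := rfl
    rw [hs]
    exact inE0_sigma_sub_of_torsion hW hr (σ : Qbar →+* Qbar) hσv hσr P.pp hp2 h₀ h₀' hQ'

/-- `σ = 1` on `E[p] ∩ E₀` for `σ` in the inertia group at `2`. -/
theorem fixed_of_E0 (A : ValuationSubring Qbar) (hA : A.LiesOverPrime 2)
    {σ : Qbar ≃ₐ[ℚ] Qbar} (hσ : σ ∈ A.inertiaSubgroupIn ℚ) (x : VV P)
    (hx : InE0 A.valuation (x : (P.freyCurve⁄Qbar).Point)) : σ • x = x := by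
  have hW := FreyAtTwo.nodeShape (K := Qbar) P hA
  have hI := FreyAtTwo.integralCoeffs (K := Qbar) P hA
  have hσr : ∀ z, A.valuation z ≤ 1 → A.valuation ((σ : Qbar →+* Qbar) z - z) < 1 :=
    fun _ hx => S05.Inertia.valuation_sub_lt_one_rat hσ hx
  have hp2 : P.p ≠ 2 := by have := P.hp5; omega
  have hpv : A.valuation (P.p : Qbar) = 1 :=
    S05.Inertia.valuation_prime_eq_one Nat.prime_two hA P.pp (Ne.symm hp2)
  obtain ⟨Q, hQ⟩ := x
  apply Subtype.ext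
  show σ • Q = Q
  have hQ' : P.p • Q = 0 := by
    rw [Submodule.mem_torsionBy_iff, natCast_zsmul] at hQ; exact hQ
  have hσQ : P.p • (σ • Q) = 0 := by
    have := Point.algEquiv_smul_zsmul σ (P.p : ℤ) Q
    rw [natCast_zsmul, natCast_zsmul] at this
    rw [← this, hQ']
    rfl
  rcases Q with _ | ⟨x₀, y₀, h₀⟩
  · rfl
  · have h₀' : (P.freyCurve⁄Qbar).Nonsingular (σ x₀) (σ y₀) :=
      (Affine.baseChange_nonsingular (W := P.freyCurve) (f := σ.toAlgHom)
        σ.toAlgHom.injective x₀ y₀).mpr h₀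
    have hs : σ • (Point.some x₀ y₀ h₀ : (P.freyCurve⁄Qbar).Point) =
        Point.some (σ x₀) (σ y₀) h₀' := rfl
    rw [hs] at hσQ ⊢
    have hx1 : 1 ≤ A.valuation x₀ := (inE0_some h₀).mp hx
    obtain ⟨e1, e2⟩ := Closeness.fixed_of_nsmul_eq_zero_of_node_shape hI hW.a₃ hW.a₆ hW.a₄
      (σ : Qbar →+* Qbar) hσr hpv h₀ h₀' hQ' hσQ hx1
    have e1' : σ x₀ = x₀ := e1
    have e2' : σ y₀ = y₀ := e2
    simp only [e1', e2']

/-- **a nonzero vector of `E[p]` fixed by the inertia group at `2`.** -/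
theorem exists_inertia_fixed [Nontrivial (VV P)] (A : ValuationSubring Qbar)
    (hA : A.LiesOverPrime 2) :
    ∃ v : VV P, v ≠ 0 ∧ ∀ σ ∈ A.inertiaSubgroupIn ℚ, σ • v = v := by
  by_cases h : ∃ v : VV P, v ≠ 0 ∧ InE0 A.valuation (v : (P.freyCurve⁄Qbar).Point)
  · obtain ⟨v, hv0, hv⟩ := h
    exact ⟨v, hv0, fun σ hσ => fixed_of_E0 P A hA hσ v hv⟩
  · obtain ⟨v, hv0⟩ := exists_ne (0 : VV P)
    refine ⟨v, hv0, fun σ hσ => ?_⟩
    by_contra hne
    apply h
    exact ⟨σ • v - v, sub_ne_zero.mpr hne, sub_mem_E0 P A hA hσ v⟩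

end Fermat.Agent.ES.X44.FixedAtTwo23
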