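/-
Programme X (S44), chapter (K), tool (helper16): **Lagrange descent along a finite orbit**.

`G` a group acting on a field `F` by ring automorphisms (`MulSemiringAction G F`), `θ ∈ F` with a FINITE `G`-orbit of
cardinality `n`, `y ∈ F` fixed by the stabiliser of `θ`.  Then `y = ∑_{i<n} a_i θ^i` with all `a_i` fixed by `G`:

* `exists_poly` : `∃ P : F[X], P.degree < n ∧ (∀ g i, g • P.coeff i = P.coeff i) ∧ P.eval θ = y`;
* `exists_coeffs` : the same as a sum over `Finset.range n`;
* `exists_coeffs_le` : for any `m ≥ n` (pad with zeros).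

No Galois theory: `P` is the Lagrange interpolation polynomial of `g • θ ↦ g • y` on the orbit, and `g • P` interpolates
the same data.  Examples: `G = I_A`, `θ = ζ_p` (then `F^{Stab} = F^G(ζ)`); `G = H₁`, `θ` = a generator of `K'`
(`K' = ⊕_{i<p} K₁ θ^i`); `F = ℚ̄(X)` with the action on coefficients (`K'(X) = ⊕ K₁(X) θ^i`).
-/
import Mathlib

set_option autoImplicit false
set_option linter.unusedSectionVars false

noncomputable section

namespace Fermat.Agent.ES.X44.OrbitSpan16

open Polynomial

variable {G : Type*} [Group G] {F : Type*} [Field F] [MulSemiringAction G F]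

/-- the value function on the orbit: `g • θ ↦ g • y`. -/
def orbVal (θ y : F) (x : F) : F :=
  open Classical in
  if h : ∃ g : G, g • θ = x then (Classical.choose h) • y else 0

theorem orbVal_smul {θ y : F} (hstab : ∀ g : G, g • θ = θ → g • y = y) (g : G) :
    orbVal (G := G) θ y (g • θ) = g • y := by
  classical
  have h : ∃ g' : G, g' • θ = g • θ := ⟨g, rfl⟩
  unfold orbVal
  rw [dif_pos h]
  have hc := Classical.choose_spec h
  -- `(g⁻¹ * g') • θ = θ`
  have h1 : (g⁻¹ * Classical.choose h) • θ = θ := by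
    rw [mul_smul, hc, inv_smul_smul]
  have h2 := hstab _ h1
  rw [mul_smul, inv_smul_eq_iff] at h2
  exact h2

theorem orbVal_smul_smul {θ y : F} (hstab : ∀ g : G, g • θ = θ → g • y = y) (g : G) {x : F}
    (hx : x ∈ MulAction.orbit G θ) : orbVal (G := G) θ y (g • x) = g • orbVal (G := G) θ y x := by
  obtain ⟨h, rfl⟩ := hx
  rw [← mul_smul, orbVal_smul hstab, orbVal_smul hstab, mul_smul]

/-- **Lagrange descent**, polynomial form. -/
theorem exists_poly {θ y : F} (hfin : (MulAction.orbit G θ).Finite)
    (hstab : ∀ g : G, g • θ = θ → g • y = y) :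
    ∃ P : F[X], P.degree < (hfin.toFinset.card : WithBot ℕ) ∧
      (∀ (g : G) (i : ℕ), g • P.coeff i = P.coeff i) ∧ P.eval θ = y := by
  classical
  set s : Finset F := hfin.toFinset with hs
  have hinj : Set.InjOn (id : F → F) s := Function.injective_id.injOn
  set P : F[X] := Lagrange.interpolate s id (orbVal (G := G) θ y) with hP
  have hdeg : P.degree < (s.card : WithBot ℕ) := Lagrange.degree_interpolate_lt _ hinj
  have hθs : θ ∈ s := by
    rw [hs, Set.Finite.mem_toFinset]
    exact MulAction.mem_orbit_self θ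
  have heval : ∀ x ∈ s, P.eval x = orbVal (G := G) θ y x := fun x hx =>
    Lagrange.eval_interpolate_at_node _ hinj hx
  refine ⟨P, hdeg, fun g i => ?_, ?_⟩
  · -- `P.map g` interpolates the same data
    let φ : F →+* F := MulSemiringAction.toRingHom G F g
    have hφ : ∀ x : F, φ x = g • x := fun x => rfl
    have hQ : P.map φ = P := by
      rw [hP]
      apply Lagrange.eq_interpolate_of_eval_eq _ hinj
      · exact lt_of_le_of_lt degree_map_le hdeg
      · intro x hx
        rw [id]
        -- `x = g • x'` with `x' = g⁻¹ • x` in the orbit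
        have hx' : g⁻¹ • x ∈ MulAction.orbit G θ := by
          rw [hs, Set.Finite.mem_toFinset] at hx
          obtain ⟨h, rfl⟩ := hx
          exact ⟨g⁻¹ * h, mul_smul g⁻¹ h θ⟩
        have hx's : g⁻¹ • x ∈ s := by rw [hs, Set.Finite.mem_toFinset]; exact hx'
        have e : x = φ (g⁻¹ • x) := by rw [hφ, smul_inv_smul]
        have h1 : (P.map φ).eval (φ (g⁻¹ • x)) = φ (P.eval (g⁻¹ • x)) := by
          rw [eval_map, eval₂_hom]
        rw [← hP]
        conv_lhs => rw [e]
        rw [h1, heval _ hx's, hφ, ← orbVal_smul_smul hstab g hx', smul_inv_smul]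
    have := congrArg (fun Q : F[X] => Q.coeff i) hQ
    simp only [coeff_map] at this
    rw [← hφ]
    exact this
  · rw [heval θ hθs]
    have := orbVal_smul (G := G) hstab (1 : G) (θ := θ) (y := y)
    rwa [one_smul, one_smul] at this

/-- **Lagrange descent**, sum form with `m ≥ #orbit` terms. -/
theorem exists_coeffs_le {θ y : F} (hfin : (MulAction.orbit G θ).Finite)
    (hstab : ∀ g : G, g • θ = θ → g • y = y) {m : ℕ} (hm : hfin.toFinset.card ≤ m) :
    ∃ a : ℕ → F, (∀ (g : G) (i : ℕ), g • a i = a i) ∧ y = ∑ i ∈ Finset.range m, a i * θ ^ i := by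
  obtain ⟨P, hdeg, hfix, hev⟩ := exists_poly hfin hstab
  refine ⟨fun i => P.coeff i, hfix, ?_⟩
  rw [← hev]
  by_cases hP0 : P = 0
  · rw [hP0]; simp
  · have hnat : P.natDegree < m := by
      have h1 : (P.natDegree : WithBot ℕ) < (hfin.toFinset.card : WithBot ℕ) := by
        rw [← degree_eq_natDegree hP0]; exact hdeg
      exact lt_of_lt_of_le (by exact_mod_cast h1) hm
    exact eval_eq_sum_range' hnat θ

/-- **Lagrange descent**, sum form. -/
theorem exists_coeffs {θ y : F} (hfin : (MulAction.orbit G θ).Finite)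
    (hstab : ∀ g : G, g • θ = θ → g • y = y) :
    ∃ a : ℕ → F, (∀ (g : G) (i : ℕ), g • a i = a i) ∧
      y = ∑ i ∈ Finset.range hfin.toFinset.card, a i * θ ^ i :=
  exists_coeffs_le hfin hstab le_rfl

end Fermat.Agent.ES.X44.OrbitSpan16
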