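/-
Programme X (S44), chapter (W1), leaf (SC)(b), step (4)(a) of helper4's cut (helper18): **Lagrange descent along a
finite orbit, WITH THE SPAN CLAUSE.**

`G` a group acting on a field `F` by ring automorphisms, `L ⊆ F` a subfield ("the constants"), `θ` with a FINITE
`G`-orbit contained in `L`, `y ∈ F` fixed by the stabiliser of `θ`.  Then (trunk `OrbitSpan16`)
`y = ∑_{i<n} a_i θ^i` with all `a_i` fixed by `G`; here we add: **each `a_i` is an `L`-linear combination of the
conjugates `g • y`** (the `a_i` are the coefficients of the Lagrange interpolation polynomial of `g • θ ↦ g • y`, and the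
Lagrange basis polynomials with nodes in `L` have coefficients in `L`).  Hence every property of elements of `F` which is
closed under sums and multiplication by elements of `L` and holds for all the conjugates of `y` holds for the `a_i`.

Use: `G = I_A` acting on `F = FW p M'` through `aG p M' τ`, `L` = the constants, `θ` a primitive element of the
(uncontrolled) number field over which a lift `w₁` is defined, `y = w₁`.
-/
import Mathlib
import Fermat.Agent.ES.X44.OrbitSpan16

set_option autoImplicit false
set_option linter.unusedSectionVars false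

noncomputable section

namespace Fermat.Agent.ES.X44.LagrangeSpan18

open Polynomial Fermat.Agent.ES.X44.OrbitSpan16

variable {F : Type*} [Field F]

/-! ### Lagrange basis polynomials with nodes in a subfield -/

section Basis

variable (L : Subfield F)

theorem C_mem_liftsRing {c : F} (hc : c ∈ L) : C c ∈ liftsRing L.subtype :=
  (lifts_iff_liftsRing _ _).mp (C_mem_lifts L.subtype ⟨c, hc⟩)

theorem X_mem_liftsRing : (X : F[X]) ∈ liftsRing L.subtype :=
  (lifts_iff_liftsRing _ _).mp (X_mem_lifts L.subtype)

theorem coeff_mem_of_mem_liftsRing {P : F[X]} (hP : P ∈ liftsRing L.subtype) (n : ℕ) :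
    P.coeff n ∈ L := by
  obtain ⟨c, hc⟩ := (lifts_iff_coeff_lifts _).mp ((lifts_iff_liftsRing _ _).mpr hP) n
  rw [← hc]
  exact c.2

theorem basisDivisor_mem {a b : F} (ha : a ∈ L) (hb : b ∈ L) :
    Lagrange.basisDivisor a b ∈ liftsRing L.subtype := by
  unfold Lagrange.basisDivisor
  exact mul_mem (C_mem_liftsRing L (L.inv_mem (L.sub_mem ha hb)))
    (sub_mem (X_mem_liftsRing L) (C_mem_liftsRing L hb))

theorem basis_mem [DecidableEq F] {s : Finset F} (hs : ∀ x ∈ s, x ∈ L) {x : F} (hx : x ∈ s) :
    Lagrange.basis s id x ∈ liftsRing L.subtype := by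
  unfold Lagrange.basis
  refine Subring.prod_mem _ fun z hz => ?_
  exact basisDivisor_mem L (hs x hx) (hs z (Finset.mem_of_mem_erase hz))

theorem coeff_basis_mem [DecidableEq F] {s : Finset F} (hs : ∀ x ∈ s, x ∈ L) {x : F} (hx : x ∈ s)
    (n : ℕ) : (Lagrange.basis s id x).coeff n ∈ L :=
  coeff_mem_of_mem_liftsRing L (basis_mem L hs hx) n

end Basis

/-! ### The descent -/

variable {G : Type*} [Group G] [MulSemiringAction G F]

/-- the interpolation polynomial of `g • θ ↦ g • y` on the orbit of `θ`. -/
def lagPoly (θ y : F) (hfin : (MulAction.orbit G θ).Finite) : F[X] :=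
  open Classical in Lagrange.interpolate hfin.toFinset id (orbVal (G := G) θ y)

theorem degree_lagPoly_lt (θ y : F) (hfin : (MulAction.orbit G θ).Finite) :
    (lagPoly θ y hfin).degree < (hfin.toFinset.card : WithBot ℕ) := by
  classical
  exact Lagrange.degree_interpolate_lt _ Function.injective_id.injOn

theorem eval_lagPoly (θ y : F) (hfin : (MulAction.orbit G θ).Finite) {x : F}
    (hx : x ∈ MulAction.orbit G θ) : (lagPoly θ y hfin).eval x = orbVal (G := G) θ y x := by
  classical
  have hxs : x ∈ hfin.toFinset := by rw [Set.Finite.mem_toFinset]; exact hx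
  exact Lagrange.eval_interpolate_at_node (v := id) _ Function.injective_id.injOn hxs

/-- the interpolation polynomial has `G`-fixed coefficients (helper16's argument). -/
theorem smul_coeff_lagPoly {θ y : F} (hfin : (MulAction.orbit G θ).Finite)
    (hstab : ∀ g : G, g • θ = θ → g • y = y) (g : G) (i : ℕ) :
    g • (lagPoly θ y hfin).coeff i = (lagPoly θ y hfin).coeff i := by
  classical
  set s : Finset F := hfin.toFinset with hs
  have hinj : Set.InjOn (id : F → F) s := Function.injective_id.injOn
  set P : F[X] := lagPoly θ y hfin with hP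
  have hdeg : P.degree < (s.card : WithBot ℕ) := degree_lagPoly_lt θ y hfin
  let φ : F →+* F := MulSemiringAction.toRingHom G F g
  have hφ : ∀ x : F, φ x = g • x := fun x => rfl
  have hQ : P.map φ = P := by
    have hP' : P = Lagrange.interpolate s id (orbVal (G := G) θ y) := rfl
    conv_rhs => rw [hP']
    apply Lagrange.eq_interpolate_of_eval_eq _ hinj
    · exact lt_of_le_of_lt degree_map_le hdeg
    · intro x hx
      rw [id]
      have hx' : g⁻¹ • x ∈ MulAction.orbit G θ := by
        rw [hs, Set.Finite.mem_toFinset] at hx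
        obtain ⟨h, rfl⟩ := hx
        exact ⟨g⁻¹ * h, mul_smul g⁻¹ h θ⟩
      have e : x = φ (g⁻¹ • x) := by rw [hφ, smul_inv_smul]
      have h1 : (P.map φ).eval (φ (g⁻¹ • x)) = φ (P.eval (g⁻¹ • x)) := by
        rw [eval_map, eval₂_hom]
      conv_lhs => rw [e]
      rw [h1, eval_lagPoly θ y hfin hx', hφ, ← orbVal_smul_smul hstab g hx', smul_inv_smul]
  have := congrArg (fun Q : F[X] => Q.coeff i) hQ
  simp only [coeff_map] at this
  rw [← hφ]
  exact this

/-- the coefficients of the interpolation polynomial, as combinations of the values. -/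
theorem coeff_lagPoly (θ y : F) (hfin : (MulAction.orbit G θ).Finite) (i : ℕ) :
    (lagPoly θ y hfin).coeff i =
      ∑ x ∈ hfin.toFinset, (open Classical in (Lagrange.basis hfin.toFinset id x).coeff i) *
        orbVal (G := G) θ y x := by
  classical
  unfold lagPoly
  rw [Lagrange.interpolate_apply, finsetSum_coeff]
  refine Finset.sum_congr rfl fun x _ => ?_
  rw [coeff_C_mul, mul_comm]

/-- **Lagrange descent with the span clause.** -/
theorem exists_coeffs_span (L : Subfield F) {θ y : F} (hθL : ∀ g : G, g • θ ∈ L)
    (hfin : (MulAction.orbit G θ).Finite) (hstab : ∀ g : G, g • θ = θ → g • y = y) :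
    ∃ a : ℕ → F, (∀ (g : G) (i : ℕ), g • a i = a i) ∧
      y = ∑ i ∈ Finset.range hfin.toFinset.card, a i * θ ^ i ∧
      (∀ i, ∃ c : F → F, (∀ x, c x ∈ L) ∧
        a i = ∑ x ∈ hfin.toFinset, c x * orbVal (G := G) θ y x) ∧
      ∀ P : F → Prop, P 0 → (∀ f g, P f → P g → P (f + g)) → (∀ c ∈ L, ∀ f, P f → P (c * f)) →
        (∀ g : G, P (g • y)) → ∀ i, P (a i) := by
  classical
  have hsL : ∀ x ∈ hfin.toFinset, x ∈ L := by
    intro x hx
    rw [Set.Finite.mem_toFinset] at hx
    obtain ⟨g, rfl⟩ := hx
    exact hθL g
  -- the explicit combination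
  have hcomb : ∀ i, ∃ c : F → F, (∀ x, c x ∈ L) ∧
      (lagPoly θ y hfin).coeff i = ∑ x ∈ hfin.toFinset, c x * orbVal (G := G) θ y x := by
    intro i
    refine ⟨fun x => if x ∈ hfin.toFinset then (Lagrange.basis hfin.toFinset id x).coeff i else 0,
      fun x => ?_, ?_⟩
    · show (if x ∈ hfin.toFinset then (Lagrange.basis hfin.toFinset id x).coeff i else 0) ∈ L
      split_ifs with hx
      · exact coeff_basis_mem L hsL hx i
      · exact L.zero_mem
    · rw [coeff_lagPoly θ y hfin i]
      refine Finset.sum_congr rfl fun x hx => ?_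
      show _ = (if x ∈ hfin.toFinset then (Lagrange.basis hfin.toFinset id x).coeff i else 0) * _
      rw [if_pos hx]
  refine ⟨fun i => (lagPoly θ y hfin).coeff i, fun g i => smul_coeff_lagPoly hfin hstab g i, ?_,
    hcomb, ?_⟩
  · -- evaluation at `θ`
    have hev : (lagPoly θ y hfin).eval θ = y := by
      rw [eval_lagPoly θ y hfin (MulAction.mem_orbit_self θ)]
      have := orbVal_smul (G := G) hstab (1 : G) (θ := θ) (y := y)
      rwa [one_smul, one_smul] at this
    conv_lhs => rw [← hev]
    by_cases hP0 : lagPoly θ y hfin = 0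
    · rw [hP0]; simp
    · have hnat : (lagPoly θ y hfin).natDegree < hfin.toFinset.card := by
        have h1 : ((lagPoly θ y hfin).natDegree : WithBot ℕ) < (hfin.toFinset.card : WithBot ℕ) := by
          rw [← degree_eq_natDegree hP0]; exact degree_lagPoly_lt θ y hfin
        exact_mod_cast h1
      exact eval_eq_sum_range' hnat θ
  · -- the induction principle
    intro P h0 hadd hmul hconj i
    obtain ⟨c, hc, hci⟩ := hcomb i
    show P ((lagPoly θ y hfin).coeff i)
    rw [hci]
    have hval : ∀ x ∈ hfin.toFinset, P (orbVal (G := G) θ y x) := by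
      intro x hx
      rw [Set.Finite.mem_toFinset] at hx
      obtain ⟨g, rfl⟩ := hx
      rw [orbVal_smul hstab]
      exact hconj g
    have key : ∀ T : Finset F, T ⊆ hfin.toFinset →
        P (∑ x ∈ T, c x * orbVal (G := G) θ y x) := by
      intro T
      induction T using Finset.induction_on with
      | empty => intro _; rw [Finset.sum_empty]; exact h0
      | insert z T hz ih =>
        intro hT
        rw [Finset.sum_insert hz]
        exact hadd _ _ (hmul _ (hc z) _ (hval z (hT (Finset.mem_insert_self z T))))
          (ih ((Finset.subset_insert z T).trans hT))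
    exact key _ le_rfl

end Fermat.Agent.ES.X44.LagrangeSpan18
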