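/-
Programme X (S44, spine `X44_SPINE14.md`), chapter (W1), leaf (SC)(b) "smooth coordinates, existence",
abstract tool (helper22; Mathlib only): **THE TEICHMÜLLER ECHELON LEMMA** (item (4)(b) of helper4's cut).

`L` a field (`ℚ̄`), `A` a valuation ring of `L`, `K₀ ⊆ L` a subfield (the inertial field `ℚ̄^{I_A}`) such
that
* `hdvr` : `A ∩ K₀` is a discrete valuation ring with uniformiser `ϖ` (`ϖ ∈ 𝔪_A`, `ϖ ≠ 0`): every nonzero
  `c ∈ K₀` is `ϖ^n · u`, `u` a unit of `A` in `K₀`;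
* `hres` : `A ∩ K₀` has the residue field of `A`: every `a ∈ A` is congruent modulo `𝔪_A` to some
  `b ∈ A ∩ K₀`.
(Instance: `FixRingDVR16.exists_eq_pow_mul_unit`, `TowerBase16.exists_fixed_sub_lt`.)

`V` an `L`-vector space with coordinate forms `co x`, `x ∈ X` (instance: `V = F`, `co` = the
`q`-coefficients at `∞` and at `0`).  **`exists_fixed_comb`**: if `g_1, …, g_m ∈ V` have coordinates in
`K₀`, bounded denominators, and `w₁ = Σ c_i g_i` (`c_i ∈ L`) has all coordinates in `A`, then some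
`w = Σ c'_i g_i` with `c'_i ∈ K₀` has all coordinates in `A ∩ K₀` and `w ≡ w₁ mod 𝔪_A` coordinatewise.

Proof (`exists_fixed_coeffs`, coordinate form): induction on `m`.  If the last vector `f = g_m` is not
`0`, pick a coordinate `x₀` where `|f x₀|` is maximal (`exists_max_coord`: the `ϖ`-adic orders of the
coordinates are integers bounded below); eliminate the `x₀`-coordinate of the other vectors,
`g'_i = g_i - (g_i x₀ / f x₀) f` (still rational and bounded: `bdd_sub_mul`); then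
`w₁ = Σ c_i g'_i + μ f` with `μ · f x₀ = w₁ x₀ ∈ A`, so `μ f` and `Σ c_i g'_i` are integral; apply the
induction hypothesis to the latter and replace `μ f x₀` by a congruent element of `A ∩ K₀`.
-/
import Mathlib

set_option autoImplicit false

namespace Fermat.Agent.ES.X44.TeichEchelon22

open scoped BigOperators

variable {L : Type*} [Field L] (A : ValuationSubring L) (K₀ : Subfield L) {ϖ : L}

/-! ### valuations -/

theorem mul_mem_nonunits {a b : L} (ha : a ∈ A.nonunits) (hb : b ∈ A) : a * b ∈ A.nonunits := by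
  rw [A.mem_nonunits_iff] at ha ⊢
  rw [map_mul]
  have hb' : A.valuation b ≤ 1 := (A.valuation_le_one_iff b).mpr hb
  calc A.valuation a * A.valuation b ≤ A.valuation a * 1 := mul_le_mul_right hb' _
    _ = A.valuation a := mul_one _
    _ < 1 := ha

variable (hϖ1 : ϖ ∈ A.nonunits) (hϖ0 : ϖ ≠ 0)

include hϖ1 hϖ0 in
/-- the integral powers of a nonzero nonunit lying in `A` are the nonnegative ones. -/
theorem zpow_mem_iff (n : ℤ) : ϖ ^ n ∈ A ↔ 0 ≤ n := by
  have h0 : 0 < A.valuation ϖ := zero_lt_iff.mpr ((Valuation.ne_zero_iff A.valuation).mpr hϖ0)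
  have h1 : A.valuation ϖ < 1 := (A.mem_nonunits_iff).mp hϖ1
  rw [← A.valuation_le_one_iff, map_zpow₀]
  constructor
  · intro h
    by_contra hn
    exact absurd (one_lt_zpow_of_neg₀ h0 h1 (not_le.mp hn)) (not_lt.mpr h)
  · exact fun hn => zpow_le_one₀ h0 h1.le hn

variable (hdvr : ∀ c ∈ K₀, c ≠ 0 →
  ∃ (n : ℤ) (u : L), u ∈ K₀ ∧ u ∈ A ∧ u⁻¹ ∈ A ∧ c = ϖ ^ n * u)

variable {X : Type*}

include hϖ1 hϖ0 hdvr in
/-- **a bounded rational vector has a coordinate of maximal absolute value.** -/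
theorem exists_max_coord {f : X → L} (hrat : ∀ x, f x ∈ K₀)
    (hbdd : ∃ N : ℤ, ∀ x, ϖ ^ N * f x ∈ A) (hne : ∃ x, f x ≠ 0) :
    ∃ x₀, f x₀ ≠ 0 ∧ ∀ x, f x / f x₀ ∈ A := by
  classical
  obtain ⟨N, hN⟩ := hbdd
  let P : ℤ → Prop := fun n => ∃ x, f x ≠ 0 ∧ ∃ u : L, u ∈ A ∧ u⁻¹ ∈ A ∧ f x = ϖ ^ n * u
  have hbd : ∃ b : ℤ, ∀ z : ℤ, P z → b ≤ z := by
    refine ⟨-N, ?_⟩
    rintro n ⟨x, hx0, u, huA, hu'A, hxu⟩
    have hu0 : u ≠ 0 := by
      rintro rfl
      rw [mul_zero] at hxu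
      exact hx0 hxu
    have h1 : ϖ ^ (N + n) ∈ A := by
      have : ϖ ^ (N + n) = ϖ ^ N * f x * u⁻¹ := by
        rw [hxu, zpow_add₀ hϖ0]
        field_simp
      rw [this]
      exact mul_mem (hN x) hu'A
    have := (zpow_mem_iff A hϖ1 hϖ0 _).mp h1
    omega
  have hinh : ∃ z : ℤ, P z := by
    obtain ⟨x, hx⟩ := hne
    obtain ⟨n, u, -, huA, hu'A, e⟩ := hdvr (f x) (hrat x) hx
    exact ⟨n, x, hx, u, huA, hu'A, e⟩
  obtain ⟨n₀, ⟨x₀, hx₀, u₀, hu₀A, hu₀'A, e₀⟩, hleast⟩ := Int.exists_least_of_bdd hbd hinh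
  refine ⟨x₀, hx₀, fun x => ?_⟩
  by_cases hx : f x = 0
  · rw [hx, zero_div]
    exact A.zero_mem
  obtain ⟨n, u, -, huA, hu'A, e⟩ := hdvr (f x) (hrat x) hx
  have hle : n₀ ≤ n := hleast n ⟨x, hx, u, huA, hu'A, e⟩
  have hu₀0 : u₀ ≠ 0 := by
    rintro rfl
    rw [mul_zero] at e₀
    exact hx₀ e₀
  have : f x / f x₀ = ϖ ^ (n - n₀) * (u * u₀⁻¹) := by
    rw [e, e₀, zpow_sub₀ hϖ0]
    have : ϖ ^ n₀ ≠ 0 := zpow_ne_zero _ hϖ0
    field_simp
  rw [this]
  exact mul_mem ((zpow_mem_iff A hϖ1 hϖ0 (n - n₀)).mpr (by omega)) (mul_mem huA hu₀'A)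

include hϖ1 hϖ0 hdvr in
/-- bounded vectors are stable under the elimination step. -/
theorem bdd_sub_mul {f g : X → L} (hf : ∃ N : ℤ, ∀ x, ϖ ^ N * f x ∈ A)
    (hg : ∃ N : ℤ, ∀ x, ϖ ^ N * g x ∈ A) {l : L} (hl : l ∈ K₀) :
    ∃ N : ℤ, ∀ x, ϖ ^ N * (f x - l * g x) ∈ A := by
  obtain ⟨Nf, hNf⟩ := hf
  obtain ⟨Ng, hNg⟩ := hg
  by_cases hl0 : l = 0
  · refine ⟨Nf, fun x => ?_⟩
    rw [hl0, zero_mul, sub_zero]
    exact hNf x
  obtain ⟨n, u, -, huA, -, e⟩ := hdvr l hl hl0
  refine ⟨max Nf (Ng - n), fun x => ?_⟩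
  have e1 : ϖ ^ max Nf (Ng - n) * (f x - l * g x) =
      ϖ ^ (max Nf (Ng - n) - Nf) * (ϖ ^ Nf * f x) -
        ϖ ^ (max Nf (Ng - n) - (Ng - n)) * (u * (ϖ ^ Ng * g x)) := by
    have h1 : ϖ ^ max Nf (Ng - n) = ϖ ^ (max Nf (Ng - n) - Nf) * ϖ ^ Nf := by
      rw [← zpow_add₀ hϖ0, sub_add_cancel]
    have h2 : ϖ ^ max Nf (Ng - n) * ϖ ^ n = ϖ ^ (max Nf (Ng - n) - (Ng - n)) * ϖ ^ Ng := by
      rw [← zpow_add₀ hϖ0, ← zpow_add₀ hϖ0]
      congr 1
      ring
    rw [mul_sub, e]
    congr 1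
    · rw [h1]; ring
    · calc ϖ ^ max Nf (Ng - n) * (ϖ ^ n * u * g x)
          = (ϖ ^ max Nf (Ng - n) * ϖ ^ n) * (u * g x) := by ring
        _ = (ϖ ^ (max Nf (Ng - n) - (Ng - n)) * ϖ ^ Ng) * (u * g x) := by rw [h2]
        _ = _ := by ring
  rw [e1]
  refine sub_mem (mul_mem ((zpow_mem_iff A hϖ1 hϖ0 _).mpr ?_) (hNf x))
    (mul_mem ((zpow_mem_iff A hϖ1 hϖ0 _).mpr ?_) (mul_mem huA (hNg x)))
  · exact sub_nonneg.mpr (le_max_left _ _)
  · exact sub_nonneg.mpr (le_max_right _ _)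

variable (hres : ∀ a ∈ A, ∃ b ∈ K₀, b ∈ A ∧ a - b ∈ A.nonunits)

include hϖ1 hϖ0 hdvr hres in
/-- **the echelon lemma, coordinate form** (induction on the number of vectors, pivot = a coordinate of
maximal absolute value of the last vector). -/
theorem exists_fixed_coeffs : ∀ (m : ℕ) (G : Fin m → X → L), (∀ i x, G i x ∈ K₀) →
    (∀ i, ∃ N : ℤ, ∀ x, ϖ ^ N * G i x ∈ A) → ∀ c : Fin m → L, (∀ x, ∑ i, c i * G i x ∈ A) →
    ∃ c' : Fin m → L, (∀ i, c' i ∈ K₀) ∧ ∀ x, ∑ i, c' i * G i x ∈ A ∧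
      ∑ i, c' i * G i x - ∑ i, c i * G i x ∈ A.nonunits := by
  intro m
  induction m with
  | zero =>
    intro G _ _ c _
    refine ⟨fun _ => 0, fun i => i.elim0, fun x => ?_⟩
    rw [Finset.univ_eq_empty, Finset.sum_empty, Finset.sum_empty, sub_zero]
    exact ⟨A.zero_mem, A.nonunits.zero_mem⟩
  | succ m ih =>
    intro G hrat hbdd c hint
    by_cases hne : ∃ x, G (Fin.last m) x ≠ 0
    · -- the pivot
      obtain ⟨x₀, hγ, hmax⟩ := exists_max_coord A K₀ hϖ1 hϖ0 hdvr (hrat (Fin.last m))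
        (hbdd (Fin.last m)) hne
      set f : X → L := G (Fin.last m) with hf
      set γ : L := f x₀ with hγdef
      have hγK : γ ∈ K₀ := hrat (Fin.last m) x₀
      let l : Fin m → L := fun i => G i.castSucc x₀ / γ
      have hlK : ∀ i, l i ∈ K₀ := fun i => K₀.div_mem (hrat i.castSucc x₀) hγK
      let G' : Fin m → X → L := fun i x => G i.castSucc x - l i * f x
      have hG'rat : ∀ i x, G' i x ∈ K₀ := fun i x =>
        K₀.sub_mem (hrat i.castSucc x) (K₀.mul_mem (hlK i) (hrat (Fin.last m) x))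
      have hG'bdd : ∀ i, ∃ N : ℤ, ∀ x, ϖ ^ N * G' i x ∈ A := fun i =>
        bdd_sub_mul A K₀ hϖ1 hϖ0 hdvr (hbdd i.castSucc) (hbdd (Fin.last m)) (hlK i)
      have hG'x₀ : ∀ i, G' i x₀ = 0 := fun i => by
        show G i.castSucc x₀ - G i.castSucc x₀ / γ * γ = 0
        rw [div_mul_cancel₀ _ hγ, sub_self]
      let μ : L := c (Fin.last m) + ∑ i, c i.castSucc * l i
      -- the decomposition of the given vector
      have hdec : ∀ x, ∑ j, c j * G j x = ∑ i, c i.castSucc * G' i x + μ * f x := by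
        intro x
        rw [Fin.sum_univ_castSucc]
        show _ = ∑ i, c i.castSucc * (G i.castSucc x - l i * f x) +
          (c (Fin.last m) + ∑ i, c i.castSucc * l i) * f x
        simp only [mul_sub, Finset.sum_sub_distrib, add_mul, Finset.sum_mul]
        have : ∑ i : Fin m, c i.castSucc * (l i * f x) = ∑ i : Fin m, c i.castSucc * l i * f x :=
          Finset.sum_congr rfl fun i _ => (mul_assoc _ _ _).symm
        rw [this]
        ring
      have hμγ : μ * γ ∈ A := by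
        have h := hint x₀
        rw [hdec x₀] at h
        have h0 : ∑ i, c i.castSucc * G' i x₀ = 0 :=
          Finset.sum_eq_zero fun i _ => by rw [hG'x₀ i, mul_zero]
        rwa [h0, zero_add] at h
      have hμf : ∀ x, μ * f x = μ * γ * (f x / γ) := fun x => by
        field_simp
      have hint' : ∀ x, ∑ i, c i.castSucc * G' i x ∈ A := by
        intro x
        have h := hint x
        rw [hdec x] at h
        have h2 : μ * f x ∈ A := by
          rw [hμf x]
          exact mul_mem hμγ (hmax x)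
        have := sub_mem h h2
        rwa [add_sub_cancel_right] at this
      obtain ⟨c'', hc''K, hc''⟩ := ih G' hG'rat hG'bdd (fun i => c i.castSucc) hint'
      obtain ⟨b, hbK, hbA, hbμ⟩ := hres (μ * γ) hμγ
      let μ' : L := b / γ
      have hμ'K : μ' ∈ K₀ := K₀.div_mem hbK hγK
      have hμ'f : ∀ x, μ' * f x = b * (f x / γ) := fun x => by
        show b / γ * f x = b * (f x / γ)
        field_simp
      refine ⟨Fin.snoc c'' (μ' - ∑ i, c'' i * l i), ?_, fun x => ?_⟩
      · intro j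
        refine Fin.lastCases ?_ (fun i => ?_) j
        · rw [Fin.snoc_last]
          exact K₀.sub_mem hμ'K (K₀.sum_mem fun i _ => K₀.mul_mem (hc''K i) (hlK i))
        · rw [Fin.snoc_castSucc]
          exact hc''K i
      · have hnew : ∑ j, (Fin.snoc c'' (μ' - ∑ i, c'' i * l i) : Fin (m + 1) → L) j * G j x =
            ∑ i, c'' i * G' i x + μ' * f x := by
          rw [Fin.sum_univ_castSucc]
          simp only [Fin.snoc_castSucc, Fin.snoc_last]
          show _ = ∑ i, c'' i * (G i.castSucc x - l i * f x) + μ' * f x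
          simp only [mul_sub, Finset.sum_sub_distrib, sub_mul, Finset.sum_mul]
          have : ∑ i : Fin m, c'' i * (l i * f x) = ∑ i : Fin m, c'' i * l i * f x :=
            Finset.sum_congr rfl fun i _ => (mul_assoc _ _ _).symm
          rw [this]
          ring
        rw [hnew, hdec x]
        refine ⟨add_mem (hc'' x).1 ?_, ?_⟩
        · rw [hμ'f x]
          exact mul_mem hbA (hmax x)
        · have e : ∑ i, c'' i * G' i x + μ' * f x - (∑ i, c i.castSucc * G' i x + μ * f x) =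
              (∑ i, c'' i * G' i x - ∑ i, c i.castSucc * G' i x) +
                -((μ * γ - b) * (f x / γ)) := by
            rw [hμ'f x, hμf x]
            ring
          rw [e]
          exact add_mem (hc'' x).2 (neg_mem (mul_mem_nonunits A hbμ (hmax x)))
    · -- the last vector has no nonzero coordinate
      have hf0 : ∀ x, G (Fin.last m) x = 0 := fun x => by
        by_contra h
        exact hne ⟨x, h⟩
      have hsum : ∀ (d : Fin (m + 1) → L) (x : X),
          ∑ j, d j * G j x = ∑ i : Fin m, d i.castSucc * G i.castSucc x := by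
        intro d x
        rw [Fin.sum_univ_castSucc, hf0 x, mul_zero, add_zero]
      obtain ⟨c'', hc''K, hc''⟩ := ih (fun i => G i.castSucc) (fun i x => hrat i.castSucc x)
        (fun i => hbdd i.castSucc) (fun i => c i.castSucc) (fun x => by
          have := hint x
          rwa [hsum c x] at this)
      refine ⟨Fin.snoc c'' 0, ?_, fun x => ?_⟩
      · intro j
        refine Fin.lastCases ?_ (fun i => ?_) j
        · rw [Fin.snoc_last]
          exact K₀.zero_mem
        · rw [Fin.snoc_castSucc]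
          exact hc''K i
      · rw [hsum _ x, hsum c x]
        simp only [Fin.snoc_castSucc]
        exact hc'' x

include hϖ1 hϖ0 hdvr hres in
/-- **THE TEICHMÜLLER ECHELON LEMMA.**  `V` an `L`-vector space with coordinates `co x : V →ₗ[L] L`
(`x ∈ X`); `g i` vectors with coordinates in `K₀`, each bounded (`ϖ^N • g i` has coordinates in `A`).
If an `L`-linear combination `w₁ = Σ c i • g i` has all its coordinates in `A`, there is a
`K₀`-linear combination `w = Σ c' i • g i` with all coordinates in `A` (hence in `A ∩ K₀`) and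
congruent to `w₁` modulo the maximal ideal, coordinate by coordinate. -/
theorem exists_fixed_comb {V : Type*} [AddCommGroup V] [Module L V] (co : X → V →ₗ[L] L) {m : ℕ}
    (g : Fin m → V) (hrat : ∀ i x, co x (g i) ∈ K₀)
    (hbdd : ∀ i, ∃ N : ℕ, ∀ x, ϖ ^ N * co x (g i) ∈ A) (c : Fin m → L)
    (hint : ∀ x, co x (∑ i, c i • g i) ∈ A) :
    ∃ c' : Fin m → L, (∀ i, c' i ∈ K₀) ∧ ∀ x, co x (∑ i, c' i • g i) ∈ A ∧
      co x (∑ i, c' i • g i) ∈ K₀ ∧
      co x (∑ i, c' i • g i) - co x (∑ i, c i • g i) ∈ A.nonunits := by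
  have hco : ∀ (d : Fin m → L) (x : X), co x (∑ i, d i • g i) = ∑ i, d i * co x (g i) := by
    intro d x
    rw [map_sum]
    exact Finset.sum_congr rfl fun i _ => by rw [map_smul, smul_eq_mul]
  obtain ⟨c', hc'K, hc'⟩ := exists_fixed_coeffs A K₀ hϖ1 hϖ0 hdvr hres m (fun i x => co x (g i)) hrat
    (fun i => by
      obtain ⟨N, hN⟩ := hbdd i
      exact ⟨(N : ℤ), fun x => by rw [zpow_natCast]; exact hN x⟩) c
    (fun x => by rw [← hco c x]; exact hint x)
  refine ⟨c', hc'K, fun x => ?_⟩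
  rw [hco c' x, hco c x]
  exact ⟨(hc' x).1, K₀.sum_mem fun i _ => K₀.mul_mem (hc'K i) (hrat i x), (hc' x).2⟩

end Fermat.Agent.ES.X44.TeichEchelon22
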