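/-
Programme X (S44), chapter (K), concrete tower, part 1 (helper16): **the inertia field of `A`**.

`A` a valuation subring of `ℚ̄` over the prime `p`, `v = A.valuation`, `I_A = A.inertiaSubgroupIn ℚ`.  Facts about the
inertia field `K = ℚ̄^{I_A}` in the valuation idiom of `EisGauss6`/`TotRam6` (all from main: V19 `FixRingDVR16`,
`Teich16`, S05 `Inertia`, T56 `ArtinSchreierTop5`):

* `val_apply` : `v (σ x) = v x` for `σ ∈ I_A`;
* `val_eq_zpow_of_fixed` **(k0)** : the value group of `K` is `v(p)^ℤ`; `exists_rat_val_eq_of_fixed` : the same as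
  `∃ r : ℚ, v x = v r` (the literal `K0At` asked by FreyRam2; generic in the prime `p`);
* `exists_fixed_sub_lt` : residue-onto, every `u ∈ A` is congruent mod `𝔪_A` to an `I_A`-fixed element of `A`
  (its Teichmüller representative);
* `exists_pow_lt` : separatedness, `v(p)^n < v x` for some `n` (`x ≠ 0`);
* `val_zeta`, `val_zeta_sub_one_pow` : `v ζ = 1` and `v (ζ - 1) ^ (p - 1) = v p` for a primitive `p`-th root of unity;
* `val_zeta_sub_one_lt_one`, `zeta_sub_one_ne_zero`, `val_p_le_zeta_sub_one`.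
-/
import Mathlib
import Fermat.Agent.ES.V19.Teich16
import Fermat.Agent.ES.V19.FixRingDVR16
import Fermat.Agent.S05.Inertia
import Fermat.Agent.ES.T56.ArtinSchreierTop5

set_option autoImplicit false
set_option linter.unusedSectionVars false

namespace Fermat.Agent.ES.X44.TowerBase16

open ValuationSubring Fermat.Agent.ES.V19.GammaF16 Fermat.Agent.ES.V19.TraceDescent26
  Fermat.Agent.ES.V19.Teich16 Fermat.Agent.ES.V19.FixRingDVR16

local notation "Qb" => AlgebraicClosure ℚ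
local notation "GQ" => (AlgebraicClosure ℚ ≃ₐ[ℚ] AlgebraicClosure ℚ)

variable {p : ℕ} {A : ValuationSubring Qb}

/-- the inertia group preserves the valuation. -/
theorem val_apply {σ : GQ} (hσ : σ ∈ A.inertiaSubgroupIn ℚ) (x : Qb) :
    A.valuation (σ x) = A.valuation x :=
  Fermat.Agent.S05.Inertia.valuation_apply_rat hσ x

/-- the inertia group acts trivially modulo the maximal ideal. -/
theorem val_apply_sub_lt_one {σ : GQ} (hσ : σ ∈ A.inertiaSubgroupIn ℚ) {x : Qb}
    (hx : A.valuation x ≤ 1) : A.valuation (σ x - x) < 1 :=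
  Fermat.Agent.S05.Inertia.valuation_sub_lt_one_rat hσ hx

section Over

variable (hp : p.Prime) (hA : A.LiesOverPrime p)

include hp hA

theorem val_p_lt_one : A.valuation (p : Qb) < 1 := val_ell_lt_one hp hA

theorem val_p_ne_zero : A.valuation (p : Qb) ≠ 0 := val_ell_ne_zero hp hA

/-- **(k0)** for integral elements. -/
theorem val_eq_pow_of_fixed_of_mem {x : Qb} (hx0 : x ≠ 0) (hxA : x ∈ A)
    (hfix : ∀ σ ∈ A.inertiaSubgroupIn ℚ, σ x = x) :
    ∃ m : ℕ, A.valuation x = A.valuation (p : Qb) ^ m := by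
  set x' : ↥(fixRing A (A.inertiaSubgroupIn ℚ)) := ⟨x, ⟨hxA, hfix⟩⟩ with hx'
  have hx'0 : x' ≠ 0 := fun h => hx0 (congrArg Subtype.val h)
  obtain ⟨m, u, hu, hxu⟩ := exists_eq_pow_mul_unit hp hA (le_refl _) hx'0
  refine ⟨m, ?_⟩
  have h1 : x = ((p : ↥(fixRing A (A.inertiaSubgroupIn ℚ))) : Qb) ^ m * (u : Qb) := by
    have := congrArg Subtype.val hxu
    simpa using this
  rw [h1, map_mul, map_pow, val_eq_one_of_isUnit hu, mul_one, val_natCast_fixRing hp hA (le_refl _)]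

/-- **(k0)**: the value group of the inertia field `ℚ̄^{I_A}` is `v(p)^ℤ`. -/
theorem val_eq_zpow_of_fixed {x : Qb} (hx0 : x ≠ 0)
    (hfix : ∀ σ ∈ A.inertiaSubgroupIn ℚ, σ x = x) :
    ∃ k : ℤ, A.valuation x = A.valuation (p : Qb) ^ k := by
  rcases A.mem_or_inv_mem x with hxA | hxA
  · obtain ⟨m, hm⟩ := val_eq_pow_of_fixed_of_mem hp hA hx0 hxA hfix
    exact ⟨m, by rw [hm, zpow_natCast]⟩
  · obtain ⟨m, hm⟩ := val_eq_pow_of_fixed_of_mem hp hA (inv_ne_zero hx0) hxA
      (fun σ hσ => by rw [map_inv₀, hfix σ hσ])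
    refine ⟨-(m : ℤ), ?_⟩
    rw [map_inv₀] at hm
    rw [zpow_neg, zpow_natCast, ← hm, inv_inv]

/-- **(k0)**, rational form (generic in the prime `p`): an `I_A`-fixed `x ≠ 0` has the valuation of a rational
number. -/
theorem exists_rat_val_eq_of_fixed {x : Qb} (hx0 : x ≠ 0)
    (hfix : ∀ σ ∈ A.inertiaSubgroupIn ℚ, σ x = x) :
    ∃ r : ℚ, A.valuation x = A.valuation (algebraMap ℚ Qb r) := by
  obtain ⟨k, hk⟩ := val_eq_zpow_of_fixed hp hA hx0 hfix
  refine ⟨(p : ℚ) ^ k, ?_⟩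
  have h1 : algebraMap ℚ Qb ((p : ℚ) ^ k) = (p : Qb) ^ k := by
    rw [map_zpow₀, map_natCast]
  rw [hk, h1, map_zpow₀]

/-- **Residue-onto**: every `u ∈ A` is congruent modulo `𝔪_A` to an `I_A`-fixed element of `A`. -/
theorem exists_fixed_sub_lt {u : Qb} (hu : u ∈ A) :
    ∃ c ∈ A, (∀ σ ∈ A.inertiaSubgroupIn ℚ, σ c = c) ∧ A.valuation (u - c) < 1 := by
  set y := IsLocalRing.residue A ⟨u, hu⟩ with hy
  obtain ⟨f, hf, hyf⟩ := exists_pow_card_eq hp hA y
  have hmem := teich_mem_fixRing hp hA hf hyf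
  exact ⟨teich hp hA y, teich_mem hp hA y, fun σ hσ => hmem.2 σ (inertia_le_gammaF f hσ),
    val_sub_teich hp hA hu⟩

/-- **Separatedness**: every nonzero `x` has `v(p)^n < v x` for some `n`. -/
theorem exists_pow_lt {x : Qb} (hx : x ≠ 0) :
    ∃ n : ℕ, A.valuation (p : Qb) ^ n < A.valuation x :=
  exists_pow_lt_val hp hA hx

section Zeta

variable {ζ : Qb} (hζ : IsPrimitiveRoot ζ p)

include hζ

omit hA in
theorem val_zeta : A.valuation ζ = 1 := by
  have h1 : A.valuation ζ ^ p = 1 := by rw [← map_pow, hζ.pow_eq_one, map_one]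
  rcases lt_trichotomy (A.valuation ζ) 1 with h | h | h
  · exact absurd h1 (ne_of_lt (pow_lt_one₀ zero_le h hp.ne_zero))
  · exact h
  · exact absurd h1 (ne_of_gt (one_lt_pow₀ h hp.ne_zero))

omit hA in
theorem zeta_mem : ζ ∈ A := (A.valuation_le_one_iff ζ).mp (val_zeta hp hζ).le

omit hA in
theorem zeta_sub_one_ne_zero : ζ - 1 ≠ 0 := sub_ne_zero.mpr (hζ.ne_one hp.one_lt)

omit hA in
/-- `(ζ - 1)^(p-1)` and `p` have the same valuation. -/
theorem val_zeta_sub_one_pow : A.valuation (ζ - 1) ^ (p - 1) = A.valuation (p : Qb) := by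
  have hζA : ζ ∈ A := zeta_mem hp hζ
  have hprim : IsPrimitiveRoot (⟨ζ, hζA⟩ : ↥A) p :=
    IsPrimitiveRoot.of_map_of_injective (f := A.subtype) hζ Subtype.val_injective
  obtain ⟨u, hu⟩ := Fermat.Agent.ES.T56.ArtinSchreierTop5.associated_sub_one_pow_prime hp hprim
  have h1 : (ζ - 1) ^ (p - 1) * ((u : ↥A) : Qb) = (p : Qb) := by
    have := congrArg Subtype.val hu
    simpa using this
  rw [← h1, map_mul, map_pow, A.valuation_unit u, mul_one]

theorem val_zeta_sub_one_lt_one : A.valuation (ζ - 1) < 1 := by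
  by_contra h
  push Not at h
  have h1 : 1 ≤ A.valuation (ζ - 1) ^ (p - 1) := one_le_pow₀ h
  rw [val_zeta_sub_one_pow hp hζ] at h1
  exact absurd (val_p_lt_one hp hA) (not_lt.mpr h1)

theorem val_p_le_zeta_sub_one : A.valuation (p : Qb) ≤ A.valuation (ζ - 1) := by
  rw [← val_zeta_sub_one_pow hp hζ]
  have h1 := (val_zeta_sub_one_lt_one hp hA hζ).le
  have hp1 : p - 1 ≠ 0 := Nat.sub_ne_zero_of_lt hp.one_lt
  exact pow_le_of_le_one zero_le h1 hp1

/-- the valuation of `p` as an integral power of `v (ζ - 1)`. -/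
theorem val_p_eq_zpow : A.valuation (p : Qb) = A.valuation (ζ - 1) ^ ((p - 1 : ℕ) : ℤ) := by
  rw [zpow_natCast, val_zeta_sub_one_pow hp hζ]

end Zeta

end Over

end Fermat.Agent.ES.X44.TowerBase16
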