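/-
Programme X (S44, spine `X44_SPINE14.md`), chapter (W1), leaf (SC)(b) "smooth coordinates, existence"
(helper22): **THE TEICHMÜLLER ECHELON LEMMA AT THE INERTIAL FIELD** — `TeichEchelon22.exists_fixed_comb` at
`L = ℚ̄`, `K₀ = ℚ̄^{I_A}` (`inertField A`), `ϖ = p`:
* `hdvr` from (k0) `TowerBase16.val_eq_zpow_of_fixed` (the value group of `ℚ̄^{I_A}` is `v(p)^ℤ`);
* `hres` from `TowerBase16.exists_fixed_sub_lt` (Teichmüller lifts: `A^{I_A}` has the residue field of `A`).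

**`exists_fixed_comb_inertia`** : `g_1, …, g_m ∈ V` with `I_A`-fixed coordinates and bounded denominators,
`w₁ = Σ c_i g_i` (`c_i ∈ ℚ̄`) with all coordinates in `A` ⇒ `∃ c'_i` fixed by `I_A` with `w = Σ c'_i g_i` of
coordinates in `A`, fixed by `I_A`, and `≡ w₁` modulo `𝔪_A` coordinate by coordinate.
-/
import Mathlib
import Fermat.Agent.ES.X44.TowerBase16
import Fermat.Agent.ES.X44.TeichEchelon22

set_option autoImplicit false

namespace Fermat.Agent.ES.X44.TeichInst22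

open ValuationSubring Fermat.Agent.ES.X44.TowerBase16

local notation "Qb" => AlgebraicClosure ℚ
local notation "GQ" => (AlgebraicClosure ℚ ≃ₐ[ℚ] AlgebraicClosure ℚ)

/-- the inertial field `ℚ̄^{I_A}` as a subfield of `ℚ̄`. -/
noncomputable def inertField (A : ValuationSubring Qb) : Subfield Qb :=
  (IntermediateField.fixedField (A.inertiaSubgroupIn ℚ)).toSubfield

theorem mem_inertField_iff {A : ValuationSubring Qb} {x : Qb} :
    x ∈ inertField A ↔ ∀ σ ∈ A.inertiaSubgroupIn ℚ, σ x = x := by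
  show x ∈ IntermediateField.fixedField (A.inertiaSubgroupIn ℚ) ↔ _
  rw [IntermediateField.mem_fixedField_iff]

variable {p : ℕ} (hp : p.Prime) {A : ValuationSubring Qb} (hA : A.LiesOverPrime p)

include hp hA in
/-- `A ∩ ℚ̄^{I_A}` is a discrete valuation ring with uniformiser `p`. -/
theorem hdvr_inertia : ∀ c ∈ inertField A, c ≠ 0 →
    ∃ (n : ℤ) (u : Qb), u ∈ inertField A ∧ u ∈ A ∧ u⁻¹ ∈ A ∧ c = (p : Qb) ^ n * u := by
  intro c hc hc0
  obtain ⟨k, hk⟩ := val_eq_zpow_of_fixed hp hA hc0 (mem_inertField_iff.mp hc)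
  have hp0 : (p : Qb) ≠ 0 := Nat.cast_ne_zero.mpr hp.ne_zero
  have hpk0 : (p : Qb) ^ k ≠ 0 := zpow_ne_zero _ hp0
  have hpK : (p : Qb) ∈ inertField A := natCast_mem _ p
  have hv : A.valuation (c / (p : Qb) ^ k) = 1 := by
    rw [map_div₀, map_zpow₀, hk]
    exact div_self (by rw [← map_zpow₀]; exact (Valuation.ne_zero_iff _).mpr hpk0)
  refine ⟨k, c / (p : Qb) ^ k, (inertField A).div_mem hc ((inertField A).zpow_mem hpK k), ?_, ?_, ?_⟩
  · exact (A.valuation_le_one_iff _).mp hv.le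
  · refine (A.valuation_le_one_iff _).mp ?_
    rw [map_inv₀, hv, inv_one]
  · field_simp

include hp hA in
/-- `A ∩ ℚ̄^{I_A}` has the residue field of `A`. -/
theorem hres_inertia : ∀ a ∈ A, ∃ b ∈ inertField A, b ∈ A ∧ a - b ∈ A.nonunits := by
  intro a ha
  obtain ⟨c, hcA, hcfix, hlt⟩ := exists_fixed_sub_lt hp hA ha
  exact ⟨c, mem_inertField_iff.mpr hcfix, hcA, hlt⟩

include hp hA in
/-- **the Teichmüller echelon lemma at the inertial field.** -/
theorem exists_fixed_comb_inertia {V X : Type*} [AddCommGroup V] [Module Qb V]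
    (co : X → V →ₗ[Qb] Qb) {m : ℕ} (g : Fin m → V)
    (hrat : ∀ i x, ∀ σ ∈ A.inertiaSubgroupIn ℚ, σ (co x (g i)) = co x (g i))
    (hbdd : ∀ i, ∃ N : ℕ, ∀ x, (p : Qb) ^ N * co x (g i) ∈ A) (c : Fin m → Qb)
    (hint : ∀ x, co x (∑ i, c i • g i) ∈ A) :
    ∃ c' : Fin m → Qb, (∀ i, ∀ σ ∈ A.inertiaSubgroupIn ℚ, σ (c' i) = c' i) ∧
      ∀ x, co x (∑ i, c' i • g i) ∈ A ∧
        (∀ σ ∈ A.inertiaSubgroupIn ℚ, σ (co x (∑ i, c' i • g i)) = co x (∑ i, c' i • g i)) ∧
        co x (∑ i, c' i • g i) - co x (∑ i, c i • g i) ∈ A.nonunits := by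
  have hp0 : (p : Qb) ≠ 0 := Nat.cast_ne_zero.mpr hp.ne_zero
  obtain ⟨c', hc'K, hc'⟩ := TeichEchelon22.exists_fixed_comb A (inertField A)
    (show (p : Qb) ∈ A.nonunits from val_p_lt_one hp hA) hp0 (hdvr_inertia hp hA) (hres_inertia hp hA)
    co g (fun i x => mem_inertField_iff.mpr (hrat i x)) hbdd c hint
  exact ⟨c', fun i => mem_inertField_iff.mp (hc'K i), fun x =>
    ⟨(hc' x).1, mem_inertField_iff.mp (hc' x).2.1, (hc' x).2.2⟩⟩

end Fermat.Agent.ES.X44.TeichInst22
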