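/-
Programme X (S44), chapter (W1), leaf (SC)(b), step (G2) (helper4): **THE INERTIA-FIXED LIFT.**

`A ≤ ℚ̄` a valuation subring over `p`, `I_A` its inertia group, acting on `ℚ̄·F_M` coefficientwise on
`q`-expansions (`arithmeticGalois`).  `s ∈ ℚ̄·F_M` with an `A`-integral `q`-expansion and fixed by the
whole Galois group.  For every `x₁ ∈ chart ↥A s` there is an `I_A`-FIXED `x` with an `A`-integral
`q`-expansion which is congruent to the `q`-expansion of `x₁` modulo `𝔪_A` coefficientwise, and a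
nonzero constant multiple of `x` lies in `chart ↥A s`.

Proof: `x₁` is defined over a number field `ℚ(θ)`; Lagrange descent along the (finite) `I_A`-orbit of `θ`
(helper18's `LagrangeSpan18.exists_coeffs_span`) writes `x₁ = Σ θ^i a_i` with `a_i` fixed by `I_A` and in the
`ℚ̄`-span of the conjugates of `x₁`; the Teichmüller echelon (helper22's
`TeichInst22.exists_fixed_comb_inertia`) at the coordinates "`m`-th `q`-coefficient" replaces the `θ^i` by
`I_A`-fixed constants without changing the expansion modulo `𝔪_A`.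
-/
import Mathlib
import Fermat.Agent.ES.X44.LagrangeSpan18
import Fermat.Agent.ES.X44.TeichInst22
import Fermat.Agent.ES.RED.GaloisInst21
import Fermat.Agent.ES.RED.ChartIntegralA1
import Fermat.Agent.ES.V19.DenseHens4

set_option autoImplicit false
set_option linter.unusedSectionVars false
set_option synthInstance.maxHeartbeats 400000

open HahnSeries ModularCurve AlgebraicCurve

noncomputable section

namespace Fermat.Agent.ES.X44.FixedLiftV4

open Fermat.Agent.RED.Interface4 Fermat.Agent.RED.DESC Fermat.Agent.RED.PUR.ChartGeneric22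
  Fermat.Agent.ES.RED.ChartIntegralA1

variable (A : ValuationSubring Qbar) (M : ℕ) [NeZero M]

/-! ### the action of inertia -/

/-- the action of the inertia group on `ℚ̄·F_M`, through `arithmeticGalois`. -/
@[reducible] def actIA : MulSemiringAction ↥(A.inertiaSubgroupIn ℚ) ↥(Fbar M) :=
  MulSemiringAction.compHom ↥(Fbar M)
    ((arithmeticGalois (modularFunctionFieldFull M)).comp (A.inertiaSubgroupIn ℚ).subtype)

attribute [local instance] actIA

theorem smul_IA (g : ↥(A.inertiaSubgroupIn ℚ)) (f : ↥(Fbar M)) :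
    g • f = arithmeticGalois (modularFunctionFieldFull M) (g : Qbar ≃ₐ[ℚ] Qbar) • f := rfl

/-- the `m`-th coefficient of the `q`-expansion of `σ • f`. -/
theorem coeff_smul (σ : Qbar ≃ₐ[ℚ] Qbar) (f : ↥(Fbar M)) (m : ℤ) :
    ((arithmeticGalois (modularFunctionFieldFull M) σ • f : ↥(Fbar M)) : LaurentSeries Qbar).coeff m =
      σ ((f : LaurentSeries Qbar).coeff m) := by
  rw [coe_arithmeticGalois_smul]
  rfl

/-- the action on constants. -/
theorem smul_const (σ : Qbar ≃ₐ[ℚ] Qbar) (c : Qbar) :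
    arithmeticGalois (modularFunctionFieldFull M) σ • algebraMap Qbar ↥(Fbar M) c =
      algebraMap Qbar ↥(Fbar M) (σ c) :=
  SemilinearAut.smul_algebraMap _ c

/-- semilinearity. -/
theorem smul_smul_const (σ : Qbar ≃ₐ[ℚ] Qbar) (c : Qbar) (f : ↥(Fbar M)) :
    arithmeticGalois (modularFunctionFieldFull M) σ • (c • f) =
      σ c • (arithmeticGalois (modularFunctionFieldFull M) σ • f) := by
  rw [Algebra.smul_def, Algebra.smul_def, smul_mul', smul_const]

/-! ### coordinates -/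

/-- the coefficient of a constant multiple. -/
theorem coeff_const_mul (c : Qbar) (f : ↥(Fbar M)) (m : ℤ) :
    ((algebraMap Qbar ↥(Fbar M) c * f : ↥(Fbar M)) : LaurentSeries Qbar).coeff m =
      c * (f : LaurentSeries Qbar).coeff m := by
  show ((algebraMap Qbar (LaurentSeries Qbar) c) * (f : LaurentSeries Qbar)).coeff m = _
  rw [Fermat.Agent.RED.PUR.GaussGen8.algebraMap_eq_C, HahnSeries.C_mul_eq_smul,
    HahnSeries.coeff_smul, smul_eq_mul]

/-- **the coordinates**: `f ↦` the `m`-th coefficient of its `q`-expansion. -/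
def co (m : ℤ) : ↥(Fbar M) →ₗ[Qbar] Qbar where
  toFun f := (f : LaurentSeries Qbar).coeff m
  map_add' _ _ := rfl
  map_smul' c f := by
    show ((c • f : ↥(Fbar M)) : LaurentSeries Qbar).coeff m = c * (f : LaurentSeries Qbar).coeff m
    rw [Algebra.smul_def, coeff_const_mul]

theorem co_apply (m : ℤ) (f : ↥(Fbar M)) : co M m f = (f : LaurentSeries Qbar).coeff m := rfl

/-- a series all of whose coefficients lie in `A` has an `A`-integral expansion. -/
theorem exists_series_of_coeff_mem {f : LaurentSeries Qbar} (h : ∀ m, f.coeff m ∈ A) :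
    ∃ Y : LaurentSeries ↥A, coeffMap A.subtype Y = f ∧ ∀ m, ((Y.coeff m : ↥A) : Qbar) = f.coeff m := by
  refine ⟨⟨fun m => ⟨f.coeff m, h m⟩, f.isPWO_support.mono ?_⟩, ?_, fun m => rfl⟩
  · intro m hm
    rw [Function.mem_support] at hm
    rw [HahnSeries.mem_support]
    intro h0
    apply hm
    exact Subtype.ext h0
  · ext m
    rfl

/-! ### descent to `ℚ(θ)` -/

/-- every element of `ℚ̄·F_M` is fixed by the stabiliser of some `θ ∈ ℚ̄`. -/
theorem exists_theta (x₁ : ↥(Fbar M)) :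
    ∃ θ' : Qbar, ∀ σ : Qbar ≃ₐ[ℚ] Qbar, σ θ' = θ' →
      arithmeticGalois (modularFunctionFieldFull M) σ • x₁ = x₁ := by
  obtain ⟨K, -, hK, x', -, hx'⟩ :=
    Fermat.Agent.RED.DESC.CoeffDescent1.exists_finite_descent (L := Qbar)
      (F₀ := modularFunctionFieldFull M) ⊥ x₁.2
  have := hK
  obtain ⟨α, hα⟩ := Field.exists_primitive_element ℚ ↥K
  refine ⟨(α : Qbar), fun σ hσ => ?_⟩
  have hint : IsAlgebraic ℚ α := Algebra.IsAlgebraic.isAlgebraic α
  have hadj : Algebra.adjoin ℚ {α} = ⊤ := by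
    rw [← IntermediateField.adjoin_simple_toSubalgebra_of_isAlgebraic hint, hα,
      IntermediateField.top_toSubalgebra]
  have hhom : (σ : Qbar →ₐ[ℚ] Qbar).comp K.val = K.val := by
    apply AlgHom.ext_of_adjoin_eq_top hadj
    intro a ha
    rw [Set.mem_singleton_iff] at ha
    subst ha
    exact hσ
  have hfixK : ∀ a : ↥K, σ (a : Qbar) = (a : Qbar) := fun a => DFunLike.congr_fun hhom a
  apply Subtype.ext
  rw [coe_arithmeticGalois_smul, ← hx', coeffMap_coeffMap]
  refine coeffMap_congr (RingHom.ext fun a => ?_) x'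
  exact hfixK a

/-- the orbit of a constant under inertia is finite. -/
theorem orbit_const_finite (θ' : Qbar) :
    (MulAction.orbit ↥(A.inertiaSubgroupIn ℚ) (algebraMap Qbar ↥(Fbar M) θ')).Finite := by
  have hfin : ((minpoly ℚ θ').rootSet Qbar).Finite := Polynomial.rootSet_finite _ _
  refine (hfin.image (algebraMap Qbar ↥(Fbar M))).subset ?_
  rintro _ ⟨g, rfl⟩
  refine ⟨(g : Qbar ≃ₐ[ℚ] Qbar) θ', ?_, ?_⟩
  · rw [Polynomial.mem_rootSet_of_ne (minpoly.ne_zero (Algebra.IsIntegral.isIntegral θ'))]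
    rw [← AlgEquiv.coe_toAlgHom, Polynomial.aeval_algHom_apply, minpoly.aeval, map_zero]
  · show _ = g • algebraMap Qbar ↥(Fbar M) θ'
    rw [smul_IA, smul_const]

/-! ### constant multiples in the chart -/

/-- a nonzero constant multiple of `f` lies in the chart ring. -/
def HasMul (s f : ↥(Fbar M)) : Prop :=
  ∃ d : ↥A, d ≠ 0 ∧ algebraMap Qbar ↥(Fbar M) (d : Qbar) * f ∈ chart ↥A s

variable {A M}

theorem const_mem_chart (s : ↥(Fbar M)) (d : ↥A) :
    algebraMap Qbar ↥(Fbar M) (d : Qbar) ∈ chart ↥A s :=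
  (chart ↥A s).algebraMap_mem d

theorem HasMul.of_mem {s f : ↥(Fbar M)} (h : f ∈ chart ↥A s) : HasMul A M s f :=
  ⟨1, one_ne_zero, by rw [OneMemClass.coe_one, map_one, one_mul]; exact h⟩

theorem HasMul.zero (s : ↥(Fbar M)) : HasMul A M s 0 := HasMul.of_mem (zero_mem _)

theorem HasMul.add {s f g : ↥(Fbar M)} (hf : HasMul A M s f) (hg : HasMul A M s g) :
    HasMul A M s (f + g) := by
  obtain ⟨c₁, h₁0, h₁⟩ := hf
  obtain ⟨c₂, h₂0, h₂⟩ := hg
  refine ⟨c₁ * c₂, mul_ne_zero h₁0 h₂0, ?_⟩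
  have e : algebraMap Qbar ↥(Fbar M) ((c₁ * c₂ : ↥A) : Qbar) * (f + g) =
      algebraMap Qbar ↥(Fbar M) (c₂ : Qbar) * (algebraMap Qbar ↥(Fbar M) (c₁ : Qbar) * f) +
        algebraMap Qbar ↥(Fbar M) (c₁ : Qbar) * (algebraMap Qbar ↥(Fbar M) (c₂ : Qbar) * g) := by
    rw [MulMemClass.coe_mul, map_mul]; ring
  rw [e]
  exact add_mem (mul_mem (const_mem_chart s c₂) h₁) (mul_mem (const_mem_chart s c₁) h₂)

theorem HasMul.const_mul {s f : ↥(Fbar M)} (hf : HasMul A M s f) (c' : Qbar) :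
    HasMul A M s (algebraMap Qbar ↥(Fbar M) c' * f) := by
  obtain ⟨c₁, h₁0, h₁⟩ := hf
  obtain ⟨d, hd0, hd⟩ : ∃ d : ↥A, d ≠ 0 ∧ (d : Qbar) * c' ∈ A := by
    by_cases hc0 : c' = 0
    · exact ⟨1, one_ne_zero, by rw [hc0, mul_zero]; exact A.zero_mem⟩
    rcases A.mem_or_inv_mem c' with h | h
    · exact ⟨1, one_ne_zero, by rw [OneMemClass.coe_one, one_mul]; exact h⟩
    · refine ⟨⟨c'⁻¹, h⟩, fun h0 => hc0 (inv_eq_zero.mp (congrArg Subtype.val h0)), ?_⟩
      show c'⁻¹ * c' ∈ A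
      rw [inv_mul_cancel₀ hc0]
      exact A.one_mem
  refine ⟨d * c₁, mul_ne_zero hd0 h₁0, ?_⟩
  have e : algebraMap Qbar ↥(Fbar M) ((d * c₁ : ↥A) : Qbar) * (algebraMap Qbar ↥(Fbar M) c' * f) =
      algebraMap Qbar ↥(Fbar M) ((d : Qbar) * c') * (algebraMap Qbar ↥(Fbar M) (c₁ : Qbar) * f) := by
    rw [MulMemClass.coe_mul, map_mul, map_mul]; ring
  rw [e]
  exact mul_mem (const_mem_chart s ⟨_, hd⟩) h₁

theorem HasMul.sum {s : ↥(Fbar M)} {ι : Type*} (t : Finset ι) (c : ι → Qbar) (f : ι → ↥(Fbar M))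
    (h : ∀ i, HasMul A M s (f i)) : HasMul A M s (∑ i ∈ t, c i • f i) := by
  classical
  induction t using Finset.induction_on with
  | empty => rw [Finset.sum_empty]; exact HasMul.zero s
  | insert i t hi ih =>
    rw [Finset.sum_insert hi, Algebra.smul_def]
    exact ((h i).const_mul (c i)).add ih

/-! ### the fixed lift -/

/-- **THE INERTIA-FIXED LIFT.** -/
theorem exists_fixed_lift {p : ℕ} [Fact p.Prime] (hA : A.LiesOverPrime p) {s : ↥(Fbar M)}
    (hsfix : ∀ σ : Qbar ≃ₐ[ℚ] Qbar, arithmeticGalois (modularFunctionFieldFull M) σ • s = s)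
    (hs : s ∈ intF A M) {x₁ : ↥(Fbar M)} (hx₁ : x₁ ∈ chart ↥A s) :
    ∃ x : ↥(Fbar M),
      (∀ τ ∈ A.inertiaSubgroupIn ℚ, arithmeticGalois (modularFunctionFieldFull M) τ • x = x) ∧
      (∃ c : ↥A, c ≠ 0 ∧ algebraMap Qbar ↥(Fbar M) (c : Qbar) * x ∈ chart ↥A s) ∧
      ∃ Y Y₁ : LaurentSeries ↥A, coeffMap A.subtype Y = (x : LaurentSeries Qbar) ∧
        coeffMap A.subtype Y₁ = (x₁ : LaurentSeries Qbar) ∧
        coeffMap (IsLocalRing.residue ↥A) Y = coeffMap (IsLocalRing.residue ↥A) Y₁ := by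
  classical
  have hp : p.Prime := Fact.out
  have hpA : (p : Qbar) ∈ A := ValuationSubring.nonunits_subset hA
  obtain ⟨θ', hθ'⟩ := exists_theta M x₁
  set θ : ↥(Fbar M) := algebraMap Qbar ↥(Fbar M) θ' with hθ
  let L : Subfield ↥(Fbar M) := (algebraMap Qbar ↥(Fbar M)).fieldRange
  have hθL : ∀ g : ↥(A.inertiaSubgroupIn ℚ), g • θ ∈ L := fun g => by
    rw [smul_IA, hθ, smul_const]
    exact ⟨_, rfl⟩
  have hfin := orbit_const_finite A M θ'
  have hstab : ∀ g : ↥(A.inertiaSubgroupIn ℚ), g • θ = θ → g • x₁ = x₁ := by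
    intro g hg
    rw [smul_IA, hθ, smul_const] at hg
    have h1 := (algebraMap Qbar ↥(Fbar M)).injective hg
    rw [smul_IA]
    exact hθ' _ h1
  obtain ⟨a, hafix, hsum, -, hP⟩ :=
    Fermat.Agent.ES.X44.LagrangeSpan18.exists_coeffs_span L hθL hfin hstab
  set n := hfin.toFinset.card with hn
  -- the conjugates lie in the chart
  have hconj : ∀ g : ↥(A.inertiaSubgroupIn ℚ), g • x₁ ∈ chart ↥A s := by
    rintro ⟨σ, hσ⟩
    have hσ' : σ ∈ (A.inertiaSubgroup ℚ).map (A.decompositionSubgroup ℚ).subtype := hσ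
    obtain ⟨d, -, rfl⟩ := Subgroup.mem_map.mp hσ'
    exact Fermat.Agent.ES.RED.GaloisInst21.smul_mem_chart d (hsfix _) hx₁
  obtain ⟨Y₁, hY₁⟩ := (mem_intF_iff A M).mp (chart_le_intF A M p hA hs hx₁)
  -- boundedness of the `a i`
  have hbddP : ∀ i, ∃ N : ℕ, ∀ m : ℤ,
      (p : Qbar) ^ N * ((a i : ↥(Fbar M)) : LaurentSeries Qbar).coeff m ∈ A := by
    apply hP (fun f => ∃ N : ℕ, ∀ m : ℤ,
      (p : Qbar) ^ N * ((f : ↥(Fbar M)) : LaurentSeries Qbar).coeff m ∈ A)
    · refine ⟨0, fun m => ?_⟩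
      show (p : Qbar) ^ 0 * (0 : LaurentSeries Qbar).coeff m ∈ A
      rw [HahnSeries.coeff_zero, mul_zero]
      exact A.zero_mem
    · rintro f g ⟨N₁, h₁⟩ ⟨N₂, h₂⟩
      refine ⟨N₁ + N₂, fun m => ?_⟩
      have e : (p : Qbar) ^ (N₁ + N₂) * ((f + g : ↥(Fbar M)) : LaurentSeries Qbar).coeff m =
          (p : Qbar) ^ N₂ * ((p : Qbar) ^ N₁ * (f : LaurentSeries Qbar).coeff m) +
            (p : Qbar) ^ N₁ * ((p : Qbar) ^ N₂ * (g : LaurentSeries Qbar).coeff m) := by
        show _ * ((f : LaurentSeries Qbar) + (g : LaurentSeries Qbar)).coeff m = _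
        rw [HahnSeries.coeff_add]; ring
      rw [e]
      exact A.add_mem _ _ (A.mul_mem _ _ (pow_mem hpA _) (h₁ m))
        (A.mul_mem _ _ (pow_mem hpA _) (h₂ m))
    · rintro c ⟨c', rfl⟩ f ⟨N, h⟩
      obtain ⟨N', hN'⟩ := Fermat.Agent.ES.V19.DenseHens4.exists_pow_mul_mem hp A hA c'
      refine ⟨N' + N, fun m => ?_⟩
      rw [coeff_const_mul]
      have e : (p : Qbar) ^ (N' + N) * (c' * (f : LaurentSeries Qbar).coeff m) =
          ((p : Qbar) ^ N' * c') * ((p : Qbar) ^ N * (f : LaurentSeries Qbar).coeff m) := by ring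
      rw [e]
      exact A.mul_mem _ _ hN' (h m)
    · intro g
      obtain ⟨Yg, hYg⟩ := (mem_intF_iff A M).mp (chart_le_intF A M p hA hs (hconj g))
      refine ⟨0, fun m => ?_⟩
      rw [pow_zero, one_mul, ← hYg, coeffMap_coeff]
      exact (Yg.coeff m).2
  -- the data for the echelon
  let gs : Fin n → ↥(Fbar M) := fun i => a i
  let cs : Fin n → Qbar := fun i => θ' ^ (i : ℕ)
  have hcomb : ∑ i, cs i • gs i = x₁ := by
    rw [hsum, ← Fin.sum_univ_eq_sum_range (fun i => a i * θ ^ i) n]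
    refine Finset.sum_congr rfl fun i _ => ?_
    show θ' ^ (i : ℕ) • a i = a i * θ ^ (i : ℕ)
    rw [Algebra.smul_def, map_pow, mul_comm]
  have hafix' : ∀ (i : ℕ), ∀ σ ∈ A.inertiaSubgroupIn ℚ,
      arithmeticGalois (modularFunctionFieldFull M) σ • a i = a i := fun i σ hσ => hafix ⟨σ, hσ⟩ i
  have hrat : ∀ (i : Fin n) (m : ℤ), ∀ σ ∈ A.inertiaSubgroupIn ℚ,
      σ (co M m (gs i)) = co M m (gs i) := by
    intro i m σ hσ
    rw [co_apply, ← coeff_smul, hafix' i σ hσ]
  have hbdd : ∀ i : Fin n, ∃ N : ℕ, ∀ m : ℤ, (p : Qbar) ^ N * co M m (gs i) ∈ A :=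
    fun i => hbddP i
  have hint : ∀ m : ℤ, co M m (∑ i, cs i • gs i) ∈ A := by
    intro m
    rw [hcomb, co_apply, ← hY₁, coeffMap_coeff]
    exact (Y₁.coeff m).2
  obtain ⟨c', hc'fix, hc'⟩ :=
    Fermat.Agent.ES.X44.TeichInst22.exists_fixed_comb_inertia hp hA (co M) gs hrat hbdd cs hint
  refine ⟨∑ i, c' i • gs i, ?_, ?_, ?_⟩
  · -- fixed
    intro τ hτ
    rw [Finset.smul_sum]
    refine Finset.sum_congr rfl fun i _ => ?_
    rw [smul_smul_const, hc'fix i τ hτ]
    exact congrArg _ (hafix' i τ hτ)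
  · -- a multiple in the chart
    have hPc : ∀ i, HasMul A M s (a i) := by
      apply hP (fun f => HasMul A M s f)
      · exact HasMul.zero s
      · exact fun f g hf hg => hf.add hg
      · rintro c ⟨c', rfl⟩ f hf
        exact hf.const_mul c'
      · exact fun g => HasMul.of_mem (hconj g)
    exact HasMul.sum Finset.univ c' gs (fun i => hPc i)
  · -- the expansions
    obtain ⟨Y, hY, hYc⟩ := exists_series_of_coeff_mem A
      (f := ((∑ i, c' i • gs i : ↥(Fbar M)) : LaurentSeries Qbar)) (fun m => (hc' m).1)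
    refine ⟨Y, Y₁, hY, hY₁, ?_⟩
    ext m
    rw [coeffMap_coeff, coeffMap_coeff, ← sub_eq_zero, ← map_sub, IsLocalRing.residue_eq_zero_iff]
    have h3 := (hc' m).2.2
    rw [hcomb] at h3
    have h4 : ((Y.coeff m - Y₁.coeff m : ↥A) : Qbar) =
        co M m (∑ i, c' i • gs i) - co M m x₁ := by
      rw [co_apply, co_apply, ← hYc m, ← hY₁, coeffMap_coeff]
      rfl
    rw [← h4, ValuationSubring.coe_mem_nonunits_iff] at h3
    exact h3

end Fermat.Agent.ES.X44.FixedLiftV4
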