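/-
Programme X (S44), chapter (Old), leaf TorsToForm, file 1 of 3 (helper23):
**from a Hecke eigenvector in the complex parabolic homs of `Γ₀(M)` to a normalised eigenform of level `M`**
(the `U`-free variant of `ES/LR/Final12.exists_newform_of_hom_eigenvector`).

* `exists_eigenform_of_hom_eigenvector` : a nonzero parabolic hom `φ : Γ₀(M) → ℂ` which is an eigenvector of the
  double coset operators `T_ℓ` (`ℓ ∤ M`, `P ℓ`) with eigenvalues `lam ℓ` produces a normalised eigenform `g` of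
  level `M` with `a_ℓ(g) = lam ℓ` for those `ℓ`.
-/
import Mathlib
import Fermat.Agent.ES.LR.Final12

set_option autoImplicit false
set_option linter.unusedSectionVars false

noncomputable section

namespace Fermat.Agent.ES.X44.FormOfHom23

open ModularCurve ModularCurve.Period CongruenceSubgroup CuspForm
open Fermat.Agent.ES.HEQ.FaithInst26 Fermat.Agent.ES.HEQ.FaithFinal26
open Fermat.Agent.ES.LR.Final12

variable {M : ℕ} [NeZero M]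

/-- **a Hecke eigenvector in `Par(Γ₀(M), ℂ)` gives a normalised eigenform.** -/
theorem exists_eigenform_of_hom_eigenvector
    (P : ℕ → Prop) (lam : ℕ → ℂ)
    (φ : Additive (Gamma0 M) →+ ℂ) (hφpar : φ ∈ ParC M) (hφ : φ ≠ 0)
    (heig : ∀ ℓ (hℓ : ℓ.Prime) (hℓM : ¬ ℓ ∣ M), P ℓ → dcC M ℓ hℓ hℓM φ = lam ℓ • φ) :
    ∃ g : CuspForm (Gamma0 M) 2, g.IsNormalizedEigenform ∧
      ∀ ℓ, ℓ.Prime → ¬ ℓ ∣ M → P ℓ → ModularFormClass.qCoeff g ℓ = lam ℓ := by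
  classical
  have : FiniteDimensional ℂ (CuspForm (Gamma0 M) 2) := Fermat.Agent.S21.Assembly.finite_cusp M
  have hinj := (eichlerShimura M).1
  -- the pair of cusp forms
  obtain ⟨⟨g1, g2⟩, hg⟩ : ∃ pr : CuspForm (Gamma0 M) 2 × CuspForm (Gamma0 M) 2,
      periodHomPair M pr = φ := by
    refine ⟨(periodEquiv M).symm ⟨φ, hφpar⟩, ?_⟩
    have := congrArg Subtype.val ((periodEquiv M).apply_symm_apply ⟨φ, hφpar⟩)
    exact this
  have hne : (g1, g2) ≠ (0 : CuspForm (Gamma0 M) 2 × CuspForm (Gamma0 M) 2) := by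
    intro h0
    apply hφ
    rw [← hg, h0, map_zero]
  -- eigen-equations
  have hT : ∀ ℓ (hℓ : ℓ.Prime) (hℓM : ¬ ℓ ∣ M), P ℓ →
      heckeTLin 2 hℓ hℓM g1 = lam ℓ • g1 ∧ heckeTLin 2 hℓ hℓM g2 = lam ℓ • g2 := by
    intro ℓ hℓ hℓM hP
    have h1 : periodHomPair M (heckeTLin 2 hℓ hℓM g1, heckeTLin 2 hℓ hℓM g2) =
        periodHomPair M (lam ℓ • (g1, g2)) := by
      rw [periodHomPair_hecke (dcData M) ℓ hℓ hℓM g1 g2, hg, map_smul, hg]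
      exact heig ℓ hℓ hℓM hP
    have h2 := hinj h1
    rw [Prod.smul_mk] at h2
    exact ⟨congrArg Prod.fst h2, congrArg Prod.snd h2⟩
  -- the subspace
  let V : Submodule ℂ (CuspForm (Gamma0 M) 2) :=
    ⨅ ℓ : {ℓ : ℕ // ℓ.Prime ∧ ¬ ℓ ∣ M ∧ P ℓ},
      LinearMap.ker (heckeTLin 2 ℓ.2.1 ℓ.2.2.1 - lam ℓ • (1 : Module.End ℂ _))
  have hmemV : ∀ x : CuspForm (Gamma0 M) 2, x ∈ V ↔
      ∀ ℓ (hℓ : ℓ.Prime) (hℓM : ¬ ℓ ∣ M), P ℓ → heckeTLin 2 hℓ hℓM x = lam ℓ • x := by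
    intro x
    simp only [V, Submodule.mem_iInf, LinearMap.mem_ker, LinearMap.sub_apply,
      LinearMap.smul_apply, Module.End.one_apply, sub_eq_zero, Subtype.forall]
    constructor
    · intro h1 ℓ hℓ hℓM hP
      exact h1 ℓ ⟨hℓ, hℓM, hP⟩
    · intro h1 ℓ h
      exact h1 ℓ h.1 h.2.1 h.2.2
  have hg1V : g1 ∈ V := (hmemV g1).2 fun ℓ hℓ hℓM hP => (hT ℓ hℓ hℓM hP).1
  have hg2V : g2 ∈ V := (hmemV g2).2 fun ℓ hℓ hℓM hP => (hT ℓ hℓ hℓM hP).2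
  have hVbot : V ≠ ⊥ := by
    intro hb
    apply hne
    rw [hb] at hg1V hg2V
    rw [Submodule.mem_bot] at hg1V hg2V
    rw [hg1V, hg2V]
    rfl
  -- stability
  have hstab : ∀ i, ∀ x ∈ V, heckeFam M i x ∈ V := by
    intro i x hx
    rw [hmemV] at hx ⊢
    intro ℓ hℓ hℓM hP
    have hc := (heckeFam_commute_heckeTLin i hℓ hℓM).eq
    have := congrArg (fun A : Module.End ℂ (CuspForm (Gamma0 M) 2) => A x) hc
    simp only [Module.End.mul_apply] at this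
    rw [← this, hx ℓ hℓ hℓM hP, map_smul]
  obtain ⟨w, hwV, hw0, hweig⟩ := Fermat.Agent.S49.commFamily_exists_eigenvector_mem
    (heckeFam M) heckeFam_commute V hVbot hstab
  choose μ hμ using hweig
  let lam' : ℕ → ℂ := fun ℓ => if h : ℓ.Prime then μ ⟨ℓ, h⟩ else 0
  have hlam' : ∀ ℓ (hℓ : ℓ.Prime), lam' ℓ = μ ⟨ℓ, hℓ⟩ := fun ℓ hℓ => by simp [lam', hℓ]
  have hwT : ∀ (ℓ : ℕ) (hℓ : ℓ.Prime) (hℓM : ¬ ℓ ∣ M), heckeTLin 2 hℓ hℓM w = lam' ℓ • w := by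
    intro ℓ hℓ hℓM
    rw [hlam' ℓ hℓ, ← hμ ⟨ℓ, hℓ⟩, heckeFam_of_not_dvd hℓ hℓM]
  have hwU : ∀ (r : ℕ) (_ : r.Prime) (hrM : r ∣ M), heckeULin 2 hrM w = lam' r • w := by
    intro r hr hrM
    rw [hlam' r hr, ← hμ ⟨r, hr⟩, heckeFam_of_dvd hr hrM]
  obtain ⟨g, hgn, hgl⟩ := Fermat.Agent.S49.exists_normalizedEigenform_of_eigenvector w hw0 lam'
    hwT hwU
  rw [hmemV] at hwV
  refine ⟨g, hgn, fun ℓ hℓ hℓM hP => ?_⟩
  rw [hgl ℓ hℓ]
  have h1 := hwV ℓ hℓ hℓM hP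
  rw [hwT ℓ hℓ hℓM] at h1
  have h2 : (lam' ℓ - lam ℓ) • w = 0 := by rw [sub_smul, h1, sub_self]
  rcases smul_eq_zero.mp h2 with h3 | h3
  · exact sub_eq_zero.mp h3
  · exact absurd h3 hw0

end Fermat.Agent.ES.X44.FormOfHom23
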