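/-
Programme X (S44), chapter (L2) "Frey at p" — helper28: **Galois equivariance of the transport
`S05.FreyTransport.freyEquiv`** from the Frey curve to the model `Wab a b : Y² = X³ + a X² + b X`, in the
coordinate form used by the assembly `FreyLocalAsm28`.

For `σ : K ≃ₐ[ℚ] K` with `σ t = t`:
* `freyEquiv (σ • (x, y)) = (σ X, σ Y)` where `(X, Y) = (4 x - t, 8 y + 4 x) = freyEquiv (x, y)`;
* `freyEquiv (σ • Q) = 0 ↔ Q = 0`;
* `σ` fixes `(X, Y)` iff it fixes `(x, y)` iff `σ • (x, y) = (x, y)`.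
Everything is a repackaging of the pattern inside `S05.FreyTransport.smul_eq_of_coord`.
-/
import Mathlib
import Fermat.Prelude.Def_FLTPrelim_FreyPackage
import Fermat.Prelude.Def_FLTPrelim_GaloisRep
import Fermat.Agent.S05.Defs
import Fermat.Agent.S05.FreyTransport

set_option autoImplicit false

open WeierstrassCurve WeierstrassCurve.Affine

namespace Fermat.Agent.ES.X44.FreyEquivGal28

open Fermat.Agent.S05 Fermat.Agent.S05.FreyTransport

variable (P : FreyPackage) {K : Type*} [Field K] [Algebra ℚ K] [DecidableEq K]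

/-! ### The Galois action on the points of the Frey curve, in coordinates -/

/-- `σ` fixes the point at infinity. -/
theorem smul_zero_point (σ : K ≃ₐ[ℚ] K) : σ • (0 : (P.freyCurve⁄K).Point) = 0 := rfl

/-- `σ • (x, y) = (σ x, σ y)`. -/
theorem smul_some (σ : K ≃ₐ[ℚ] K) {x y : K} (h : (P.freyCurve⁄K).Nonsingular x y) :
    ∃ h' : (P.freyCurve⁄K).Nonsingular (σ x) (σ y),
      σ • (Point.some x y h : (P.freyCurve⁄K).Point) = Point.some (σ x) (σ y) h' :=
  ⟨(Affine.baseChange_nonsingular (W := P.freyCurve) (f := σ.toAlgHom)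
      σ.toAlgHom.injective x y).mpr h, rfl⟩

/-- `σ • (x, y) = (x, y)` iff `σ` fixes both coordinates. -/
theorem smul_some_eq_self_iff (σ : K ≃ₐ[ℚ] K) {x y : K} (h : (P.freyCurve⁄K).Nonsingular x y) :
    σ • (Point.some x y h : (P.freyCurve⁄K).Point) = Point.some x y h ↔ σ x = x ∧ σ y = y := by
  obtain ⟨h', e⟩ := smul_some P σ h
  rw [e]
  constructor
  · intro h1
    have := Point.some.inj h1
    exact this
  · rintro ⟨h1, h2⟩
    simp only [h1, h2]

/-- `σ • Q = 0` iff `Q = 0`. -/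
theorem smul_eq_zero_iff (σ : K ≃ₐ[ℚ] K) (Q : (P.freyCurve⁄K).Point) : σ • Q = 0 ↔ Q = 0 := by
  rcases Q with _ | ⟨x, y, h⟩
  · exact ⟨fun _ => rfl, fun _ => rfl⟩
  · obtain ⟨h', e⟩ := smul_some P σ h
    rw [e]
    exact ⟨fun h1 => absurd h1 (by simp [Point.zero_def]), fun h1 => absurd h1 (by simp [Point.zero_def])⟩

/-- `σ` preserves `n`-torsion. -/
theorem nsmul_smul_eq_zero (σ : K ≃ₐ[ℚ] K) {n : ℕ} {Q : (P.freyCurve⁄K).Point} (hQ : n • Q = 0) :
    n • (σ • Q) = 0 := by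
  have := Point.algEquiv_smul_zsmul σ (n : ℤ) Q
  rw [natCast_zsmul, natCast_zsmul] at this
  rw [← this, hQ]
  rfl

/-! ### Equivariance of the transport -/

section Transport

variable {t a b : K} (ht : t * (t - cA P) * (t + cB P) = 0) (ha : a = 3 * t + cB P - cA P)
  (hb : b = 3 * t ^ 2 + 2 * (cB P - cA P) * t - cA P * cB P)

omit [Algebra ℚ K] [DecidableEq K] in
/-- `σ` commutes with `(x, y) ↦ (4 x - t, 8 y + 4 x)` when `σ t = t`. -/
theorem map_coord {F : Type*} [FunLike F K K] [RingHomClass F K K] (σ : F) (hσt : σ t = t)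
    (x y : K) :
    4 * σ x - t = σ (4 * x - t) ∧ 8 * σ y + 4 * σ x = σ (8 * y + 4 * x) := by
  constructor
  · rw [map_sub, map_mul, hσt, map_ofNat]
  · rw [map_add, map_mul, map_mul, map_ofNat, map_ofNat]

omit [DecidableEq K] in
/-- `σ` fixes `(X, Y) = (4 x - t, 8 y + 4 x)` iff it fixes `(x, y)`. -/
theorem coord_fixed_iff {F : Type*} [FunLike F K K] [RingHomClass F K K] (σ : F) (hσt : σ t = t)
    (x y : K) :
    (σ (4 * x - t) = 4 * x - t ∧ σ (8 * y + 4 * x) = 8 * y + 4 * x) ↔ (σ x = x ∧ σ y = y) := by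
  have : CharZero K := algebraRat.charZero K
  obtain ⟨hX, hY⟩ := map_coord σ hσt x y
  constructor
  · rintro ⟨r1, r2⟩
    have hx0 : σ x = x := by
      have := hX.trans r1
      have h4 : (4 : K) ≠ 0 := by norm_num
      exact mul_left_cancel₀ h4 (by linear_combination this)
    have hy0 : σ y = y := by
      have := hY.trans r2
      have h8 : (8 : K) ≠ 0 := by norm_num
      exact mul_left_cancel₀ h8 (by linear_combination this - 4 * hx0)
    exact ⟨hx0, hy0⟩
  · rintro ⟨r1, r2⟩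
    rw [← hX, ← hY, r1, r2]
    exact ⟨rfl, rfl⟩

/-- **Equivariance of `freyEquiv`, affine points**: the images of `(x, y)` and of `σ • (x, y)` on the
model are `(X, Y)` and `(σ X, σ Y)` with `(X, Y) = (4 x - t, 8 y + 4 x)`. -/
theorem freyEquiv_smul_some (σ : K ≃ₐ[ℚ] K) (hσt : σ t = t) {x y : K}
    (h : (P.freyCurve⁄K).Nonsingular x y) :
    ∃ (h1 : (Wab a b).toAffine.Nonsingular (4 * x - t) (8 * y + 4 * x))
      (h2 : (Wab a b).toAffine.Nonsingular (σ (4 * x - t)) (σ (8 * y + 4 * x))),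
      freyEquiv P ht ha hb (Point.some x y h) = Point.some _ _ h1 ∧
      freyEquiv P ht ha hb (σ • (Point.some x y h : (P.freyCurve⁄K).Point)) =
        Point.some _ _ h2 := by
  obtain ⟨h', es⟩ := smul_some P σ h
  obtain ⟨h1, e1⟩ := freyEquiv_some P ht ha hb h
  obtain ⟨h2, e2⟩ := freyEquiv_some P ht ha hb h'
  obtain ⟨hX, hY⟩ := map_coord σ hσt x y
  have key : ∀ (X' Y' : K) (_ : 4 * σ x - t = X') (_ : 8 * σ y + 4 * σ x = Y')
      (h'' : (Wab a b).toAffine.Nonsingular (4 * σ x - t) (8 * σ y + 4 * σ x)),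
      ∃ h3 : (Wab a b).toAffine.Nonsingular X' Y',
        (Point.some _ _ h'' : (Wab a b).toAffine.Point) = Point.some X' Y' h3 := by
    rintro X' Y' rfl rfl h''
    exact ⟨h'', rfl⟩
  obtain ⟨h3, e3⟩ := key _ _ hX hY h2
  exact ⟨h1, h3, e1, by rw [es, e2, e3]⟩

/-- **Equivariance of `freyEquiv`, in the `∃ h'` form**: if `freyEquiv Q = (X, Y)` then
`freyEquiv (σ • Q) = (σ X, σ Y)`. -/
theorem freyEquiv_smul_of_some (σ : K ≃ₐ[ℚ] K) (hσt : σ t = t) {Q : (P.freyCurve⁄K).Point}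
    {X Y : K} {h : (Wab a b).toAffine.Nonsingular X Y}
    (e : freyEquiv P ht ha hb Q = Point.some X Y h) :
    ∃ h' : (Wab a b).toAffine.Nonsingular (σ X) (σ Y),
      freyEquiv P ht ha hb (σ • Q) = Point.some (σ X) (σ Y) h' := by
  rcases Q with _ | ⟨x, y, hxy⟩
  · exfalso
    have h0 : freyEquiv P ht ha hb (Point.zero : (P.freyCurve⁄K).Point) = 0 :=
      _root_.map_zero (freyEquiv P ht ha hb)
    rw [h0] at e
    exact absurd e (by simp [Point.zero_def])
  · obtain ⟨h1, h2, e1, e2⟩ := freyEquiv_smul_some P ht ha hb σ hσt hxy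
    rw [e1] at e
    obtain ⟨rfl, rfl⟩ := Point.some.inj e
    exact ⟨h2, e2⟩

/-- The coordinates of `freyEquiv (x, y)`: `X = 4 x - t`, `Y = 8 y + 4 x`. -/
theorem coord_of_freyEquiv_some {x y : K} {hxy : (P.freyCurve⁄K).Nonsingular x y} {X Y : K}
    {h : (Wab a b).toAffine.Nonsingular X Y}
    (e : freyEquiv P ht ha hb (Point.some x y hxy) = Point.some X Y h) :
    X = 4 * x - t ∧ Y = 8 * y + 4 * x := by
  obtain ⟨h1, e1⟩ := freyEquiv_some P ht ha hb hxy
  rw [e1] at e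
  obtain ⟨rfl, rfl⟩ := Point.some.inj e
  exact ⟨rfl, rfl⟩

/-- `freyEquiv (σ • Q) = 0 ↔ Q = 0`. -/
theorem freyEquiv_smul_eq_zero_iff (σ : K ≃ₐ[ℚ] K) (Q : (P.freyCurve⁄K).Point) :
    freyEquiv P ht ha hb (σ • Q) = 0 ↔ Q = 0 := by
  rw [AddEquiv.map_eq_zero_iff, smul_eq_zero_iff]

/-- `freyEquiv Q = 0 ↔ Q = 0`. -/
theorem freyEquiv_eq_zero_iff (Q : (P.freyCurve⁄K).Point) :
    freyEquiv P ht ha hb Q = 0 ↔ Q = 0 :=
  AddEquiv.map_eq_zero_iff _

end Transport

end Fermat.Agent.ES.X44.FreyEquivGal28
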