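/-
Programme X (S44), SPINE `X44_SPINE14.md`, helper14: **the top-level chain** — the statement of S44 from the five
chapter exits of `XIface14` (quantified over all Frey packages), as hypotheses.  `Fermat/Agent/S44.lean` will be
`s44_of_chapters` applied to the five chapter theorems.
-/
import Mathlib
import Fermat.Agent.ES.X44.XIface14

set_option autoImplicit false

noncomputable section

namespace Fermat.Agent.ES.X44.S44Chain14

open WeierstrassCurve WeierstrassCurve.Affine WeierstrassCurve.Affine.Point ModularCurve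
open Fermat.Agent.RED.Interface4 (auxLevel dvd_auxLevel auxLevel_pos)
open Fermat.Agent.ES.X44.XIface14

local notation "Qb" => AlgebraicClosure ℚ

/-- **(R) chapter**: from the eigenform of `hmod` (level `N`) and irreducibility, the realisation at the auxiliary
level `N' = auxLevel p N`. -/
def RChapter : Prop :=
  ∀ (P : FreyPackage) (N N' : ℕ) [NeZero N'], P.IsConductorLevel N → P.p ∣ N → N' = auxLevel P.p N →
    GaloisRepIsIrreducible (K := AlgebraicClosure ℚ) ℚ P.freyCurve P.p →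
    ∀ (f : CuspForm (CongruenceSubgroup.Gamma0 N) 2) (W : WeierstrassCurve ℤ)
      (𝔪 : Ideal (integralClosure ℤ ℂ)),
      f.IsNormalizedEigenform → W.IsIntegralModelOf P.freyCurve → 𝔪.IsMaximal →
      (P.p : integralClosure ℤ ℂ) ∈ 𝔪 →
      (∀ ℓ : ℕ, ℓ.Prime → W.IsGoodPrimeFor ℓ → ¬ ℓ ∣ N → ℓ ≠ P.p →
        ∃ a : integralClosure ℤ ℂ, (a : ℂ) = ModularFormClass.qCoeff f ℓ ∧
          a - ((W.apOfModel ℓ : ℤ) : integralClosure ℤ ℂ) ∈ 𝔪) →
      RealExit P N' W

/-- **(NE) chapter**: irreducible ⇒ not Eisenstein. -/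
def NEChapter : Prop :=
  ∀ (P : FreyPackage) (N' : ℕ) (W : WeierstrassCurve ℤ), 0 < N' →
    W.IsIntegralModelOf P.freyCurve →
    GaloisRepIsIrreducible (K := AlgebraicClosure ℚ) ℚ P.freyCurve P.p → NonEis P N' W

/-- **(L2) chapter**: the local package at every place over `p`, when `p ∣ abc`. -/
def L2Chapter : Prop :=
  ∀ (P : FreyPackage), (P.p : ℤ) ∣ P.a * P.b * P.c →
    ∀ A : ValuationSubring Qb, A.LiesOverPrime P.p → FreyLocal P A

/-- **the geometric chapters** (K), (W1), (LL'), (Eis), (C), (W2). -/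
def GeoChapter : Prop :=
  ∀ (P : FreyPackage) (M' : ℕ) [NeZero M'] [NeZero (M' * P.p)] (W : WeierstrassCurve ℤ),
    W.IsIntegralModelOf P.freyCurve → GeoCore P M' W

/-- **(Old) chapter**. -/
def OldChapter : Prop :=
  ∀ (P : FreyPackage) (N M' : ℕ) [NeZero M'] (W : WeierstrassCurve ℤ), OldExit P N M' W

/-- **S44 from the five chapters.** -/
theorem s44_of_chapters (hR : RChapter) (hNE : NEChapter) (hL2 : L2Chapter) (hGeo : GeoChapter)
    (hOld : OldChapter) (P : FreyPackage) {N : ℕ} (hcond : P.IsConductorLevel N) (hpN : P.p ∣ N)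
    (hirr : GaloisRepIsIrreducible (K := AlgebraicClosure ℚ) ℚ P.freyCurve P.p)
    (hmod : P.ModularRepOfLevel N) : ∃ M : ℕ, M ∣ N ∧ ¬ P.p ∣ M ∧ P.ModularRepOfLevel M := by
  obtain ⟨f, W, 𝔪, hf, hW, h𝔪, hp𝔪, hcong⟩ := hmod
  have hp : P.p.Prime := P.pp
  have hp2 : P.p ≠ 2 := by
    have := P.hp5
    omega
  -- the auxiliary level
  set N' := auxLevel P.p N with hN'
  have hN'pos : 0 < N' := auxLevel_pos hcond.pos
  have hN'4 : N' = Nat.lcm N 4 := by
    rw [hN']; unfold auxLevel; rw [if_neg hp2]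
  have hpN' : P.p ∣ N' := hpN.trans (dvd_auxLevel P.p N)
  obtain ⟨M', hM'⟩ : ∃ M', N' = M' * P.p := ⟨N' / P.p, (Nat.div_mul_cancel hpN').symm⟩
  have hM'0 : M' ≠ 0 := by
    rintro rfl; rw [zero_mul] at hM'; omega
  haveI : NeZero M' := ⟨hM'0⟩
  haveI : NeZero N' := ⟨hN'pos.ne'⟩
  haveI : NeZero (M' * P.p) := ⟨by rw [← hM']; exact hN'pos.ne'⟩
  -- `p ∤ M'`, `4 ∣ M'`
  have hsq : ¬ P.p ^ 2 ∣ N := hcond.sq_not_dvd hp
  have hcop : Nat.Coprime P.p 4 := by
    have h4 : (4 : ℕ) = 2 ^ 2 := by norm_num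
    rw [h4]
    exact Nat.Coprime.pow_right 2 ((Nat.coprime_primes hp Nat.prime_two).mpr hp2)
  have hpM' : ¬ P.p ∣ M' := by
    intro h
    have h2 : P.p ^ 2 ∣ N' := by
      rw [hM', pow_two]; exact Nat.mul_dvd_mul_right h P.p
    rw [hN'4] at h2
    have h3 : P.p ^ 2 ∣ N * 4 := h2.trans (Nat.lcm_dvd_mul N 4)
    exact hsq ((Nat.Coprime.pow_left 2 hcop).dvd_of_dvd_mul_right h3)
  have h4M' : 4 ∣ M' := by
    have h4N' : 4 ∣ M' * P.p := by rw [← hM', hN'4]; exact Nat.dvd_lcm_right N 4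
    exact (Nat.Coprime.symm hcop).dvd_of_dvd_mul_right h4N'
  -- the chapters
  have hpabc : (P.p : ℤ) ∣ P.a * P.b * P.c := hcond.p_dvd_abc hpN
  have e : M' * P.p = auxLevel P.p N := by rw [← hM']
  have hpos : 0 < M' * P.p := by rw [← hM']; exact hN'pos
  have hreal : RealExit P (M' * P.p) W :=
    hR P N (M' * P.p) hcond hpN e hirr f W 𝔪 hf hW h𝔪 hp𝔪 hcong
  have hne : NonEis P (M' * P.p) W := hNE P (M' * P.p) W hpos hW hirr
  have hloc : ∀ A : ValuationSubring Qb, A.LiesOverPrime P.p → FreyLocal P A := hL2 P hpabc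
  have heig : EigBar P.p M' (fun ℓ => W.apOfModel ℓ) (GoodAt W (M' * P.p) P.p) :=
    hGeo P M' W hW hpM' h4M' hreal hne hloc
  exact hOld P N M' W hcond hpN e hW hirr heig

end Fermat.Agent.ES.X44.S44Chain14
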