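/-
Programme X (S44), chapter (L2) "Frey at p" — helper25.  STATEMENT-ONLY literals of the MODEL-LEVEL results
(on the curve `Wab a b : Y² = X³ + aX² + bX` over `ℚ̄`, at ONE valuation subring `A` over `p`), in the
coordinate style of `S05` (pairs of points `(X, Y)`, `(σ X, σ Y)`).  Only definitions; nothing is proved here.

* `MD A p a b h₀`   : the model data: `p` an odd prime with `v p < 1`, `v 2 = 1`, `v a = 1`, `b ≠ 0`,
                      `v b = v h₀ ^ p`, `v h₀ ≤ v p`  (multiplicative reduction, `p ∣ v(Δ)`).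
* `IL A a b h₀ σ`   : `σ` is inertia-like: preserves `v`, is trivial on the residue field, fixes `a b h₀`.
* `MIV`  : `σ ζ = ζ ^ m` ⇒ `σ` acts on the `p`-torsion of the kernel of reduction `E₁` by `m`.
* `MCard`: the `p`-torsion of `E₁` has at most `p` elements.
* `MV`   : BREAK CERTIFICATE in coordinates: `σ` inertia-like fixing `ζ`, `P = (X, Y)` of order `p` not fixed
           by `σ` ⇒ `X ≠ 0`, `v X = v (h₀ ^ k)` and `v X * v (ζ - 1) ≤ v (σ X - X)`.
The closeness statement `σ P - P ∈ E₁` is `S13.MultClose.mult_close` (on main).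
-/
import Mathlib
import Fermat.Prelude.Def_FLTPrelim_GaloisRep
import Fermat.Prelude.Def_FLTPrelim_Ramification
import Fermat.Agent.S05.Defs

set_option autoImplicit false

namespace Fermat.Agent.ES.X44.WabLit25

open WeierstrassCurve WeierstrassCurve.Affine Fermat.Agent.S05

local notation "Qb" => AlgebraicClosure ℚ

/-- The model data at a place `A` over the odd prime `p`. -/
structure MD (A : ValuationSubring Qb) (p : ℕ) (a b h₀ : Qb) : Prop where
  pp : p.Prime
  p3 : 3 ≤ p
  hp : A.valuation (p : Qb) < 1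
  h2 : A.valuation (2 : Qb) = 1
  ha : A.valuation a = 1
  hb0 : b ≠ 0
  hbh : A.valuation b = A.valuation h₀ ^ p
  hh : A.valuation h₀ ≤ A.valuation (p : Qb)

/-- `σ` is inertia-like at `A` and fixes the coefficients of the model. -/
structure IL (A : ValuationSubring Qb) (a b h₀ : Qb) (σ : Qb →+* Qb) : Prop where
  hv : ∀ x, A.valuation (σ x) = A.valuation x
  hr : ∀ x, A.valuation x ≤ 1 → A.valuation (σ x - x) < 1
  ha : σ a = a
  hb : σ b = b
  hh : σ h₀ = h₀

/-- **(M-iv)** an inertia-like `σ` with `σ ζ = ζ ^ m` multiplies the `p`-torsion of `E₁` by `m`. -/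
def MIV : Prop :=
  ∀ (A : ValuationSubring Qb) (p : ℕ) (a b h₀ ζ : Qb), MD A p a b h₀ → IsPrimitiveRoot ζ p →
    ∀ σ : Qb →+* Qb, IL A a b h₀ σ → ∀ m : ℕ, σ ζ = ζ ^ m →
    ∀ (X Y : Qb) (h : (Wab a b).toAffine.Nonsingular X Y)
      (h' : (Wab a b).toAffine.Nonsingular (σ X) (σ Y)),
      1 < A.valuation X → p • Point.some X Y h = 0 → p • Point.some (σ X) (σ Y) h' = 0 →
      Point.some (σ X) (σ Y) h' = m • Point.some X Y h

/-- **(M-card)** the `p`-torsion of `E₁` has at most `p` elements. -/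
def MCard : Prop :=
  ∀ (A : ValuationSubring Qb) (p : ℕ) (a b h₀ : Qb), MD A p a b h₀ →
    {ℓ : (Wab a b).toAffine.Point | InE1 A.valuation ℓ ∧ p • ℓ = 0}.Finite ∧
      {ℓ : (Wab a b).toAffine.Point | InE1 A.valuation ℓ ∧ p • ℓ = 0}.ncard ≤ p

/-- **(M-v)** the break certificate in coordinates. -/
def MV : Prop :=
  ∀ (A : ValuationSubring Qb) (p : ℕ) (a b h₀ ζ : Qb), MD A p a b h₀ → IsPrimitiveRoot ζ p →
    ∀ σ : Qb →+* Qb, IL A a b h₀ σ → σ ζ = ζ →
    ∀ (X Y : Qb) (h : (Wab a b).toAffine.Nonsingular X Y)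
      (h' : (Wab a b).toAffine.Nonsingular (σ X) (σ Y)),
      p • Point.some X Y h = 0 → p • Point.some (σ X) (σ Y) h' = 0 → ¬ (σ X = X ∧ σ Y = Y) →
      X ≠ 0 ∧ (∃ k : ℤ, A.valuation X = A.valuation (h₀ ^ k)) ∧
        A.valuation X * A.valuation (ζ - 1) ≤ A.valuation (σ X - X)

end Fermat.Agent.ES.X44.WabLit25
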