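/-
Programme X (S44), chapter (L2) "Frey at p" — helper28: **the assembly** of the local package
`XIface14.FreyLocal P A` (all places `A` over `p`, `p ∣ abc`) from the MODEL-LEVEL literals of
`WabLit25` (`MIV`, `MCard`, `MV`, on the curve `Wab a b : Y² = X³ + a X² + b X`) and two small inputs:

* `NeTopLit` : a subgroup of `E[p]` with at most `p` elements is proper            (helper10, `LNeTop10`);
* `TauLit`   : an inertia element `τ'` acting on `μ_p` by an exponent `m ≢ 1 (p)`  (helper10).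

`L := V1 P A` (the `p`-torsion in the kernel of reduction, `S13.FreyE1.V1`, ON MAIN):
 (i)   `L ≠ ⊤`       : `freyEquiv` injects `L` into `{ℓ | InE1 ℓ ∧ p • ℓ = 0}` (`MCard`), then `NeTopLit`;
 (ii)  closeness      : `S13.FreyE1.close_at_p` (ON MAIN);
 (iii) `H₁` fixes `L` : `MIV` with `m = 1`;
 (iv)  `τ'` on `L`    : `MIV` with the exponent `m` of `TauLit`, `c = m - 1`;
 (v)   break certificate: `MV`, with `z = X = 4 x₀ - t` the `X`-coordinate on the model.
The skeleton is the trichotomy of `S13.FreyE1.close_at_p` at `q = p`: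
`p ∣ ab` : `t = 0`, `(a, b) = (B - A, -AB)`, `h₀ = ab`;  `p ∣ c` : `t = A`, `(a, b) = (A + C, AC)`, `h₀ = ac`.
-/
import Mathlib
import Fermat.Prelude.Def_FLTPrelim_FreyPackage
import Fermat.Prelude.Def_FLTPrelim_GaloisRep
import Fermat.Prelude.Def_FLTPrelim_Ramification
import Fermat.Agent.S05.Defs
import Fermat.Agent.S05.FreyTransport
import Fermat.Agent.S05.Inertia
import Fermat.Agent.S05.FreyArith
import Fermat.Agent.S13.FreyE1
import Fermat.Agent.ES.X44.XIface14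
import Fermat.Agent.ES.X44.S44Chain14
import Fermat.Agent.ES.X44.WabLit25
import Fermat.Agent.ES.X44.FreyEquivGal28

set_option autoImplicit false

open WeierstrassCurve WeierstrassCurve.Affine WeierstrassCurve.Affine.Point

namespace Fermat.Agent.ES.X44.FreyLocalAsm28

open Fermat.Agent.S05 Fermat.Agent.S05.FreyTransport Fermat.Agent.S13.FreyE1
open Fermat.Agent.ES.X44.XIface14 Fermat.Agent.ES.X44.WabLit25 Fermat.Agent.ES.X44.FreyEquivGal28

local notation "Qb" => AlgebraicClosure ℚ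
local notation "GQ" => (AlgebraicClosure ℚ ≃ₐ[ℚ] AlgebraicClosure ℚ)

/-- **literal of the input (i')**: a subgroup of `E[p]` with at most `p` elements is proper. -/
def NeTopLit : Prop :=
  ∀ (P : FreyPackage) (L : AddSubgroup (Ep P)), Nat.card L ≤ P.p → L ≠ ⊤

/-- **literal of the input (iv')**: an inertia element whose exponent on `μ_p` is `≢ 1 (mod p)`. -/
def TauLit : Prop :=
  ∀ (P : FreyPackage) (A : ValuationSubring Qb), A.LiesOverPrime P.p →
    ∃ τ' ∈ A.inertiaSubgroupIn ℚ, ∃ m : ℕ,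
      (∀ μ : Qb, μ ^ P.p = 1 → τ' μ = μ ^ m) ∧ ¬ (P.p : ℤ) ∣ (m : ℤ) - 1

/-- `p ∣ n` in `ℤ` gives `v n ≤ v p`. -/
theorem val_le_of_dvd {A : ValuationSubring Qb} {p : ℕ} {n : ℤ} (h : (p : ℤ) ∣ n) :
    A.valuation (n : Qb) ≤ A.valuation (p : Qb) := by
  obtain ⟨k, rfl⟩ := h
  rw [Int.cast_mul, Int.cast_natCast, map_mul]
  calc A.valuation (p : Qb) * A.valuation (k : Qb)
      ≤ A.valuation (p : Qb) * 1 := mul_le_mul_right (Inertia.valuation_intCast_le_one k) _
    _ = A.valuation (p : Qb) := mul_one _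

/-- A `p`-th root of unity `≠ 1` is primitive (`p` prime). -/
theorem isPrimitiveRoot_of_ne_one {p : ℕ} (hp : p.Prime) {ζ : Qb} (h1 : ζ ^ p = 1) (hne : ζ ≠ 1) :
    IsPrimitiveRoot ζ p := by
  have : Fact p.Prime := ⟨hp⟩
  have := orderOf_eq_prime h1 hne
  rw [← this]
  exact IsPrimitiveRoot.orderOf ζ

/-- **The local package from the model-level statements**, for one translation parameter `t` and the
model `Wab a b` with uniformising datum `h₀` (all rational). -/
theorem freyLocal_of_model (P : FreyPackage) {A : ValuationSubring Qb}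
    (hIV : MIV) (hCard : MCard) (hV : MV)
    (hNT : ∀ L : AddSubgroup (Ep P), Nat.card L ≤ P.p → L ≠ ⊤)
    (hTau : ∃ τ' ∈ A.inertiaSubgroupIn ℚ, ∃ m : ℕ,
      (∀ μ : Qb, μ ^ P.p = 1 → τ' μ = μ ^ m) ∧ ¬ (P.p : ℤ) ∣ (m : ℤ) - 1)
    (hA : A.LiesOverPrime P.p) {t a b h₀ : Qb}
    (ht : t * (t - cA P) * (t + cB P) = 0) (ha : a = 3 * t + cB P - cA P)
    (hb : b = 3 * t ^ 2 + 2 * (cB P - cA P) * t - cA P * cB P)
    (hvt : A.valuation t ≤ 1)
    (hfix : ∀ σ : GQ, σ t = t ∧ σ a = a ∧ σ b = b ∧ σ h₀ = h₀)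
    (hh₀ : ∃ n : ℤ, h₀ = (n : Qb))
    (hMD : MD A P.p a b h₀) : FreyLocal P A := by
  have hq := P.pp
  have h2 : A.valuation (2 : Qb) = 1 := hMD.h2
  obtain ⟨ζ₀, hζ₀⟩ : ∃ ζ : Qb, IsPrimitiveRoot ζ P.p := by
    have : NeZero P.p := ⟨hq.ne_zero⟩
    exact HasEnoughRootsOfUnity.exists_primitiveRoot Qb P.p
  -- inertia elements are inertia-like on the model
  have hIL : ∀ σ : GQ, σ ∈ A.inertiaSubgroupIn ℚ → IL A a b h₀ (σ : Qb →+* Qb) := fun σ hσ =>
    ⟨fun x => Inertia.valuation_apply_rat hσ x,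
      fun _ hx => Inertia.valuation_sub_lt_one_rat hσ hx,
      (hfix σ).2.1, (hfix σ).2.2.1, (hfix σ).2.2.2⟩
  -- the action of inertia on `L` through the exponent on `μ_p`
  have key : ∀ σ : GQ, σ ∈ A.inertiaSubgroupIn ℚ → ∀ m : ℕ,
      (∀ μ : Qb, μ ^ P.p = 1 → σ μ = μ ^ m) →
      ∀ w : Ep P, w ∈ (V1 P A).toAddSubgroup → σ • w = m • w := by
    intro σ hσ m hm w hw
    apply Subtype.ext
    show σ • (w : (P.freyCurve⁄Qb).Point) = m • (w : (P.freyCurve⁄Qb).Point)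
    have hw1 : Kernel.InE1 A.valuation (w : (P.freyCurve⁄Qb).Point) := (mem_V1 P).mp hw
    have hpw : P.p • (w : (P.freyCurve⁄Qb).Point) = 0 := nsmul_eq_zero_of_mem P w
    generalize (w : (P.freyCurve⁄Qb).Point) = Q at hw1 hpw ⊢
    rcases Q with _ | ⟨x₀, y₀, hxy⟩
    · show (0 : (P.freyCurve⁄Qb).Point) = m • (0 : (P.freyCurve⁄Qb).Point)
      exact (nsmul_zero m).symm
    · obtain ⟨h1, h3, e1, e3⟩ := freyEquiv_smul_some P ht ha hb σ (hfix σ).1 hxy
      apply (freyEquiv P ht ha hb).injective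
      rw [map_nsmul, e1, e3]
      have hX : 1 < A.valuation (4 * x₀ - t) :=
        (one_lt_val_iff A.valuation h2 hvt x₀).mpr ((Kernel.inE1_some A.valuation hxy).mp hw1)
      have t1 : P.p • (Point.some _ _ h1 : (Wab a b).toAffine.Point) = 0 := by
        rw [← e1, ← map_nsmul, hpw, _root_.map_zero]
      have t3 : P.p • (Point.some _ _ h3 : (Wab a b).toAffine.Point) = 0 := by
        rw [← e3, ← map_nsmul, nsmul_smul_eq_zero P σ hpw, _root_.map_zero]
      exact hIV A P.p a b h₀ ζ₀ hMD hζ₀ (σ : Qb →+* Qb) (hIL σ hσ) m (hm ζ₀ hζ₀.pow_eq_one)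
        _ _ h1 h3 hX t1 t3
  refine ⟨(V1 P A).toAddSubgroup, ?_, ?_, ?_, ?_, ?_⟩
  · -- (i) `L ≠ ⊤`
    apply hNT
    obtain ⟨hfin, hle⟩ := hCard A P.p a b h₀ hMD
    have : Finite {ℓ : (Wab a b).toAffine.Point | S05.InE1 A.valuation ℓ ∧ P.p • ℓ = 0} :=
      hfin.to_subtype
    let f : (V1 P A).toAddSubgroup →
        {ℓ : (Wab a b).toAffine.Point | S05.InE1 A.valuation ℓ ∧ P.p • ℓ = 0} := fun w =>
      ⟨freyEquiv P ht ha hb (w.1 : (P.freyCurve⁄Qb).Point),
        (inE1_freyEquiv_iff P A.valuation h2 ht ha hb hvt _).mp ((mem_V1 P).mp w.2),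
        by rw [← map_nsmul, nsmul_eq_zero_of_mem P w.1, _root_.map_zero]⟩
    have hf : Function.Injective f := by
      intro w1 w2 h
      have h' := congrArg Subtype.val h
      exact Subtype.ext (Subtype.ext ((freyEquiv P ht ha hb).injective h'))
    calc Nat.card (V1 P A).toAddSubgroup
        ≤ Nat.card {ℓ : (Wab a b).toAffine.Point | S05.InE1 A.valuation ℓ ∧ P.p • ℓ = 0} :=
          Nat.card_le_card_of_injective f hf
      _ = {ℓ : (Wab a b).toAffine.Point | S05.InE1 A.valuation ℓ ∧ P.p • ℓ = 0}.ncard :=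
          Nat.card_coe_set_eq _
      _ ≤ P.p := hle
  · -- (ii) closeness
    intro σ hσ v
    exact close_at_p P hA hσ v
  · -- (iii) `H₁` fixes `L`
    intro τ hτ w hw
    have := key τ hτ.1 1 (fun μ hμ => by rw [pow_one]; exact hτ.2 μ hμ) w hw
    rw [this, one_smul]
  · -- (iv) `τ'` acts on `L` by `m`
    obtain ⟨τ', hτ', m, hm, hmp⟩ := hTau
    refine ⟨τ', hτ', (m : ℤ) - 1, hmp, fun w hw => ?_⟩
    rw [key τ' hτ' m hm w hw, sub_smul, one_smul, natCast_zsmul]
  · -- (v) the break certificate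
    intro v σ hσ hne
    obtain ⟨hσI, hσζ⟩ := hσ
    have hpv : P.p • (v : (P.freyCurve⁄Qb).Point) = 0 := nsmul_eq_zero_of_mem P v
    have hσt : σ t = t := (hfix σ).1
    rcases hQ : (v : (P.freyCurve⁄Qb).Point) with _ | ⟨x₀, y₀, hxy⟩
    · exfalso
      apply hne
      apply Subtype.ext
      show σ • (v : (P.freyCurve⁄Qb).Point) = (v : (P.freyCurve⁄Qb).Point)
      rw [hQ]
      rfl
    · rw [hQ] at hpv
      obtain ⟨h1, h3, e1, e3⟩ := freyEquiv_smul_some P ht ha hb σ hσt hxy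
      have t1 : P.p • (Point.some _ _ h1 : (Wab a b).toAffine.Point) = 0 := by
        rw [← e1, ← map_nsmul, hpv, _root_.map_zero]
      have t3 : P.p • (Point.some _ _ h3 : (Wab a b).toAffine.Point) = 0 := by
        rw [← e3, ← map_nsmul, nsmul_smul_eq_zero P σ hpv, _root_.map_zero]
      have hnf : ¬ (σ (4 * x₀ - t) = 4 * x₀ - t ∧ σ (8 * y₀ + 4 * x₀) = 8 * y₀ + 4 * x₀) := by
        intro hfx
        have hxy' := (coord_fixed_iff σ hσt x₀ y₀).mp hfx
        apply hne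
        apply Subtype.ext
        show σ • (v : (P.freyCurve⁄Qb).Point) = (v : (P.freyCurve⁄Qb).Point)
        rw [hQ]
        exact (smul_some_eq_self_iff P σ hxy).mpr hxy'
      -- the model statement, at the primitive root `ζ₀` first (for `X ≠ 0` and the value of `v X`)
      obtain ⟨hX0, ⟨k, hk⟩, -⟩ := hV A P.p a b h₀ ζ₀ hMD hζ₀ (σ : Qb →+* Qb) (hIL σ hσI)
        (hσζ ζ₀ hζ₀.pow_eq_one) _ _ h1 h3 t1 t3 hnf
      refine ⟨4 * x₀ - t, hX0, ?_, ?_, ?_⟩
      · intro τ hτ hτv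
        have hτv' : τ • (v : (P.freyCurve⁄Qb).Point) = (v : (P.freyCurve⁄Qb).Point) :=
          congrArg Subtype.val hτv
        rw [hQ] at hτv'
        obtain ⟨r1, -⟩ := (smul_some_eq_self_iff P τ hxy).mp hτv'
        rw [map_sub, map_mul, map_ofNat, r1, (hfix τ).1]
      · obtain ⟨n, hn⟩ := hh₀
        refine ⟨(n : ℚ) ^ k, ?_⟩
        have hcast : algebraMap ℚ Qb ((n : ℚ) ^ k) = (n : Qb) ^ k := by
          rw [map_zpow₀, map_intCast]
        rw [hk, hn, hcast]
      · intro ζ hζ1 hζne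
        have hζ : IsPrimitiveRoot ζ P.p := isPrimitiveRoot_of_ne_one hq hζ1 hζne
        exact (hV A P.p a b h₀ ζ hMD hζ (σ : Qb →+* Qb) (hIL σ hσI) (hσζ ζ hζ1)
          _ _ h1 h3 t1 t3 hnf).2.2

/-- **(L2) from the model-level statements and the two small inputs.** -/
theorem l2Chapter_of_aux (hNT : NeTopLit) (hTau : TauLit) (hIV : MIV) (hCard : MCard) (hV : MV) :
    S44Chain14.L2Chapter := by
  intro P hpabc A hA
  have hq := P.pp
  have hq2 : P.p ≠ 2 := by have := P.hp5; omega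
  have hp3 : 3 ≤ P.p := by have := P.hp5; omega
  have hv : FreyArith.LiesOver A.valuation P.p :=
    ⟨Inertia.valuation_intCast_le_one, Inertia.valuation_intCast_lt_one_iff hq hA⟩
  have h2 : A.valuation (2 : Qb) = 1 := Inertia.valuation_two_eq_one hq hA hq2
  have hvp : A.valuation (P.p : Qb) < 1 := Inertia.valuation_prime_lt_one hA
  have hcA : (cA P : Qb) = (P.a : Qb) ^ P.p := rfl
  have hcB : (cB P : Qb) = (P.b : Qb) ^ P.p := rfl
  rcases FreyArith.trichotomy P (q := P.p) with ⟨ha, hb, hc⟩ | hab | hc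
  · -- good reduction is excluded by `p ∣ abc`
    exfalso
    rcases (FreyArith.prime_int hq).dvd_or_dvd hpabc with h | h
    · rcases (FreyArith.prime_int hq).dvd_or_dvd h with h | h
      · exact ha h
      · exact hb h
    · exact hc h
  · -- `p ∣ ab`: `t = 0`, `h₀ = ab`
    obtain ⟨g1, g2, g3⟩ := FreyArith.mult_ab_val P hv hq hab
    have hb0 : -((P.a : Qb) ^ P.p * (P.b : Qb) ^ P.p) ≠ 0 := by
      rw [← mul_pow]
      exact neg_ne_zero.mpr (pow_ne_zero _ (FreyArith.ab_ne_zero P))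
    have hh : A.valuation ((P.a : Qb) * (P.b : Qb)) ≤ A.valuation (P.p : Qb) := by
      have := val_le_of_dvd (A := A) hab
      simpa using this
    exact freyLocal_of_model P hIV hCard hV (hNT P) (hTau P A hA) hA (t := 0)
      (a := (P.b : Qb) ^ P.p - (P.a : Qb) ^ P.p)
      (b := -((P.a : Qb) ^ P.p * (P.b : Qb) ^ P.p)) (h₀ := (P.a : Qb) * (P.b : Qb))
      (by ring) (by rw [hcA, hcB]; ring) (by rw [hcA, hcB]; ring) (by simp)
      (fun σ => ⟨_root_.map_zero σ, by simp, by simp, by simp⟩)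
      ⟨P.a * P.b, by push_cast; rfl⟩
      ⟨hq, hp3, hvp, h2, g1, hb0, g2, hh⟩
  · -- `p ∣ c`: `t = a ^ p`, `h₀ = ac`
    have hcc : (P.c : Qb) ^ P.p = (P.a : Qb) ^ P.p + (P.b : Qb) ^ P.p :=
      FreyArith.c_pow_eq_cast P
    have hvt : A.valuation ((P.a : Qb) ^ P.p) ≤ 1 := by
      have := Inertia.valuation_intCast_le_one (A := A) (P.a ^ P.p)
      simpa using this
    obtain ⟨g1, g2, g3⟩ := FreyArith.mult_c_val P hv hq hc
    have hb0 : (P.a : Qb) ^ P.p * (P.c : Qb) ^ P.p ≠ 0 := by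
      rw [← mul_pow]
      exact pow_ne_zero _ (FreyArith.ac_ne_zero P)
    have hh : A.valuation ((P.a : Qb) * (P.c : Qb)) ≤ A.valuation (P.p : Qb) := by
      have := val_le_of_dvd (A := A) (dvd_mul_of_dvd_right hc P.a)
      simpa using this
    exact freyLocal_of_model P hIV hCard hV (hNT P) (hTau P A hA) hA (t := (P.a : Qb) ^ P.p)
      (a := (P.a : Qb) ^ P.p + (P.c : Qb) ^ P.p)
      (b := (P.a : Qb) ^ P.p * (P.c : Qb) ^ P.p) (h₀ := (P.a : Qb) * (P.c : Qb))
      (by rw [hcA]; ring) (by rw [hcA, hcB, hcc]; ring) (by rw [hcA, hcB, hcc]; ring) hvt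
      (fun σ => ⟨by simp, by simp, by simp, by simp⟩)
      ⟨P.a * P.c, by push_cast; rfl⟩
      ⟨hq, hp3, hvp, h2, g1, hb0, g2, hh⟩

end Fermat.Agent.ES.X44.FreyLocalAsm28
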