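/-
Programme X (S44), leaf "FreyRam2" (helper3), file 1/3: **the constant term of the odd division polynomials
of a Weierstrass curve with `a₃ = a₆ = 0`, and a root of small valuation.**

* `preNormEDS'_odd_of_b_zero` : with `b = 0`, `c = -a²` the odd-index values of Mathlib's `preNormEDS'` are
  `(-1)^k a^(k(k+1))` (the recursion closes on odd indices when `b = 0`);
* `eval_zero_preΨ'_odd` : for `a₃ = a₆ = 0`, `preΨ'_{2k+1}(0) = (-1)^k a₄^(k(k+1))`
  (`(0,0)` is a `2`-torsion point; `Ψ₂Sq(0) = b₆ = 0`, `Ψ₃(0) = b₈ = -a₄²`);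
* `exists_root_val_lt_one` : over an algebraically closed valued field, `v (f(0)) < v (lc f)` gives a root of
  valuation `< 1` (product of the roots);
* `exists_root_preΨ'_val_lt_one` : if `v a₄ ^ (k(k+1)) < v (2k+1)` then `preΨ'_{2k+1}` has a root `x` with
  `v x < 1` — i.e. some `(2k+1)`-torsion point reduces to the node `(0,0)`.
-/
import Mathlib

set_option autoImplicit false

namespace Fermat.Agent.ES.X44.PsiZero3

open Polynomial

section EDS

variable {R : Type*} [CommRing R]

theorem neg_one_pow_sq (j : ℕ) : ((-1 : R) ^ j) ^ 2 = 1 := by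
  rw [← pow_mul, mul_comm, pow_mul]; simp

/-- With `b = 0` and `c = -a²` the odd-index values of `preNormEDS'` are `(-1)^k a^(k(k+1))`
(whatever `d` is). -/
theorem preNormEDS'_odd_of_b_zero (a d : R) (k : ℕ) :
    preNormEDS' (0 : R) (-(a ^ 2)) d (2 * k + 1) = (-1) ^ k * a ^ (k * (k + 1)) := by
  induction k using Nat.strong_induction_on with
  | _ k ih =>
    match k, ih with
    | 0, _ => simp
    | 1, _ => simp
    | (m + 2), ih =>
      rw [preNormEDS'_odd]
      rcases Nat.even_or_odd m with hm | hm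
      · obtain ⟨j, rfl⟩ := hm
        have hev : Even (j + j) := ⟨j, rfl⟩
        have hA : preNormEDS' (0 : R) (-(a ^ 2)) d (j + j + 1) = (-1) ^ j * a ^ (j * (j + 1)) := by
          have := ih j (by omega)
          rwa [show 2 * j + 1 = j + j + 1 by ring] at this
        have hB : preNormEDS' (0 : R) (-(a ^ 2)) d (j + j + 3) =
            -((-1) ^ j) * a ^ ((j + 1) * (j + 2)) := by
          have := ih (j + 1) (by omega)
          rw [show 2 * (j + 1) + 1 = j + j + 3 by ring, pow_succ (-1 : R) j] at this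
          rw [this]; ring
        have hR : ((-1 : R)) ^ (j + j + 2) * a ^ ((j + j + 2) * (j + j + 2 + 1)) =
            a ^ (j * (j + 1)) * (a ^ ((j + 1) * (j + 2))) ^ 3 := by
          have h1 : ((-1 : R)) ^ (j + j + 2) = 1 := by
            rw [show j + j + 2 = 2 * (j + 1) by ring, pow_mul]; simp
          rw [h1, one_mul, ← pow_mul, ← pow_add]; congr 1; ring
        rw [if_pos hev, if_pos hev, hA, hB, hR]
        have hs := neg_one_pow_sq (R := R) j
        generalize (-1 : R) ^ j = s at hs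
        generalize a ^ (j * (j + 1)) = u
        generalize a ^ ((j + 1) * (j + 2)) = w
        have hs4 : s ^ 4 = 1 := by
          have : s ^ 4 = (s ^ 2) ^ 2 := by ring
          rw [this, hs]; ring
        linear_combination (u * w ^ 3) * hs4
      · obtain ⟨j, rfl⟩ := hm
        have hodd : ¬ Even (2 * j + 1) := by
          rw [Nat.not_even_iff_odd]; exact ⟨j, rfl⟩
        have hA : preNormEDS' (0 : R) (-(a ^ 2)) d (2 * j + 1 + 4) =
            (-1) ^ j * a ^ ((j + 2) * (j + 3)) := by
          have := ih (j + 2) (by omega)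
          rw [show 2 * (j + 2) + 1 = 2 * j + 1 + 4 by ring, pow_succ (-1 : R) (j + 1), pow_succ (-1 : R) j] at this
          rw [this]; ring
        have hB : preNormEDS' (0 : R) (-(a ^ 2)) d (2 * j + 1 + 2) =
            -((-1) ^ j) * a ^ ((j + 1) * (j + 2)) := by
          have := ih (j + 1) (by omega)
          rw [show 2 * (j + 1) + 1 = 2 * j + 1 + 2 by ring, pow_succ (-1 : R) j] at this
          rw [this]; ring
        have hR : ((-1 : R)) ^ (2 * j + 1 + 2) * a ^ ((2 * j + 1 + 2) * (2 * j + 1 + 2 + 1)) =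
            -(a ^ ((j + 2) * (j + 3)) * (a ^ ((j + 1) * (j + 2))) ^ 3) := by
          have h1 : ((-1 : R)) ^ (2 * j + 1 + 2) = -1 := by
            rw [show 2 * j + 1 + 2 = 2 * (j + 1) + 1 by ring, pow_succ, pow_mul]; simp
          rw [h1, ← pow_mul, ← pow_add, neg_one_mul]; congr 2; ring
        rw [if_neg hodd, if_neg hodd, hA, hB, hR]
        have hs := neg_one_pow_sq (R := R) j
        generalize (-1 : R) ^ j = s at hs
        generalize a ^ ((j + 2) * (j + 3)) = u
        generalize a ^ ((j + 1) * (j + 2)) = w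
        have hs4 : s ^ 4 = 1 := by
          have : s ^ 4 = (s ^ 2) ^ 2 := by ring
          rw [this, hs]; ring
        linear_combination (-(u * w ^ 3)) * hs4

end EDS

section Curve

variable {R : Type*} [CommRing R] (W : WeierstrassCurve R)

/-- **Constant term of the odd division polynomials** when `a₃ = a₆ = 0`. -/
theorem eval_zero_preΨ'_odd (h3 : W.a₃ = 0) (h6 : W.a₆ = 0) (k : ℕ) :
    (W.preΨ' (2 * k + 1)).eval 0 = (-1) ^ k * W.a₄ ^ (k * (k + 1)) := by
  have hb : (evalRingHom (0 : R)) (W.Ψ₂Sq ^ 2) = 0 := by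
    simp [WeierstrassCurve.Ψ₂Sq, WeierstrassCurve.b₆, h3, h6]
  have hc : (evalRingHom (0 : R)) W.Ψ₃ = -(W.a₄ ^ 2) := by
    simp [WeierstrassCurve.Ψ₃, WeierstrassCurve.b₈, h3, h6]
  have h := map_preNormEDS' (evalRingHom (0 : R)) (W.Ψ₂Sq ^ 2) W.Ψ₃ W.preΨ₄ (2 * k + 1)
  rw [hb, hc, coe_evalRingHom] at h
  rw [WeierstrassCurve.preΨ', h]
  exact preNormEDS'_odd_of_b_zero _ _ k

end Curve

section Val

variable {F : Type*} [Field F] [IsAlgClosed F] {Γ₀ : Type*} [LinearOrderedCommGroupWithZero Γ₀]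
  (v : Valuation F Γ₀)

omit [IsAlgClosed F] in
/-- the valuation of a product of elements of valuation `≥ 1` is `≥ 1`. -/
theorem one_le_val_multiset_prod (s : Multiset F) (h : ∀ r ∈ s, 1 ≤ v r) : 1 ≤ v s.prod := by
  induction s using Multiset.induction_on with
  | empty => simp
  | cons a s ih =>
    rw [Multiset.prod_cons, map_mul]
    exact Right.one_le_mul (h a (Multiset.mem_cons_self a s))
      (ih fun r hr => h r (Multiset.mem_cons_of_mem hr))

/-- **A root of small valuation.**  If `v (f 0) < v (leadingCoeff f)` then `f` has a root of valuation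
`< 1`. -/
theorem exists_root_val_lt_one {f : F[X]} (h : v (f.eval 0) < v f.leadingCoeff) :
    ∃ r, f.IsRoot r ∧ v r < 1 := by
  by_contra hcon
  push Not at hcon
  have hf0 : f ≠ 0 := by
    rintro rfl
    simp at h
  have hev := (IsAlgClosed.splits f).eval_eq_prod_roots 0
  have hprod : 1 ≤ v ((f.roots.map (fun r => (0 : F) - r)).prod) := by
    apply one_le_val_multiset_prod
    intro r hr
    obtain ⟨s, hs, rfl⟩ := Multiset.mem_map.1 hr
    rw [zero_sub, Valuation.map_neg]
    exact hcon s ((mem_roots hf0).1 hs)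
  rw [hev, map_mul] at h
  have : v f.leadingCoeff ≤ v f.leadingCoeff * v ((f.roots.map (fun r => (0 : F) - r)).prod) :=
    le_mul_of_one_le_right' hprod
  exact absurd h (not_lt.2 this)

/-- **Some `(2k+1)`-torsion point reduces to the node**: for `a₃ = a₆ = 0` and
`v a₄ ^ (k(k+1)) < v (2k+1)`, the polynomial `preΨ'_{2k+1}` has a root of valuation `< 1`. -/
theorem exists_root_preΨ'_val_lt_one (W : WeierstrassCurve F) (h3 : W.a₃ = 0) (h6 : W.a₆ = 0)
    (k : ℕ) (hpF : ((2 * k + 1 : ℕ) : F) ≠ 0)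
    (h : v W.a₄ ^ (k * (k + 1)) < v ((2 * k + 1 : ℕ) : F)) :
    ∃ x : F, (W.preΨ' (2 * k + 1)).eval x = 0 ∧ v x < 1 := by
  have hlc : (W.preΨ' (2 * k + 1)).leadingCoeff = ((2 * k + 1 : ℕ) : F) := by
    rw [WeierstrassCurve.leadingCoeff_preΨ' W hpF, if_neg (Nat.not_even_two_mul_add_one k)]
  have h0 : v ((W.preΨ' (2 * k + 1)).eval 0) = v W.a₄ ^ (k * (k + 1)) := by
    rw [eval_zero_preΨ'_odd W h3 h6, map_mul, map_pow, map_pow, Valuation.map_neg, map_one,
      one_pow, one_mul]
  obtain ⟨r, hr, hr1⟩ := exists_root_val_lt_one v (f := W.preΨ' (2 * k + 1)) (by rw [h0, hlc]; exact h)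
  exact ⟨r, hr, hr1⟩

end Val

end Fermat.Agent.ES.X44.PsiZero3
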