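/-
Programme X (S44), leaf "FreyRam2" (helper3), file 2/3: **a `p`-torsion point reducing to the node exists, and
its `x`-coordinate has `v x ^ p = v a₄ ^ (2k)`, `1 ≤ k ≤ p - 1`.**

Setting: `W : y² + a₁xy = x³ + a₂x² + a₄x` (`a₃ = a₆ = 0`) over an algebraically closed valued field, `Δ ≠ 0`.

* `exists_equation`        : every `x` is the abscissa of an affine point (algebraically closed field);
* `exists_typeN_torsion`   : if `v a₄ ^ (k(k+1)) < v p`, `p = 2k+1` prime, some nonzero `p`-torsion point is of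
                             type N (`v x < 1`)  [`PsiZero3` + main's `DivPoly.Torsion.nsmul_eq_zero_iff_preΨ'`];
* `typeN_torsion_val`      : for a node shape, a type-N point `Q` killed by the odd prime `p` has
                             `v (x Q) ^ p = v a₄ ^ (2k)`, `1 ≤ k ≤ p - 1`
                             [main's `S13/NodeBasic.typeN_nsmul_of_prime` + `S13/NodeVal2.node_torsion_val`].
-/
import Mathlib
import Fermat.Agent.ES.X44.PsiZero3
import Fermat.Agent.DivPoly.TorsionFinal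
import Fermat.Agent.S13.NodeBasic
import Fermat.Agent.S13.NodeVal2

set_option autoImplicit false

open WeierstrassCurve WeierstrassCurve.Affine Polynomial

namespace Fermat.Agent.ES.X44.NodeTors3

open Fermat.Agent.S13.Node Fermat.Agent.S05.PairFormulas

variable {F : Type*} [Field F] {Γ₀ : Type*} [LinearOrderedCommGroupWithZero Γ₀]
  {v : Valuation F Γ₀} {W : Affine F}

/-- Over an algebraically closed field every `x` is the abscissa of an affine point. -/
theorem exists_equation [IsAlgClosed F] (W : Affine F) (x : F) : ∃ y : F, W.Equation x y := by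
  obtain ⟨y, hy⟩ := IsAlgClosed.exists_root
    (X ^ 2 + C (W.a₁ * x + W.a₃) * X - C (x ^ 3 + W.a₂ * x ^ 2 + W.a₄ * x + W.a₆) : F[X]) (by
      have : (X ^ 2 + C (W.a₁ * x + W.a₃) * X - C (x ^ 3 + W.a₂ * x ^ 2 + W.a₄ * x + W.a₆) :
          F[X]).degree = 2 := by
        compute_degree!
      rw [this]; norm_num)
  refine ⟨y, ?_⟩
  rw [Affine.equation_iff]
  simp only [IsRoot.def, eval_sub, eval_add, eval_pow, eval_X, eval_mul, eval_C] at hy
  linear_combination hy

/-- **A nonzero `p`-torsion point reducing to the node exists** as soon as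
`v a₄ ^ (k(k+1)) < v p`, `p = 2k + 1`. -/
theorem exists_typeN_torsion [IsAlgClosed F] [DecidableEq F] (hΔ : W.Δ ≠ 0) (h3 : W.a₃ = 0)
    (h6 : W.a₆ = 0) (k : ℕ) (hpF : ((2 * k + 1 : ℕ) : F) ≠ 0)
    (h : v W.a₄ ^ (k * (k + 1)) < v ((2 * k + 1 : ℕ) : F)) :
    ∃ Q : W.Point, Q ≠ 0 ∧ (2 * k + 1) • Q = 0 ∧ TypeN v Q := by
  obtain ⟨x, hx, hvx⟩ := PsiZero3.exists_root_preΨ'_val_lt_one v W h3 h6 k hpF h
  obtain ⟨y, hy⟩ := exists_equation W x
  have hns : W.Nonsingular x y := (Affine.equation_iff_nonsingular_of_Δ_ne_zero hΔ).1 hy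
  refine ⟨Point.some x y hns, Point.some_ne_zero hns, ?_, (typeN_some hns).2 hvx⟩
  exact (Fermat.Agent.DivPoly.Torsion.nsmul_eq_zero_iff_preΨ' hns ⟨k, rfl⟩).2 hx

/-- **Depth of a type-N torsion point** (main's `node_torsion_val`, with the hypothesis "all multiples
reduce to the node" discharged by `typeN_nsmul_of_prime`). -/
theorem typeN_torsion_val [DecidableEq F] (hW : NodeShape v W) {p : ℕ} (hp : p.Prime) (hp2 : p ≠ 2)
    {Q : W.Point} (hQN : TypeN v Q) (hQ : p • Q = 0) :
    ∃ k : ℕ, 1 ≤ k ∧ k ≤ p - 1 ∧ v (xc Q) ^ p = v W.a₄ ^ (2 * k) := by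
  have hQ0 : Q ≠ 0 := by
    rintro rfl
    exact not_typeN_zero hQN
  refine Fermat.Agent.S13.NodeVal2.node_torsion_val hW.a₃ hW.a₆ hW.b₂ hW.a₄ hW.a₄0 hp hp2 hQ0 hQ ?_
  intro k hk1 hk
  have hpk : ¬ p ∣ k := Nat.not_dvd_of_pos_of_lt (by omega) (by have := hp.two_le; omega)
  obtain ⟨x, y, h, hkQ, -, hx1⟩ := typeN_nsmul_of_prime hW hp hp2 hQN hQ hpk
  rw [hkQ, xc_some]
  exact hx1

end Fermat.Agent.ES.X44.NodeTors3
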