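/-
Programme X (S44), leaf "FreyRam2" (helper3), file 3/3: **the mod-`p` representation of the Frey curve is RAMIFIED
at `2`** (given the value group of the inertia field at `2`, literal `K0At 2` = (k0) of chapter (K)).

Why it is needed: `S44` quantifies over every conductor level `N` with `p ∣ N`, and `N` may be ODD; the chain
ends at a divisor of `lcm(N,4)/p · (1/2)`, which divides `N` only when `2 ∣ N`.  For odd `N` the hypothesis
`P.ModularRepOfLevel N` makes `E[p]` unramified at `2` (good reduction of `J₀(N)` at `2`), contradicting this file.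

Proof.  `P.freyCurve` has the node shape at `2` (`S13/FreyAtTwo.nodeShape`: `a₁ = 1`, `a₃ = a₆ = 0`,
`a₄ = -aᵖbᵖ/16`, `v a₄ = v 2 ^ (p m - 4)`).  Some nonzero `p`-torsion point `Q = (x, y)` reduces to the node
(`NodeTors3.exists_typeN_torsion`: constant term of `preΨ'_p`), and then `v x ^ p = v a₄ ^ (2k)`, `1 ≤ k ≤ p - 1`
(`NodeTors3.typeN_torsion_val`).  If the inertia group `I_A` fixed `E[p]` pointwise, `x` would lie in the inertia
field, so `v x = v 2 ^ d` (`K0At 2`), and `p d = 2k (p m - 4)` gives `p ∣ 8k`: impossible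
(`S13/RatTors2.arith_contra`; same endgame as main's `RatTors2.no_rational_torsion_coord` over `ℚ`).
-/
import Mathlib
import Fermat.Agent.ES.X44.NodeTors3
import Fermat.Agent.S13.FreyAtTwo
import Fermat.Agent.S13.FreyDelta
import Fermat.Agent.S13.RatTors2
import Fermat.Agent.S05.Inertia
import Fermat.Prelude.Def_FLTPrelim_GaloisRep
import Fermat.Prelude.Def_FLTPrelim_Ramification

set_option autoImplicit false

open WeierstrassCurve WeierstrassCurve.Affine WeierstrassCurve.Affine.Point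

namespace Fermat.Agent.ES.X44.FreyRamTwo3

open Fermat.Agent.S05 Fermat.Agent.S05.PairFormulas Fermat.Agent.S13 Fermat.Agent.S13.Node

local notation "Qb" => AlgebraicClosure ℚ
local notation "GQ" => (AlgebraicClosure ℚ ≃ₐ[ℚ] AlgebraicClosure ℚ)

/-- **(k0) at the prime `q`** (exit of chapter (K), prime-generic form): an element of `ℚ̄` fixed by the inertia
group of `A` has its valuation in the value group of `ℚ`. -/
def K0At (q : ℕ) : Prop :=
  ∀ A : ValuationSubring Qb, A.LiesOverPrime q → ∀ x : Qb, x ≠ 0 →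
    (∀ σ ∈ A.inertiaSubgroupIn ℚ, σ x = x) →
    ∃ r : ℚ, A.valuation x = A.valuation (algebraMap ℚ Qb r)

section Val2

variable {A : ValuationSubring Qb}

theorem val_two_ne_zero : A.valuation (2 : Qb) ≠ 0 :=
  (Valuation.ne_zero_iff _).2 two_ne_zero

theorem val_two_lt_one (hA : A.LiesOverPrime 2) : A.valuation (2 : Qb) < 1 := by
  have := Inertia.valuation_prime_lt_one (L := Qb) hA
  simpa using this

/-- a nonzero integer has valuation a power of `v 2` at a place over `2`. -/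
theorem val_intCast_eq_pow (hA : A.LiesOverPrime 2) {n : ℤ} (hn : n ≠ 0) :
    ∃ e : ℕ, A.valuation (n : Qb) = A.valuation (2 : Qb) ^ e := by
  have hfin : FiniteMultiplicity (2 : ℤ) n := Int.finiteMultiplicity_iff.2 ⟨by norm_num, hn⟩
  obtain ⟨c, hc, hnd⟩ := hfin.exists_eq_pow_mul_and_not_dvd
  refine ⟨multiplicity (2 : ℤ) n, ?_⟩
  have h1 : A.valuation ((c : ℤ) : Qb) = 1 :=
    Inertia.valuation_intCast_eq_one Nat.prime_two hA (by exact_mod_cast hnd)
  have h2 : (n : Qb) = (2 : Qb) ^ multiplicity (2 : ℤ) n * (c : Qb) := by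
    conv_lhs => rw [hc]
    push_cast
    ring
  rw [h2, map_mul, map_pow, h1, mul_one]

/-- a nonzero rational has valuation an integral power of `v 2` at a place over `2`. -/
theorem val_rat_eq_zpow (hA : A.LiesOverPrime 2) {r : ℚ} (hr : r ≠ 0) :
    ∃ d : ℤ, A.valuation (algebraMap ℚ Qb r) = A.valuation (2 : Qb) ^ d := by
  have hnum : r.num ≠ 0 := Rat.num_ne_zero.2 hr
  have hden : (r.den : ℤ) ≠ 0 := by exact_mod_cast r.den_ne_zero
  obtain ⟨e₁, h₁⟩ := val_intCast_eq_pow hA hnum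
  obtain ⟨e₂, h₂⟩ := val_intCast_eq_pow hA hden
  refine ⟨(e₁ : ℤ) - e₂, ?_⟩
  have h : algebraMap ℚ Qb r = ((r.num : ℤ) : Qb) / (((r.den : ℕ) : ℤ) : Qb) := by
    rw [eq_ratCast, Rat.cast_def]
    push_cast
    rfl
  rw [h, map_div₀, h₁, h₂, zpow_sub₀ val_two_ne_zero, zpow_natCast, zpow_natCast]

end Val2

section Frey

variable (P : FreyPackage) {A : ValuationSubring Qb}

/-- `v a₄ = v 2 ^ (p m - 4)` for the Frey curve at a place over `2`. -/
theorem val_a₄_eq (hA : A.LiesOverPrime 2) :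
    ∃ m : ℤ, A.valuation (P.freyCurve⁄Qb).a₄ = A.valuation (2 : Qb) ^ ((P.p : ℤ) * m - 4) := by
  obtain ⟨e, he⟩ := val_intCast_eq_pow hA P.hb0
  refine ⟨e, ?_⟩
  have ha : A.valuation ((P.a : ℤ) : Qb) = 1 :=
    Inertia.valuation_intCast_eq_one Nat.prime_two hA (by exact_mod_cast FreyAtTwo.not_two_dvd_a P)
  have hspec := congrArg (Int.cast : ℤ → Qb) (FreyAtTwo.a₄Half_spec P)
  push_cast at hspec
  have h16 : (16 : Qb) * (P.freyCurve⁄Qb).a₄ = -((P.a : Qb) ^ P.p) * (P.b : Qb) ^ P.p := by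
    rw [FreyAtTwo.a₄_eq, hspec]
    push_cast
    ring
  have hv := congrArg A.valuation h16
  rw [map_mul, map_mul, Valuation.map_neg, map_pow, map_pow, ha, one_pow, one_mul, he,
    show (16 : Qb) = 2 ^ 4 by norm_num, map_pow] at hv
  have h4 : A.valuation (2 : Qb) ^ 4 ≠ 0 := pow_ne_zero _ val_two_ne_zero
  have key : A.valuation (P.freyCurve⁄Qb).a₄ =
      A.valuation (2 : Qb) ^ (P.p * e) / A.valuation (2 : Qb) ^ 4 := by
    rw [eq_div_iff h4, mul_comm, hv, ← pow_mul, mul_comm]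
  rw [key, show ((P.p : ℤ) * (e : ℤ) - 4) = ((P.p * e : ℕ) : ℤ) - ((4 : ℕ) : ℤ) by push_cast; ring,
    zpow_sub₀ val_two_ne_zero, zpow_natCast, zpow_natCast]

/-- **The mod-`p` representation of the Frey curve is ramified at `2`.** -/
theorem frey_ramified_at_two (hK0 : K0At 2) (P : FreyPackage) (A : ValuationSubring Qb)
    (hA : A.LiesOverPrime 2) :
    ∃ σ ∈ A.inertiaSubgroupIn ℚ,
      ∃ Q : Submodule.torsionBy ℤ ((P.freyCurve : Affine ℚ)⁄Qb).Point P.p, σ • Q ≠ Q := by
  classical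
  by_contra hcon
  push Not at hcon
  have hp : P.p.Prime := P.pp
  have hp5 : 5 ≤ P.p := P.hp5
  have hp2 : P.p ≠ 2 := by omega
  have hW : NodeShape A.valuation (P.freyCurve⁄Qb) := FreyAtTwo.nodeShape (K := Qb) P hA
  have hΔ : (P.freyCurve⁄Qb).Δ ≠ 0 := FreyDelta.freyCurve_baseChange_Δ_ne_zero P Qb
  have hpv : A.valuation (P.p : Qb) = 1 :=
    Inertia.valuation_prime_eq_one Nat.prime_two hA P.pp (Ne.symm hp2)
  -- a `p`-torsion point reducing to the node
  obtain ⟨k, hk⟩ : ∃ k, P.p = 2 * k + 1 := P.hp_odd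
  have hk1 : 1 ≤ k := by omega
  have hpF : ((2 * k + 1 : ℕ) : Qb) ≠ 0 := by
    rw [← hk]; exact_mod_cast hp.ne_zero
  have hlt : A.valuation (P.freyCurve⁄Qb).a₄ ^ (k * (k + 1)) <
      A.valuation ((2 * k + 1 : ℕ) : Qb) := by
    rw [← hk, hpv]
    exact pow_lt_one₀ zero_le hW.a₄ (Nat.mul_ne_zero (by omega) (by omega))
  obtain ⟨Q, hQ0, hQp, hQN⟩ :=
    NodeTors3.exists_typeN_torsion (v := A.valuation) hΔ hW.a₃ hW.a₆ k hpF hlt
  rw [← hk] at hQp
  obtain ⟨k', hk'1, hk'2, hval⟩ := NodeTors3.typeN_torsion_val hW hp hp2 hQN hQp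
  -- its `x`-coordinate is fixed by the inertia group
  obtain ⟨x, y, h, rfl, hx1⟩ := hQN
  rw [xc_some] at hval
  have hmem : (Point.some x y h : ((P.freyCurve : Affine ℚ)⁄Qb).Point) ∈
      Submodule.torsionBy ℤ ((P.freyCurve : Affine ℚ)⁄Qb).Point P.p := by
    rw [Submodule.mem_torsionBy_iff, natCast_zsmul]; exact hQp
  have hfix : ∀ σ ∈ A.inertiaSubgroupIn ℚ, σ x = x := by
    intro σ hσ
    have h1 := congrArg Subtype.val (hcon σ hσ ⟨_, hmem⟩)
    have h₀' : (P.freyCurve⁄Qb).Nonsingular (σ x) (σ y) :=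
      (Affine.baseChange_nonsingular (W := P.freyCurve) (f := σ.toAlgHom)
        σ.toAlgHom.injective x y).mpr h
    have hs : σ • (Point.some x y h : (P.freyCurve⁄Qb).Point) =
        Point.some (σ x) (σ y) h₀' := rfl
    change σ • (Point.some x y h : (P.freyCurve⁄Qb).Point) = Point.some x y h at h1
    rw [hs, Point.some.injEq] at h1
    exact h1.1
  have hx0 : x ≠ 0 := by
    rintro rfl
    rw [_root_.map_zero, zero_pow hp.ne_zero] at hval
    exact pow_ne_zero _ hW.val_a₄_ne_zero hval.symm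
  obtain ⟨r, hr⟩ := hK0 A hA x hx0 hfix
  have hr0 : r ≠ 0 := by
    rintro rfl
    rw [_root_.map_zero, _root_.map_zero] at hr
    exact (Valuation.ne_zero_iff _).2 hx0 hr
  obtain ⟨d, hd⟩ := val_rat_eq_zpow hA hr0
  obtain ⟨m, hm⟩ := val_a₄_eq P hA
  have h2pos : 0 < A.valuation (2 : Qb) := zero_lt_iff.2 val_two_ne_zero
  rw [hr, hd, hm, ← zpow_natCast, ← zpow_natCast, ← zpow_mul, ← zpow_mul,
    zpow_right_inj₀ h2pos (val_two_lt_one hA).ne] at hval
  push_cast at hval
  exact RatTors2.arith_contra hp hp5 hk'1 hk'2 hval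

end Frey

end Fermat.Agent.ES.X44.FreyRamTwo3
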