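/-
Programme X (S44), chapter (K), leaf (k0) in PRIME-GENERIC form (helper6; asked by helper3 for `FreyRam2`
at `q = 2` and used by chapter (K) at `q = p`):

  for EVERY prime `q`, every valuation subring `A` of `ℚ̄` over `q` and every nonzero `x ∈ ℚ̄` fixed by the
  inertia group `I_A`:  `v_A(x) = v_A(q)^m` for some `m : ℤ`; in particular `v_A(x) = v_A(r)` for a rational `r`.

This is a direct corollary of main's `V19/FixRingDVR16.exists_eq_pow_mul_unit` (which is already stated for an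
arbitrary prime `ℓ`): apply it to `x` or to `x⁻¹`, whichever lies in `A`.

`K0At q` is literally the proposition quoted by helper3 (message of 18:05Z):
  `∀ A | q, ∀ x ≠ 0, (∀ σ ∈ I_A, σ x = x) → ∃ r : ℚ, A.valuation x = A.valuation (algebraMap ℚ Qb r)`.
-/
import Mathlib
import Fermat.Agent.ES.V19.FixRingDVR16

set_option autoImplicit false

namespace Fermat.Agent.ES.X44.K0Gen6

open ValuationSubring Fermat.Agent.ES.V19.TraceDescent26 Fermat.Agent.ES.V19.FixRingDVR16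

local notation "Qbar" => AlgebraicClosure ℚ

/-- integral case: `x ∈ A`, `x ≠ 0`, `I_A`-fixed ⇒ `v x = v(q)^m`, `m : ℕ`. -/
theorem exists_val_eq_pow_of_mem {A : ValuationSubring Qbar} {q : ℕ} (hq : q.Prime)
    (hA : A.LiesOverPrime q) {x : Qbar} (hx : x ≠ 0) (hxA : x ∈ A)
    (hfix : ∀ σ ∈ A.inertiaSubgroupIn ℚ, σ x = x) :
    ∃ m : ℕ, A.valuation x = A.valuation (q : Qbar) ^ m := by
  have hmem : x ∈ fixRing A (A.inertiaSubgroupIn ℚ) := ⟨hxA, hfix⟩
  have hne : (⟨x, hmem⟩ : ↥(fixRing A (A.inertiaSubgroupIn ℚ))) ≠ 0 := by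
    intro h0
    exact hx (congrArg Subtype.val h0)
  obtain ⟨m, u, hu, hxu⟩ := exists_eq_pow_mul_unit hq hA (le_refl _) hne
  refine ⟨m, ?_⟩
  have hval := congrArg (fun z : ↥(fixRing A (A.inertiaSubgroupIn ℚ)) => A.valuation (z : Qbar)) hxu
  simp only [Subring.coe_mul, Subring.coe_pow, map_mul, map_pow, val_eq_one_of_isUnit hu, mul_one,
    val_natCast_fixRing hq hA (le_refl _)] at hval
  exact hval

/-- **(k0), exact form**: a nonzero `I_A`-fixed `x` has `v x = v(q)^m`, `m : ℤ`. -/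
theorem exists_val_eq_zpow {A : ValuationSubring Qbar} {q : ℕ} (hq : q.Prime)
    (hA : A.LiesOverPrime q) {x : Qbar} (hx : x ≠ 0)
    (hfix : ∀ σ ∈ A.inertiaSubgroupIn ℚ, σ x = x) :
    ∃ m : ℤ, A.valuation x = A.valuation (q : Qbar) ^ m := by
  rcases A.mem_or_inv_mem x with hxA | hxA
  · obtain ⟨m, hm⟩ := exists_val_eq_pow_of_mem hq hA hx hxA hfix
    exact ⟨(m : ℤ), by rw [hm, zpow_natCast]⟩
  · have hfix' : ∀ σ ∈ A.inertiaSubgroupIn ℚ, σ x⁻¹ = x⁻¹ := fun σ hσ => by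
      rw [map_inv₀, hfix σ hσ]
    obtain ⟨m, hm⟩ := exists_val_eq_pow_of_mem hq hA (inv_ne_zero hx) hxA hfix'
    refine ⟨-(m : ℤ), ?_⟩
    rw [map_inv₀] at hm
    rw [zpow_neg, zpow_natCast, ← hm, inv_inv]

/-- **(k0), rational form**: a nonzero `I_A`-fixed `x` has the valuation of a rational number. -/
theorem exists_val_eq_rat {A : ValuationSubring Qbar} {q : ℕ} (hq : q.Prime)
    (hA : A.LiesOverPrime q) {x : Qbar} (hx : x ≠ 0)
    (hfix : ∀ σ ∈ A.inertiaSubgroupIn ℚ, σ x = x) :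
    ∃ r : ℚ, A.valuation x = A.valuation (algebraMap ℚ Qbar r) := by
  obtain ⟨m, hm⟩ := exists_val_eq_zpow hq hA hx hfix
  refine ⟨(q : ℚ) ^ m, ?_⟩
  have h1 : algebraMap ℚ Qbar ((q : ℚ) ^ m) = (q : Qbar) ^ m := by
    rw [map_zpow₀, map_natCast]
  rw [h1, map_zpow₀, hm]

/-- The literal `K0At q` (helper3's wording). -/
def K0At (q : ℕ) : Prop :=
  ∀ A : ValuationSubring Qbar, A.LiesOverPrime q → ∀ x : Qbar, x ≠ 0 →
    (∀ σ ∈ A.inertiaSubgroupIn ℚ, σ x = x) →
    ∃ r : ℚ, A.valuation x = A.valuation (algebraMap ℚ Qbar r)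

/-- `K0At q` holds for every prime `q`. -/
theorem k0At {q : ℕ} (hq : q.Prime) : K0At q :=
  fun _ hA _ hx hfix => exists_val_eq_rat hq hA hx hfix

end Fermat.Agent.ES.X44.K0Gen6
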