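/-
Programme X (S44), leaf "FreyRam2" (helper3), closing file: **the mod-`p` representation of the Frey curve is
ramified at `2`, unconditionally** = `FreyRamTwo3.frey_ramified_at_two` with its only input `K0At 2` discharged by
helper6's `K0Gen6.k0At` (main's `V19/FixRingDVR16.exists_eq_pow_mul_unit` at the prime `2`).

* `frey_ramified_at_two` : for every place `A` over `2` some `σ ∈ I_A` moves some point of `E[p]`;
* `not_inertia_fixed`    : the consumer form for `OddChapter`: "`I_A` fixes `E[p]` pointwise" is absurd.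
-/
import Mathlib
import Fermat.Agent.ES.X44.FreyRamTwo3
import Fermat.Agent.ES.X44.K0Gen6

set_option autoImplicit false

open WeierstrassCurve WeierstrassCurve.Affine

namespace Fermat.Agent.ES.X44.FreyRamClosed3

local notation "Qb" => AlgebraicClosure ℚ

/-- **The mod-`p` representation of the Frey curve is ramified at `2`.** -/
theorem frey_ramified_at_two (P : FreyPackage) (A : ValuationSubring Qb) (hA : A.LiesOverPrime 2) :
    ∃ σ ∈ A.inertiaSubgroupIn ℚ,
      ∃ Q : Submodule.torsionBy ℤ ((P.freyCurve : Affine ℚ)⁄Qb).Point P.p, σ • Q ≠ Q :=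
  FreyRamTwo3.frey_ramified_at_two
    (fun A hA x hx hfix => K0Gen6.k0At Nat.prime_two A hA x hx hfix) P A hA

/-- Consumer form: the inertia group at a place over `2` does not fix `E[p]` pointwise. -/
theorem not_inertia_fixed (P : FreyPackage) (A : ValuationSubring Qb) (hA : A.LiesOverPrime 2)
    (h : ∀ σ ∈ A.inertiaSubgroupIn ℚ,
      ∀ Q : Submodule.torsionBy ℤ ((P.freyCurve : Affine ℚ)⁄Qb).Point P.p, σ • Q = Q) : False := by
  obtain ⟨σ, hσ, Q, hQ⟩ := frey_ramified_at_two P A hA
  exact hQ (h σ hσ Q)

end Fermat.Agent.ES.X44.FreyRamClosed3
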