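/-
Programme X (S44), chapter (QP), leaf L2 (helper26): **the genus of the special fibre is at most
the genus of the generic fibre**, `g̃ ≤ g`, in the abstract reduction context `SupTrick15.RedCtx`
(the converse of Programme V's `GenusSF12.GenusLe`).

From `LatticeRed26.finrank_L_le` (`l(D) ≤ l̃(r_* D)`) and Riemann's theorem in large degree on both
fibres (`H1LargeL8.exists_forall_degree_ge_finrank_L_eq`, valid in every characteristic):
`n + 1 - g = l(n P) ≤ l̃(n · r P) = n + 1 - g̃`.
-/
import Mathlib
import Fermat.Agent.ES.X44.LatticeRed26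
import Fermat.Agent.ES.V19.H1LargeL8

set_option autoImplicit false

open AlgebraicCurve

namespace Fermat.Agent.ES.X44.GenusGe26

open Fermat.Agent.X0.FF Fermat.Agent.RR.LSpace Fermat.Agent.ES.V19.GaussFrac15
  Fermat.Agent.ES.V19.SupTrick15

variable {L F k Ft : Type*} [Field L] [Field F] [Algebra L F] [Field k] [Field Ft] [Algebra k Ft]

/-- `deg (r_* D) = deg D` when all places have degree one on both sides. -/
theorem degree_mapDomain (HL : LHyp L F) (HLt : LHyp k Ft) (r : Place L F → Place k Ft)
    (D : Divisor L F) : Divisor.degree (Finsupp.mapDomain r D) = Divisor.degree D := by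
  induction D using Finsupp.induction with
  | zero => simp
  | single_add P n D _ _ ih =>
    rw [Finsupp.mapDomain_add, map_add, map_add, ih, Finsupp.mapDomain_single,
      degree_single HLt, degree_single HL]

variable {A : ValuationSubring L} {π : ↥A →+* k} {G : Subring F} {red : ↥G →+* Ft}
  {r : Place L F → Place k Ft}

/-- **(L2)** `g̃ ≤ g`. -/
theorem genusFF_le (C : RedCtx A π G red r) (HL : LHyp L F) (HLt : LHyp k Ft)
    (hP : ∀ T : Finset (Place k Ft), ∃ P : Place L F, r P ∉ T)
    (hR : ∃ γ : ℤ, ∀ D : Divisor L F,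
      Divisor.degree D + 1 - γ ≤ (Module.finrank L (riemannRochSpace D) : ℤ))
    (hRt : ∃ γ : ℤ, ∀ D : Divisor k Ft,
      Divisor.degree D + 1 - γ ≤ (Module.finrank k (riemannRochSpace D) : ℤ)) :
    genusFF k Ft ≤ genusFF L F := by
  obtain ⟨c, hc⟩ := Fermat.Agent.ES.V19.H1LargeL8.exists_forall_degree_ge_finrank_L_eq HL hR
  obtain ⟨ct, hct⟩ := Fermat.Agent.ES.V19.H1LargeL8.exists_forall_degree_ge_finrank_L_eq HLt hRt
  obtain ⟨P₀⟩ := HL.nonempty
  set n : ℤ := max c ct with hn
  set D : Divisor L F := Finsupp.single P₀ n with hD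
  have hdeg : Divisor.degree D = n := degree_single HL P₀ n
  have hdegt : Divisor.degree (Finsupp.mapDomain r D) = n := by
    rw [degree_mapDomain HL HLt r D, hdeg]
  have h1 := hc D (by rw [hdeg]; exact le_max_left _ _)
  have h2 := hct (Finsupp.mapDomain r D) (by rw [hdegt]; exact le_max_right _ _)
  have h3 : (Module.finrank L (riemannRochSpace D) : ℤ) ≤
      (Module.finrank k (riemannRochSpace (Finsupp.mapDomain r D)) : ℤ) := by
    exact_mod_cast Fermat.Agent.ES.X44.LatticeRed26.finrank_L_le C HL HLt hP D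
  rw [h1, h2, hdeg, hdegt] at h3
  have : (genusFF k Ft : ℤ) ≤ (genusFF L F : ℤ) := by linarith
  exact_mod_cast this

end Fermat.Agent.ES.X44.GenusGe26
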