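/-
Programme X (S44), chapter (L2) "Frey at p" — helper10.  Two small global inputs of `FreyLocal`
(literal `XIface14.FreyLocal`, assembly `FreyLocalAsm28`):

* `ne_top_of_card_le` : a subgroup `L` of `E[p]` with at most `p` elements is not everything
  (`#E[p] = p²`, `DivPoly.CardEq29.card_torsionBy_eq`; `Δ ≠ 0`, `S13.Supersingular`).
* `exists_inertia_exponent` : at a place `A` over `p` there is an inertia element `τ'` acting on `μ_p`
  by `μ ↦ μ ^ m` with `p ∤ m - 1` (`T56.RamOmega11.exists_inertia_exponent_ne_one`).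
-/
import Mathlib
import Fermat.Prelude.Def_FLTPrelim_FreyPackage
import Fermat.Prelude.Def_FLTPrelim_GaloisRep
import Fermat.Prelude.Def_FLTPrelim_Ramification
import Fermat.Agent.DivPoly.CardEq29
import Fermat.Agent.S13.Supersingular
import Fermat.Agent.ES.T56.RamOmega11

set_option autoImplicit false

namespace Fermat.Agent.ES.X44.LNeTop10

open WeierstrassCurve WeierstrassCurve.Affine

local notation "Qb" => AlgebraicClosure ℚ

/-- `#E[p] = p²` for the Frey curve over `ℚ̄`. -/
theorem card_Ep (P : FreyPackage) :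
    Nat.card (Submodule.torsionBy ℤ (P.freyCurve⁄Qb).Point P.p) = P.p ^ 2 :=
  Fermat.Agent.DivPoly.CardEq29.card_torsionBy_eq
    (Fermat.Agent.S13.Supersingular.freyCurve_baseChange_Δ_ne_zero P) P.hp_odd

/-- **(i) of `FreyLocal`**: a subgroup of `E[p]` with at most `p` elements is a proper subgroup. -/
theorem ne_top_of_card_le (P : FreyPackage)
    (L : AddSubgroup (Submodule.torsionBy ℤ (P.freyCurve⁄Qb).Point P.p))
    (h : Nat.card L ≤ P.p) : L ≠ ⊤ := by
  intro hL
  have h1 : Nat.card L = P.p ^ 2 := by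
    rw [hL, AddSubgroup.card_top]
    exact card_Ep P
  rw [h1] at h
  have h2 : 2 ≤ P.p := P.pp.two_le
  nlinarith

/-- **(iv) of `FreyLocal`, the inertia element**: some `τ' ∈ I_A` acts on `μ_p` through an exponent
`m ≢ 1 (mod p)`. -/
theorem exists_inertia_exponent (P : FreyPackage) (A : ValuationSubring (AlgebraicClosure ℚ))
    (hA : A.LiesOverPrime P.p) :
    ∃ τ' ∈ A.inertiaSubgroupIn ℚ, ∃ m : ℕ,
      (∀ μ : AlgebraicClosure ℚ, μ ^ P.p = 1 → τ' μ = μ ^ m) ∧ ¬ (P.p : ℤ) ∣ (m : ℤ) - 1 := by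
  have hp2 : P.p ≠ 2 := by have := P.hp5; omega
  obtain ⟨τ, hτ, m, hm, hne⟩ :=
    Fermat.Agent.ES.T56.RamOmega11.exists_inertia_exponent_ne_one A P.pp hp2 hA
  refine ⟨τ, hτ, m, hm, fun hd => hne ?_⟩
  have h1 : (1 : ℕ) ≡ m [MOD P.p] := by
    rw [Nat.modEq_iff_dvd]
    simpa using hd
  exact h1.symm

end Fermat.Agent.ES.X44.LNeTop10
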