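/-
Programme X (S44), chapter (R), file `RealGen19` (helper19): **the realisation `E[p] ↪ J₀(L)[p]` at a GENERAL
level `L`**, from ANY normalized eigenform of level `L` congruent to `W` modulo a maximal ideal `𝔪 ∋ p`.

`exists_real_level`: `E / ℚ` elliptic, `W` an integral model, `p` odd, `E[p]` irreducible, `f` an eigenform of
level `L` with `a_ℓ(f) ≡ a_ℓ(W) mod 𝔪` at the good primes `ℓ ∤ L`, `ℓ ≠ p`.  Then there is
`ι : E[p] →+ J₀(L)`, injective, `G_ℚ`-equivariant, with `T_ℓ (ι v) = a_ℓ(W) • ι v` whenever `GoodAt W L p ℓ`, and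
with values in the `p`-divisible part `range (proj 1 : T_p J₀(L) → J₀(L))` (strong form asked by (Old)).
`exists_real_level_div`: the same with the divisibility clause `∀ v k, ∃ z, p ^ k • z = ι v`.

Proof: helper18's joint eigenspace `EigenSpace18.eigM p L W` (nonzero, finite, stable, Eichler–Shimura relations,
finite level, inside the divisible part) fed to `EmbedE19.exists_injection_of_subgroup`
(Boston–Lenstra–Ribet with `det ρ_E = χ_p` from `DetChiE19`).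
-/
import Mathlib
import Fermat.Agent.ES.X44.EmbedE19
import Fermat.Agent.ES.X44.EigenSpace18

set_option autoImplicit false
set_option linter.style.haveILetI false
set_option linter.unusedSectionVars false

open WeierstrassCurve WeierstrassCurve.Affine WeierstrassCurve.Affine.Point ModularCurve

noncomputable section

namespace Fermat.Agent.ES.X44.RealGen19

open Fermat.Agent.ES.X44.FrobQuadE19 Fermat.Agent.ES.X44.EmbedE19 Fermat.Agent.ES.X44.EigenSpace18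
open Fermat.Agent.ES.X44.XIface14 (GoodAt)
open Fermat.Agent.ES.J.TateModule13 Fermat.Agent.ES.J.TateJZero13

local notation "Qb" => AlgebraicClosure ℚ
local notation "GQ" => (AlgebraicClosure ℚ ≃ₐ[ℚ] AlgebraicClosure ℚ)

variable {E : WeierstrassCurve ℚ} {p : ℕ} [hp : Fact p.Prime]

/-- **(R) at a general level, strong form.** -/
theorem exists_real_level [E.IsElliptic] {W : WeierstrassCurve ℤ} (hW : W.IsIntegralModelOf E)
    (hp2 : p ≠ 2) (hirr : GaloisRepIsIrreducible (K := Qb) ℚ E.toAffine p)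
    (L : ℕ) [NeZero L] (f : CuspForm (CongruenceSubgroup.Gamma0 L) 2)
    (𝔪 : Ideal (integralClosure ℤ ℂ)) (hf : f.IsNormalizedEigenform) (hmax : 𝔪.IsMaximal)
    (hpm : (p : integralClosure ℤ ℂ) ∈ 𝔪)
    (hcong : ∀ ℓ : ℕ, ℓ.Prime → W.IsGoodPrimeFor ℓ → ¬ ℓ ∣ L → ℓ ≠ p →
      ∃ a : integralClosure ℤ ℂ, (a : ℂ) = ModularFormClass.qCoeff f ℓ ∧
        a - ((W.apOfModel ℓ : ℤ) : integralClosure ℤ ℂ) ∈ 𝔪) :
    ∃ ι : Ep E p →+ JZero L, Function.Injective ι ∧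
      (∀ (σ : GQ) (v : Ep E p), ι (σ • v) = σ • ι v) ∧
      (∀ ℓ : Nat.Primes, GoodAt W L p ℓ → ∀ v : Ep E p,
        heckeOperatorBar L ℓ (ι v) = W.apOfModel ℓ • ι v) ∧
      ∀ v : Ep E p, ι v ∈ Set.range (proj 1 : TJ p L → JZero L) := by
  have hL0 : L ≠ 0 := NeZero.ne L
  obtain ⟨ι, hinj, heq, hmem⟩ := exists_injection_of_subgroup hW hp2 hirr (eigM p L W)
    (fun x hx => nsmul_eq_zero_of_mem hx) (eigM_ne_bot f 𝔪 hf hmax hpm hcong) finite_eigM
    (fun σ x hx => smul_mem_eigM σ hx) L.primeFactors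
    (fun ℓ hℓ hℓT hgood hℓp A hA φ hφ x hx =>
      frobenius_eigM hℓ hgood (fun hd => hℓT (Nat.mem_primeFactors.mpr ⟨hℓ, hd, hL0⟩)) hℓp hA hφ hx)
    level_eigM
  refine ⟨ι, hinj, heq, fun ℓ hℓ v => hecke_eigM (hmem v) hℓ, fun v => ?_⟩
  obtain ⟨y, hy⟩ := (mem_eigM.mp (hmem v)).1
  exact ⟨y, hy⟩

/-- **(R) at a general level, with the divisibility clause.** -/
theorem exists_real_level_div [E.IsElliptic] {W : WeierstrassCurve ℤ} (hW : W.IsIntegralModelOf E)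
    (hp2 : p ≠ 2) (hirr : GaloisRepIsIrreducible (K := Qb) ℚ E.toAffine p)
    (L : ℕ) [NeZero L] (f : CuspForm (CongruenceSubgroup.Gamma0 L) 2)
    (𝔪 : Ideal (integralClosure ℤ ℂ)) (hf : f.IsNormalizedEigenform) (hmax : 𝔪.IsMaximal)
    (hpm : (p : integralClosure ℤ ℂ) ∈ 𝔪)
    (hcong : ∀ ℓ : ℕ, ℓ.Prime → W.IsGoodPrimeFor ℓ → ¬ ℓ ∣ L → ℓ ≠ p →
      ∃ a : integralClosure ℤ ℂ, (a : ℂ) = ModularFormClass.qCoeff f ℓ ∧
        a - ((W.apOfModel ℓ : ℤ) : integralClosure ℤ ℂ) ∈ 𝔪) :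
    ∃ ι : Ep E p →+ JZero L, Function.Injective ι ∧
      (∀ (σ : GQ) (v : Ep E p), ι (σ • v) = σ • ι v) ∧
      (∀ ℓ : Nat.Primes, GoodAt W L p ℓ → ∀ v : Ep E p,
        heckeOperatorBar L ℓ (ι v) = W.apOfModel ℓ • ι v) ∧
      ∀ (v : Ep E p) (k : ℕ), ∃ z : JZero L, p ^ k • z = ι v := by
  obtain ⟨ι, hinj, heq, heig, hdiv⟩ := exists_real_level hW hp2 hirr L f 𝔪 hf hmax hpm hcong
  refine ⟨ι, hinj, heq, heig, fun v k => ?_⟩
  exact exists_pow_smul_eq_of_mem_divPart p L (hdiv v) k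

end Fermat.Agent.ES.X44.RealGen19
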