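/-
Programme X (S44), chapter (R), file `RealPush19` (helper19): **pushing a realisation from level `N` to a
multiple `M` by `π^* = levelPullback`**, in particular to `M = auxLevel p N`.

`V` any `G_ℚ`-module killed by `p`, `ι : V →+ J₀(N)` injective, equivariant, with `T_ℓ (ι v) = a_ℓ • ι v` at the
primes `ℓ` with `good ℓ`, `ℓ ∤ N`.  If `π^*` is injective on `p`-torsion then `ι' := π^* ∘ ι : V →+ J₀(M)` is
injective, equivariant (`RED/PullbackInj12.levelPullback_smul`), and `T_ℓ (ι' v) = a_ℓ • ι' v` at the good primes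
`ℓ ∤ M` ((H5) of Programme I: `HECKE/LevelTop20.levelPullback_heckeOperatorAlong`); divisibility clauses
(`∃ z, p ^ k • z = ι v`) are carried along.  For `M = auxLevel p N` the injectivity is
`RED/PullbackInj12.levelPullback_auxLevel_eq_zero`.
-/
import Mathlib
import Fermat.Prelude.Def_ModularCurve_HeckeModule
import Fermat.Agent.ES.HECKE.LevelTop20
import Fermat.Agent.ES.RED.PullbackInj12
import Fermat.Agent.RED.LVL.LevelDegree17

set_option autoImplicit false
set_option linter.style.haveILetI false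
set_option linter.unusedSectionVars false

open ModularCurve

noncomputable section

namespace Fermat.Agent.ES.X44.RealPush19

open Fermat.Agent.ES.HECKE.LevelPullback12 Fermat.Agent.ES.RED.PullbackInj12
open Fermat.Agent.RED.Interface4 (auxLevel dvd_auxLevel)

local notation "Qb" => AlgebraicClosure ℚ
local notation "GQ" => (AlgebraicClosure ℚ ≃ₐ[ℚ] AlgebraicClosure ℚ)

variable {V : Type*} [AddCommGroup V] [DistribMulAction GQ V]

/-- **the push along `N ∣ M`.** -/
theorem exists_push {p N M : ℕ} [NeZero N] [NeZero M] (h : N ∣ M)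
    (hπ : ∀ x : JZero N, p • x = 0 → levelPullback h x = 0 → x = 0)
    (hpV : ∀ v : V, p • v = 0)
    (ι : V →+ JZero N) (hinj : Function.Injective ι)
    (heq : ∀ (σ : GQ) (v : V), ι (σ • v) = σ • ι v)
    (a : Nat.Primes → ℤ) (good : Nat.Primes → Prop)
    (heig : ∀ ℓ : Nat.Primes, good ℓ → ¬ (ℓ : ℕ) ∣ N → ∀ v : V,
      heckeOperatorBar N ℓ (ι v) = a ℓ • ι v) :
    ∃ ι' : V →+ JZero M, Function.Injective ι' ∧
      (∀ (σ : GQ) (v : V), ι' (σ • v) = σ • ι' v) ∧
      (∀ ℓ : Nat.Primes, good ℓ → ¬ (ℓ : ℕ) ∣ M → ∀ v : V,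
        heckeOperatorBar M ℓ (ι' v) = a ℓ • ι' v) ∧
      ∀ v : V, ι' v = levelPullback h (ι v) := by
  refine ⟨(levelPullback h).comp ι, ?_, ?_, ?_, fun v => rfl⟩
  · rw [injective_iff_map_eq_zero]
    intro v hv
    apply hinj
    rw [map_zero]
    refine hπ (ι v) ?_ hv
    rw [← map_nsmul, hpV, map_zero]
  · intro σ v
    show levelPullback h (ι (σ • v)) = σ • levelPullback h (ι v)
    rw [heq, levelPullback_smul]
  · intro ℓ hgood hℓM v
    have hℓN : ¬ (ℓ : ℕ) ∣ N := fun hd => hℓM (hd.trans h)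
    haveI : NeZero (ℓ : ℕ) := ⟨ℓ.2.ne_zero⟩
    show heckeOperatorBar M ℓ (levelPullback h (ι v)) = a ℓ • levelPullback h (ι v)
    rw [heckeOperatorBar_apply,
      ← Fermat.Agent.ES.HECKE.LevelTop20.levelPullback_heckeOperatorAlong h ℓ.2 hℓM (ι v),
      ← heckeOperatorBar_apply, heig ℓ hgood hℓN v, map_zsmul]

/-- **the push to the auxiliary level.** -/
theorem exists_push_auxLevel (p N : ℕ) [NeZero N] [NeZero (auxLevel p N)] (hp0 : 0 < p)
    (hpV : ∀ v : V, p • v = 0)
    (ι : V →+ JZero N) (hinj : Function.Injective ι)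
    (heq : ∀ (σ : GQ) (v : V), ι (σ • v) = σ • ι v)
    (a : Nat.Primes → ℤ) (good : Nat.Primes → Prop)
    (heig : ∀ ℓ : Nat.Primes, good ℓ → ¬ (ℓ : ℕ) ∣ N → ∀ v : V,
      heckeOperatorBar N ℓ (ι v) = a ℓ • ι v) :
    ∃ ι' : V →+ JZero (auxLevel p N), Function.Injective ι' ∧
      (∀ (σ : GQ) (v : V), ι' (σ • v) = σ • ι' v) ∧
      (∀ ℓ : Nat.Primes, good ℓ → ¬ (ℓ : ℕ) ∣ auxLevel p N → ∀ v : V,
        heckeOperatorBar (auxLevel p N) ℓ (ι' v) = a ℓ • ι' v) ∧
      ∀ v : V, ι' v = levelPullback (dvd_auxLevel p N) (ι v) :=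
  exists_push (dvd_auxLevel p N)
    (fun x hx hx0 => levelPullback_auxLevel_eq_zero p N p hp0 x hx hx0) hpV ι hinj heq a good heig

/-- divisibility is carried along any additive map. -/
theorem div_map {A B : Type*} [AddCommGroup A] [AddCommGroup B] (f : A →+ B) {p : ℕ} {x : A}
    (hx : ∀ k : ℕ, ∃ z : A, p ^ k • z = x) (k : ℕ) : ∃ z : B, p ^ k • z = f x := by
  obtain ⟨z, hz⟩ := hx k
  exact ⟨f z, by rw [← map_nsmul, hz]⟩

end Fermat.Agent.ES.X44.RealPush19
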