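/-
Programme X (S44), chapters (R) and (NE), file `RChapter19` (helper19): **the two chapter theorems
`S44Chain14.RChapter` and `S44Chain14.NEChapter`**, and the strong forms asked by (Old).

* `freyCurve_isElliptic`      : the Frey curve is elliptic (`S13/FreyDelta.freyCurve_Δ_ne_zero`);
* `RealExitD P L W`           : `RealExit P L W` with the extra clause `∀ v k, ∃ z, p ^ k • z = ι v`
                                (the image lies in the `p`-divisible part);
* `realExitD_level`           : (R) at a GENERAL level `L`, from any eigenform of level `L` congruent to `W`;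
* `realExitD_auxLevel`        : the same pushed to `auxLevel p L` by `π^*` (`RealPush19`);
* `RealExitD.realExit`        : forgetting the clause;
* **`rChapter : RChapter`**, **`neChapter : NEChapter`** (`ES/EC/ECFinal8.exists_good_prime_not_dvd_card`).
-/
import Mathlib
import Fermat.Agent.ES.X44.S44Chain14
import Fermat.Agent.ES.X44.RealGen19
import Fermat.Agent.ES.X44.RealPush19
import Fermat.Agent.ES.EC.ECFinal8
import Fermat.Agent.S13.FreyDelta

set_option autoImplicit false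
set_option linter.style.haveILetI false
set_option linter.unusedSectionVars false

open WeierstrassCurve WeierstrassCurve.Affine WeierstrassCurve.Affine.Point ModularCurve

noncomputable section

namespace Fermat.Agent.ES.X44.RChapter19

open Fermat.Agent.RED.Interface4 (auxLevel dvd_auxLevel)
open Fermat.Agent.ES.X44.XIface14 Fermat.Agent.ES.X44.S44Chain14

local notation "Qb" => AlgebraicClosure ℚ
local notation "GQ" => (AlgebraicClosure ℚ ≃ₐ[ℚ] AlgebraicClosure ℚ)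

/-- the Frey curve is an elliptic curve. -/
theorem freyCurve_isElliptic (P : FreyPackage) : P.freyCurve.IsElliptic :=
  ⟨isUnit_iff_ne_zero.mpr (Fermat.Agent.S13.FreyDelta.freyCurve_Δ_ne_zero P)⟩

/-- `E[p]` is killed by `p`. -/
theorem nsmul_Ep (P : FreyPackage) (v : Ep P) : P.p • v = 0 := by
  apply Subtype.ext
  have := v.2
  rw [Submodule.mem_torsionBy_iff, natCast_zsmul] at this
  rw [Submodule.coe_smul_of_tower, Submodule.coe_zero]
  exact this

/-- **(R), strong form**: `RealExit` with the divisibility clause. -/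
def RealExitD (P : FreyPackage) (N' : ℕ) [NeZero N'] (W : WeierstrassCurve ℤ) : Prop :=
  ∃ ι : Ep P →+ JZero N', Function.Injective ι ∧
    (∀ (σ : GQ) (v : Ep P), ι (σ • v) = σ • ι v) ∧
    (∀ ℓ : Nat.Primes, GoodAt W N' P.p ℓ → ∀ v : Ep P,
      heckeOperatorBar N' ℓ (ι v) = W.apOfModel ℓ • ι v) ∧
    ∀ (v : Ep P) (k : ℕ), ∃ z : JZero N', P.p ^ k • z = ι v

theorem RealExitD.realExit {P : FreyPackage} {N' : ℕ} [NeZero N'] {W : WeierstrassCurve ℤ}
    (h : RealExitD P N' W) : RealExit P N' W := by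
  obtain ⟨ι, h1, h2, h3, -⟩ := h
  exact ⟨ι, h1, h2, h3⟩

/-- **(R) at a general level `L`**: any eigenform of level `L` congruent to `W`. -/
theorem realExitD_level (P : FreyPackage) (L : ℕ) [NeZero L]
    (hirr : GaloisRepIsIrreducible (K := AlgebraicClosure ℚ) ℚ P.freyCurve P.p)
    (f : CuspForm (CongruenceSubgroup.Gamma0 L) 2) (W : WeierstrassCurve ℤ)
    (𝔪 : Ideal (integralClosure ℤ ℂ)) (hf : f.IsNormalizedEigenform)
    (hW : W.IsIntegralModelOf P.freyCurve) (hmax : 𝔪.IsMaximal)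
    (hpm : (P.p : integralClosure ℤ ℂ) ∈ 𝔪)
    (hcong : ∀ ℓ : ℕ, ℓ.Prime → W.IsGoodPrimeFor ℓ → ¬ ℓ ∣ L → ℓ ≠ P.p →
      ∃ a : integralClosure ℤ ℂ, (a : ℂ) = ModularFormClass.qCoeff f ℓ ∧
        a - ((W.apOfModel ℓ : ℤ) : integralClosure ℤ ℂ) ∈ 𝔪) :
    RealExitD P L W := by
  haveI := freyCurve_isElliptic P
  haveI : Fact P.p.Prime := ⟨P.pp⟩
  have hp2 : P.p ≠ 2 := by have := P.hp5; omega
  exact Fermat.Agent.ES.X44.RealGen19.exists_real_level_div (E := P.freyCurve) hW hp2 hirr L f 𝔪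
    hf hmax hpm hcong

/-- **(R) at the auxiliary level of a general level `L`.** -/
theorem realExitD_auxLevel (P : FreyPackage) (L : ℕ) [NeZero L] [NeZero (auxLevel P.p L)]
    (hirr : GaloisRepIsIrreducible (K := AlgebraicClosure ℚ) ℚ P.freyCurve P.p)
    (f : CuspForm (CongruenceSubgroup.Gamma0 L) 2) (W : WeierstrassCurve ℤ)
    (𝔪 : Ideal (integralClosure ℤ ℂ)) (hf : f.IsNormalizedEigenform)
    (hW : W.IsIntegralModelOf P.freyCurve) (hmax : 𝔪.IsMaximal)
    (hpm : (P.p : integralClosure ℤ ℂ) ∈ 𝔪)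
    (hcong : ∀ ℓ : ℕ, ℓ.Prime → W.IsGoodPrimeFor ℓ → ¬ ℓ ∣ L → ℓ ≠ P.p →
      ∃ a : integralClosure ℤ ℂ, (a : ℂ) = ModularFormClass.qCoeff f ℓ ∧
        a - ((W.apOfModel ℓ : ℤ) : integralClosure ℤ ℂ) ∈ 𝔪) :
    RealExitD P (auxLevel P.p L) W := by
  obtain ⟨ι, hinj, heq, heig, hdiv⟩ := realExitD_level P L hirr f W 𝔪 hf hW hmax hpm hcong
  obtain ⟨ι', hinj', heq', heig', hι'⟩ :=
    Fermat.Agent.ES.X44.RealPush19.exists_push_auxLevel P.p L P.hppos (nsmul_Ep P) ι hinj heq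
      (fun ℓ => W.apOfModel ℓ) (fun ℓ => W.IsGoodPrimeFor ℓ ∧ (ℓ : ℕ) ≠ P.p)
      (fun ℓ hg hℓL v => heig ℓ ⟨hg.1, hℓL, hg.2⟩ v)
  refine ⟨ι', hinj', heq', fun ℓ hℓ v => heig' ℓ ⟨hℓ.1, hℓ.2.2⟩ hℓ.2.1 v, fun v k => ?_⟩
  rw [hι' v]
  exact Fermat.Agent.ES.X44.RealPush19.div_map _ (hdiv v) k

/-- **the (R) chapter.** -/
theorem rChapter : RChapter := by
  intro P N N' _ hcond _ hN' hirr f W 𝔪 hf hW hmax hpm hcong
  subst hN'
  haveI : NeZero N := ⟨hcond.pos.ne'⟩
  exact (realExitD_auxLevel P N hirr f W 𝔪 hf hW hmax hpm hcong).realExit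

/-- **the (NE) chapter.** -/
theorem neChapter : NEChapter := by
  intro P N' W hN' hW hirr
  haveI := freyCurve_isElliptic P
  have hp2 : P.p ≠ 2 := by have := P.hp5; omega
  obtain ⟨ℓ, hℓ, hℓT, hgood, hℓp, hnd⟩ :=
    Fermat.Agent.ES.EC.ECFinal8.exists_good_prime_not_dvd_card P.freyCurve hW P.pp hp2 hirr
      N'.primeFactors
  refine ⟨⟨ℓ, hℓ⟩, ⟨hgood, fun h => hℓT (Nat.mem_primeFactors.mpr ⟨hℓ, h, hN'.ne'⟩), hℓp⟩,
    fun h => hnd ?_⟩
  have e : (ℓ : ℤ) + 1 - W.apOfModel ℓ = -(W.apOfModel ℓ - (ℓ : ℤ) - 1) := by ring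
  rw [e]
  exact (dvd_neg).mpr h

end Fermat.Agent.ES.X44.RChapter19
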