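/-
Programme X (S44, spine `X44_SPINE14.md`), chapter (C)+BRIDGE, file 2 (helper4): **(C) `NotJ1`** —
`ι(E[p])` is NOT contained in the kernel of reduction `J¹ = j1N I.nodes I.r` of the nodal model.

§1 `exists_not_mem_of_chart` (ABSTRACT: any `G_ℚ`-module `J`, any subgroup `J1` carrying ONE residually
   constant chart `Ξ` with `Assemble11.XiData` over `(fixRing A Γ_f, Γ_f)`): a finite subgroup `V ≤ J`
   killed by `p` (odd), stable under the decomposition group `D_A`, of finite level, with a subgroup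
   `L ⊉ V` containing all `σ x - x` (`σ` in the inertia group `I_A`, `x ∈ V`), is NOT contained in `J1`.
   Proof: `L' := ⟨σ x - x⟩ ≤ L` is `D_A`-stable (`I_A` is normal in `D_A`); the stabiliser
   `S := {σ ∈ D_A | σ x - x ∈ L' ∀ x ∈ V}` contains `I_A` and has finite level, hence contains some `Γ_f`
   (`GammaLevel11.exists_gammaF_le`); raise the chart to that level (`XiRaise19.xiData_of_dvd`); if
   `V ⊆ J1` the funnel `TopFunnel19.exists_connOrder_of_xi` puts a CONNECTED `Γ_f`-equivariant order on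
   `V`, and `AsmCore4.false_of_subquot` forbids the `Γ_f`-invariant quotient `V ⧸ L' ≠ 0` killed by `p`.
§2 `chart_j1N` : Programme W's chart on the EXPLICIT `J¹ = j1N I.nodes I.r` (main's
   `GeoW23.hasNodalChart_mul` / `GeoJoin23.hasNodalChart_of_inst` / `GeoJoinCore23.hasNodalChart_of_redDatum`
   hide `J1` behind an existential; the same proof with `J1` kept visible).
§3 `notJ1` : `RedNeIface4.NotJ1 I V` from `InstInput I` and `RedNeIface4.CInput p A V L`.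
-/
import Mathlib
import Fermat.Agent.ES.W33.GeoW23
import Fermat.Agent.ES.W33.TopFunnel19
import Fermat.Agent.ES.W33.AsmCore4
import Fermat.Agent.ES.W33.BaseInst8
import Fermat.Agent.ES.V19.GammaLevel11
import Fermat.Agent.ES.V19.ChartDataInst21
import Fermat.Agent.ES.X44.RedNeIface4

set_option autoImplicit false
set_option linter.unusedSectionVars false
set_option linter.style.haveILetI false
set_option synthInstance.maxHeartbeats 400000

noncomputable section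

open AlgebraicCurve ModularCurve

namespace Fermat.Agent.ES.X44.NotJ1N4

open Fermat.Agent.ES.V19.OrderHyp4 Fermat.Agent.ES.V19.Assemble11 Fermat.Agent.ES.V19.GammaF16
  Fermat.Agent.ES.V19.TraceDescent26 Fermat.Agent.ES.V19.FixRingDVR16
  Fermat.Agent.ES.V19.GammaLevel11 Fermat.Agent.ES.V19.ChartDataInst21
  Fermat.Agent.ES.W33.WIface8 Fermat.Agent.ES.W33.BaseInst8 Fermat.Agent.ES.W33.XiRaise19
  Fermat.Agent.ES.W33.TopFunnel19

local notation "Qb" => AlgebraicClosure ℚ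
local notation "GQ" => (AlgebraicClosure ℚ ≃ₐ[ℚ] AlgebraicClosure ℚ)

/-! ### §1  The abstract argument -/

section Abstract

variable {A : ValuationSubring Qb}

/-- the inertia group lies in the decomposition group. -/
theorem inertia_le_decomposition : A.inertiaSubgroupIn ℚ ≤ A.decompositionSubgroup ℚ := by
  rintro _ ⟨s, -, rfl⟩
  exact s.2

/-- the inertia group is normal in the decomposition group. -/
theorem conj_mem_inertia {τ σ : GQ} (hτ : τ ∈ A.decompositionSubgroup ℚ)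
    (hσ : σ ∈ A.inertiaSubgroupIn ℚ) : τ * σ * τ⁻¹ ∈ A.inertiaSubgroupIn ℚ := by
  obtain ⟨s, hs, rfl⟩ := hσ
  have hn : (A.inertiaSubgroup ℚ).Normal := by
    unfold ValuationSubring.inertiaSubgroup
    infer_instance
  exact ⟨(⟨τ, hτ⟩ : ↥(A.decompositionSubgroup ℚ)) * s * (⟨τ, hτ⟩ : ↥(A.decompositionSubgroup ℚ))⁻¹,
    hn.conj_mem s hs ⟨τ, hτ⟩, rfl⟩

variable {J : Type*} [AddCommGroup J] [DistribMulAction GQ J] {p : ℕ}

/-- **(C), abstract form.** -/
theorem exists_not_mem_of_chart (hp : p.Prime) (hp2 : p ≠ 2) (hA : A.LiesOverPrime p)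
    {J1 : AddSubgroup J} {f₁ : ℕ} {g : ℕ} {Ξ : J → Fin g → Qb}
    (hΞ : XiData A.toSubring J1 Ξ ↥(fixRing A (gammaF A p f₁)) ↥(gammaF A p f₁))
    (hres : ∀ y ∈ J1, ∀ y' ∈ J1, ∀ i, Ξ y i - Ξ y' i ∈ A.nonunits)
    {V L : AddSubgroup J} (hfin : Finite ↥V) (hpV : ∀ x ∈ V, p • x = 0)
    (hstab : ∀ σ ∈ A.decompositionSubgroup ℚ, ∀ x ∈ V, σ • x ∈ V)
    (hlev : ∃ Lf : IntermediateField ℚ Qb, FiniteDimensional ℚ ↥Lf ∧
      ∀ σ ∈ A.decompositionSubgroup ℚ, (∀ a ∈ Lf, σ a = a) → ∀ x ∈ V, σ • x = x)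
    (hprop : ∃ x ∈ V, x ∉ L)
    (hin : ∀ σ ∈ A.inertiaSubgroupIn ℚ, ∀ x ∈ V, σ • x - x ∈ L) :
    ∃ x ∈ V, x ∉ J1 := by
  classical
  by_contra hcon
  have hVJ : ∀ x ∈ V, x ∈ J1 := fun x hx => by
    by_contra h
    exact hcon ⟨x, hx, h⟩
  -- `L'`: the subgroup generated by the `σ x - x`
  let L' : AddSubgroup J :=
    AddSubgroup.closure {w | ∃ σ ∈ A.inertiaSubgroupIn ℚ, ∃ x ∈ V, w = σ • x - x}
  have hL'L : L' ≤ L := (AddSubgroup.closure_le _).mpr (by
    rintro w ⟨σ, hσ, x, hx, rfl⟩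
    exact hin σ hσ x hx)
  have hL'D : ∀ τ ∈ A.decompositionSubgroup ℚ, ∀ w ∈ L', τ • w ∈ L' := by
    intro τ hτ w hw
    refine AddSubgroup.closure_induction (p := fun w _ => τ • w ∈ L') ?_ ?_ ?_ ?_ hw
    · rintro w ⟨σ, hσ, x, hx, rfl⟩
      refine AddSubgroup.subset_closure
        ⟨τ * σ * τ⁻¹, conj_mem_inertia hτ hσ, τ • x, hstab τ hτ x hx, ?_⟩
      rw [smul_sub, mul_smul, mul_smul, inv_smul_smul]
    · rw [smul_zero]
      exact L'.zero_mem
    · intro a b _ _ ha hb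
      rw [smul_add]
      exact L'.add_mem ha hb
    · intro a _ ha
      rw [smul_neg]
      exact L'.neg_mem ha
  -- the stabiliser of `V / L'`
  let S : Subgroup GQ :=
    { carrier := {σ | σ ∈ A.decompositionSubgroup ℚ ∧ ∀ x ∈ V, σ • x - x ∈ L'}
      one_mem' := ⟨Subgroup.one_mem _, fun x _ => by
        rw [one_smul, sub_self]
        exact L'.zero_mem⟩
      mul_mem' := by
        rintro σ τ ⟨hσD, hσ⟩ ⟨hτD, hτ⟩
        refine ⟨Subgroup.mul_mem _ hσD hτD, fun x hx => ?_⟩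
        have e : (σ * τ) • x - x = σ • (τ • x - x) + (σ • x - x) := by
          rw [mul_smul, smul_sub]
          abel
        rw [e]
        exact L'.add_mem (hL'D σ hσD _ (hτ x hx)) (hσ x hx)
      inv_mem' := by
        rintro σ ⟨hσD, hσ⟩
        refine ⟨Subgroup.inv_mem _ hσD, fun x hx => ?_⟩
        have e : σ⁻¹ • x - x = -(σ⁻¹ • (σ • x - x)) := by
          rw [smul_sub, inv_smul_smul]
          abel
        rw [e]
        exact L'.neg_mem (hL'D σ⁻¹ (Subgroup.inv_mem _ hσD) _ (hσ x hx)) }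
  have hIS : A.inertiaSubgroupIn ℚ ≤ S := fun σ hσ =>
    ⟨inertia_le_decomposition hσ, fun x hx => AddSubgroup.subset_closure ⟨σ, hσ, x, hx, rfl⟩⟩
  have hlevS : HasLevelIn A S := by
    obtain ⟨Lf, hLf, h⟩ := hlev
    refine ⟨Lf, hLf, fun σ hσ hfixL => ⟨hσ, fun x hx => ?_⟩⟩
    rw [h σ hσ hfixL x hx, sub_self]
    exact L'.zero_mem
  obtain ⟨f₀, hf₀, hle⟩ := exists_gammaF_le (fixesInertFixed hp hA) S hIS hlevS
  -- the level `f₀ * f₁`
  have hΞ' : XiData A.toSubring J1 Ξ ↥(fixRing A (gammaF A p (f₀ * f₁))) ↥(gammaF A p (f₀ * f₁)) :=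
    xiData_of_dvd hp hA (Dvd.intro_left f₀ rfl) hΞ
  have hΓS : gammaF A p (f₀ * f₁) ≤ S := (gammaF_anti (Dvd.intro f₁ rfl)).trans hle
  have hIΓ : A.inertiaSubgroupIn ℚ ≤ gammaF A p (f₀ * f₁) := inertia_le_gammaF (f₀ * f₁)
  have hΓD : gammaF A p (f₀ * f₁) ≤ A.decompositionSubgroup ℚ := gammaF_le_decomposition (f₀ * f₁)
  generalize gammaF A p (f₀ * f₁) = Γ at hΞ' hΓS hIΓ hΓD
  -- the action of `Γ` on `V`
  letI iSMul : SMul ↥Γ ↥V := ⟨fun σ x => ⟨(σ : GQ) • (x : J), hstab σ (hΓD σ.2) x x.2⟩⟩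
  have hcoe : ∀ (σ : ↥Γ) (x : ↥V), ((σ • x : ↥V) : J) = (σ : GQ) • (x : J) := fun _ _ => rfl
  letI iDMA : DistribMulAction ↥Γ ↥V :=
    { one_smul := fun x => Subtype.ext (by rw [hcoe, OneMemClass.coe_one, one_smul])
      mul_smul := fun σ τ x => Subtype.ext (by rw [hcoe, hcoe, hcoe, Subgroup.coe_mul, mul_smul])
      smul_zero := fun σ => Subtype.ext (by rw [hcoe, AddSubgroup.coe_zero, smul_zero])
      smul_add := fun σ x y => Subtype.ext (by
        rw [hcoe, AddSubgroup.coe_add, AddSubgroup.coe_add, hcoe, hcoe, smul_add]) }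
  haveI hdvr : IsDiscreteValuationRing ↥(fixRing A Γ) := isDiscreteValuationRing_fixRing hp hA hIΓ
  haveI hnoeth : IsNoetherianRing ↥(fixRing A Γ) := inferInstance
  obtain ⟨H, hH, hconn⟩ := exists_connOrder_of_xi Γ hΞ' hres V.subtype Subtype.val_injective
    (fun σ x => rfl) (fun x => hVJ x x.2)
  -- the quotient `V ⧸ L'`
  let L'' : AddSubgroup ↥V := L'.addSubgroupOf V
  let ι : ↥V →+ (Fin 1 → ↥V) :=
    { toFun := fun x _ => x
      map_zero' := rfl
      map_add' := fun _ _ => rfl }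
  have hι : Function.Injective ι := fun x y h => congrFun h 0
  have hp0 : (p : Qb) ≠ 0 := Nat.cast_ne_zero.mpr hp.ne_zero
  refine Fermat.Agent.ES.W33.AsmCore4.false_of_subquot
    (R := ↥(fixRing A Γ)) (K := Kfix A Γ) (Ω := Qb) (G := ↥Γ)
    p hp hp2 hp0 (hfix (A := A) (Γ := Γ)) (hKrull hp hA hIΓ) A
    (fun r => r.2.1) (hmR hp hA hIΓ) hH hconn ι hι (fun σ x => rfl)
    (QuotientAddGroup.mk' L'') (QuotientAddGroup.mk'_surjective L'') ?_ ?_ ?_
  · -- `Γ` acts trivially on `V ⧸ L'`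
    intro σ x
    rw [eq_comm]
    refine (QuotientAddGroup.eq (s := L'')).mpr ?_
    rw [AddSubgroup.mem_addSubgroupOf]
    have h := (hΓS σ.2).2 (x : J) x.2
    have e : ((-x + σ • x : ↥V) : J) = (σ : GQ) • (x : J) - (x : J) := by
      rw [AddSubgroup.coe_add, AddSubgroup.coe_neg, hcoe]
      abel
    rw [e]
    exact h
  · -- killed by `p`
    intro z
    obtain ⟨x, rfl⟩ := QuotientAddGroup.mk'_surjective L'' z
    rw [← map_nsmul]
    have : p • x = 0 := Subtype.ext (by rw [AddSubgroup.coe_nsmul]; exact hpV x x.2)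
    rw [this, map_zero]
  · -- nonzero
    obtain ⟨x₀, hx₀V, hx₀L⟩ := hprop
    refine ⟨QuotientAddGroup.mk' L'' ⟨x₀, hx₀V⟩, fun h => hx₀L (hL'L ?_)⟩
    have := (QuotientAddGroup.eq_zero_iff (⟨x₀, hx₀V⟩ : ↥V)).mp h
    exact this

end Abstract

/-! ### §2  Programme W's chart on the EXPLICIT kernel of reduction `j1N I.nodes I.r` -/

section Chart

open IntermediateField
open Fermat.Agent.X0 Fermat.Agent.X0.FF Fermat.Agent.RED.Interface4 Fermat.Agent.RED.BASE
  Fermat.Agent.RED.BASE.Hauptmodul12 Fermat.Agent.ES.RED Fermat.Agent.ES.RED.Contract8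
  Fermat.Agent.ES.V19.InstNames3 Fermat.Agent.ES.V19.XiEqvInst29
  Fermat.Agent.ES.W33.XiIfaceN29 Fermat.Agent.ES.W33.PrinN29 Fermat.Agent.ES.W33.J1DivN29
  Fermat.Agent.ES.W33.GeoNames23 Fermat.Agent.ES.W33.GeoJoin23 Fermat.Agent.ES.W33.GeoJoinGa23
  Fermat.Agent.ES.W33.GeoGeneric23 Fermat.Agent.ES.W33.ChartPtsLe23 Fermat.Agent.ES.W33.GeoW23
  Fermat.Agent.ES.W33.RedDatum27 Fermat.Agent.ES.W33.RedDatumXi27
  Fermat.Agent.ES.W33.GeoJoinCore23

attribute [local instance 5000] HahnSeries.powerSeriesAlgebra SubalgebraClass.toAlgebra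

variable {p M' : ℕ} {A : ValuationSubring Qb} {I : NodalInst p M' A}

/-- **the chart of Programme W on `J¹ = j1N I.nodes I.r`** (the proof of `GeoW23.hasNodalChart_mul` with
`J1` kept visible): `Γ_f`-stability, `XiData`, residual constancy. -/
theorem chart_j1N (n e M' : ℕ) [NeZero n] [NeZero M'] (p : ℕ) [Fact p.Prime]
    (hpM : ¬ p ∣ M') (hb : BaseHyp n e) (hnM : n ∣ M') (A : ValuationSubring Qb)
    (hA : A.LiesOverPrime p) {I : NodalInst p M' A} (H : InstInput I) :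
    ∃ (f : ℕ) (_ : 0 < f) (g : ℕ) (Ξ : JZero (M' * p) → Fin g → Qb),
      (∀ τ ∈ gammaF A p f, ∀ y ∈ j1N I.nodes I.r, τ • y ∈ j1N I.nodes I.r) ∧
      XiData A.toSubring (j1N I.nodes I.r) Ξ ↥(fixRing A (gammaF A p f)) ↥(gammaF A p f) ∧
      ∀ y ∈ j1N I.nodes I.r, ∀ y' ∈ j1N I.nodes I.r, ∀ i, Ξ y i - Ξ y' i ∈ A.nonunits := by
  classical
  have hI := H.hyp
  have hin := inputs0V n e M' p hpM hb hnM A hA
  have hr := hrV n e M' p hpM hb hnM A hA
  have : IsAlgClosed (kA A) := isAlgClosed_kA A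
  have HL := Fermat.Agent.ES.V19.LHypFt13.lHyp_Ft n e M' p hpM (tMem_of_dvd hb hnM)
    (tGenBase' hb) A hA hr
  have hR := Fermat.Agent.ES.V19.LHypFt13.riemann_inequality_Ft n e M' p hpM
    (tMem_of_dvd hb hnM) (tGenBase' hb) A hA hr
  have : Infinite (Place (kW A) (FtW M' A)) :=
    Fermat.Agent.ES.V19.GoodCofinite16.infinite_place hin.gent hin.sep
  have : NeZero (M' * p) := ⟨Nat.mul_ne_zero (NeZero.ne M') (Fact.out : p.Prime).ne_zero⟩
  have HR := redHypN_main n e (M' * p) hb (Dvd.dvd.mul_right hnM p)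
  -- the points
  obtain ⟨Qbar, hinj, -, hmem, hconst⟩ := exists_chart_points_le HL hR HL hR H.b1.1 I.nodes
    hI.nodes_inj (goodOne_infinite hI) (goodOne_ne_node hI) (goodTwo_infinite hI)
    (goodTwo_ne_node hI) H.b1.2
  have hgood : ∀ i, I.Good (Qbar i) := fun i => by
    rcases hmem i with ⟨Q, hQ, h⟩ | ⟨Q, hQ, h⟩
    · rw [h]; exact hQ
    · rw [h]; exact hQ
  -- one more good point
  obtain ⟨Qs₁, hQs₁, hQs₁ne⟩ :
      ∃ Q ∈ goodOne I, Q ∉ (Finset.univ.image fun i => Qbar i).preimage Sum.inl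
        Sum.inl_injective.injOn :=
    (goodOne_infinite hI).exists_notMem_finset _
  have hQs : I.Good (Sum.inl Qs₁) := hQs₁
  have hne : ∀ i, (Sum.inl Qs₁ : SPtW M' A) ≠ Qbar i := fun i h => by
    apply hQs₁ne
    rw [Finset.mem_preimage, Finset.mem_image]
    exact ⟨i, Finset.mem_univ i, h.symm⟩
  -- the chart, its hypotheses, the level
  have Hχ := chartHypN_of hI hinj hgood hconst hQs hne
  obtain ⟨f₀, hf₀, Heq⟩ := exists_eqvHypN (Qbar := Qbar) hI hgood
  obtain ⟨f, hf, hff, Fgl, Inv, hC⟩ := H.g3 Qbar hinj hgood hconst _ hQs hne f₀ hf₀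
  have hG := eqvHypW_of (s := I.s) (Heq f hff)
  have HD := Fermat.Agent.ES.W33.RedDatumN5.redDatum_of_nodal hI.ctx HR Hχ HL HL
  have hJ := j1Spec_j1N I.nodes I.r
  have hC' : Fermat.Agent.ES.V19.XiIface29.XiC A.toSubring (j1N I.nodes I.r)
      (xi I.r (chartW (chartOfN I Qbar))) ↥(fixRing A (gammaF A p f)) Fgl Inv := by
    rw [xi_eq_xiN]
    exact hC
  obtain ⟨hX, hm⟩ := xiData_of_redDatum HD hG hJ hC'
  exact ⟨f, hf, _, xi I.r (chartW (chartOfN I Qbar)),
    fun τ hτ y hy => smul_mem_J1 HD hG hJ τ hτ hy,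
    Fermat.Agent.ES.V19.XiDataBridge23.assemble_of_iface hX,
    fun y hy y' hy' i => sub_mem_nonunits A (hm y hy i) (hm y' hy' i)⟩

end Chart

/-! ### §3  `NotJ1` at the nodal instance -/

section Inst

open Fermat.Agent.RED.BASE Fermat.Agent.RED.BASE.Hauptmodul12
  Fermat.Agent.ES.W33.XiIfaceN29 Fermat.Agent.ES.W33.PrinN29 Fermat.Agent.ES.W33.GeoNames23
  Fermat.Agent.ES.W33.GeoW23 Fermat.Agent.ES.X44.RedNeIface4

/-- **(C)**: `V ⊄ J¹` at every instance of Programme W's `GeoInput`. -/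
theorem notJ1 (M' : ℕ) [NeZero M'] (p : ℕ) [Fact p.Prime] (hp2 : p ≠ 2) (hpM : ¬ p ∣ M')
    (h4 : 4 ∣ M') (A : ValuationSubring Qb) (hA : A.LiesOverPrime p) {I : NodalInst p M' A}
    (H : InstInput I) {V L : AddSubgroup (JZero (M' * p))} (hC : CInput p A V L) :
    NotJ1 I (V : Set (JZero (M' * p))) := by
  have : NeZero 4 := ⟨by norm_num⟩
  obtain ⟨f, -, g, Ξ, -, hΞ, hres⟩ := chart_j1N 4 8 M' p hpM baseHyp_four h4 A hA H
  exact exists_not_mem_of_chart Fact.out hp2 hA hΞ hres hC.finite hC.ptors hC.stable hC.level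
    hC.proper hC.inertia

end Inst

end Fermat.Agent.ES.X44.NotJ1N4
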