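/-
Programme X (S44, spine `X44_SPINE14.md`), chapter (C)+BRIDGE, file 3 (helper4): **THE EXIT `RedNe`.**

§1 `chapterC : RedNeIface4.ChapterC` — at every instance `I` of Programme W's `GeoInput`
   (`InstInput I`; in particular at `GeoLit12.IX`): `Bridge I` (`BridgeN4.bridge`), and for every
   `V, L` with `CInput p A V L`: `NotJ1 I V` (`NotJ1N4.notJ1`), `RedNeAll I V`, and the spine arrow
   `GeoLit12.FExit I V → GeoLit12.RedNe I V`.
§2 The wrapper from the literals of (R) and (L2) (`XIface14.RealExit`, `XIface14.FreyLocal` (i), (ii)):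
   for `E[n]` the `n`-torsion of a Weierstrass curve over `ℚ̄` (finite), `ι : E[n] →+ JZero (M' * n)`
   injective and `G_ℚ`-equivariant, `L ≠ ⊤` with `σ v - v ∈ L` for `σ` in the inertia group:
   `CInput n A ι.range (L.map ι)` (`cInput_of_iota`; the finite level is main's
   `S13/UnramMain.smul_eq_self_of_coordSet`), hence `redNe_of_iota`:
   `GeoLit12.FExit I (Set.range ι) → GeoLit12.RedNe I (Set.range ι)`.
-/
import Mathlib
import Fermat.Agent.S13.UnramMain
import Fermat.Agent.ES.X44.BridgeN4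
import Fermat.Agent.ES.X44.NotJ1N4

set_option autoImplicit false
set_option linter.unusedSectionVars false
set_option synthInstance.maxHeartbeats 400000

noncomputable section

open AlgebraicCurve ModularCurve

namespace Fermat.Agent.ES.X44.RedNeN4

open Fermat.Agent.ES.W33.XiIfaceN29 Fermat.Agent.ES.W33.PrinN29 Fermat.Agent.ES.W33.GeoNames23
  Fermat.Agent.ES.W33.GeoW23 Fermat.Agent.ES.X44.GeoLit12 Fermat.Agent.ES.X44.RedNeIface4

local notation "Qb" => AlgebraicClosure ℚ
local notation "GQ" => (AlgebraicClosure ℚ ≃ₐ[ℚ] AlgebraicClosure ℚ)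

/-! ### §1  The chapter -/

section Chapter

variable {p M' : ℕ} {A : ValuationSubring Qb} {I : NodalInst p M' A}

/-- BRIDGE + (C) ⇒ the strong form of the exit. -/
theorem redNeAll_of (hB : Bridge I) {V : Set (Pic0 Qb (FW p M'))} (hpV : ∀ x ∈ V, p • x = 0)
    (hN : NotJ1 I V) : RedNeAll I V := by
  obtain ⟨x, hxV, hx⟩ := hN
  exact ⟨x, hxV, fun D hD hoff hcp => hx (hB x D (hpV x hxV) hD hoff hcp)⟩

/-- the strong form + (Eis) ⇒ THE EXIT. -/
theorem redNe_of {V : Set (Pic0 Qb (FW p M'))} (hR : RedNeAll I V) (hF : FExit I V) :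
    RedNe I V := by
  obtain ⟨x, hxV, hx⟩ := hR
  obtain ⟨D, hD⟩ := hF x hxV
  exact ⟨x, hxV, D, hD, hx D hD.1 hD.2.1⟩

/-- **WHAT THE CHAPTER PROVES.** -/
theorem chapterC : ChapterC := by
  intro M' _ p _ hp2 hpM h4 A hA I H
  have hB : Bridge I := Fermat.Agent.ES.X44.BridgeN4.bridge M' p hpM h4 A hA H
  refine ⟨hB, fun V L hC => ?_⟩
  have hN : NotJ1 I (V : Set (JZero (M' * p))) :=
    Fermat.Agent.ES.X44.NotJ1N4.notJ1 M' p hp2 hpM h4 A hA H hC
  have hR : RedNeAll I (V : Set (JZero (M' * p))) := redNeAll_of hB (fun x hx => hC.ptors x hx) hN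
  exact ⟨hN, hR, redNe_of hR⟩

end Chapter

/-! ### §2  From the literals of (R) and (L2) -/

section Wrapper

open WeierstrassCurve WeierstrassCurve.Affine WeierstrassCurve.Affine.Point
open Fermat.Agent.S13.UnramMain

variable {W' : Affine ℚ} {n M' : ℕ} {A : ValuationSubring Qb}

/-- **`CInput` from an injective equivariant `ι : E[n] →+ J` and a line `L ≠ ⊤` containing the
`σ v - v`.** -/
theorem cInput_of_iota [Finite (Submodule.torsionBy ℤ (W'⁄Qb).Point n)]
    (ι : Submodule.torsionBy ℤ (W'⁄Qb).Point n →+ JZero (M' * n)) (hι : Function.Injective ι)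
    (hιG : ∀ (σ : GQ) (v : Submodule.torsionBy ℤ (W'⁄Qb).Point n), ι (σ • v) = σ • ι v)
    (L : AddSubgroup (Submodule.torsionBy ℤ (W'⁄Qb).Point n)) (hL : L ≠ ⊤)
    (hin : ∀ σ ∈ A.inertiaSubgroupIn ℚ, ∀ v : Submodule.torsionBy ℤ (W'⁄Qb).Point n,
      σ • v - v ∈ L) :
    CInput n A ι.range (L.map ι) where
  finite := Finite.of_surjective ι.rangeRestrict ι.rangeRestrict_surjective
  ptors := by
    rintro _ ⟨v, rfl⟩
    rw [← map_nsmul]
    have hv : (n : ℤ) • v = 0 := by
      apply Subtype.ext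
      rw [Submodule.coe_smul, Submodule.coe_zero]
      exact (Submodule.mem_torsionBy_iff _ _).mp v.2
    rw [natCast_zsmul] at hv
    rw [hv, _root_.map_zero]
  stable := by
    rintro σ - _ ⟨v, rfl⟩
    exact ⟨σ • v, hιG σ v⟩
  level := by
    have hfin : (coordSet W' n).Finite := coordSet_finite
    have : Finite ↥(coordSet W' n) := hfin.to_subtype
    have hfd : FiniteDimensional ℚ ↥(IntermediateField.adjoin ℚ (coordSet W' n)) :=
      IntermediateField.finiteDimensional_adjoin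
        (fun x _ => (Algebra.IsAlgebraic.isAlgebraic (R := ℚ) x).isIntegral)
    refine ⟨IntermediateField.adjoin ℚ (coordSet W' n), hfd, ?_⟩
    rintro σ - hσ _ ⟨v, rfl⟩
    rw [← hιG, smul_eq_self_of_coordSet σ
      (fun z hz => hσ z (IntermediateField.subset_adjoin ℚ _ hz)) v]
  proper := by
    obtain ⟨v, hv⟩ : ∃ v, v ∉ L := by
      by_contra h
      exact hL (eq_top_iff.mpr fun v _ => by
        by_contra hv
        exact h ⟨v, hv⟩)
    refine ⟨ι v, ⟨v, rfl⟩, ?_⟩
    rintro ⟨w, hw, hwv⟩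
    exact hv (hι hwv ▸ hw)
  inertia := by
    rintro σ hσ _ ⟨v, rfl⟩
    refine ⟨σ • v - v, hin σ hσ v, ?_⟩
    rw [map_sub, hιG]

/-- **THE SPINE ARROW of (C)+BRIDGE in the vocabulary of (R) and (L2)**: at every instance `I` of
Programme W's `GeoInput`, `FExit` on `ι(E[p])` gives `RedNe` on `ι(E[p])`. -/
theorem redNe_of_iota (M' : ℕ) [NeZero M'] (p : ℕ) [Fact p.Prime] (hp2 : p ≠ 2) (hpM : ¬ p ∣ M')
    (h4 : 4 ∣ M') (A : ValuationSubring Qb) (hA : A.LiesOverPrime p) {I : NodalInst p M' A}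
    (H : InstInput I) {W' : Affine ℚ} [Finite (Submodule.torsionBy ℤ (W'⁄Qb).Point p)]
    (ι : Submodule.torsionBy ℤ (W'⁄Qb).Point p →+ JZero (M' * p)) (hι : Function.Injective ι)
    (hιG : ∀ (σ : GQ) (v : Submodule.torsionBy ℤ (W'⁄Qb).Point p), ι (σ • v) = σ • ι v)
    (L : AddSubgroup (Submodule.torsionBy ℤ (W'⁄Qb).Point p)) (hL : L ≠ ⊤)
    (hin : ∀ σ ∈ A.inertiaSubgroupIn ℚ, ∀ v : Submodule.torsionBy ℤ (W'⁄Qb).Point p,
      σ • v - v ∈ L)
    (hF : FExit I (Set.range ι)) : RedNe I (Set.range ι) := by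
  have hC := cInput_of_iota (A := A) ι hι hιG L hL hin
  have h := (chapterC M' p hp2 hpM h4 A hA I H).2 ι.range (L.map ι) hC
  have e : ((ι.range : AddSubgroup (JZero (M' * p))) : Set (JZero (M' * p))) = Set.range ι :=
    AddMonoidHom.coe_range ι
  rw [e] at h
  exact h.2.2 hF

end Wrapper

end Fermat.Agent.ES.X44.RedNeN4
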