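/-
Programme X (S44), SPINE v2 (`X44_SPINE14.md`, rulings x2 + x3), helper14 (programme lead): **the global literals of
the back half of the spine**, replacing `XIface14.EigBar / GeoCore / OldExit` (withdrawn: the lift of a special-fibre
eigenvector to `J₀(M')[p]` is not available).  Statement-only.

`XIface14.Ep / H1 / GoodAt / RealExit / NonEis / FreyLocal` stay as they are and are reused.

* `RealClauses P L W ι` : the three clauses of `RealExit` for a GIVEN `ι : E[p] →+ J₀(L)`, any level `L`.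
* `R0Exit P N W`        : (R) at the level `N` itself: some `ι₀ : E[p] →+ J₀(N)` with the clauses.
* `ModData P L f W 𝔪`   : the data of `P.ModularRepOfLevel L` as hypotheses on `(f, W, 𝔪)`.
* `ModRepW P L W`       : `P.ModularRepOfLevel L` with the integral model `W` FIXED.
* `UnramAt2 P`          : every inertia group at `2` acts trivially on `E[p]`.
* `RamAt2 P`            : some inertia group at `2` moves a point of `E[p]` (chapter FreyRam2, helper3).
-/
import Mathlib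
import Fermat.Agent.ES.X44.XIface14

set_option autoImplicit false

noncomputable section

namespace Fermat.Agent.ES.X44.XIface14b

open WeierstrassCurve WeierstrassCurve.Affine WeierstrassCurve.Affine.Point ModularCurve
open Fermat.Agent.ES.X44.XIface14

local notation "Qb" => AlgebraicClosure ℚ
local notation "GQ" => (AlgebraicClosure ℚ ≃ₐ[ℚ] AlgebraicClosure ℚ)

/-- the clauses of `RealExit` for a given `ι`. -/
def RealClauses (P : FreyPackage) (L : ℕ) [NeZero L] (W : WeierstrassCurve ℤ) (ι : Ep P →+ JZero L) : Prop :=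
  Function.Injective ι ∧
    (∀ (σ : GQ) (v : Ep P), ι (σ • v) = σ • ι v) ∧
    ∀ ℓ : Nat.Primes, GoodAt W L P.p ℓ → ∀ v : Ep P,
      heckeOperatorBar L ℓ (ι v) = W.apOfModel ℓ • ι v

theorem realExit_of_clauses {P : FreyPackage} {L : ℕ} [NeZero L] {W : WeierstrassCurve ℤ}
    {ι : Ep P →+ JZero L} (h : RealClauses P L W ι) : RealExit P L W :=
  ⟨ι, h.1, h.2.1, h.2.2⟩

theorem realExit_iff {P : FreyPackage} {L : ℕ} [NeZero L] {W : WeierstrassCurve ℤ} :
    RealExit P L W ↔ ∃ ι : Ep P →+ JZero L, RealClauses P L W ι :=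
  ⟨fun ⟨ι, h1, h2, h3⟩ => ⟨ι, h1, h2, h3⟩, fun ⟨_, h⟩ => realExit_of_clauses h⟩

/-- **(R) at the level `N` itself.** -/
def R0Exit (P : FreyPackage) (N : ℕ) [NeZero N] (W : WeierstrassCurve ℤ) : Prop :=
  ∃ ι₀ : Ep P →+ JZero N, RealClauses P N W ι₀

/-- the data of `P.ModularRepOfLevel L`, as hypotheses on `(f, W, 𝔪)`. -/
def ModData (P : FreyPackage) (L : ℕ) (f : CuspForm (CongruenceSubgroup.Gamma0 L) 2)
    (W : WeierstrassCurve ℤ) (𝔪 : Ideal (integralClosure ℤ ℂ)) : Prop :=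
  f.IsNormalizedEigenform ∧ W.IsIntegralModelOf P.freyCurve ∧ 𝔪.IsMaximal ∧
    (P.p : integralClosure ℤ ℂ) ∈ 𝔪 ∧
    ∀ ℓ : ℕ, ℓ.Prime → W.IsGoodPrimeFor ℓ → ¬ ℓ ∣ L → ℓ ≠ P.p →
      ∃ a : integralClosure ℤ ℂ, (a : ℂ) = ModularFormClass.qCoeff f ℓ ∧
        a - ((W.apOfModel ℓ : ℤ) : integralClosure ℤ ℂ) ∈ 𝔪

/-- `P.ModularRepOfLevel L` with the integral model `W` fixed. -/
def ModRepW (P : FreyPackage) (L : ℕ) (W : WeierstrassCurve ℤ) : Prop :=
  ∃ (f : CuspForm (CongruenceSubgroup.Gamma0 L) 2) (𝔪 : Ideal (integralClosure ℤ ℂ)), ModData P L f W 𝔪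

theorem modularRepOfLevel_of_modRepW {P : FreyPackage} {L : ℕ} {W : WeierstrassCurve ℤ}
    (h : ModRepW P L W) : P.ModularRepOfLevel L := by
  obtain ⟨f, 𝔪, hf, hW, h𝔪, hp, hc⟩ := h
  exact ⟨f, W, 𝔪, hf, hW, h𝔪, hp, hc⟩

/-- every inertia group at `2` acts trivially on `E[p]`. -/
def UnramAt2 (P : FreyPackage) : Prop :=
  ∀ A : ValuationSubring Qb, A.LiesOverPrime 2 → ∀ σ ∈ A.inertiaSubgroupIn ℚ, ∀ v : Ep P, σ • v = v

/-- some inertia group at `2` moves a point of `E[p]`. -/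
def RamAt2 (P : FreyPackage) : Prop :=
  ∃ A : ValuationSubring Qb, A.LiesOverPrime 2 ∧ ∃ σ ∈ A.inertiaSubgroupIn ℚ, ∃ v : Ep P, σ • v ≠ v

theorem not_unramAt2_of_ramAt2 {P : FreyPackage} (h : RamAt2 P) : ¬ UnramAt2 P := by
  obtain ⟨A, hA, σ, hσ, v, hv⟩ := h
  exact fun hu => hv (hu A hA σ hσ v)

end Fermat.Agent.ES.X44.XIface14b
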