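/-
Programme X (S44), SPINE v2 (rulings x2 + x3), helper14: **the top-level chain, final form.**  Replaces `S44Chain14`
(whose border literal `EigBar` is withdrawn).  The chain is GENERIC in the border literal Geo → Old:

* `EigQ p M' a good` : a nonzero `b̄ ∈ kA((q))`, `b̄ = θḠ/Ḡ` with `Ḡ` in the function field of `X₀(M')` over the residue
  field `kA` of a place `A ∣ p`, all orders of `Ḡ` divisible by `p`, and the weight-2 Hecke relations
  `ℓ·b̄(q^ℓ) + Σ b̄_{nℓ} qⁿ = a_ℓ·b̄` at the good primes (literal of helper9; (QH) proves it, (QP) consumes it).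

`N` odd: `R0Chapter` + `Unr2Chapter` + `RamAt2Chapter` give a contradiction (the statement is vacuous there).
`N` even: `RChapter` (frozen, `S44Chain14`), (NE), (L2), `GeoQChapter` = the geometric chapters (K), (W1), (LL'),
(Eis), (C)+BRIDGE and (QH); `Old3Chapter` = (QP) + Deligne–Serre at the level `M' = 4m`, (R) at the level `M'`,
Rem4 (`FixTors`), TorsToForm at the level `2m = N / p`.
-/
import Mathlib
import Fermat.Agent.ES.X44.XIface14b
import Fermat.Agent.ES.X44.S44Chain14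

set_option autoImplicit false

noncomputable section

namespace Fermat.Agent.ES.X44.S44Chain14c

open WeierstrassCurve WeierstrassCurve.Affine WeierstrassCurve.Affine.Point ModularCurve
open Fermat.Agent.RED.Interface4 (auxLevel dvd_auxLevel auxLevel_pos)
open Fermat.Agent.ES.X44.XIface14 Fermat.Agent.ES.X44.XIface14b
open Fermat.Agent.ES.X44.S44Chain14 (RChapter NEChapter L2Chapter)

local notation "Qb" => AlgebraicClosure ℚ

section

variable (EigQ : ℕ → ∀ (M' : ℕ) [NeZero M'], (Nat.Primes → ℤ) → (Nat.Primes → Prop) → Prop)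

/-- **(R) at the level `N` itself** (corollary of the strong form `RSChapter` of the chapter (R)). -/
def R0Chapter : Prop :=
  ∀ (P : FreyPackage) (N : ℕ) [NeZero N],
    GaloisRepIsIrreducible (K := AlgebraicClosure ℚ) ℚ P.freyCurve P.p →
    ∀ (f : CuspForm (CongruenceSubgroup.Gamma0 N) 2) (W : WeierstrassCurve ℤ)
      (𝔪 : Ideal (integralClosure ℤ ℂ)), ModData P N f W 𝔪 → R0Exit P N W

/-- **Unr2**: `N` odd ⇒ `J₀(N)` has good reduction at `2` ⇒ `E[p] ↪ J₀(N)[p]` is unramified at `2`. -/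
def Unr2Chapter : Prop :=
  ∀ (P : FreyPackage) (N : ℕ) [NeZero N] (W : WeierstrassCurve ℤ), ¬ 2 ∣ N → R0Exit P N W → UnramAt2 P

/-- **FreyRam2**: the `p`-torsion of the Frey curve is ramified at `2`. -/
def RamAt2Chapter : Prop :=
  ∀ P : FreyPackage, RamAt2 P

/-- **the geometric chapters + (QH)**: at the level `N' = M' * p` (`p` odd, `p ∤ M'`, `4 ∣ M'`). -/
def GeoQChapter : Prop :=
  ∀ (P : FreyPackage) (M' : ℕ) [NeZero M'] [NeZero (M' * P.p)] (W : WeierstrassCurve ℤ),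
    W.IsIntegralModelOf P.freyCurve → ¬ P.p ∣ M' → 4 ∣ M' → RealExit P (M' * P.p) W →
    NonEis P (M' * P.p) W → (∀ A : ValuationSubring Qb, A.LiesOverPrime P.p → FreyLocal P A) →
    EigQ P.p M' (fun ℓ => W.apOfModel ℓ) (GoodAt W (M' * P.p) P.p)

/-- **(Old)**, `N` even: (QP) + Deligne–Serre at the level `M'`, (R) at the level `M'`, Rem4, TorsToForm. -/
def Old3Chapter : Prop :=
  ∀ (P : FreyPackage) (N M' : ℕ) [NeZero M'] (W : WeierstrassCurve ℤ),
    P.IsConductorLevel N → P.p ∣ N → 2 ∣ N → M' * P.p = auxLevel P.p N →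
    W.IsIntegralModelOf P.freyCurve →
    GaloisRepIsIrreducible (K := AlgebraicClosure ℚ) ℚ P.freyCurve P.p →
    EigQ P.p M' (fun ℓ => W.apOfModel ℓ) (GoodAt W (M' * P.p) P.p) →
    P.ModularRepOfLevel (N / P.p)

/-- **S44 from the chapters (spine v2).** -/
theorem s44_of_chapters3
    (hR0 : R0Chapter) (hUnr : Unr2Chapter) (hRam : RamAt2Chapter)
    (hR : RChapter) (hNE : NEChapter) (hL2 : L2Chapter) (hGeo : GeoQChapter EigQ)
    (hOld : Old3Chapter EigQ)
    (P : FreyPackage) {N : ℕ} (hcond : P.IsConductorLevel N) (hpN : P.p ∣ N)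
    (hirr : GaloisRepIsIrreducible (K := AlgebraicClosure ℚ) ℚ P.freyCurve P.p)
    (hmod : P.ModularRepOfLevel N) : ∃ M : ℕ, M ∣ N ∧ ¬ P.p ∣ M ∧ P.ModularRepOfLevel M := by
  obtain ⟨f, W, 𝔪, hf, hW, h𝔪, hp𝔪, hcong⟩ := hmod
  have hdata : ModData P N f W 𝔪 := ⟨hf, hW, h𝔪, hp𝔪, hcong⟩
  have hp : P.p.Prime := P.pp
  have hp2 : P.p ≠ 2 := by
    have := P.hp5
    omega
  haveI : NeZero N := ⟨hcond.pos.ne'⟩
  by_cases h2N : 2 ∣ N
  · -- `N` even
    set N' := auxLevel P.p N with hN'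
    have hN'pos : 0 < N' := auxLevel_pos hcond.pos
    have hN'4 : N' = Nat.lcm N 4 := by
      rw [hN']; unfold auxLevel; rw [if_neg hp2]
    have hpN' : P.p ∣ N' := hpN.trans (dvd_auxLevel P.p N)
    obtain ⟨M', hM'⟩ : ∃ M', N' = M' * P.p := ⟨N' / P.p, (Nat.div_mul_cancel hpN').symm⟩
    have hM'0 : M' ≠ 0 := by
      rintro rfl; rw [zero_mul] at hM'; omega
    haveI : NeZero M' := ⟨hM'0⟩
    haveI : NeZero (M' * P.p) := ⟨by rw [← hM']; exact hN'pos.ne'⟩
    have hsq : ¬ P.p ^ 2 ∣ N := hcond.sq_not_dvd hp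
    have hcop : Nat.Coprime P.p 4 := by
      have h4 : (4 : ℕ) = 2 ^ 2 := by norm_num
      rw [h4]
      exact Nat.Coprime.pow_right 2 ((Nat.coprime_primes hp Nat.prime_two).mpr hp2)
    have hpM' : ¬ P.p ∣ M' := by
      intro h
      have h2 : P.p ^ 2 ∣ N' := by
        rw [hM', pow_two]; exact Nat.mul_dvd_mul_right h P.p
      rw [hN'4] at h2
      have h3 : P.p ^ 2 ∣ N * 4 := h2.trans (Nat.lcm_dvd_mul N 4)
      exact hsq ((Nat.Coprime.pow_left 2 hcop).dvd_of_dvd_mul_right h3)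
    have h4M' : 4 ∣ M' := by
      have h4N' : 4 ∣ M' * P.p := by rw [← hM', hN'4]; exact Nat.dvd_lcm_right N 4
      exact (Nat.Coprime.symm hcop).dvd_of_dvd_mul_right h4N'
    have hpabc : (P.p : ℤ) ∣ P.a * P.b * P.c := hcond.p_dvd_abc hpN
    have e : M' * P.p = auxLevel P.p N := by rw [← hM']
    have hpos : 0 < M' * P.p := by rw [← hM']; exact hN'pos
    have hreal : RealExit P (M' * P.p) W :=
      hR P N (M' * P.p) hcond hpN e hirr f W 𝔪 hf hW h𝔪 hp𝔪 hcong
    have hne : NonEis P (M' * P.p) W := hNE P (M' * P.p) W hpos hW hirr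
    have hloc : ∀ A : ValuationSubring Qb, A.LiesOverPrime P.p → FreyLocal P A := hL2 P hpabc
    have heig := hGeo P M' W hW hpM' h4M' hreal hne hloc
    refine ⟨N / P.p, Nat.div_dvd_of_dvd hpN, ?_, hOld P N M' W hcond hpN h2N e hW hirr heig⟩
    intro h
    apply hsq
    obtain ⟨k, hk⟩ := h
    refine ⟨k, ?_⟩
    have h1 : N = N / P.p * P.p := (Nat.div_mul_cancel hpN).symm
    rw [h1, hk]; ring
  · -- `N` odd: vacuous
    exact absurd (hUnr P N W h2N (hR0 P N hirr f W 𝔪 hdata)) (not_unramAt2_of_ramAt2 (hRam P))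

end

end Fermat.Agent.ES.X44.S44Chain14c
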