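/-
Programme X (S44), SPINE v2, helper14: **the assembly of the geometric side**
`S44Chain14c.GeoQChapter EigQLit9.EigQ` from the exits of the three geometric chapters still under way,

* `OffChapter` = (K) + (NC) + (SC) + (W1) + (LG) + (MV) : `GeoLit12.OffExit` at THE instance `IX` on `ι(E[p])`,
                 from `ι` (injective, `G_ℚ`-equivariant) and the local package `XIface14.FreyLocal P A`;
* `XaChapter`  = (X-a) : `EisLit29.HeckeComp IX ℓ₀` at every prime `ℓ₀ ∤ M' p`;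
* `QHChapter`  = (QH)  : `FExit` + `RedNe` + the eigen-relations on `ι(E[p])` ⇒ `EigQLit9.EigQAt p M' A a good`,

through the chapters that are closed: (Eis) `EisExit29.fExit_of_iota`, (C)+BRIDGE `RedNeN4.redNe_of_iota`.

`w1Input_of_iota` transports `FreyLocal` along `ι` to helper12's `SlopesLit12.W1Input` (entry of (W1)).
-/
import Mathlib
import Fermat.Agent.ES.X44.S44Chain14c
import Fermat.Agent.ES.X44.EigQLit9
import Fermat.Agent.ES.X44.SlopesLit12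
import Fermat.Agent.ES.X44.EisExit29
import Fermat.Agent.ES.X44.RedNeN4
import Fermat.Agent.ES.X44.LNeTop10
import Fermat.Agent.ES.X44.RChapter19
import Fermat.Agent.Lib.FrobeniusExists

set_option autoImplicit false
set_option linter.unusedSectionVars false
set_option synthInstance.maxHeartbeats 400000

noncomputable section

open AlgebraicCurve ModularCurve

namespace Fermat.Agent.ES.X44.GeoAsm14

open WeierstrassCurve WeierstrassCurve.Affine WeierstrassCurve.Affine.Point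
open Fermat.Agent.ES.W33.XiIfaceN29 Fermat.Agent.ES.W33.GeoNames23
open Fermat.Agent.ES.X44.XIface14 Fermat.Agent.ES.X44.S44Chain14c Fermat.Agent.ES.X44.GeoLit12

attribute [local instance 5000] HahnSeries.powerSeriesAlgebra SubalgebraClass.toAlgebra

local notation "Qb" => AlgebraicClosure ℚ
local notation "GQ" => (AlgebraicClosure ℚ ≃ₐ[ℚ] AlgebraicClosure ℚ)

/-- `E[p]` is finite. -/
theorem finite_Ep (P : FreyPackage) : Finite (Ep P) :=
  Nat.finite_of_card_ne_zero (by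
    rw [Fermat.Agent.ES.X44.LNeTop10.card_Ep P]
    exact pow_ne_zero 2 P.pp.ne_zero)

/-- a proper subgroup of `E[p]` is generated by any of its nonzero elements. -/
theorem cyc_of_ne_top (P : FreyPackage) (L : AddSubgroup (Ep P)) (hL : L ≠ ⊤) (w : Ep P)
    (hw : w ∈ L) (hw0 : w ≠ 0) (w' : Ep P) (hw' : w' ∈ L) : ∃ n : ℕ, w' = n • w := by
  have hp : P.p.Prime := P.pp
  have : Fact P.p.Prime := ⟨hp⟩
  have hcard : Nat.card (Ep P) = P.p ^ 2 := Fermat.Agent.ES.X44.LNeTop10.card_Ep P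
  have : Finite (Ep P) := finite_Ep P
  have hpw : P.p • w = 0 := Fermat.Agent.ES.X44.RChapter19.nsmul_Ep P w
  have hord : addOrderOf w = P.p := addOrderOf_eq_prime hpw hw0
  have hCL : AddSubgroup.zmultiples w ≤ L := AddSubgroup.zmultiples_le_of_mem hw
  have hcardC : Nat.card (AddSubgroup.zmultiples w) = P.p := by rw [Nat.card_zmultiples, hord]
  have hLdvd : Nat.card L ∣ P.p ^ 2 := hcard ▸ AddSubgroup.card_addSubgroup_dvd_card L
  obtain ⟨k, hk2, hk⟩ := (Nat.dvd_prime_pow hp).mp hLdvd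
  have hCdvd : Nat.card (AddSubgroup.zmultiples w) ∣ Nat.card L := AddSubgroup.card_dvd_of_le hCL
  rw [hcardC, hk] at hCdvd
  have hk1 : k = 1 := by
    have hk0 : k ≠ 0 := by
      rintro rfl
      rw [pow_zero] at hCdvd
      exact hp.one_lt.ne' (Nat.dvd_one.mp hCdvd)
    have hk2' : k ≠ 2 := by
      rintro rfl
      apply hL
      rw [← AddSubgroup.card_eq_iff_eq_top, hk, hcard]
    omega
  rw [hk1, pow_one] at hk
  have hCeq : AddSubgroup.zmultiples w = L :=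
    AddSubgroup.eq_of_le_of_card_ge hCL (by rw [hcardC, hk])
  rw [← hCeq] at hw'
  have hfin : IsOfFinAddOrder w := isOfFinAddOrder_of_finite w
  obtain ⟨n, hn⟩ :=
    (AddSubmonoid.mem_multiples_iff _ _).mp (hfin.mem_multiples_iff_mem_zmultiples.mpr hw')
  exact ⟨n, hn.symm⟩

/-- **the entry of (W1)**: `FreyLocal` transported along an injective equivariant `ι : E[p] →+ J₀(M' p)`. -/
theorem w1Input_of_iota (P : FreyPackage) {M' : ℕ} [NeZero (M' * P.p)] (A : ValuationSubring Qb)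
    (ι : Ep P →+ JZero (M' * P.p)) (hι : Function.Injective ι)
    (hιG : ∀ (σ : GQ) (v : Ep P), ι (σ • v) = σ • ι v)
    (L : AddSubgroup (Ep P)) (hL : L ≠ ⊤)
    (h2 : ∀ σ ∈ A.inertiaSubgroupIn ℚ, ∀ v : Ep P, σ • v - v ∈ L)
    (h3 : ∀ τ ∈ H1 A P.p, ∀ w ∈ L, τ • w = w)
    (h4 : ∃ τ' ∈ A.inertiaSubgroupIn ℚ, ∃ c : ℤ, ¬ (P.p : ℤ) ∣ c ∧ ∀ w ∈ L, τ' • w - w = c • w)
    (h5 : ∀ (v : Ep P) (σ : GQ), σ ∈ H1 A P.p → σ • v ≠ v →
      ∃ z : Qb, z ≠ 0 ∧ (∀ τ ∈ H1 A P.p, τ • v = v → τ z = z) ∧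
        (∃ q : ℚ, A.valuation z = A.valuation (algebraMap ℚ Qb q)) ∧
        ∀ ζ : Qb, ζ ^ P.p = 1 → ζ ≠ 1 →
          A.valuation z * A.valuation (ζ - 1) ≤ A.valuation (σ z - z)) :
    Fermat.Agent.ES.X44.SlopesLit12.W1Input P.p A ι.range (L.map ι) where
  ptors := by
    rintro _ ⟨v, rfl⟩
    rw [← map_nsmul, Fermat.Agent.ES.X44.RChapter19.nsmul_Ep, _root_.map_zero]
  stable := by
    rintro σ - _ ⟨v, rfl⟩
    exact ⟨σ • v, hιG σ v⟩
  le := by
    rintro _ ⟨v, -, rfl⟩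
    exact ⟨v, rfl⟩
  cyc := by
    rintro _ ⟨u, hu, rfl⟩ hw0 _ ⟨u', hu', rfl⟩
    have hu0 : u ≠ 0 := by
      rintro rfl
      exact hw0 (_root_.map_zero ι)
    obtain ⟨n, hn⟩ := cyc_of_ne_top P L hL u hu hu0 u' hu'
    exact ⟨n, by rw [hn, map_nsmul]⟩
  inertia := by
    rintro σ hσ _ ⟨v, rfl⟩
    refine ⟨σ • v - v, h2 σ hσ v, ?_⟩
    rw [map_sub, hιG]
  h1fix := by
    rintro τ hτ _ ⟨u, hu, rfl⟩
    rw [← hιG, h3 τ hτ u hu]
  twist := by
    obtain ⟨τ', hτ', c, hc, h⟩ := h4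
    refine ⟨τ', hτ', c, hc, ?_⟩
    rintro _ ⟨u, hu, rfl⟩
    rw [← hιG, ← map_sub, h u hu, map_zsmul]
  cert := by
    rintro _ ⟨u, rfl⟩ σ hσ hne
    have hne' : σ • u ≠ u := by
      intro h
      apply hne
      rw [← hιG, h]
    obtain ⟨z, hz0, hzfix, hzq, hzv⟩ := h5 u σ hσ hne'
    refine ⟨z, hz0, ?_, hzq, hzv⟩
    intro τ hτ hfix
    apply hzfix τ hτ
    apply hι
    rw [hιG, hfix]

/-- **(Off)** = (K) + (NC) + (SC) + (W1) + (LG) + (MV): every class of `ι(E[p])` has a representative off the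
nodes of THE instance. -/
def OffChapter : Prop :=
  ∀ (P : FreyPackage) [Fact P.p.Prime] (M' : ℕ) [NeZero M'] [NeZero (M' * P.p)] (hpM : ¬ P.p ∣ M')
    (h4M : 4 ∣ M') (A : ValuationSubring Qb) (hA : A.LiesOverPrime P.p)
    (ι : Ep P →+ JZero (M' * P.p)), Function.Injective ι →
    (∀ (σ : GQ) (v : Ep P), ι (σ • v) = σ • ι v) → FreyLocal P A →
    OffExit (IX M' P.p hpM h4M A hA) (Set.range ι)

/-- **(X-a)**: the two degeneracy maps of level `M' p ℓ₀` respect the components of the nodal fibre. -/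
def XaChapter : Prop :=
  ∀ (M' : ℕ) [NeZero M'] (p : ℕ) [Fact p.Prime] [NeZero (M' * p)] (hpM : ¬ p ∣ M') (h4M : 4 ∣ M'),
    p ≠ 2 → ∀ (A : ValuationSubring Qb) (hA : A.LiesOverPrime p) (ℓ₀ : Nat.Primes),
      ¬ (ℓ₀ : ℕ) ∣ M' * p →
      Fermat.Agent.ES.X44.EisLit29.HeckeComp (IX M' p hpM h4M A hA) ℓ₀

/-- **(QH)**: the `θ`-logarithm of the component reduction is a nonzero Hecke eigenvector. -/
def QHChapter : Prop :=
  ∀ (P : FreyPackage) [Fact P.p.Prime] (M' : ℕ) [NeZero M'] [NeZero (M' * P.p)] (hpM : ¬ P.p ∣ M')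
    (h4M : 4 ∣ M') (A : ValuationSubring Qb) (hA : A.LiesOverPrime P.p)
    (a : Nat.Primes → ℤ) (good : Nat.Primes → Prop)
    (ι : Ep P →+ JZero (M' * P.p)), Function.Injective ι →
    (∀ (σ : GQ) (v : Ep P), ι (σ • v) = σ • ι v) →
    (∀ ℓ : Nat.Primes, good ℓ → ¬ (ℓ : ℕ) ∣ M' * P.p) →
    (∀ ℓ : Nat.Primes, good ℓ → ∀ v : Ep P,
      heckeOperatorBar (M' * P.p) ℓ (ι v) = a ℓ • ι v) →
    FExit (IX M' P.p hpM h4M A hA) (Set.range ι) →
    RedNe (IX M' P.p hpM h4M A hA) (Set.range ι) →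
    Fermat.Agent.ES.X44.EigQLit9.EigQAt P.p M' A a good

/-- **the geometric side of S44.** -/
theorem geoQChapter_of (hOff : OffChapter) (hXa : XaChapter) (hQH : QHChapter) :
    GeoQChapter Fermat.Agent.ES.X44.EigQLit9.EigQ := by
  intro P M' _ _ W _ hpM h4M hreal hne hloc
  have hp : P.p.Prime := P.pp
  have : Fact P.p.Prime := ⟨hp⟩
  have hp5 := P.hp5
  have hp2 : P.p ≠ 2 := by omega
  obtain ⟨A, hA⟩ := Fermat.Agent.Lib.FrobeniusExists.exists_valuationSubring_liesOverPrime P.p hp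
  obtain ⟨ι, hinj, heq, hhecke⟩ := hreal
  obtain ⟨L, hL, h2, h3, h4, h5⟩ := hloc A hA
  have hoff := hOff P M' hpM h4M A hA ι hinj heq ⟨L, hL, h2, h3, h4, h5⟩
  obtain ⟨ℓ₀, hgood₀, hne₀⟩ := hne
  have hF : FExit (IX M' P.p hpM h4M A hA) (Set.range ι) :=
    Fermat.Agent.ES.X44.EisExit29.fExit_of_iota M' P.p hpM h4M A hA (IX M' P.p hpM h4M A hA) ι
      (Fermat.Agent.ES.X44.RChapter19.nsmul_Ep P) ℓ₀ (W.apOfModel ℓ₀) hgood₀.2.1
      (fun v => hhecke ℓ₀ hgood₀ v) hne₀ hoff (hXa M' P.p hpM h4M hp2 A hA ℓ₀ hgood₀.2.1)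
  have : Finite (Ep P) := finite_Ep P
  have hR : RedNe (IX M' P.p hpM h4M A hA) (Set.range ι) :=
    Fermat.Agent.ES.X44.RedNeN4.redNe_of_iota M' P.p hp2 hpM h4M A hA
      (instInput_IX M' P.p hpM h4M A hA hp2) ι hinj heq L hL h2 hF
  exact ⟨A, hA, hQH P M' hpM h4M A hA (fun ℓ => W.apOfModel ℓ) (GoodAt W (M' * P.p) P.p) ι hinj heq
    (fun ℓ h => h.2.1) hhecke hF hR⟩

end Fermat.Agent.ES.X44.GeoAsm14
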