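/-
Programme X (S44), chapter (W1), leaf (SC)(b), helper4's route through the GOOD level, leaf (G6) (helper18):
**pulling an inertia-fixed function of the good level `M'` back to the bad level `M' p` along `β`
(`q ↦ q^p`, the second degeneracy map): the `β` twin of (G5).**

`x ∈ Fbar M'` with reduction `φ ≠ 0` (`IsRedOf G' red' x φ`, `G' = gaussRingN A (resA A) M'`), fixed by the inertia
group `I_A` (level-`M'` action).  Then `w := heckeBetaBar ℚ̄ M' p x ∈ FW p M'` satisfies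
* `fix`   : `aG p M' τ • w = w` for all `τ ∈ I_A`                       (main `CoordFixN9.smul_beta`);
* `rho2`  : `w ∈ O2`, `rho2 w = wBar φ`  (hence `≠ 0`)                  (main `FrickeBar8.rho2_beta`);
* `rho1`  : `w ∈ O1`, `rho1 w = V_p φ ≠ 0`                              (main `FrickeBar8.rho1_beta`);
* charts : `x ∈ chart ↥A tV → w ∈ chart ↥A tN`, `x ∈ chart ↥A tV⁻¹ → w ∈ chart ↥A tN⁻¹`
           (main `ExTwoN4.beta_mem_chart0/1` at `yLeaves_four`, `(n, e) = (4, 8)`, `p` odd);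
* `w ∈ GN` and `redN w = (V_p φ, wBar φ)`.
-/
import Mathlib
import Fermat.Agent.ES.W33.FrickeBar8
import Fermat.Agent.ES.W33.ExTwoN4
import Fermat.Agent.ES.W33.CoordFixN9
import Fermat.Agent.ES.W33.GeoJoinGa23
import Fermat.Agent.ES.W33.GeoInput23

set_option autoImplicit false
set_option linter.unusedSectionVars false
set_option linter.style.haveILetI false
set_option synthInstance.maxHeartbeats 400000

noncomputable section

open AlgebraicCurve ModularCurve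

namespace Fermat.Agent.ES.X44.PullBeta18

open Fermat.Agent.RED.Interface4 Fermat.Agent.RED.BASE.Hauptmodul12
  Fermat.Agent.RED.PUR.ChartGeneric22
  Fermat.Agent.ES.RED.Contract8 Fermat.Agent.ES.RED.ModelInst4
  Fermat.Agent.ES.V19.GaussFrac15 Fermat.Agent.ES.V19.InstNames3
  Fermat.Agent.ES.W33.NodalDefs3 Fermat.Agent.ES.W33.BetaRed15 Fermat.Agent.ES.W33.FrickeBar8
  Fermat.Agent.ES.W33.GeoNames23 Fermat.Agent.ES.W33.GeoJoinGa23

attribute [local instance 5000] HahnSeries.powerSeriesAlgebra SubalgebraClass.toAlgebra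

variable (M' : ℕ) [NeZero M'] (p : ℕ) [Fact p.Prime] (A : ValuationSubring Qbar)
  (hA : A.LiesOverPrime p) (hpM : ¬ p ∣ M')

/-- `fix` for `β x`. -/
theorem fix_beta {x : ↥(Fbar M')}
    (hfix : ∀ τ ∈ A.inertiaSubgroupIn ℚ, arithmeticGalois (modularFunctionFieldFull M') τ • x = x) :
    ∀ τ ∈ A.inertiaSubgroupIn ℚ, aG p M' τ • heckeBetaBar Qbar M' p x = heckeBetaBar Qbar M' p x := by
  intro τ hτ
  show arithmeticGalois (modularFunctionFieldFull (M' * p)) τ • heckeBetaBar Qbar M' p x = _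
  rw [Fermat.Agent.ES.W33.CoordFixN9.smul_beta M' p τ x, hfix τ hτ]

/-- `β x` is a unit of the second Gauss ring, with reduction `wBar φ`. -/
theorem rho2_beta_ne_zero {x : ↥(Fbar M')} {φ : Ft M' A} (hφ : φ ≠ 0)
    (hred : IsRedOf (Fermat.Agent.ES.RED.GaussRing15.gaussRingN A (resA A) M')
      (Fermat.Agent.ES.RED.GaussRing15.gaussRedN A (resA A) M') x φ) :
    ∃ h : heckeBetaBar Qbar M' p x ∈ O2 M' p A,
      rho2 M' p A ⟨heckeBetaBar Qbar M' p x, h⟩ = wBar M' p A hA hpM φ ∧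
      rho2 M' p A ⟨heckeBetaBar Qbar M' p x, h⟩ ≠ 0 := by
  obtain ⟨h, hr⟩ := rho2_beta M' p A hA hpM hred
  refine ⟨h, hr, ?_⟩
  rw [hr]
  exact (map_ne_zero_iff _ (wBar M' p A hA hpM).injective).mpr hφ

/-- `β x` is a unit of the first Gauss ring, with reduction `V_p φ`. -/
theorem rho1_beta_ne_zero {x : ↥(Fbar M')} {φ : Ft M' A} (hφ : φ ≠ 0)
    (hred : IsRedOf (Fermat.Agent.ES.RED.GaussRing15.gaussRingN A (resA A) M')
      (Fermat.Agent.ES.RED.GaussRing15.gaussRedN A (resA A) M') x φ) :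
    ∃ h : heckeBetaBar Qbar M' p x ∈ O1 M' p A,
      rho1 M' p A ⟨heckeBetaBar Qbar M' p x, h⟩ = vpFt M' p A hA φ ∧
      rho1 M' p A ⟨heckeBetaBar Qbar M' p x, h⟩ ≠ 0 := by
  obtain ⟨h, hr⟩ := rho1_beta M' p A hA hred
  refine ⟨h, hr, ?_⟩
  rw [hr]
  exact (map_ne_zero_iff _ (vpFt M' p A hA).injective).mpr hφ

/-- **(G6): the pull-back along `β`.** -/
theorem pull_beta (h4M : 4 ∣ M') (hp2 : p ≠ 2) {x : ↥(Fbar M')} {φ : Ft M' A} (hφ : φ ≠ 0)
    (hred : IsRedOf (Fermat.Agent.ES.RED.GaussRing15.gaussRingN A (resA A) M')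
      (Fermat.Agent.ES.RED.GaussRing15.gaussRedN A (resA A) M') x φ)
    (hfix : ∀ τ ∈ A.inertiaSubgroupIn ℚ, arithmeticGalois (modularFunctionFieldFull M') τ • x = x) :
    haveI := Fermat.Agent.ES.W33.GeoInput23.neZero_four
    (∀ τ ∈ A.inertiaSubgroupIn ℚ,
      aG p M' τ • heckeBetaBar Qbar M' p x = heckeBetaBar Qbar M' p x) ∧
    (∃ h : heckeBetaBar Qbar M' p x ∈ O2 M' p A,
      rho2 M' p A ⟨heckeBetaBar Qbar M' p x, h⟩ = wBar M' p A hA hpM φ) ∧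
    (∃ h : heckeBetaBar Qbar M' p x ∈ O1 M' p A,
      rho1 M' p A ⟨heckeBetaBar Qbar M' p x, h⟩ ≠ 0) ∧
    (∃ h : heckeBetaBar Qbar M' p x ∈ O2 M' p A,
      rho2 M' p A ⟨heckeBetaBar Qbar M' p x, h⟩ ≠ 0) ∧
    (x ∈ chart ↥A (tV 4 8 M' baseHyp_four h4M) →
      heckeBetaBar Qbar M' p x ∈ chart ↥A (tN 4 8 M' p baseHyp_four h4M)) ∧
    (x ∈ chart ↥A (tV 4 8 M' baseHyp_four h4M)⁻¹ →
      heckeBetaBar Qbar M' p x ∈ chart ↥A (tN 4 8 M' p baseHyp_four h4M)⁻¹) := by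
  haveI := Fermat.Agent.ES.W33.GeoInput23.neZero_four
  obtain ⟨h2, hr2, hne2⟩ := rho2_beta_ne_zero M' p A hA hpM hφ hred
  obtain ⟨h1, -, hne1⟩ := rho1_beta_ne_zero M' p A hA hφ hred
  have hY := Fermat.Agent.ES.W33.ExTwoN4.yLeaves_four M' p hpM baseHyp_four h4M A hA hp2
  exact ⟨fix_beta M' p A hfix, ⟨h2, hr2⟩, ⟨h1, hne1⟩, ⟨h2, hne2⟩,
    fun hx => Fermat.Agent.ES.W33.ExTwoN4.beta_mem_chart0 hY hx,
    fun hx => Fermat.Agent.ES.W33.ExTwoN4.beta_mem_chart1 hY hx⟩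

/-- `β x ∈ GN`, with `redN (β x) = (V_p φ, wBar φ)`. -/
theorem redN_beta {x : ↥(Fbar M')} {φ : Ft M' A}
    (hred : IsRedOf (Fermat.Agent.ES.RED.GaussRing15.gaussRingN A (resA A) M')
      (Fermat.Agent.ES.RED.GaussRing15.gaussRedN A (resA A) M') x φ) :
    ∃ h : heckeBetaBar Qbar M' p x ∈ GN M' p A,
      redN M' p A ⟨heckeBetaBar Qbar M' p x, h⟩ = (vpFt M' p A hA φ, wBar M' p A hA hpM φ) := by
  obtain ⟨h2, hr2⟩ := rho2_beta M' p A hA hpM hred
  obtain ⟨h1, hr1⟩ := rho1_beta M' p A hA hred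
  refine ⟨⟨h1, h2⟩, Prod.ext ?_ ?_⟩
  · rw [redN_fst]; exact hr1
  · rw [redN_snd]; exact hr2

end Fermat.Agent.ES.X44.PullBeta18
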