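/-
Programme X (S44, spine `X44_SPINE14.md`), chapter (W1) "equal slopes", leaf (SC) (literal by helper12):
**THE LITERAL "coordinates at ALL smooth points at ℚ̄-level"** (statement only: one `Prop`-structure and
one `Prop`; no theorem).  Twin of helper17's `NodeCoordWLit17.IsNodeCoordW` for the discs.

`I : NodalInst p M' A` is W's nodal instance (`GeoLit12.IX` in the chain).

`IsSmoothCoord I Q w` — `w` is a coordinate of the disc of the smooth point `Q` (of either component):
* `fix` : `w` is fixed by the inertia group of `A`;
* `u1`, `u2` : `w` is a unit of BOTH Gauss rings (`w ∈ O1`, `rho1 w ≠ 0`, `w ∈ O2`, `rho2 w ≠ 0`);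
* `val` : every place `P` of the disc has a value `a = w(P) ∈ 𝔪_A`, `w - a` is a UNIFORMISER at `P` and has
          order `0` at every other place of the disc (`w` is an injective étale coordinate on the disc).
At the GOOD points of W (`I.Good Q`) the coordinate `I.coord Q` has these properties (`PtPkg.fix`,
`tau_unit` at `s = 0`, `val`, `da`); the content of (SC) is the finitely many bad smooth points.

`SmoothCoords I` : every smooth point has a coordinate.  **(SC) = `SmoothCoords (GeoLit12.IX …)`.**
-/
import Mathlib
import Fermat.Agent.ES.W33.GeoLeaves23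

set_option autoImplicit false
set_option linter.unusedSectionVars false
set_option synthInstance.maxHeartbeats 400000

noncomputable section

open AlgebraicCurve ModularCurve

namespace Fermat.Agent.ES.X44.SmoothCoordLit12

open Fermat.Agent.ES.W33.XiIfaceN29 Fermat.Agent.ES.W33.GeoNames23 Fermat.Agent.ES.W33.GeoJoinGa23
  Fermat.Agent.ES.W33.NodalDefs3

attribute [local instance 5000] HahnSeries.powerSeriesAlgebra SubalgebraClass.toAlgebra

local notation "Qb" => AlgebraicClosure ℚ

variable {M' : ℕ} [NeZero M'] {p : ℕ} [Fact p.Prime] {A : ValuationSubring Qb}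

/-- **`w` is a coordinate of the disc of the smooth point `Q`.** -/
structure IsSmoothCoord (I : NodalInst p M' A) (Q : SPtW M' A) (w : FW p M') : Prop where
  /-- `w` is fixed by the inertia group. -/
  fix : ∀ τ ∈ A.inertiaSubgroupIn ℚ, aG p M' τ • w = w
  /-- a unit of the first Gauss ring. -/
  u1 : ∃ h : w ∈ O1 M' p A, rho1 M' p A ⟨w, h⟩ ≠ 0
  /-- a unit of the second Gauss ring. -/
  u2 : ∃ h : w ∈ O2 M' p A, rho2 M' p A ⟨w, h⟩ ≠ 0
  /-- the values on the disc, and `w - w(P)` is a uniformiser at `P` with no other zero in the disc. -/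
  val : ∀ P : Place Qb (FW p M'), I.r P = Sum.inl Q →
    ∃ a : Qb, a ∈ A.nonunits ∧ P.ord (w - algebraMap Qb (FW p M') a) = 1 ∧
      ∀ P' : Place Qb (FW p M'), I.r P' = Sum.inl Q → P' ≠ P →
        P'.ord (w - algebraMap Qb (FW p M') a) = 0

/-- **(SC)**: every smooth point of the instance has a coordinate. -/
def SmoothCoords (I : NodalInst p M' A) : Prop :=
  ∀ Q : SPtW M' A, I.nodes.IsSmooth Q → ∃ w : FW p M', IsSmoothCoord I Q w

end Fermat.Agent.ES.X44.SmoothCoordLit12
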