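/-
Programme X (S44), chapter (W1), leaf (SC)(a) (helper18): **a function of `G = O₁ ∩ O₂` which is regular on the disc of a
smooth point `Q` and whose reduction on the component of `Q` has a SIMPLE ZERO at `Q` is a coordinate of that disc.**

* §Generic (`Mathlib` + `RR/LSpace` + `X0/FFDict` only): `single_le_mapDomain`, `pair_le_mapDomain` (a divisor which is
  `≥ 0` on a fibre of `r`), and the abstract statement `val_of_simple_zero`: `A ≤ K` a valuation subring,
  `π : A →+* k` killing the non-units, `G ⊆ F` a subring containing the constants of `A`, `ρ : G →+* Ft` with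
  `ρ(a) = π a` on constants and the sum formula `(r1)` AT ONE POINT `x` (`Σ_{r P = x} ord_P g = ord_Q (ρ g)` when
  `ρ g ≠ 0`); if `w ∈ G` is regular on the fibre of `x` and `ord_Q (ρ w) = 1`, then every place `P` of the fibre has a
  value `a = w(P) ∈ 𝔪_A`, `ord_P (w - a) = 1`, and `w - a` has order `0` at the other places of the fibre.
  (Value `a ∈ Aˣ`: `ρ(w - a) = ρ w - ā` has order `0` at `Q`; value `a ∉ A`: `ρ(a⁻¹ w - 1) = -1`; both contradict
  `ord_P (w - a) > 0` through `(r1)`.  Value `a ∈ 𝔪_A`: `ρ(w - a) = ρ w`, so the orders on the fibre are `≥ 0` and add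
  up to `1`.)
* §Nodal: the two instances at `RedCtxN` (`r1₁`, `r1₂`): `val_of_red₁`, `val_of_red₂`.
* §Instance: **`isSmoothCoord_of_red₁`, `isSmoothCoord_of_red₂`** — helper12's literal
  `SmoothCoordLit12.IsSmoothCoord I (Sum.inl Q) w` / `(Sum.inr Q)` from `hfix`, `hu1`, `hu2`, `w ∈ I.G`, regularity on
  the disc and the simple zero of the reduction.
-/
import Mathlib
import Fermat.Agent.ES.X44.SmoothCoordLit12

set_option autoImplicit false
set_option linter.unusedSectionVars false
set_option synthInstance.maxHeartbeats 400000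

noncomputable section

open AlgebraicCurve ModularCurve

namespace Fermat.Agent.ES.X44.SmoothCoordAbs18

open Fermat.Agent.RR.LSpace Fermat.Agent.X0.FF

/-! ### Generic -/

section Generic

variable {α β : Type*}

/-- the value of `r_* D` at `x`, as a sum over any finite set containing the support. -/
theorem mapDomain_apply_eq_sum_of_subset [DecidableEq β] (r : α → β) (D : α →₀ ℤ) (x : β)
    (T : Finset α) (hT : D.support ⊆ T) :
    Finsupp.mapDomain r D x = ∑ P ∈ T, if r P = x then D P else 0 := by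
  rw [Finsupp.mapDomain, Finsupp.sum, Finsupp.finsetSum_apply]
  rw [Finset.sum_subset hT]
  · refine Finset.sum_congr rfl fun P _ => ?_
    rw [Finsupp.single_apply]
  · intro P _ hP
    rw [Finsupp.notMem_support_iff.mp hP, Finsupp.single_zero, Finsupp.zero_apply]

/-- a divisor `≥ 0` on the fibre of `x`: each value is at most the value of `r_* D` at `x`. -/
theorem single_le_mapDomain (r : α → β) (D : α →₀ ℤ) (x : β) (hnn : ∀ P, r P = x → 0 ≤ D P)
    {P : α} (hP : r P = x) : D P ≤ Finsupp.mapDomain r D x := by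
  classical
  rw [mapDomain_apply_eq_sum_of_subset r D x (insert P D.support) (Finset.subset_insert _ _)]
  have h1 : D P = if r P = x then D P else 0 := by rw [if_pos hP]
  rw [h1]
  refine Finset.single_le_sum (f := fun P' => if r P' = x then D P' else 0) (fun P' _ => ?_)
    (Finset.mem_insert_self _ _)
  show 0 ≤ if r P' = x then D P' else 0
  split_ifs with h
  · exact hnn P' h
  · exact le_refl _

/-- … and the sum of two values at distinct points of the fibre is at most that value. -/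
theorem pair_le_mapDomain (r : α → β) (D : α →₀ ℤ) (x : β) (hnn : ∀ P, r P = x → 0 ≤ D P)
    {P P' : α} (hP : r P = x) (hP' : r P' = x) (hne : P ≠ P') :
    D P + D P' ≤ Finsupp.mapDomain r D x := by
  classical
  rw [mapDomain_apply_eq_sum_of_subset r D x (insert P (insert P' D.support))
    ((Finset.subset_insert _ _).trans (Finset.subset_insert _ _))]
  have h1 : D P + D P' = ∑ z ∈ ({P, P'} : Finset α), if r z = x then D z else 0 := by
    rw [Finset.sum_pair hne, if_pos hP, if_pos hP']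
  rw [h1]
  refine Finset.sum_le_sum_of_subset_of_nonneg ?_ (fun z _ _ => ?_)
  · intro z hz
    rcases Finset.mem_insert.mp hz with rfl | hz
    · exact Finset.mem_insert_self _ _
    · rw [Finset.mem_singleton.mp hz]
      exact Finset.mem_insert_of_mem (Finset.mem_insert_self _ _)
  · show 0 ≤ if r z = x then D z else 0
    split_ifs with h
    · exact hnn z h
    · exact le_refl _

variable {K F k Ft : Type*} [Field K] [Field F] [Algebra K F] [Field k] [Field Ft] [Algebra k Ft]

/-- the data of a one-component reduction with the sum formula at ONE point `x ↔ Q`. -/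
structure Red1 (A : ValuationSubring K) (π : ↥A →+* k) (G : Subring F) (ρ : ↥G →+* Ft)
    (r : Place K F → β) (x : β) (Q : Place k Ft) : Prop where
  const_mem : ∀ a : ↥A, algebraMap K F (a : K) ∈ G
  rho_const : ∀ a : ↥A, ρ ⟨algebraMap K F (a : K), const_mem a⟩ = algebraMap k Ft (π a)
  pi_nonunit : ∀ a : ↥A, ¬ IsUnit a → π a = 0
  r1 : ∀ g : ↥G, ρ g ≠ 0 → ∀ D : Divisor K F, (∀ P, D P = P.ord (g : F)) →
    Finsupp.mapDomain r D x = Q.ord (ρ g)

variable {A : ValuationSubring K} {π : ↥A →+* k} {G : Subring F} {ρ : ↥G →+* Ft}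
  {r : Place K F → β} {x : β} {Q : Place k Ft}

/-- the two inequalities on the fibre of `x`, for `g ∈ G` regular on the fibre with `ρ g ≠ 0`. -/
theorem Red1.ord_le (C : Red1 A π G ρ r x Q) (HL : LHyp K F) (g : ↥G) (hg : ρ g ≠ 0)
    (hreg : ∀ P, r P = x → 0 ≤ P.ord (g : F)) {P : Place K F} (hP : r P = x) :
    P.ord (g : F) ≤ Q.ord (ρ g) := by
  have hg0 : (g : F) ≠ 0 := by
    intro h
    apply hg
    have : g = 0 := Subtype.ext h
    rw [this, map_zero]
  obtain ⟨D, hD, -⟩ := HL.principal (g : F) hg0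
  rw [← C.r1 g hg D hD, ← hD P]
  exact single_le_mapDomain r D x (fun P' hP' => by rw [hD P']; exact hreg P' hP') hP

theorem Red1.ord_add_le (C : Red1 A π G ρ r x Q) (HL : LHyp K F) (g : ↥G) (hg : ρ g ≠ 0)
    (hreg : ∀ P, r P = x → 0 ≤ P.ord (g : F)) {P P' : Place K F} (hP : r P = x) (hP' : r P' = x)
    (hne : P ≠ P') : P.ord (g : F) + P'.ord (g : F) ≤ Q.ord (ρ g) := by
  have hg0 : (g : F) ≠ 0 := by
    intro h
    apply hg
    have : g = 0 := Subtype.ext h
    rw [this, map_zero]
  obtain ⟨D, hD, -⟩ := HL.principal (g : F) hg0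
  rw [← C.r1 g hg D hD, ← hD P, ← hD P']
  exact pair_le_mapDomain r D x (fun P'' hP'' => by rw [hD P'']; exact hreg P'' hP'') hP hP' hne

/-- **a simple zero of the reduction gives a coordinate of the fibre.** -/
theorem val_of_simple_zero (C : Red1 A π G ρ r x Q) (HL : LHyp K F) {w : F} (hwG : w ∈ G)
    (hreg : ∀ P, r P = x → 0 ≤ P.ord w) (hsimple : Q.ord (ρ ⟨w, hwG⟩) = 1)
    (P : Place K F) (hP : r P = x) :
    ∃ a : K, a ∈ A.nonunits ∧ P.ord (w - algebraMap K F a) = 1 ∧
      ∀ P' : Place K F, r P' = x → P' ≠ P → P'.ord (w - algebraMap K F a) = 0 := by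
  have hw0 : ρ ⟨w, hwG⟩ ≠ 0 := by
    intro h
    rw [h, Place.ord_zero] at hsimple
    exact zero_ne_one hsimple
  obtain ⟨a, ha⟩ := HL.residue P w (mem_of_ord_nonneg P (hreg P hP))
  by_cases hanu : a ∈ A.nonunits
  · -- the value lies in the maximal ideal: `ρ (w - a) = ρ w`
    have haA : a ∈ A := ValuationSubring.nonunits_subset hanu
    have hnu : ¬ IsUnit (⟨a, haA⟩ : ↥A) := by
      have := (ValuationSubring.coe_mem_nonunits_iff (A := A) (a := ⟨a, haA⟩)).mp hanu
      exact (IsLocalRing.mem_maximalIdeal _).mp this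
    set g : ↥G := ⟨w, hwG⟩ - ⟨algebraMap K F a, C.const_mem ⟨a, haA⟩⟩ with hg
    have hgF : (g : F) = w - algebraMap K F a := rfl
    have hρg : ρ g = ρ ⟨w, hwG⟩ := by
      rw [hg, map_sub, C.rho_const ⟨a, haA⟩, C.pi_nonunit _ hnu, map_zero, sub_zero]
    have hg0 : ρ g ≠ 0 := by rw [hρg]; exact hw0
    have hgF0 : w - algebraMap K F a ≠ 0 := by
      intro h
      apply hg0
      have : g = 0 := Subtype.ext h
      rw [this, map_zero]
    have hregg : ∀ P', r P' = x → 0 ≤ P'.ord (g : F) := by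
      intro P' hP'
      rw [hgF]
      have h1 := ord_sub_ge P' hgF0
      rw [ord_algebraMap] at h1
      exact le_trans (le_min (hreg P' hP') (le_refl _)) h1
    have hpos : 0 < P.ord (w - algebraMap K F a) := by
      rcases ha with ha | ha
      · exact absurd (sub_eq_zero.mpr ha) hgF0
      · exact ha
    have hle := C.ord_le HL g hg0 hregg hP
    rw [hρg, hsimple, hgF] at hle
    have hone : P.ord (w - algebraMap K F a) = 1 := le_antisymm hle hpos
    refine ⟨a, hanu, hone, fun P' hP' hne => ?_⟩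
    have h2 := C.ord_add_le HL g hg0 hregg hP hP' (Ne.symm hne)
    rw [hρg, hsimple, hgF, hone] at h2
    have h3 := hregg P' hP'
    rw [hgF] at h3
    omega
  · exfalso
    by_cases haA : a ∈ A
    · -- the value is a unit of `A`: `ρ (w - a) = ρ w - ā` has order `0` at `Q`
      have hu : IsUnit (⟨a, haA⟩ : ↥A) := by
        by_contra hnu
        apply hanu
        rw [← (show ((⟨a, haA⟩ : ↥A) : K) = a from rfl), ValuationSubring.coe_mem_nonunits_iff]
        exact (IsLocalRing.mem_maximalIdeal _).mpr hnu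
      have hc0 : π ⟨a, haA⟩ ≠ 0 := (hu.map π).ne_zero
      set g : ↥G := ⟨w, hwG⟩ - ⟨algebraMap K F a, C.const_mem ⟨a, haA⟩⟩ with hg
      have hgF : (g : F) = w - algebraMap K F a := rfl
      have hρg : ρ g = ρ ⟨w, hwG⟩ - algebraMap k Ft (π ⟨a, haA⟩) := by
        rw [hg, map_sub, C.rho_const ⟨a, haA⟩]
      have hcF : -algebraMap k Ft (π ⟨a, haA⟩) ≠ 0 :=
        neg_ne_zero.mpr (fun h => hc0 ((map_eq_zero (algebraMap k Ft)).mp h))
      have hord : Q.ord (ρ g) = 0 := by
        rw [hρg, sub_eq_add_neg, add_comm,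
          ord_add_eq_of_lt Q hcF (by rw [ord_neg, ord_algebraMap, hsimple]; exact zero_lt_one),
          ord_neg, ord_algebraMap]
      have hg0 : ρ g ≠ 0 := by
        intro h
        rw [hρg, sub_eq_zero] at h
        rw [h, ord_algebraMap] at hsimple
        exact zero_ne_one hsimple
      have hgF0 : w - algebraMap K F a ≠ 0 := by
        intro h
        apply hg0
        have : g = 0 := Subtype.ext h
        rw [this, map_zero]
      have hregg : ∀ P', r P' = x → 0 ≤ P'.ord (g : F) := by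
        intro P' hP'
        rw [hgF]
        have h1 := ord_sub_ge P' hgF0
        rw [ord_algebraMap] at h1
        exact le_trans (le_min (hreg P' hP') (le_refl _)) h1
      have hpos : 0 < P.ord (w - algebraMap K F a) := by
        rcases ha with ha | ha
        · exact absurd (sub_eq_zero.mpr ha) hgF0
        · exact ha
      have hle := C.ord_le HL g hg0 hregg hP
      rw [hord, hgF] at hle
      omega
    · -- the value is not in `A`: `ρ (a⁻¹ w - 1) = -1`
      have hbnu : a⁻¹ ∈ A.nonunits := A.inv_mem_nonunits_iff.mpr (Or.inr haA)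
      have hbA : a⁻¹ ∈ A := ValuationSubring.nonunits_subset hbnu
      have hnu : ¬ IsUnit (⟨a⁻¹, hbA⟩ : ↥A) := by
        have := (ValuationSubring.coe_mem_nonunits_iff (A := A) (a := ⟨a⁻¹, hbA⟩)).mp hbnu
        exact (IsLocalRing.mem_maximalIdeal _).mp this
      have ha0 : a ≠ 0 := by
        rintro rfl
        exact haA A.zero_mem
      set g : ↥G := ⟨algebraMap K F a⁻¹, C.const_mem ⟨a⁻¹, hbA⟩⟩ * ⟨w, hwG⟩ - 1 with hg
      have hgF : (g : F) = algebraMap K F a⁻¹ * (w - algebraMap K F a) := by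
        show algebraMap K F a⁻¹ * w - 1 = _
        rw [mul_sub, ← map_mul, inv_mul_cancel₀ ha0, map_one]
      have hρg : ρ g = -1 := by
        rw [hg, map_sub, map_mul, C.rho_const ⟨a⁻¹, hbA⟩, C.pi_nonunit _ hnu, map_zero, zero_mul,
          map_one, zero_sub]
      have hg0 : ρ g ≠ 0 := by rw [hρg]; exact neg_ne_zero.mpr one_ne_zero
      have hord : Q.ord (ρ g) = 0 := by rw [hρg, ord_neg, Place.ord_one]
      have hgF0 : (g : F) ≠ 0 := by
        intro h
        apply hg0
        have : g = 0 := Subtype.ext h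
        rw [this, map_zero]
      have hb0 : algebraMap K F a⁻¹ ≠ 0 :=
        fun h => inv_ne_zero ha0 ((map_eq_zero (algebraMap K F)).mp h)
      have hwa0 : w - algebraMap K F a ≠ 0 := by
        intro h
        apply hgF0
        rw [hgF, h, mul_zero]
      have hregg : ∀ P', r P' = x → 0 ≤ P'.ord (g : F) := by
        intro P' hP'
        rw [hgF, P'.ord_mul hb0 hwa0, ord_algebraMap, zero_add]
        have h1 := ord_sub_ge P' hwa0
        rw [ord_algebraMap] at h1
        exact le_trans (le_min (hreg P' hP') (le_refl _)) h1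
      have hpos : 0 < P.ord (w - algebraMap K F a) := by
        rcases ha with ha | ha
        · exact absurd (sub_eq_zero.mpr ha) hwa0
        · exact ha
      have hle := C.ord_le HL g hg0 hregg hP
      rw [hord, hgF, P.ord_mul hb0 hwa0, ord_algebraMap, zero_add] at hle
      omega

end Generic

/-! ### The two components of the nodal context -/

section Nodal

open Fermat.Agent.ES.W33.XiIfaceN29

variable {K F k Ft₁ Ft₂ : Type*} [Field K] [Field F] [Algebra K F] [Field k]
  [Field Ft₁] [Algebra k Ft₁] [Field Ft₂] [Algebra k Ft₂]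
  {s : ℕ} {A : ValuationSubring K} {π : ↥A →+* k} {N : Nodes k Ft₁ Ft₂ s} {G : Subring F}
  {red : ↥G →+* Ft₁ × Ft₂} {r : Place K F → SPt k Ft₁ Ft₂ ⊕ Fin s}

/-- the first component of the nodal context, at a smooth point. -/
theorem red1_fst (C : RedCtxN A π N G red r) {Q : Place k Ft₁} (hQ : N.IsSmooth (Sum.inl Q)) :
    Red1 A π G ((RingHom.fst Ft₁ Ft₂).comp red) r (Sum.inl (Sum.inl Q)) Q where
  const_mem := C.const_mem
  rho_const a := by
    show (red ⟨algebraMap K F (a : K), C.const_mem a⟩).1 = _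
    rw [C.red_const a]
  pi_nonunit := C.pi_nonunit
  r1 g hg D hD := C.r1₁ g hg D hD Q hQ

/-- the second component of the nodal context, at a smooth point. -/
theorem red1_snd (C : RedCtxN A π N G red r) {Q : Place k Ft₂} (hQ : N.IsSmooth (Sum.inr Q)) :
    Red1 A π G ((RingHom.snd Ft₁ Ft₂).comp red) r (Sum.inl (Sum.inr Q)) Q where
  const_mem := C.const_mem
  rho_const a := by
    show (red ⟨algebraMap K F (a : K), C.const_mem a⟩).2 = _
    rw [C.red_const a]
  pi_nonunit := C.pi_nonunit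
  r1 g hg D hD := C.r1₂ g hg D hD Q hQ

/-- **coordinate of the disc of a smooth point of the FIRST component.** -/
theorem val_of_red₁ (C : RedCtxN A π N G red r) (HL : Fermat.Agent.RR.LSpace.LHyp K F)
    {Q : Place k Ft₁} (hQ : N.IsSmooth (Sum.inl Q)) {w : F} (hwG : w ∈ G)
    (hreg : ∀ P, r P = Sum.inl (Sum.inl Q) → 0 ≤ P.ord w)
    (hsimple : Q.ord (red ⟨w, hwG⟩).1 = 1) (P : Place K F) (hP : r P = Sum.inl (Sum.inl Q)) :
    ∃ a : K, a ∈ A.nonunits ∧ P.ord (w - algebraMap K F a) = 1 ∧
      ∀ P' : Place K F, r P' = Sum.inl (Sum.inl Q) → P' ≠ P →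
        P'.ord (w - algebraMap K F a) = 0 :=
  val_of_simple_zero (red1_fst C hQ) HL hwG hreg hsimple P hP

/-- **coordinate of the disc of a smooth point of the SECOND component.** -/
theorem val_of_red₂ (C : RedCtxN A π N G red r) (HL : Fermat.Agent.RR.LSpace.LHyp K F)
    {Q : Place k Ft₂} (hQ : N.IsSmooth (Sum.inr Q)) {w : F} (hwG : w ∈ G)
    (hreg : ∀ P, r P = Sum.inl (Sum.inr Q) → 0 ≤ P.ord w)
    (hsimple : Q.ord (red ⟨w, hwG⟩).2 = 1) (P : Place K F) (hP : r P = Sum.inl (Sum.inr Q)) :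
    ∃ a : K, a ∈ A.nonunits ∧ P.ord (w - algebraMap K F a) = 1 ∧
      ∀ P' : Place K F, r P' = Sum.inl (Sum.inr Q) → P' ≠ P →
        P'.ord (w - algebraMap K F a) = 0 :=
  val_of_simple_zero (red1_snd C hQ) HL hwG hreg hsimple P hP

end Nodal

/-! ### The instance: helper12's literal `IsSmoothCoord` -/

section Instance

open Fermat.Agent.ES.W33.XiIfaceN29 Fermat.Agent.ES.W33.GeoNames23 Fermat.Agent.ES.W33.GeoJoinGa23
  Fermat.Agent.ES.W33.NodalDefs3 Fermat.Agent.ES.X44.SmoothCoordLit12

attribute [local instance 5000] HahnSeries.powerSeriesAlgebra SubalgebraClass.toAlgebra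

local notation "Qb" => AlgebraicClosure ℚ

variable {M' : ℕ} [NeZero M'] {p : ℕ} [Fact p.Prime] {A : ValuationSubring Qb}
  {I : NodalInst p M' A}

/-- **(SC)(a), first component.** -/
theorem isSmoothCoord_of_red₁ (hI : NodalInstHyp I) (HL : Fermat.Agent.RR.LSpace.LHyp Qb (FW p M'))
    {Q : Place (kW A) (FtW M' A)} (hQ : I.nodes.IsSmooth (Sum.inl Q)) {w : FW p M'}
    (hfix : ∀ τ ∈ A.inertiaSubgroupIn ℚ, aG p M' τ • w = w)
    (hu1 : ∃ h : w ∈ O1 M' p A, rho1 M' p A ⟨w, h⟩ ≠ 0)
    (hu2 : ∃ h : w ∈ O2 M' p A, rho2 M' p A ⟨w, h⟩ ≠ 0)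
    (hwG : w ∈ I.G)
    (hreg : ∀ P : Place Qb (FW p M'), I.r P = Sum.inl (Sum.inl Q) → 0 ≤ P.ord w)
    (hsimple : Q.ord (I.red ⟨w, hwG⟩).1 = 1) : IsSmoothCoord I (Sum.inl Q) w where
  fix := hfix
  u1 := hu1
  u2 := hu2
  val := fun P hP => val_of_red₁ hI.ctx HL hQ hwG hreg hsimple P hP

/-- **(SC)(a), second component.** -/
theorem isSmoothCoord_of_red₂ (hI : NodalInstHyp I) (HL : Fermat.Agent.RR.LSpace.LHyp Qb (FW p M'))
    {Q : Place (kW A) (FtW M' A)} (hQ : I.nodes.IsSmooth (Sum.inr Q)) {w : FW p M'}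
    (hfix : ∀ τ ∈ A.inertiaSubgroupIn ℚ, aG p M' τ • w = w)
    (hu1 : ∃ h : w ∈ O1 M' p A, rho1 M' p A ⟨w, h⟩ ≠ 0)
    (hu2 : ∃ h : w ∈ O2 M' p A, rho2 M' p A ⟨w, h⟩ ≠ 0)
    (hwG : w ∈ I.G)
    (hreg : ∀ P : Place Qb (FW p M'), I.r P = Sum.inl (Sum.inr Q) → 0 ≤ P.ord w)
    (hsimple : Q.ord (I.red ⟨w, hwG⟩).2 = 1) : IsSmoothCoord I (Sum.inr Q) w where
  fix := hfix
  u1 := hu1
  u2 := hu2
  val := fun P hP => val_of_red₂ hI.ctx HL hQ hwG hreg hsimple P hP

/-- `LHyp` on the generic fibre `FW p M' / ℚ̄` (main: `j` is a separating generator). -/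
theorem lHyp_FW (p M' : ℕ) [NeZero (M' * p)] : Fermat.Agent.RR.LSpace.LHyp Qb (FW p M') :=
  Fermat.Agent.RR.LHypGen.lHyp_of_isGen (Fermat.Agent.RED.TOP.FbarFacts20.isGen_j (M' * p))

end Instance

end Fermat.Agent.ES.X44.SmoothCoordAbs18
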