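/-
Programme X (S44), chapter (W1), leaf (SC), helper4's route through the GOOD level (his cut #32897), helper18:
**THE ASSEMBLY OF (SC) MODULO TWO Props**

* `GoodLift`  = the exit of (G1)+(G2): at every point `Q'` of the special fibre of the good level `M'`, an
  inertia-fixed `x ∈ ℚ̄ · F_{M'}` in the `ℚ̄`-span of `chart ↥A t^{ε}` (`ε = +` if `t̃` is regular at `Q'`,
  `ε = -` if `t̃⁻¹` is) whose reduction `φ` has a SIMPLE ZERO at `Q'`;
* `EpsMatch`  = the exit of (G3): the sign dictated on the second component by `(redN tN).2` is the sign of `wBar t̃`.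

`smoothCoords_of_goodLift : p ≠ 2 → GoodLift … → EpsMatch … → SmoothCoords (IX M' p hpM h4M A hA)`:
first component `w := α x` (`rho1 w = φ`, `rho2 w = V_p (wBar φ) ≠ 0`), second component `w := β x` at the
`wBar`-transport `Q'` of `Q₂` (`rho2 w = wBar φ`, `rho1 w = V_p φ ≠ 0`; `PullBeta18`); `w` lies in the `ℚ̄`-span of
`chart ↥A tN^{ε}`, hence is regular on the whole disc by `DiscReg15`; `SmoothCoordAbs18.isSmoothCoord_of_red₁/₂` concludes.
(G4) (`placeW`, `ord_placeW`, `mem_placeW_iff`) and (G5) (`smul_alpha`, `alpha_mem_chart0/1`) are inline here.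
-/
import Mathlib
import Fermat.Agent.ES.X44.PullBeta18
import Fermat.Agent.ES.X44.DiscReg15
import Fermat.Agent.ES.X44.SmoothCoordAbs18

set_option autoImplicit false
set_option linter.unusedSectionVars false
set_option linter.style.haveILetI false
set_option synthInstance.maxHeartbeats 400000

noncomputable section

open AlgebraicCurve ModularCurve

namespace Fermat.Agent.ES.X44.SmoothAsmV18

open Fermat.Agent.RED.Interface4 Fermat.Agent.RED.BASE.Interface12
  Fermat.Agent.RED.BASE.Hauptmodul12 Fermat.Agent.ES.RED.Contract8 Fermat.Agent.ES.RED.ModelInst4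
  Fermat.Agent.RED.PUR.ChartGeneric22 Fermat.Agent.X0.FF
  Fermat.Agent.ES.V19.GaussFrac15 Fermat.Agent.ES.V19.InstNames3
  Fermat.Agent.ES.W33.XiIfaceN29 Fermat.Agent.ES.W33.GeoNames23 Fermat.Agent.ES.W33.GeoJoinGa23
  Fermat.Agent.ES.W33.NodalDefs3 Fermat.Agent.ES.W33.GeoInput23 Fermat.Agent.ES.W33.GeoLeaves23
  Fermat.Agent.ES.W33.BetaRed15 Fermat.Agent.ES.W33.FrickeBar8
  Fermat.Agent.ES.X44.GeoLit12 Fermat.Agent.ES.X44.SmoothCoordLit12

attribute [local instance 5000] HahnSeries.powerSeriesAlgebra SubalgebraClass.toAlgebra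

/-! ### (G4): transport of a place by an automorphism -/

section PlaceW

variable {k Ft' : Type*} [Field k] [Field Ft'] [Algebra k Ft']

/-- the place `σ⁻¹ • Q`: `φ ↦ ord_Q (σ φ)`. -/
def placeW (σ : Ft' ≃ₐ[k] Ft') (Q : Place k Ft') : Place k Ft' :=
  (SemilinearAut.ofAlgAut σ)⁻¹ • Q

theorem ofAlgAut_smul (σ : Ft' ≃ₐ[k] Ft') (φ : Ft') :
    (SemilinearAut.ofAlgAut σ : SemilinearAut k Ft') • φ = σ φ := rfl

theorem ord_placeW (σ : Ft' ≃ₐ[k] Ft') (Q : Place k Ft') (φ : Ft') :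
    (placeW σ Q).ord φ = Q.ord (σ φ) := by
  have h := SemilinearAut.ord_smul ((SemilinearAut.ofAlgAut σ)⁻¹ : SemilinearAut k Ft') Q (σ φ)
  rw [← ofAlgAut_smul σ φ, inv_smul_smul] at h
  rw [← ofAlgAut_smul σ φ]
  exact h

theorem mem_placeW_iff (σ : Ft' ≃ₐ[k] Ft') (Q : Place k Ft') (φ : Ft') :
    φ ∈ (placeW σ Q).toValuationSubring ↔ σ φ ∈ Q.toValuationSubring := by
  rw [ffp_mem_iff_ord_nonneg, ffp_mem_iff_ord_nonneg, ord_placeW]

end PlaceW

/-! ### spans of charts -/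

section Span

variable {L F F' : Type*} [Field L] [Field F] [Field F'] [Algebra L F] [Algebra L F']
  {A : ValuationSubring L}

/-- the `L`-span of `chart ↥A s` is regular wherever `s` is. -/
theorem mem_place_of_mem_span {s w : F}
    (hw : w ∈ Submodule.span L (chart ↥A s : Set F)) (P : Place L F)
    (hsP : s ∈ P.toValuationSubring) : w ∈ P.toValuationSubring := by
  induction hw using Submodule.span_induction with
  | mem x hx =>
    exact chart_le_valuationSubring (R := ↥A) P.toValuationSubring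
      (fun r => P.algebraMap_mem' (r : L)) hsP x hx
  | zero => exact P.toValuationSubring.zero_mem
  | add x y _ _ hx hy => exact P.toValuationSubring.add_mem _ _ hx hy
  | smul c x _ hx =>
    rw [Algebra.smul_def]
    exact P.toValuationSubring.mul_mem _ _ (P.algebraMap_mem' c) hx

/-- an `L`-algebra map carrying `chart ↥A s` into `chart ↥A s'` carries the spans. -/
theorem map_mem_span (f : F →ₐ[L] F') {s : F} {s' : F'}
    (h : ∀ b ∈ chart ↥A s, f b ∈ chart ↥A s') {x : F}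
    (hx : x ∈ Submodule.span L (chart ↥A s : Set F)) :
    f x ∈ Submodule.span L (chart ↥A s' : Set F') := by
  induction hx using Submodule.span_induction with
  | mem x hx => exact Submodule.subset_span (h x hx)
  | zero => rw [map_zero]; exact Submodule.zero_mem _
  | add x y _ _ hx hy => rw [map_add]; exact Submodule.add_mem _ hx hy
  | smul c x _ hx => rw [map_smul]; exact Submodule.smul_mem _ c hx

end Span

variable (M' : ℕ) [NeZero M'] (p : ℕ) [Fact p.Prime] (hpM : ¬ p ∣ M') (h4M : 4 ∣ M')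
  (A : ValuationSubring (AlgebraicClosure ℚ)) (hA : A.LiesOverPrime p)

/-! ### (G5): the pull-back along `α` -/

/-- `α` commutes with the arithmetic Galois action. -/
theorem smul_alpha (σ : Qbar ≃ₐ[ℚ] Qbar) (x : ↥(Fbar M')) :
    arithmeticGalois (modularFunctionFieldFull (M' * p)) σ • alphaN M' p x =
      alphaN M' p (arithmeticGalois (modularFunctionFieldFull M') σ • x) := by
  apply Subtype.ext
  rw [coe_arithmeticGalois_smul, Fermat.Agent.ES.HECKE.LevelPullback12.coe_levelIncl,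
    Fermat.Agent.ES.HECKE.LevelPullback12.coe_levelIncl, coe_arithmeticGalois_smul]

/-- `α` is `A`-linear. -/
theorem alpha_algebraMap (r : ↥A) :
    alphaN M' p (algebraMap ↥A ↥(Fbar M') r) = algebraMap ↥A ↥(Fbar (M' * p)) r :=
  (alphaN M' p).commutes (r : Qbar)

theorem alpha_mem_chart0 {b : ↥(Fbar M')}
    (hb' : haveI := neZero_four; b ∈ chart ↥A (tV 4 8 M' baseHyp_four h4M)) :
    haveI := neZero_four
    alphaN M' p b ∈ chart ↥A (tN 4 8 M' p baseHyp_four h4M) := by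
  haveI := neZero_four
  refine Fermat.Agent.ES.N34.ModelN4.map_mem_chart (alphaN M' p : ↥(Fbar M') →+* ↥(Fbar (M' * p)))
    (alpha_algebraMap M' p A) ?_ hb'
  show alphaN M' p (tV 4 8 M' baseHyp_four h4M) ∈ _
  rw [alphaN_tV 4 8 M' p baseHyp_four h4M]
  exact Algebra.subset_adjoin (Set.mem_singleton _) |> adjoin_le_chart _

theorem alpha_mem_chart1 {b : ↥(Fbar M')}
    (hb' : haveI := neZero_four; b ∈ chart ↥A (tV 4 8 M' baseHyp_four h4M)⁻¹) :
    haveI := neZero_four
    alphaN M' p b ∈ chart ↥A (tN 4 8 M' p baseHyp_four h4M)⁻¹ := by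
  haveI := neZero_four
  refine Fermat.Agent.ES.N34.ModelN4.map_mem_chart (alphaN M' p : ↥(Fbar M') →+* ↥(Fbar (M' * p)))
    (alpha_algebraMap M' p A) ?_ hb'
  show alphaN M' p (tV 4 8 M' baseHyp_four h4M)⁻¹ ∈ _
  rw [map_inv₀, alphaN_tV 4 8 M' p baseHyp_four h4M]
  exact Algebra.subset_adjoin (Set.mem_singleton _) |> adjoin_le_chart _

/-! ### the two Props -/

/-- **the exit of (G1)+(G2)**: a fixed function of the good level, in the span of the right chart, whose
reduction has a simple zero at `Q'`. -/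
def GoodLift : Prop :=
  haveI := neZero_four
  ∀ Q' : Place (kA A) (Ft M' A),
    (tResV 4 8 M' p hpM baseHyp_four h4M A hA ∈ Q'.toValuationSubring →
      ∃ (x : ↥(Fbar M')) (φ : Ft M' A),
        IsRedOf (Fermat.Agent.ES.RED.GaussRing15.gaussRingN A (resA A) M')
          (Fermat.Agent.ES.RED.GaussRing15.gaussRedN A (resA A) M') x φ ∧ Q'.ord φ = 1 ∧
        (∀ τ ∈ A.inertiaSubgroupIn ℚ, arithmeticGalois (modularFunctionFieldFull M') τ • x = x) ∧
        x ∈ Submodule.span Qbar (chart ↥A (tV 4 8 M' baseHyp_four h4M) : Set ↥(Fbar M'))) ∧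
    ((tResV 4 8 M' p hpM baseHyp_four h4M A hA)⁻¹ ∈ Q'.toValuationSubring →
      ∃ (x : ↥(Fbar M')) (φ : Ft M' A),
        IsRedOf (Fermat.Agent.ES.RED.GaussRing15.gaussRingN A (resA A) M')
          (Fermat.Agent.ES.RED.GaussRing15.gaussRedN A (resA A) M') x φ ∧ Q'.ord φ = 1 ∧
        (∀ τ ∈ A.inertiaSubgroupIn ℚ, arithmeticGalois (modularFunctionFieldFull M') τ • x = x) ∧
        x ∈ Submodule.span Qbar (chart ↥A (tV 4 8 M' baseHyp_four h4M)⁻¹ : Set ↥(Fbar M')))

/-- **the exit of (G3)**: the sign on the second component. -/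
def EpsMatch : Prop :=
  haveI := neZero_four
  ∀ (htG : tN 4 8 M' p baseHyp_four h4M ∈ GN M' p A) (Q₂ : Place (kA A) (Ft M' A)),
    ((redN M' p A ⟨_, htG⟩).2 ∈ Q₂.toValuationSubring →
      wBar M' p A hA hpM (tResV 4 8 M' p hpM baseHyp_four h4M A hA) ∈ Q₂.toValuationSubring) ∧
    ((redN M' p A ⟨_, htG⟩).2 ∉ Q₂.toValuationSubring →
      (wBar M' p A hA hpM (tResV 4 8 M' p hpM baseHyp_four h4M A hA))⁻¹ ∈ Q₂.toValuationSubring)

variable {M' p hpM h4M A hA}

theorem ne_zero_of_ord_eq_one {k Ft' : Type*} [Field k] [Field Ft'] [Algebra k Ft']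
    (Q : Place k Ft') {f : Ft'} (h : Q.ord f = 1) : f ≠ 0 := by
  rintro rfl
  rw [Place.ord_zero] at h
  exact absurd h (by simp)

/-- `fix` for `α x`. -/
theorem fix_alpha {x : ↥(Fbar M')}
    (hfix : ∀ τ ∈ A.inertiaSubgroupIn ℚ, arithmeticGalois (modularFunctionFieldFull M') τ • x = x) :
    ∀ τ ∈ A.inertiaSubgroupIn ℚ, aG p M' τ • alphaN M' p x = alphaN M' p x := by
  intro τ hτ
  show arithmeticGalois (modularFunctionFieldFull (M' * p)) τ • alphaN M' p x = _
  rw [smul_alpha M' p τ x, hfix τ hτ]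

/-- **(SC), first component**: `w := α x`. -/
theorem exists_smoothCoord₁ (hp2 : p ≠ 2) (H : GoodLift M' p hpM h4M A hA)
    (Q : Place (kW A) (FtW M' A))
    (hQ : (IX M' p hpM h4M A hA).nodes.IsSmooth (Sum.inl Q)) :
    ∃ w : FW p M', IsSmoothCoord (IX M' p hpM h4M A hA) (Sum.inl Q) w := by
  haveI := neZero_four
  haveI : NeZero (M' * p) := ⟨Nat.mul_ne_zero (NeZero.ne M') (Fact.out : p.Prime).ne_zero⟩
  have hI : NodalInstHyp (IX M' p hpM h4M A hA) := (instInput_IX M' p hpM h4M A hA hp2).hyp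
  have HL := Fermat.Agent.ES.X44.SmoothCoordAbs18.lHyp_FW p M'
  have htG : tN 4 8 M' p baseHyp_four h4M ∈ GN M' p A :=
    Fermat.Agent.ES.W33.ChartGN16.tN_mem_GN_four M' p hpM baseHyp_four h4M A hA hp2
  have hred1 : (redN M' p A ⟨_, htG⟩).1 = tResV 4 8 M' p hpM baseHyp_four h4M A hA := by
    obtain ⟨h1, hr⟩ := rho1_tN M' p A hA hpM 4 8 baseHyp_four h4M
    rw [redN_fst]; exact hr
  -- the common part: from `x` in the span of a chart regular on the disc
  have key : ∀ (x : ↥(Fbar M')) (φ : Ft M' A),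
      IsRedOf (Fermat.Agent.ES.RED.GaussRing15.gaussRingN A (resA A) M')
        (Fermat.Agent.ES.RED.GaussRing15.gaussRedN A (resA A) M') x φ → Q.ord φ = 1 →
      (∀ τ ∈ A.inertiaSubgroupIn ℚ, arithmeticGalois (modularFunctionFieldFull M') τ • x = x) →
      (∀ P : Place (AlgebraicClosure ℚ) (FW p M'),
        (IX M' p hpM h4M A hA).r P = Sum.inl (Sum.inl Q) →
          alphaN M' p x ∈ P.toValuationSubring) →
      ∃ w : FW p M', IsSmoothCoord (IX M' p hpM h4M A hA) (Sum.inl Q) w := by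
    intro x φ hred hord hfix hdisc
    obtain ⟨h1, hr1⟩ := rho1_alpha M' p A hred
    obtain ⟨h2, hr2⟩ := rho2_alpha M' p A hA hpM hred
    have hφ : φ ≠ 0 := ne_zero_of_ord_eq_one Q hord
    have hwG : alphaN M' p x ∈ GN M' p A := ⟨h1, h2⟩
    refine ⟨alphaN M' p x, Fermat.Agent.ES.X44.SmoothCoordAbs18.isSmoothCoord_of_red₁ hI HL hQ
      (fix_alpha hfix) ⟨h1, by rw [hr1]; exact hφ⟩ ⟨h2, ?_⟩ hwG
      (fun P hPQ => (ffp_mem_iff_ord_nonneg P).1 (hdisc P hPQ)) ?_⟩
    · rw [hr2]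
      exact (map_ne_zero_iff _ (vpFt M' p A hA).injective).mpr
        ((map_ne_zero_iff _ (wBar M' p A hA hpM).injective).mpr hφ)
    · rw [show (IX M' p hpM h4M A hA).red ⟨alphaN M' p x, hwG⟩ =
        redN M' p A ⟨alphaN M' p x, hwG⟩ from rfl, redN_fst]
      rw [show rho1 M' p A ⟨alphaN M' p x, GN_le_O1 M' p A hwG⟩ = φ from hr1]
      exact hord
  by_cases hreg : (redN M' p A ⟨_, htG⟩).1 ∈ Q.toValuationSubring
  · obtain ⟨x, φ, hred, hord, hfix, hspan⟩ := (H Q).1 (hred1 ▸ hreg)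
    refine key x φ hred hord hfix fun P hPQ => ?_
    obtain ⟨hs, -⟩ := Fermat.Agent.ES.X44.DiscReg15.t_mem_of_r₁ M' p hpM h4M A hA hp2 htG hreg P hPQ
    exact mem_place_of_mem_span (A := A)
      (map_mem_span (alphaN M' p) (fun b hb => alpha_mem_chart0 M' p h4M A hb) hspan) P hs
  · have hinv : (tResV 4 8 M' p hpM baseHyp_four h4M A hA)⁻¹ ∈ Q.toValuationSubring :=
      (Q.toValuationSubring.mem_or_inv_mem _).resolve_left (hred1 ▸ hreg)
    obtain ⟨x, φ, hred, hord, hfix, hspan⟩ := (H Q).2 hinv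
    refine key x φ hred hord hfix fun P hPQ => ?_
    obtain ⟨hs, -⟩ := Fermat.Agent.ES.X44.DiscReg15.t_inv_mem_of_r₁ M' p hpM h4M A hA hp2 htG hreg P
      hPQ
    exact mem_place_of_mem_span (A := A)
      (map_mem_span (alphaN M' p) (fun b hb => alpha_mem_chart1 M' p h4M A hb) hspan) P hs

/-- **(SC), second component**: `w := β x` at the `wBar`-transport of `Q`. -/
theorem exists_smoothCoord₂ (hp2 : p ≠ 2) (H : GoodLift M' p hpM h4M A hA)
    (H3 : EpsMatch M' p hpM h4M A hA) (Q : Place (kW A) (FtW M' A))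
    (hQ : (IX M' p hpM h4M A hA).nodes.IsSmooth (Sum.inr Q)) :
    ∃ w : FW p M', IsSmoothCoord (IX M' p hpM h4M A hA) (Sum.inr Q) w := by
  haveI := neZero_four
  haveI : NeZero (M' * p) := ⟨Nat.mul_ne_zero (NeZero.ne M') (Fact.out : p.Prime).ne_zero⟩
  have hI : NodalInstHyp (IX M' p hpM h4M A hA) := (instInput_IX M' p hpM h4M A hA hp2).hyp
  have HL := Fermat.Agent.ES.X44.SmoothCoordAbs18.lHyp_FW p M'
  have htG : tN 4 8 M' p baseHyp_four h4M ∈ GN M' p A :=
    Fermat.Agent.ES.W33.ChartGN16.tN_mem_GN_four M' p hpM baseHyp_four h4M A hA hp2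
  have hY := Fermat.Agent.ES.W33.ExTwoN4.yLeaves_four M' p hpM baseHyp_four h4M A hA hp2
  -- the transported place
  set Q' : Place (kA A) (Ft M' A) := placeW (wBar M' p A hA hpM) Q with hQ'
  have key : ∀ (x : ↥(Fbar M')) (φ : Ft M' A),
      IsRedOf (Fermat.Agent.ES.RED.GaussRing15.gaussRingN A (resA A) M')
        (Fermat.Agent.ES.RED.GaussRing15.gaussRedN A (resA A) M') x φ → Q'.ord φ = 1 →
      (∀ τ ∈ A.inertiaSubgroupIn ℚ, arithmeticGalois (modularFunctionFieldFull M') τ • x = x) →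
      (∀ P : Place (AlgebraicClosure ℚ) (FW p M'),
        (IX M' p hpM h4M A hA).r P = Sum.inl (Sum.inr Q) →
          heckeBetaBar Qbar M' p x ∈ P.toValuationSubring) →
      ∃ w : FW p M', IsSmoothCoord (IX M' p hpM h4M A hA) (Sum.inr Q) w := by
    intro x φ hred hord hfix hdisc
    have hφ : φ ≠ 0 := ne_zero_of_ord_eq_one Q' hord
    obtain ⟨h2, hr2, hne2⟩ :=
      Fermat.Agent.ES.X44.PullBeta18.rho2_beta_ne_zero M' p A hA hpM hφ hred
    obtain ⟨h1, -, hne1⟩ := Fermat.Agent.ES.X44.PullBeta18.rho1_beta_ne_zero M' p A hA hφ hred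
    have hwG : heckeBetaBar Qbar M' p x ∈ GN M' p A := ⟨h1, h2⟩
    refine ⟨heckeBetaBar Qbar M' p x,
      Fermat.Agent.ES.X44.SmoothCoordAbs18.isSmoothCoord_of_red₂ hI HL hQ
      (Fermat.Agent.ES.X44.PullBeta18.fix_beta M' p A hfix) ⟨h1, hne1⟩ ⟨h2, hne2⟩ hwG
      (fun P hPQ => (ffp_mem_iff_ord_nonneg P).1 (hdisc P hPQ)) ?_⟩
    rw [show (IX M' p hpM h4M A hA).red ⟨heckeBetaBar Qbar M' p x, hwG⟩ =
      redN M' p A ⟨heckeBetaBar Qbar M' p x, hwG⟩ from rfl, redN_snd]
    rw [show rho2 M' p A ⟨heckeBetaBar Qbar M' p x, GN_le_O2 M' p A hwG⟩ =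
      wBar M' p A hA hpM φ from hr2, ← ord_placeW]
    exact hord
  by_cases hreg : (redN M' p A ⟨_, htG⟩).2 ∈ Q.toValuationSubring
  · have ht : tResV 4 8 M' p hpM baseHyp_four h4M A hA ∈ Q'.toValuationSubring :=
      (mem_placeW_iff _ Q _).2 ((H3 htG Q).1 hreg)
    obtain ⟨x, φ, hred, hord, hfix, hspan⟩ := (H Q').1 ht
    refine key x φ hred hord hfix fun P hPQ => ?_
    obtain ⟨hs, -⟩ := Fermat.Agent.ES.X44.DiscReg15.t_mem_of_r₂ M' p hpM h4M A hA hp2 htG hreg P hPQ
    exact mem_place_of_mem_span (A := A)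
      (map_mem_span (heckeBetaBar Qbar M' p)
        (fun b hb => Fermat.Agent.ES.W33.ExTwoN4.beta_mem_chart0 hY hb) hspan) P hs
  · have ht : (tResV 4 8 M' p hpM baseHyp_four h4M A hA)⁻¹ ∈ Q'.toValuationSubring := by
      rw [mem_placeW_iff, map_inv₀]
      exact (H3 htG Q).2 hreg
    obtain ⟨x, φ, hred, hord, hfix, hspan⟩ := (H Q').2 ht
    refine key x φ hred hord hfix fun P hPQ => ?_
    obtain ⟨hs, -⟩ := Fermat.Agent.ES.X44.DiscReg15.t_inv_mem_of_r₂ M' p hpM h4M A hA hp2 htG hreg P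
      hPQ
    exact mem_place_of_mem_span (A := A)
      (map_mem_span (heckeBetaBar Qbar M' p)
        (fun b hb => Fermat.Agent.ES.W33.ExTwoN4.beta_mem_chart1 hY hb) hspan) P hs

/-- **(SC) from the good-level lift and the sign match.** -/
theorem smoothCoords_of_goodLift (hp2 : p ≠ 2) (H : GoodLift M' p hpM h4M A hA)
    (H3 : EpsMatch M' p hpM h4M A hA) : SmoothCoords (IX M' p hpM h4M A hA) := by
  rintro (Q | Q) hQ
  · exact exists_smoothCoord₁ hp2 H Q hQ
  · exact exists_smoothCoord₂ hp2 H H3 Q hQ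

end Fermat.Agent.ES.X44.SmoothAsmV18
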