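/-
Programme X (S44), chapter (W1), leaf (SC)(b), piece (G1) of helper4's cut #32897, helper25:
**lifting a uniformiser at a point of the special fibre of the GOOD level `M` to the `A`-chart.**

Setting of `V19/InstNames3`: a Hauptmodul base `(n, e)`, `n ∣ M`, `ℓ ∤ M`, `A ≤ ℚ̄` over `ℓ`,
`t := tV n e M hb hnM` the generator of `F = Fbar M`, `t̃ := tResV …` the generator of `F̃ = Ft M A`,
`intF A M` the functions with `A`-integral `q`-expansion, `redF` the coefficientwise reduction.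

For EVERY place `Q` of `F̃ / k̄`:
* `exists_lift_chart0` : if `t̃ ∈ O_Q` there is `x₁ ∈ chart ↥A t` (so `x₁ ∈ intF`) with
  `ord_Q (redF x₁) = 1`;
* `exists_lift_chart1` : if `t̃⁻¹ ∈ O_Q`, the same with `x₁ ∈ chart ↥A t⁻¹`;
* `exists_isRedOf_chart0/1` : the same in the `IsRedOf G' red'` form of `FrickeBar8`
  (`G' = gaussRingN A (resA A) M`, `red' = gaussRedN A (resA A) M`);
* `exists_lift` : both, as one statement (helper4's literal).
Proof: Riemann's theorem in large degree on `F̃` (`UnifGlue25.exists_reg_unif`, `S = ∅`) gives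
`φ` regular wherever `t̃^{±1}` is, with `ord_Q φ = 1`; the special-fibre base change (I3)
(`GenusLeSurj12.surjLeaf` at one number field carrying `LevelK24.LevelHyps`) lifts it to `M₀`
resp. `M₁(0)`, and `M₀ ⊆ chart ↥A t`, `M₁(0) ⊆ chart ↥A t⁻¹`
(`ChartUnion1.baseChangeHom_mem_chart`).
-/
import Mathlib
import Fermat.Agent.ES.V19.GenusLeSurj12
import Fermat.Agent.ES.V19.LHypFt13
import Fermat.Agent.ES.V19.InstNames3
import Fermat.Agent.ES.X44.UnifGlue25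

set_option autoImplicit false
set_option linter.unusedSectionVars false
set_option linter.style.haveILetI false
set_option synthInstance.maxHeartbeats 400000

noncomputable section

open AlgebraicCurve ModularCurve IntermediateField

namespace Fermat.Agent.ES.X44.SmoothLiftV25

open Fermat.Agent.X0 Fermat.Agent.X0.FF Fermat.Agent.RED.Interface4 Fermat.Agent.RED.BASE
  Fermat.Agent.RED.BASE.Interface12 Fermat.Agent.RED.BASE.Hauptmodul12
  Fermat.Agent.RED.BASE.EtaQuot12 Fermat.Agent.RED.DESC.PlaceExtend27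
  Fermat.Agent.RED.PUR.ChartGeneric22 Fermat.Agent.RED.NumInst4
  Fermat.Agent.ES.RED.Contract8 Fermat.Agent.ES.RED.ModelInst4
  Fermat.Agent.ES.RED.GaussRing15
  Fermat.Agent.ES.V19.InstNames3 Fermat.Agent.ES.V19.CechIface12 Fermat.Agent.ES.V19.GaussFrac15

open Fermat.Agent.ES.RED.ChartIntegralA1 hiding kA

attribute [local instance 5000] HahnSeries.powerSeriesAlgebra SubalgebraClass.toAlgebra

/-! ### generalities -/

section Gen

theorem not_const_of_transcendental {k F : Type*} [Field k] [Field F] [Algebra k F] {t : F}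
    (ht : Transcendental k t) : ¬ ∃ c : k, t = algebraMap k F c := by
  rintro ⟨c, rfl⟩
  exact ht (isAlgebraic_algebraMap c)

theorem not_const_inv {k F : Type*} [Field k] [Field F] [Algebra k F] {t : F}
    (ht : ¬ ∃ c : k, t = algebraMap k F c) : ¬ ∃ c : k, t⁻¹ = algebraMap k F c := by
  rintro ⟨c, hc⟩
  exact ht ⟨c⁻¹, by rw [map_inv₀, ← hc, inv_inv]⟩

variable (A : ValuationSubring Qbar) (M : ℕ) (K : IntermediateField ℚ Qbar) (tK : ↥(FK M K))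

/-- `M₀ ⊆ chart ↥A t`. -/
theorem mem_chart_of_mem_M0 {f : ↥(Fbar M)} (hf : f ∈ M0 A M K tK) :
    f ∈ chart ↥A (baseChangeHom M K tK) := by
  have hle : M0 A M K tK ≤ Subalgebra.toSubmodule (chart ↥A (baseChangeHom M K tK)) := by
    refine Submodule.span_le.mpr ?_
    rintro _ ⟨x, hx, rfl⟩
    exact Fermat.Agent.ES.RED.ChartUnion1.baseChangeHom_mem_chart A M K tK x hx
  exact hle hf

/-- `M₁(0) ⊆ chart ↥A t⁻¹`. -/
theorem mem_chart_of_mem_M1_zero {f : ↥(Fbar M)} (hf : f ∈ M1 A M K tK 0) :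
    f ∈ chart ↥A (baseChangeHom M K tK)⁻¹ := by
  have hle : M1 A M K tK 0 ≤ Subalgebra.toSubmodule (chart ↥A (baseChangeHom M K tK)⁻¹) := by
    refine Submodule.span_le.mpr ?_
    rintro _ ⟨x, hx, rfl⟩
    have hx' : x ∈ chart ↥(AK A K) tK⁻¹ := by
      have : tK⁻¹ ^ 0 * x ∈ chart ↥(AK A K) tK⁻¹ := hx
      rwa [pow_zero, one_mul] at this
    have := Fermat.Agent.ES.RED.ChartUnion1.baseChangeHom_mem_chart A M K tK⁻¹ x hx'
    rwa [map_inv₀] at this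
  exact hle hf

end Gen

/-! ### the instance -/

variable (n e M : ℕ) [NeZero n] [NeZero M] (ℓ : ℕ) [Fact ℓ.Prime] (hℓM : ¬ ℓ ∣ M)
  (hb : BaseHyp n e) (hnM : n ∣ M) (A : ValuationSubring Qbar) (hA : A.LiesOverPrime ℓ)

/-- **(I3) at one number field**, with the base change of the coordinate. -/
theorem exists_level :
    ∃ (K : IntermediateField ℚ Qbar) (tK : ↥(FK M K)),
      baseChangeHom M K tK = tV n e M hb hnM ∧
        SurjProp A M K tK ℓ hA hℓM (tResV n e M ℓ hℓM hb hnM A hA) := by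
  obtain ⟨K₀, hK₀, hlev⟩ := Fermat.Agent.ES.V19.LevelK24.exists_levelHyps (n := n) (e := e)
    (M := M) (A := A) hℓM hA hb hnM
  obtain ⟨K₁, hK₁, htq⟩ := Fermat.Agent.RED.BASE.TBridge15.exists_tq_mem n e M (tMem_of_dvd hb hnM)
  haveI : FiniteDimensional ℚ ↥(K₀ ⊔ K₁) := inferInstance
  obtain ⟨hdvr, hlevK⟩ := hlev (K₀ ⊔ K₁) inferInstance le_sup_left
  haveI := hdvr
  obtain ⟨ϖ, hϖ⟩ := IsDiscreteValuationRing.exists_irreducible ↥(AK A (K₀ ⊔ K₁))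
  have hLH := hlevK ϖ hϖ ⟨tq ↥(K₀ ⊔ K₁) n e, htq (K₀ ⊔ K₁) le_sup_right⟩ rfl
  have hbc : baseChangeHom M (K₀ ⊔ K₁) ⟨tq ↥(K₀ ⊔ K₁) n e, htq (K₀ ⊔ K₁) le_sup_right⟩ =
      Interface12.tF M (tMem_of_dvd hb hnM) :=
    Fermat.Agent.RED.CUSP.RankConcrete16.baseChangeHom_eq_tF M (K₀ ⊔ K₁) (tMem_of_dvd hb hnM) _ rfl
  exact ⟨K₀ ⊔ K₁, ⟨tq ↥(K₀ ⊔ K₁) n e, htq (K₀ ⊔ K₁) le_sup_right⟩, hbc,
    Fermat.Agent.ES.V19.GenusLeSurj12.surjLeaf n e M ℓ hℓM A hA (tMem_of_dvd hb hnM)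
      (tGenBase' hb) (K₀ ⊔ K₁) inferInstance hdvr ϖ _ hLH rfl⟩

/-- **chart `t`**: a lift of a uniformiser at `Q` to the chart of `t`, if `t̃` is regular at `Q`. -/
theorem exists_lift_chart0 (Q : Place (kA A) (Ft M A))
    (hreg : tResV n e M ℓ hℓM hb hnM A hA ∈ Q.toValuationSubring) :
    ∃ x₁ ∈ chart ↥A (tV n e M hb hnM), ∃ hf : x₁ ∈ intF A M,
      Q.ord (redF A M ℓ hA hℓM ⟨x₁, hf⟩ : Ft M A) = 1 := by
  have hr := hrV n e M ℓ hℓM hb hnM A hA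
  have HL := Fermat.Agent.ES.V19.LHypFt13.lHyp_Ft n e M ℓ hℓM (tMem_of_dvd hb hnM)
    (tGenBase' hb) A hA hr
  have hR := Fermat.Agent.ES.V19.LHypFt13.riemann_inequality_Ft n e M ℓ hℓM
    (tMem_of_dvd hb hnM) (tGenBase' hb) A hA hr
  have hnc := not_const_of_transcendental (hxtV n e M ℓ hℓM hb hnM A hA).transcendental
  obtain ⟨φ, hφ, hord, -⟩ := Fermat.Agent.ES.X44.UnifGlue25.exists_reg_unif HL hR hnc ∅ Q
    (Finset.notMem_empty Q) (fun v hv => absurd hv (Finset.notMem_empty v)) hreg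
  obtain ⟨K, tK, hbc, hS⟩ := exists_level n e M ℓ hℓM hb hnM A hA
  obtain ⟨f, hf0, hf, hfred⟩ := hS.1 φ hφ
  refine ⟨f, ?_, hf, ?_⟩
  · rw [← hbc]
    exact mem_chart_of_mem_M0 A M K _ hf0
  · rw [hfred]; exact hord

/-- **chart `t⁻¹`**: the same in the chart of `t⁻¹`, if `t̃⁻¹` is regular at `Q`. -/
theorem exists_lift_chart1 (Q : Place (kA A) (Ft M A))
    (hreg : (tResV n e M ℓ hℓM hb hnM A hA)⁻¹ ∈ Q.toValuationSubring) :
    ∃ x₁ ∈ chart ↥A (tV n e M hb hnM)⁻¹, ∃ hf : x₁ ∈ intF A M,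
      Q.ord (redF A M ℓ hA hℓM ⟨x₁, hf⟩ : Ft M A) = 1 := by
  have hr := hrV n e M ℓ hℓM hb hnM A hA
  have HL := Fermat.Agent.ES.V19.LHypFt13.lHyp_Ft n e M ℓ hℓM (tMem_of_dvd hb hnM)
    (tGenBase' hb) A hA hr
  have hR := Fermat.Agent.ES.V19.LHypFt13.riemann_inequality_Ft n e M ℓ hℓM
    (tMem_of_dvd hb hnM) (tGenBase' hb) A hA hr
  have hnc := not_const_inv
    (not_const_of_transcendental (hxtV n e M ℓ hℓM hb hnM A hA).transcendental)
  obtain ⟨φ, hφ, hord, -⟩ := Fermat.Agent.ES.X44.UnifGlue25.exists_reg_unif HL hR hnc ∅ Q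
    (Finset.notMem_empty Q) (fun v hv => absurd hv (Finset.notMem_empty v)) hreg
  obtain ⟨K, tK, hbc, hS⟩ := exists_level n e M ℓ hℓM hb hnM A hA
  obtain ⟨f, hf0, hf, hfred⟩ := hS.2 φ hφ
  refine ⟨f, ?_, hf, ?_⟩
  · rw [← hbc]
    exact mem_chart_of_mem_M1_zero A M K _ hf0
  · rw [hfred]; exact hord

/-- **helper4's literal (G1)**: both charts. -/
theorem exists_lift (Q : Place (kA A) (Ft M A)) :
    (tResV n e M ℓ hℓM hb hnM A hA ∈ Q.toValuationSubring →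
      ∃ x₁ ∈ chart ↥A (tV n e M hb hnM), ∃ hf : x₁ ∈ intF A M,
        Q.ord (redF A M ℓ hA hℓM ⟨x₁, hf⟩ : Ft M A) = 1) ∧
    ((tResV n e M ℓ hℓM hb hnM A hA)⁻¹ ∈ Q.toValuationSubring →
      ∃ x₁ ∈ chart ↥A (tV n e M hb hnM)⁻¹, ∃ hf : x₁ ∈ intF A M,
        Q.ord (redF A M ℓ hA hℓM ⟨x₁, hf⟩ : Ft M A) = 1) :=
  ⟨exists_lift_chart0 n e M ℓ hℓM hb hnM A hA Q, exists_lift_chart1 n e M ℓ hℓM hb hnM A hA Q⟩

/-! ### the `IsRedOf` form -/

include hA hℓM in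
/-- an `A`-integral function is in the Gauss ring, with reduction `redF`. -/
theorem isRedOf_of_mem_intF {x : ↥(Fbar M)} (hf : x ∈ intF A M) :
    IsRedOf (gaussRingN A (resA A) M) (gaussRedN A (resA A) M) x
      (redF A M ℓ hA hℓM ⟨x, hf⟩ : Ft M A) := by
  have hY := coeffMap_seriesHom A M ⟨x, hf⟩
  have hmem : x ∈ gaussRingN A (resA A) M :=
    ⟨seriesHom A M ⟨x, hf⟩, hY, redSeries_mem_fullC A M ℓ hA hℓM ⟨x, hf⟩⟩
  have h1 := isRedOf_of_mem (G := gaussRingN A (resA A) M) (red := gaussRedN A (resA A) M)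
    ⟨x, hmem⟩
  have h2 : gaussRedN A (resA A) M ⟨x, hmem⟩ = redF A M ℓ hA hℓM ⟨x, hf⟩ := by
    apply Subtype.ext
    rw [gaussRed_eq A (resA A) _ _ ⟨x, hmem⟩ hY, coe_redF]
  rw [← h2]
  exact h1

/-- **chart `t`, `IsRedOf` form.** -/
theorem exists_isRedOf_chart0 (Q : Place (kA A) (Ft M A))
    (hreg : tResV n e M ℓ hℓM hb hnM A hA ∈ Q.toValuationSubring) :
    ∃ x₁ ∈ chart ↥A (tV n e M hb hnM), ∃ φ : Ft M A,
      IsRedOf (gaussRingN A (resA A) M) (gaussRedN A (resA A) M) x₁ φ ∧ Q.ord φ = 1 := by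
  obtain ⟨x₁, hx₁, hf, hord⟩ := exists_lift_chart0 n e M ℓ hℓM hb hnM A hA Q hreg
  exact ⟨x₁, hx₁, _, isRedOf_of_mem_intF M ℓ hℓM A hA hf, hord⟩

/-- **chart `t⁻¹`, `IsRedOf` form.** -/
theorem exists_isRedOf_chart1 (Q : Place (kA A) (Ft M A))
    (hreg : (tResV n e M ℓ hℓM hb hnM A hA)⁻¹ ∈ Q.toValuationSubring) :
    ∃ x₁ ∈ chart ↥A (tV n e M hb hnM)⁻¹, ∃ φ : Ft M A,
      IsRedOf (gaussRingN A (resA A) M) (gaussRedN A (resA A) M) x₁ φ ∧ Q.ord φ = 1 := by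
  obtain ⟨x₁, hx₁, hf, hord⟩ := exists_lift_chart1 n e M ℓ hℓM hb hnM A hA Q hreg
  exact ⟨x₁, hx₁, _, isRedOf_of_mem_intF M ℓ hℓM A hA hf, hord⟩

end Fermat.Agent.ES.X44.SmoothLiftV25
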