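/-
Programme X (S44), chapter (W1), leaf (SC), helper4's route through the good level, helper18:
**`SmoothAsmV18.GoodLift` IS PROVED** from (G1) `SmoothLiftV25.exists_lift_chart0/1` (helper25: a chart element of the
good level whose reduction has a simple zero at `Q'`) and (G2) `FixedLiftV4.exists_fixed_lift` (helper4: an
inertia-fixed `x` with a nonzero constant multiple in the chart and the same reduction), through the bridge
`SmoothLiftV25.isRedOf_of_mem_intF`.  `x = c⁻¹ • (c x)` lies in the `ℚ̄`-span of the chart — no saturation needed.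

Hence `smoothCoords_of_epsMatch : p ≠ 2 → EpsMatch … → SmoothCoords (IX M' p hpM h4M A hA)`: (SC) modulo (G3) only.
-/
import Mathlib
import Fermat.Agent.ES.X44.SmoothLiftV25
import Fermat.Agent.ES.X44.FixedLiftV4
import Fermat.Agent.ES.X44.SmoothAsmV18

set_option autoImplicit false
set_option linter.unusedSectionVars false
set_option linter.style.haveILetI false
set_option synthInstance.maxHeartbeats 400000

noncomputable section

open AlgebraicCurve ModularCurve

namespace Fermat.Agent.ES.X44.GoodLiftOf18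

open Fermat.Agent.RED.Interface4 Fermat.Agent.RED.BASE.Interface12
  Fermat.Agent.RED.BASE.Hauptmodul12 Fermat.Agent.ES.RED.Contract8 Fermat.Agent.ES.RED.ModelInst4
  Fermat.Agent.RED.PUR.ChartGeneric22
  Fermat.Agent.ES.V19.GaussFrac15 Fermat.Agent.ES.V19.InstNames3
  Fermat.Agent.ES.W33.GeoInput23
  Fermat.Agent.ES.X44.GeoLit12 Fermat.Agent.ES.X44.SmoothCoordLit12 Fermat.Agent.ES.X44.SmoothAsmV18

open Fermat.Agent.ES.RED.ChartIntegralA1 hiding kA

attribute [local instance 5000] HahnSeries.powerSeriesAlgebra SubalgebraClass.toAlgebra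

variable (M' : ℕ) [NeZero M'] (p : ℕ) [Fact p.Prime] (hpM : ¬ p ∣ M') (h4M : 4 ∣ M')
  (A : ValuationSubring (AlgebraicClosure ℚ)) (hA : A.LiesOverPrime p)

/-- (G1) + (G2) at one chart coordinate `s` of the good level. -/
theorem exists_goodLift_of_chart (Q' : Place (kA A) (Ft M' A)) {s : ↥(Fbar M')}
    (hsfix : ∀ σ : Qbar ≃ₐ[ℚ] Qbar, arithmeticGalois (modularFunctionFieldFull M') σ • s = s)
    (hs : s ∈ intF A M') {x₁ : ↥(Fbar M')} (hx₁ : x₁ ∈ chart ↥A s) (hf : x₁ ∈ intF A M')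
    (hord : Q'.ord (redF A M' p hA hpM ⟨x₁, hf⟩ : Ft M' A) = 1) :
    ∃ (x : ↥(Fbar M')) (φ : Ft M' A),
      IsRedOf (Fermat.Agent.ES.RED.GaussRing15.gaussRingN A (resA A) M')
        (Fermat.Agent.ES.RED.GaussRing15.gaussRedN A (resA A) M') x φ ∧ Q'.ord φ = 1 ∧
      (∀ τ ∈ A.inertiaSubgroupIn ℚ, arithmeticGalois (modularFunctionFieldFull M') τ • x = x) ∧
      x ∈ Submodule.span Qbar (chart ↥A s : Set ↥(Fbar M')) := by
  obtain ⟨x, hfix, ⟨c, hc0, hcx⟩, Y, Y₁, hY, hY₁, hres⟩ :=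
    Fermat.Agent.ES.X44.FixedLiftV4.exists_fixed_lift hA hsfix hs hx₁
  have hfx : x ∈ intF A M' := (mem_intF_iff A M').mpr ⟨Y, hY⟩
  have hredEq : redF A M' p hA hpM ⟨x, hfx⟩ = redF A M' p hA hpM ⟨x₁, hf⟩ := by
    apply Subtype.ext
    rw [coe_redF_eq_of (y := ⟨x, hfx⟩) p hA hpM hY, coe_redF_eq_of (y := ⟨x₁, hf⟩) p hA hpM hY₁,
      hres]
  refine ⟨x, redF A M' p hA hpM ⟨x₁, hf⟩, ?_, hord, hfix, ?_⟩
  · rw [← hredEq]
    exact Fermat.Agent.ES.X44.SmoothLiftV25.isRedOf_of_mem_intF M' p hpM A hA hfx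
  · have hc0' : (c : Qbar) ≠ 0 := fun h => hc0 (Subtype.ext h)
    have hx : x = (c : Qbar)⁻¹ • (algebraMap Qbar ↥(Fbar M') (c : Qbar) * x) := by
      rw [Algebra.smul_def, ← mul_assoc, ← map_mul, inv_mul_cancel₀ hc0', map_one, one_mul]
    rw [hx]
    exact Submodule.smul_mem _ _ (Submodule.subset_span hcx)

/-- **`GoodLift` holds.** -/
theorem goodLift : GoodLift M' p hpM h4M A hA := by
  haveI := neZero_four
  intro Q'
  constructor
  · intro hreg
    obtain ⟨x₁, hx₁, hf, hord⟩ := Fermat.Agent.ES.X44.SmoothLiftV25.exists_lift_chart0 4 8 M' p hpM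
      baseHyp_four h4M A hA Q' hreg
    exact exists_goodLift_of_chart M' p hpM A hA Q'
      (Fermat.Agent.ES.W33.CoordFixN9.smul_tV 4 8 M' baseHyp_four h4M)
      (Fermat.Agent.ES.RED.TqIntF5.tF_mem_intF A M' _) hx₁ hf hord
  · intro hreg
    obtain ⟨x₁, hx₁, hf, hord⟩ := Fermat.Agent.ES.X44.SmoothLiftV25.exists_lift_chart1 4 8 M' p hpM
      baseHyp_four h4M A hA Q' hreg
    refine exists_goodLift_of_chart M' p hpM A hA Q' (fun σ => ?_)
      (Fermat.Agent.ES.RED.TqIntF5.tF_inv_mem_intF A M' _) hx₁ hf hord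
    rw [smul_inv'', Fermat.Agent.ES.W33.CoordFixN9.smul_tV 4 8 M' baseHyp_four h4M]

variable {M' p hpM h4M A hA}

/-- **(SC) modulo (G3) only.** -/
theorem smoothCoords_of_epsMatch (hp2 : p ≠ 2) (H3 : EpsMatch M' p hpM h4M A hA) :
    SmoothCoords (IX M' p hpM h4M A hA) :=
  smoothCoords_of_goodLift hp2 (goodLift M' p hpM h4M A hA) H3

end Fermat.Agent.ES.X44.GoodLiftOf18
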