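/-
Programme X (S44), chapter (QP), leaf C3 (helper19): **an integral basis of `S₂(Γ₀(M))` whose reductions modulo
every prime are linearly independent.**

`exists_intBasis M`: there are `g`, cusp forms `f₁ … f_g` of weight `2` and level `M` with INTEGER `q`-expansions
`a i n`, such that
 (1) `qCoeff (f i) n = a i n`;
 (2) every cusp form is a `ℂ`-combination of the `f i` (main's S23: `CuspForm.HasIntegralStructure M 2`);
 (3) for every field `k` of characteristic `p`, the reductions `∑ (a i n : k) qⁿ ∈ k⟦q⟧` are `k`-linearly independent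
     (the lattice `CuspForm.intLattice M 2` is SATURATED: a form with integer coefficients all divisible by `p` is
     `p` times a form with integer coefficients; so a `ℤ`-basis stays independent over `𝔽_p`, and linear independence
     of vectors of `K^ℕ` is preserved by any field extension `K ⊆ L`);
 (4) rationality: a cusp form all of whose `q`-coefficients lie in `ι(ℚ̄)` is a `ι(ℚ̄)`-combination of the `f i`;
 (5) a cusp form with integer `q`-coefficients is a `ℤ`-combination of the `f i`.
-/
import Mathlib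
import Fermat.Prelude.Def_CuspForm_HeckeLocal
import Fermat.Agent.S23
import Fermat.Agent.S49.QExp
import Fermat.Agent.X0.Defs

set_option autoImplicit false
set_option linter.style.haveILetI false
set_option linter.unusedSectionVars false

open CongruenceSubgroup ModularFormClass

noncomputable section

namespace Fermat.Agent.ES.X44.IntBasisRed19

open Fermat.Agent.X0 (Kbar iotaK)

/-! ### Linear independence in `K^ι'` and field extensions -/

section Generic

variable {K Q ι ι' : Type*} [Field K] [AddCommGroup Q] [Module K Q] [Fintype ι]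

/-- vectors `w i` of a `K`-vector space with `∑ i, v i n • w i = 0` for all coordinates `n` of a linearly
independent family `v i ∈ K^ι'` all vanish. -/
theorem eq_zero_of_forall_sum_smul {v : ι → ι' → K} (hv : LinearIndependent K v) (w : ι → Q)
    (h : ∀ n, ∑ i, v i n • w i = 0) (i : ι) : w i = 0 := by
  rw [← Module.forall_dual_apply_eq_zero_iff K]
  intro φ
  have h1 : ∑ j, φ (w j) • v j = 0 := by
    funext n
    have h2 := congrArg φ (h n)
    rw [map_sum, map_zero] at h2
    rw [Finset.sum_apply, Pi.zero_apply, ← h2]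
    refine Finset.sum_congr rfl fun j _ => ?_
    rw [Pi.smul_apply, smul_eq_mul, map_smul, smul_eq_mul, mul_comm]
  exact Fintype.linearIndependent_iff.mp hv _ h1 i

/-- linear independence in `K^ι'` (any index set `ι'`) is preserved by a field extension. -/
theorem linearIndependent_algebraMap_comp {L : Type*} [Field L] [Algebra K L] {v : ι → ι' → K}
    (hv : LinearIndependent K v) :
    LinearIndependent L (fun i n => algebraMap K L (v i n)) := by
  rw [Fintype.linearIndependent_iff]
  intro c hc i
  refine eq_zero_of_forall_sum_smul hv c (fun n => ?_) i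
  have h2 := congrFun hc n
  rw [Finset.sum_apply, Pi.zero_apply] at h2
  rw [← h2]
  refine Finset.sum_congr rfl fun j _ => ?_
  rw [Pi.smul_apply, smul_eq_mul, Algebra.smul_def, mul_comm]

end Generic

/-! ### The lattice of forms with integer `q`-expansion -/

variable {M : ℕ}

/-- an element of `CuspForm.intLattice M 2` has integer `q`-coefficients. -/
theorem intCoeff_of_mem {f : CuspForm (Gamma0 M) 2} (hf : f ∈ CuspForm.intLattice M 2) (n : ℕ) :
    ∃ m : ℤ, qCoeff f n = (m : ℂ) := by
  unfold CuspForm.intLattice at hf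
  induction hf using Submodule.span_induction with
  | mem x hx => exact hx n
  | zero => exact ⟨0, by rw [Fermat.Agent.S49.qCoeff_zero_form, Int.cast_zero]⟩
  | add x y _ _ hx hy =>
    obtain ⟨a, ha⟩ := hx
    obtain ⟨b, hb⟩ := hy
    exact ⟨a + b, by rw [Fermat.Agent.S49.qCoeff_add, ha, hb, Int.cast_add]⟩
  | smul c x _ hx =>
    obtain ⟨a, ha⟩ := hx
    exact ⟨c * a, by rw [Fermat.Agent.S49.qCoeff_zsmul, ha, Int.cast_mul]⟩

theorem mem_intLattice_of_intCoeff {f : CuspForm (Gamma0 M) 2}
    (hf : ∀ n : ℕ, ∃ m : ℤ, qCoeff f n = (m : ℂ)) : f ∈ CuspForm.intLattice M 2 :=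
  Submodule.subset_span hf

/-- **saturation**: an element of the lattice all of whose coefficients are divisible by `d ≠ 0` is `d` times an
element of the lattice. -/
theorem exists_eq_zsmul_of_forall_dvd {d : ℤ} (hd : d ≠ 0) {f : CuspForm (Gamma0 M) 2}
    (hf : ∀ n : ℕ, ∃ m : ℤ, qCoeff f n = (d : ℂ) * (m : ℂ)) :
    ∃ g ∈ CuspForm.intLattice M 2, f = d • g := by
  obtain ⟨g, hg, hfg⟩ := Fermat.Agent.S49.exists_eq_zsmul_of_forall_dvd hd hf
  refine ⟨g, mem_intLattice_of_intCoeff fun n => ?_, hfg⟩
  obtain ⟨m, hm⟩ := (Fermat.Agent.S49.mem_qIntegralSet_iff g).mp hg n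
  exact ⟨m, hm.symm⟩

variable (M) [NeZero M]

/-- **the integral basis.** -/
theorem exists_intBasis :
    ∃ (g : ℕ) (f : Fin g → CuspForm (Gamma0 M) 2) (a : Fin g → ℕ → ℤ),
      (∀ i n, qCoeff (f i) n = (a i n : ℂ)) ∧
      (∀ f' : CuspForm (Gamma0 M) 2, ∃ c : Fin g → ℂ, f' = ∑ i, c i • f i) ∧
      (∀ (k : Type) [Field k] (p : ℕ) [Fact p.Prime] [CharP k p],
        LinearIndependent k (fun i => PowerSeries.mk fun n => ((a i n : ℤ) : k))) ∧
      (∀ f' : CuspForm (Gamma0 M) 2, (∀ n : ℕ, qCoeff f' n ∈ Set.range iotaK) →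
        ∃ c : Fin g → Kbar, f' = ∑ i, iotaK (c i) • f i) ∧
      (∀ f' : CuspForm (Gamma0 M) 2, (∀ n : ℕ, ∃ m : ℤ, qCoeff f' n = (m : ℂ)) →
        ∃ c : Fin g → ℤ, f' = ∑ i, c i • f i) := by
  classical
  haveI := CuspForm.intLattice.moduleFinite M
  haveI := CuspForm.intLattice.moduleFree M
  set g : ℕ := Module.finrank ℤ ↥(CuspForm.intLattice M 2) with hg
  let b : Module.Basis (Fin g) ℤ ↥(CuspForm.intLattice M 2) :=
    Module.finBasis ℤ ↥(CuspForm.intLattice M 2)
  let f : Fin g → CuspForm (Gamma0 M) 2 := fun i => (b i : CuspForm (Gamma0 M) 2)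
  have hfmem : ∀ i, f i ∈ CuspForm.intLattice M 2 := fun i => (b i).2
  choose a ha using fun i n => intCoeff_of_mem (hfmem i) n
  -- (5) the `ℤ`-span
  have h5 : ∀ f' : CuspForm (Gamma0 M) 2, f' ∈ CuspForm.intLattice M 2 →
      ∃ c : Fin g → ℤ, f' = ∑ i, c i • f i := by
    intro f' hf'
    refine ⟨fun i => b.repr ⟨f', hf'⟩ i, ?_⟩
    have h := congrArg (Subtype.val) (b.sum_repr ⟨f', hf'⟩)
    rw [AddSubmonoidClass.coe_finsetSum] at h
    exact h.symm.trans (Finset.sum_congr rfl fun i _ => rfl)
  -- `qCoeff` of an integral combination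
  have hcoefZ : ∀ (c : Fin g → ℤ) (n : ℕ),
      qCoeff (⇑(∑ i, c i • f i)) n = ((∑ i, c i * a i n : ℤ) : ℂ) := by
    intro c n
    have h := congrFun (map_sum (Fermat.Agent.S49.qCoeffLin M) (fun i => c i • f i) Finset.univ) n
    rw [Fermat.Agent.S49.qCoeffLin_apply, Finset.sum_apply] at h
    rw [h, Int.cast_sum]
    refine Finset.sum_congr rfl fun i _ => ?_
    rw [Fermat.Agent.S49.qCoeffLin_apply, Fermat.Agent.S49.qCoeff_zsmul, ha, Int.cast_mul]
  -- the `a i` are `ℤ`-linearly independent
  have hindZ : LinearIndependent ℤ a := by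
    rw [Fintype.linearIndependent_iff]
    intro c hc i
    have h0 : ∑ j, c j • f j = 0 := by
      apply Fermat.Agent.S49.eq_of_forall_qCoeff_eq
      intro n
      rw [hcoefZ c n, Fermat.Agent.S49.qCoeff_zero_form]
      have h1 := congrFun hc n
      rw [Finset.sum_apply, Pi.zero_apply] at h1
      have h2 : ∑ j, c j * a j n = 0 := by
        rw [← h1]
        exact Finset.sum_congr rfl fun j _ => by rw [Pi.smul_apply, smul_eq_mul]
      rw [h2, Int.cast_zero]
    have h1 : ∑ j, c j • b j = 0 := by
      apply Subtype.ext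
      rw [AddSubmonoidClass.coe_finsetSum, Submodule.coe_zero, ← h0]
      exact Finset.sum_congr rfl fun j _ => rfl
    exact Fintype.linearIndependent_iff.mp b.linearIndependent c h1 i
  -- hence `ℚ`-linearly independent
  have hindQ : LinearIndependent ℚ (fun i n => ((a i n : ℤ) : ℚ)) := by
    rw [← LinearIndependent.iff_fractionRing (R := ℤ) (K := ℚ)]
    rw [Fintype.linearIndependent_iff]
    intro c hc i
    refine Fintype.linearIndependent_iff.mp hindZ c ?_ i
    funext n
    have h1 := congrFun hc n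
    rw [Finset.sum_apply, Pi.zero_apply] at h1
    rw [Finset.sum_apply, Pi.zero_apply]
    have h2 : ((∑ j, (c j • a j) n : ℤ) : ℚ) = 0 := by
      rw [← h1, Int.cast_sum]
      refine Finset.sum_congr rfl fun j _ => ?_
      rw [Pi.smul_apply, Pi.smul_apply, smul_eq_mul, Int.cast_mul, zsmul_eq_mul]
    exact_mod_cast h2
  -- (2) the `ℂ`-span (main's S23)
  have h2 : ∀ f' : CuspForm (Gamma0 M) 2, ∃ c : Fin g → ℂ, f' = ∑ i, c i • f i := by
    intro f'
    have hS23 : CuspForm.HasIntegralStructure M 2 := Fermat.Agent.S23.result M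
    unfold CuspForm.HasIntegralStructure at hS23
    have hle : ((CuspForm.intLattice M 2 : Submodule ℤ (CuspForm (Gamma0 M) 2)) :
        Set (CuspForm (Gamma0 M) 2)) ⊆ Submodule.span ℂ (Set.range f) := by
      intro x hx
      obtain ⟨c, rfl⟩ := h5 x hx
      refine Submodule.sum_mem _ fun i _ => ?_
      have : c i • f i = ((c i : ℤ) : ℂ) • f i := (Int.cast_smul_eq_zsmul ℂ (c i) (f i)).symm
      rw [this]
      exact Submodule.smul_mem _ _ (Submodule.subset_span ⟨i, rfl⟩)
    have htop : Submodule.span ℂ (Set.range f) = ⊤ := by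
      rw [eq_top_iff, ← hS23]
      exact Submodule.span_le.mpr hle
    have hf' : f' ∈ Submodule.span ℂ (Set.range f) := by rw [htop]; exact Submodule.mem_top
    obtain ⟨c, hc⟩ := (Submodule.mem_span_range_iff_exists_fun ℂ).mp hf'
    exact ⟨c, hc.symm⟩
  refine ⟨g, f, a, ha, h2, ?_, ?_, ?_⟩
  · -- (3) reductions
    intro k _ p _ _
    -- independence over `𝔽_p`
    have hp : p.Prime := Fact.out
    have hindFp : LinearIndependent (ZMod p) (fun i n => ((a i n : ℤ) : ZMod p)) := by
      rw [Fintype.linearIndependent_iff]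
      intro c hc i
      -- lift the coefficients
      choose m hm using fun j => ZMod.intCast_surjective (c j)
      have hdiv : ∀ n : ℕ, ∃ t : ℤ, qCoeff (⇑(∑ j, m j • f j)) n = ((p : ℤ) : ℂ) * (t : ℂ) := by
        intro n
        have h1 := congrFun hc n
        rw [Finset.sum_apply, Pi.zero_apply] at h1
        have h2 : ((∑ j, m j * a j n : ℤ) : ZMod p) = 0 := by
          rw [← h1, Int.cast_sum]
          refine Finset.sum_congr rfl fun j _ => ?_
          rw [Pi.smul_apply, smul_eq_mul, Int.cast_mul, hm]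
        obtain ⟨t, ht⟩ := (ZMod.intCast_zmod_eq_zero_iff_dvd _ p).mp h2
        exact ⟨t, by rw [hcoefZ m n, ht, Int.cast_mul]⟩
      obtain ⟨h, hh, hfh⟩ := exists_eq_zsmul_of_forall_dvd
        (d := (p : ℤ)) (by exact_mod_cast hp.ne_zero) hdiv
      obtain ⟨m', hm'⟩ := h5 h hh
      have h3 : ∑ j, (m j - (p : ℤ) * m' j) • b j = 0 := by
        apply Subtype.ext
        rw [AddSubmonoidClass.coe_finsetSum, Submodule.coe_zero]
        have h4 : ∑ j, (m j - (p : ℤ) * m' j) • f j = 0 := by
          simp only [sub_smul, Finset.sum_sub_distrib, mul_smul]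
          rw [hfh, hm', Finset.smul_sum, sub_self]
        rw [← h4]
        exact Finset.sum_congr rfl fun j _ => rfl
      have h5' := Fintype.linearIndependent_iff.mp b.linearIndependent _ h3 i
      have h6 : m i = (p : ℤ) * m' i := by linarith
      rw [← hm i, h6, Int.cast_mul, Int.cast_natCast, ZMod.natCast_self, zero_mul]
    -- base change to `k`
    letI : Algebra (ZMod p) k := ZMod.algebra k p
    have hindk := linearIndependent_algebraMap_comp (L := k) hindFp
    rw [Fintype.linearIndependent_iff] at hindk ⊢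
    intro c hc i
    refine hindk c ?_ i
    funext n
    have h1 := congrArg (PowerSeries.coeff n) hc
    rw [map_sum, map_zero] at h1
    rw [Finset.sum_apply, Pi.zero_apply, ← h1]
    refine Finset.sum_congr rfl fun j _ => ?_
    rw [Pi.smul_apply, smul_eq_mul, PowerSeries.coeff_smul, PowerSeries.coeff_mk, map_intCast,
      smul_eq_mul]
  · -- (4) rationality
    intro f' hrat
    obtain ⟨c, hc⟩ := h2 f'
    letI : Algebra Kbar ℂ := iotaK.toAlgebra
    have hindK : LinearIndependent Kbar (fun i n => algebraMap ℚ Kbar ((a i n : ℤ) : ℚ)) :=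
      linearIndependent_algebraMap_comp (L := Kbar) hindQ
    -- the quotient `ℂ / ι(ℚ̄)`
    let R : Submodule Kbar ℂ := LinearMap.range (Algebra.linearMap Kbar ℂ)
    have hcoef : ∀ n : ℕ, qCoeff f' n = ∑ i, c i * ((a i n : ℤ) : ℂ) := by
      intro n
      have h := congrFun (map_sum (Fermat.Agent.S49.qCoeffLin M) (fun i => c i • f i)
        Finset.univ) n
      rw [Fermat.Agent.S49.qCoeffLin_apply, Finset.sum_apply] at h
      rw [hc, h]
      refine Finset.sum_congr rfl fun i _ => ?_
      rw [Fermat.Agent.S49.qCoeffLin_apply, Fermat.Agent.S49.qCoeff_smul, ha]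
    have hzero : ∀ i, R.mkQ (c i) = 0 := by
      refine eq_zero_of_forall_sum_smul hindK (fun i => R.mkQ (c i)) (fun n => ?_)
      have h1 : ∑ i, algebraMap ℚ Kbar ((a i n : ℤ) : ℚ) • R.mkQ (c i) =
          R.mkQ (qCoeff f' n) := by
        rw [hcoef n, map_sum]
        refine Finset.sum_congr rfl fun i _ => ?_
        rw [← map_smul, Algebra.smul_def, mul_comm]
        congr 2
        show iotaK (algebraMap ℚ Kbar ((a i n : ℤ) : ℚ)) = ((a i n : ℤ) : ℂ)
        rw [map_intCast, map_intCast]
      rw [h1]
      obtain ⟨z, hz⟩ := hrat n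
      rw [Submodule.mkQ_apply, Submodule.Quotient.mk_eq_zero]
      exact ⟨z, hz⟩
    have hmem : ∀ i, ∃ z : Kbar, iotaK z = c i := by
      intro i
      have := hzero i
      rw [Submodule.mkQ_apply, Submodule.Quotient.mk_eq_zero] at this
      exact this
    choose z hz using hmem
    exact ⟨z, by rw [hc]; exact Finset.sum_congr rfl fun i _ => by rw [hz]⟩
  · -- (5)
    intro f' hf'
    exact h5 f' (mem_intLattice_of_intCoeff hf')

end Fermat.Agent.ES.X44.IntBasisRed19
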