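/-
Programme X (S44), chapter (QP), leaf C2, abstract core (helper19): **a `q`-series `s = ∑ λ_i a_i` (`a_i ∈ ℤ⟦q⟧` with
`k`-linearly independent reductions, `λ_i ∈ L`) which is a FRACTION `A' / B` of `A`-integral `q`-series with `B̄ ≠ 0`
is itself `A`-integral — in fact all `λ_i ∈ A`.**

`A ≤ L` a valuation subring, `π : A →+* k` a ring homomorphism to a field killing the non-units (the residue map).
If some `λ_i ∉ A`, divide by the `λ_{i₀}` of largest valuation: `t := s / λ_{i₀} = ∑ μ_i a_i` is `A`-integral with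
`t · B = λ_{i₀}⁻¹ A'`, `λ_{i₀}⁻¹` a non-unit; reducing, `t̄ · B̄ = 0` in the domain `k((q))`, so `t̄ = ∑ μ̄_i ā_i = 0` with
`μ̄_{i₀} = 1`, against the independence of the `ā_i`.

* `lam_mem_of_frac`  : all `λ_i ∈ A`;
* `exists_lift_of_frac` : `s = coeffMap A.subtype S` with `S̄ · B̄ = Ā'`.
Consumed with `IntBasisRed19.exists_intBasis` (clauses (3), (4)) in the step C2 of (QP).
-/
import Mathlib
import Fermat.Prelude.Def_ModularCurve_LaurentCoeff
import Fermat.Prelude.Def_ModularCurve_X0ModL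

set_option autoImplicit false
set_option linter.style.haveILetI false
set_option linter.unusedSectionVars false

open ModularCurve HahnSeries

noncomputable section

namespace Fermat.Agent.ES.X44.IntFrac19

variable {L : Type*} [Field L] (A : ValuationSubring L) {k : Type*} [Field k] (π : ↥A →+* k)

theorem coeffMap_subtype_injective : Function.Injective (coeffMap A.subtype) := by
  intro x y h
  ext n
  have h1 := congrArg (fun z : LaurentSeries L => z.coeff n) h
  exact h1

/-- the integral series `∑ μ_i a_i`. -/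
def comb {g : ℕ} (a : Fin g → ℕ → ℤ) (μ : Fin g → ↥A) : LaurentSeries ↥A :=
  HahnSeries.ofPowerSeries ℤ ↥A (PowerSeries.mk fun n => ∑ i, μ i * ((a i n : ℤ) : ↥A))

theorem comb_coeff_nat {g : ℕ} (a : Fin g → ℕ → ℤ) (μ : Fin g → ↥A) (n : ℕ) :
    (comb A a μ).coeff (n : ℤ) = ∑ i, μ i * ((a i n : ℤ) : ↥A) := by
  rw [comb, HahnSeries.ofPowerSeries_apply_coeff, PowerSeries.coeff_mk]

theorem comb_coeff_neg {g : ℕ} (a : Fin g → ℕ → ℤ) (μ : Fin g → ↥A) {n : ℤ} (hn : n < 0) :
    (comb A a μ).coeff n = 0 := by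
  rw [comb, HahnSeries.ofPowerSeries_apply]
  refine HahnSeries.embDomain_of_notMem_range ?_
  rintro ⟨m, hm⟩
  have : (0 : ℤ) ≤ n := by rw [← hm]; exact Int.natCast_nonneg m
  omega

/-- `coeffMap A.subtype (∑ μ_i a_i) = s` as soon as the coefficients agree. -/
theorem coeffMap_subtype_comb {g : ℕ} (a : Fin g → ℕ → ℤ) (μ : Fin g → ↥A) (s : LaurentSeries L)
    (hs : ∀ n : ℕ, s.coeff (n : ℤ) = ∑ i, (μ i : L) * ((a i n : ℤ) : L))
    (hs' : ∀ n : ℤ, n < 0 → s.coeff n = 0) : coeffMap A.subtype (comb A a μ) = s := by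
  ext n
  rw [coeffMap_coeff]
  rcases lt_or_ge n 0 with hn | hn
  · rw [comb_coeff_neg A a μ hn, map_zero, hs' n hn]
  · obtain ⟨m, rfl⟩ := Int.eq_ofNat_of_zero_le hn
    rw [comb_coeff_nat, hs m, map_sum]
    refine Finset.sum_congr rfl fun i _ => ?_
    rw [map_mul, map_intCast]
    rfl

/-- the reduction of `∑ μ_i a_i`. -/
theorem coeffMap_comb {g : ℕ} (a : Fin g → ℕ → ℤ) (μ : Fin g → ↥A) :
    coeffMap π (comb A a μ) =
      HahnSeries.ofPowerSeries ℤ k (∑ i, π (μ i) • PowerSeries.mk fun n => ((a i n : ℤ) : k)) := by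
  rw [comb, coeffMap_ofPowerSeries]
  congr 1
  ext n
  rw [PowerSeries.coeff_map, PowerSeries.coeff_mk, map_sum, map_sum]
  refine Finset.sum_congr rfl fun i _ => ?_
  rw [PowerSeries.coeff_smul, PowerSeries.coeff_mk, map_mul, map_intCast, smul_eq_mul]

variable {A π}

/-- **all `λ_i` are integral.** -/
theorem lam_mem_of_frac (hπ : ∀ x : ↥A, ¬ IsUnit x → π x = 0) {g : ℕ} (a : Fin g → ℕ → ℤ)
    (hind : LinearIndependent k (fun i => PowerSeries.mk fun n => ((a i n : ℤ) : k)))
    (lam : Fin g → L) (s : LaurentSeries L)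
    (hs : ∀ n : ℕ, s.coeff (n : ℤ) = ∑ i, lam i * ((a i n : ℤ) : L))
    (hs' : ∀ n : ℤ, n < 0 → s.coeff n = 0)
    (B A' : LaurentSeries ↥A) (hB : coeffMap π B ≠ 0)
    (hsB : s * coeffMap A.subtype B = coeffMap A.subtype A') (i : Fin g) : lam i ∈ A := by
  by_contra hi
  -- the index of largest valuation
  obtain ⟨i₀, -, hmax⟩ := Finset.exists_max_image Finset.univ (fun j => A.valuation (lam j))
    ⟨i, Finset.mem_univ i⟩
  have hi₀ : 1 < A.valuation (lam i₀) := by
    have h1 : ¬ A.valuation (lam i) ≤ 1 := fun h => hi ((A.valuation_le_one_iff _).mp h)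
    exact lt_of_lt_of_le (not_le.mp h1) (hmax i (Finset.mem_univ i))
  have hl0 : lam i₀ ≠ 0 := by
    intro h0
    rw [h0, map_zero] at hi₀
    exact not_lt.mpr zero_le hi₀
  have hv0 : A.valuation (lam i₀) ≠ 0 := (Valuation.ne_zero_iff _).mpr hl0
  set ε : L := (lam i₀)⁻¹ with hε
  have hεval : A.valuation ε < 1 := by
    rw [hε, map_inv₀]
    exact inv_lt_one_of_one_lt₀ hi₀
  have hεA : ε ∈ A := (A.valuation_le_one_iff _).mp hεval.le
  have hεnu : ¬ IsUnit (⟨ε, hεA⟩ : ↥A) := by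
    rw [A.valuation_eq_one_iff]
    exact ne_of_lt hεval
  have hμA : ∀ j, lam j * ε ∈ A := by
    intro j
    rw [← A.valuation_le_one_iff, map_mul, hε, map_inv₀]
    exact mul_inv_le_one_of_le₀ (hmax j (Finset.mem_univ j)) zero_le
  set μ : Fin g → ↥A := fun j => ⟨lam j * ε, hμA j⟩ with hμ
  have hμ₀ : μ i₀ = 1 := Subtype.ext (mul_inv_cancel₀ hl0)
  -- `coeffMap (∑ μ_i a_i) = ε • s`
  have hT : coeffMap A.subtype (comb A a μ) = HahnSeries.C ε * s := by
    rw [HahnSeries.C_mul_eq_smul]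
    refine coeffMap_subtype_comb A a μ (ε • s) (fun n => ?_) (fun n hn => ?_)
    · rw [HahnSeries.coeff_smul, hs n, smul_eq_mul, Finset.mul_sum]
      refine Finset.sum_congr rfl fun j _ => ?_
      show ε * (lam j * _) = lam j * ε * _
      ring
    · rw [HahnSeries.coeff_smul, hs' n hn, smul_zero]
  -- `(∑ μ_i a_i) · B = ε A'`
  have hTB : comb A a μ * B = HahnSeries.single 0 (⟨ε, hεA⟩ : ↥A) * A' := by
    apply coeffMap_subtype_injective A
    rw [map_mul, map_mul, hT, coeffMap_single, mul_assoc, hsB, HahnSeries.C_apply]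
    rfl
  -- reduce
  have hred : coeffMap π (comb A a μ) * coeffMap π B = 0 := by
    rw [← map_mul, hTB, map_mul, coeffMap_single, hπ _ hεnu, HahnSeries.single_eq_zero, zero_mul]
  have hzero : coeffMap π (comb A a μ) = 0 := (mul_eq_zero.mp hred).resolve_right hB
  rw [coeffMap_comb] at hzero
  have hps : ∑ j, π (μ j) • PowerSeries.mk (fun n => ((a j n : ℤ) : k)) = 0 := by
    apply HahnSeries.ofPowerSeries_injective (Γ := ℤ) (R := k)
    rw [hzero, map_zero]
  have h1 := Fintype.linearIndependent_iff.mp hind (fun j => π (μ j)) hps i₀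
  rw [hμ₀, map_one] at h1
  exact one_ne_zero h1

/-- **the fraction is an `A`-integral `q`-series, and its reduction is the reduced fraction.** -/
theorem exists_lift_of_frac (hπ : ∀ x : ↥A, ¬ IsUnit x → π x = 0) {g : ℕ} (a : Fin g → ℕ → ℤ)
    (hind : LinearIndependent k (fun i => PowerSeries.mk fun n => ((a i n : ℤ) : k)))
    (lam : Fin g → L) (s : LaurentSeries L)
    (hs : ∀ n : ℕ, s.coeff (n : ℤ) = ∑ i, lam i * ((a i n : ℤ) : L))
    (hs' : ∀ n : ℤ, n < 0 → s.coeff n = 0)
    (B A' : LaurentSeries ↥A) (hB : coeffMap π B ≠ 0)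
    (hsB : s * coeffMap A.subtype B = coeffMap A.subtype A') :
    ∃ S : LaurentSeries ↥A, coeffMap A.subtype S = s ∧ S * B = A' ∧
      coeffMap π S * coeffMap π B = coeffMap π A' := by
  have hmem := lam_mem_of_frac hπ a hind lam s hs hs' B A' hB hsB
  set μ : Fin g → ↥A := fun j => ⟨lam j, hmem j⟩ with hμ
  have hS : coeffMap A.subtype (comb A a μ) = s := coeffMap_subtype_comb A a μ s hs hs'
  have hSB : comb A a μ * B = A' := by
    apply coeffMap_subtype_injective A
    rw [map_mul, hS, hsB]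
  exact ⟨comb A a μ, hS, hSB, by rw [← map_mul, hSB]⟩

end Fermat.Agent.ES.X44.IntFrac19
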