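/-
Programme X (S44), chapter (K): total ramification of a cyclic degree-`p` step, in the valuation-inequality idiom
of `EisGauss6` (arbitrary `v : Valuation F Γ₀`; no completeness, no finiteness of integral closures).  Author helper6.

`K₁ ≤ K'` subfields of `F`, `σ : F ≃+* F` with `v ∘ σ = v`, `σ = id` on `K₁`, `σ K' ⊆ K'`, norms
`∏_{i<p} σ^[i] y ∈ K₁` for `y ∈ K'`; `K₁` discretely valued by `v` with uniformiser `ϖ`; the residue field of `K'`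
is that of `K₁` (`hres`); `θ ∈ K'` with one archimedean bound `v ϖ ^ k₀ < v (θ - σ θ)` (so `σ θ ≠ θ`).  Then

* `krasner_bound` : `v (θ - σ θ) ≤ v (θ - c)` for every `σ`-fixed `c`;
* `exists_val_not_zpow` : some `γ = θ - c₀` (`c₀ ∈ K₁`) has `v γ ∉ (v ϖ)^ℤ` (best approximation + residue-onto);
* `exists_uniformizer` : `∃ π' ∈ K', v π' ^ p = v ϖ` (norm + Bezout).
-/
import Fermat.Agent.ES.X44.EisGauss6

set_option autoImplicit false

namespace Fermat.Agent.ES.X44.TotRam6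

open Finset

variable {F : Type*} [Field F] {Γ₀ : Type*} [LinearOrderedCommGroupWithZero Γ₀]

/-- Krasner-type bound: a `σ`-fixed `c` cannot approximate `θ` better than `σ θ` does. -/
theorem krasner_bound (v : Valuation F Γ₀) (σ : F ≃+* F) (hσv : ∀ x, v (σ x) = v x) {θ c : F}
    (hc : σ c = c) : v (θ - σ θ) ≤ v (θ - c) := by
  have : θ - σ θ = (θ - c) - σ (θ - c) := by rw [map_sub, hc]; ring
  rw [this]
  exact (Valuation.map_sub v _ _).trans (max_le le_rfl (by rw [hσv]))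

/-- Integral powers of `g < 1` are strictly decreasing in the exponent. -/
theorem zpow_lt_zpow_of_lt {g : Γ₀} (h0 : g ≠ 0) (h1 : g < 1) {a b : ℤ} (hab : a < b) : g ^ b < g ^ a := by
  have hd : 0 < b - a := sub_pos.mpr hab
  obtain ⟨m, hm⟩ := Int.eq_ofNat_of_zero_le hd.le
  have hm0 : m ≠ 0 := by
    rintro rfl
    rw [hm] at hd
    exact absurd hd (lt_irrefl _)
  have hb : b = a + m := by omega
  rw [hb, zpow_add₀ h0, zpow_natCast]
  calc g ^ a * g ^ m < g ^ a * 1 :=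
        mul_lt_mul_of_pos_left (pow_lt_one₀ zero_le h1 hm0) (zero_lt_iff.mpr (zpow_ne_zero _ h0))
    _ = g ^ a := mul_one _

/-- Conversely `g ^ b < g ^ a` forces `a < b`. -/
theorem lt_of_zpow_lt_zpow {g : Γ₀} (h0 : g ≠ 0) (h1 : g < 1) {a b : ℤ} (h : g ^ b < g ^ a) : a < b := by
  by_contra hba
  push Not at hba
  rcases eq_or_lt_of_le hba with heq | hlt
  · rw [heq] at h
    exact absurd h (lt_irrefl _)
  · exact absurd h (not_lt.mpr (zpow_lt_zpow_of_lt h0 h1 hlt).le)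

section Main

variable (v : Valuation F Γ₀) (K₁ K' : Subfield F) (hle : K₁ ≤ K')
  (σ : F ≃+* F) (hσv : ∀ x, v (σ x) = v x) (hσK₁ : ∀ c ∈ K₁, σ c = c)
  {ϖ : F} (hϖK : ϖ ∈ K₁) (hϖ1 : v ϖ < 1) (hϖ0 : ϖ ≠ 0)
  (hdisc : ∀ c ∈ K₁, c ≠ 0 → ∃ k : ℤ, v c = v ϖ ^ k)
  (hres : ∀ y ∈ K', v y = 1 → ∃ c ∈ K₁, v (y - c) < 1)
  {θ : F} (hθK : θ ∈ K') {k₀ : ℕ} (hk₀ : v ϖ ^ k₀ < v (θ - σ θ))

include hle hσv hσK₁ hϖK hϖ1 hϖ0 hres hθK hk₀ in
/-- Best approximation: some `θ - c₀`, `c₀ ∈ K₁`, has valuation outside `(v ϖ)^ℤ`. -/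
theorem exists_val_not_zpow : ∃ c₀ ∈ K₁, ∀ k : ℤ, v (θ - c₀) ≠ v ϖ ^ k := by
  by_contra hall
  push Not at hall
  have hg0 : v ϖ ≠ 0 := (Valuation.ne_zero_iff v).mpr hϖ0
  -- the set of exponents reached by approximations from `K₁`
  let P : ℤ → Prop := fun k => ∃ c ∈ K₁, v (θ - c) = v ϖ ^ k
  have hbdd : ∀ k, P k → k ≤ (k₀ : ℤ) := by
    rintro k ⟨c, hcK, hck⟩
    by_contra hlt
    push Not at hlt
    have h1 : v ϖ ^ k < v ϖ ^ (k₀ : ℤ) := zpow_lt_zpow_of_lt hg0 hϖ1 hlt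
    rw [zpow_natCast] at h1
    have h2 : v (θ - σ θ) ≤ v (θ - c) := krasner_bound v σ hσv (hσK₁ c hcK)
    rw [hck] at h2
    exact absurd (lt_of_lt_of_le hk₀ h2) (not_lt.mpr h1.le)
  have hex : ∃ k, P k := by
    obtain ⟨k, hk⟩ := hall 0 (Subfield.zero_mem K₁)
    exact ⟨k, 0, Subfield.zero_mem K₁, hk⟩
  obtain ⟨kmax, ⟨c₀, hc₀K, hc₀⟩, hmax⟩ := Int.exists_greatest_of_bdd ⟨(k₀ : ℤ), hbdd⟩ hex
  -- the unit `y = (θ - c₀) / ϖ^kmax` and its residue `c₁ ∈ K₁`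
  have hϖk0 : ϖ ^ kmax ≠ 0 := zpow_ne_zero _ hϖ0
  set y : F := (θ - c₀) / ϖ ^ kmax with hy
  have hyK : y ∈ K' :=
    Subfield.div_mem K' (Subfield.sub_mem K' hθK (hle hc₀K)) (Subfield.zpow_mem K' (hle hϖK) kmax)
  have hy1 : v y = 1 := by
    rw [hy, map_div₀, map_zpow₀, hc₀, div_self (zpow_ne_zero _ hg0)]
  obtain ⟨c₁, hc₁K, hc₁⟩ := hres y hyK hy1
  set c' : F := c₀ + c₁ * ϖ ^ kmax with hc'
  have hc'K : c' ∈ K₁ :=
    Subfield.add_mem K₁ hc₀K (Subfield.mul_mem K₁ hc₁K (Subfield.zpow_mem K₁ hϖK kmax))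
  have hval : v (θ - c') < v ϖ ^ kmax := by
    have : θ - c' = ϖ ^ kmax * (y - c₁) := by
      rw [hc', hy]
      field_simp
      ring
    rw [this, map_mul, map_zpow₀]
    calc v ϖ ^ kmax * v (y - c₁) < v ϖ ^ kmax * 1 :=
          mul_lt_mul_of_pos_left hc₁ (zero_lt_iff.mpr (zpow_ne_zero _ hg0))
      _ = v ϖ ^ kmax := mul_one _
  obtain ⟨k', hk'⟩ := hall c' hc'K
  rw [hk'] at hval
  have hlt : kmax < k' := lt_of_zpow_lt_zpow hg0 hϖ1 hval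
  exact absurd (hmax k' ⟨c', hc'K, hk'⟩) (not_le.mpr hlt)

include hle hσv hσK₁ hϖK hϖ1 hϖ0 hdisc hres hθK hk₀ in
/-- **Total ramification.**  There is `π' ∈ K'` with `v π' ^ p = v ϖ`. -/
theorem exists_uniformizer {p : ℕ} (hp : p.Prime)
    (hnorm : ∀ y ∈ K', (∏ i ∈ Finset.range p, (σ^[i]) y) ∈ K₁) :
    ∃ π' ∈ K', v π' ^ p = v ϖ := by
  have hg0 : v ϖ ≠ 0 := (Valuation.ne_zero_iff v).mpr hϖ0
  obtain ⟨c₀, hc₀K, hc₀⟩ := exists_val_not_zpow v K₁ K' hle σ hσv hσK₁ hϖK hϖ1 hϖ0 hres hθK hk₀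
  have hθ : σ θ ≠ θ := by
    intro h
    rw [h, sub_self, map_zero] at hk₀
    exact absurd hk₀ (not_lt.mpr zero_le)
  set γ : F := θ - c₀ with hγ
  have hγK : γ ∈ K' := Subfield.sub_mem K' hθK (hle hc₀K)
  have hγ0 : γ ≠ 0 := by
    intro h0
    have : θ = c₀ := sub_eq_zero.mp h0
    exact hθ (by rw [this]; exact hσK₁ c₀ hc₀K)
  have hvγ0 : v γ ≠ 0 := (Valuation.ne_zero_iff v).mpr hγ0
  -- the norm
  have hiter : ∀ i : ℕ, v ((σ^[i]) γ) = v γ := by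
    intro i
    induction i with
    | zero => rfl
    | succ i ih => rw [Function.iterate_succ_apply', hσv, ih]
  have hNval : v (∏ i ∈ Finset.range p, (σ^[i]) γ) = v γ ^ p := by
    rw [map_prod, Finset.prod_congr rfl (fun i _ => hiter i), Finset.prod_const, Finset.card_range]
  have hN0 : (∏ i ∈ Finset.range p, (σ^[i]) γ) ≠ 0 := by
    intro h0
    rw [h0, map_zero] at hNval
    exact pow_ne_zero p hvγ0 hNval.symm
  obtain ⟨m, hm⟩ := hdisc _ (hnorm γ hγK) hN0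
  rw [hNval] at hm
  -- `p ∤ m`
  have hpm : ¬ (p : ℤ) ∣ m := by
    rintro ⟨m', rfl⟩
    have h1 : v γ ^ p = (v ϖ ^ m') ^ p := by
      rw [hm, ← zpow_natCast (v ϖ ^ m') p, ← zpow_mul, mul_comm]
    have h2 : v γ = v ϖ ^ m' := by
      rcases lt_trichotomy (v γ) (v ϖ ^ m') with h | h | h
      · exact absurd h1 (ne_of_lt (pow_lt_pow_left₀ h zero_le hp.ne_zero))
      · exact h
      · exact absurd h1.symm (ne_of_lt (pow_lt_pow_left₀ h zero_le hp.ne_zero))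
    exact hc₀ m' h2
  -- Bezout
  have hcop : IsCoprime m (p : ℤ) := by
    have := (Nat.prime_iff_prime_int.mp hp)
    exact (Prime.coprime_iff_not_dvd this).mpr hpm |>.symm
  obtain ⟨a, b, hab⟩ := hcop
  refine ⟨γ ^ a * ϖ ^ b, Subfield.mul_mem K' (Subfield.zpow_mem K' hγK a) (Subfield.zpow_mem K' (hle hϖK) b), ?_⟩
  rw [map_mul, map_zpow₀, map_zpow₀, mul_pow, ← zpow_natCast (v γ ^ a) p, ← zpow_mul, mul_comm a (p : ℤ),
    zpow_mul, zpow_natCast (v γ) p, hm, ← zpow_mul, ← zpow_natCast (v ϖ ^ b) p, ← zpow_mul, ← zpow_add₀ hg0]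
  have : m * a + b * (p : ℤ) = 1 := by linarith
  rw [this, zpow_one]

end Main

end Fermat.Agent.ES.X44.TotRam6
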