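/-
Programme X (S44), chapter (K), concrete tower, part 3 (helper16): **the cyclic step `S ⊴ H`, group theory only**.

`H, S` subgroups of `G_ℚ = Gal(ℚ̄/ℚ)`, `S ≤ H` normalised by `H`, `σ ∈ H` with `H = ⟨σ⟩ S` and `σ ^ p ∈ S`
(`CycStep`).  For `y ∈ ℚ̄` fixed by `S` ("`y ∈ K' = ℚ̄^S`"):

* `CycStep.map_fixed`, `pow_map_fixed` : `σ y`, `σ^i y` are again fixed by `S`;
* `CycStep.pow_apply_mod` : `σ^j y = σ^(j % p) y`;
* `CycStep.fixed_of_sigma_fixed` : `σ y = y` ⇒ `y` is fixed by `H`;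
* `CycStep.sigma_fixed_of_pow_fixed` : `σ^i y = y`, `p ∤ i` (`p` prime) ⇒ `σ y = y`;
* `CycStep.norm_fixed` : the norm `∏_{i<p} σ^i y` is fixed by `H`;
* `CycStep.orbit_finite` : the `H`-orbit of `y` is finite with at most `p` elements;
* `fixedSub Γ` : the fixed field of a subgroup as a `Subfield ℚ̄`; `iterate_toRingEquiv`.
-/
import Mathlib

set_option autoImplicit false
set_option linter.unusedSectionVars false

namespace Fermat.Agent.ES.X44.TowerGroup16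

local notation "Qb" => AlgebraicClosure ℚ
local notation "GQ" => (AlgebraicClosure ℚ ≃ₐ[ℚ] AlgebraicClosure ℚ)

/-- the fixed field of a subgroup of `G_ℚ`, as a subfield of `ℚ̄`. -/
def fixedSub (Γ : Subgroup GQ) : Subfield Qb where
  carrier := {x | ∀ g ∈ Γ, g x = x}
  mul_mem' := fun {x y} hx hy g hg => by rw [map_mul, hx g hg, hy g hg]
  one_mem' := fun g _ => map_one g
  add_mem' := fun {x y} hx hy g hg => by rw [map_add, hx g hg, hy g hg]
  zero_mem' := fun g _ => map_zero g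
  neg_mem' := fun {x} hx g hg => by rw [map_neg, hx g hg]
  inv_mem' := fun x hx g hg => by rw [map_inv₀, hx g hg]

theorem mem_fixedSub {Γ : Subgroup GQ} {x : Qb} : x ∈ fixedSub Γ ↔ ∀ g ∈ Γ, g x = x := Iff.rfl

theorem fixedSub_anti {Γ Γ' : Subgroup GQ} (h : Γ ≤ Γ') : fixedSub Γ' ≤ fixedSub Γ :=
  fun _ hx g hg => hx g (h hg)

/-- iterating the underlying ring automorphism is applying the power. -/
theorem iterate_toRingEquiv (σ : GQ) (i : ℕ) (y : Qb) :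
    ((σ.toRingEquiv : Qb ≃+* Qb))^[i] y = (σ ^ i) y := by
  induction i with
  | zero => simp
  | succ i ih =>
    rw [Function.iterate_succ_apply', ih, pow_succ', AlgEquiv.mul_apply]
    rfl

/-- **The cyclic step** `S ⊴ H = ⟨σ⟩ S`, `σ ^ p ∈ S`. -/
structure CycStep (p : ℕ) (H S : Subgroup GQ) (σ : GQ) : Prop where
  le : S ≤ H
  normal : ∀ h ∈ H, ∀ s ∈ S, h * s * h⁻¹ ∈ S
  mem : σ ∈ H
  gen : ∀ τ ∈ H, ∃ i : ℕ, ∃ s ∈ S, τ = σ ^ i * s
  sigma_pow_mem : σ ^ p ∈ S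

namespace CycStep

variable {p : ℕ} {H S : Subgroup GQ} {σ : GQ}

theorem pow_mem_H (D : CycStep p H S σ) (i : ℕ) : σ ^ i ∈ H := Subgroup.pow_mem H D.mem i

theorem pow_mul_mem (D : CycStep p H S σ) (q : ℕ) : σ ^ (p * q) ∈ S := by
  rw [pow_mul]
  exact Subgroup.pow_mem S D.sigma_pow_mem q

/-- `h y` is `S`-fixed when `y` is and `h ∈ H`. -/
theorem apply_fixed (D : CycStep p H S σ) {h : GQ} (hh : h ∈ H) {y : Qb}
    (hy : ∀ s ∈ S, s y = y) : ∀ s ∈ S, s (h y) = h y := by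
  intro s hs
  have h1 : h⁻¹ * s * h⁻¹⁻¹ ∈ S := D.normal h⁻¹ (inv_mem hh) s hs
  rw [inv_inv] at h1
  have h2 := hy _ h1
  have h3 : s (h y) = h ((h⁻¹ * s * h) y) := by
    rw [← AlgEquiv.mul_apply, ← AlgEquiv.mul_apply]
    congr 1
    group
  rw [h3, h2]

theorem map_fixed (D : CycStep p H S σ) {y : Qb} (hy : ∀ s ∈ S, s y = y) :
    ∀ s ∈ S, s (σ y) = σ y := D.apply_fixed D.mem hy

theorem pow_map_fixed (D : CycStep p H S σ) (i : ℕ) {y : Qb} (hy : ∀ s ∈ S, s y = y) :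
    ∀ s ∈ S, s ((σ ^ i) y) = (σ ^ i) y := D.apply_fixed (D.pow_mem_H i) hy

/-- `σ^(p q)` fixes `S`-fixed elements. -/
theorem pow_mul_apply (D : CycStep p H S σ) (q : ℕ) {y : Qb} (hy : ∀ s ∈ S, s y = y) :
    (σ ^ (p * q)) y = y := hy _ (D.pow_mul_mem q)

theorem pow_apply_mod (D : CycStep p H S σ) (j : ℕ) {y : Qb} (hy : ∀ s ∈ S, s y = y) :
    (σ ^ j) y = (σ ^ (j % p)) y := by
  conv_lhs => rw [← Nat.mod_add_div j p, pow_add, AlgEquiv.mul_apply, D.pow_mul_apply _ hy]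

/-- every `τ ∈ H` acts on `S`-fixed elements as a power `σ^i`, `i < p` (when `0 < p`). -/
theorem exists_pow_apply (D : CycStep p H S σ) (hp : 0 < p) {τ : GQ} (hτ : τ ∈ H) :
    ∃ i < p, ∀ y : Qb, (∀ s ∈ S, s y = y) → τ y = (σ ^ i) y := by
  obtain ⟨j, s, hs, rfl⟩ := D.gen τ hτ
  refine ⟨j % p, Nat.mod_lt _ hp, fun y hy => ?_⟩
  rw [AlgEquiv.mul_apply, hy s hs, D.pow_apply_mod j hy]

/-- powers of a map fixing `y` fix `y`. -/
theorem pow_apply_of_apply {τ : GQ} {y : Qb} (h : τ y = y) (n : ℕ) : (τ ^ n) y = y := by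
  induction n with
  | zero => simp
  | succ n ih => rw [pow_succ, AlgEquiv.mul_apply, h, ih]

/-- `σ y = y` ⇒ `y` is fixed by `H`. -/
theorem fixed_of_sigma_fixed (D : CycStep p H S σ) {y : Qb} (hy : ∀ s ∈ S, s y = y)
    (hσy : σ y = y) : ∀ τ ∈ H, τ y = y := by
  intro τ hτ
  obtain ⟨j, s, hs, rfl⟩ := D.gen τ hτ
  rw [AlgEquiv.mul_apply, hy s hs]
  exact pow_apply_of_apply hσy j

/-- `σ^i y = y` with `p ∤ i` ⇒ `σ y = y` (`p` prime). -/
theorem sigma_fixed_of_pow_fixed (D : CycStep p H S σ) (hp : p.Prime) {y : Qb}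
    (hy : ∀ s ∈ S, s y = y) {i : ℕ} (hi : ¬ p ∣ i) (hσy : (σ ^ i) y = y) : σ y = y := by
  -- `i * a ≡ 1 mod p`
  have hcop : Nat.Coprime i p := (Nat.Coprime.symm ((Nat.Prime.coprime_iff_not_dvd hp).mpr hi))
  obtain ⟨a, -, ha⟩ := Nat.exists_mul_mod_eq_one_of_coprime hcop hp.one_lt
  have h1 : (σ ^ (i * a)) y = y := by
    rw [pow_mul]
    exact pow_apply_of_apply hσy a
  rw [D.pow_apply_mod (i * a) hy, ha, pow_one] at h1
  exact h1

/-- the norm `∏_{i<p} σ^i y` is fixed by `σ`. -/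
theorem sigma_norm (D : CycStep p H S σ) {y : Qb} (hy : ∀ s ∈ S, s y = y) :
    σ (∏ i ∈ Finset.range p, (σ ^ i) y) = ∏ i ∈ Finset.range p, (σ ^ i) y := by
  rw [map_prod]
  have h1 : ∀ i, σ ((σ ^ i) y) = (σ ^ (i + 1)) y := fun i => by
    rw [pow_succ', AlgEquiv.mul_apply]
  simp_rw [h1]
  by_cases hy0 : y = 0
  · subst hy0
    simp only [map_zero]
  · have e1 := Finset.prod_range_succ' (fun i => (σ ^ i) y) p
    have e2 := Finset.prod_range_succ (fun i => (σ ^ i) y) p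
    rw [e1] at e2
    have h0 : (σ ^ 0) y = y := by rw [pow_zero, AlgEquiv.one_apply]
    have hpp : (σ ^ p) y = y := hy _ D.sigma_pow_mem
    rw [h0, hpp] at e2
    exact mul_right_cancel₀ hy0 e2

/-- **the norm is fixed by `H`**. -/
theorem norm_fixed (D : CycStep p H S σ) {y : Qb} (hy : ∀ s ∈ S, s y = y) :
    ∀ τ ∈ H, τ (∏ i ∈ Finset.range p, (σ ^ i) y) = ∏ i ∈ Finset.range p, (σ ^ i) y := by
  have hS : ∀ s ∈ S, s (∏ i ∈ Finset.range p, (σ ^ i) y) = ∏ i ∈ Finset.range p, (σ ^ i) y := by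
    intro s hs
    rw [map_prod]
    exact Finset.prod_congr rfl (fun i _ => D.pow_map_fixed i hy s hs)
  exact D.fixed_of_sigma_fixed hS (D.sigma_norm hy)

/-- the `H`-orbit of an `S`-fixed element is finite with at most `p` elements. -/
theorem orbit_finite (D : CycStep p H S σ) (hp : 0 < p) {y : Qb} (hy : ∀ s ∈ S, s y = y) :
    ∃ hfin : (MulAction.orbit ↥H y).Finite, hfin.toFinset.card ≤ p := by
  classical
  set T : Finset Qb := (Finset.range p).image (fun i => (σ ^ i) y) with hT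
  have hsub : MulAction.orbit ↥H y ⊆ (↑T : Set Qb) := by
    rintro x ⟨g, rfl⟩
    obtain ⟨i, hi, hiy⟩ := D.exists_pow_apply hp g.2
    rw [hT, Finset.coe_image]
    exact ⟨i, Finset.mem_coe.mpr (Finset.mem_range.mpr hi), (hiy y hy).symm⟩
  have hfin : (MulAction.orbit ↥H y).Finite := T.finite_toSet.subset hsub
  refine ⟨hfin, ?_⟩
  have h1 : hfin.toFinset ⊆ T := by
    rw [Set.Finite.toFinset_subset]
    exact hsub
  calc hfin.toFinset.card ≤ T.card := Finset.card_le_card h1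
    _ ≤ (Finset.range p).card := Finset.card_image_le
    _ = p := Finset.card_range p

end CycStep

end Fermat.Agent.ES.X44.TowerGroup16
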