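/-
Programme X (S44), chapter (K), concrete tower, part 2 (helper16): **the field `K₁ = ℚ̄^{H₁}`**.

`A` over `p`, `ζ` a primitive `p`-th root of unity, `π₁ = ζ - 1`.  Every `y ≠ 0` fixed by the stabiliser of `ζ` in the
inertia group `I_A` (i.e. every nonzero element of `K₁ = ℚ̄^{H₁}`) has valuation in `v(ζ - 1)^ℤ`:

* `exists_coeffs_of_stab_fixed` : `y = ∑_{i<p-1} a_i (ζ - 1)^i` with `a_i` fixed by `I_A` (Lagrange descent
  `OrbitSpan16` along the `I_A`-orbit of `ζ - 1`, which has at most `p - 1` elements);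
* `val_eq_zpow_of_stab_fixed` : `∃ k : ℤ, v y = v (ζ - 1) ^ k` (`BreakAlg6.val_eq_zpow` with `ϖ = p`, `π' = ζ - 1`,
  `n = p - 1`).
-/
import Mathlib
import Fermat.Agent.ES.X44.TowerBase16
import Fermat.Agent.ES.X44.OrbitSpan16
import Fermat.Agent.ES.X44.BreakAlg6

set_option autoImplicit false
set_option linter.unusedSectionVars false

namespace Fermat.Agent.ES.X44.TowerOne16

open ValuationSubring Fermat.Agent.ES.X44.TowerBase16

local notation "Qb" => AlgebraicClosure ℚ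
local notation "GQ" => (AlgebraicClosure ℚ ≃ₐ[ℚ] AlgebraicClosure ℚ)

variable {p : ℕ} {A : ValuationSubring Qb} (hp : p.Prime) (hA : A.LiesOverPrime p)
  {ζ : Qb} (hζ : IsPrimitiveRoot ζ p)

include hp hζ in
/-- the orbit of `ζ - 1` under any subgroup of `G_ℚ` is finite with at most `p - 1` elements. -/
theorem orbit_zeta_sub_one (Γ : Subgroup GQ) :
    ∃ hfin : (MulAction.orbit ↥Γ (ζ - 1)).Finite, hfin.toFinset.card ≤ p - 1 := by
  classical
  have hpos : 0 < p := hp.pos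
  set T : Finset Qb := (primitiveRoots p Qb).image (fun η => η - 1) with hT
  have hsub : MulAction.orbit ↥Γ (ζ - 1) ⊆ (↑T : Set Qb) := by
    rintro x ⟨g, rfl⟩
    rw [hT, Finset.coe_image]
    refine ⟨(g : GQ) ζ, ?_, ?_⟩
    · rw [Finset.mem_coe, mem_primitiveRoots hpos]
      exact hζ.map_of_injective (f := ((g : GQ) : Qb →+* Qb)) (g : GQ).injective
    · show (g : GQ) ζ - 1 = (g : GQ) (ζ - 1)
      rw [map_sub, map_one]
  have hfin : (MulAction.orbit ↥Γ (ζ - 1)).Finite := T.finite_toSet.subset hsub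
  refine ⟨hfin, ?_⟩
  have h1 : hfin.toFinset ⊆ T := by
    rw [Set.Finite.toFinset_subset]
    exact hsub
  calc hfin.toFinset.card ≤ T.card := Finset.card_le_card h1
    _ ≤ (primitiveRoots p Qb).card := Finset.card_image_le
    _ = p - 1 := by rw [hζ.card_primitiveRoots, Nat.totient_prime hp]

include hp hζ in
/-- **Lagrange descent to the inertia field**: an element fixed by the stabiliser of `ζ` in `I_A` is a polynomial of
degree `< p - 1` in `ζ - 1` with `I_A`-fixed coefficients. -/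
theorem exists_coeffs_of_stab_fixed {y : Qb}
    (hy : ∀ g ∈ A.inertiaSubgroupIn ℚ, g ζ = ζ → g y = y) :
    ∃ a : ℕ → Qb, (∀ σ ∈ A.inertiaSubgroupIn ℚ, ∀ i, σ (a i) = a i) ∧
      y = ∑ i ∈ Finset.range (p - 1), a i * (ζ - 1) ^ i := by
  obtain ⟨hfin, hcard⟩ := orbit_zeta_sub_one hp hζ (A.inertiaSubgroupIn ℚ)
  have hstab : ∀ g : ↥(A.inertiaSubgroupIn ℚ), g • (ζ - 1) = ζ - 1 → g • y = y := by
    intro g hg
    have h1 : (g : GQ) (ζ - 1) = ζ - 1 := hg
    rw [map_sub, map_one] at h1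
    exact hy (g : GQ) g.2 (sub_left_injective h1)
  obtain ⟨a, ha, hya⟩ := OrbitSpan16.exists_coeffs_le hfin hstab hcard
  exact ⟨a, fun σ hσ i => ha ⟨σ, hσ⟩ i, hya⟩

include hp hA hζ in
/-- **The value group of `K₁ = ℚ̄^{H₁}` is `v(ζ - 1)^ℤ`.** -/
theorem val_eq_zpow_of_stab_fixed {y : Qb} (hy0 : y ≠ 0)
    (hy : ∀ g ∈ A.inertiaSubgroupIn ℚ, g ζ = ζ → g y = y) :
    ∃ k : ℤ, A.valuation y = A.valuation (ζ - 1) ^ k := by
  obtain ⟨a, ha, hya⟩ := exists_coeffs_of_stab_fixed hp hζ hy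
  have hp0 : (p : Qb) ≠ 0 := Nat.cast_ne_zero.mpr hp.ne_zero
  have hc : ∀ i : Fin (p - 1), (fun i : Fin (p - 1) => a i) i = 0 ∨
      ∃ k : ℤ, A.valuation ((fun i : Fin (p - 1) => a i) i) = A.valuation (p : Qb) ^ k := by
    intro i
    by_cases h0 : a i = 0
    · exact Or.inl h0
    · exact Or.inr (val_eq_zpow_of_fixed hp hA h0 (fun σ hσ => ha σ hσ i))
  have hsum : (∑ i : Fin (p - 1), (fun i : Fin (p - 1) => a i) i * (ζ - 1) ^ (i : ℕ)) = y := by
    rw [hya]
    exact Fin.sum_univ_eq_sum_range (fun i => a i * (ζ - 1) ^ i) (p - 1)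
  have := BreakAlg6.val_eq_zpow A.valuation (val_p_lt_one hp hA) hp0 (val_zeta_sub_one_pow hp hζ)
    (fun i : Fin (p - 1) => a i) hc (by rw [hsum]; exact hy0)
  rwa [hsum] at this

end Fermat.Agent.ES.X44.TowerOne16
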