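/-
Programme X (S44), chapter (K), concrete tower, part 4 (helper16): **the uniformiser `π'` of `K' = ℚ̄^S`**.

`A` over `p`, `ζ` a primitive `p`-th root of unity, `H = H₁` the stabiliser of `ζ` in `I_A` (`AtZeta A ζ H`),
`S ⊴ H = ⟨σ⟩ S`, `σ^p ∈ S` (`TowerGroup16.CycStep`).  Given ONE element `z` fixed by `S` and moved by `σ`
(the break certificate of (L2)):

* `val_eq_zpow_of_H_fixed` : the value group of `K₁ = ℚ̄^H` is `v(ζ - 1)^ℤ`;
* `exists_unif` : **total ramification**, `∃ π'` fixed by `S` with `v π' ^ p = v (ζ - 1)` (`TotRam6.exists_uniformizer`: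
  no immediate extension, because the residue field of `ℚ̄^{I_A}` is already that of `A`);
* `pow_sigma_ne` : `σ^i π' ≠ π'` for `p ∤ i`;
* `exists_coeffs_of_S_fixed` : `K' = ⊕_{i<p} K₁ π'^i` (Lagrange descent along the `H`-orbit of `π'`);
* `val_eq_zpow_of_S_fixed` **(k1)** : the value group of `K'` is `v(π')^ℤ`.
-/
import Mathlib
import Fermat.Agent.ES.X44.TowerOne16
import Fermat.Agent.ES.X44.TowerGroup16
import Fermat.Agent.ES.X44.TotRam6

set_option autoImplicit false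
set_option linter.unusedSectionVars false

namespace Fermat.Agent.ES.X44.TowerUnif16

open ValuationSubring Fermat.Agent.ES.X44.TowerBase16 Fermat.Agent.ES.X44.TowerOne16
  Fermat.Agent.ES.X44.TowerGroup16

local notation "Qb" => AlgebraicClosure ℚ
local notation "GQ" => (AlgebraicClosure ℚ ≃ₐ[ℚ] AlgebraicClosure ℚ)

/-- `H` is the stabiliser of `ζ` in the inertia group of `A` (`H = H₁`). -/
structure AtZeta (A : ValuationSubring Qb) (ζ : Qb) (H : Subgroup GQ) : Prop where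
  le : H ≤ A.inertiaSubgroupIn ℚ
  fix : ∀ g ∈ H, g ζ = ζ
  stab : ∀ g ∈ A.inertiaSubgroupIn ℚ, g ζ = ζ → g ∈ H

variable {p : ℕ} {A : ValuationSubring Qb} (hp : p.Prime) (hA : A.LiesOverPrime p)
  {ζ : Qb} (hζ : IsPrimitiveRoot ζ p) {H S : Subgroup GQ} {σ : GQ}
  (hH : AtZeta A ζ H) (D : CycStep p H S σ)

include hp hA hζ hH in
/-- the value group of `K₁ = ℚ̄^H` is `v(ζ - 1)^ℤ`. -/
theorem val_eq_zpow_of_H_fixed {y : Qb} (hy0 : y ≠ 0) (hy : ∀ g ∈ H, g y = y) :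
    ∃ k : ℤ, A.valuation y = A.valuation (ζ - 1) ^ k :=
  val_eq_zpow_of_stab_fixed hp hA hζ hy0 (fun g hg hgζ => hy g (hH.stab g hg hgζ))

include hp hA hζ hH D in
/-- **Total ramification**: a uniformiser of `K' = ℚ̄^S`. -/
theorem exists_unif {z : Qb} (hzS : ∀ s ∈ S, s z = z) (hσz : σ z ≠ z) :
    ∃ π' : Qb, (∀ s ∈ S, s π' = π') ∧ A.valuation π' ^ p = A.valuation (ζ - 1) := by
  have hσI : σ ∈ A.inertiaSubgroupIn ℚ := hH.le D.mem
  have hz0 : z - σ z ≠ 0 := sub_ne_zero.mpr (Ne.symm hσz)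
  obtain ⟨n, hn⟩ := exists_pow_lt hp hA hz0
  have hk₀ : A.valuation (ζ - 1) ^ ((p - 1) * n) <
      A.valuation (z - (σ.toRingEquiv : Qb ≃+* Qb) z) := by
    rw [pow_mul, val_zeta_sub_one_pow hp hζ]
    exact hn
  have hnorm : ∀ y ∈ fixedSub S,
      (∏ i ∈ Finset.range p, ((σ.toRingEquiv : Qb ≃+* Qb))^[i] y) ∈ fixedSub H := by
    intro y hy τ hτ
    have e : (∏ i ∈ Finset.range p, ((σ.toRingEquiv : Qb ≃+* Qb))^[i] y) =
        ∏ i ∈ Finset.range p, (σ ^ i) y :=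
      Finset.prod_congr rfl (fun i _ => iterate_toRingEquiv σ i y)
    rw [e]
    exact D.norm_fixed hy τ hτ
  obtain ⟨π', hπ'K, hπ'⟩ := TotRam6.exists_uniformizer A.valuation (fixedSub H) (fixedSub S)
    (fixedSub_anti D.le) (σ.toRingEquiv : Qb ≃+* Qb)
    (fun x => val_apply hσI x) (fun c hc => hc σ D.mem)
    (ϖ := ζ - 1) (fun g hg => by rw [map_sub, map_one, hH.fix g hg])
    (val_zeta_sub_one_lt_one hp hA hζ) (zeta_sub_one_ne_zero hp hζ)
    (fun c hc hc0 => val_eq_zpow_of_H_fixed hp hA hζ hH hc0 hc)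
    (fun y _ hy1 => by
      obtain ⟨c, hcA, hcfix, hc⟩ := exists_fixed_sub_lt hp hA
        ((A.valuation_le_one_iff y).mp hy1.le)
      exact ⟨c, fun g hg => hcfix g (hH.le hg), hc⟩)
    (θ := z) hzS hk₀ hp hnorm
  exact ⟨π', hπ'K, hπ'⟩

section Unif

variable {π' : Qb} (hπS : ∀ s ∈ S, s π' = π') (hπ : A.valuation π' ^ p = A.valuation (ζ - 1))

include hp hA hζ hπ in
theorem unif_ne_zero : π' ≠ 0 := by
  rintro rfl
  rw [map_zero, zero_pow hp.ne_zero] at hπ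
  exact (Valuation.ne_zero_iff A.valuation).mpr (zeta_sub_one_ne_zero hp hζ) hπ.symm

include hp hA hζ hπ in
theorem val_unif_lt_one : A.valuation π' < 1 := by
  by_contra h
  push Not at h
  have h1 : 1 ≤ A.valuation π' ^ p := one_le_pow₀ h
  rw [hπ] at h1
  exact absurd (val_zeta_sub_one_lt_one hp hA hζ) (not_lt.mpr h1)

include hp hA hζ hH D hπS hπ in
/-- `σ` moves the uniformiser. -/
theorem sigma_ne : σ π' ≠ π' := by
  intro h
  have hfix := D.fixed_of_sigma_fixed hπS h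
  obtain ⟨k, hk⟩ := val_eq_zpow_of_H_fixed hp hA hζ hH (unif_ne_zero hp hA hζ hπ) hfix
  rw [hk, ← zpow_natCast, ← zpow_mul] at hπ
  have h0 : A.valuation (ζ - 1) ≠ 0 :=
    (Valuation.ne_zero_iff A.valuation).mpr (zeta_sub_one_ne_zero hp hζ)
  have h1 : A.valuation (ζ - 1) ^ (k * (p : ℤ)) = A.valuation (ζ - 1) ^ (1 : ℤ) := by
    rw [hπ, zpow_one]
  have h2 := EisGauss6.zpow_injective_of_lt_one h0 (val_zeta_sub_one_lt_one hp hA hζ) h1
  have h3 : (p : ℤ) ∣ 1 := ⟨k, by rw [← h2, mul_comm]⟩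
  have h4 : p ∣ 1 := by exact_mod_cast h3
  exact hp.one_lt.ne' (Nat.dvd_one.mp h4)

include hp hA hζ hH D hπS hπ in
theorem pow_sigma_ne {i : ℕ} (hi : ¬ p ∣ i) : (σ ^ i) π' ≠ π' := fun h =>
  sigma_ne hp hA hζ hH D hπS hπ (D.sigma_fixed_of_pow_fixed hp hπS hi h)

include hp hA hζ hH D hπS hπ in
/-- **`K' = ⊕_{i<p} K₁ π'^i`**: Lagrange descent along the `H`-orbit of `π'`. -/
theorem exists_coeffs_of_S_fixed {y : Qb} (hy : ∀ s ∈ S, s y = y) :
    ∃ a : ℕ → Qb, (∀ τ ∈ H, ∀ i, τ (a i) = a i) ∧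
      y = ∑ i ∈ Finset.range p, a i * π' ^ i := by
  obtain ⟨hfin, hcard⟩ := D.orbit_finite hp.pos hπS
  have hstab : ∀ g : ↥H, g • π' = π' → g • y = y := by
    intro g hg
    obtain ⟨j, s, hs, hgj⟩ := D.gen (g : GQ) g.2
    have h1 : (g : GQ) π' = π' := hg
    show (g : GQ) y = y
    rw [hgj, AlgEquiv.mul_apply, hπS s hs] at h1
    rw [hgj, AlgEquiv.mul_apply, hy s hs]
    by_cases hj : p ∣ j
    · obtain ⟨q, rfl⟩ := hj
      exact D.pow_mul_apply q hy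
    · exact absurd h1 (pow_sigma_ne hp hA hζ hH D hπS hπ hj)
  obtain ⟨a, ha, hya⟩ := OrbitSpan16.exists_coeffs_le hfin hstab hcard
  exact ⟨a, fun τ hτ i => ha ⟨τ, hτ⟩ i, hya⟩

include hp hA hζ hH D hπS hπ in
/-- **(k1)**: the value group of `K' = ℚ̄^S` is `v(π')^ℤ`. -/
theorem val_eq_zpow_of_S_fixed {y : Qb} (hy0 : y ≠ 0) (hy : ∀ s ∈ S, s y = y) :
    ∃ m : ℤ, A.valuation y = A.valuation π' ^ m := by
  obtain ⟨a, ha, hya⟩ := exists_coeffs_of_S_fixed hp hA hζ hH D hπS hπ hy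
  have hc : ∀ i : Fin p, (fun i : Fin p => a i) i = 0 ∨
      ∃ k : ℤ, A.valuation ((fun i : Fin p => a i) i) = A.valuation (ζ - 1) ^ k := by
    intro i
    by_cases h0 : a i = 0
    · exact Or.inl h0
    · exact Or.inr (val_eq_zpow_of_H_fixed hp hA hζ hH h0 (fun τ hτ => ha τ hτ i))
  have hsum : (∑ i : Fin p, (fun i : Fin p => a i) i * π' ^ (i : ℕ)) = y := by
    rw [hya]
    exact Fin.sum_univ_eq_sum_range (fun i => a i * π' ^ i) p
  have := BreakAlg6.val_eq_zpow A.valuation (val_zeta_sub_one_lt_one hp hA hζ)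
    (zeta_sub_one_ne_zero hp hζ) hπ (fun i : Fin p => a i) hc (by rw [hsum]; exact hy0)
  rwa [hsum] at this

end Unif

end Fermat.Agent.ES.X44.TowerUnif16
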