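/-
Programme X (S44, spine `X44_SPINE14.md`), chapter (W1), leaf `J1Pairs` (helper11, for helper12's
`W1Factor12.locFactor_of_classes`, hypotheses `hY0`, `hY`).

A class `y` of the kernel of reduction `J¹ = j1N I.nodes I.r`, fixed by `H = H₁` (the stabiliser of `ζ_p` in
the inertia group), has the chart representative `Y = Σ (P_i - Q_i)` (`XiAN`) whose coordinates
`a_i = t_i(P_i)` are `H`-fixed (`XiBN` equivariance + `XiAUniqueN`), hence of valuation `≤ v(ζ - 1)`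
(`TowerUnif16.val_eq_zpow_of_H_fixed`).  So on every disc `Y` is the divisor of a function
`η = 1 + ϖ^m ψ`, `ψ ∈ G`, as soon as `v(ζ - 1) ≤ v(ϖ)^m`:
`η := (t_i - a_i) / t_i`, `ψ := -(a_i / ϖ^m) t_i⁻¹` on the disc of `Q̄_i`, `η := 1` elsewhere.

* `redDiv_apply_disc`, `redDiv_apply_off` : the multiplicities of `Σ [P_i]`;
* `ord_coord_sub` : on the disc of a good point `coord - s` (`s ∈ 𝔪_A`) has order `1` at its zero and `0`
  elsewhere (from `GoodExp.da` + `NodalInstHyp.val_mem`);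
* `exists_pairs` : the statement, for any instance with `InstInput I` and `GoodExp I`;
* `exists_pairs_IX` : at THE instance `GeoLit12.IX`, in the shape of `hY0`/`hY` (`ψ ∈ O1 ∧ ψ ∈ O2`);
  `Y` is chosen BEFORE `ϖ`, `m` (helper12's quantifier order).
-/
import Mathlib
import Fermat.Agent.X0.FFDict
import Fermat.Agent.ES.W33.GeoW23
import Fermat.Agent.ES.X44.GeoLit12
import Fermat.Agent.ES.X44.TowerUnif16
import Fermat.Agent.ES.W33.GoodPts23
import Fermat.Agent.ES.W33.DensBaseInstN9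

set_option autoImplicit false
set_option linter.unusedSectionVars false
set_option linter.style.haveILetI false
set_option synthInstance.maxHeartbeats 400000

noncomputable section

open AlgebraicCurve ModularCurve

namespace Fermat.Agent.ES.X44.J1Pairs11

open IntermediateField
open Fermat.Agent.X0 Fermat.Agent.X0.FF Fermat.Agent.RED.Interface4 Fermat.Agent.RED.BASE
  Fermat.Agent.RED.BASE.Hauptmodul12 Fermat.Agent.ES.RED Fermat.Agent.ES.RED.Contract8
  Fermat.Agent.ES.V19.InstNames3 Fermat.Agent.ES.V19.XiEqvInst29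
  Fermat.Agent.ES.V19.GammaF16 Fermat.Agent.ES.V19.OnePlaceRep9
  Fermat.Agent.ES.W33.XiIfaceN29 Fermat.Agent.ES.W33.PrinN29 Fermat.Agent.ES.W33.J1DivN29
  Fermat.Agent.ES.W33.GeoNames23 Fermat.Agent.ES.W33.GeoJoin23 Fermat.Agent.ES.W33.GeoJoinGa23
  Fermat.Agent.ES.W33.GeoGeneric23 Fermat.Agent.ES.W33.ChartPtsLe23 Fermat.Agent.ES.W33.GeoW23
  Fermat.Agent.ES.W33.RedDatum27 Fermat.Agent.ES.W33.RedDatumXi27
  Fermat.Agent.ES.W33.GeoJoinCore23 Fermat.Agent.ES.W33.DensBaseInstN9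
  Fermat.Agent.ES.X44.TowerBase16 Fermat.Agent.ES.X44.TowerUnif16

attribute [local instance 5000] HahnSeries.powerSeriesAlgebra SubalgebraClass.toAlgebra

local notation "Qb" => AlgebraicClosure ℚ
local notation "GQ" => (AlgebraicClosure ℚ ≃ₐ[ℚ] AlgebraicClosure ℚ)

/-! ### multiplicities of `Σ [P_i]` -/

section RedDiv

variable {K F k Ft₁ Ft₂ : Type*} [Field K] [Field F] [Algebra K F] [Field k]
  [Field Ft₁] [Algebra k Ft₁] [Field Ft₂] [Algebra k Ft₂] {s : ℕ}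
  (r : Place K F → SPt k Ft₁ Ft₂ ⊕ Fin s) {g : ℕ} (Pt : Fin g → Place K F)
  (Qbar : Fin g → SPt k Ft₁ Ft₂) (hP : ∀ i, r (Pt i) = Sum.inl (Qbar i))

include hP

theorem redDiv_apply_disc (hinj : Function.Injective Qbar) (i : Fin g) (P' : Place K F)
    (hP' : r P' = Sum.inl (Qbar i)) : redDiv Pt P' = Finsupp.single (Pt i) (1 : ℤ) P' := by
  classical
  rw [redDiv, Finsupp.finsetSum_apply, Finset.sum_eq_single i]
  · intro j _ hji
    rw [Finsupp.single_apply, if_neg]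
    intro h
    apply hji
    apply hinj
    have h1 := hP j
    rw [h, hP'] at h1
    exact (Sum.inl_injective h1).symm
  · intro h
    exact absurd (Finset.mem_univ i) h

theorem redDiv_apply_off (P' : Place K F) (hP' : ∀ j, r P' ≠ Sum.inl (Qbar j)) :
    redDiv Pt P' = 0 := by
  classical
  rw [redDiv, Finsupp.finsetSum_apply]
  refine Finset.sum_eq_zero fun j _ => ?_
  rw [Finsupp.single_apply, if_neg]
  intro h
  exact hP' j (by rw [← h]; exact hP j)

end RedDiv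

variable {p M' : ℕ} {A : ValuationSubring Qb} {I : NodalInst p M' A}

/-! ### orders of `coord - s` on the disc of a good point -/

theorem ord_coord_sub (hI : NodalInstHyp I) (E : GoodExp I) {Q : SPtW M' A} (hQ : I.Good Q)
    {a : Qb} (ha : a ∈ A.nonunits) {P₀ : Place Qb (FW p M')} (hP₀ : I.r P₀ = Sum.inl Q)
    (h0 : 0 < P₀.ord (I.coord Q - algebraMap Qb (FW p M') a))
    (P' : Place Qb (FW p M')) (hP' : I.r P' = Sum.inl Q) :
    P'.ord (I.coord Q - algebraMap Qb (FW p M') a) = Finsupp.single P₀ (1 : ℤ) P' := by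
  classical
  obtain ⟨s, hs, rfl⟩ := Fermat.Agent.ES.W33.GoodPts23.exists_of_mem_nonunits ha
  obtain ⟨P, hPQ, hP1, huniq⟩ := E.da Q hQ s hs
  have e0 : P₀ = P := huniq P₀ hP₀ h0
  subst e0
  by_cases hPP : P₀ = P'
  · subst hPP
    rw [Finsupp.single_eq_same, hP1]
  · rw [Finsupp.single_apply, if_neg hPP]
    obtain ⟨a', ha', h1⟩ := hI.val_mem Q hQ P' hP'
    have hne : a' ≠ (s : Qb) := by
      rintro rfl
      exact hPP (huniq P' hP' h1).symm
    have hc : algebraMap Qb (FW p M') (a' - (s : Qb)) ≠ 0 :=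
      (map_ne_zero _).mpr (sub_ne_zero.mpr hne)
    have h2 := ord_add_eq_of_lt P' (f := algebraMap Qb (FW p M') (a' - (s : Qb)))
      (g := I.coord Q - algebraMap Qb (FW p M') a') hc (by rw [ord_algebraMap]; exact h1)
    rw [ord_algebraMap] at h2
    rw [← h2]
    congr 1
    rw [map_sub]; ring

/-! ### valuations of `H₁`-fixed elements of `𝔪_A` -/

theorem val_le_of_H_fixed [Fact p.Prime] (hA : A.LiesOverPrime p) {ζ : Qb}
    (hζ : IsPrimitiveRoot ζ p) {Hs : Subgroup GQ} (hH : AtZeta A ζ Hs) {a : Qb}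
    (ha : a ∈ A.nonunits) (hfix : ∀ g ∈ Hs, g a = a) : A.valuation a ≤ A.valuation (ζ - 1) := by
  have hp : p.Prime := Fact.out
  rcases eq_or_ne a 0 with rfl | ha0
  · rw [map_zero]; exact zero_le
  obtain ⟨k, hk⟩ := val_eq_zpow_of_H_fixed hp hA hζ hH ha0 hfix
  have hlt : A.valuation a < 1 := (ValuationSubring.mem_nonunits_iff (A := A)).mp ha
  have hz1 : A.valuation (ζ - 1) < 1 := val_zeta_sub_one_lt_one hp hA hζ
  have hz0 : A.valuation (ζ - 1) ≠ 0 :=
    (Valuation.ne_zero_iff _).mpr (zeta_sub_one_ne_zero hp hζ)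
  rcases le_or_gt k 0 with hk0 | hk0
  · -- `k ≤ 0` is impossible
    exfalso
    obtain ⟨j, rfl⟩ : ∃ j : ℕ, k = -(j : ℤ) := ⟨(-k).toNat, by omega⟩
    rw [zpow_neg, zpow_natCast] at hk
    have h1 : A.valuation (ζ - 1) ^ j ≤ 1 := pow_le_one₀ zero_le hz1.le
    have h2 : (1 : _) ≤ (A.valuation (ζ - 1) ^ j)⁻¹ :=
      (one_le_inv₀ (zero_lt_iff.mpr (pow_ne_zero j hz0))).mpr h1
    rw [← hk] at h2
    exact absurd hlt (not_lt.mpr h2)
  · obtain ⟨j, rfl⟩ : ∃ j : ℕ, k = 1 + (j : ℤ) := ⟨(k - 1).toNat, by omega⟩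
    rw [hk, zpow_add₀ hz0, zpow_one, zpow_natCast]
    calc A.valuation (ζ - 1) * A.valuation (ζ - 1) ^ j ≤ A.valuation (ζ - 1) * 1 :=
          mul_le_mul_right (pow_le_one₀ zero_le hz1.le) _
      _ = A.valuation (ζ - 1) := mul_one _

/-! ### the pairs -/

/-- **`J1Pairs`**, at any instance with `InstInput` and `GoodExp`. -/
theorem exists_pairs (n e M' : ℕ) [NeZero n] [NeZero M'] (p : ℕ) [Fact p.Prime]
    (hpM : ¬ p ∣ M') (hb : BaseHyp n e) (hnM : n ∣ M') (A : ValuationSubring Qb)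
    (hA : A.LiesOverPrime p) {I : NodalInst p M' A} (H : InstInput I) (E : GoodExp I)
    {ζ : Qb} (hζ : IsPrimitiveRoot ζ p) {Hs : Subgroup GQ} (hH : AtZeta A ζ Hs)
    {y : JZero (M' * p)} (hy : y ∈ j1N I.nodes I.r) (hfix : ∀ τ ∈ Hs, τ • y = y) :
    ∃ Y : Divisor Qb (FW p M'), IsRep y Y ∧
      (∀ (P : Place Qb (FW p M')) (z : Fin I.s), I.r P = Sum.inr z → Y P = 0) ∧
      ∀ (ϖ : Qb) (m : ℕ), A.valuation (ζ - 1) ≤ A.valuation ϖ ^ m →
        ∀ Q : SPtW M' A, ∃ η ψ : FW p M', ψ ∈ I.G ∧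
          η = 1 + algebraMap Qb (FW p M') ϖ ^ m * ψ ∧ η ≠ 0 ∧
          ∀ P : Place Qb (FW p M'), I.r P = Sum.inl Q → P.ord η = Y P := by
  classical
  have hp : p.Prime := Fact.out
  have hI := H.hyp
  have hin := inputs0V n e M' p hpM hb hnM A hA
  have hr := hrV n e M' p hpM hb hnM A hA
  have : IsAlgClosed (kA A) := isAlgClosed_kA A
  have HL := Fermat.Agent.ES.V19.LHypFt13.lHyp_Ft n e M' p hpM (tMem_of_dvd hb hnM)
    (tGenBase' hb) A hA hr
  have hR := Fermat.Agent.ES.V19.LHypFt13.riemann_inequality_Ft n e M' p hpM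
    (tMem_of_dvd hb hnM) (tGenBase' hb) A hA hr
  have : Infinite (Place (kW A) (FtW M' A)) :=
    Fermat.Agent.ES.V19.GoodCofinite16.infinite_place hin.gent hin.sep
  have : NeZero (M' * p) := ⟨Nat.mul_ne_zero (NeZero.ne M') (Fact.out : p.Prime).ne_zero⟩
  have HR := redHypN_main n e (M' * p) hb (Dvd.dvd.mul_right hnM p)
  -- the chart
  obtain ⟨Qbar, hinj, -, hmem, hconst⟩ := exists_chart_points_le HL hR HL hR H.b1.1 I.nodes
    hI.nodes_inj (goodOne_infinite hI) (goodOne_ne_node hI) (goodTwo_infinite hI)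
    (goodTwo_ne_node hI) H.b1.2
  have hgood : ∀ i, I.Good (Qbar i) := fun i => by
    rcases hmem i with ⟨Q, hQ, h⟩ | ⟨Q, hQ, h⟩
    · rw [h]; exact hQ
    · rw [h]; exact hQ
  obtain ⟨Qs₁, hQs₁, hQs₁ne⟩ :
      ∃ Q ∈ goodOne I, Q ∉ (Finset.univ.image fun i => Qbar i).preimage Sum.inl
        Sum.inl_injective.injOn :=
    (goodOne_infinite hI).exists_notMem_finset _
  have hQs : I.Good (Sum.inl Qs₁) := hQs₁
  have hne : ∀ i, (Sum.inl Qs₁ : SPtW M' A) ≠ Qbar i := fun i h => by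
    apply hQs₁ne
    rw [Finset.mem_preimage, Finset.mem_image]
    exact ⟨i, Finset.mem_univ i, h.symm⟩
  have Hχ := chartHypN_of hI hinj hgood hconst hQs hne
  obtain ⟨f, hf, Heq⟩ := exists_eqvHypN (Qbar := Qbar) hI hgood
  have HD := Fermat.Agent.ES.W33.RedDatumN5.redDatum_of_nodal hI.ctx HR Hχ HL HL
  have hXA := xiAN_of HD
  have hXU := xiAUniqueN_of HD
  have hXB := xiBN_of HD (Heq f dvd_rfl)
  -- the coordinates of `y`
  obtain ⟨a, ⟨Pt, hPt, hPt0, hrep⟩, ha⟩ := hXA y hy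
  -- they are fixed by `H₁`
  have hafix : ∀ i, ∀ τ ∈ Hs, τ (a i) = a i := by
    intro i τ hτ
    have hτΓ : τ ∈ gammaF A p f := inertia_le_gammaF f (hH.le hτ)
    have h1 := hXB.2.2.2 (⟨τ, hτΓ⟩ : ↥(gammaF A p f)) y a ⟨Pt, hPt, hPt0, hrep⟩
    have h2 : ((⟨τ, hτΓ⟩ : ↥(gammaF A p f)) • y : JZero (M' * p)) = y := hfix τ hτ
    rw [h2] at h1
    exact congrFun ((hXU y a Pt hPt hPt0 hrep).2 _ h1) i
  have haval0 : ∀ i, A.valuation (a i) ≤ A.valuation (ζ - 1) := fun i =>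
    val_le_of_H_fixed hA hζ hH (ha i) (hafix i)
  -- the representative
  refine ⟨redDiv Pt - (chartOfN I Qbar).E0, hrep, ?_, ?_⟩
  · intro P z hz
    have hoff : OffNodes I.r (redDiv Pt - (chartOfN I Qbar).E0) :=
      offNodes_sub (offNodes_redDiv hPt) (offNodes_redDiv Hχ.centre_red)
    by_contra h
    exact hoff P (Finsupp.mem_support_iff.mpr h) z hz
  intro ϖ m hm
  have haval : ∀ i, A.valuation (a i) ≤ A.valuation ϖ ^ m := fun i => (haval0 i).trans hm
  have hϖm : A.valuation ϖ ^ m ≠ 0 := by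
    intro h0
    rw [h0] at hm
    exact (Valuation.ne_zero_iff _).mpr (zeta_sub_one_ne_zero hp hζ) (le_antisymm hm zero_le)
  have hquot : ∀ i, a i / ϖ ^ m ∈ A := by
    intro i
    apply (A.valuation_le_one_iff _).mp
    rw [map_div₀, map_pow]
    exact (div_le_one₀ (zero_lt_iff.mpr hϖm)).mpr (haval i)
  have hϖ0 : ϖ ^ m ≠ 0 := by
    intro h0
    apply hϖm
    rw [← map_pow, h0, map_zero]
  · intro Q
    by_cases hQ : ∃ i, Q = Qbar i
    · obtain ⟨i, rfl⟩ := hQ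
      have ht0 : I.coord (Qbar i) ≠ 0 := by
        intro h0
        have h1 := hI.centre_zero _ (hgood i)
        rw [h0] at h1
        simp at h1
      have htu : (I.coord (Qbar i))⁻¹ ∈ I.G := by
        have h1 := E.tau_unit (Qbar i) (hgood i) 0 (Ideal.zero_mem _)
        rwa [ZeroMemClass.coe_zero, map_zero, sub_zero] at h1
      have hnum0 : I.coord (Qbar i) - algebraMap Qb (FW p M') (a i) ≠ 0 := by
        intro h0
        have h1 := hPt0 i
        rw [show (chartOfN I Qbar).t i = I.coord (Qbar i) from rfl, h0] at h1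
        simp at h1
      refine ⟨(I.coord (Qbar i) - algebraMap Qb (FW p M') (a i)) * (I.coord (Qbar i))⁻¹,
        -algebraMap Qb (FW p M') (a i / ϖ ^ m) * (I.coord (Qbar i))⁻¹, ?_, ?_, ?_, ?_⟩
      · exact I.G.mul_mem (I.G.neg_mem (hI.ctx.const_mem ⟨_, hquot i⟩)) htu
      · have hc : algebraMap Qb (FW p M') ϖ ^ m * algebraMap Qb (FW p M') (a i / ϖ ^ m) =
            algebraMap Qb (FW p M') (a i) := by
          rw [← map_pow, ← map_mul, mul_div_cancel₀ _ hϖ0]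
        have e1 : algebraMap Qb (FW p M') ϖ ^ m *
            (-algebraMap Qb (FW p M') (a i / ϖ ^ m) * (I.coord (Qbar i))⁻¹) =
            -(algebraMap Qb (FW p M') (a i) * (I.coord (Qbar i))⁻¹) := by
          rw [← hc]; ring
        rw [e1, sub_mul, mul_inv_cancel₀ ht0]
        ring
      · exact mul_ne_zero hnum0 (inv_ne_zero ht0)
      · intro P' hP'
        rw [P'.ord_mul hnum0 (inv_ne_zero ht0), Place.ord_inv,
          ord_coord_sub hI E (hgood i) (ha i) (hPt i) (hPt0 i) P' hP']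
        have hc0 : 0 < (I.centre (Qbar i)).ord
            (I.coord (Qbar i) - algebraMap Qb (FW p M') 0) := by
          rw [map_zero, sub_zero]; exact hI.centre_zero _ (hgood i)
        have h2 := ord_coord_sub hI E (hgood i) (a := 0)
          (by rw [ValuationSubring.mem_nonunits_iff, map_zero]; exact zero_lt_one)
          (hI.centre_red _ (hgood i)) hc0 P' hP'
        rw [map_zero, sub_zero] at h2
        rw [h2, Finsupp.sub_apply, redDiv_apply_disc I.r Pt Qbar hPt hinj i P' hP']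
        have h3 : (chartOfN I Qbar).E0 P' = Finsupp.single (I.centre (Qbar i)) (1 : ℤ) P' :=
          redDiv_apply_disc I.r (fun j => I.centre (Qbar j)) Qbar Hχ.centre_red hinj i P' hP'
        rw [h3]
        ring
    · push Not at hQ
      refine ⟨1, 0, I.G.zero_mem, by rw [mul_zero, add_zero], one_ne_zero, ?_⟩
      intro P' hP'
      have hoffQ : ∀ j, I.r P' ≠ Sum.inl (Qbar j) := fun j h => by
        rw [hP'] at h
        exact hQ j (Sum.inl_injective h)
      rw [Finsupp.sub_apply, redDiv_apply_off I.r Pt Qbar hPt P' hoffQ]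
      have h3 : (chartOfN I Qbar).E0 P' = 0 :=
        redDiv_apply_off I.r (fun j => I.centre (Qbar j)) Qbar Hχ.centre_red P' hoffQ
      rw [h3]
      simp

/-- **`J1Pairs` at THE instance**, in the shape of `hY0`, `hY` of `W1Factor12.locFactor_of_classes`
(with `t + 1 = m`). -/
theorem exists_pairs_IX (M' : ℕ) [NeZero M'] (p : ℕ) [Fact p.Prime] (hpM : ¬ p ∣ M')
    (h4M : 4 ∣ M') (A : ValuationSubring Qb) (hA : A.LiesOverPrime p) (hp2 : p ≠ 2)
    {ζ : Qb} (hζ : IsPrimitiveRoot ζ p) {Hs : Subgroup GQ} (hH : AtZeta A ζ Hs)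
    {y : JZero (M' * p)}
    (hy : y ∈ j1N (Fermat.Agent.ES.X44.GeoLit12.IX M' p hpM h4M A hA).nodes
      (Fermat.Agent.ES.X44.GeoLit12.IX M' p hpM h4M A hA).r)
    (hfix : ∀ τ ∈ Hs, τ • y = y) :
    ∃ Y : Divisor Qb (FW p M'), IsRep y Y ∧
      (∀ (P : Place Qb (FW p M')) (z : Fin (Fermat.Agent.ES.X44.GeoLit12.IX M' p hpM h4M A hA).s),
        (Fermat.Agent.ES.X44.GeoLit12.IX M' p hpM h4M A hA).r P = Sum.inr z → Y P = 0) ∧
      ∀ (ϖ : Qb) (m : ℕ), ϖ ∈ A → ϖ ≠ 0 → A.valuation (ζ - 1) ≤ A.valuation ϖ ^ m →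
        ∀ Q : SPtW M' A, (Fermat.Agent.ES.X44.GeoLit12.IX M' p hpM h4M A hA).nodes.IsSmooth Q →
          ∃ η ψ : FW p M', ψ ∈ Fermat.Agent.ES.W33.NodalDefs3.O1 M' p A ∧
            ψ ∈ Fermat.Agent.ES.W33.NodalDefs3.O2 M' p A ∧
            η = 1 + algebraMap Qb (FW p M') ϖ ^ m * ψ ∧ η ≠ 0 ∧
            ∀ P : Place Qb (FW p M'),
              (Fermat.Agent.ES.X44.GeoLit12.IX M' p hpM h4M A hA).r P = Sum.inl Q →
                P.ord η = Y P := by
  haveI : NeZero 4 := ⟨by norm_num⟩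
  haveI := Fermat.Agent.ES.W33.GeoInput23.nonempty_place M' p h4M
  obtain ⟨Y, hrep, hY0, hY⟩ := exists_pairs 4 8 M' p hpM baseHyp_four h4M A hA
    (Fermat.Agent.ES.X44.GeoLit12.instInput_IX M' p hpM h4M A hA hp2)
    (Fermat.Agent.ES.W33.GoodPts23.goodExp_goodInst
      (Fermat.Agent.ES.W33.GeoInput23.base48 M' p hpM h4M A hA)) hζ hH hy hfix
  refine ⟨Y, hrep, hY0, fun ϖ m _ _ hm Q _ => ?_⟩
  obtain ⟨η, ψ, hψ, h1, h2, h3⟩ := hY ϖ m hm Q
  have hψ' : ψ ∈ Fermat.Agent.ES.W33.NodalDefs3.GN M' p A := hψ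
  exact ⟨η, ψ, Fermat.Agent.ES.W33.NodalDefs3.GN_le_O1 M' p A hψ',
    Fermat.Agent.ES.W33.NodalDefs3.GN_le_O2 M' p A hψ', h1, h2, h3⟩

end Fermat.Agent.ES.X44.J1Pairs11
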