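/-
Programme X (S44), chapter (QP), leaf K1-a (helper18): **Kähler differentials of a function field in one variable
in ANY characteristic**, for a SEPARATING transcendental element.

`F / K` fields, `x ∈ F` transcendental over `K` with `F / K⟮x⟯` (algebraic and) separable.  Then `Ω[F⁄K]` is free of
rank one over `F`, generated by `D x` (`exists_equiv`, `D_ne_zero`, `span_D`, `finrank_kaehler`).
Characteristic-free version of `X0/FFDiff1` (which uses `CharZero` only to get separability).

Also: `lift_smul` — every `K`-derivation `δ : F → M` into an `F`-module respects the relations of `Ω[F⁄K]`: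
`D g = c • D t → δ g = c • δ t` (the chain rule used for `θ = q d/dq` on `q`-expansions).
-/
import Mathlib

set_option autoImplicit false
set_option linter.style.haveILetI false
set_option linter.unusedSectionVars false

namespace Fermat.Agent.ES.X44.KaehlerSep18

open KaehlerDifferential Polynomial IntermediateField TensorProduct

variable {K F : Type*} [Field K] [Field F] [Algebra K F]

section Setup

variable (x : F) (hx : Transcendental K x)

/-- `F` as an algebra over `K[X]` via `X ↦ x`. -/
@[reducible] noncomputable def polyAlgebra : Algebra K[X] F := (aeval x).toRingHom.toAlgebra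

theorem algebraMap_apply (p : K[X]) :
    letI := polyAlgebra (K := K) x
    algebraMap K[X] F p = aeval x p := rfl

theorem isScalarTower_poly :
    letI := polyAlgebra (K := K) x
    IsScalarTower K K[X] F := by
  letI := polyAlgebra (K := K) x
  refine IsScalarTower.of_algebraMap_eq fun a => ?_
  rw [algebraMap_apply, Polynomial.algebraMap_apply, aeval_C]
  simp

include hx in
theorem faithfulSMul_poly :
    letI := polyAlgebra (K := K) x
    FaithfulSMul K[X] F := by
  letI := polyAlgebra (K := K) x
  rw [faithfulSMul_iff_algebraMap_injective]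
  exact transcendental_iff_injective.mp hx

end Setup

section Etale

variable (x : F) (hx : Transcendental K x) (hsep : Algebra.IsSeparable K⟮x⟯ F)

include hx hsep in
/-- `F` is formally étale over `K[X]` (via `X ↦ x`). -/
theorem formallyEtale_poly :
    letI := polyAlgebra (K := K) x
    Algebra.FormallyEtale K[X] F := by
  letI := polyAlgebra (K := K) x
  haveI := isScalarTower_poly (K := K) x
  haveI := faithfulSMul_poly x hx
  letI : Algebra (RatFunc K) F := RatFunc.liftAlgebra K F
  haveI : IsScalarTower K[X] (RatFunc K) F := RatFunc.isScalarTower_liftAlgebra K F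
  -- `RatFunc K ≃ K⟮x⟯`, compatibly with the maps to `F`
  let e : RatFunc K ≃ₐ[K] K⟮x⟯ := RatFunc.algEquivOfTranscendental x hx
  have he : (algebraMap (RatFunc K) F).comp ((e.symm : K⟮x⟯ ≃ₐ[K] RatFunc K) : K⟮x⟯ ≃+* RatFunc K) =
      ((RingEquiv.refl F : F ≃+* F) : F →+* F).comp (algebraMap K⟮x⟯ F) := by
    have h1 : ∀ r : RatFunc K, algebraMap (RatFunc K) F r = algebraMap K⟮x⟯ F (e r) := by
      have h2 : (algebraMap (RatFunc K) F) =
          (algebraMap K⟮x⟯ F).comp (e : RatFunc K →+* K⟮x⟯) := by
        apply IsLocalization.ringHom_ext (nonZeroDivisors K[X])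
        refine RingHom.ext fun g => ?_
        show algebraMap (RatFunc K) F (algebraMap K[X] (RatFunc K) g) =
          algebraMap K⟮x⟯ F (e (algebraMap K[X] (RatFunc K) g))
        rw [← IsScalarTower.algebraMap_apply K[X] (RatFunc K) F, algebraMap_apply,
          RatFunc.algEquivOfTranscendental_algebraMap]
        show aeval x g = ((aeval (AdjoinSimple.gen K x) g : K⟮x⟯) : F)
        rw [← IntermediateField.coe_val, ← aeval_algHom_apply]
        simp
      intro r
      rw [h2]
      rfl
    refine RingHom.ext fun u => ?_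
    show algebraMap (RatFunc K) F (e.symm u) = algebraMap K⟮x⟯ F u
    rw [h1, AlgEquiv.apply_symm_apply]
  haveI : Algebra.IsSeparable (RatFunc K) F :=
    Algebra.IsSeparable.of_equiv_equiv
      ((e.symm : K⟮x⟯ ≃ₐ[K] RatFunc K) : K⟮x⟯ ≃+* RatFunc K) (RingEquiv.refl F) he
  haveI : Algebra.FormallyEtale (RatFunc K) F := Algebra.FormallyEtale.of_isSeparable _ _
  haveI : Algebra.FormallyEtale K[X] (RatFunc K) :=
    Algebra.FormallyEtale.of_isLocalization (nonZeroDivisors K[X])
  exact Algebra.FormallyEtale.comp K[X] (RatFunc K) F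

end Etale

section Main

variable (x : F) (hx : Transcendental K x) (hsep : Algebra.IsSeparable K⟮x⟯ F)

include hx hsep in
/-- The comparison isomorphism `F ≃ Ω[F⁄K]`, `1 ↦ D x`. -/
theorem exists_equiv :
    ∃ e : F ≃ₗ[F] Ω[F⁄K], e 1 = D K F x := by
  letI := polyAlgebra (K := K) x
  haveI := isScalarTower_poly (K := K) x
  haveI := formallyEtale_poly x hx hsep
  let e1 : F ⊗[K[X]] Ω[K[X]⁄K] ≃ₗ[F] Ω[F⁄K] := tensorKaehlerEquivOfFormallyEtale K K[X] F
  let e2 : F ⊗[K[X]] Ω[K[X]⁄K] ≃ₗ[F] F ⊗[K[X]] K[X] :=
    TensorProduct.AlgebraTensorModule.congr (LinearEquiv.refl F F)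
      (KaehlerDifferential.polynomialEquiv K)
  let e3 : F ⊗[K[X]] K[X] ≃ₗ[F] F := TensorProduct.AlgebraTensorModule.rid K[X] F F
  refine ⟨(e3.symm.trans e2.symm).trans e1, ?_⟩
  have h1 : e3.symm 1 = (1 : F) ⊗ₜ[K[X]] (1 : K[X]) := by
    rw [LinearEquiv.symm_apply_eq]
    simp [e3]
  have h2 : e2.symm ((1 : F) ⊗ₜ[K[X]] (1 : K[X])) = (1 : F) ⊗ₜ[K[X]] D K K[X] X := by
    rw [LinearEquiv.symm_apply_eq]
    simp [e2, KaehlerDifferential.polynomialEquiv_D]
  have h3 : e1 ((1 : F) ⊗ₜ[K[X]] D K K[X] X) = D K F x := by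
    simp only [e1, tensorKaehlerEquivOfFormallyEtale_apply, mapBaseChange_tmul, one_smul, map_D]
    congr 1
    rw [algebraMap_apply, aeval_X]
  simp only [LinearEquiv.trans_apply]
  rw [h1, h2, h3]

include hx hsep in
/-- `D x` is nonzero. -/
theorem D_ne_zero : D K F x ≠ 0 := by
  obtain ⟨e, he⟩ := exists_equiv x hx hsep
  rw [← he]
  exact (LinearEquiv.map_ne_zero_iff e).mpr one_ne_zero

include hx hsep in
/-- `D x` spans the Kähler differentials. -/
theorem span_D : Submodule.span F {D K F x} = ⊤ := by
  obtain ⟨e, he⟩ := exists_equiv x hx hsep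
  rw [eq_top_iff]
  intro ω _
  rw [Submodule.mem_span_singleton]
  refine ⟨e.symm ω, ?_⟩
  rw [← he, ← map_smul, smul_eq_mul, mul_one, LinearEquiv.apply_symm_apply]

include hx hsep in
/-- Every differential is a multiple of `D x`. -/
theorem exists_smul_D (ω : Ω[F⁄K]) : ∃ f : F, ω = f • D K F x := by
  have h : ω ∈ Submodule.span F {D K F x} := by rw [span_D x hx hsep]; trivial
  obtain ⟨f, hf⟩ := Submodule.mem_span_singleton.mp h
  exact ⟨f, hf.symm⟩

include hx hsep in
theorem finrank_kaehler : Module.finrank F Ω[F⁄K] = 1 := by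
  obtain ⟨e, -⟩ := exists_equiv x hx hsep
  rw [← e.finrank_eq, Module.finrank_self]

include hx hsep in
theorem nontrivial_kaehler : Nontrivial Ω[F⁄K] :=
  ⟨⟨D K F x, 0, D_ne_zero x hx hsep⟩⟩

include hx hsep in
/-- any nonzero differential spans. -/
theorem span_eq_top_of_ne_zero {ω : Ω[F⁄K]} (hω : ω ≠ 0) : Submodule.span F {ω} = ⊤ := by
  obtain ⟨f, hf⟩ := exists_smul_D x hx hsep ω
  have hf0 : f ≠ 0 := by
    rintro rfl
    exact hω (by rw [hf, zero_smul])
  rw [eq_top_iff, ← span_D x hx hsep, Submodule.span_singleton_le_iff_mem,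
    Submodule.mem_span_singleton]
  exact ⟨f⁻¹, by rw [hf, smul_smul, inv_mul_cancel₀ hf0, one_smul]⟩

end Main

/-- **chain rule for an arbitrary derivation**: relations in `Ω[F⁄K]` hold for every `K`-derivation of `F`. -/
theorem lift_smul {M : Type*} [AddCommGroup M] [Module K M] [Module F M] [IsScalarTower K F M]
    (δ : Derivation K F M) {g t c : F} (h : D K F g = c • D K F t) : δ g = c • δ t := by
  have := congrArg δ.liftKaehlerDifferential h
  rwa [map_smul, Derivation.liftKaehlerDifferential_comp_D,
    Derivation.liftKaehlerDifferential_comp_D] at this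

end Fermat.Agent.ES.X44.KaehlerSep18
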