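/-
Programme X (S44), chapter (QP), leaf K1-b (helper18): **differentials at the places of a function field in one
variable in ANY characteristic** (Prelude API `AlgebraicCurve.Place`, `dCoord`, `DCoordGenerates`,
`differentialCoeff`, `ordDifferential`).  Characteristic-free version of `X0/FFDiff`.

`K` algebraically closed, `F / K` a field, `x ∈ F` a SEPARATING transcendental element
(`Transcendental K x`, `Algebra.IsSeparable K⟮x⟯ F`), `v : Place K F`.

* `D_uniformizer_ne_zero` : `D ϖ ≠ 0` for the Prelude's uniformizer (the derivation `d/dX ∘ expand_v` takes the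
  value `1` at `ϖ`);
* `dCoordGenerates`       : every place has a generating coordinate differential;
* `differentialCoeff_D_mem`, `ord_differentialCoeff_D_nonneg` : `da` is regular at `v` for `a` regular at `v`;
* `differentialCoeff_D_unit` : for `v.ord a = 1` the coefficient of `da` is a unit at `v`
  (`ordDifferential_D_of_ord_eq_one : ordDifferential (D a) = 0`);
* `differentialCoeff_D_eq` : the Leibniz expansion `dy = (e u ϖ^(e-1) + ϖ^e δ_u) dϖ` for `y = u ϖ^e`;
* `ordDifferential_D_of_ord_ne_zero` : tame local Riemann–Hurwitz, when `(e : F) ≠ 0`;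
* `dlog_coeff_mem` : **if the characteristic divides `ord_v y` then `dy / y` is regular at `v`.**
-/
import Mathlib
import Fermat.Prelude.Def_AlgebraicCurve_CanonicalDivisor
import Fermat.Agent.X0.FFDiff
import Fermat.Agent.ES.X44.KaehlerSep18

set_option autoImplicit false
set_option linter.style.haveILetI false
set_option linter.unusedSectionVars false

namespace Fermat.Agent.ES.X44.KaehlerPlace18

open AlgebraicCurve IsLocalRing IntermediateField Polynomial KaehlerDifferential
open Fermat.Agent.X0.FF Fermat.Agent.ES.X44.KaehlerSep18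

variable {K F : Type*} [Field K] [Field F] [Algebra K F] [IsAlgClosed K] {x : F}
  (hx : Transcendental K x) (hsep : Algebra.IsSeparable K⟮x⟯ F)

include hsep in
theorem isAlgebraic_of_sep : Algebra.IsAlgebraic K⟮x⟯ F := Algebra.IsSeparable.isAlgebraic _ _

include hx hsep in
/-- the residue field of every place is `K`. -/
theorem exists_sub_mem (v : Place K F) (a : v.toValuationSubring) :
    ∃ c : K, a - algebraMap K v.toValuationSubring c ∈ maximalIdeal v.toValuationSubring :=
  ffp_exists_sub_mem_maximalIdeal v x (isAlgebraic_of_sep hsep) a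

include hx hsep in
/-- **`D ϖ ≠ 0`** for the uniformizer of the Prelude. -/
theorem D_uniformizer_ne_zero (v : Place K F) :
    D K F ((ffu v : v.toValuationSubring) : F) ≠ 0 := by
  classical
  intro h0
  set O := v.toValuationSubring with hO
  set t : O := ffu v with ht
  have hirr : Irreducible t := ffu_irreducible v
  have hres := exists_sub_mem hx hsep v
  -- the relation in `Ω[O⁄K]` up to torsion
  have hm0 : KaehlerDifferential.map K K O F (D K O t) = 0 := by
    rw [KaehlerDifferential.map_D]
    exact h0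
  obtain ⟨c, hc⟩ :=
    (IsLocalizedModule.eq_zero_iff (nonZeroDivisors O) (KaehlerDifferential.map K K O F)).mp hm0
  -- the power series derivation
  let φ : O →ₐ[K] PowerSeries K := expandHom hirr hres
  letI : Algebra O (PowerSeries K) := φ.toRingHom.toAlgebra
  haveI : IsScalarTower K O (PowerSeries K) :=
    IsScalarTower.of_algebraMap_eq (fun c => (φ.commutes c).symm)
  let dd : Derivation K O (PowerSeries K) := (PowerSeries.derivative K).compAlgebraMap O
  have hdd : ∀ b : O, dd b = PowerSeries.derivative K (φ b) := fun b => rfl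
  have hsm : ∀ (b : O) (q : PowerSeries K), b • q = φ b * q := fun b q => rfl
  have key := congrArg dd.liftKaehlerDifferential hc
  rw [map_zero, Submonoid.smul_def, map_smul, Derivation.liftKaehlerDifferential_comp_D, hdd, hsm]
    at key
  have hφt : φ t = PowerSeries.X := expandHom_self hirr hres
  rw [hφt, PowerSeries.derivative_X, mul_one] at key
  have : (c : O) = 0 := expandHom_injective hirr hres (by rw [key, map_zero])
  exact nonZeroDivisors.ne_zero c.2 this

include hx hsep in
/-- Every place has a generating coordinate differential. -/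
theorem dCoordGenerates (v : Place K F) : v.DCoordGenerates :=
  ⟨by
    rw [ffu_dCoord]
    exact span_eq_top_of_ne_zero x hx hsep (D_uniformizer_ne_zero hx hsep v)⟩

include hx hsep in
theorem nontrivial_kaehler' : Nontrivial Ω[F⁄K] := nontrivial_kaehler x hx hsep

include hx hsep in
/-- **Derivative lemma**: the coefficient of `D a` is regular at `v` if `a` is. -/
theorem differentialCoeff_D_mem (v : Place K F) {a : F} (ha : a ∈ v.toValuationSubring) :
    v.differentialCoeff (D K F a) ∈ v.toValuationSubring := by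
  haveI := dCoordGenerates hx hsep v
  have h := (v.differentialCoeff_smul_dCoord (D K F a)).symm
  rw [ffu_dCoord] at h
  obtain ⟨b, hb⟩ := ffv_deriv_mem (K := K) (O := v.toValuationSubring) (F := F)
    (ffu_irreducible v) (exists_sub_mem hx hsep v)
    ⟨a, ha⟩ (v.differentialCoeff (D K F a)) h
  rw [← hb]
  exact b.2

include hx hsep in
theorem ord_differentialCoeff_D_nonneg (v : Place K F) {a : F} (ha : 0 ≤ v.ord a) :
    0 ≤ v.ord (v.differentialCoeff (D K F a)) :=
  ffp_ord_nonneg_of_mem v (differentialCoeff_D_mem hx hsep v (ffp_mem_of_ord_nonneg v ha))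

include hx hsep in
/-- **the Leibniz expansion at a place**: `y = u ϖ^e` gives `dy = (u e ϖ^(e-1) + ϖ^e δ) dϖ` with `δ` regular. -/
theorem differentialCoeff_D_eq (v : Place K F) {y : F} (hy0 : y ≠ 0) :
    ∃ (u : v.toValuationSubringˣ) (δ : F), δ ∈ v.toValuationSubring ∧
      y = ((u : v.toValuationSubring) : F) * ((ffu v : v.toValuationSubring) : F) ^ (v.ord y) ∧
      v.differentialCoeff (D K F y) =
        ((u : v.toValuationSubring) : F) *
            (((v.ord y : ℤ) : F) * ((ffu v : v.toValuationSubring) : F) ^ (v.ord y - 1)) +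
          ((ffu v : v.toValuationSubring) : F) ^ (v.ord y) * δ := by
  haveI := dCoordGenerates hx hsep v
  haveI := nontrivial_kaehler' hx hsep
  set e : ℤ := v.ord y with he
  set t : F := ((ffu v : v.toValuationSubring) : F) with ht
  obtain ⟨u, hu⟩ := v.exists_unit_mul_zpow hy0 (ffu_irreducible v)
  rw [← he, ← ht] at hu
  set uF : F := ((u : v.toValuationSubring) : F) with huF
  set δ : F := v.differentialCoeff (D K F uF) with hδ
  have hδmem : δ ∈ v.toValuationSubring :=
    differentialCoeff_D_mem hx hsep v (u : v.toValuationSubring).2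
  have hDu : D K F uF = δ • D K F t := by
    have := (v.differentialCoeff_smul_dCoord (D K F uF)).symm
    rwa [ffu_dCoord] at this
  have hDy : D K F y = (uF * ((e : F) * t ^ (e - 1)) + t ^ e * δ) • D K F t := by
    rw [hu, Derivation.leibniz, Derivation.leibniz_zpow, hDu]
    rw [add_smul, mul_smul, mul_smul, mul_smul]
    congr 2
    rw [← Int.cast_smul_eq_zsmul F e]
  refine ⟨u, δ, hδmem, hu, ?_⟩
  apply v.differentialCoeff_unique
  rw [ffu_dCoord]
  exact hDy

include hx hsep in
/-- for a uniformizer `a` the coefficient of `da` is a unit at `v`. -/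
theorem ordDifferential_D_of_ord_eq_one (v : Place K F) {a : F} (ha : v.ord a = 1) :
    v.ordDifferential (D K F a) = 0 := by
  have ha0 : a ≠ 0 := by rintro rfl; simp at ha
  obtain ⟨u, δ, hδ, -, hcoeff⟩ := differentialCoeff_D_eq hx hsep v ha0
  rw [Place.ordDifferential, hcoeff, ha]
  set t : F := ((ffu v : v.toValuationSubring) : F) with ht
  have ht0 : t ≠ 0 := ffu_ne_zero v
  have htord : v.ord t = 1 := ffu_ord v
  set uF : F := ((u : v.toValuationSubring) : F) with huF
  have hu0 : uF ≠ 0 := by
    rw [huF]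
    simp [ne_eq, ZeroMemClass.coe_eq_zero]
  have huord : v.ord uF = 0 := v.ord_coe_unit u
  have e1 : uF * (((1 : ℤ) : F) * t ^ ((1 : ℤ) - 1)) + t ^ (1 : ℤ) * δ = uF + t * δ := by
    rw [sub_self, zpow_zero, zpow_one, Int.cast_one, mul_one, mul_one]
  rw [e1]
  rcases eq_or_ne δ 0 with hδ0 | hδ0
  · rw [hδ0, mul_zero, add_zero, huord]
  · have h2ord : v.ord (t * δ) = 1 + v.ord δ := by rw [v.ord_mul ht0 hδ0, htord]
    have hδord : 0 ≤ v.ord δ := ffp_ord_nonneg_of_mem v hδ
    rw [ffp_ord_add_eq_of_lt v hu0 (by rw [huord, h2ord]; omega), huord]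

include hx hsep in
/-- `da ≠ 0` for a uniformizer `a`. -/
theorem D_ne_zero_of_ord_eq_one (v : Place K F) {a : F} (ha : v.ord a = 1) : D K F a ≠ 0 := by
  haveI := dCoordGenerates hx hsep v
  have ha0 : a ≠ 0 := by rintro rfl; simp at ha
  obtain ⟨u, δ, hδ, -, hcoeff⟩ := differentialCoeff_D_eq hx hsep v ha0
  rw [ha] at hcoeff
  set t : F := ((ffu v : v.toValuationSubring) : F) with ht
  have ht0 : t ≠ 0 := ffu_ne_zero v
  have htord : v.ord t = 1 := ffu_ord v
  set uF : F := ((u : v.toValuationSubring) : F) with huF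
  have hu0 : uF ≠ 0 := by
    rw [huF]
    simp [ne_eq, ZeroMemClass.coe_eq_zero]
  have huord : v.ord uF = 0 := v.ord_coe_unit u
  have e1 : uF * (((1 : ℤ) : F) * t ^ ((1 : ℤ) - 1)) + t ^ (1 : ℤ) * δ = uF + t * δ := by
    rw [sub_self, zpow_zero, zpow_one, Int.cast_one, mul_one, mul_one]
  rw [e1] at hcoeff
  -- the coefficient is nonzero
  have hc0 : uF + t * δ ≠ 0 := by
    intro h0
    rcases eq_or_ne δ 0 with hδ0 | hδ0
    · rw [hδ0, mul_zero, add_zero] at h0
      exact hu0 h0
    · have h1 : uF = -(t * δ) := eq_neg_of_add_eq_zero_left h0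
      have h2 : v.ord uF = 1 + v.ord δ := by
        rw [h1, ffp_ord_neg, v.ord_mul ht0 hδ0, htord]
      have hδord : 0 ≤ v.ord δ := ffp_ord_nonneg_of_mem v hδ
      omega
  intro hD
  have h3 := v.differentialCoeff_smul_dCoord (D K F a)
  rw [hcoeff, hD, ffu_dCoord] at h3
  rcases smul_eq_zero.mp h3 with h | h
  · exact hc0 h
  · exact D_uniformizer_ne_zero hx hsep v h

include hx hsep in
/-- **Local Riemann–Hurwitz** (tame case): if `e = ord_v y` is nonzero in `F` then `ord_v (dy) = e - 1`. -/
theorem ordDifferential_D_of_ord_ne_zero (v : Place K F) {y : F} (hy0 : y ≠ 0)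
    (hy : ((v.ord y : ℤ) : F) ≠ 0) : v.ordDifferential (D K F y) = v.ord y - 1 := by
  obtain ⟨u, δ, hδ, -, hcoeff⟩ := differentialCoeff_D_eq hx hsep v hy0
  rw [Place.ordDifferential, hcoeff]
  set e : ℤ := v.ord y with he
  set t : F := ((ffu v : v.toValuationSubring) : F) with ht
  have ht0 : t ≠ 0 := ffu_ne_zero v
  have htord : v.ord t = 1 := ffu_ord v
  set uF : F := ((u : v.toValuationSubring) : F) with huF
  have hu0 : uF ≠ 0 := by
    rw [huF]
    simp [ne_eq, ZeroMemClass.coe_eq_zero]
  have huord : v.ord uF = 0 := v.ord_coe_unit u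
  have heord : v.ord (e : F) = 0 := by
    have : (e : F) = algebraMap K F (e : K) := by simp
    rw [this, ffp_ord_algebraMap]
  have htpow : ∀ n : ℤ, t ^ n ≠ 0 := fun n => zpow_ne_zero n ht0
  have h1ne : uF * ((e : F) * t ^ (e - 1)) ≠ 0 := mul_ne_zero hu0 (mul_ne_zero hy (htpow _))
  have h1ord : v.ord (uF * ((e : F) * t ^ (e - 1))) = e - 1 := by
    rw [v.ord_mul hu0 (mul_ne_zero hy (htpow _)), v.ord_mul hy (htpow _), v.ord_zpow,
      huord, heord, htord]
    ring
  rcases eq_or_ne δ 0 with hδ0 | hδ0
  · rw [hδ0, mul_zero, add_zero, h1ord]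
  · have h2ord : v.ord (t ^ e * δ) = e + v.ord δ := by
      rw [v.ord_mul (htpow _) hδ0, v.ord_zpow, htord, mul_one]
    have hδord : 0 ≤ v.ord δ := ffp_ord_nonneg_of_mem v hδ
    rw [ffp_ord_add_eq_of_lt v h1ne (by rw [h1ord, h2ord]; omega), h1ord]

include hx hsep in
/-- **`dy / y` is regular at `v` when the characteristic divides `ord_v y`.** -/
theorem dlog_coeff_mem (v : Place K F) {y : F} (hy0 : y ≠ 0) (hy : ((v.ord y : ℤ) : F) = 0) :
    y⁻¹ * v.differentialCoeff (D K F y) ∈ v.toValuationSubring := by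
  obtain ⟨u, δ, hδ, hyu, hcoeff⟩ := differentialCoeff_D_eq hx hsep v hy0
  rw [hcoeff, hy, zero_mul, mul_zero, zero_add]
  set t : F := ((ffu v : v.toValuationSubring) : F) with ht
  have ht0 : t ≠ 0 := ffu_ne_zero v
  set uF : F := ((u : v.toValuationSubring) : F) with huF
  have hu0 : uF ≠ 0 := by
    rw [huF]
    simp [ne_eq, ZeroMemClass.coe_eq_zero]
  have huinv : (((u⁻¹ : v.toValuationSubringˣ) : v.toValuationSubring) : F) = uF⁻¹ := by
    apply eq_inv_of_mul_eq_one_left
    rw [huF, ← MulMemClass.coe_mul, Units.inv_mul]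
    rfl
  have hyinv : y⁻¹ = uF⁻¹ * (t ^ v.ord y)⁻¹ := by
    rw [← mul_inv]
    exact congrArg (·⁻¹) hyu
  have e1 : y⁻¹ * (t ^ v.ord y * δ) =
      (((u⁻¹ : v.toValuationSubringˣ) : v.toValuationSubring) : F) * δ := by
    rw [huinv, hyinv, mul_assoc, ← mul_assoc (t ^ v.ord y)⁻¹,
      inv_mul_cancel₀ (zpow_ne_zero _ ht0), one_mul]
  rw [e1]
  exact v.toValuationSubring.mul_mem _ _ ((u⁻¹ : v.toValuationSubringˣ) : v.toValuationSubring).2 hδ

end Fermat.Agent.ES.X44.KaehlerPlace18
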