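/-
Programme X (S44), chapter (QP), leaf K1 EXIT (helper18): **the differential interface `KaehlerLit26.KaehlerHyp` in
ANY characteristic, and its instance on the special fibre `Ft / k̄` with `x = t̃`.**

* `kaehlerHyp_of_sep` : ABSTRACT.  `K` algebraically closed, `x ∈ E` transcendental with `E / K⟮x⟯` separable
  ⇒ `KaehlerHyp K E x` (`KaehlerSep18`, `KaehlerPlace18`).
* `kaehlerHyp_Ft` : the instance `K = ResidueField A`, `E = modularFunctionFieldFullC K M`, `x = tRes`
  (`RED/SpecialGen25.isGen_tRes`, `isSeparable_tRes`; `KRON/KronInst10.isAlgClosed_residueField`).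
-/
import Mathlib
import Fermat.Agent.ES.X44.KaehlerLit26
import Fermat.Agent.ES.X44.KaehlerPlace18
import Fermat.Agent.ES.RED.SpecialGen25

set_option autoImplicit false
set_option linter.style.haveILetI false
set_option linter.unusedSectionVars false

namespace Fermat.Agent.ES.X44.KaehlerFt18

open AlgebraicCurve IntermediateField KaehlerDifferential ModularCurve
open Fermat.Agent.X0.FF Fermat.Agent.ES.X44.KaehlerLit26
open Fermat.Agent.ES.X44.KaehlerSep18 Fermat.Agent.ES.X44.KaehlerPlace18

section Abstract

variable {K E : Type*} [Field K] [Field E] [Algebra K E] [IsAlgClosed K] {x : E}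

/-- **the differential interface for a separating transcendental element, any characteristic.** -/
theorem kaehlerHyp_of_sep (hx : Transcendental K x) (hsep : Algebra.IsSeparable K⟮x⟯ E) :
    KaehlerHyp K E x where
  span_D := span_D x hx hsep
  D_ne_zero := KaehlerSep18.D_ne_zero x hx hsep
  gen := KaehlerPlace18.dCoordGenerates hx hsep
  ord_D_nonneg := fun v _ ha =>
    ffp_ord_nonneg_of_mem v (KaehlerPlace18.differentialCoeff_D_mem hx hsep v ha)
  ord_D_unif := fun v _ ha =>
    ⟨D_ne_zero_of_ord_eq_one hx hsep v ha, ordDifferential_D_of_ord_eq_one hx hsep v ha⟩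

end Abstract

section Concrete

open Fermat.Agent.RED.Interface4 Fermat.Agent.RED.BASE
open Fermat.Agent.ES.RED.SpecialGen25

variable (n e M : ℕ) [NeZero n] [NeZero M] (ℓ : ℕ) [Fact ℓ.Prime] (hℓM : ¬ ℓ ∣ M)
  (hmem : Interface12.TMem n e M) (hgen : Interface12.TGenBase n e)
  (A : ValuationSubring Qbar) (hA : A.LiesOverPrime ℓ)

/-- **(K1)** the differential interface on the special fibre. -/
theorem kaehlerHyp_Ft :
    KaehlerHyp (IsLocalRing.ResidueField ↥A)
      ↥(modularFunctionFieldFullC (IsLocalRing.ResidueField ↥A) M)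
      (tRes n e M ℓ hℓM hmem hgen A hA) := by
  haveI : IsAlgClosed (IsLocalRing.ResidueField ↥A) :=
    Fermat.Agent.ES.KRON.KronInst10.isAlgClosed_residueField A
  exact kaehlerHyp_of_sep (isGen_tRes n e M ℓ hℓM hmem hgen A hA).transcendental
    (isSeparable_tRes n e M ℓ hℓM hmem hgen A hA)

end Concrete

end Fermat.Agent.ES.X44.KaehlerFt18
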