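/-
Programme X (S44), chapter (L2) "Frey at p" — helper25.

The `p`-torsion of the kernel of reduction `E₁` of the model `Wab a b` (`v 2 = 1`, `v a = 1`, `b ≠ 0`,
`v b ≤ v p ^ p`, `v p < 1`, `p` an odd prime, `α² = a`, `ζ` a primitive `p`-th root of unity), through the
multiplicative coordinate `u = uc α` of `UMult25`:

* `val_uc_sub_one`   : `v (u(P) - 1) = v (zc P)` for `P ∈ E₁`;
* `val_p_le_zc`      : crude radius: `P ∈ E₁[p] ∖ 0` ⇒ `v p ≤ v (zc P)`;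
* `eq_zero_of_near_one` : SHARP LEVEL: `P ∈ E₁[p]`, `v (u(P) - 1) < v (ζ - 1)` ⇒ `P = 0`;
* `eq_of_near`       : injectivity: `P, Q ∈ E₁[p]`, `v (u(P) - u(Q)) < v (ζ - 1)` ⇒ `P = Q`;
* `exists_near`      : `P ∈ E₁[p]` ⇒ `v (u(P) - ζ ^ k) < v (ζ - 1)` for some `k < p`;
* `card_le`          : `E₁[p]` is finite with at most `p` elements;
* `smul_of_zeta_pow` : an inertia-like `σ` with `σ ζ = ζ ^ m` acts on `E₁[p]` by `m`.
-/
import Mathlib
import Fermat.Agent.ES.X44.UMult25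
import Fermat.Agent.ES.X44.E0Tors25
import Fermat.Agent.ES.X44.MuP25
import Fermat.Agent.S05.Kernel
import Fermat.Agent.S05.KernelContract

set_option autoImplicit false
set_option linter.unusedSectionVars false

namespace Fermat.Agent.ES.X44.KappaInj25

open WeierstrassCurve WeierstrassCurve.Affine Fermat.Agent.S05 Fermat.Agent.ES.X44.UMult25
  Fermat.Agent.ES.X44.E0Tors25

variable {K : Type*} [Field K] [DecidableEq K] {Γ₀ : Type*} [LinearOrderedCommGroupWithZero Γ₀]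
  (v : Valuation K Γ₀) {a b α : K}

/-- `v (u(P) - 1) = v (zc P)` on `E₁`. -/
theorem val_uc_sub_one (h2 : v (2 : K) = 1) (ha : v a ≤ 1) (hαv : v α = 1) (hb : v b ≤ 1)
    {P : (Wab a b).toAffine.Point} (hP : InE1 v P) : v (uc α P - 1) = v (Kernel.zc P) := by
  rcases P with _ | ⟨x, y, h⟩
  · change v (uc α (0 : (Wab a b).toAffine.Point) - 1) =
      v (Kernel.zc (0 : (Wab a b).toAffine.Point))
    simp
  · have hx : 1 < v x := hP
    have hW := KernelContract.integralCoeffs_Wab v ha hb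
    obtain ⟨hxy, -⟩ := Kernel.vy_of_vx hW h.1 hx
    have hαx : v (α * x) < v y := by rw [map_mul, hαv, one_mul]; exact hxy
    have hy : v (y + α * x) = v y := v.map_add_eq_of_lt_left hαx
    have hypos : 0 < v y := lt_trans (lt_trans zero_lt_one hx) hxy
    have hne : y + α * x ≠ 0 := by
      intro h0
      rw [h0, map_zero] at hy
      exact absurd hy.symm (ne_of_gt hypos)
    have e : uc α (Point.some x y h) - 1 = -(2 * α * x) / (y + α * x) := by
      rw [uc_some]; field_simp; ring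
    rw [e, Kernel.zc_some, map_div₀, map_div₀, Valuation.map_neg, Valuation.map_neg, hy, map_mul,
      map_mul, h2, hαv, one_mul, one_mul]

variable {p : ℕ}

/-- Crude radius of `E₁[p]`. -/
theorem val_p_le_zc (ha : v a ≤ 1) (hb : v b ≤ 1) {P : (Wab a b).toAffine.Point}
    (hP : InE1 v P) (hP0 : P ≠ 0) (hn : p • P = 0) : v (p : K) ≤ v (Kernel.zc P) := by
  have hW := KernelContract.integralCoeffs_Wab v ha hb
  have hP' := (KernelContract.inE1_iff v P).mpr hP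
  have hlt := hP'.zc_lt_one hW
  have hpos := hP'.zc_pos hW hP0
  obtain ⟨-, h₂⟩ := Kernel.nsmul_estimate hW hlt hP' le_rfl p
  rw [hn, Kernel.zc_zero, zero_sub, Valuation.map_neg, map_mul, sq] at h₂
  exact le_of_mul_le_mul_right h₂ hpos

variable {ζ : K}

/-- `v b < v p * v (ζ - 1)`. -/
theorem val_b_lt (hp : p.Prime) (h3 : 3 ≤ p) (hζ : IsPrimitiveRoot ζ p) (hp1 : v (p : K) < 1)
    (hpK : (p : K) ≠ 0) (hbp : v b ≤ v (p : K) ^ p) : v b < v (p : K) * v (ζ - 1) := by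
  have hppos : 0 < v (p : K) := by rw [Valuation.pos_iff]; exact hpK
  have h1 : v (p : K) ^ p ≤ v (p : K) ^ 2 := pow_le_pow_right_of_le_one' hp1.le (by omega)
  have h2 : v (p : K) ^ 2 < v (p : K) * v (ζ - 1) := by
    rw [sq]
    exact mul_lt_mul_of_pos_left (MuP25.val_p_lt v hp hζ hp1 h3) hppos
  exact lt_of_le_of_lt (hbp.trans h1) h2

/-- `v b < v (ζ - 1)`. -/
theorem val_b_lt' (hp : p.Prime) (h3 : 3 ≤ p) (hζ : IsPrimitiveRoot ζ p) (hp1 : v (p : K) < 1)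
    (hpK : (p : K) ≠ 0) (hbp : v b ≤ v (p : K) ^ p) : v b < v (ζ - 1) := by
  refine lt_of_lt_of_le (val_b_lt v hp h3 hζ hp1 hpK hbp) ?_
  calc v (p : K) * v (ζ - 1) ≤ 1 * v (ζ - 1) := mul_le_mul_left hp1.le _
    _ = v (ζ - 1) := one_mul _

/-- **Sharp level of `E₁[p]`.** -/
theorem eq_zero_of_near_one (hp : p.Prime) (h3 : 3 ≤ p) (hζ : IsPrimitiveRoot ζ p)
    (hp1 : v (p : K) < 1) (hpK : (p : K) ≠ 0) (h2 : v (2 : K) = 1) (ha : v a = 1)
    (hαv : v α = 1) (hb : v b < 1) (hb0 : b ≠ 0) (hbp : v b ≤ v (p : K) ^ p) (hα : α ^ 2 = a)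
    {P : (Wab a b).toAffine.Point} (hP : InE1 v P) (hn : p • P = 0)
    (hnear : v (uc α P - 1) < v (ζ - 1)) : P = 0 := by
  by_contra hP0
  have hppos : 0 < v (p : K) := by rw [Valuation.pos_iff]; exact hpK
  have hcr := val_p_le_zc v ha.le hb.le hP hP0 hn
  rw [← val_uc_sub_one v h2 ha.le hαv hb.le hP] at hcr
  have h1 := MuP25.val_pow_sub_one_of_near v hp hζ hnear
  have h4 := uc_nsmul v h2 ha hαv hb hb0 hα hP.inE0 p
  rw [hn, uc_zero, ← Valuation.map_neg, neg_sub, h1] at h4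
  -- `ρ * v p ≤ v p ^ p`, `v p ≤ ρ`
  have h5 : v (p : K) * v (p : K) ≤ v (p : K) ^ p :=
    (mul_le_mul_left hcr _).trans (h4.trans hbp)
  have h6 : v (p : K) ^ p ≤ v (p : K) ^ 3 := pow_le_pow_right_of_le_one' hp1.le h3
  have h7 : v (p : K) ^ 3 < v (p : K) * v (p : K) := by
    have : v (p : K) ^ 3 = v (p : K) * v (p : K) * v (p : K) := by rw [pow_succ, pow_two]
    rw [this]
    calc v (p : K) * v (p : K) * v (p : K) < v (p : K) * v (p : K) * 1 :=
          mul_lt_mul_of_pos_left hp1 (mul_pos hppos hppos)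
      _ = v (p : K) * v (p : K) := mul_one _
  exact absurd (h5.trans h6) (not_le.mpr h7)

/-- **Injectivity of `u` on `E₁[p]` modulo `ζ - 1`.** -/
theorem eq_of_near (hp : p.Prime) (h3 : 3 ≤ p) (hζ : IsPrimitiveRoot ζ p)
    (hp1 : v (p : K) < 1) (hpK : (p : K) ≠ 0) (h2 : v (2 : K) = 1) (ha : v a = 1)
    (hαv : v α = 1) (hb : v b < 1) (hb0 : b ≠ 0) (hbp : v b ≤ v (p : K) ^ p) (hα : α ^ 2 = a)
    {P Q : (Wab a b).toAffine.Point} (hP : InE1 v P) (hQ : InE1 v Q) (hnP : p • P = 0)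
    (hnQ : p • Q = 0) (hnear : v (uc α P - uc α Q) < v (ζ - 1)) : P = Q := by
  have hQ' : InE1 v (-Q) := KernelContract.inE1_neg v Q hQ
  have hd : InE1 v (P + -Q) := KernelContract.inE1_add v ha.le hb.le _ _ hP hQ'
  have hnd : p • (P + -Q) = 0 := by rw [nsmul_add, hnP, smul_neg, hnQ, neg_zero, add_zero]
  have h1 := uc_add v h2 ha hαv hb hb0 hα hP.inE0 hQ'.inE0
  rw [uc_neg] at h1
  have hvQ : v (uc α Q) = 1 := val_uc v h2 hαv hb hα hQ.inE0
  have hQne : uc α Q ≠ 0 := by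
    intro h0; rw [h0, map_zero] at hvQ; exact zero_ne_one hvQ
  have e : uc α (P + -Q) - 1 =
      (uc α (P + -Q) - uc α P * (uc α Q)⁻¹) + (uc α P - uc α Q) * (uc α Q)⁻¹ := by
    field_simp
    ring
  have h5 : v (uc α (P + -Q) - 1) < v (ζ - 1) := by
    rw [e]
    refine lt_of_le_of_lt (v.map_add _ _) (max_lt ?_ ?_)
    · exact lt_of_le_of_lt h1 (val_b_lt' v hp h3 hζ hp1 hpK hbp)
    · rw [map_mul, map_inv₀, hvQ, inv_one, mul_one]; exact hnear
  have h6 := eq_zero_of_near_one v hp h3 hζ hp1 hpK h2 ha hαv hb hb0 hbp hα hd hnd h5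
  rw [← sub_eq_add_neg] at h6
  exact sub_eq_zero.mp h6

/-- `u` of a `p`-torsion point of `E₀` is close to a `p`-th root of unity. -/
theorem exists_near (hp : p.Prime) (h3 : 3 ≤ p) (hζ : IsPrimitiveRoot ζ p)
    (hp1 : v (p : K) < 1) (hpK : (p : K) ≠ 0) (h2 : v (2 : K) = 1) (ha : v a = 1)
    (hαv : v α = 1) (hb : v b < 1) (hb0 : b ≠ 0) (hbp : v b ≤ v (p : K) ^ p) (hα : α ^ 2 = a)
    {P : (Wab a b).toAffine.Point} (hP : InE0 v P) (hn : p • P = 0) :
    ∃ k < p, v (uc α P - ζ ^ k) < v (ζ - 1) := by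
  have h4 := uc_nsmul v h2 ha hαv hb hb0 hα hP p
  rw [hn, uc_zero, ← Valuation.map_neg, neg_sub] at h4
  exact MuP25.exists_near v hp hζ (lt_of_le_of_lt h4 (val_b_lt v hp h3 hζ hp1 hpK hbp))

/-- **`E₁[p]` has at most `p` elements.** -/
theorem card_le (hp : p.Prime) (h3 : 3 ≤ p) (hζ : IsPrimitiveRoot ζ p)
    (hp1 : v (p : K) < 1) (hpK : (p : K) ≠ 0) (h2 : v (2 : K) = 1) (ha : v a = 1)
    (hαv : v α = 1) (hb : v b < 1) (hb0 : b ≠ 0) (hbp : v b ≤ v (p : K) ^ p) (hα : α ^ 2 = a) :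
    {ℓ : (Wab a b).toAffine.Point | InE1 v ℓ ∧ p • ℓ = 0}.Finite ∧
      {ℓ : (Wab a b).toAffine.Point | InE1 v ℓ ∧ p • ℓ = 0}.ncard ≤ p := by
  classical
  have hex : ∀ ℓ ∈ {ℓ : (Wab a b).toAffine.Point | InE1 v ℓ ∧ p • ℓ = 0},
      ∃ k < p, v (uc α ℓ - ζ ^ k) < v (ζ - 1) := fun ℓ hℓ =>
    exists_near v hp h3 hζ hp1 hpK h2 ha hαv hb hb0 hbp hα hℓ.1.inE0 hℓ.2
  let f : (Wab a b).toAffine.Point → ℕ := fun ℓ =>
    if h : ℓ ∈ {ℓ : (Wab a b).toAffine.Point | InE1 v ℓ ∧ p • ℓ = 0} then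
      Classical.choose (hex ℓ h) else 0
  have hf : ∀ ℓ (h : ℓ ∈ {ℓ : (Wab a b).toAffine.Point | InE1 v ℓ ∧ p • ℓ = 0}),
      f ℓ < p ∧ v (uc α ℓ - ζ ^ f ℓ) < v (ζ - 1) := by
    intro ℓ h
    simp only [f, dif_pos h]
    exact Classical.choose_spec (hex ℓ h)
  have hmaps : Set.MapsTo f {ℓ : (Wab a b).toAffine.Point | InE1 v ℓ ∧ p • ℓ = 0}
      (Finset.range p : Set ℕ) := fun ℓ h => by
    simpa using (hf ℓ h).1
  have hinj : Set.InjOn f {ℓ : (Wab a b).toAffine.Point | InE1 v ℓ ∧ p • ℓ = 0} := by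
    intro P hP Q hQ hPQ
    apply eq_of_near v hp h3 hζ hp1 hpK h2 ha hαv hb hb0 hbp hα hP.1 hQ.1 hP.2 hQ.2
    have e : uc α P - uc α Q = (uc α P - ζ ^ f P) - (uc α Q - ζ ^ f Q) := by rw [hPQ]; ring
    rw [e]
    exact lt_of_le_of_lt (v.map_sub _ _) (max_lt (hf P hP).2 (hf Q hQ).2)
  have hfin := Set.Finite.of_injOn hmaps hinj (Finset.finite_toSet _)
  refine ⟨hfin, ?_⟩
  calc _ ≤ ((Finset.range p : Finset ℕ) : Set ℕ).ncard :=
        Set.ncard_le_ncard_of_injOn f hmaps hinj (Finset.finite_toSet _)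
    _ = p := by rw [Set.ncard_coe_finset, Finset.card_range]

omit [DecidableEq K] in
/-- `v (x ^ n - y ^ n) ≤ v (x - y)` for integral `x`, `y`. -/
theorem val_pow_sub_pow_le {x y : K} (hx : v x ≤ 1) (hy : v y ≤ 1) (n : ℕ) :
    v (x ^ n - y ^ n) ≤ v (x - y) := by
  induction n with
  | zero => simp
  | succ n ih =>
    have e : x ^ (n + 1) - y ^ (n + 1) = x ^ n * (x - y) + (x ^ n - y ^ n) * y := by ring
    rw [e]
    refine v.map_add_le ?_ ?_
    · rw [map_mul, map_pow]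
      calc v x ^ n * v (x - y) ≤ 1 * v (x - y) := mul_le_mul_left (pow_le_one' hx n) _
        _ = v (x - y) := one_mul _
    · rw [map_mul]
      calc v (x ^ n - y ^ n) * v y ≤ v (x - y) * 1 := mul_le_mul' ih hy
        _ = v (x - y) := mul_one _

/-- **An inertia-like `σ` with `σ ζ = ζ ^ m` acts on `E₁[p]` by `m`.** -/
theorem smul_of_zeta_pow (hp : p.Prime) (h3 : 3 ≤ p) (hζ : IsPrimitiveRoot ζ p)
    (hp1 : v (p : K) < 1) (hpK : (p : K) ≠ 0) (h2 : v (2 : K) = 1) (ha : v a = 1)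
    (hαv : v α = 1) (hb : v b < 1) (hb0 : b ≠ 0) (hbp : v b ≤ v (p : K) ^ p) (hα : α ^ 2 = a)
    (σ : K →+* K) (hσv : ∀ x, v (σ x) = v x) (hσr : ∀ x, v x ≤ 1 → v (σ x - x) < 1)
    (hσa : σ a = a) (m : ℕ) (hσζ : σ ζ = ζ ^ m)
    {X Y : K} (h : (Wab a b).toAffine.Nonsingular X Y)
    (h' : (Wab a b).toAffine.Nonsingular (σ X) (σ Y)) (hX : 1 < v X)
    (hn : p • Point.some X Y h = 0) (hn' : p • Point.some (σ X) (σ Y) h' = 0) :
    Point.some (σ X) (σ Y) h' = m • Point.some X Y h := by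
  -- `σ α = α`
  have hσα : σ α = α := by
    have h1 : (σ α - α) * (σ α + α) = 0 := by
      have : (σ α - α) * (σ α + α) = σ (α ^ 2) - α ^ 2 := by rw [map_pow]; ring
      rw [this, hα, hσa, sub_self]
    rcases mul_eq_zero.mp h1 with h0 | h0
    · exact sub_eq_zero.mp h0
    · exfalso
      have h4 : σ α - α = -(2 * α) := by linear_combination h0
      have h5 := hσr α hαv.le
      rw [h4, Valuation.map_neg, map_mul, h2, hαv, one_mul] at h5
      exact lt_irrefl _ h5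
  have huc : uc α (Point.some (σ X) (σ Y) h') = σ (uc α (Point.some X Y h)) := by
    rw [uc_some, uc_some, map_div₀, map_sub, map_add, map_mul, hσα]
  have hℓ : InE1 v (Point.some X Y h) := hX
  have hℓ' : InE1 v (Point.some (σ X) (σ Y) h') := by
    change 1 < v (σ X)
    rw [hσv]; exact hX
  obtain ⟨k, -, hk⟩ := exists_near v hp h3 hζ hp1 hpK h2 ha hαv hb hb0 hbp hα hℓ.inE0 hn
  have hmℓ : InE1 v (m • Point.some X Y h) := inE1_nsmul v ha.le hb.le hℓ m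
  have hnm : p • (m • Point.some X Y h) = 0 := by rw [smul_comm, hn, nsmul_zero]
  apply eq_of_near v hp h3 hζ hp1 hpK h2 ha hαv hb hb0 hbp hα hℓ' hmℓ hn' hnm
  have hvw : v (uc α (Point.some X Y h)) = 1 := val_uc v h2 hαv hb hα hℓ.inE0
  have hvζ : v (ζ ^ k) = 1 := by rw [map_pow, MuP25.val_zeta v hp hζ, one_pow]
  have hσζk : σ (ζ ^ k) = (ζ ^ k) ^ m := by
    rw [map_pow, hσζ, ← pow_mul, ← pow_mul, mul_comm]
  have e : uc α (Point.some (σ X) (σ Y) h') - uc α (m • Point.some X Y h) =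
      σ (uc α (Point.some X Y h) - ζ ^ k) +
        (((ζ ^ k) ^ m - uc α (Point.some X Y h) ^ m) +
          (uc α (Point.some X Y h) ^ m - uc α (m • Point.some X Y h))) := by
    rw [huc, map_sub, hσζk]; ring
  rw [e]
  refine lt_of_le_of_lt (v.map_add _ _) (max_lt ?_ (lt_of_le_of_lt (v.map_add _ _) (max_lt ?_ ?_)))
  · rw [hσv]; exact hk
  · refine lt_of_le_of_lt (val_pow_sub_pow_le v hvζ.le hvw.le m) ?_
    rw [← Valuation.map_neg, neg_sub]; exact hk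
  · rw [← Valuation.map_neg, neg_sub]
    exact lt_of_le_of_lt (uc_nsmul v h2 ha hαv hb hb0 hα hℓ.inE0 m)
      (val_b_lt' v hp h3 hζ hp1 hpK hbp)

end Fermat.Agent.ES.X44.KappaInj25
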