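/-
Programme X (S44), chapter (L2) "Frey at p" — helper25.

**The break certificate on the model `Wab a b`** (general valued field), and the discharge of the three
model-level literals `WabLit25.MIV`, `WabLit25.MCard`, `WabLit25.MV` over `ℚ̄`.

* `break_cert` : `σ` inertia-like fixing `ζ`, `P = (X, Y)` of order `p` with `σ P ≠ P` ⇒ `X ≠ 0`,
  `v X = v (h₀ ^ k)` and `v X * v (ζ - 1) ≤ v (σ X - X)`.
  (`P ∉ E₁` since `σ = id` on `E₁[p]`; so `P` is in the annulus (`E0Tors25`), `ℓ := σP - P ∈ E₁[p] ∖ 0`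
  (`S13.MultClose.mult_close`), `σX = X(P + ℓ)`, first-order formula `Annulus25.annulus_add`, sharp level
  `KappaInj25.eq_zero_of_near_one`, and `S05.comp_torsion` for the value of `v X`.)
* `mIV`, `mCard`, `mV` : the literals.
-/
import Mathlib
import Fermat.Agent.ES.X44.WabLit25
import Fermat.Agent.ES.X44.KappaInj25
import Fermat.Agent.ES.X44.Annulus25
import Fermat.Agent.S13.MultClose

set_option autoImplicit false
set_option linter.unusedSectionVars false

namespace Fermat.Agent.ES.X44.ModelV25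

open WeierstrassCurve WeierstrassCurve.Affine Fermat.Agent.S05 Fermat.Agent.ES.X44.UMult25
  Fermat.Agent.ES.X44.E0Tors25 Fermat.Agent.ES.X44.KappaInj25

section General

variable {K : Type*} [Field K] [DecidableEq K] {Γ₀ : Type*} [LinearOrderedCommGroupWithZero Γ₀]
  (v : Valuation K Γ₀) {a b α h₀ ζ : K} {p : ℕ}

/-- **The break certificate in coordinates.** -/
theorem break_cert (hp : p.Prime) (h3 : 3 ≤ p) (hζ : IsPrimitiveRoot ζ p)
    (hp1 : v (p : K) < 1) (hpK : (p : K) ≠ 0) (h2 : v (2 : K) = 1) (ha : v a = 1)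
    (hb0 : b ≠ 0) (hbh : v b = v h₀ ^ p) (hh : v h₀ ≤ v (p : K)) (hα : α ^ 2 = a)
    (σ : K →+* K) (hσv : ∀ x, v (σ x) = v x) (hσr : ∀ x, v x ≤ 1 → v (σ x - x) < 1)
    (hσa : σ a = a) (hσb : σ b = b) (hσh : σ h₀ = h₀) (hσζ : σ ζ = ζ)
    {X Y : K} (h : (Wab a b).toAffine.Nonsingular X Y)
    (h' : (Wab a b).toAffine.Nonsingular (σ X) (σ Y))
    (hn : p • Point.some X Y h = 0) (hn' : p • Point.some (σ X) (σ Y) h' = 0)
    (hne : ¬ (σ X = X ∧ σ Y = Y)) :
    X ≠ 0 ∧ (∃ k : ℤ, v X = v (h₀ ^ k)) ∧ v X * v (ζ - 1) ≤ v (σ X - X) := by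
  have hp0 : p ≠ 0 := hp.ne_zero
  have hp2 : p ≠ 2 := by omega
  have hαv : v α = 1 := Mult.val_eq_one_of_sq (v := v) (by rw [hα]; exact ha)
  have hh1 : v h₀ < 1 := lt_of_le_of_lt hh hp1
  have hb : v b < 1 := by rw [hbh]; exact pow_lt_one₀ zero_le hh1 hp0
  have hbp : v b ≤ v (p : K) ^ p := by rw [hbh]; exact pow_le_pow_left' hh p
  -- `P ∉ E₁`
  have hX1 : ¬ 1 < v X := by
    intro hX
    have := smul_of_zeta_pow v hp h3 hζ hp1 hpK h2 ha hαv hb hb0 hbp hα σ hσv hσr hσa 1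
      (by rw [pow_one]; exact hσζ) h h' hX hn hn'
    rw [one_nsmul] at this
    simp only [Point.some.injEq] at this
    exact hne this
  -- the annulus
  obtain ⟨hX0, hbX, hXlt⟩ :=
    annulus_of_nsmul v hp hp2 hζ hp1 h2 ha hαv hb hb0 hα h hn hX1
  refine ⟨hX0, ?_, ?_⟩
  · -- the value of `v X`
    obtain ⟨k, hk⟩ := comp_torsion v h2 hb hb0 α hα hαv h hXlt hbX hn
    refine ⟨2 * k, ?_⟩
    have e1 : v X ^ p = v (h₀ ^ (2 * k)) ^ p := by
      rw [hk, hbh, map_zpow₀, ← zpow_natCast (v h₀) p, ← zpow_mul, ← zpow_natCast, ← zpow_mul,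
        mul_comm]
    exact (pow_left_inj₀ zero_le zero_le hp0).mp e1
  · -- the first-order formula
    have hE := Fermat.Agent.S13.MultClose.mult_close v h2 ha hb hb0 α hα σ hσv hσr hσb h₀ hσh hp0 hbh h h' hn
    have hnℓ : p • (Point.some (σ X) (σ Y) h' - Point.some X Y h) = 0 := by
      rw [smul_sub, hn, hn', sub_zero]
    have hℓ0 : Point.some (σ X) (σ Y) h' - Point.some X Y h ≠ 0 := by
      intro h0
      have := sub_eq_zero.mp h0
      simp only [Point.some.injEq] at this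
      exact hne this
    have hsum : Point.some X Y h + (Point.some (σ X) (σ Y) h' - Point.some X Y h) =
        Point.some (σ X) (σ Y) h' := by abel
    -- sharp level of `ℓ`
    have hsharp : v (ζ - 1) ≤
        v (uc α (Point.some (σ X) (σ Y) h' - Point.some X Y h) - 1) := by
      by_contra hlt
      rw [not_le] at hlt
      exact hℓ0 (eq_zero_of_near_one v hp h3 hζ hp1 hpK h2 ha hαv hb hb0 hbp hα hE hnℓ hlt)
    rw [val_uc_sub_one v h2 ha.le hαv hb.le hE] at hsharp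
    generalize Point.some (σ X) (σ Y) h' - Point.some X Y h = ℓ at hE hℓ0 hsum hsharp
    rcases ℓ with _ | ⟨x₂, y₂, h₂⟩
    · exact absurd rfl hℓ0
    · have hx₂ : 1 < v x₂ := hE
      have hx₂0 : x₂ ≠ 0 := ne_zero_of_one_le v hx₂.le
      obtain ⟨h₁', e₁⟩ := some_eq_xs h hX0
      obtain ⟨h₂', e₂⟩ := some_eq_xs h₂ hx₂0
      obtain ⟨x₃, y₃, h₃, e₃, hval⟩ :=
        Annulus25.annulus_add v h2 ha hb hb0 h₁' h₂' hbX hXlt hx₂
      rw [e₁, e₂, e₃] at hsum
      simp only [Point.some.injEq] at hsum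
      rw [← hsum.1]
      -- `v (zc ℓ) = 1 / v s₂`
      rw [Kernel.zc_some] at hsharp
      have hy₂ : y₂ ≠ 0 := by
        rintro rfl
        rw [div_zero, map_zero] at hsharp
        have hpos : 0 < v (ζ - 1) := by
          rw [Valuation.pos_iff]
          intro h0
          exact (hζ.ne_one hp.one_lt) (sub_eq_zero.mp h0)
        exact absurd hsharp (not_le.mpr hpos)
      have hs₂ : v (y₂ / x₂) ≠ 0 := by
        rw [Valuation.ne_zero_iff]; exact div_ne_zero hy₂ hx₂0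
      have hz : v (-x₂ / y₂) * v (y₂ / x₂) = 1 := by
        rw [← map_mul, show -x₂ / y₂ * (y₂ / x₂) = -1 by field_simp, Valuation.map_neg, map_one]
      calc v X * v (ζ - 1) ≤ v X * v (-x₂ / y₂) := mul_le_mul_right hsharp _
        _ = v (x₃ - X) * v (y₂ / x₂) * v (-x₂ / y₂) := by rw [hval]
        _ = v (x₃ - X) := by rw [mul_assoc, mul_comm (v (y₂ / x₂)), hz, mul_one]

end General

/-! ### The literals over `ℚ̄` -/

section Literals

open Fermat.Agent.ES.X44.WabLit25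

local notation "Qb" => AlgebraicClosure ℚ

/-- data extracted from `MD`. -/
theorem md_facts {A : ValuationSubring Qb} {p : ℕ} {a b h₀ : Qb} (hM : MD A p a b h₀) :
    A.valuation b < 1 ∧ A.valuation b ≤ A.valuation (p : Qb) ^ p ∧ ((p : ℕ) : Qb) ≠ 0 := by
  have hh1 : A.valuation h₀ < 1 := lt_of_le_of_lt hM.hh hM.hp
  refine ⟨?_, ?_, ?_⟩
  · rw [hM.hbh]; exact pow_lt_one₀ zero_le hh1 hM.pp.ne_zero
  · rw [hM.hbh]; exact pow_le_pow_left' hM.hh p
  · exact_mod_cast hM.pp.ne_zero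

theorem mIV : MIV := by
  intro A p a b h₀ ζ hM hζ σ hσ m hm X Y h h' hX hn hn'
  obtain ⟨hb, hbp, hpK⟩ := md_facts hM
  obtain ⟨α, hα⟩ := IsAlgClosed.exists_pow_nat_eq a (n := 2) (by norm_num)
  have hαv : A.valuation α = 1 :=
    Mult.val_eq_one_of_sq (v := A.valuation) (by rw [hα]; exact hM.ha)
  exact smul_of_zeta_pow A.valuation hM.pp hM.p3 hζ hM.hp hpK hM.h2 hM.ha hαv hb hM.hb0 hbp hα σ
    hσ.hv hσ.hr hσ.ha m hm h h' hX hn hn'

theorem mCard : MCard := by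
  intro A p a b h₀ hM
  obtain ⟨hb, hbp, hpK⟩ := md_facts hM
  obtain ⟨α, hα⟩ := IsAlgClosed.exists_pow_nat_eq a (n := 2) (by norm_num)
  have hαv : A.valuation α = 1 :=
    Mult.val_eq_one_of_sq (v := A.valuation) (by rw [hα]; exact hM.ha)
  have : NeZero p := ⟨hM.pp.ne_zero⟩
  obtain ⟨ζ, hζ⟩ : ∃ ζ : Qb, IsPrimitiveRoot ζ p :=
    HasEnoughRootsOfUnity.exists_primitiveRoot Qb p
  exact card_le A.valuation hM.pp hM.p3 hζ hM.hp hpK hM.h2 hM.ha hαv hb hM.hb0 hbp hα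

theorem mV : MV := by
  intro A p a b h₀ ζ hM hζ σ hσ hσζ X Y h h' hn hn' hne
  obtain ⟨hb, hbp, hpK⟩ := md_facts hM
  obtain ⟨α, hα⟩ := IsAlgClosed.exists_pow_nat_eq a (n := 2) (by norm_num)
  exact break_cert A.valuation hM.pp hM.p3 hζ hM.hp hpK hM.h2 hM.ha hM.hb0 hM.hbh hM.hh hα σ
    hσ.hv hσ.hr hσ.ha hσ.hb hσ.hh hσζ h h' hn hn' hne

end Literals

end Fermat.Agent.ES.X44.ModelV25
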