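/-
Programme X (S44), chapter (L2) "Frey at p" — helper25: **THE CHAPTER EXIT.**

`l2Chapter : S44Chain14.L2Chapter`, i.e. for every Frey package `P` with `p ∣ abc` and every valuation
subring `A` of `ℚ̄` over `p`: `XIface14.FreyLocal P A`  (unfolded form: `freyLocal`).

= helper28's assembly `FreyLocalAsm28.l2Chapter_of_aux` applied to
  helper10's `LNeTop10.ne_top_of_card_le`, `LNeTop10.exists_inertia_exponent` and
  the model-level theorems `ModelV25.mIV`, `ModelV25.mCard`, `ModelV25.mV`.
-/
import Fermat.Agent.ES.X44.FreyLocalAsm28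
import Fermat.Agent.ES.X44.LNeTop10
import Fermat.Agent.ES.X44.ModelV25

set_option autoImplicit false

namespace Fermat.Agent.ES.X44.L2Final25

open Fermat.Agent.ES.X44

/-- **(L2) chapter exit.** -/
theorem l2Chapter : S44Chain14.L2Chapter :=
  FreyLocalAsm28.l2Chapter_of_aux (fun P L h => LNeTop10.ne_top_of_card_le P L h)
    (fun P A hA => LNeTop10.exists_inertia_exponent P A hA) ModelV25.mIV ModelV25.mCard ModelV25.mV

/-- **(L2) chapter exit, unfolded**: independent of the chain file. -/
theorem freyLocal (P : FreyPackage) (hp : (P.p : ℤ) ∣ P.a * P.b * P.c)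
    (A : ValuationSubring (AlgebraicClosure ℚ)) (hA : A.LiesOverPrime P.p) :
    XIface14.FreyLocal P A :=
  l2Chapter P hp A hA

end Fermat.Agent.ES.X44.L2Final25
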