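/-
Programme X (S44), chapter (QP), leaf L1 (helper26): **the reduction of a finite-dimensional space
of functions has at least the same dimension** (saturated lattices reduce injectively), in the
abstract reduction context `SupTrick15.RedCtx` of Programme V.

`RedCtx A π G red r`, `HL : LHyp L F`, `HLt : LHyp k Ft`, and the only extra input
`hP : ∀ T : Finset (Place k Ft), ∃ P, r P ∉ T` (some place reduces outside any finite set).

* `vanishAt P` : the `L`-subspace of the functions vanishing at `P`;
* `exists_indep_red` : `W ⊂ F` of dimension `n`, all of whose elements are regular at every `P`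
  with `r P ∉ S` (`S` finite) ⇒ there are `n` Gauss-integral elements of `W` whose reductions are
  `k`-linearly independent.  Proof: induction on `n`; scale `u ∈ W` to a Gauss unit with reduction
  `φ₀`, pick `P` with `w = r P ∉ S ∪ supp (div φ₀)`; then `W = L u ⊕ (W ⊓ vanishAt P)`, the
  reductions of the second summand vanish at `w` (`r1`) and `φ₀` does not.
* `finrank_L_le` : **`l(D) ≤ l̃(r_* D)`** for every divisor `D` (upper semicontinuity).
No completeness, no discreteness of the valuation, no Gauss norm.
-/
import Mathlib
import Fermat.Agent.ES.V19.SupTrick15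

set_option autoImplicit false

open AlgebraicCurve

namespace Fermat.Agent.ES.X44.LatticeRed26

open Fermat.Agent.X0.FF Fermat.Agent.RR.LSpace Fermat.Agent.ES.V19.GaussFrac15
  Fermat.Agent.ES.V19.SupTrick15

variable {L F k Ft : Type*} [Field L] [Field F] [Algebra L F] [Field k] [Field Ft] [Algebra k Ft]

/-- The functions vanishing at the place `P`. -/
def vanishAt {K E : Type*} [Field K] [Field E] [Algebra K E] (P : Place K E) : Submodule K E where
  carrier := {f | f = 0 ∨ 0 < P.ord f}
  zero_mem' := Or.inl rfl
  add_mem' := by
    rintro f g hf hg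
    by_cases hfg : f + g = 0
    · exact Or.inl hfg
    right
    rcases hf with rfl | hf
    · rcases hg with rfl | hg
      · exact absurd (add_zero 0) hfg
      · rwa [zero_add]
    rcases hg with rfl | hg
    · rwa [add_zero]
    have := ord_add_ge P hfg
    exact lt_of_lt_of_le (lt_min hf hg) this
  smul_mem' := by
    rintro c f hf
    by_cases hc : c = 0
    · left; rw [hc, zero_smul]
    rcases hf with rfl | hf
    · left; rw [smul_zero]
    right
    have hf0 : f ≠ 0 := by
      rintro rfl
      rw [Place.ord_zero] at hf
      exact lt_irrefl _ hf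
    have hcF : algebraMap K E c ≠ 0 :=
      fun h => hc ((algebraMap K E).injective (by rw [h, map_zero]))
    rw [Algebra.smul_def, P.ord_mul hcF hf0, ord_algebraMap, zero_add]
    exact hf

theorem mem_vanishAt {K E : Type*} [Field K] [Field E] [Algebra K E] {P : Place K E} {f : E} :
    f ∈ vanishAt P ↔ f = 0 ∨ 0 < P.ord f := Iff.rfl

variable {A : ValuationSubring L} {π : ↥A →+* k} {G : Subring F} {red : ↥G →+* Ft}
  {r : Place L F → Place k Ft}

variable (C : RedCtx A π G red r) (HL : LHyp L F) (HLt : LHyp k Ft)
  (hP : ∀ T : Finset (Place k Ft), ∃ P : Place L F, r P ∉ T)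

include C HL HLt hP

/-- **(L1)** `n` Gauss-integral elements of `W` with `k`-linearly independent reductions. -/
theorem exists_indep_red (S : Finset (Place k Ft)) :
    ∀ (n : ℕ) (W : Submodule L F), Module.finrank L W = n →
      (∀ f ∈ W, ∀ P : Place L F, r P ∉ S → 0 ≤ P.ord f) →
      ∃ φ : Fin n → Ft, LinearIndependent k φ ∧ ∀ i, ∃ f ∈ W, IsRedOf G red f (φ i) := by
  classical
  intro n
  induction n with
  | zero =>
    intro W _ _
    exact ⟨Fin.elim0, linearIndependent_empty_type, fun i => i.elim0⟩
  | succ n ih =>
    intro W hW hreg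
    have : Module.Finite L W := Module.finite_of_finrank_pos (by rw [hW]; exact Nat.succ_pos n)
    -- a nonzero element of `W`, scaled to a Gauss unit
    obtain ⟨f₀, hf₀W, hf₀⟩ : ∃ f ∈ W, f ≠ 0 := by
      by_contra hcon
      push Not at hcon
      have : W = ⊥ := by
        rw [eq_bot_iff]
        intro f hf
        rw [Submodule.mem_bot]
        exact hcon f hf
      rw [this, finrank_bot] at hW
      exact Nat.succ_ne_zero n hW.symm
    obtain ⟨c, hc, hgu⟩ := C.scale f₀ hf₀
    set u : F := (algebraMap L F c)⁻¹ * f₀ with hu
    have huW : u ∈ W := by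
      have : u = c⁻¹ • f₀ := by rw [hu, Algebra.smul_def, map_inv₀]
      rw [this]
      exact W.smul_mem _ hf₀W
    obtain ⟨φ₀, hφ₀0, hφ₀⟩ := hgu.exists_isRedOf
    have hu0 : u ≠ 0 := hgu.ne_zero
    -- a place `P` with `w = r P` outside `S` and outside the divisor of `φ₀`
    obtain ⟨Dφ, hDφ, -⟩ := HLt.principal φ₀ hφ₀0
    obtain ⟨P, hPw⟩ := hP (S ∪ Dφ.support)
    have hwS : r P ∉ S := fun h => hPw (Finset.mem_union_left _ h)
    have hwφ : (r P).ord φ₀ = 0 := by
      have : r P ∉ Dφ.support := fun h => hPw (Finset.mem_union_right _ h)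
      rw [Finsupp.notMem_support_iff, hDφ] at this
      exact this
    -- elements of `W` are regular on the disc of `r P`
    have hdisc : ∀ f ∈ W, ∀ P' : Place L F, r P' = r P → 0 ≤ P'.ord f := by
      intro f hf P' hP'
      exact hreg f hf P' (by rw [hP']; exact hwS)
    -- `ord_P u = 0`
    have huP : P.ord u = 0 := by
      have hge : 0 ≤ P.ord u := hdisc u huW P rfl
      by_contra hne
      have hpos : 0 < P.ord u := lt_of_le_of_ne hge (Ne.symm hne)
      have h1 := r1_isRedOf C HL u φ₀ hφ₀ hφ₀0 (divOf HL hu0) (fun P => divOf_apply HL hu0 P) (r P)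
      have h2 : 0 < Finsupp.mapDomain r (divOf HL hu0) (r P) := by
        apply mapDomain_apply_pos
        · intro P' hP'
          rw [divOf_apply]
          exact hdisc u huW P' hP'
        · rw [divOf_apply]; exact hpos
      rw [h1, hwφ] at h2
      exact lt_irrefl _ h2
    have hu_not : u ∉ vanishAt P := by
      rintro (h | h)
      · exact hu0 h
      · rw [huP] at h; exact lt_irrefl _ h
    -- the value of `u` at `P`
    have huO : u ∈ P.toValuationSubring := mem_of_ord_nonneg P (by rw [huP])
    obtain ⟨cu, hcu⟩ := HL.residue P u huO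
    have hcu0 : cu ≠ 0 := by
      rintro rfl
      rw [map_zero, sub_zero] at hcu
      rcases hcu with h | h
      · exact hu0 h
      · rw [huP] at h; exact lt_irrefl _ h
    have hucu : u - algebraMap L F cu ∈ vanishAt P := by
      rcases hcu with h | h
      · left; rw [h, sub_self]
      · by_cases h0 : u - algebraMap L F cu = 0
        · exact Or.inl h0
        · exact Or.inr h
    -- the hyperplane `W' = W ⊓ vanishAt P`
    set W' : Submodule L F := W ⊓ vanishAt P with hW'
    have hW'le : W' ≤ W := inf_le_left
    have hdecomp : W ≤ W' ⊔ Submodule.span L {u} := by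
      intro f hf
      have hfO : f ∈ P.toValuationSubring := by
        rw [mem_iff_ord_nonneg]
        exact Or.inr (hdisc f hf P rfl)
      obtain ⟨cf, hcf⟩ := HL.residue P f hfO
      have hfcf : f - algebraMap L F cf ∈ vanishAt P := by
        rcases hcf with h | h
        · left; rw [h, sub_self]
        · by_cases h0 : f - algebraMap L F cf = 0
          · exact Or.inl h0
          · exact Or.inr h
      have hkey : f - (cf / cu) • u ∈ vanishAt P := by
        have : f - (cf / cu) • u =
            (f - algebraMap L F cf) - (cf / cu) • (u - algebraMap L F cu) := by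
          rw [smul_sub, Algebra.smul_def (cf / cu) (algebraMap L F cu), ← map_mul,
            div_mul_cancel₀ cf hcu0]
          ring
        rw [this]
        exact Submodule.sub_mem _ hfcf (Submodule.smul_mem _ _ hucu)
      have h1 : f - (cf / cu) • u ∈ W' :=
        ⟨W.sub_mem hf (W.smul_mem _ huW), hkey⟩
      have h2 : (cf / cu) • u ∈ Submodule.span L {u} :=
        Submodule.smul_mem _ _ (Submodule.mem_span_singleton_self u)
      have : f = (f - (cf / cu) • u) + (cf / cu) • u := by ring
      rw [this]
      exact Submodule.add_mem_sup h1 h2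
    have hfinW' : Module.finrank L W' = n := by
      have hlt : W' < W := by
        refine lt_of_le_of_ne hW'le fun heq => hu_not ?_
        have : u ∈ W' := by rw [heq]; exact huW
        exact this.2
      have h1 : Module.finrank L W' < Module.finrank L W :=
        Submodule.finrank_lt_finrank_of_lt hlt
      have : Module.Finite L W' := Submodule.finiteDimensional_of_le hW'le
      have h2 : Module.finrank L W ≤ Module.finrank L ↥(W' ⊔ Submodule.span L {u}) :=
        Submodule.finrank_mono hdecomp
      have h3 : Module.finrank L ↥(W' ⊔ Submodule.span L {u}) ≤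
          Module.finrank L W' + Module.finrank L ↥(Submodule.span L {u}) :=
        Submodule.finrank_add_le_finrank_add_finrank _ _
      have h4 : Module.finrank L ↥(Submodule.span L {u}) = 1 := finrank_span_singleton hu0
      omega
    obtain ⟨φ', hφ'ind, hφ'⟩ := ih W' hfinW' (fun f hf => hreg f (hW'le hf))
    -- the reductions of elements of `W'` vanish at `r P`
    have hvan : ∀ i, φ' i ∈ vanishAt (r P) := by
      intro i
      obtain ⟨f, hfW', hfφ⟩ := hφ' i
      have hφi0 : φ' i ≠ 0 := hφ'ind.ne_zero i
      have hf0 : f ≠ 0 := (hfφ.isGU hφi0).ne_zero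
      right
      have h1 := r1_isRedOf C HL f (φ' i) hfφ hφi0 (divOf HL hf0)
        (fun P => divOf_apply HL hf0 P) (r P)
      rw [← h1]
      apply mapDomain_apply_pos
      · intro P' hP'
        rw [divOf_apply]
        exact hdisc f (hW'le hfW') P' hP'
      · rw [divOf_apply]
        rcases hfW'.2 with h | h
        · exact absurd h hf0
        · exact h
    have hφ₀_not : φ₀ ∉ vanishAt (r P) := by
      rintro (h | h)
      · exact hφ₀0 h
      · rw [hwφ] at h; exact lt_irrefl _ h
    refine ⟨Fin.cons φ₀ φ', ?_, ?_⟩
    · rw [linearIndependent_finCons]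
      refine ⟨hφ'ind, fun hmem => hφ₀_not ?_⟩
      have hle : Submodule.span k (Set.range φ') ≤ vanishAt (r P) := by
        rw [Submodule.span_le]
        rintro _ ⟨i, rfl⟩
        exact hvan i
      exact hle hmem
    · intro i
      refine Fin.cases ?_ (fun j => ?_) i
      · exact ⟨u, huW, by simpa using hφ₀⟩
      · obtain ⟨f, hfW', hfφ⟩ := hφ' j
        exact ⟨f, hW'le hfW', by simpa using hfφ⟩

/-- **Upper semicontinuity**: `l(D) ≤ l̃(r_* D)`. -/
theorem finrank_L_le (D : Divisor L F) :
    Module.finrank L (riemannRochSpace D) ≤
      Module.finrank k (riemannRochSpace (Finsupp.mapDomain r D)) := by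
  classical
  have := finiteDimensional_L HLt (Finsupp.mapDomain r D)
  obtain ⟨φ, hind, hφ⟩ := exists_indep_red C HL HLt hP (D.support.image r)
    (Module.finrank L (riemannRochSpace D)) (riemannRochSpace D) rfl (by
      intro f hf P hPS
      rcases mem_riemannRochSpace_iff.mp hf P with h | h
      · rw [h, Place.ord_zero]
      · have hD : D P = 0 := by
          by_contra hne
          exact hPS (Finset.mem_image_of_mem r (Finsupp.mem_support_iff.mpr hne))
        rw [hD] at h
        simpa using h)
  have hmem : ∀ i, φ i ∈ riemannRochSpace (Finsupp.mapDomain r D) := by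
    intro i
    obtain ⟨f, hfD, hfφ⟩ := hφ i
    exact red_mem_L C HL D f (φ i) hfφ (hind.ne_zero i) hfD
  have hind' : LinearIndependent k
      (fun i => (⟨φ i, hmem i⟩ : riemannRochSpace (Finsupp.mapDomain r D))) := by
    apply LinearIndependent.of_comp (riemannRochSpace (Finsupp.mapDomain r D)).subtype
    exact hind
  have := hind'.fintype_card_le_finrank
  simpa using this

end Fermat.Agent.ES.X44.LatticeRed26
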