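/-
Programme X (S44), chapter (LL′), leaf (NC) (helper17): **THE LEVEL-`K` LITERAL `LevelXi`**
(statement only; border between the level-`K` Lemma A of (NC) and the passage `K → ℚ̄`).

`K₀ ≤ K` number fields, `t₀ ∈ K₀·F_N`, `B₀ := chart (A ∩ K₀) t₀`, `B_K := chart (A ∩ K) (bcLe t₀)`;
`P` a place of `ℚ̄·F_N` lying in both charts (`InCh`), `𝔪₀ := centreAt h₀ ⊂ B₀`.  If `x₀ y₀ = π₀ e₀` in `B₀`
with `x₀, y₀ ∈ 𝔪₀`, `e₀ ∉ 𝔪₀`, `𝔪₀ = (x₀, y₀)` up to denominators, and `P|_K` is rational, then there is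
`a ∈ 𝔪_{A ∩ K}`, `a ≠ 0`, `a c = π₀ ε` with `c ∈ 𝔪_{A ∩ K}`, `ε` a unit, such that `ξ := bcLe x₀ - a` has
order `1` at `P|_K` and order `0` at every other place of `K·F_N` through the centre of `P` on `B_K`.
-/
import Mathlib
import Fermat.Agent.ES.W33.NodeDict11
import Fermat.Agent.ES.X44.BcLeChart17

set_option autoImplicit false
set_option linter.unusedSectionVars false
set_option synthInstance.maxHeartbeats 400000

noncomputable section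

namespace Fermat.Agent.ES.X44.LevelXiLit17

open AlgebraicCurve IsLocalRing Polynomial
open Fermat.Agent.RED.Interface4 Fermat.Agent.RED.DESC Fermat.Agent.RED.PUR.ChartGeneric22
  Fermat.Agent.ES.N34.GalRational1 Fermat.Agent.ES.N34.NodeAsm6
  Fermat.Agent.ES.P36.ConstUnram1 Fermat.Agent.ES.W33.PlaceRestrict13 Fermat.Agent.ES.W33.NodeDict11
  Fermat.Agent.ES.X44.BcLeChart17

/-- **the level-`K` form of the clause `val` of (NC).** -/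
def LevelXi (N : ℕ) [NeZero N] (A : ValuationSubring Qbar) : Prop :=
  ∀ (K₀ K : IntermediateField ℚ Qbar) (_ : FiniteDimensional ℚ K₀) (_ : FiniteDimensional ℚ K)
    (hle : K₀ ≤ K) (t₀ : FK N K₀)
    (_fin0 : ∃ (r : ℕ) (e : Fin r → FK N K₀), (∀ i, e i ∈ chart ↥(AK A K₀) t₀) ∧
      ∀ x ∈ chart ↥(AK A K₀) t₀, ∃ Q : Fin r → (↥(AK A K₀))[X],
        x = ∑ i, aeval t₀ (Q i) * e i)
    (_frac0 : ∀ x : FK N K₀, ∃ a ∈ chart ↥(AK A K₀) t₀, ∃ b ∈ chart ↥(AK A K₀) t₀,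
      b ≠ 0 ∧ x * b = a)
    (π₀ : ↥(AK A K₀)) (_ : π₀ ≠ 0)
    (x₀ y₀ e₀ : ↥(chart ↥(AK A K₀) t₀))
    (_ : x₀ * y₀ = algebraMap ↥(AK A K₀) ↥(chart ↥(AK A K₀) t₀) π₀ * e₀)
    (P : Place Qbar ↥(Fbar N)) (h₀ : InCh N A K₀ t₀ P) (hK : InCh N A K (bcLe N hle t₀) P)
    (_ : x₀ ∈ centreAt h₀) (_ : y₀ ∈ centreAt h₀) (_ : e₀ ∉ centreAt h₀)
    (_ : ∀ β ∈ centreAt h₀, ∃ d, d ∉ centreAt h₀ ∧ d * β ∈ Ideal.span {x₀, y₀})
    (_ : IsRational (restrictK N K P)),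
    haveI := Fermat.Agent.RED.NumInst4.isScalarTower_OE (AK A K) (FK N K)
    ∃ a : ↥(AK A K), a ≠ 0 ∧ a ∈ maximalIdeal ↥(AK A K) ∧
      (∃ c ∈ maximalIdeal ↥(AK A K), ∃ ε : (↥(AK A K))ˣ, a * c = inclAK A hle π₀ * ε) ∧
      (restrictK N K P).ord
        (bcLe N hle (x₀ : FK N K₀) - algebraMap ↥(AK A K) ↥(FK N K) a) = 1 ∧
      ∀ w : Place K (FK N K), Thr (chart ↥(AK A K) (bcLe N hle t₀)) (centreAt hK) w →
        w ≠ restrictK N K P →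
        w.ord (bcLe N hle (x₀ : FK N K₀) - algebraMap ↥(AK A K) ↥(FK N K) a) = 0

end Fermat.Agent.ES.X44.LevelXiLit17
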