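/-
Programme X (S44), chapter (LL′), leaf (NC) (helper17), brick 2: **separability of the residue
extension, in polynomial form** (Mathlib only).

`ι : R₀ → R` a local homomorphism of local rings with FINITE residue fields.  Every `a : R` is, modulo
`𝔪_R`, a SIMPLE root of a polynomial with coefficients in `R₀`:
`∃ μ : R₀[X], (μ.map ι)(a) ∈ 𝔪_R ∧ (μ.map ι)'(a) ∉ 𝔪_R`
(the minimal polynomial of the residue of `a` over the residue field of `R₀` is separable: finite fields
are perfect).  This is the hypothesis of `SubChartGen17.good_of_simple_root`.
-/
import Mathlib

set_option autoImplicit false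
set_option linter.style.haveILetI false

namespace Fermat.Agent.ES.X44.ResSep17

open Polynomial IsLocalRing

variable {R₀ R : Type*} [CommRing R₀] [CommRing R] [IsLocalRing R₀] [IsLocalRing R]

/-- **simple roots modulo the maximal ideal.** -/
theorem exists_simple_root (ι : R₀ →+* R) [IsLocalHom ι] [Finite (ResidueField R₀)]
    [Finite (ResidueField R)] (a : R) :
    ∃ μ : R₀[X], (μ.map ι).eval a ∈ maximalIdeal R ∧
      (derivative (μ.map ι)).eval a ∉ maximalIdeal R := by
  classical
  set φ : ResidueField R₀ →+* ResidueField R := ResidueField.map ι with hφ
  letI : Algebra (ResidueField R₀) (ResidueField R) := φ.toAlgebra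
  haveI : Module.Finite (ResidueField R₀) (ResidueField R) := Module.Finite.of_finite
  set abar : ResidueField R := residue R a with habar
  have hint : IsIntegral (ResidueField R₀) abar := Algebra.IsIntegral.isIntegral abar
  set m : (ResidueField R₀)[X] := minpoly (ResidueField R₀) abar with hm
  have hirr : Irreducible m := minpoly.irreducible hint
  have hsep : m.Separable := PerfectField.separable_of_irreducible hirr
  have hroot : aeval abar m = 0 := minpoly.aeval _ _
  have hder : aeval abar (derivative m) ≠ 0 := hsep.aeval_derivative_ne_zero hroot
  obtain ⟨μ, hμ⟩ := Polynomial.map_surjective (residue R₀) residue_surjective m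
  have hcomp : (residue R).comp ι = φ.comp (residue R₀) := by
    ext x
    simp only [RingHom.comp_apply, hφ]
    exact (ResidueField.map_residue ι x).symm
  have hmap : (μ.map ι).map (residue R) = m.map φ := by
    rw [Polynomial.map_map, hcomp, ← Polynomial.map_map, hμ]
  have hev : ∀ g : R₀[X], g.map (residue R₀) = m →
      residue R ((g.map ι).eval a) = aeval abar m := by
    intro g hg
    have h1 : (g.map ι).map (residue R) = m.map φ := by
      rw [Polynomial.map_map, hcomp, ← Polynomial.map_map, hg]
    rw [← eval_map_apply, h1, habar]
    rw [aeval_def, eval₂_eq_eval_map]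
    rfl
  refine ⟨μ, ?_, ?_⟩
  · rw [← residue_eq_zero_iff, hev μ hμ, hroot]
  · rw [← residue_eq_zero_iff, derivative_map]
    have h2 : residue R (((derivative μ).map ι).eval a) = aeval abar (derivative m) := by
      have h1 : ((derivative μ).map ι).map (residue R) = (derivative m).map φ := by
        rw [Polynomial.map_map, hcomp, ← Polynomial.map_map, ← derivative_map, hμ]
      rw [← eval_map_apply, h1, habar]
      rw [aeval_def, eval₂_eq_eval_map]
      rfl
    rw [h2]
    exact hder

end Fermat.Agent.ES.X44.ResSep17
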