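/-
Programme X (S44), chapter (LL′), leaf (NC) (helper17), brick 1: **local generation of the closed point
of a SUB-chart** (pure commutative algebra, Mathlib only).

`B` a commutative `R`-algebra, `ev : B →ₐ[R] R` a section, `π : R` prime, `J` an ideal of `B`
containing `π`.  `Good ev π J b` : some `d` with `π ∤ ev d` has `d * (b - ev b) ∈ J`.

* `good_algebraMap`, `good_add`, `good_mul`, `good_of_mem_adjoin` : the good elements form an
  `R`-subalgebra;
* `good_of_simple_root` : `b` is good as soon as SOME polynomial `μ ∈ R[X]` has `μ (ev b) ≡ 0`,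
  `μ' (ev b) ≢ 0` modulo `π` and `d₀ * μ(b) ∈ J` for some `d₀` with `π ∤ ev d₀`
  (the residue extension is separable and `μ(b)` lies in the closed point of the chart below);
* `exists_mul_mem_of_dvd` : if `B` is generated by good elements, the closed point
  `𝔪 = ev⁻¹(π R)` is generated by `J` up to denominators outside `𝔪` — the hypothesis `hgen` of
  `N34/LocNodePlace6` (Lemma A) with `J = (π, x, y)`.
-/
import Mathlib

set_option autoImplicit false

namespace Fermat.Agent.ES.X44.SubChartGen17

open Polynomial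

variable {R B : Type*} [CommRing R] [CommRing B] [Algebra R B]

/-- `b ≡ ev b` modulo `J`, up to a denominator outside the closed point. -/
def Good (ev : B →ₐ[R] R) (π : R) (J : Ideal B) (b : B) : Prop :=
  ∃ d : B, ¬ π ∣ ev d ∧ d * (b - algebraMap R B (ev b)) ∈ J

variable {ev : B →ₐ[R] R} {π : R} {J : Ideal B}

theorem ev_algebraMap (r : R) : ev (algebraMap R B r) = r := by
  rw [AlgHom.commutes]; rfl

theorem good_algebraMap (hπ : Prime π) (r : R) : Good ev π J (algebraMap R B r) := by
  refine ⟨1, ?_, ?_⟩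
  · rw [map_one]
    exact fun h => hπ.not_isUnit (isUnit_of_dvd_one h)
  · rw [ev_algebraMap, sub_self, mul_zero]
    exact J.zero_mem

theorem good_add (hπ : Prime π) {b c : B} (hb : Good ev π J b) (hc : Good ev π J c) :
    Good ev π J (b + c) := by
  obtain ⟨d, hd, hdb⟩ := hb
  obtain ⟨d', hd', hdc⟩ := hc
  refine ⟨d * d', ?_, ?_⟩
  · rw [map_mul]
    exact fun h => (hπ.dvd_or_dvd h).elim hd hd'
  · have : d * d' * (b + c - algebraMap R B (ev (b + c)))
        = d' * (d * (b - algebraMap R B (ev b))) + d * (d' * (c - algebraMap R B (ev c))) := by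
      rw [map_add, map_add]; ring
    rw [this]
    exact J.add_mem (J.mul_mem_left _ hdb) (J.mul_mem_left _ hdc)

theorem good_mul (hπ : Prime π) {b c : B} (hb : Good ev π J b) (hc : Good ev π J c) :
    Good ev π J (b * c) := by
  obtain ⟨d, hd, hdb⟩ := hb
  obtain ⟨d', hd', hdc⟩ := hc
  refine ⟨d * d', ?_, ?_⟩
  · rw [map_mul]
    exact fun h => (hπ.dvd_or_dvd h).elim hd hd'
  · have : d * d' * (b * c - algebraMap R B (ev (b * c)))
        = (d' * c) * (d * (b - algebraMap R B (ev b)))
          + (d * algebraMap R B (ev b)) * (d' * (c - algebraMap R B (ev c))) := by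
      rw [map_mul, map_mul]; ring
    rw [this]
    exact J.add_mem (J.mul_mem_left _ hdb) (J.mul_mem_left _ hdc)

/-- the good elements form a subalgebra. -/
theorem good_of_mem_adjoin (hπ : Prime π) {S : Set B} (hS : ∀ s ∈ S, Good ev π J s) {b : B}
    (hb : b ∈ Algebra.adjoin R S) : Good ev π J b := by
  induction hb using Algebra.adjoin_induction with
  | mem x hx => exact hS x hx
  | algebraMap r => exact good_algebraMap hπ r
  | add x y _ _ hx hy => exact good_add hπ hx hy
  | mul x y _ _ hx hy => exact good_mul hπ hx hy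

/-- **an element whose value is a simple root modulo `π` of a polynomial vanishing on it modulo `J`
is good.** -/
theorem good_of_simple_root (hπ : Prime π) (hπJ : algebraMap R B π ∈ J) (b : B) (μ : R[X])
    (hμ : π ∣ μ.eval (ev b)) (hμ' : ¬ π ∣ (derivative μ).eval (ev b))
    (hJ : ∃ d₀ : B, ¬ π ∣ ev d₀ ∧ d₀ * aeval b μ ∈ J) : Good ev π J b := by
  obtain ⟨d₀, hd₀, hd₀J⟩ := hJ
  set a' : B := algebraMap R B (ev b) with ha'
  set y : B := b - a' with hy
  set f : B[X] := μ.map (algebraMap R B) with hf
  obtain ⟨k, hk⟩ := Polynomial.binomExpansion f a' y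
  have hb : a' + y = b := by rw [hy]; ring
  have h1 : eval b f = aeval b μ := by
    rw [hf, eval_map_algebraMap]
  have h2 : eval a' f = algebraMap R B (μ.eval (ev b)) := by
    rw [hf, ha', eval_map_algebraMap, aeval_algebraMap_apply, coe_aeval_eq_eval]
  have h3 : eval a' (derivative f) = algebraMap R B ((derivative μ).eval (ev b)) := by
    rw [hf, derivative_map, ha', eval_map_algebraMap, aeval_algebraMap_apply, coe_aeval_eq_eval]
  rw [hb, h1, h2, h3] at hk
  have hevy : ev y = 0 := by
    rw [hy, map_sub, ha', ev_algebraMap, sub_self]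
  refine ⟨d₀ * (algebraMap R B ((derivative μ).eval (ev b)) + k * y), ?_, ?_⟩
  · rw [map_mul, map_add, map_mul, hevy, mul_zero, add_zero, ev_algebraMap]
    exact fun h => (hπ.dvd_or_dvd h).elim hd₀ hμ'
  · have : d₀ * (algebraMap R B ((derivative μ).eval (ev b)) + k * y) * y
        = d₀ * aeval b μ - d₀ * algebraMap R B (μ.eval (ev b)) := by
      rw [hk]; ring
    rw [this]
    refine J.sub_mem hd₀J (J.mul_mem_left _ ?_)
    obtain ⟨c, hc⟩ := hμ
    rw [hc, map_mul]
    exact J.mul_mem_right _ hπJ

/-- **the closed point `ev⁻¹(π R)` is generated by `J` up to denominators**, if `B` is generated by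
good elements. -/
theorem exists_mul_mem_of_dvd (hπ : Prime π) (hπJ : algebraMap R B π ∈ J) {S : Set B}
    (hS : ∀ s ∈ S, Good ev π J s) (htop : Algebra.adjoin R S = ⊤) (b : B) (hb : π ∣ ev b) :
    ∃ d : B, ¬ π ∣ ev d ∧ d * b ∈ J := by
  have hmem : b ∈ Algebra.adjoin R S := by rw [htop]; exact Algebra.mem_top
  obtain ⟨d, hd, hdb⟩ := good_of_mem_adjoin hπ hS hmem
  refine ⟨d, hd, ?_⟩
  have : d * b = d * (b - algebraMap R B (ev b)) + d * algebraMap R B (ev b) := by ring
  rw [this]
  refine J.add_mem hdb (J.mul_mem_left _ ?_)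
  obtain ⟨c, hc⟩ := hb
  rw [hc, map_mul]
  exact J.mul_mem_right _ hπJ

end Fermat.Agent.ES.X44.SubChartGen17
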