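/-
Programme X (S44), chapter (LL′), leaf (NC) (helper17), brick 3: **Lemma A on a sub-chart generated by
a chart of an unramified level** (abstract; `N34/LocNodePlace6` + `SubChartGen17`).

* `good_of_below` : `φ : B₀ → B` a ring homomorphism over `ι : R₀ → R`; `x₀ y₀ ∈ B₀` generate the closed
  point `(ev ∘ φ)⁻¹(π R)` of `B₀` up to denominators; every `a : R` is a simple root modulo `π` of a
  polynomial over `R₀` (`ResSep17.exists_simple_root`).  Then every `φ β` is `Good` for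
  `J ∋ π, φ x₀, φ y₀`.
* `ord_xi_of_node` : `B ⊂ F` a noetherian chart over the DVR `R`, `ev` a section with closed point `𝔪`,
  `x y e ∈ B`, `x, y ∈ 𝔪`, `e ∉ 𝔪`, `x y = π ^ E u e` (`u` a unit of `R`), `𝔪 = (π, x, y)` up to
  denominators.  Then `a := ev x ≠ 0`, `a c = π ^ E u (ev e)` with `π ∣ c`, `ev e` a unit, and
  `ξ := x - a` has order `1` at the place of the section and order `0` at every other place through `𝔪`.
-/
import Mathlib
import Fermat.Agent.ES.N34.LocNodePlace6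
import Fermat.Agent.ES.X44.SubChartGen17

set_option autoImplicit false
set_option linter.unusedSectionVars false

namespace Fermat.Agent.ES.X44.SubChartA17

open AlgebraicCurve Polynomial Fermat.Agent.ES.N34.LocNodePlace6 Fermat.Agent.ES.X44.SubChartGen17

section Below

variable {R₀ R B₀ B : Type*} [CommRing R₀] [CommRing R] [CommRing B₀] [CommRing B]
  [Algebra R₀ B₀] [Algebra R B]

/-- **elements coming from the chart below are good.** -/
theorem good_of_below (ev : B →ₐ[R] R) (π : R) (hπ : Prime π) (J : Ideal B)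
    (hπJ : algebraMap R B π ∈ J) (ι : R₀ →+* R) (φ : B₀ →+* B)
    (hφ : ∀ r, φ (algebraMap R₀ B₀ r) = algebraMap R B (ι r))
    (x₀ y₀ : B₀) (hxJ : φ x₀ ∈ J) (hyJ : φ y₀ ∈ J)
    (hloc : ∀ β : B₀, π ∣ ev (φ β) →
      ∃ d : B₀, ¬ π ∣ ev (φ d) ∧ d * β ∈ Ideal.span {x₀, y₀})
    (hsep : ∀ a : R, ∃ μ₀ : R₀[X], π ∣ (μ₀.map ι).eval a ∧
      ¬ π ∣ (derivative (μ₀.map ι)).eval a) (β : B₀) : Good ev π J (φ β) := by
  obtain ⟨μ₀, h1, h2⟩ := hsep (ev (φ β))
  have hcomp : (algebraMap R B).comp ι = φ.comp (algebraMap R₀ B₀) := by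
    ext r
    exact (hφ r).symm
  have key : aeval (φ β) (μ₀.map ι) = φ (aeval β μ₀) := by
    rw [aeval_def, eval₂_map, hcomp, aeval_def, hom_eval₂]
  have hdvd : π ∣ ev (φ (aeval β μ₀)) := by
    rw [← key, ← aeval_algHom_apply, coe_aeval_eq_eval]
    exact h1
  obtain ⟨d, hd, hdβ⟩ := hloc _ hdvd
  refine good_of_simple_root hπ hπJ (φ β) (μ₀.map ι) h1 h2 ⟨φ d, hd, ?_⟩
  rw [key, ← map_mul]
  obtain ⟨a, b, hab⟩ := Ideal.mem_span_pair.mp hdβ
  rw [← hab, map_add, map_mul, map_mul]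
  exact J.add_mem (J.mul_mem_left _ hxJ) (J.mul_mem_left _ hyJ)

end Below

section LemmaA

variable {R K F : Type*} [CommRing R] [IsDomain R] [IsDiscreteValuationRing R] [Field K] [Field F]
  [Algebra R K] [Algebra K F] [Algebra R F] [IsScalarTower R K F]

/-- **Lemma A at a node of thickness `E`, with the values.** -/
theorem ord_xi_of_node (B : Subalgebra R F) [IsNoetherianRing B] (π : R) (hπ : Irreducible π)
    (hπK : algebraMap R K π ≠ 0) (ev : B →ₐ[R] R) (𝔪 : Ideal B) [h𝔪p : 𝔪.IsPrime]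
    (h𝔪 : ∀ b, b ∈ 𝔪 ↔ π ∣ ev b) (x y e : B) (hx : x ∈ 𝔪) (hy : y ∈ 𝔪) (he : e ∉ 𝔪)
    (E : ℕ) (u : R) (hu : IsUnit u) (hxy : x * y = algebraMap R B (π ^ E * u) * e)
    (hgen : ∀ b ∈ 𝔪, ∃ d, d ∉ 𝔪 ∧ d * b ∈ Ideal.span {algebraMap R B π, x, y})
    (frac : ∀ z : F, ∃ a b : B, b ≠ 0 ∧ z * (b : F) = (a : F))
    (v : Place K F) (hv : IsPointOf B ev v) :
    (ev x ≠ 0 ∧ IsUnit (ev e) ∧ ∃ c : R, π ∣ c ∧ ev x * c = π ^ E * u * ev e) ∧
      v.ord ((x - algebraMap R B (ev x) : B) : F) = 1 ∧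
      ∀ w : Place K F, Through B 𝔪 w → w ≠ v →
        w.ord ((x - algebraMap R B (ev x) : B) : F) = 0 := by
  have hπ0 : π ≠ 0 := hπ.ne_zero
  have hevalg : ∀ r : R, ev (algebraMap R B r) = r := fun r => by
    rw [AlgHom.commutes]; rfl
  -- `ev e` is a unit
  have heu : IsUnit (ev e) := by
    by_contra hnu
    apply he
    rw [h𝔪]
    have h1 : ev e ∈ IsLocalRing.maximalIdeal R := (IsLocalRing.mem_maximalIdeal _).2 hnu
    rw [hπ.maximalIdeal_eq] at h1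
    exact Ideal.mem_span_singleton.1 h1
  obtain ⟨y', hy'⟩ := (h𝔪 y).1 hy
  have hprod : ev x * ev y = π ^ E * u * ev e := by
    have := congrArg ev hxy
    rwa [map_mul, map_mul, hevalg] at this
  obtain ⟨ε, hε⟩ := hu.mul heu
  have hγ : π ^ E = ev x * (π * (y' * ((ε⁻¹ : Rˣ) : R))) := by
    have h1 : ev x * (π * (y' * ((ε⁻¹ : Rˣ) : R))) = (ev x * ev y) * ((ε⁻¹ : Rˣ) : R) := by
      rw [hy']; ring
    rw [h1, hprod, mul_assoc (π ^ E), ← hε, mul_assoc, Units.mul_inv, mul_one]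
  have hx0 : ev x ≠ 0 := by
    intro h0
    rw [h0, zero_mul] at hγ
    exact pow_ne_zero E hπ0 hγ
  have hd0 : (1 : B) ∉ 𝔪 := fun h1 => h𝔪p.ne_top ((Ideal.eq_top_iff_one 𝔪).mpr h1)
  have hxy' : (1 : B) * (x * y) = algebraMap R B π ^ E * (algebraMap R B u * e) := by
    rw [one_mul, hxy, map_mul, map_pow]; ring
  refine ⟨⟨hx0, heu, ev y, (h𝔪 y).1 hy, hprod⟩, ?_, ?_⟩
  · exact ord_xi_eq_one B π hπ ev 𝔪 h𝔪 x y hx hy hgen E 1 (algebraMap R B u * e) hd0 hxy'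
      (y' * ((ε⁻¹ : Rˣ) : R)) hγ frac v hv
  · intro w hw hwv
    exact ord_xi_eq_zero B π hπ ev 𝔪 h𝔪 x y hx hy hgen E 1 (algebraMap R B u * e) hd0 hxy'
      (y' * ((ε⁻¹ : Rˣ) : R)) hγ hπK frac v hv w hw hwv

end LemmaA

end Fermat.Agent.ES.X44.SubChartA17
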