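/-
Programme X (S44), chapter (LL′), leaf (NC) (helper17), brick 5b: **THE SUB-CHART**
`B′ := (A ∩ K)[bcLe (chart (A ∩ K₀) t₀)] ⊂ chart (A ∩ K) (bcLe t₀)` of the level-`K` chart generated by
the chart of a smaller level `K₀ ≤ K`.

* `subChart`, `bcLe_mem_subChart`, `t_mem_subChart`, `subChart_le_chart`;
* `isNoetherianRing_subChart` : `B′` is a finitely generated `(A ∩ K)`-algebra (from `fin0` at `K₀`);
* `adjoin_preimage_eq_top` : `B′` is generated by the images of the elements of the chart below;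
* `frac_subChart` : `K·F_N = Frac B′` (from `Frac (chart below) = K₀·F_N` and
  `P36/ConstUnram1.exists_aeval_eq`).
-/
import Mathlib
import Fermat.Agent.ES.X44.BcLeChart17

set_option autoImplicit false
set_option linter.unusedSectionVars false
set_option linter.style.haveILetI false
set_option synthInstance.maxHeartbeats 400000

noncomputable section

namespace Fermat.Agent.ES.X44.SubChartK17

open Polynomial HahnSeries IntermediateField
open Fermat.Agent.RED.Interface4 Fermat.Agent.RED.DESC Fermat.Agent.RED.PUR.ChartGeneric22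
  Fermat.Agent.ES.P36.ConstUnram1 Fermat.Agent.ES.X44.BcLeChart17

variable (A : ValuationSubring Qbar) (N : ℕ) {K₀ K : IntermediateField ℚ Qbar} (hle : K₀ ≤ K)
  (t₀ : FK N K₀)

/-- **the sub-chart** generated over `A ∩ K` by the chart of the level `K₀`. -/
def subChart : Subalgebra ↥(AK A K) ↥(FK N K) :=
  Algebra.adjoin ↥(AK A K) ((bcLe N hle) '' (chart ↥(AK A K₀) t₀ : Set ↥(FK N K₀)))

variable {A N} {t₀}

theorem bcLe_mem_subChart {b : FK N K₀} (hb : b ∈ chart ↥(AK A K₀) t₀) :
    bcLe N hle b ∈ subChart A N hle t₀ :=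
  Algebra.subset_adjoin ⟨b, hb, rfl⟩

variable (A N t₀)

theorem t_mem_subChart : bcLe N hle t₀ ∈ subChart A N hle t₀ :=
  bcLe_mem_subChart hle (self_mem_chart t₀)

theorem subChart_le_chart : subChart A N hle t₀ ≤ chart ↥(AK A K) (bcLe N hle t₀) := by
  unfold subChart
  rw [Algebra.adjoin_le_iff]
  rintro _ ⟨b, hb, rfl⟩
  exact bcLe_mem_chart A N hle t₀ b hb

/-- `B′` is generated by the images of the elements of the chart below. -/
theorem adjoin_preimage_eq_top :
    Algebra.adjoin ↥(AK A K)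
      {s : ↥(subChart A N hle t₀) | ∃ b ∈ chart ↥(AK A K₀) t₀, (s : FK N K) = bcLe N hle b} = ⊤ := by
  have h := Algebra.adjoin_adjoin_coe_preimage (R := ↥(AK A K))
    (s := (bcLe N hle) '' (chart ↥(AK A K₀) t₀ : Set ↥(FK N K₀)))
  have hset : {s : ↥(subChart A N hle t₀) | ∃ b ∈ chart ↥(AK A K₀) t₀, (s : FK N K) = bcLe N hle b}
      = ((↑) : ↥(subChart A N hle t₀) → FK N K) ⁻¹'
          ((bcLe N hle) '' (chart ↥(AK A K₀) t₀ : Set ↥(FK N K₀))) := by
    ext s
    constructor
    · rintro ⟨b, hb, hs⟩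
      exact ⟨b, hb, hs.symm⟩
    · rintro ⟨b, hb, hs⟩
      exact ⟨b, hb, hs.symm⟩
  rw [hset]
  exact h

/-- **`B′` is noetherian.** -/
theorem isNoetherianRing_subChart [IsNoetherianRing ↥(AK A K)]
    (fin0 : ∃ (r : ℕ) (e : Fin r → FK N K₀), (∀ i, e i ∈ chart ↥(AK A K₀) t₀) ∧
      ∀ x ∈ chart ↥(AK A K₀) t₀, ∃ P : Fin r → (↥(AK A K₀))[X],
        x = ∑ i, aeval t₀ (P i) * e i) :
    IsNoetherianRing ↥(subChart A N hle t₀) := by
  classical
  obtain ⟨r, e, he, hgen⟩ := fin0
  set s : Finset (FK N K) := insert (bcLe N hle t₀) (Finset.univ.image fun i => bcLe N hle (e i))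
    with hs
  have heq : subChart A N hle t₀ = Algebra.adjoin ↥(AK A K) (s : Set (FK N K)) := by
    apply le_antisymm
    · unfold subChart
      rw [Algebra.adjoin_le_iff]
      rintro _ ⟨b, hb, rfl⟩
      obtain ⟨P, hP⟩ := hgen b hb
      rw [hP, map_sum]
      refine Subalgebra.sum_mem _ fun i _ => ?_
      rw [map_mul, bcLe_aeval]
      refine Subalgebra.mul_mem _ ?_ ?_
      · have h1 : aeval (bcLe N hle t₀) ((P i).map (inclAK A hle)) ∈
            Algebra.adjoin ↥(AK A K) {bcLe N hle t₀} := aeval_mem_adjoin_singleton _ _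
        refine Algebra.adjoin_mono ?_ h1
        intro z hz
        rw [Set.mem_singleton_iff] at hz
        rw [hz, hs]
        exact Finset.mem_coe.mpr (Finset.mem_insert_self _ _)
      · refine Algebra.subset_adjoin ?_
        rw [hs]
        exact Finset.mem_coe.mpr (Finset.mem_insert_of_mem
          (Finset.mem_image.mpr ⟨i, Finset.mem_univ i, rfl⟩))
    · rw [Algebra.adjoin_le_iff]
      intro z hz
      rw [hs] at hz
      rcases Finset.mem_insert.mp (Finset.mem_coe.mp hz) with rfl | hz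
      · exact t_mem_subChart A N hle t₀
      · obtain ⟨i, -, rfl⟩ := Finset.mem_image.mp hz
        exact bcLe_mem_subChart hle (he i)
  have hfg : (subChart A N hle t₀).FG := by
    rw [heq]; exact Subalgebra.fg_adjoin_finset s
  haveI : Algebra.FiniteType ↥(AK A K) ↥(subChart A N hle t₀) :=
    (Subalgebra.fg_iff_finiteType _).mp hfg
  exact Algebra.FiniteType.isNoetherianRing ↥(AK A K) ↥(subChart A N hle t₀)

end Fermat.Agent.ES.X44.SubChartK17
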