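/-
Programme X (S44), chapter (LL′), leaf (NC) (helper17), brick 5c: **`K·F_N` is the fraction field of
the sub-chart** `SubChartK17.subChart` (`K` a number field), from `Frac (chart below) = K₀·F_N`,
`K = Frac (A ∩ K)` and `P36/ConstUnram1.exists_aeval_eq`.
-/
import Mathlib
import Fermat.Agent.ES.X44.SubChartK17

set_option autoImplicit false
set_option linter.unusedSectionVars false
set_option linter.style.haveILetI false
set_option synthInstance.maxHeartbeats 400000

noncomputable section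

namespace Fermat.Agent.ES.X44.SubChartFrac17

open Polynomial HahnSeries IntermediateField
open Fermat.Agent.RED.Interface4 Fermat.Agent.RED.DESC Fermat.Agent.RED.PUR.ChartGeneric22
  Fermat.Agent.ES.P36.ConstUnram1 Fermat.Agent.ES.X44.BcLeChart17 Fermat.Agent.ES.X44.SubChartK17

section Generic

variable {R F : Type*} [CommRing R] [Field F] [Algebra R F] (B : Subalgebra R F)

/-- `z` is a fraction of elements of `B`. -/
def Fr (z : F) : Prop := ∃ a b : B, b ≠ 0 ∧ z * (b : F) = (a : F)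

variable {B}

theorem fr_of_mem {z : F} (hz : z ∈ B) : Fr B z :=
  ⟨⟨z, hz⟩, 1, one_ne_zero, by simp⟩

theorem fr_add {z z' : F} (h : Fr B z) (h' : Fr B z') : Fr B (z + z') := by
  obtain ⟨a, b, hb, hab⟩ := h
  obtain ⟨a', b', hb', hab'⟩ := h'
  refine ⟨a * b' + a' * b, b * b', mul_ne_zero hb hb', ?_⟩
  push_cast
  rw [← hab, ← hab']
  ring

theorem fr_mul {z z' : F} (h : Fr B z) (h' : Fr B z') : Fr B (z * z') := by
  obtain ⟨a, b, hb, hab⟩ := h
  obtain ⟨a', b', hb', hab'⟩ := h'
  refine ⟨a * a', b * b', mul_ne_zero hb hb', ?_⟩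
  push_cast
  rw [← hab, ← hab']
  ring

theorem fr_pow {z : F} (h : Fr B z) (n : ℕ) : Fr B (z ^ n) := by
  induction n with
  | zero => rw [pow_zero]; exact fr_of_mem B.one_mem
  | succ n ih => rw [pow_succ]; exact fr_mul ih h

theorem fr_sum {ι : Type*} (s : Finset ι) (f : ι → F) (h : ∀ i ∈ s, Fr B (f i)) :
    Fr B (∑ i ∈ s, f i) := by
  classical
  induction s using Finset.induction_on with
  | empty => rw [Finset.sum_empty]; exact fr_of_mem B.zero_mem
  | insert i s hi ih =>
    rw [Finset.sum_insert hi]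
    exact fr_add (h i (Finset.mem_insert_self i s))
      (ih fun j hj => h j (Finset.mem_insert_of_mem hj))

end Generic

variable (A : ValuationSubring Qbar) (N : ℕ) {K₀ K : IntermediateField ℚ Qbar} (hle : K₀ ≤ K)
  (t₀ : FK N K₀)

set_option maxHeartbeats 1600000 in
/-- **`K·F_N = Frac B′`.** -/
theorem frac_subChart [FiniteDimensional ℚ K]
    (frac0 : ∀ x : FK N K₀, ∃ a ∈ chart ↥(AK A K₀) t₀, ∃ b ∈ chart ↥(AK A K₀) t₀,
      b ≠ 0 ∧ x * b = a)
    (fracR : IsFractionRing ↥(AK A K) K) (z : FK N K) :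
    ∃ a b : ↥(subChart A N hle t₀), b ≠ 0 ∧ z * (b : FK N K) = (a : FK N K) := by
  -- images of functions of the level `K₀`
  have hbc : ∀ z₀ : FK N K₀, Fr (subChart A N hle t₀) (bcLe N hle z₀) := by
    intro z₀
    obtain ⟨a, ha, b, hb, hb0, hab⟩ := frac0 z₀
    refine ⟨⟨bcLe N hle a, bcLe_mem_subChart hle ha⟩, ⟨bcLe N hle b, bcLe_mem_subChart hle hb⟩,
      ?_, ?_⟩
    · intro h0
      have h1 : bcLe N hle b = 0 := congrArg Subtype.val h0
      exact hb0 ((map_eq_zero (bcLe N hle)).mp h1)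
    · show bcLe N hle z₀ * bcLe N hle b = bcLe N hle a
      rw [← map_mul, hab]
  -- constants
  have hconst : ∀ c : K, Fr (subChart A N hle t₀) (algebraMap K (FK N K) c) := by
    intro c
    obtain ⟨⟨a, r⟩, har⟩ := IsLocalization.surj (nonZeroDivisors ↥(AK A K)) c
    have hr0 : (r : ↥(AK A K)) ≠ 0 := nonZeroDivisors.coe_ne_zero r
    refine ⟨algebraMap ↥(AK A K) ↥(subChart A N hle t₀) a,
      algebraMap ↥(AK A K) ↥(subChart A N hle t₀) (r : ↥(AK A K)), ?_, ?_⟩
    · intro h0
      have h1 : algebraMap ↥(AK A K) ↥(FK N K) (r : ↥(AK A K)) = 0 := congrArg Subtype.val h0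
      have h2 : algebraMap K (FK N K) (algebraMap ↥(AK A K) K (r : ↥(AK A K))) = 0 := h1
      rw [map_eq_zero] at h2
      exact hr0 ((map_eq_zero_iff _ (IsFractionRing.injective ↥(AK A K) K)).mp h2)
    · show algebraMap K (FK N K) c * algebraMap K (FK N K) (algebraMap ↥(AK A K) K (r : ↥(AK A K)))
        = algebraMap K (FK N K) (algebraMap ↥(AK A K) K a)
      rw [← map_mul]
      exact congrArg _ har
  -- a primitive element
  obtain ⟨θ, hθ⟩ := Field.exists_primitive_element ℚ K
  have hθint : IsIntegral ℚ θ := Algebra.IsIntegral.isIntegral θ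
  have hprim : ∀ c : K, ∃ r : ℚ[X], c = aeval θ r := by
    intro c
    have hc : c ∈ (ℚ⟮θ⟯).toSubalgebra := by rw [hθ]; trivial
    rw [adjoin_simple_toSubalgebra_of_isAlgebraic hθint.isAlgebraic,
      Algebra.adjoin_singleton_eq_range_aeval] at hc
    obtain ⟨r, hr⟩ := hc
    exact ⟨r, hr.symm⟩
  letI : Algebra (FK N K₀) (FK N K) := (bcLe N hle).toAlgebra
  obtain ⟨G, hG⟩ := exists_aeval_eq N hle θ hprim z
  rw [hG, aeval_eq_sum_range]
  refine fr_sum _ _ fun i _ => ?_
  rw [Algebra.smul_def]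
  exact fr_mul (hbc (G.coeff i)) (fr_pow (hconst θ) i)

end Fermat.Agent.ES.X44.SubChartFrac17
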