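/-
Programme X (S44), chapter (LL′), leaf (NC) (helper17), brick 6: **PROOF OF THE LEVEL-`K` LITERAL
`LevelXiLit17.LevelXi`** — Lemma A (`N34/LocNodePlace6`, through `SubChartA17.ord_xi_of_node`) on the
sub-chart `B′ = (A ∩ K)[bcLe B₀]` (`SubChartK17`), whose closed point is generated by
`(π_K, x₀, y₀)` up to denominators (`SubChartGen17` + `ResSep17`).
-/
import Mathlib
import Fermat.Agent.ES.N34.PlaceSec10
import Fermat.Agent.ES.X44.LevelXiLit17
import Fermat.Agent.ES.X44.CentreBcLe17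
import Fermat.Agent.ES.X44.SubChartFrac17
import Fermat.Agent.ES.X44.SubChartA17
import Fermat.Agent.ES.X44.ResSep17

set_option autoImplicit false
set_option linter.unusedSectionVars false
set_option linter.style.haveILetI false
set_option synthInstance.maxHeartbeats 400000

noncomputable section

namespace Fermat.Agent.ES.X44.LevelXi17

open AlgebraicCurve IsLocalRing Polynomial
open Fermat.Agent.RED.Interface4 Fermat.Agent.RED.DESC Fermat.Agent.RED.PUR.ChartGeneric22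
  Fermat.Agent.RED.PUR.GaussGen8
  Fermat.Agent.ES.N34.GalRational1 Fermat.Agent.ES.N34.NodeAsm6 Fermat.Agent.ES.N34.PlaceSec10
  Fermat.Agent.ES.N34.LocNodePlace6
  Fermat.Agent.ES.P36.ConstUnram1 Fermat.Agent.ES.W33.PlaceRestrict13 Fermat.Agent.ES.W33.NodeDict11
  Fermat.Agent.ES.X44.BcLeChart17 Fermat.Agent.ES.X44.SubChartK17 Fermat.Agent.ES.X44.SubChartFrac17
  Fermat.Agent.ES.X44.SubChartGen17 Fermat.Agent.ES.X44.SubChartA17 Fermat.Agent.ES.X44.CentreBcLe17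
  Fermat.Agent.ES.X44.LevelXiLit17

variable {N : ℕ} [NeZero N] {A : ValuationSubring Qbar}

set_option maxHeartbeats 3200000 in
/-- **the level-`K` form of `val`.** -/
theorem levelXi {ℓ : ℕ} (hℓ : ℓ.Prime) (hA : A.LiesOverPrime ℓ) : LevelXi N A := by
  intro K₀ K hfd₀ hfd hle t₀ fin0 frac0 π₀ hπ₀ne x₀ y₀ e₀ hxy P h₀ hK hx₀ hy₀ he₀ hloc hrat
  haveI := Fermat.Agent.RED.NumInst4.isScalarTower_OE (AK A K) (FK N K)
  haveI hdvr : IsDiscreteValuationRing ↥(AK A K) :=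
    NumberFieldDVR27.isDiscreteValuationRing_AK A K hℓ.ne_zero hA
  haveI hdvr₀ : IsDiscreteValuationRing ↥(AK A K₀) :=
    NumberFieldDVR27.isDiscreteValuationRing_AK A K₀ hℓ.ne_zero hA
  haveI : Finite (ResidueField ↥(AK A K)) :=
    NumberFieldDVR27.finite_residueField_AK A K hℓ.ne_zero hA
  haveI : Finite (ResidueField ↥(AK A K₀)) :=
    NumberFieldDVR27.finite_residueField_AK A K₀ hℓ.ne_zero hA
  obtain ⟨π, hπ⟩ := IsDiscreteValuationRing.exists_irreducible ↥(AK A K)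
  have hπu : IsUnif (AK A K) π := isUnif_of_irreducible (AK A K) hπ
  have hπp : Prime π := hπ.prime
  have hmaxπ : ∀ r : ↥(AK A K), r ∈ maximalIdeal ↥(AK A K) ↔ π ∣ r := fun r => by
    rw [hπ.maximalIdeal_eq, Ideal.mem_span_singleton]
  -- the sub-chart
  have hB'le : subChart A N hle t₀ ≤ chart ↥(AK A K) (bcLe N hle t₀) :=
    subChart_le_chart A N hle t₀
  haveI : IsNoetherianRing ↥(subChart A N hle t₀) := isNoetherianRing_subChart A N hle t₀ fin0
  -- the closed point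
  haveI hcp : (centreAt hK).IsPrime := centreAt_isPrime hK
  set 𝔪' : Ideal ↥(subChart A N hle t₀) :=
    Ideal.comap (Subalgebra.inclusion hB'le) (centreAt hK) with h𝔪'def
  haveI h𝔪'p : 𝔪'.IsPrime := Ideal.comap_isPrime _ _
  have hmem𝔪' : ∀ b : ↥(subChart A N hle t₀),
      b ∈ 𝔪' ↔ Subalgebra.inclusion hB'le b ∈ centreAt hK := fun b => Iff.rfl
  have hπ𝔪 : algebraMap ↥(AK A K) ↥(subChart A N hle t₀) π ∈ 𝔪' := by
    rw [hmem𝔪', AlgHom.commutes]
    exact pi_mem_centreAt hK hπu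
  -- the place and its section
  have hthr := thr_centreAt hK
  have hv : (∀ b ∈ subChart A N hle t₀, b ∈ (restrictK N K P).toValuationSubring) ∧
      ∀ b : ↥(subChart A N hle t₀),
        ((b : FK N K))⁻¹ ∉ (restrictK N K P).toValuationSubring → b ∈ 𝔪' :=
    ⟨fun b hb => hthr.1 b (hB'le hb), fun b hb => hthr.2 (Subalgebra.inclusion hB'le b) hb⟩
  have hint0 : ∀ x ∈ subChart A N hle t₀,
      IsIntegral (Algebra.adjoin ↥(AK A K) {bcLe N hle t₀}) x := fun x hx => hB'le hx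
  obtain ⟨ev, hev, h𝔪⟩ := exists_section_of_rational (K := K) π hπ (bcLe N hle t₀)
    (subChart A N hle t₀) (t_mem_subChart A N hle t₀) inferInstance hint0 𝔪' h𝔪'p.ne_top hπ𝔪
    (restrictK N K P) hrat hv
  -- the map from the chart below
  set φ' : ↥(chart ↥(AK A K₀) t₀) →+* ↥(subChart A N hle t₀) :=
    RingHom.codRestrict ((bcLe N hle).comp (chart ↥(AK A K₀) t₀).val.toRingHom)
      (subChart A N hle t₀) (fun β => bcLe_mem_subChart hle β.2) with hφ'def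
  have hφ'coe : ∀ β, ((φ' β : ↥(subChart A N hle t₀)) : FK N K) = bcLe N hle (β : FK N K₀) :=
    fun β => rfl
  have hφ : ∀ r : ↥(AK A K₀), φ' (algebraMap ↥(AK A K₀) ↥(chart ↥(AK A K₀) t₀) r) =
      algebraMap ↥(AK A K) ↥(subChart A N hle t₀) (inclAK A hle r) := fun r =>
    Subtype.ext (bcLe_algebraMap_AK A N hle r)
  -- contraction of the closed point
  have hcontr : ∀ β : ↥(chart ↥(AK A K₀) t₀), π ∣ ev (φ' β) ↔ β ∈ centreAt h₀ := by
    intro β
    rw [← h𝔪, hmem𝔪', ← mem_centreAt_bcLe_iff hle h₀ hK β]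
    have : Subalgebra.inclusion hB'le (φ' β) = up hle β := Subtype.ext rfl
    rw [this]
  -- separability of the residue extension
  have hsep : ∀ a : ↥(AK A K), ∃ μ₀ : (↥(AK A K₀))[X],
      π ∣ (μ₀.map (inclAK A hle)).eval a ∧
        ¬ π ∣ (derivative (μ₀.map (inclAK A hle))).eval a := by
    intro a
    obtain ⟨μ₀, h1, h2⟩ := Fermat.Agent.ES.X44.ResSep17.exists_simple_root (inclAK A hle) a
    exact ⟨μ₀, (hmaxπ _).1 h1, fun h => h2 ((hmaxπ _).2 h)⟩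
  -- local generation of the closed point of the sub-chart
  set J : Ideal ↥(subChart A N hle t₀) :=
    Ideal.span {algebraMap ↥(AK A K) ↥(subChart A N hle t₀) π, φ' x₀, φ' y₀} with hJ
  have hπJ : algebraMap ↥(AK A K) ↥(subChart A N hle t₀) π ∈ J :=
    Ideal.subset_span (Set.mem_insert _ _)
  have hxJ : φ' x₀ ∈ J :=
    Ideal.subset_span (Set.mem_insert_of_mem _ (Set.mem_insert _ _))
  have hyJ : φ' y₀ ∈ J :=
    Ideal.subset_span (Set.mem_insert_of_mem _ (Set.mem_insert_of_mem _ (Set.mem_singleton _)))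
  have hloc' : ∀ β : ↥(chart ↥(AK A K₀) t₀), π ∣ ev (φ' β) →
      ∃ d : ↥(chart ↥(AK A K₀) t₀), ¬ π ∣ ev (φ' d) ∧ d * β ∈ Ideal.span {x₀, y₀} := by
    intro β hβ
    obtain ⟨d, hd, hdβ⟩ := hloc β ((hcontr β).1 hβ)
    exact ⟨d, fun h => hd ((hcontr d).1 h), hdβ⟩
  have hS : ∀ s ∈ {s : ↥(subChart A N hle t₀) |
      ∃ b ∈ chart ↥(AK A K₀) t₀, (s : FK N K) = bcLe N hle b}, Good ev π J s := by
    rintro s ⟨b, hb, hs⟩
    have hsφ : s = φ' ⟨b, hb⟩ := Subtype.ext hs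
    rw [hsφ]
    exact good_of_below ev π hπp J hπJ (inclAK A hle) φ' hφ x₀ y₀ hxJ hyJ hloc' hsep ⟨b, hb⟩
  have hgen : ∀ b ∈ 𝔪', ∃ d, d ∉ 𝔪' ∧ d * b ∈
      Ideal.span {algebraMap ↥(AK A K) ↥(subChart A N hle t₀) π, φ' x₀, φ' y₀} := by
    intro b hb
    obtain ⟨d, hd, hdb⟩ := exists_mul_mem_of_dvd hπp hπJ hS (adjoin_preimage_eq_top A N hle t₀) b
      ((h𝔪 b).1 hb)
    exact ⟨d, fun h => hd ((h𝔪 d).1 h), hdb⟩
  -- the relation
  have hincl0 : inclAK A hle π₀ ≠ 0 := by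
    intro h0
    apply hπ₀ne
    have h1 : ((inclAK A hle π₀ : ↥(AK A K)) : K) = 0 := by rw [h0]; rfl
    rw [coe_inclAK] at h1
    have h2 : (((π₀ : ↥(AK A K₀)) : K₀) : Qbar) = 0 := congrArg (fun z : K => (z : Qbar)) h1
    exact Subtype.ext (Subtype.ext h2)
  obtain ⟨E, u, hEu⟩ := IsDiscreteValuationRing.eq_unit_mul_pow_irreducible hincl0 hπ
  have hrel : φ' x₀ * φ' y₀ =
      algebraMap ↥(AK A K) ↥(subChart A N hle t₀) (π ^ E * (u : ↥(AK A K))) * φ' e₀ := by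
    rw [← map_mul, hxy, map_mul, hφ, hEu, mul_comm (u : ↥(AK A K))]
  have hπK : algebraMap ↥(AK A K) K π ≠ 0 := by
    intro h0
    exact hπ.ne_zero (Subtype.ext h0)
  have hfrac := frac_subChart A N hle t₀ frac0 inferInstance
  obtain ⟨⟨ha0, heu, c, hπc, hprod⟩, hord1, hord0⟩ :=
    ord_xi_of_node (K := K) (subChart A N hle t₀) π hπ hπK ev 𝔪' h𝔪 (φ' x₀) (φ' y₀) (φ' e₀)
      ((h𝔪 _).2 ((hcontr x₀).2 hx₀)) ((h𝔪 _).2 ((hcontr y₀).2 hy₀))
      (fun h => he₀ ((hcontr e₀).1 ((h𝔪 _).1 h))) E (u : ↥(AK A K)) u.isUnit hrel hgen hfrac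
      (restrictK N K P) hev
  refine ⟨ev (φ' x₀), ha0, (hmaxπ _).2 ((hcontr x₀).2 hx₀), ⟨c, (hmaxπ _).2 hπc, heu.unit, ?_⟩,
    hord1, fun w hw hwv => hord0 w ⟨fun b => hw.1 b (hB'le b.2), fun b hb => ?_⟩ hwv⟩
  · rw [hprod, hEu, IsUnit.unit_spec, mul_comm (u : ↥(AK A K))]
  · by_contra hcon
    exact hb (hw.2 (Subalgebra.inclusion hB'le b) hcon)

end Fermat.Agent.ES.X44.LevelXi17
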