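/-
Programme X (S44), chapter (QP), leaf L3 (helper26): **the reduction of a regular Gauss-integral
differential is regular**, in the abstract reduction context `SupTrick15.RedCtx`.

Setting: `RedCtx A π G red r`, `HL : LHyp L F`, `x : F`, `xt : Ft` with the differential interface
`KaehlerLit26.KaehlerHyp` on both fibres, and the two inputs
* `DRed`  : derivatives are compatible with reduction: if `T` reduces to `Tt`, `d Tt ≠ 0`,
            `dx = c • dT` and `d xt = ct • d Tt` then `c` reduces to `ct`
            (at the instance: `c = θx / θT` on `q`-expansions);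
* `Unif`  : every place `w` of the special fibre has a Gauss-integral `T`, regular on the residue
            disc of `w` (which is nonempty), whose reduction `Tt` is a uniformiser at `w`.
Then (`regRed`) `h • dx` regular everywhere and `h` reduces to `ht` ⇒ `ht • d xt` regular everywhere.

Local proof at `w`: `T - T(P)` is a uniformiser at every `P` of the disc (`r1`), so
`h • dx = (h c) • dT` with `h c` regular on the disc; `r1` again gives `ord_w (ht ct) ≥ 0`.
No comparison of canonical divisors, no ramification theory.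
-/
import Mathlib
import Fermat.Agent.ES.X44.KaehlerLit26
import Fermat.Agent.ES.V19.SupTrick15

set_option autoImplicit false

open AlgebraicCurve KaehlerDifferential

namespace Fermat.Agent.ES.X44.RegRed26

open Fermat.Agent.X0.FF Fermat.Agent.RR.LSpace Fermat.Agent.ES.V19.GaussFrac15
  Fermat.Agent.ES.V19.SupTrick15 Fermat.Agent.ES.X44.KaehlerLit26

variable {L F k Ft : Type*} [Field L] [Field F] [Algebra L F] [Field k] [Field Ft] [Algebra k Ft]

/-- a single coefficient on the fibre is bounded by the push-forward, when the divisor is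
nonnegative on the fibre. -/
theorem le_mapDomain_apply {α β : Type*} (r : α → β) (D : α →₀ ℤ) (P₀ : α)
    (h : ∀ P, r P = r P₀ → 0 ≤ D P) : D P₀ ≤ Finsupp.mapDomain r D (r P₀) := by
  classical
  rw [mapDomain_apply_eq_sum]
  by_cases hmem : P₀ ∈ D.support
  · refine le_trans ?_ (Finset.single_le_sum (f := fun P => if r P = r P₀ then D P else 0)
      (fun P _ => ?_) hmem)
    · simp
    · show 0 ≤ if r P = r P₀ then D P else 0
      split_ifs with hP
      · exact h P hP
      · exact le_refl _
  · rw [Finsupp.notMem_support_iff] at hmem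
    rw [hmem]
    refine Finset.sum_nonneg fun P _ => ?_
    split_ifs with hP
    · exact h P hP
    · exact le_refl _

variable {A : ValuationSubring L} {π : ↥A →+* k} {G : Subring F} {red : ↥G →+* Ft}
  {r : Place L F → Place k Ft}

section Eval

variable (C : RedCtx A π G red r) (HL : LHyp L F)

include C HL

/-- **Evaluation commutes with reduction**: `f` Gauss-integral with reduction `φ`, regular on the
residue disc of `r P`, with value `c` at `P`: then `c ∈ A` and `φ` has value `π c` at `r P`. -/
theorem eval_red (f : F) (φ : Ft) (hf : IsRedOf G red f φ) (P : Place L F)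
    (hreg : ∀ P' : Place L F, r P' = r P → 0 ≤ P'.ord f) (c : L)
    (hc : f = algebraMap L F c ∨ 0 < P.ord (f - algebraMap L F c)) :
    ∃ hcA : c ∈ A, φ = algebraMap k Ft (π ⟨c, hcA⟩) ∨
      0 < (r P).ord (φ - algebraMap k Ft (π ⟨c, hcA⟩)) := by
  -- `c ∈ A`
  have hcA : c ∈ A := by
    rcases hc with hc | hc
    · exact C.mem_of_const_isGI c (hc ▸ hf.isGI)
    by_contra hcA
    obtain ⟨hinv, hnu⟩ := inv_nonunit_of_notMem hcA
    have hc0 : c ≠ 0 := fun h => hcA (by rw [h]; exact A.zero_mem)
    have hcF : algebraMap L F c ≠ 0 :=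
      fun h => hc0 ((algebraMap L F).injective (by rw [h, map_zero]))
    -- `g = 1 - c⁻¹ f` reduces to `1`, is regular on the disc and vanishes at `P`
    set g : F := 1 - algebraMap L F c⁻¹ * f with hg
    have hgred : IsRedOf G red g 1 := by
      have h1 := (C.isRedOf_const ⟨c⁻¹, hinv⟩).mul hf
      rw [C.pi_nonunit _ hnu, map_zero, zero_mul] at h1
      have := isRedOf_one.sub h1
      rwa [sub_zero] at this
    have hg0 : g ≠ 0 := (hgred.isGU one_ne_zero).ne_zero
    have hgeq : g = -(algebraMap L F c⁻¹) * (f - algebraMap L F c) := by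
      rw [hg, map_inv₀]
      field_simp
      ring
    have hfc0 : f - algebraMap L F c ≠ 0 := by
      intro h0
      rw [h0, Place.ord_zero] at hc
      exact lt_irrefl _ hc
    have hinvF : -(algebraMap L F c⁻¹) ≠ 0 := by
      rw [neg_ne_zero, map_inv₀]
      exact inv_ne_zero hcF
    have hordg : ∀ P' : Place L F, P'.ord g = P'.ord (f - algebraMap L F c) := by
      intro P'
      rw [hgeq, P'.ord_mul hinvF hfc0, ← map_neg, ord_algebraMap, zero_add]
    have hregfc : ∀ P' : Place L F, r P' = r P → 0 ≤ P'.ord (f - algebraMap L F c) := by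
      intro P' hP'
      refine le_trans ?_ (ord_sub_ge P' hfc0)
      rw [ord_algebraMap]
      exact le_min (hreg P' hP') (le_refl _)
    have h1 := r1_isRedOf C HL g 1 hgred one_ne_zero (divOf HL hg0)
      (fun P => divOf_apply HL hg0 P) (r P)
    have h2 : 0 < Finsupp.mapDomain r (divOf HL hg0) (r P) := by
      apply mapDomain_apply_pos
      · intro P' hP'
        rw [divOf_apply, hordg]
        exact hregfc P' hP'
      · rw [divOf_apply, hordg]
        exact hc
    rw [h1, Place.ord_one] at h2
    exact lt_irrefl _ h2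
  refine ⟨hcA, ?_⟩
  have hsub : IsRedOf G red (f - algebraMap L F c) (φ - algebraMap k Ft (π ⟨c, hcA⟩)) :=
    hf.sub (C.isRedOf_const ⟨c, hcA⟩)
  rcases hc with hc | hc
  · left
    have h0 : IsRedOf G red (f - algebraMap L F c) 0 := by
      rw [hc, sub_self]; exact isRedOf_zero
    exact sub_eq_zero.mp (hsub.unique h0)
  by_cases hφ : φ - algebraMap k Ft (π ⟨c, hcA⟩) = 0
  · exact Or.inl (sub_eq_zero.mp hφ)
  right
  have hfc0 : f - algebraMap L F c ≠ 0 := by
    intro h0
    rw [h0, Place.ord_zero] at hc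
    exact lt_irrefl _ hc
  have h1 := r1_isRedOf C HL _ _ hsub hφ (divOf HL hfc0) (fun P => divOf_apply HL hfc0 P) (r P)
  rw [← h1]
  apply mapDomain_apply_pos
  · intro P' hP'
    rw [divOf_apply]
    refine le_trans ?_ (ord_sub_ge P' hfc0)
    rw [ord_algebraMap]
    exact le_min (hreg P' hP') (le_refl _)
  · rw [divOf_apply]; exact hc

/-- **A lift of a uniformiser is a coordinate on the whole residue disc.**  `T` Gauss-integral,
regular on the disc of `w = r P`, with reduction `Tt` of order `1` at `w`: then `T - T(P)` has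
order `1` at `P`. -/
theorem exists_ord_sub_eq_one (T : F) (Tt : Ft) (hT : IsRedOf G red T Tt) (P : Place L F)
    (hreg : ∀ P' : Place L F, r P' = r P → 0 ≤ P'.ord T) (hTt : (r P).ord Tt = 1) :
    ∃ c : L, P.ord (T - algebraMap L F c) = 1 := by
  have hTO : T ∈ P.toValuationSubring := mem_of_ord_nonneg P (hreg P rfl)
  obtain ⟨c, hc⟩ := HL.residue P T hTO
  obtain ⟨hcA, hval⟩ := eval_red C HL T Tt hT P hreg c hc
  have hTt0 : Tt ≠ 0 := by
    rintro rfl
    rw [Place.ord_zero] at hTt
    exact zero_ne_one hTt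
  -- `π c = 0`
  have hπc : π ⟨c, hcA⟩ = 0 := by
    by_contra hne
    have hcne : algebraMap k Ft (π ⟨c, hcA⟩) ≠ 0 :=
      fun h => hne ((algebraMap k Ft).injective (by rw [h, map_zero]))
    rcases hval with h | h
    · rw [h, ord_algebraMap] at hTt
      exact zero_ne_one hTt
    · -- `π c = Tt - (Tt - π c)` would have positive order
      have hsub : Tt - (Tt - algebraMap k Ft (π ⟨c, hcA⟩)) ≠ 0 := by
        rw [sub_sub_cancel]; exact hcne
      have h1 := ord_sub_ge (r P) hsub
      rw [sub_sub_cancel, ord_algebraMap, hTt] at h1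
      have : (0 : ℤ) < min 1 ((r P).ord (Tt - algebraMap k Ft (π ⟨c, hcA⟩))) :=
        lt_min one_pos h
      omega
  have hred : IsRedOf G red (T - algebraMap L F c) Tt := by
    have := hT.sub (C.isRedOf_const ⟨c, hcA⟩)
    rwa [hπc, map_zero, sub_zero] at this
  have hu0 : T - algebraMap L F c ≠ 0 := (hred.isGU hTt0).ne_zero
  have hpos : 0 < P.ord (T - algebraMap L F c) := by
    rcases hc with h | h
    · exact absurd (by rw [h, sub_self]) hu0
    · exact h
  have hregu : ∀ P' : Place L F, r P' = r P → 0 ≤ P'.ord (T - algebraMap L F c) := by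
    intro P' hP'
    refine le_trans ?_ (ord_sub_ge P' hu0)
    rw [ord_algebraMap]
    exact le_min (hreg P' hP') (le_refl _)
  have h1 := r1_isRedOf C HL _ _ hred hTt0 (divOf HL hu0) (fun P => divOf_apply HL hu0 P) (r P)
  have h2 := le_mapDomain_apply r (divOf HL hu0) P (by
    intro P' hP'
    rw [divOf_apply]
    exact hregu P' hP')
  rw [h1, hTt, divOf_apply] at h2
  exact ⟨c, le_antisymm h2 hpos⟩

end Eval

section Main

variable (C : RedCtx A π G red r) (HL : LHyp L F)
  {x : F} {xt : Ft} (hK : KaehlerHyp L F x) (hKt : KaehlerHyp k Ft xt)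

/-- derivatives are compatible with reduction. -/
def DRed (G : Subring F) (red : ↥G →+* Ft) (x : F) (xt : Ft) : Prop :=
  ∀ (T : F) (Tt : Ft), IsRedOf G red T Tt → D k Ft Tt ≠ 0 → ∀ (c : F) (ct : Ft),
    D L F x = c • D L F T → D k Ft xt = ct • D k Ft Tt → IsRedOf G red c ct

/-- every place of the special fibre has a Gauss-integral coordinate on its (nonempty) disc. -/
def Unif (G : Subring F) (red : ↥G →+* Ft) (r : Place L F → Place k Ft) : Prop :=
  ∀ w : Place k Ft, ∃ (T : F) (Tt : Ft) (P₀ : Place L F), r P₀ = w ∧ IsRedOf G red T Tt ∧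
    w.ord Tt = 1 ∧ ∀ P : Place L F, r P = w → 0 ≤ P.ord T

include C HL hK hKt

/-- **(L3)** the reduction of a regular Gauss-integral differential is regular. -/
theorem regRed (hD : DRed (L := L) (k := k) G red x xt) (hU : Unif G red r)
    (h : F) (ht : Ft) (hh : IsRedOf G red h ht) (hreg : h ∈ regSpace hK) :
    ht ∈ regSpace hKt := by
  intro w
  obtain ⟨T, Tt, P₀, hP₀, hT, hTt, hTreg⟩ := hU w
  have hntt := hKt.nontrivial
  have hgent := hKt.gen w
  -- the differential of `Tt`
  obtain ⟨hDTt0, hDTtord⟩ := hKt.ord_D_unif w Tt hTt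
  -- the differential of `T` at the places of the disc
  have hDT : ∀ P : Place L F, r P = w → D L F T ≠ 0 ∧ P.ordDifferential (D L F T) = 0 := by
    intro P hP
    obtain ⟨c, hc⟩ := exists_ord_sub_eq_one C HL T Tt hT P
      (fun P' hP' => hTreg P' (by rw [hP', hP])) (by rw [hP]; exact hTt)
    have := hK.ord_D_unif P (T - algebraMap L F c) hc
    rwa [map_sub, Derivation.map_algebraMap, sub_zero] at this
  have hDT0 : D L F T ≠ 0 := (hDT P₀ hP₀).1
  -- `dx = c • dT`, `d xt = ct • d Tt`
  obtain ⟨e, he⟩ := hK.exists_eq_smul (D L F T)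
  have he0 : e ≠ 0 := by
    rintro rfl
    rw [zero_smul] at he
    exact hDT0 he
  have hc : D L F x = e⁻¹ • D L F T := by
    rw [he, smul_smul, inv_mul_cancel₀ he0, one_smul]
  obtain ⟨et, het⟩ := hKt.exists_eq_smul (D k Ft Tt)
  have het0 : et ≠ 0 := by
    rintro rfl
    rw [zero_smul] at het
    exact hDTt0 het
  have hct : D k Ft xt = et⁻¹ • D k Ft Tt := by
    rw [het, smul_smul, inv_mul_cancel₀ het0, one_smul]
  have hcred : IsRedOf G red e⁻¹ et⁻¹ := hD T Tt hT hDTt0 e⁻¹ et⁻¹ hc hct
  -- `ψ = h c` reduces to `ht ct`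
  have hψ : IsRedOf G red (h * e⁻¹) (ht * et⁻¹) := hh.mul hcred
  have hsmul : ht • D k Ft xt = (ht * et⁻¹) • D k Ft Tt := by
    rw [hct, smul_smul]
  rw [hsmul]
  by_cases hψt0 : ht * et⁻¹ = 0
  · rw [hψt0, zero_smul]
    unfold Place.ordDifferential
    rw [w.differentialCoeff_zero, Place.ord_zero]
  have hψ0 : h * e⁻¹ ≠ 0 := (hψ.isGU hψt0).ne_zero
  rw [hKt.ordDifferential_smul w hψt0 hDTt0, hDTtord, add_zero]
  -- `ψ` is regular on the disc
  have hψreg : ∀ P : Place L F, r P = w → 0 ≤ P.ord (h * e⁻¹) := by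
    intro P hP
    have h1 := hreg P
    have h2 : h • D L F x = (h * e⁻¹) • D L F T := by rw [hc, smul_smul]
    rw [h2, hK.ordDifferential_smul P hψ0 (hDT P hP).1, (hDT P hP).2, add_zero] at h1
    exact h1
  rw [← r1_isRedOf C HL _ _ hψ hψt0 (divOf HL hψ0) (fun P => divOf_apply HL hψ0 P) w]
  apply mapDomain_apply_nonneg
  intro P hP
  rw [divOf_apply]
  exact hψreg P hP

end Main

end Fermat.Agent.ES.X44.RegRed26
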