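/-
Programme X (S44), chapter (QP), leaf L4 (helper26): **every regular differential of the special
fibre is the reduction of a regular Gauss-integral differential of the generic fibre**, in the
abstract reduction context (`SupTrick15.RedCtx` + `KaehlerLit26.KaehlerHyp` on both fibres).

Inputs: L1 (`LatticeRed26.exists_indep_red`), L3 (`RegRed26.regRed`), and the dimension inequality
`dim_k (regSpace hKt) ≤ dim_L (regSpace hK)` (at the instance: K3 `dim ≤ g̃`, L2 `g̃ ≤ g`,
characteristic-zero Riemann–Roch `dim_L = g`), `regSpace hKt` finite-dimensional, `π` onto, and a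
finite set of discs outside which the elements of `regSpace hK` are regular.

`exists_lift` : `∀ φ ∈ regSpace hKt, ∃ h ∈ regSpace hK, IsRedOf G red h φ`.
-/
import Mathlib
import Fermat.Agent.ES.X44.LatticeRed26
import Fermat.Agent.ES.X44.RegRed26

set_option autoImplicit false

open AlgebraicCurve KaehlerDifferential

namespace Fermat.Agent.ES.X44.LiftReg26

open Fermat.Agent.X0.FF Fermat.Agent.RR.LSpace Fermat.Agent.ES.V19.GaussFrac15
  Fermat.Agent.ES.V19.SupTrick15 Fermat.Agent.ES.X44.KaehlerLit26 Fermat.Agent.ES.X44.RegRed26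

variable {L F k Ft : Type*} [Field L] [Field F] [Algebra L F] [Field k] [Field Ft] [Algebra k Ft]
  {A : ValuationSubring L} {π : ↥A →+* k} {G : Subring F} {red : ↥G →+* Ft}
  {r : Place L F → Place k Ft}

/-- reductions of finite sums. -/
theorem isRedOf_sum {ι : Type*} (s : Finset ι) (f : ι → F) (φ : ι → Ft)
    (h : ∀ i ∈ s, IsRedOf G red (f i) (φ i)) :
    IsRedOf G red (∑ i ∈ s, f i) (∑ i ∈ s, φ i) := by
  classical
  induction s using Finset.induction_on with
  | empty => simpa using (isRedOf_zero (G := G) (red := red))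
  | insert a s ha ih =>
    rw [Finset.sum_insert ha, Finset.sum_insert ha]
    exact (h a (Finset.mem_insert_self a s)).add
      (ih fun i hi => h i (Finset.mem_insert_of_mem hi))

variable (C : RedCtx A π G red r) (HL : LHyp L F) (HLt : LHyp k Ft)
  (hP : ∀ T : Finset (Place k Ft), ∃ P : Place L F, r P ∉ T)
  {x : F} {xt : Ft} (hK : KaehlerHyp L F x) (hKt : KaehlerHyp k Ft xt)

include C HL HLt hP in
/-- **(L4)** every regular differential of the special fibre lifts. -/
theorem exists_lift (hD : DRed (L := L) (k := k) G red x xt) (hU : Unif G red r)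
    (hπ : Function.Surjective π)
    (S : Finset (Place k Ft))
    (hS : ∀ f ∈ regSpace hK, ∀ P : Place L F, r P ∉ S → 0 ≤ P.ord f)
    [Module.Finite k (regSpace hKt)]
    (hle : Module.finrank k (regSpace hKt) ≤ Module.finrank L (regSpace hK))
    (φ : Ft) (hφ : φ ∈ regSpace hKt) :
    ∃ h ∈ regSpace hK, IsRedOf G red h φ := by
  classical
  set n := Module.finrank L (regSpace hK) with hn
  obtain ⟨ψ, hψind, hψ⟩ := Fermat.Agent.ES.X44.LatticeRed26.exists_indep_red C HL HLt hP S n
    (regSpace hK) rfl hS
  choose f hfW hfψ using hψ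
  -- the reductions lie in `regSpace hKt`
  have hmem : ∀ i, ψ i ∈ regSpace hKt := fun i =>
    regRed C HL hK hKt hD hU (f i) (ψ i) (hfψ i) (hfW i)
  set ψ' : Fin n → regSpace hKt := fun i => ⟨ψ i, hmem i⟩ with hψ'
  have hind' : LinearIndependent k ψ' := by
    apply LinearIndependent.of_comp (regSpace hKt).subtype
    exact hψind
  have hcard : Fintype.card (Fin n) = Module.finrank k (regSpace hKt) := by
    have h1 := hind'.fintype_card_le_finrank
    rw [Fintype.card_fin] at h1 ⊢
    omega
  have hspan := hind'.span_eq_top_of_card_eq_finrank' hcard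
  have hφmem : (⟨φ, hφ⟩ : regSpace hKt) ∈ Submodule.span k (Set.range ψ') := by
    rw [hspan]; exact Submodule.mem_top
  obtain ⟨c, hc⟩ := (Submodule.mem_span_range_iff_exists_fun k).mp hφmem
  have hc' : ∑ i, algebraMap k Ft (c i) * ψ i = φ := by
    have := congrArg (regSpace hKt).subtype hc
    simpa [map_sum, Algebra.smul_def, hψ'] using this
  choose a ha using fun i => hπ (c i)
  refine ⟨∑ i, algebraMap L F ((a i : ↥A) : L) * f i, ?_, ?_⟩
  · refine Submodule.sum_mem _ fun i _ => ?_
    rw [← Algebra.smul_def]
    exact Submodule.smul_mem _ _ (hfW i)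
  · rw [← hc']
    refine isRedOf_sum _ _ _ fun i _ => ?_
    have := (C.isRedOf_const (a i)).mul (hfψ i)
    rwa [ha i] at this

end Fermat.Agent.ES.X44.LiftReg26
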