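/-
Programme X (S44, spine `X44_SPINE14.md`), chapter (LL′), brick (LG) "slopes ⇒ local generators"
(helper11), ABSTRACT CORE — ONE NODE.

Setting: `F/K` a function field, `A` a valuation subring of the constants, `O₁ O₂` two subrings of `F`
(the two Gauss valuation rings) with residue maps `ρ₁ ρ₂` such that an element with nonzero residue is
a unit of `O_i`; constants of `A` lie in `O_i` and constants of `𝔪_A` have residue `0`.

Node data (helper17's (NC)): a set `thr` of places ("through the node"), a coordinate `x` with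
(g1) `x ∈ O₁`, `ρ₁ x ≠ 0`; (g2) `x / π₀ ∈ O₂`, `ρ₂ (x / π₀) ≠ 0` (thickness one); `ord_P x = 0` through
the node; and for every point `P` of `D` through the node a value `ξ_P ∈ 𝔪_A`, `ξ_P ≠ 0`,
`π₀ / ξ_P ∈ 𝔪_A`, with `ord_P (x - ξ_P) = 1` and `ord_{P'} (x - ξ_P) = 0` at the other places through
the node.

Slope datum ((W1)'s exit at this node, element form): `∏_{P ∈ S} ξ_P ^ D(P) = κ · π₀ ^ n · u`, `u ∈ Aˣ`,
where `S` is ANY finset with `P ∈ S ↔ P ∈ supp D ∧ P through the node` (no decidability instance in the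
statement).

Conclusion (= the clause of helper13's `LocGen` at this node, with `c := κ`):
`g := ∏_P (x - ξ_P) ^ D(P) · x ^ (-n)` has `ord_P g = D(P)` at every place through the node, is a unit of
`O₁` (`ρ₁ g ≠ 0`), and `κ⁻¹ g` is a unit of `O₂` (`ρ₂ (κ⁻¹ g) ≠ 0`).
-/
import Mathlib
import Fermat.Agent.X0.FFDict

set_option autoImplicit false

noncomputable section

namespace Fermat.Agent.ES.X44.LocGenAbs11

open AlgebraicCurve

variable {K F : Type*} [Field K] [Field F] [Algebra K F]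

/-! ### units of a subring of a field -/

/-- `f` is a unit of the subring `O` of the field `F`. -/
def IsU (O : Subring F) (f : F) : Prop := f ∈ O ∧ f⁻¹ ∈ O ∧ f ≠ 0

theorem IsU.one (O : Subring F) : IsU O (1 : F) :=
  ⟨O.one_mem, by rw [inv_one]; exact O.one_mem, one_ne_zero⟩

theorem IsU.mul {O : Subring F} {f g : F} (hf : IsU O f) (hg : IsU O g) : IsU O (f * g) :=
  ⟨O.mul_mem hf.1 hg.1, by rw [mul_inv]; exact O.mul_mem hf.2.1 hg.2.1, mul_ne_zero hf.2.2 hg.2.2⟩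

theorem IsU.inv {O : Subring F} {f : F} (hf : IsU O f) : IsU O f⁻¹ :=
  ⟨hf.2.1, by rw [inv_inv]; exact hf.1, inv_ne_zero hf.2.2⟩

theorem IsU.pow {O : Subring F} {f : F} (hf : IsU O f) (n : ℕ) : IsU O (f ^ n) :=
  ⟨O.pow_mem hf.1 n, by rw [← inv_pow]; exact O.pow_mem hf.2.1 n, pow_ne_zero n hf.2.2⟩

theorem IsU.zpow {O : Subring F} {f : F} (hf : IsU O f) (n : ℤ) : IsU O (f ^ n) := by
  cases n with
  | ofNat m =>
    rw [Int.ofNat_eq_natCast, zpow_natCast]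
    exact hf.pow m
  | negSucc m =>
    rw [zpow_negSucc]
    exact (hf.pow (m + 1)).inv

theorem IsU.prod {O : Subring F} {ι : Type*} (S : Finset ι) (f : ι → F)
    (hf : ∀ i ∈ S, IsU O (f i)) : IsU O (∏ i ∈ S, f i) := by
  classical
  induction S using Finset.induction_on with
  | empty => simpa using IsU.one O
  | insert a S ha ih =>
    rw [Finset.prod_insert ha]
    exact (hf a (Finset.mem_insert_self a S)).mul
      (ih fun i hi => hf i (Finset.mem_insert_of_mem hi))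

/-- a unit has nonzero residue. -/
theorem IsU.res_ne_zero {O : Subring F} {R : Type*} [CommRing R] [Nontrivial R] (ρ : ↥O →+* R)
    {f : F} (hf : IsU O f) : ρ ⟨f, hf.1⟩ ≠ 0 := by
  intro h0
  have h1 : ρ ⟨f, hf.1⟩ * ρ ⟨f⁻¹, hf.2.1⟩ = 1 := by
    rw [← map_mul]
    have : (⟨f, hf.1⟩ : ↥O) * ⟨f⁻¹, hf.2.1⟩ = 1 := Subtype.ext (mul_inv_cancel₀ hf.2.2)
    rw [this, map_one]
  rw [h0, zero_mul] at h1
  exact zero_ne_one h1

/-- an element with nonzero residue is a unit, under the hypothesis `hinv`. -/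
theorem isU_of_res_ne_zero {O : Subring F} {R : Type*} [CommRing R] (ρ : ↥O →+* R)
    (hinv : ∀ f : ↥O, ρ f ≠ 0 → (f : F)⁻¹ ∈ O) {f : F} (hf : f ∈ O) (h : ρ ⟨f, hf⟩ ≠ 0) :
    IsU O f := by
  refine ⟨hf, hinv ⟨f, hf⟩ h, ?_⟩
  rintro rfl
  apply h
  have : (⟨0, hf⟩ : ↥O) = 0 := rfl
  rw [this, map_zero]

/-! ### orders of products of powers -/

theorem ord_prod_zpow (w : Place K F) {ι : Type*} (S : Finset ι) (f : ι → F) (n : ι → ℤ)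
    (hf : ∀ i ∈ S, f i ≠ 0) :
    (∏ i ∈ S, f i ^ n i) ≠ 0 ∧ w.ord (∏ i ∈ S, f i ^ n i) = ∑ i ∈ S, n i * w.ord (f i) := by
  classical
  induction S using Finset.induction_on with
  | empty => simp
  | insert a S ha ih =>
    have hf' : ∀ i ∈ S, f i ≠ 0 := fun i hi => hf i (Finset.mem_insert_of_mem hi)
    obtain ⟨h0, hord⟩ := ih hf'
    have ha0 : f a ^ n a ≠ 0 := zpow_ne_zero _ (hf a (Finset.mem_insert_self a S))
    rw [Finset.prod_insert ha, Finset.sum_insert ha]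
    refine ⟨mul_ne_zero ha0 h0, ?_⟩
    rw [w.ord_mul ha0 h0, hord, Place.ord_zpow]

/-! ### the local generator at one node -/

section Node

variable {R₁ R₂ : Type*} [CommRing R₁] [Nontrivial R₁] [CommRing R₂] [Nontrivial R₂]

/-- **(LG), one node.** -/
theorem exists_locGen (A : ValuationSubring K)
    (O₁ O₂ : Subring F) (ρ₁ : ↥O₁ →+* R₁) (ρ₂ : ↥O₂ →+* R₂)
    (hinv₁ : ∀ f : ↥O₁, ρ₁ f ≠ 0 → (f : F)⁻¹ ∈ O₁)
    (hinv₂ : ∀ f : ↥O₂, ρ₂ f ≠ 0 → (f : F)⁻¹ ∈ O₂)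
    (hc₁ : ∀ a : K, a ∈ A → algebraMap K F a ∈ O₁)
    (hc₂ : ∀ a : K, a ∈ A → algebraMap K F a ∈ O₂)
    (hc₁0 : ∀ (a : K) (ha : a ∈ A), a ∈ A.nonunits → ρ₁ ⟨algebraMap K F a, hc₁ a ha⟩ = 0)
    (hc₂0 : ∀ (a : K) (ha : a ∈ A), a ∈ A.nonunits → ρ₂ ⟨algebraMap K F a, hc₂ a ha⟩ = 0)
    (thr : Place K F → Prop)
    (x : F) (π₀ : K) (hπ₀ : π₀ ≠ 0)
    (hx1 : ∃ h : x ∈ O₁, ρ₁ ⟨x, h⟩ ≠ 0)
    (hx2 : ∃ h : (algebraMap K F π₀)⁻¹ * x ∈ O₂, ρ₂ ⟨(algebraMap K F π₀)⁻¹ * x, h⟩ ≠ 0)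
    (hx0 : ∀ P : Place K F, thr P → P.ord x = 0)
    (D : Divisor K F) (S : Finset (Place K F)) (hSmem : ∀ P, P ∈ S ↔ P ∈ D.support ∧ thr P)
    (ξ : Place K F → K)
    (hξ : ∀ P ∈ D.support, thr P → ξ P ≠ 0 ∧ ξ P ∈ A.nonunits ∧ π₀ / ξ P ∈ A.nonunits ∧
      P.ord (x - algebraMap K F (ξ P)) = 1 ∧
      ∀ P' : Place K F, thr P' → P' ≠ P → P'.ord (x - algebraMap K F (ξ P)) = 0)
    (κ : K) (hκ : κ ≠ 0) (n : ℤ) (u : K) (hu : u ∈ A) (hu' : u⁻¹ ∈ A)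
    (hslope : ∏ P ∈ S, ξ P ^ D P = κ * π₀ ^ n * u) :
    ∃ g : F, g ≠ 0 ∧ (∀ P : Place K F, thr P → P.ord g = D P) ∧
      (∃ h : g ∈ O₁, ρ₁ ⟨g, h⟩ ≠ 0) ∧
      ∃ h : (algebraMap K F κ)⁻¹ * g ∈ O₂, ρ₂ ⟨(algebraMap K F κ)⁻¹ * g, h⟩ ≠ 0 := by
  classical
  set c : K →+* F := algebraMap K F with hc
  have hu0 : u ≠ 0 := by
    rintro rfl
    rw [mul_zero] at hslope
    obtain ⟨P, hP, h0⟩ := Finset.prod_eq_zero_iff.mp hslope
    obtain ⟨hPs, hPt⟩ := (hSmem P).mp hP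
    exact zpow_ne_zero _ (hξ P hPs hPt).1 h0
  obtain ⟨hx1m, hx1r⟩ := hx1
  obtain ⟨hx2m, hx2r⟩ := hx2
  have hxU₁ : IsU O₁ x := isU_of_res_ne_zero ρ₁ hinv₁ hx1m hx1r
  have hxU₂ : IsU O₂ ((c π₀)⁻¹ * x) := isU_of_res_ne_zero ρ₂ hinv₂ hx2m hx2r
  have hx_ne : x ≠ 0 := hxU₁.2.2
  have hcπ : c π₀ ≠ 0 := (map_ne_zero c).mpr hπ₀
  -- the linear factors
  have hfac₁ : ∀ P ∈ S, IsU O₁ (x - c (ξ P)) := by
    intro P hP
    obtain ⟨hPs, hPt⟩ := (hSmem P).mp hP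
    obtain ⟨-, hξm, -, -, -⟩ := hξ P hPs hPt
    have hξA : ξ P ∈ A := A.nonunits_subset hξm
    have hmem : x - c (ξ P) ∈ O₁ := O₁.sub_mem hx1m (hc₁ _ hξA)
    refine isU_of_res_ne_zero ρ₁ hinv₁ hmem ?_
    have h1 : (⟨x - c (ξ P), hmem⟩ : ↥O₁) = ⟨x, hx1m⟩ - ⟨c (ξ P), hc₁ _ hξA⟩ := rfl
    rw [h1, map_sub, hc₁0 _ hξA hξm, sub_zero]
    exact hx1r
  have hfac₂ : ∀ P ∈ S, IsU O₂ ((c (ξ P))⁻¹ * (x - c (ξ P))) := by
    intro P hP
    obtain ⟨hPs, hPt⟩ := (hSmem P).mp hP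
    obtain ⟨hξ0, -, hπξ, -, -⟩ := hξ P hPs hPt
    have hπξA : π₀ / ξ P ∈ A := A.nonunits_subset hπξ
    have hcξ : c (ξ P) ≠ 0 := (map_ne_zero c).mpr hξ0
    have heq : (c (ξ P))⁻¹ * (x - c (ξ P)) = c (π₀ / ξ P) * ((c π₀)⁻¹ * x) - 1 := by
      rw [map_div₀]
      field_simp
    have hmem' : c (π₀ / ξ P) * ((c π₀)⁻¹ * x) - 1 ∈ O₂ :=
      O₂.sub_mem (O₂.mul_mem (hc₂ _ hπξA) hx2m) O₂.one_mem
    have hmem : (c (ξ P))⁻¹ * (x - c (ξ P)) ∈ O₂ := by rw [heq]; exact hmem'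
    refine isU_of_res_ne_zero ρ₂ hinv₂ hmem ?_
    have h1 : (⟨(c (ξ P))⁻¹ * (x - c (ξ P)), hmem⟩ : ↥O₂) =
        ⟨c (π₀ / ξ P), hc₂ _ hπξA⟩ * ⟨(c π₀)⁻¹ * x, hx2m⟩ - 1 := Subtype.ext heq
    rw [h1, map_sub, map_mul, hc₂0 _ hπξA hπξ, zero_mul, map_one, zero_sub]
    exact neg_ne_zero.mpr one_ne_zero
  have hfac_ne : ∀ P ∈ S, x - c (ξ P) ≠ 0 := fun P hP => (hfac₁ P hP).2.2
  -- the generator
  set Ξ : F := ∏ P ∈ S, (x - c (ξ P)) ^ D P with hΞ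
  have hΞ0 : Ξ ≠ 0 :=
    Finset.prod_ne_zero_iff.mpr fun P hP => zpow_ne_zero _ (hfac_ne P hP)
  have hxn : x ^ (-n) ≠ 0 := zpow_ne_zero _ hx_ne
  refine ⟨Ξ * x ^ (-n), mul_ne_zero hΞ0 hxn, ?_, ?_, ?_⟩
  · -- the orders through the node
    intro P hPt
    rw [P.ord_mul hΞ0 hxn, Place.ord_zpow, hx0 P hPt, mul_zero, add_zero, hΞ,
      (ord_prod_zpow P S (fun P' => x - c (ξ P')) (fun P' => D P') hfac_ne).2]
    by_cases hPS : P ∈ S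
    · rw [Finset.sum_eq_single_of_mem P hPS]
      · obtain ⟨hPs, -⟩ := (hSmem P).mp hPS
        obtain ⟨-, -, -, h1, -⟩ := hξ P hPs hPt
        rw [h1, mul_one]
      · intro P' hP' hne
        obtain ⟨hPs', hPt'⟩ := (hSmem P').mp hP'
        obtain ⟨-, -, -, -, h0⟩ := hξ P' hPs' hPt'
        rw [h0 P hPt hne.symm, mul_zero]
    · have hD0 : D P = 0 := by
        by_contra h
        exact hPS ((hSmem P).mpr ⟨Finsupp.mem_support_iff.mpr h, hPt⟩)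
      rw [hD0]
      apply Finset.sum_eq_zero
      intro P' hP'
      have hne : P ≠ P' := fun h => hPS (h ▸ hP')
      obtain ⟨hPs', hPt'⟩ := (hSmem P').mp hP'
      obtain ⟨-, -, -, -, h0⟩ := hξ P' hPs' hPt'
      rw [h0 P hPt hne, mul_zero]
  · -- a unit of `O₁`
    have hU : IsU O₁ (Ξ * x ^ (-n)) :=
      (IsU.prod S _ fun P hP => (hfac₁ P hP).zpow (D P)).mul (hxU₁.zpow (-n))
    exact ⟨hU.1, hU.res_ne_zero ρ₁⟩
  · -- `κ⁻¹ g` is a unit of `O₂`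
    have hslope' : ∏ P ∈ S, c (ξ P) ^ D P = c κ * c π₀ ^ n * c u := by
      rw [← map_zpow₀, ← map_mul, ← map_mul, ← hslope, map_prod]
      exact Finset.prod_congr rfl fun P _ => (map_zpow₀ c _ _).symm
    have hcκ : c κ ≠ 0 := (map_ne_zero c).mpr hκ
    have hcu0 : c u ≠ 0 := (map_ne_zero c).mpr hu0
    have h1 : ∏ P ∈ S, ((c (ξ P))⁻¹ * (x - c (ξ P))) ^ D P =
        (∏ P ∈ S, c (ξ P) ^ D P)⁻¹ * Ξ := by
      rw [hΞ, ← Finset.prod_inv_distrib, ← Finset.prod_mul_distrib]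
      refine Finset.prod_congr rfl fun P _ => ?_
      rw [mul_zpow, inv_zpow]
    have hid : (c κ)⁻¹ * (Ξ * x ^ (-n)) =
        (∏ P ∈ S, ((c (ξ P))⁻¹ * (x - c (ξ P))) ^ D P) * ((c π₀)⁻¹ * x) ^ (-n) * c u := by
      rw [h1, hslope', mul_zpow, inv_zpow', neg_neg, mul_inv, mul_inv]
      have hπn : c π₀ ^ n ≠ 0 := zpow_ne_zero _ hcπ
      field_simp
    have hcu : IsU O₂ (c u) :=
      ⟨hc₂ u hu, by rw [← map_inv₀]; exact hc₂ _ hu', hcu0⟩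
    have hU : IsU O₂ ((c κ)⁻¹ * (Ξ * x ^ (-n))) := by
      rw [hid]
      exact ((IsU.prod S _ fun P hP => (hfac₂ P hP).zpow (D P)).mul (hxU₂.zpow (-n))).mul hcu
    exact ⟨hU.1, hU.res_ne_zero ρ₂⟩

end Node

end Fermat.Agent.ES.X44.LocGenAbs11
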