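/-
Programme X (S44), chapter (LL′), leaf (NC) (helper17): **THE LITERAL "node coordinates at ℚ̄-level"**
(statement only: one `Prop`-structure and one `Prop`; no theorem, no instance).

`I : NodalInst p M' A` is W's nodal instance (at THE instance `GeoLit12.IX`: `I.r = rN 4 8 …`,
`I.nodes = nodesN 4 8 …`).  `O1 M' p A`, `O2 M' p A` are the two Gauss valuation rings of
`FW p M' = ↥(modularFunctionFieldBar (M' * p))` with reductions `rho1`, `rho2` (`W33/NodalDefs3`), and
`aG p M' τ` is the arithmetic Galois action (`W33/GeoJoinGa23`).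

`IsNodeCoord I z x` — `x` is a coordinate of the annulus of the node `z` (`x = 0` is the SECOND branch):
* `fix`  : `x` is fixed by the inertia group of `A` (it comes from an inertial number field `K₀`);
* `g1`   : `x ∈ O1`, `x̄₁ := rho1 x ≠ 0` and `x̄₁` has a SIMPLE zero at the node place `ν₁ z`;
* `g2`   : `x / p ∈ O2` with nonzero reduction (THICKNESS ONE: `v₂(x) = v(p)`);
* `val`  : every place `P` through `z` has a value `a = x(P)` with `0 < v(a) < v(p)`
           (`a ≠ 0`, `a ∈ 𝔪_A`, `p / a ∈ 𝔪_A`), `x - a` is a UNIFORMISER at `P` and `x - a` has order `0`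
           at every other place through `z` (`x` is an injective étale coordinate on the annulus).
Cheap consequences (NOT part of the literal): `P.ord x = 0` for `P` through `z`; `x - a ∈ O1` with
`rho1 (x - a) = rho1 x`; `(x - a) / a ∈ O2` with `rho2 = -1`.

`NodeCoords I` : every node has a coordinate.  **(NC) = `NodeCoords (GeoLit12.IX M' p hpM h4M A hA)`.**
-/
import Mathlib
import Fermat.Agent.ES.W33.GeoLeaves23

set_option autoImplicit false
set_option linter.unusedSectionVars false
set_option synthInstance.maxHeartbeats 400000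

noncomputable section

open AlgebraicCurve ModularCurve

namespace Fermat.Agent.ES.X44.NodeCoordLit17

open Fermat.Agent.ES.W33.XiIfaceN29 Fermat.Agent.ES.W33.GeoNames23 Fermat.Agent.ES.W33.GeoJoinGa23
  Fermat.Agent.ES.W33.NodalDefs3

attribute [local instance 5000] HahnSeries.powerSeriesAlgebra SubalgebraClass.toAlgebra

local notation "Qb" => AlgebraicClosure ℚ

variable {M' : ℕ} [NeZero M'] {p : ℕ} [Fact p.Prime] {A : ValuationSubring Qb}

/-- **`x` is a coordinate of the annulus of the node `z`.** -/
structure IsNodeCoord (I : NodalInst p M' A) (z : Fin I.s) (x : FW p M') : Prop where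
  /-- `x` is fixed by the inertia group. -/
  fix : ∀ τ ∈ A.inertiaSubgroupIn ℚ, aG p M' τ • x = x
  /-- first Gauss valuation `0`, and the reduction has a simple zero at the node place `ν₁ z`. -/
  g1 : ∃ h : x ∈ O1 M' p A, rho1 M' p A ⟨x, h⟩ ≠ 0 ∧
    (I.nodes.ν₁ z).ord (rho1 M' p A ⟨x, h⟩) = 1
  /-- second Gauss valuation `v(p)` (thickness one). -/
  g2 : ∃ h : (algebraMap Qb (FW p M') (p : Qb))⁻¹ * x ∈ O2 M' p A, rho2 M' p A ⟨_, h⟩ ≠ 0
  /-- the values on the annulus, and `x - x(P)` is a uniformiser at `P` with no other zero through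
  `z`. -/
  val : ∀ P : Place Qb (FW p M'), I.r P = Sum.inr z →
    ∃ a : Qb, a ≠ 0 ∧ a ∈ A.nonunits ∧ (p : Qb) / a ∈ A.nonunits ∧
      P.ord (x - algebraMap Qb (FW p M') a) = 1 ∧
      ∀ P' : Place Qb (FW p M'), I.r P' = Sum.inr z → P' ≠ P →
        P'.ord (x - algebraMap Qb (FW p M') a) = 0

/-- **(NC)**: every node of the instance has a coordinate. -/
def NodeCoords (I : NodalInst p M' A) : Prop :=
  ∀ z : Fin I.s, ∃ x : FW p M', IsNodeCoord I z x

end Fermat.Agent.ES.X44.NodeCoordLit17
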