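/-
Programme X (S44), chapter (LL′), leaf (NC) (helper17): **THE WEAK LITERAL `IsNodeCoordW`** =
`NodeCoordLit17.IsNodeCoord` without the clause "`rho1 x` has a SIMPLE zero at `ν₁ z`"
(statement only + the trivial implication).  Consumers: (W1) local factors (helper12), (LG) (helper11).
The simple-zero clause is consumed only by the winding-number leaf (WN).

* `IsNodeCoordW I z x` : `fix`, `g1w` (`x ∈ O1`, `rho1 x ≠ 0`), `g2`, `val` — the last three fields
  verbatim as in `IsNodeCoord`;
* `NodeCoordsW I` : every node has a weak coordinate;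
* `IsNodeCoord.toW`, `NodeCoords.toW`.
-/
import Mathlib
import Fermat.Agent.ES.X44.NodeCoordLit17

set_option autoImplicit false
set_option linter.unusedSectionVars false
set_option synthInstance.maxHeartbeats 400000

noncomputable section

open AlgebraicCurve ModularCurve

namespace Fermat.Agent.ES.X44.NodeCoordWLit17

open Fermat.Agent.ES.W33.XiIfaceN29 Fermat.Agent.ES.W33.GeoNames23 Fermat.Agent.ES.W33.GeoJoinGa23
  Fermat.Agent.ES.W33.NodalDefs3 Fermat.Agent.ES.X44.NodeCoordLit17

attribute [local instance 5000] HahnSeries.powerSeriesAlgebra SubalgebraClass.toAlgebra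

local notation "Qb" => AlgebraicClosure ℚ

variable {M' : ℕ} [NeZero M'] {p : ℕ} [Fact p.Prime] {A : ValuationSubring Qb}

/-- **`x` is a (weak) coordinate of the annulus of the node `z`.** -/
structure IsNodeCoordW (I : NodalInst p M' A) (z : Fin I.s) (x : FW p M') : Prop where
  /-- `x` is fixed by the inertia group. -/
  fix : ∀ τ ∈ A.inertiaSubgroupIn ℚ, aG p M' τ • x = x
  /-- first Gauss valuation `0`. -/
  g1w : ∃ h : x ∈ O1 M' p A, rho1 M' p A ⟨x, h⟩ ≠ 0
  /-- second Gauss valuation `v(p)` (thickness one). -/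
  g2 : ∃ h : (algebraMap Qb (FW p M') (p : Qb))⁻¹ * x ∈ O2 M' p A, rho2 M' p A ⟨_, h⟩ ≠ 0
  /-- the values on the annulus, and `x - x(P)` is a uniformiser at `P` with no other zero through
  `z`. -/
  val : ∀ P : Place Qb (FW p M'), I.r P = Sum.inr z →
    ∃ a : Qb, a ≠ 0 ∧ a ∈ A.nonunits ∧ (p : Qb) / a ∈ A.nonunits ∧
      P.ord (x - algebraMap Qb (FW p M') a) = 1 ∧
      ∀ P' : Place Qb (FW p M'), I.r P' = Sum.inr z → P' ≠ P →
        P'.ord (x - algebraMap Qb (FW p M') a) = 0

/-- every node of the instance has a weak coordinate. -/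
def NodeCoordsW (I : NodalInst p M' A) : Prop :=
  ∀ z : Fin I.s, ∃ x : FW p M', IsNodeCoordW I z x

theorem IsNodeCoord.toW {I : NodalInst p M' A} {z : Fin I.s} {x : FW p M'}
    (h : IsNodeCoord I z x) : IsNodeCoordW I z x where
  fix := h.fix
  g1w := by
    obtain ⟨hx, h0, -⟩ := h.g1
    exact ⟨hx, h0⟩
  g2 := h.g2
  val := h.val

theorem NodeCoords.toW {I : NodalInst p M' A} (h : NodeCoords I) : NodeCoordsW I :=
  fun z => (h z).imp fun _ hx => IsNodeCoord.toW hx

end Fermat.Agent.ES.X44.NodeCoordWLit17
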