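/-
Programme X (S44, spine `X44_SPINE14.md`), chapter (W1) "equal slopes" (helper12, chapter owner):
**THE EXIT LITERAL `SlopesExit` AND THE INPUT LITERAL `W1Input`** (statement only: definitions and
`Prop`-valued literals; nothing is proved here).

Vocabulary: Programme W's nodal instance `I : NodalInst p M' A` (`GeoLit12.IX` in the chain),
`JZero (M' * p) = Pic0 ℚ̄ (FW p M')`, `X z : FW p M'` a coordinate of the annulus of the node `z`
(helper17's `NodeCoordLit17.IsNodeCoord`; the literal below does not mention its clauses).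

* `SlopesAt I X D`   : the points of `D` through the nodes have values `ξ P = (X z)(P)` (with the
                       clauses of helper17's `val`, restricted to the support of `D`), and the NODE
                       PRODUCTS `∏_{P ∈ supp D through z} ξ P ^ D P` are all equal to ONE constant `κ ≠ 0`
                       up to powers of `p` and units of `A`  (= "the slopes `j_z(D)` are congruent modulo
                       `v(p)`"; element form, exactly the hypothesis `hslope` of
                       `LocGenAbs11.exists_locGen` with `π₀ = p`);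
* `SlopesExit I X V` : every `x ∈ V` has a representative `D` with `SlopesAt I X D`.
                       **EXIT OF (W1)**, entry of brick (LG) of (LL′).
* `W1Input p A V L`  : what (W1) consumes from (R) + (L2), in `J = JZero (M' * p)`:
                       `V = ι(E[p])`, `L = ι(L)` (the clauses of `XIface14.FreyLocal`, transported).
-/
import Mathlib
import Fermat.Agent.ES.X44.GeoLit12

set_option autoImplicit false
set_option linter.unusedSectionVars false
set_option synthInstance.maxHeartbeats 400000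

noncomputable section

open AlgebraicCurve ModularCurve

namespace Fermat.Agent.ES.X44.SlopesLit12

open Fermat.Agent.ES.W33.XiIfaceN29 Fermat.Agent.ES.W33.GeoNames23

attribute [local instance 5000] HahnSeries.powerSeriesAlgebra SubalgebraClass.toAlgebra

local notation "Qb" => AlgebraicClosure ℚ
local notation "GQ" => (AlgebraicClosure ℚ ≃ₐ[ℚ] AlgebraicClosure ℚ)

variable {p M' : ℕ} {A : ValuationSubring Qb}

open Classical in
/-- the node product of `D` at the node `z` for the value function `ξ`. -/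
def qNode (I : NodalInst p M' A) (D : Divisor Qb (FW p M')) (ξ : Place Qb (FW p M') → Qb)
    (z : Fin I.s) : Qb :=
  ∏ P ∈ D.support.filter (fun P => I.r P = Sum.inr z), ξ P ^ D P

/-- **the slopes of `D` at all nodes are congruent modulo `v(p)`** (element form). -/
def SlopesAt (I : NodalInst p M' A) (X : Fin I.s → FW p M') (D : Divisor Qb (FW p M')) : Prop :=
  ∃ ξ : Place Qb (FW p M') → Qb,
    (∀ z : Fin I.s, ∀ P ∈ D.support, I.r P = Sum.inr z →
      ξ P ≠ 0 ∧ ξ P ∈ A.nonunits ∧ (p : Qb) / ξ P ∈ A.nonunits ∧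
        P.ord (X z - algebraMap Qb (FW p M') (ξ P)) = 1 ∧
        ∀ P' : Place Qb (FW p M'), I.r P' = Sum.inr z → P' ≠ P →
          P'.ord (X z - algebraMap Qb (FW p M') (ξ P)) = 0) ∧
    ∃ κ : Qb, κ ≠ 0 ∧ ∀ z : Fin I.s, ∃ (n : ℤ) (u : Qb), u ∈ A ∧ u⁻¹ ∈ A ∧ u ≠ 0 ∧
      qNode I D ξ z = κ * (p : Qb) ^ n * u

/-- **EXIT OF (W1)**: every class of `V` has a representative with congruent slopes. -/
def SlopesExit (I : NodalInst p M' A) (X : Fin I.s → FW p M') (V : Set (Pic0 Qb (FW p M'))) : Prop :=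
  ∀ x ∈ V, ∃ D : Divisor Qb (FW p M'), IsRep x D ∧ SlopesAt I X D

/-- `H₁`: the elements of the inertia group of `A` fixing every `p`-th root of unity
(`= XIface14.H1`, repeated here to keep this literal independent of the global interface). -/
def H1 (A : ValuationSubring Qb) (p : ℕ) : Set GQ :=
  {σ | σ ∈ A.inertiaSubgroupIn ℚ ∧ ∀ ζ : Qb, ζ ^ p = 1 → σ ζ = ζ}

/-- **What (W1) consumes** from (R) + (L2), in `J = JZero (M' * p)`: `V = ι(E[p])`, `L = ι(L)`. -/
structure W1Input (p : ℕ) {M' : ℕ} (A : ValuationSubring Qb)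
    (V L : AddSubgroup (JZero (M' * p))) : Prop where
  ptors : ∀ x ∈ V, p • x = 0
  /-- `V` is stable under the inertia group ((R): `ι` is `G_ℚ`-equivariant) -/
  stable : ∀ σ ∈ A.inertiaSubgroupIn ℚ, ∀ x ∈ V, σ • x ∈ V
  le : L ≤ V
  /-- `L` is cyclic, generated by any of its nonzero elements ((L2)(i): `L ≠ ⊤` in `E[p]`, of order
  `p²`) -/
  cyc : ∀ w ∈ L, w ≠ 0 → ∀ w' ∈ L, ∃ n : ℕ, w' = n • w
  /-- (L2)(ii) -/
  inertia : ∀ σ ∈ A.inertiaSubgroupIn ℚ, ∀ x ∈ V, σ • x - x ∈ L
  /-- (L2)(iii) -/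
  h1fix : ∀ τ ∈ H1 A p, ∀ w ∈ L, τ • w = w
  /-- (L2)(iv) -/
  twist : ∃ τ' ∈ A.inertiaSubgroupIn ℚ, ∃ c : ℤ, ¬ (p : ℤ) ∣ c ∧ ∀ w ∈ L, τ' • w - w = c • w
  /-- (L2)(v): the break certificate -/
  cert : ∀ v ∈ V, ∀ σ : GQ, σ ∈ H1 A p → σ • v ≠ v →
    ∃ z : Qb, z ≠ 0 ∧ (∀ τ ∈ H1 A p, τ • v = v → τ z = z) ∧
      (∃ q : ℚ, A.valuation z = A.valuation (algebraMap ℚ Qb q)) ∧
      ∀ ζ : Qb, ζ ^ p = 1 → ζ ≠ 1 → A.valuation z * A.valuation (ζ - 1) ≤ A.valuation (σ z - z)

end Fermat.Agent.ES.X44.SlopesLit12
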