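/-
Programme X (S44, spine `X44_SPINE14.md`), chapter (LL′), brick (LG) "slopes ⇒ local generators"
(helper11), IN PROGRAMME W's VOCABULARY (any nodal instance `I : NodalInst p M' A`; the two Gauss valuation
rings `O1 M' p A`, `O2 M' p A` of `FW p M'` with reductions `rho1`, `rho2`).

ENTRY = helper12's `SlopesLit12.SlopesAt I X D` (exit of (W1) for ONE divisor `D`) + helper17's
`NodeCoordWLit17.IsNodeCoordW I z (X z)` (weak node coordinates).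
EXIT  = LITERALLY the body of helper13's `LocGen` (#31318 (2)):
`∃ c ≠ 0, ∀ z, ∃ g ≠ 0, (∀ P, I.r P = inr z → P.ord g = D P) ∧ (∃ h : g ∈ O1, rho1 ⟨g,h⟩ ≠ 0) ∧
 (∃ h : c⁻¹ * g ∈ O2, rho2 ⟨_,h⟩ ≠ 0)`.

* `locGen_node`            — one node: `LocGenAbs11.exists_locGen` at `O1/O2/rho1/rho2`;
* `locGen_of_slopesAt`     — all nodes, from the clauses (g1w), (g2), `ord_P X_z = 0` only;
* `ord_eq_zero_of_val`     — `ord_P x = 0` through the node, from the `val` clause;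
* `locGen_of_nodeCoordsW`  — from `IsNodeCoordW`.
-/
import Mathlib
import Fermat.Agent.ES.W33.GeoLeaves23
import Fermat.Agent.ES.W33.NodalGauss3
import Fermat.Agent.ES.W33.TauUnitN21
import Fermat.Agent.ES.X44.NodeCoordWLit17
import Fermat.Agent.ES.X44.SlopesLit12
import Fermat.Agent.ES.X44.LocGenAbs11

set_option autoImplicit false
set_option linter.unusedSectionVars false
set_option synthInstance.maxHeartbeats 400000

noncomputable section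

open AlgebraicCurve ModularCurve

namespace Fermat.Agent.ES.X44.LocGenInst11

open Fermat.Agent.ES.W33.XiIfaceN29 Fermat.Agent.ES.W33.GeoNames23 Fermat.Agent.ES.W33.GeoJoinGa23
  Fermat.Agent.ES.W33.NodalDefs3 Fermat.Agent.ES.W33.NodalGauss3 Fermat.Agent.ES.W33.TauUnitN21
  Fermat.Agent.ES.X44.NodeCoordWLit17 Fermat.Agent.ES.X44.SlopesLit12
  Fermat.Agent.ES.X44.LocGenAbs11

attribute [local instance 5000] HahnSeries.powerSeriesAlgebra SubalgebraClass.toAlgebra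

local notation "Qb" => AlgebraicClosure ℚ

variable {M' : ℕ} [NeZero M'] {p : ℕ} [Fact p.Prime] {A : ValuationSubring Qb}

theorem rho1_const_nonunit (a : Qb) (ha : a ∈ A) (hn : a ∈ A.nonunits) :
    rho1 M' p A ⟨algebraMap Qb (FW p M') a, const_mem_O1 M' p A ⟨a, ha⟩⟩ = 0 := by
  have h1 : ¬ IsUnit (⟨a, ha⟩ : ↥A) := by
    have h2 : ((⟨a, ha⟩ : ↥A) : Qb) ∈ A.nonunits := hn
    rw [ValuationSubring.coe_mem_nonunits_iff, IsLocalRing.mem_maximalIdeal] at h2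
    exact h2
  rw [rho1_const M' p A ⟨a, ha⟩, resA_nonunit A ⟨a, ha⟩ h1, map_zero]

theorem rho2_const_nonunit (a : Qb) (ha : a ∈ A) (hn : a ∈ A.nonunits) :
    rho2 M' p A ⟨algebraMap Qb (FW p M') a, const_mem_O2 M' p A ⟨a, ha⟩⟩ = 0 := by
  have h1 : ¬ IsUnit (⟨a, ha⟩ : ↥A) := by
    have h2 : ((⟨a, ha⟩ : ↥A) : Qb) ∈ A.nonunits := hn
    rw [ValuationSubring.coe_mem_nonunits_iff, IsLocalRing.mem_maximalIdeal] at h2
    exact h2
  rw [rho2_const M' p A ⟨a, ha⟩, resA_nonunit A ⟨a, ha⟩ h1, map_zero]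

/-- **(LG), one node**, in W's vocabulary. -/
theorem locGen_node (I : NodalInst p M' A) (z : Fin I.s) (x : FW p M')
    (hg1 : ∃ h : x ∈ O1 M' p A, rho1 M' p A ⟨x, h⟩ ≠ 0)
    (hg2 : ∃ h : (algebraMap Qb (FW p M') (p : Qb))⁻¹ * x ∈ O2 M' p A, rho2 M' p A ⟨_, h⟩ ≠ 0)
    (hx0 : ∀ P : Place Qb (FW p M'), I.r P = Sum.inr z → P.ord x = 0)
    (D : Divisor Qb (FW p M')) (S : Finset (Place Qb (FW p M')))
    (hS : ∀ P, P ∈ S ↔ P ∈ D.support ∧ I.r P = Sum.inr z)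
    (ξ : Place Qb (FW p M') → Qb)
    (hξ : ∀ P ∈ D.support, I.r P = Sum.inr z →
      ξ P ≠ 0 ∧ ξ P ∈ A.nonunits ∧ (p : Qb) / ξ P ∈ A.nonunits ∧
        P.ord (x - algebraMap Qb (FW p M') (ξ P)) = 1 ∧
        ∀ P' : Place Qb (FW p M'), I.r P' = Sum.inr z → P' ≠ P →
          P'.ord (x - algebraMap Qb (FW p M') (ξ P)) = 0)
    (κ : Qb) (hκ : κ ≠ 0) (n : ℤ) (u : Qb) (hu : u ∈ A) (hu' : u⁻¹ ∈ A)
    (hslope : ∏ P ∈ S, ξ P ^ D P = κ * (p : Qb) ^ n * u) :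
    ∃ g : FW p M', g ≠ 0 ∧ (∀ P : Place Qb (FW p M'), I.r P = Sum.inr z → P.ord g = D P) ∧
      (∃ h : g ∈ O1 M' p A, rho1 M' p A ⟨g, h⟩ ≠ 0) ∧
      ∃ h : (algebraMap Qb (FW p M') κ)⁻¹ * g ∈ O2 M' p A, rho2 M' p A ⟨_, h⟩ ≠ 0 := by
  have hp0 : (p : Qb) ≠ 0 := Nat.cast_ne_zero.mpr (Fact.out : p.Prime).ne_zero
  exact exists_locGen A (O1 M' p A) (O2 M' p A) (rho1 M' p A) (rho2 M' p A)
    (fun f hf => inv_mem_O1 M' p A f.2 hf) (fun f hf => inv_mem_O2 M' p A f.2 hf)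
    (fun a ha => const_mem_O1 M' p A ⟨a, ha⟩) (fun a ha => const_mem_O2 M' p A ⟨a, ha⟩)
    (fun a ha hn => rho1_const_nonunit a ha hn) (fun a ha hn => rho2_const_nonunit a ha hn)
    (fun P => I.r P = Sum.inr z) x (p : Qb) hp0 hg1 hg2 hx0 D S hS ξ hξ κ hκ n u hu hu' hslope

/-- **(LG)**: `SlopesAt` gives local generators at every node with ONE constant `c`. -/
theorem locGen_of_slopesAt (I : NodalInst p M' A) (X : Fin I.s → FW p M')
    (hg1 : ∀ z : Fin I.s, ∃ h : X z ∈ O1 M' p A, rho1 M' p A ⟨X z, h⟩ ≠ 0)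
    (hg2 : ∀ z : Fin I.s, ∃ h : (algebraMap Qb (FW p M') (p : Qb))⁻¹ * X z ∈ O2 M' p A,
      rho2 M' p A ⟨_, h⟩ ≠ 0)
    (hx0 : ∀ z : Fin I.s, ∀ P : Place Qb (FW p M'), I.r P = Sum.inr z → P.ord (X z) = 0)
    (D : Divisor Qb (FW p M')) (hD : SlopesAt I X D) :
    ∃ c : Qb, c ≠ 0 ∧ ∀ z : Fin I.s, ∃ g : FW p M', g ≠ 0 ∧
      (∀ P : Place Qb (FW p M'), I.r P = Sum.inr z → P.ord g = D P) ∧
      (∃ h : g ∈ O1 M' p A, rho1 M' p A ⟨g, h⟩ ≠ 0) ∧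
      ∃ h : (algebraMap Qb (FW p M') c)⁻¹ * g ∈ O2 M' p A, rho2 M' p A ⟨_, h⟩ ≠ 0 := by
  classical
  obtain ⟨ξ, hξ, κ, hκ, hsl⟩ := hD
  refine ⟨κ, hκ, fun z => ?_⟩
  obtain ⟨n, u, hu, hu', -, hslope⟩ := hsl z
  exact locGen_node I z (X z) (hg1 z) (hg2 z) (hx0 z) D _ (fun P => Finset.mem_filter) ξ (hξ z)
    κ hκ n u hu hu' hslope

/-- the `val` clause forces `ord_P x = 0` at every place through the node. -/
theorem ord_eq_zero_of_val {x : FW p M'} {P : Place Qb (FW p M')} {a : Qb} (ha0 : a ≠ 0)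
    (h1 : P.ord (x - algebraMap Qb (FW p M') a) = 1) : P.ord x = 0 := by
  have hca : algebraMap Qb (FW p M') a ≠ 0 := (map_ne_zero _).mpr ha0
  have h2 := Fermat.Agent.X0.FF.ord_add_eq_of_lt P (f := algebraMap Qb (FW p M') a)
    (g := x - algebraMap Qb (FW p M') a) hca
    (by rw [Fermat.Agent.X0.FF.ord_algebraMap, h1]; exact zero_lt_one)
  rw [add_sub_cancel, Fermat.Agent.X0.FF.ord_algebraMap] at h2
  exact h2

/-- **(LG) from (NC)**: weak node coordinates + `SlopesAt` ⇒ the body of `LocGen`. -/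
theorem locGen_of_nodeCoordsW (I : NodalInst p M' A) (X : Fin I.s → FW p M')
    (hX : ∀ z : Fin I.s, IsNodeCoordW I z (X z))
    (D : Divisor Qb (FW p M')) (hD : SlopesAt I X D) :
    ∃ c : Qb, c ≠ 0 ∧ ∀ z : Fin I.s, ∃ g : FW p M', g ≠ 0 ∧
      (∀ P : Place Qb (FW p M'), I.r P = Sum.inr z → P.ord g = D P) ∧
      (∃ h : g ∈ O1 M' p A, rho1 M' p A ⟨g, h⟩ ≠ 0) ∧
      ∃ h : (algebraMap Qb (FW p M') c)⁻¹ * g ∈ O2 M' p A, rho2 M' p A ⟨_, h⟩ ≠ 0 :=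
  locGen_of_slopesAt I X (fun z => (hX z).g1w) (fun z => (hX z).g2)
    (fun z P hP => by
      obtain ⟨a, ha0, -, -, h1, -⟩ := (hX z).val P hP
      exact ord_eq_zero_of_val ha0 h1) D hD

end Fermat.Agent.ES.X44.LocGenInst11
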