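/-
Programme X (S44, spine `X44_SPINE14.md`), chapter (LL′) "moving lemma", brick (MV), THE ABSTRACT CORE
(helper13).

Vocabulary of `W33/XiIfaceN29` (nodal special fibre: two function fields `Ft₁, Ft₂ / k` glued at `s`
nodes; `r : Place K F → SPt ⊕ Fin s` the total reduction of places; `RedCtxN`, `RedHypN`, `ChartHypN`).

* `GluedUnitAt N f j` : the pair `f` is regular at the node `j` with equal NONZERO values on the two
  branches;
* `UnitHyp N G red r` : (HU) an element of `G` without poles through the node `j` whose reduction is a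
  glued unit at `j` has no zero through `j` (at the instance: Hartogs + "a chart element with nonzero
  node value is a unit at every place through the node");
* `exists_effective` : (the bridge of `W33/GaBridge13`, without the degree count) a divisor `Z` of
  degree `≥ 0` whose push-forward to the smooth points vanishes and which has, at every node, a
  generator in `G` with glued-unit reduction: then `div f + Z + E₀` is effective and OFF THE NODES for
  some `f ≠ 0`;
* `exists_offNodes_sub_principal` : the same for `Z` of any degree: `Z ~ D''` with `D''` off the nodes;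
* **`exists_offNodes_rep`** : a divisor `D` of degree `0` with NORMALISED local generators at the nodes
  (`g_z ∈ G`, both reductions nonzero, `ord_P g_z = D P` through `z`) is linearly equivalent to a
  divisor off the nodes, given
  (hinv)    `u ∈ G` with both reductions nonzero has `u⁻¹ ∈ G`,
  (happrox) simultaneous approximation: for `g_z ∈ G` (`z : Fin s`) with nonzero reductions there is
            ONE `Φ ∈ G` with nonzero reductions such that `red Φ / red g_z` has the value `1` on both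
            branches at the node `z`.
-/
import Mathlib
import Fermat.Agent.ES.W33.GaBridge13
import Fermat.Agent.ES.W33.ValAt29

set_option autoImplicit false
set_option linter.unusedSectionVars false

noncomputable section

namespace Fermat.Agent.ES.X44.MoveCore13

open scoped BigOperators
open AlgebraicCurve Fermat.Agent.RR.LSpace Fermat.Agent.ES.V19.OnePlaceRep9
  Fermat.Agent.ES.W33.XiIfaceN29 Fermat.Agent.X0.FF Fermat.Agent.ES.W33.GaBridge13

variable {K F k Ft₁ Ft₂ : Type*} [Field K] [Field F] [Algebra K F] [Field k]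
  [Field Ft₁] [Algebra k Ft₁] [Field Ft₂] [Algebra k Ft₂]

/-! ### Glued units -/

section Glued

variable {s : ℕ} (N : Nodes k Ft₁ Ft₂ s)

/-- the pair `f` is regular at the node `j` with equal NONZERO values on the two branches. -/
def GluedUnitAt (f : Ft₁ × Ft₂) (j : Fin s) : Prop :=
  ∃ c : k, c ≠ 0 ∧ ValAt (N.ν₁ j) f.1 c ∧ ValAt (N.ν₂ j) f.2 c

variable {N}

theorem GluedUnitAt.fst_ne_zero {f : Ft₁ × Ft₂} {j : Fin s} (h : GluedUnitAt N f j) : f.1 ≠ 0 := by
  obtain ⟨c, hc, h1, -⟩ := h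
  exact Fermat.Agent.ES.W33.ValAt29.ValAt.ne_zero h1 hc

theorem GluedUnitAt.snd_ne_zero {f : Ft₁ × Ft₂} {j : Fin s} (h : GluedUnitAt N f j) : f.2 ≠ 0 := by
  obtain ⟨c, hc, -, h2⟩ := h
  exact Fermat.Agent.ES.W33.ValAt29.ValAt.ne_zero h2 hc

theorem GluedUnitAt.inv {f : Ft₁ × Ft₂} {j : Fin s} (h : GluedUnitAt N f j) :
    GluedUnitAt N f⁻¹ j := by
  obtain ⟨c, hc, h1, h2⟩ := h
  exact ⟨c⁻¹, inv_ne_zero hc, Fermat.Agent.ES.W33.ValAt29.ValAt.inv h1 hc,
    Fermat.Agent.ES.W33.ValAt29.ValAt.inv h2 hc⟩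

theorem GluedUnitAt.mul {f f' : Ft₁ × Ft₂} {j : Fin s} (h : GluedUnitAt N f j)
    (h' : GluedUnitAt N f' j) : GluedUnitAt N (f * f') j := by
  obtain ⟨c, hc, h1, h2⟩ := h
  obtain ⟨c', hc', h1', h2'⟩ := h'
  exact ⟨c * c', mul_ne_zero hc hc', Fermat.Agent.ES.W33.ValAt29.ValAt.mul h1 h1',
    Fermat.Agent.ES.W33.ValAt29.ValAt.mul h2 h2'⟩

/-- a nonzero constant is a glued unit at every node. -/
theorem gluedUnitAt_const {c : k} (hc : c ≠ 0) (j : Fin s) :
    GluedUnitAt N ((algebraMap k Ft₁ c, algebraMap k Ft₂ c) : Ft₁ × Ft₂) j :=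
  ⟨c, hc, Or.inl rfl, Or.inl rfl⟩

/-- cancelling a glued unit. -/
theorem gluedAt_of_mul {f u : Ft₁ × Ft₂} {j : Fin s} (h : N.GluedAt (f * u) j)
    (hu : GluedUnitAt N u j) : N.GluedAt f j := by
  obtain ⟨c', h1, h2⟩ := h
  obtain ⟨c, hc, hu1, hu2⟩ := hu
  refine ⟨c' * c⁻¹, ?_, ?_⟩
  · have := Fermat.Agent.ES.W33.ValAt29.ValAt.mul h1
      (Fermat.Agent.ES.W33.ValAt29.ValAt.inv hu1 hc)
    have e : (f * u).1 * u.1⁻¹ = f.1 := by
      rw [Prod.fst_mul, mul_assoc,
        mul_inv_cancel₀ (Fermat.Agent.ES.W33.ValAt29.ValAt.ne_zero hu1 hc), mul_one]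
    rwa [e] at this
  · have := Fermat.Agent.ES.W33.ValAt29.ValAt.mul h2
      (Fermat.Agent.ES.W33.ValAt29.ValAt.inv hu2 hc)
    have e : (f * u).2 * u.2⁻¹ = f.2 := by
      rw [Prod.snd_mul, mul_assoc,
        mul_inv_cancel₀ (Fermat.Agent.ES.W33.ValAt29.ValAt.ne_zero hu2 hc), mul_one]
    rwa [e] at this

end Glued

/-! ### The hypothesis (HU) -/

/-- **(HU)**: an element of `G` without poles through the node `j` whose reduction is a glued unit at
`j` has no zero through `j`. -/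
def UnitHyp {s : ℕ} (N : Nodes k Ft₁ Ft₂ s) (G : Subring F) (red : ↥G →+* Ft₁ × Ft₂)
    (r : Place K F → SPt k Ft₁ Ft₂ ⊕ Fin s) : Prop :=
  ∀ (w : ↥G) (j : Fin s), (∀ P : Place K F, r P = Sum.inr j → 0 ≤ P.ord (w : F)) →
    GluedUnitAt N (red w) j → ∀ P : Place K F, r P = Sum.inr j → P.ord (w : F) = 0

/-! ### The effective representative -/

section Core

variable {s : ℕ} {A : ValuationSubring K} {π : ↥A →+* k} {N : Nodes k Ft₁ Ft₂ s}
  {G : Subring F} {red : ↥G →+* Ft₁ × Ft₂} {r : Place K F → SPt k Ft₁ Ft₂ ⊕ Fin s}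

/-- inverses in `G`: the reduction of the inverse. -/
theorem red_inv_of_mem {u : ↥G} (hu : ((u : F))⁻¹ ∈ G) (hu0 : (u : F) ≠ 0) :
    red ⟨((u : F))⁻¹, hu⟩ * red u = 1 := by
  rw [← map_mul]
  have : (⟨((u : F))⁻¹, hu⟩ : ↥G) * u = 1 := Subtype.ext (inv_mul_cancel₀ hu0)
  rw [this, map_one]

set_option maxHeartbeats 1600000 in
/-- **the bridge without the degree count**: see the file header. -/
theorem exists_effective (C : RedCtxN A π N G red r) {g : ℕ}
    (H : RedHypN (K := K) (F := F) g) {χ : ChartN K F k Ft₁ Ft₂ g} (hχ : ChartHypN A N r χ)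
    (hU : UnitHyp N G red r) (Z : Divisor K F) (hZ : 0 ≤ Divisor.degree Z)
    (hsm : ∀ Q : SPt k Ft₁ Ft₂, Finsupp.mapDomain r Z (Sum.inl Q) = 0)
    (hnode : ∀ j : Fin s, ∃ gj : ↥G, GluedUnitAt N (red gj) j ∧
      ∀ P : Place K F, r P = Sum.inr j → P.ord (gj : F) = Z P) :
    ∃ (f : F) (hf : f ≠ 0), 0 ≤ divOf H.lhyp hf + (Z + χ.E0) ∧
      ∀ (P : Place K F) (j : Fin s), r P = Sum.inr j →
        (divOf H.lhyp hf + (Z + χ.E0)) P = 0 := by
  classical
  have HL := H.lhyp
  -- Riemann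
  have hdeg : (g : ℤ) ≤ Divisor.degree (Z + χ.E0) := by
    rw [map_add, E0_def, degree_redDiv HL]
    linarith
  obtain ⟨f, hf0, hf⟩ := H.riemann _ hdeg
  obtain ⟨c, hc0, hmem, hred⟩ := C.scale f hf0
  have hcF : (algebraMap K F c)⁻¹ ≠ 0 := inv_ne_zero ((map_ne_zero _).mpr hc0)
  set h : F := (algebraMap K F c)⁻¹ * f with hh
  have hh0 : h ≠ 0 := mul_ne_zero hcF hf0
  have hhL : h ∈ riemannRochSpace (Z + χ.E0) := by
    have := (riemannRochSpace (Z + χ.E0)).smul_mem c⁻¹ hf
    rwa [Algebra.smul_def, map_inv₀] at this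
  have hord : ∀ P : Place K F, -(Z P + χ.E0 P) ≤ P.ord h := fun P => by
    have := (mem_L_iff hh0).mp hhL P
    rwa [Finsupp.add_apply] at this
  set hG : ↥G := ⟨h, hmem⟩ with hhG
  refine ⟨h, hh0, ?_, ?_⟩
  · intro P
    have := hord P
    rw [Finsupp.add_apply, Finsupp.add_apply, divOf_apply]
    show (0 : ℤ) ≤ _
    omega
  set Dy : Divisor K F := divOf HL hh0 + (Z + χ.E0) with hDy
  have hDy0 : 0 ≤ Dy := by
    intro P
    have := hord P
    rw [hDy, Finsupp.add_apply, Finsupp.add_apply, divOf_apply]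
    show (0 : ℤ) ≤ _
    omega
  have hdiv : divOf HL hh0 = Dy - Z - χ.E0 := by rw [hDy]; abel
  have hMdiv : ∀ w, Finsupp.mapDomain r (divOf HL hh0) w =
      Finsupp.mapDomain r Dy w - Finsupp.mapDomain r Z w - Finsupp.mapDomain r χ.E0 w := by
    intro w
    rw [hdiv, Finsupp.mapDomain_sub, Finsupp.mapDomain_sub, Finsupp.sub_apply, Finsupp.sub_apply]
  have hMnn : ∀ w, 0 ≤ Finsupp.mapDomain r Dy w := mapDomain_apply_nonneg r hDy0
  -- the generators are nonzero
  have hgne : ∀ (j : Fin s) (gj : ↥G), GluedUnitAt N (red gj) j → (gj : F) ≠ 0 := by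
    intro j gj hgu h0
    have : gj = 0 := Subtype.ext h0
    rw [this, map_zero] at hgu
    exact hgu.fst_ne_zero rfl
  -- orders of `h * g_j` through the node `j`
  have hordj : ∀ (j : Fin s) (gj : ↥G), GluedUnitAt N (red gj) j →
      (∀ P : Place K F, r P = Sum.inr j → P.ord (gj : F) = Z P) →
      ∀ P : Place K F, r P = Sum.inr j → P.ord ((hG * gj : ↥G) : F) = Dy P := by
    intro j gj hgu hgj P hP
    show P.ord (h * (gj : F)) = _
    rw [P.ord_mul hh0 (hgne j gj hgu), hgj P hP, hDy, Finsupp.add_apply, Finsupp.add_apply,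
      divOf_apply, E0_apply_of_inr hχ hP, add_zero]
  -- the reduction of `h` is glued at every node
  have hglue : ∀ j, N.GluedAt (red hG) j := by
    intro j
    obtain ⟨gj, hgu, hgj⟩ := hnode j
    have hreg : ∀ P : Place K F, r P = Sum.inr j → 0 ≤ P.ord ((hG * gj : ↥G) : F) := by
      intro P hP
      rw [hordj j gj hgu hgj P hP]
      exact hDy0 P
    have := C.glue (hG * gj) j hreg
    rw [map_mul] at this
    exact gluedAt_of_mul this hgu
  -- `red h` is a glued section of `O(Ē₀)`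
  have hLN : red hG ∈ N.LN χ.E0bar := by
    refine ⟨?_, ?_, hglue⟩
    · by_cases h1 : (red hG).1 = 0
      · rw [h1]; exact Submodule.zero_mem _
      rw [mem_L_iff h1]
      intro Q
      have e : SDiv.comp₁ χ.E0bar Q = χ.E0bar (Sum.inl Q) := Finsupp.comapDomain_apply _ _ _ _
      rw [e]
      by_cases hQ : N.IsSmooth (Sum.inl Q)
      · have := C.r1₁ hG h1 (divOf HL hh0) (fun P => divOf_apply HL hh0 P) Q hQ
        rw [← this, hMdiv, hsm, mapDomain_E0_inl hχ]
        have := hMnn (Sum.inl (Sum.inl Q))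
        omega
      · rw [E0bar_apply_of_not_smooth hχ hQ, neg_zero]
        obtain ⟨j, rfl⟩ := exists_eq_ν₁_of_not_smooth hQ
        obtain ⟨c', hc', -⟩ := hglue j
        exact ord_nonneg_of_valAt hc'
    · by_cases h2 : (red hG).2 = 0
      · rw [h2]; exact Submodule.zero_mem _
      rw [mem_L_iff h2]
      intro Q
      have e : SDiv.comp₂ χ.E0bar Q = χ.E0bar (Sum.inr Q) := Finsupp.comapDomain_apply _ _ _ _
      rw [e]
      by_cases hQ : N.IsSmooth (Sum.inr Q)
      · have := C.r1₂ hG h2 (divOf HL hh0) (fun P => divOf_apply HL hh0 P) Q hQ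
        rw [← this, hMdiv, hsm, mapDomain_E0_inl hχ]
        have := hMnn (Sum.inl (Sum.inr Q))
        omega
      · rw [E0bar_apply_of_not_smooth hχ hQ, neg_zero]
        obtain ⟨j, rfl⟩ := exists_eq_ν₂_of_not_smooth hQ
        obtain ⟨c', -, hc'⟩ := hglue j
        exact ord_nonneg_of_valAt hc'
  -- hence a nonzero constant
  obtain ⟨c₀, hc₀⟩ := hχ.const_E0bar _ hLN
  have hc₀0 : c₀ ≠ 0 := by
    rintro rfl
    apply hred
    rw [hc₀, map_zero, map_zero]
    rfl
  -- no point of `D_y` passes through a node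
  intro P j hP
  obtain ⟨gj, hgu, hgj⟩ := hnode j
  have hreg : ∀ P : Place K F, r P = Sum.inr j → 0 ≤ P.ord ((hG * gj : ↥G) : F) := by
    intro P hP
    rw [hordj j gj hgu hgj P hP]
    exact hDy0 P
  have hgu' : GluedUnitAt N (red (hG * gj)) j := by
    rw [map_mul, hc₀]
    exact (gluedUnitAt_const hc₀0 j).mul hgu
  have := hU (hG * gj) j hreg hgu' P hP
  rw [hordj j gj hgu hgj P hP] at this
  exact this

/-- a principal divisor has degree `0`. -/
theorem degree_eq_zero_of_mem_principal (HL : LHyp K F) {E : Divisor K F}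
    (hE : E ∈ Divisor.principal (K := K) (F := F)) : Divisor.degree E = 0 := by
  obtain ⟨f, hf, hEf⟩ := hE
  have : E = divOf HL hf := by
    ext v
    rw [hEf v, divOf_apply]
  rw [this, degree_divOf]

theorem divOf_mem_principal (HL : LHyp K F) {f : F} (hf : f ≠ 0) :
    divOf HL hf ∈ Divisor.principal (K := K) (F := F) :=
  ⟨f, hf, fun v => divOf_apply HL hf v⟩

set_option maxHeartbeats 1600000 in
/-- **`Z` of any degree**: `Z` is linearly equivalent to a divisor off the nodes. -/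
theorem exists_offNodes_sub_principal (C : RedCtxN A π N G red r) {g : ℕ}
    (H : RedHypN (K := K) (F := F) g) {χ : ChartN K F k Ft₁ Ft₂ g} (hχ : ChartHypN A N r χ)
    (hU : UnitHyp N G red r)
    (hinv : ∀ u : ↥G, (red u).1 ≠ 0 → (red u).2 ≠ 0 → ((u : F))⁻¹ ∈ G)
    (Z : Divisor K F)
    (hsm : ∀ Q : SPt k Ft₁ Ft₂, Finsupp.mapDomain r Z (Sum.inl Q) = 0)
    (hnode : ∀ j : Fin s, ∃ gj : ↥G, GluedUnitAt N (red gj) j ∧
      ∀ P : Place K F, r P = Sum.inr j → P.ord (gj : F) = Z P) :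
    ∃ D'' : Divisor K F, OffNodes r D'' ∧ D'' - Z ∈ Divisor.principal (K := K) (F := F) := by
  classical
  have HL := H.lhyp
  have hE0off : ∀ (P : Place K F) (j : Fin s), r P = Sum.inr j → χ.E0 P = 0 :=
    fun P j hP => E0_apply_of_inr hχ hP
  rcases le_or_gt 0 (Divisor.degree Z) with hZ | hZ
  · obtain ⟨f, hf, -, hoff⟩ := exists_effective C H hχ hU Z hZ hsm hnode
    refine ⟨divOf HL hf + (Z + χ.E0) - χ.E0, ?_, ?_⟩
    · intro P hP j hj
      apply Finsupp.mem_support_iff.mp hP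
      rw [Finsupp.sub_apply, hoff P j hj, hE0off P j hj, sub_zero]
    · have e : divOf HL hf + (Z + χ.E0) - χ.E0 - Z = divOf HL hf := by abel
      rw [e]
      exact divOf_mem_principal HL hf
  · -- apply the first case to `-Z`
    have hZ' : 0 ≤ Divisor.degree (-Z) := by
      rw [map_neg]
      linarith
    have hsm' : ∀ Q : SPt k Ft₁ Ft₂, Finsupp.mapDomain r (-Z) (Sum.inl Q) = 0 := by
      intro Q
      have : Finsupp.mapDomain r (-Z) = -Finsupp.mapDomain r Z :=
        map_neg (Finsupp.mapDomain.addMonoidHom r) Z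
      rw [this, Finsupp.neg_apply, hsm Q, neg_zero]
    have hnode' : ∀ j : Fin s, ∃ gj : ↥G, GluedUnitAt N (red gj) j ∧
        ∀ P : Place K F, r P = Sum.inr j → P.ord (gj : F) = (-Z) P := by
      intro j
      obtain ⟨gj, hgu, hgj⟩ := hnode j
      have hg0 : (gj : F) ≠ 0 := by
        intro h0
        have : gj = 0 := Subtype.ext h0
        rw [this, map_zero] at hgu
        exact hgu.fst_ne_zero rfl
      have hmem := hinv gj hgu.fst_ne_zero hgu.snd_ne_zero
      refine ⟨⟨((gj : F))⁻¹, hmem⟩, ?_, fun P hP => ?_⟩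
      · have h1 := red_inv_of_mem (red := red) hmem hg0
        have h2 : red ⟨((gj : F))⁻¹, hmem⟩ = (red gj)⁻¹ := by
          apply Prod.ext
          · have := congrArg Prod.fst h1
            rw [Prod.fst_mul, Prod.fst_one] at this
            rw [Prod.fst_inv]
            exact eq_inv_of_mul_eq_one_left this
          · have := congrArg Prod.snd h1
            rw [Prod.snd_mul, Prod.snd_one] at this
            rw [Prod.snd_inv]
            exact eq_inv_of_mul_eq_one_left this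
        rw [h2]
        exact hgu.inv
      · show P.ord ((gj : F))⁻¹ = _
        rw [P.ord_inv, hgj P hP, Finsupp.neg_apply]
    obtain ⟨f, hf, -, hoff⟩ := exists_effective C H hχ hU (-Z) hZ' hsm' hnode'
    refine ⟨χ.E0 - (divOf HL hf + (-Z + χ.E0)), ?_, ?_⟩
    · intro P hP j hj
      apply Finsupp.mem_support_iff.mp hP
      rw [Finsupp.sub_apply, hoff P j hj, hE0off P j hj, sub_zero]
    · have e : χ.E0 - (divOf HL hf + (-Z + χ.E0)) - Z = -divOf HL hf := by abel
      rw [e]
      exact neg_mem (divOf_mem_principal HL hf)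

set_option maxHeartbeats 1600000 in
/-- **THE MOVING LEMMA, abstract form**: see the file header. -/
theorem exists_offNodes_rep (C : RedCtxN A π N G red r) {g : ℕ}
    (H : RedHypN (K := K) (F := F) g) {χ : ChartN K F k Ft₁ Ft₂ g} (hχ : ChartHypN A N r χ)
    (hU : UnitHyp N G red r)
    (hinv : ∀ u : ↥G, (red u).1 ≠ 0 → (red u).2 ≠ 0 → ((u : F))⁻¹ ∈ G)
    (happrox : ∀ gz : Fin s → ↥G, (∀ z, (red (gz z)).1 ≠ 0 ∧ (red (gz z)).2 ≠ 0) →
      ∃ Φ : ↥G, (red Φ).1 ≠ 0 ∧ (red Φ).2 ≠ 0 ∧ ∀ z,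
        ValAt (N.ν₁ z) ((red Φ).1 / (red (gz z)).1) 1 ∧
          ValAt (N.ν₂ z) ((red Φ).2 / (red (gz z)).2) 1)
    (D : Divisor K F) (hD : D ∈ Divisor.degZero (K := K) (F := F))
    (hgen : ∀ z : Fin s, ∃ gz : ↥G, (red gz).1 ≠ 0 ∧ (red gz).2 ≠ 0 ∧
      ∀ P : Place K F, r P = Sum.inr z → P.ord (gz : F) = D P) :
    ∃ (D' : Divisor K F) (hD' : D' ∈ Divisor.degZero (K := K) (F := F)),
      Pic0.mk ⟨D', hD'⟩ = Pic0.mk ⟨D, hD⟩ ∧ OffNodes r D' := by
  classical
  have HL := H.lhyp
  choose gz hg1 hg2 hgord using hgen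
  obtain ⟨Φ, hΦ1, hΦ2, hΦ⟩ := happrox gz (fun z => ⟨hg1 z, hg2 z⟩)
  have hΦ0 : (Φ : F) ≠ 0 := by
    intro h0
    have : Φ = 0 := Subtype.ext h0
    rw [this, map_zero] at hΦ1
    exact hΦ1 rfl
  have hΦmem := hinv Φ hΦ1 hΦ2
  set Φi : ↥G := ⟨((Φ : F))⁻¹, hΦmem⟩ with hΦi
  have hΦi_red : red Φi = (red Φ)⁻¹ := by
    have h1 := red_inv_of_mem (red := red) hΦmem hΦ0
    apply Prod.ext
    · have := congrArg Prod.fst h1
      rw [Prod.fst_mul, Prod.fst_one] at this
      rw [Prod.fst_inv]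
      exact eq_inv_of_mul_eq_one_left this
    · have := congrArg Prod.snd h1
      rw [Prod.snd_mul, Prod.snd_one] at this
      rw [Prod.snd_inv]
      exact eq_inv_of_mul_eq_one_left this
  have hgz0 : ∀ z, ((gz z : ↥G) : F) ≠ 0 := by
    intro z h0
    have : gz z = 0 := Subtype.ext h0
    have h1 := hg1 z
    rw [this, map_zero] at h1
    exact h1 rfl
  -- the generators of `D₁ := D - div Φ`
  set D₁ : Divisor K F := D - divOf HL hΦ0 with hD₁
  have hWu : ∀ z, GluedUnitAt N (red (gz z * Φi)) z := by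
    intro z
    refine ⟨1, one_ne_zero, ?_, ?_⟩
    · have h1 := Fermat.Agent.ES.W33.ValAt29.ValAt.inv (hΦ z).1 one_ne_zero
      rw [inv_one, inv_div] at h1
      rw [map_mul, hΦi_red, Prod.fst_mul, Prod.fst_inv, ← div_eq_mul_inv]
      exact h1
    · have h1 := Fermat.Agent.ES.W33.ValAt29.ValAt.inv (hΦ z).2 one_ne_zero
      rw [inv_one, inv_div] at h1
      rw [map_mul, hΦi_red, Prod.snd_mul, Prod.snd_inv, ← div_eq_mul_inv]
      exact h1
  have hWord : ∀ z (P : Place K F), r P = Sum.inr z →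
      P.ord ((gz z * Φi : ↥G) : F) = D₁ P := by
    intro z P hP
    show P.ord (((gz z : ↥G) : F) * ((Φ : F))⁻¹) = _
    rw [P.ord_mul (hgz0 z) (inv_ne_zero hΦ0), P.ord_inv, hgord z P hP, hD₁, Finsupp.sub_apply,
      divOf_apply]
    ring
  -- the node part and the smooth part of `D₁`
  set Z : Divisor K F := D₁.filter (fun P => ∃ j : Fin s, r P = Sum.inr j) with hZdef
  set Dt : Divisor K F := D₁.filter (fun P => ¬ ∃ j : Fin s, r P = Sum.inr j) with hDtdef
  have hsplit : Z + Dt = D₁ := Finsupp.filter_add_filter_not _ _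
  have hZnode : ∀ (P : Place K F) (j : Fin s), r P = Sum.inr j → Z P = D₁ P := by
    intro P j hP
    rw [hZdef, Finsupp.filter_apply_pos _ _ ⟨j, hP⟩]
  have hDtoff : ∀ (P : Place K F) (j : Fin s), r P = Sum.inr j → Dt P = 0 := by
    intro P j hP
    rw [hDtdef, Finsupp.filter_apply_neg]
    exact fun h => h ⟨j, hP⟩
  have hsm : ∀ Q : SPt k Ft₁ Ft₂, Finsupp.mapDomain r Z (Sum.inl Q) = 0 := by
    intro Q
    rw [mapDomain_apply_eq_sum]
    refine Finset.sum_eq_zero fun P hP => ?_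
    obtain ⟨hPs, hPQ⟩ := Finset.mem_filter.mp hP
    by_contra _
    have hne : Z P ≠ 0 := Finsupp.mem_support_iff.mp hPs
    apply hne
    rw [hZdef, Finsupp.filter_apply_neg]
    rintro ⟨j, hj⟩
    rw [hj] at hPQ
    exact Sum.inr_ne_inl hPQ
  have hnode : ∀ j : Fin s, ∃ gj : ↥G, GluedUnitAt N (red gj) j ∧
      ∀ P : Place K F, r P = Sum.inr j → P.ord (gj : F) = Z P := fun j =>
    ⟨gz j * Φi, hWu j, fun P hP => by rw [hWord j P hP, hZnode P j hP]⟩
  obtain ⟨D'', hoff, hprin⟩ := exists_offNodes_sub_principal C H hχ hU hinv Z hsm hnode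
  -- the representative
  have hdiff : Dt + D'' - D ∈ Divisor.principal (K := K) (F := F) := by
    have e : Dt + D'' - D = (D'' - Z) - divOf HL hΦ0 := by
      have : D = Z + Dt + divOf HL hΦ0 := by rw [hsplit, hD₁]; abel
      rw [this]; abel
    rw [e]
    exact sub_mem hprin (divOf_mem_principal HL hΦ0)
  have hD' : Dt + D'' ∈ Divisor.degZero (K := K) (F := F) := by
    rw [Divisor.mem_degZero]
    have h0 := degree_eq_zero_of_mem_principal HL hdiff
    rw [map_sub, Divisor.mem_degZero.mp hD, sub_zero] at h0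
    exact h0
  refine ⟨Dt + D'', hD', ?_, ?_⟩
  · rw [Fermat.Agent.ES.V19.XiPic5.mk_eq_mk_iff]
    exact hdiff
  · intro P hP j hj
    apply Finsupp.mem_support_iff.mp hP
    rw [Finsupp.add_apply, hDtoff P j hj, zero_add]
    by_contra hne
    exact hoff P (Finsupp.mem_support_iff.mpr hne) j hj

end Core

end Fermat.Agent.ES.X44.MoveCore13
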