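/-
Programme X (S44, spine `X44_SPINE14.md`), chapter (LL′) "moving lemma", brick (MV), THE TWO INPUTS OF
THE ABSTRACT CORE `MoveCore13.exists_offNodes_rep` FROM THE NODAL TWO-CHART MODEL (helper13).

Setting of `W33/NodalGlue20`: `T : TwoChartsN A hx Ft₁ Ft₂ nn` a nodal two-chart model,
`hN : NodePlaces T N` (the node places are the two branches of the node centres `T.nodeChi j`),
`hG : GaussExt T G red` (`B0 ⊆ G` compatibly, inverses, (HARTOGS_j)),
`hconst : T.nodeChi j (const a) = res a`.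

* `ord_eq_zero_of_nodeChi_ne_zero` : a chart function with nonzero value at the node `j` has order `0`
  at every place through `j`;
* **`unitHyp_of`** : (HU) `MoveCore13.UnitHyp N G red T.r` (Hartogs + the previous lemma);
* `exists_sep`, `exists_lagrange_chart` : chart functions `e_j` with `nodeChi j e_j = 1` and
  `nodeChi j' e_j = 0` for `j' ≠ j` (constants + injectivity of `nodeChi`; no ideal theory);
* `inMax_bump_sub_one`, `inMax_bump_mul` : the bump `1 - (1 - y ^ M) ^ M` is `≡ 1` where `y` has the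
  value `1` and kills poles of order `< M` where `y` has the value `0`;
* **`approx_of`** : the simultaneous approximation hypothesis `happrox` of the core.
-/
import Mathlib
import Fermat.Agent.ES.W33.NodalGlue20
import Fermat.Agent.ES.X44.MoveCore13

set_option autoImplicit false
set_option linter.unusedSectionVars false

noncomputable section

open AlgebraicCurve

namespace Fermat.Agent.ES.X44.MoveInputs13

open scoped BigOperators
open Fermat.Agent.X0.FF Fermat.Agent.ES.RED.PlaceValue13 Fermat.Agent.ES.RED.Contract8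
open Fermat.Agent.ES.W33.CentreN20 Fermat.Agent.ES.W33.NodalChart20
open Fermat.Agent.ES.W33.TwoChartsN20 Fermat.Agent.ES.W33.XiIfaceN29 Fermat.Agent.ES.W33.ValAt29
open Fermat.Agent.ES.W33.NodalGlue20 Fermat.Agent.ES.X44.MoveCore13

/-! ### Pure valuation lemmas on one component -/

section OnePlace

variable {k Ft : Type*} [Field k] [Field Ft] [Algebra k Ft] {Q : Place k Ft}

theorem inMax_finset_sum {ι : Type*} (S : Finset ι) (f : ι → Ft) (h : ∀ i ∈ S, InMax Q (f i)) :
    InMax Q (∑ i ∈ S, f i) := by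
  classical
  induction S using Finset.induction_on with
  | empty => simpa using (inMax_zero (Q := Q))
  | insert a S ha ih =>
    rw [Finset.sum_insert ha]
    exact (h a (Finset.mem_insert_self a S)).add (ih fun i hi => h i (Finset.mem_insert_of_mem hi))

theorem valAt_pow {f : Ft} {c : k} (h : ValAt Q f c) (n : ℕ) : ValAt Q (f ^ n) (c ^ n) := by
  induction n with
  | zero => simpa using (valAt_one (Q := Q))
  | succ n ih =>
    rw [pow_succ, pow_succ]
    exact ValAt.mul ih h

theorem pow_mem_place {y : Ft} (hy : y ∈ Q.toValuationSubring) (n : ℕ) :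
    y ^ n ∈ Q.toValuationSubring := pow_mem hy n

/-- the identity behind the bump. -/
theorem one_sub_one_sub_pow (u : Ft) (M : ℕ) :
    1 - (1 - u) ^ M = u * ∑ i ∈ Finset.range M, (1 - u) ^ i := by
  have h := mul_geom_sum (1 - u) M
  have e : (1 - u - 1) = -u := by ring
  rw [e] at h
  have : u * ∑ i ∈ Finset.range M, (1 - u) ^ i = -((1 - u) ^ M - 1) := by
    rw [← h]; ring
  rw [this]; ring

/-- where `y` has the value `1`, the bump is `≡ 1`. -/
theorem inMax_bump_sub_one {y : Ft} (hy : ValAt Q y 1) {M : ℕ} (hM : 1 ≤ M) :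
    InMax Q ((1 - (1 - y ^ M) ^ M) - 1) := by
  have h1 : ValAt Q (y ^ M) 1 := by
    have := valAt_pow hy M
    rwa [one_pow] at this
  have h2 : InMax Q (1 - y ^ M) := by
    have := valAt_iff.mp h1
    rw [map_one] at this
    have := this.neg
    rwa [neg_sub] at this
  have h3 : InMax Q ((1 - y ^ M) ^ M) := by
    obtain ⟨m, rfl⟩ : ∃ m, M = m + 1 := ⟨M - 1, by omega⟩
    rw [pow_succ]
    exact h2.mul_mem (pow_mem_place h2.mem m)
  have e : (1 - (1 - y ^ M) ^ M) - 1 = -((1 - y ^ M) ^ M) := by ring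
  rw [e]
  exact h3.neg

/-- where `y` has the value `0`, the bump kills a pole of order `< M`. -/
theorem inMax_bump_mul {y c : Ft} (hy : ValAt Q y 0) {M : ℕ} (hc : -(M : ℤ) < Q.ord c) :
    InMax Q ((1 - (1 - y ^ M) ^ M) * c) := by
  have hy' : InMax Q y := valAt_zero_iff.mp hy
  rw [one_sub_one_sub_pow]
  set w : Ft := ∑ i ∈ Finset.range M, (1 - y ^ M) ^ i with hw
  have hwmem : w ∈ Q.toValuationSubring := by
    refine sum_mem fun i _ => pow_mem_place ?_ i
    exact sub_mem (one_mem _) (pow_mem_place hy'.mem M)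
  by_cases h0 : y ^ M * w * c = 0
  · exact Or.inl h0
  have hyM : y ^ M ≠ 0 := fun h => h0 (by rw [h, zero_mul, zero_mul])
  have hw0 : w ≠ 0 := fun h => h0 (by rw [h, mul_zero, zero_mul])
  have hc0 : c ≠ 0 := fun h => h0 (by rw [h, mul_zero])
  refine Or.inr ?_
  rw [Q.ord_mul (mul_ne_zero hyM hw0) hc0, Q.ord_mul hyM hw0]
  have hwn := ffp_ord_nonneg_of_mem Q hwmem
  have hyo : (M : ℤ) ≤ Q.ord (y ^ M) := by
    rcases Nat.eq_zero_or_pos M with rfl | hMpos
    · simp
    · have hy0 : y ≠ 0 := by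
        rintro rfl
        exact hyM (zero_pow hMpos.ne')
      have hpos : 0 < Q.ord y := by
        rcases hy' with h | h
        · exact absurd h hy0
        · exact h
      have e : y ^ M = y ^ ((M : ℕ) : ℤ) := (zpow_natCast y M).symm
      rw [e, Q.ord_zpow]
      nlinarith
  omega

/-- the sum estimate. -/
theorem valAt_sum_div {ι : Type*} [Fintype ι] [DecidableEq ι] (l a : ι → Ft) (z : ι)
    (haz : a z ≠ 0) (h1 : InMax Q (l z - 1))
    (h2 : ∀ j, j ≠ z → InMax Q (l j * (a j / a z))) :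
    ValAt Q ((∑ j, l j * a j) / a z) 1 := by
  rw [valAt_iff, map_one]
  have e : (∑ j, l j * a j) / a z - 1 =
      (l z - 1) + ∑ j ∈ Finset.univ.erase z, l j * (a j / a z) := by
    rw [Finset.sum_div, ← Finset.add_sum_erase Finset.univ _ (Finset.mem_univ z)]
    have : l z * a z / a z = l z := by field_simp
    rw [this]
    have : ∀ j ∈ Finset.univ.erase z, l j * a j / a z = l j * (a j / a z) := fun j _ => by ring
    rw [Finset.sum_congr rfl this]
    ring
  rw [e]
  exact h1.add (inMax_finset_sum _ _ fun j hj => h2 j (Finset.ne_of_mem_erase hj))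

end OnePlace

/-! ### The nodal two-chart model -/

variable {L : Type*} [Field L] [IsAlgClosed L] {A : ValuationSubring L}
variable {F : Type*} [Field F] [Algebra L F] {x : F} {hx : IsGen L x}
variable {Ft₁ Ft₂ : Type*} [Field Ft₁] [Algebra (kA A) Ft₁] [Field Ft₂] [Algebra (kA A) Ft₂]
variable {nn : ℕ} {T : TwoChartsN A hx Ft₁ Ft₂ nn} {N : Nodes (kA A) Ft₁ Ft₂ nn}
variable {G : Subring F} {red : ↥G →+* Ft₁ × Ft₂}

/-- a chart function with nonzero value at the node `j` has order `0` at every place through `j`. -/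
theorem ord_eq_zero_of_nodeChi_ne_zero {j : Fin nn} {P : Place L F} (hP : T.r P = Sum.inr j)
    (b : ↥T.S0.B) (hb : T.nodeChi j b ≠ 0) : P.ord (b : F) = 0 := by
  obtain ⟨h0, hchi⟩ := (T.r_eq_inr_iff P j).mp hP
  have h1 : T.S0.chi P h0 b ≠ 0 := by rw [hchi]; exact hb
  have h2 : T.S0.ev P h0 b ≠ 0 := by
    intro h
    apply h1
    rw [NodalChart.chi_apply, h, map_zero]
  have h3 := (not_congr (T.S0.ev_eq_zero_iff P h0 b)).mp h2
  rw [not_or] at h3
  have h4 := ffp_ord_nonneg_of_mem P (T.S0.mem_place P h0 b b.2)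
  omega

/-- **(HU)** at a nodal two-chart model. -/
theorem unitHyp_of (hN : NodePlaces T N) (hG : GaussExt T G red) : UnitHyp N G red T.r := by
  intro w j hreg hgu P hP
  obtain ⟨a, d, hd, he⟩ := hG.hartogs j w hreg
  obtain ⟨v1, -⟩ := valAt_of_frac hN hG j w hd he
  have hw1 := hgu.fst_ne_zero
  obtain ⟨c, hc, hc1, -⟩ := hgu
  have hca : c = T.nodeChi j a * (T.nodeChi j d)⁻¹ := ValAt.unique hc1 v1
  have ha : T.nodeChi j a ≠ 0 := by
    intro h0
    rw [h0, zero_mul] at hca
    exact hc hca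
  have hw0 : (w : F) ≠ 0 := by
    intro h0
    have : w = 0 := Subtype.ext h0
    rw [this, map_zero] at hw1
    exact hw1 rfl
  have hd0 : (d : F) ≠ 0 := by
    intro h0
    have : d = 0 := Subtype.ext h0
    rw [this, map_zero] at hd
    exact hd rfl
  have := congrArg P.ord he
  rw [P.ord_mul hw0 hd0, ord_eq_zero_of_nodeChi_ne_zero hP d hd,
    ord_eq_zero_of_nodeChi_ne_zero hP a ha, add_zero] at this
  exact this

section Lagrange

variable (hconst : ∀ (j : Fin nn) (a : ↥A), T.nodeChi j (T.S0.const a) = resA A a)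

include hconst

/-- a chart function separating two nodes. -/
theorem exists_sep {j j' : Fin nn} (h : j ≠ j') :
    ∃ u : ↥T.S0.B, T.nodeChi j u = 1 ∧ T.nodeChi j' u = 0 := by
  have hne : T.nodeChi j ≠ T.nodeChi j' := fun he => h (T.node_inj he)
  obtain ⟨b, hb⟩ : ∃ b, T.nodeChi j b ≠ T.nodeChi j' b := by
    by_contra hcon
    push Not at hcon
    exact hne (RingHom.ext hcon)
  obtain ⟨a', ha'⟩ : ∃ a' : ↥A, resA A a' = T.nodeChi j' b :=
    IsLocalRing.residue_surjective _
  obtain ⟨c, hc⟩ : ∃ c : ↥A, resA A c = (T.nodeChi j b - T.nodeChi j' b)⁻¹ :=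
    IsLocalRing.residue_surjective _
  refine ⟨(b - T.S0.const a') * T.S0.const c, ?_, ?_⟩
  · rw [map_mul, map_sub, hconst, hconst, ha', hc]
    exact mul_inv_cancel₀ (sub_ne_zero.mpr hb)
  · rw [map_mul, map_sub, hconst, ha', sub_self, zero_mul]

/-- Lagrange elements in the chart ring. -/
theorem exists_lagrange_chart (j : Fin nn) :
    ∃ e : ↥T.S0.B, T.nodeChi j e = 1 ∧ ∀ j', j' ≠ j → T.nodeChi j' e = 0 := by
  classical
  have H : ∀ j' : Fin nn, ∃ u : ↥T.S0.B, T.nodeChi j u = 1 ∧ (j' ≠ j → T.nodeChi j' u = 0) := by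
    intro j'
    by_cases h : j' = j
    · exact ⟨1, map_one _, fun h' => absurd h h'⟩
    · obtain ⟨u, h1, h2⟩ := exists_sep hconst (Ne.symm h)
      exact ⟨u, h1, fun _ => h2⟩
  choose u hu1 hu2 using H
  refine ⟨∏ j', u j', ?_, fun j' hj' => ?_⟩
  · rw [map_prod]
    exact Finset.prod_eq_one fun i _ => hu1 i
  · rw [map_prod]
    exact Finset.prod_eq_zero (Finset.mem_univ j') (hu2 j' hj')

end Lagrange

set_option maxHeartbeats 1600000 in
/-- **the simultaneous approximation hypothesis of `MoveCore13.exists_offNodes_rep`.** -/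
theorem approx_of (hN : NodePlaces T N) (hG : GaussExt T G red)
    (hconst : ∀ (j : Fin nn) (a : ↥A), T.nodeChi j (T.S0.const a) = resA A a)
    (gz : Fin nn → ↥G) (hgz : ∀ z, (red (gz z)).1 ≠ 0 ∧ (red (gz z)).2 ≠ 0) :
    ∃ Φ : ↥G, (red Φ).1 ≠ 0 ∧ (red Φ).2 ≠ 0 ∧ ∀ z,
      ValAt (N.ν₁ z) ((red Φ).1 / (red (gz z)).1) 1 ∧
        ValAt (N.ν₂ z) ((red Φ).2 / (red (gz z)).2) 1 := by
  classical
  rcases Nat.eq_zero_or_pos nn with h0 | hpos
  · subst h0
    refine ⟨1, ?_, ?_, fun z => z.elim0⟩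
    · rw [map_one]; exact one_ne_zero
    · rw [map_one]; exact one_ne_zero
  choose e he1 he0 using exists_lagrange_chart (T := T) hconst
  -- the exponent
  set M : ℕ := 1 + ∑ z : Fin nn, ∑ j : Fin nn,
    (((N.ν₁ z).ord (red (gz z)).1 - (N.ν₁ z).ord (red (gz j)).1).toNat +
      ((N.ν₂ z).ord (red (gz z)).2 - (N.ν₂ z).ord (red (gz j)).2).toNat) with hM
  have hM1 : 1 ≤ M := by rw [hM]; omega
  have hbound : ∀ z j : Fin nn,
      (((N.ν₁ z).ord (red (gz z)).1 - (N.ν₁ z).ord (red (gz j)).1).toNat +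
        ((N.ν₂ z).ord (red (gz z)).2 - (N.ν₂ z).ord (red (gz j)).2).toNat) < M := by
    intro z j
    rw [hM]
    have h1 : (((N.ν₁ z).ord (red (gz z)).1 - (N.ν₁ z).ord (red (gz j)).1).toNat +
        ((N.ν₂ z).ord (red (gz z)).2 - (N.ν₂ z).ord (red (gz j)).2).toNat) ≤
        ∑ j : Fin nn, (((N.ν₁ z).ord (red (gz z)).1 - (N.ν₁ z).ord (red (gz j)).1).toNat +
          ((N.ν₂ z).ord (red (gz z)).2 - (N.ν₂ z).ord (red (gz j)).2).toNat) :=
      Finset.single_le_sum (f := fun j : Fin nn =>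
        (((N.ν₁ z).ord (red (gz z)).1 - (N.ν₁ z).ord (red (gz j)).1).toNat +
          ((N.ν₂ z).ord (red (gz z)).2 - (N.ν₂ z).ord (red (gz j)).2).toNat))
        (fun _ _ => Nat.zero_le _) (Finset.mem_univ j)
    have h2 := Finset.single_le_sum (f := fun z : Fin nn => ∑ j : Fin nn,
        (((N.ν₁ z).ord (red (gz z)).1 - (N.ν₁ z).ord (red (gz j)).1).toNat +
          ((N.ν₂ z).ord (red (gz z)).2 - (N.ν₂ z).ord (red (gz j)).2).toNat))
        (fun _ _ => Nat.zero_le _) (Finset.mem_univ z)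
    omega
  -- the bumps
  set lb : Fin nn → ↥T.S0.B := fun j => 1 - (1 - e j ^ M) ^ M with hlb
  set Φ : ↥G := ∑ j, hG.incl (lb j) * gz j with hΦ
  have hredΦ : red Φ = ∑ j, T.S0.red (lb j) * red (gz j) := by
    rw [hΦ, map_sum]
    refine Finset.sum_congr rfl fun j _ => ?_
    rw [map_mul, hG.red_incl]
  have hΦ1 : (red Φ).1 = ∑ j, T.S0.ρ₁ (lb j) * (red (gz j)).1 := by
    rw [hredΦ, Prod.fst_sum]
    rfl
  have hΦ2 : (red Φ).2 = ∑ j, T.S0.ρ₂ (lb j) * (red (gz j)).2 := by
    rw [hredΦ, Prod.snd_sum]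
    rfl
  have hρ₁lb : ∀ j, T.S0.ρ₁ (lb j) = 1 - (1 - T.S0.ρ₁ (e j) ^ M) ^ M := by
    intro j
    rw [hlb]
    simp only [map_sub, map_one, map_pow]
  have hρ₂lb : ∀ j, T.S0.ρ₂ (lb j) = 1 - (1 - T.S0.ρ₂ (e j) ^ M) ^ M := by
    intro j
    rw [hlb]
    simp only [map_sub, map_one, map_pow]
  have key : ∀ z, ValAt (N.ν₁ z) ((red Φ).1 / (red (gz z)).1) 1 ∧
      ValAt (N.ν₂ z) ((red Φ).2 / (red (gz z)).2) 1 := by
    intro z
    constructor
    · rw [hΦ1]
      refine valAt_sum_div _ _ z (hgz z).1 ?_ ?_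
      · rw [hρ₁lb]
        have hv : ValAt (N.ν₁ z) (T.S0.ρ₁ (e z)) 1 := by
          have := hN.val₁ z (e z)
          rwa [he1 z] at this
        exact inMax_bump_sub_one hv hM1
      · intro j hj
        rw [hρ₁lb]
        have hv : ValAt (N.ν₁ z) (T.S0.ρ₁ (e j)) 0 := by
          have := hN.val₁ z (e j)
          rwa [he0 j z (Ne.symm hj)] at this
        refine inMax_bump_mul hv ?_
        rw [div_eq_mul_inv, (N.ν₁ z).ord_mul (hgz j).1 (inv_ne_zero (hgz z).1), (N.ν₁ z).ord_inv]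
        have := hbound z j
        omega
    · rw [hΦ2]
      refine valAt_sum_div _ _ z (hgz z).2 ?_ ?_
      · rw [hρ₂lb]
        have hv : ValAt (N.ν₂ z) (T.S0.ρ₂ (e z)) 1 := by
          have := hN.val₂ z (e z)
          rwa [he1 z] at this
        exact inMax_bump_sub_one hv hM1
      · intro j hj
        rw [hρ₂lb]
        have hv : ValAt (N.ν₂ z) (T.S0.ρ₂ (e j)) 0 := by
          have := hN.val₂ z (e j)
          rwa [he0 j z (Ne.symm hj)] at this
        refine inMax_bump_mul hv ?_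
        rw [div_eq_mul_inv, (N.ν₂ z).ord_mul (hgz j).2 (inv_ne_zero (hgz z).2), (N.ν₂ z).ord_inv]
        have := hbound z j
        omega
  refine ⟨Φ, ?_, ?_, key⟩
  · intro h
    have := (key ⟨0, hpos⟩).1
    rw [h, zero_div] at this
    exact zero_ne_one (ValAt.unique valAt_zero this)
  · intro h
    have := (key ⟨0, hpos⟩).2
    rw [h, zero_div] at this
    exact zero_ne_one (ValAt.unique valAt_zero this)

end Fermat.Agent.ES.X44.MoveInputs13
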