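/-
Programme X (S44, spine `X44_SPINE14.md`), chapter (LL′) "moving lemma" (helper13):
**STATEMENT-ONLY LITERALS of the chapter** (definitions and `Prop` literals; nothing is proved here).

THE INSTANCE is main's `GeoInput23.inst48 M' p hpM h4M A hA : NodalInst p M' A` (`r = rN 4 8 …`,
`nodes = nodesN 4 8 …`, `G = GN M' p A`, `red = redN M' p A`); `O1 M' p A`, `O2 M' p A`, `rho1`, `rho2` are
the two Gauss valuation rings of `NodalDefs3` with their residue maps (`GN = O1 ⊓ O2`).

* `LocGen r D`      (ENTRY, what (K)+(W1) hand to (LL′)): a constant `c ≠ 0` and, at every node `z`, a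
                    function `g ≠ 0` with `ord_P g = D P` at EVERY place `P` through `z`, which is a unit
                    for the first Gauss valuation and `c` times a unit for the second one
                    ("local generators of `D` at the nodes whose jump `v₂ - v₁ = v(c)` does not depend on
                    the node").  No field of definition, no node coordinate, no torsion hypothesis.
* `NormGen I D`     (the NORMALISED form, in the vocabulary of `NodalInst` only): at every node a
                    generator in `I.G` both of whose reductions are nonzero.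
* `MoveStmt`        (brick (MV)): `IsRep x D → LocGen IX.r D → ∃ D', IsRep x D' ∧ OffNodes IX.r D'`.
* `MoveNormStmt`    the same from `NormGen` (what the abstract core proves).
(brick (LG) "slopes ⇒ `LocGen`" is `X44/LocGenInst11`, its conclusion is verbatim the body of `LocGen`.)
-/
import Mathlib
import Fermat.Agent.ES.W33.GeoLeaves23

set_option autoImplicit false
set_option linter.unusedSectionVars false
set_option synthInstance.maxHeartbeats 400000

noncomputable section

open AlgebraicCurve ModularCurve

namespace Fermat.Agent.ES.X44.MoveLit13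

open Fermat.Agent.ES.W33.XiIfaceN29 Fermat.Agent.ES.W33.GeoNames23 Fermat.Agent.ES.W33.GeoW23
  Fermat.Agent.ES.W33.GeoInput23 Fermat.Agent.ES.W33.GeoLeaves23 Fermat.Agent.ES.W33.NodalDefs3

attribute [local instance 5000] HahnSeries.powerSeriesAlgebra SubalgebraClass.toAlgebra

local notation "Qb" => AlgebraicClosure ℚ

section Literals

variable (M' : ℕ) [NeZero M'] (p : ℕ) [Fact p.Prime] (A : ValuationSubring Qb)

/-- **ENTRY of (LL′)**: local generators of `D` at every node, with a jump of the two Gauss valuations
which does not depend on the node. -/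
def LocGen {s : ℕ} (r : Place Qb (FW p M') → SPtW M' A ⊕ Fin s) (D : Divisor Qb (FW p M')) : Prop :=
  ∃ c : Qb, c ≠ 0 ∧ ∀ z : Fin s, ∃ g : FW p M', g ≠ 0 ∧
    (∀ P : Place Qb (FW p M'), r P = Sum.inr z → P.ord g = D P) ∧
    (∃ h : g ∈ O1 M' p A, rho1 M' p A ⟨g, h⟩ ≠ 0) ∧
    ∃ h : (algebraMap Qb (FW p M') c)⁻¹ * g ∈ O2 M' p A, rho2 M' p A ⟨_, h⟩ ≠ 0

variable {M' p A}

/-- the NORMALISED form: at every node a generator of `D` in `I.G` with both reductions nonzero. -/
def NormGen (I : NodalInst p M' A) (D : Divisor Qb (FW p M')) : Prop :=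
  ∀ z : Fin I.s, ∃ g : ↥I.G, (I.red g).1 ≠ 0 ∧ (I.red g).2 ≠ 0 ∧
    ∀ P : Place Qb (FW p M'), I.r P = Sum.inr z → P.ord (g : FW p M') = D P

end Literals

variable (M' : ℕ) [NeZero M'] (p : ℕ) [Fact p.Prime] (hpM : ¬ p ∣ M') (h4M : 4 ∣ M')
  (A : ValuationSubring Qb) (hA : A.LiesOverPrime p)

/-- **brick (MV)**: a class with a representative carrying local generators of constant jump has a
representative off the nodes. -/
def MoveStmt : Prop :=
  ∀ (x : Pic0 Qb (FW p M')) (D : Divisor Qb (FW p M')), IsRep x D →
    LocGen M' p A (inst48 M' p hpM h4M A hA).r D →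
    ∃ D' : Divisor Qb (FW p M'), IsRep x D' ∧ OffNodes (inst48 M' p hpM h4M A hA).r D'

/-- **brick (MV), normalised form** (what the abstract core proves). -/
def MoveNormStmt : Prop :=
  ∀ (x : Pic0 Qb (FW p M')) (D : Divisor Qb (FW p M')), IsRep x D →
    NormGen (inst48 M' p hpM h4M A hA) D →
    ∃ D' : Divisor Qb (FW p M'), IsRep x D' ∧ OffNodes (inst48 M' p hpM h4M A hA).r D'

end Fermat.Agent.ES.X44.MoveLit13
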