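/-
Programme X (S44, spine `X44_SPINE14.md`), chapter (LL′) "moving lemma", brick (MV) AT THE INSTANCE
(helper13): **`MoveLit13.MoveNormStmt` at main's `inst48 M' p hpM h4M A hA`, NO HYPOTHESIS LEFT**
(`p` odd, `p ∤ M'`, `4 ∣ M'`, `A ≤ ℚ̄` over `p`).

The abstract core `MoveCore13.exists_offNodes_rep` fed with
* `RedCtxN`               := `(instInput_of_open (open_four …)).hyp.ctx`                       (W, main),
* `RedHypN g`             := `GeoGeneric23.redHypN_main`                                     (W, main),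
* a chart with `ChartHypN` := `ChartPtsLe23.exists_chart_points_le` + `GeoNames23.chartHypN_of`
                             (as in `GeoW23.hasNodalChart_mul` / `GeoJoin23.hasNodalChart_of_inst`),
* (HU), (happrox)         := `MoveInputs13.unitHyp_of`, `MoveInputs13.approx_of` at the nodal two-chart
                             model `H.T` of `NodalCtxRN20.RNLeaves` (`GeoLeaves23.rnLeaves`),
* (hinv)                  := `RNLeaves.inv_mem`.
-/
import Mathlib
import Fermat.Agent.ES.W33.GeoLeaves23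
import Fermat.Agent.ES.X44.MoveInputs13
import Fermat.Agent.ES.X44.MoveLit13

set_option autoImplicit false
set_option linter.unusedSectionVars false
set_option linter.style.haveILetI false
set_option synthInstance.maxHeartbeats 400000

noncomputable section

open AlgebraicCurve ModularCurve IntermediateField

namespace Fermat.Agent.ES.X44.MoveInst13

open Fermat.Agent.X0 Fermat.Agent.X0.FF Fermat.Agent.RED.Interface4 Fermat.Agent.RED.BASE
  Fermat.Agent.RED.BASE.Interface12 Fermat.Agent.RED.BASE.Hauptmodul12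
  Fermat.Agent.ES.RED.Contract8 Fermat.Agent.ES.RED.ModelInst4
  Fermat.Agent.ES.V19.InstNames3
  Fermat.Agent.ES.W33.XiIfaceN29 Fermat.Agent.ES.W33.GeoNames23 Fermat.Agent.ES.W33.GeoJoin23
  Fermat.Agent.ES.W33.GeoW23 Fermat.Agent.ES.W33.NodalDefs3 Fermat.Agent.ES.W33.GeoInst23
  Fermat.Agent.ES.W33.GoodPts23 Fermat.Agent.ES.W33.GeoInput23 Fermat.Agent.ES.W33.GeoLeaves23
  Fermat.Agent.ES.W33.GeoGeneric23 Fermat.Agent.ES.W33.ChartPtsLe23
  Fermat.Agent.ES.W33.NodalCtxRN20 Fermat.Agent.ES.W33.NodalGlue20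
  Fermat.Agent.ES.X44.MoveCore13 Fermat.Agent.ES.X44.MoveInputs13 Fermat.Agent.ES.X44.MoveLit13

attribute [local instance 5000] HahnSeries.powerSeriesAlgebra SubalgebraClass.toAlgebra

local notation "Qb" => AlgebraicClosure ℚ

section Chart

variable {p M' : ℕ} {A : ValuationSubring Qb}

/-- **a chart with `ChartHypN` at an instance with all chapter exits** (the first half of
`GeoJoin23.hasNodalChart_of_inst`). -/
theorem exists_chartHypN (n e : ℕ) [NeZero n] [NeZero M'] [Fact p.Prime] (hpM : ¬ p ∣ M')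
    (hb : BaseHyp n e) (hnM : n ∣ M') (hA : A.LiesOverPrime p) {I : NodalInst p M' A}
    (H : InstInput I) :
    ∃ χ : ChartN Qb (FW p M') (kW A) (FtW M' A) (FtW M' A) (genusFF Qb (FW p M')),
      ChartHypN A I.nodes I.r χ := by
  classical
  have hin := inputs0V n e M' p hpM hb hnM A hA
  have hr := hrV n e M' p hpM hb hnM A hA
  have : IsAlgClosed (kA A) := isAlgClosed_kA A
  have HL := Fermat.Agent.ES.V19.LHypFt13.lHyp_Ft n e M' p hpM (tMem_of_dvd hb hnM)
    (tGenBase' hb) A hA hr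
  have hR := Fermat.Agent.ES.V19.LHypFt13.riemann_inequality_Ft n e M' p hpM
    (tMem_of_dvd hb hnM) (tGenBase' hb) A hA hr
  have : Infinite (Place (kW A) (FtW M' A)) :=
    Fermat.Agent.ES.V19.GoodCofinite16.infinite_place hin.gent hin.sep
  have hI := H.hyp
  obtain ⟨Qbar, hinj, -, hmem, hconst⟩ := exists_chart_points_le HL hR HL hR H.b1.1 I.nodes
    hI.nodes_inj (goodOne_infinite hI) (goodOne_ne_node hI) (goodTwo_infinite hI)
    (goodTwo_ne_node hI) H.b1.2
  have hgood : ∀ i, I.Good (Qbar i) := fun i => by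
    rcases hmem i with ⟨Q, hQ, h⟩ | ⟨Q, hQ, h⟩
    · rw [h]; exact hQ
    · rw [h]; exact hQ
  obtain ⟨Qs₁, hQs₁, hQs₁ne⟩ :
      ∃ Q ∈ goodOne I, Q ∉ (Finset.univ.image fun i => Qbar i).preimage Sum.inl
        Sum.inl_injective.injOn :=
    (goodOne_infinite hI).exists_notMem_finset _
  have hQs : I.Good (Sum.inl Qs₁) := hQs₁
  have hne : ∀ i, (Sum.inl Qs₁ : SPtW M' A) ≠ Qbar i := fun i h => by
    apply hQs₁ne
    rw [Finset.mem_preimage, Finset.mem_image]
    exact ⟨i, Finset.mem_univ i, h.symm⟩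
  exact ⟨chartOfN I Qbar, chartHypN_of hI hinj hgood hconst hQs hne⟩

end Chart

variable (M' : ℕ) [NeZero M'] (p : ℕ) [Fact p.Prime] (hpM : ¬ p ∣ M') (h4M : 4 ∣ M')
  (A : ValuationSubring Qb) (hA : A.LiesOverPrime p)

/-- (HU) at the instance, in terms of `rN`. -/
theorem unitHyp_rN (hp2 : p ≠ 2) :
    haveI := neZero_four
    UnitHyp (nodesN 4 8 M' p hpM baseHyp_four h4M A hA) (GN M' p A) (redN M' p A)
      (rN 4 8 M' p hpM baseHyp_four h4M A hA) := by
  haveI := neZero_four
  have H := rnLeaves M' p hpM h4M A hA hp2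
  have h := unitHyp_of H.nodePlaces H.gaussExt
  have e : H.T.r = rN 4 8 M' p hpM baseHyp_four h4M A hA := funext H.T_r
  rwa [e] at h

set_option maxHeartbeats 1600000 in
/-- **brick (MV), normalised form, at the instance.** -/
theorem moveNorm (hp2 : p ≠ 2) : MoveNormStmt M' p hpM h4M A hA := by
  haveI := neZero_four
  intro x D hx hgen
  have HI := instInput_of_open (open_four M' p hpM h4M A hA hp2)
  have H := rnLeaves M' p hpM h4M A hA hp2
  have : NeZero (M' * p) := ⟨Nat.mul_ne_zero (NeZero.ne M') (Fact.out : p.Prime).ne_zero⟩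
  have HR := redHypN_main 4 8 (M' * p) baseHyp_four (Dvd.dvd.mul_right h4M p)
  obtain ⟨χ, hχ⟩ := exists_chartHypN 4 8 hpM baseHyp_four h4M hA HI
  obtain ⟨hD, hxD⟩ := hx
  have C : RedCtxN A (IsLocalRing.residue ↥A) (nodesN 4 8 M' p hpM baseHyp_four h4M A hA)
      (GN M' p A) (redN M' p A) (rN 4 8 M' p hpM baseHyp_four h4M A hA) := HI.hyp.ctx
  have hχ' : ChartHypN A (nodesN 4 8 M' p hpM baseHyp_four h4M A hA)
      (rN 4 8 M' p hpM baseHyp_four h4M A hA) χ := hχ
  have hgen' : ∀ z : Fin (sN 4 8 M' p hpM baseHyp_four h4M A hA), ∃ gz : ↥(GN M' p A),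
      (redN M' p A gz).1 ≠ 0 ∧ (redN M' p A gz).2 ≠ 0 ∧
        ∀ P : Place Qb (FW p M'), rN 4 8 M' p hpM baseHyp_four h4M A hA P = Sum.inr z →
          P.ord (gz : FW p M') = D P := hgen
  obtain ⟨D', hD', hcl, hoff⟩ := exists_offNodes_rep C HR hχ' (unitHyp_rN M' p hpM h4M A hA hp2)
    H.inv_mem (approx_of H.nodePlaces H.gaussExt H.nodeChi_const) D hD hgen'
  exact ⟨D', ⟨hD', hcl.trans hxD⟩, hoff⟩

end Fermat.Agent.ES.X44.MoveInst13
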