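/-
Programme X (S44, spine `X44_SPINE14.md`), chapter (LL′) "moving lemma", THE EXIT OF BRICK (MV)
(helper13): **`MoveLit13.MoveStmt` at main's `inst48 M' p hpM h4M A hA`, NO HYPOTHESIS LEFT**
(`p` odd, `p ∤ M'`, `4 ∣ M'`, `A ≤ ℚ̄` over `p`):

  `IsRep x D → LocGen M' p A inst48.r D → ∃ D', IsRep x D' ∧ OffNodes inst48.r D'`.

NORMALISATION: with `z₁` any node, `D' := D - div g_{z₁}` represents `x` and has the generators
`g_z / g_{z₁} ∈ GN` with both reductions nonzero (units of the two Gauss valuation rings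
`O1`, `O2`: `GaussFrac15.isGU_iff_rho_ne_zero`, `inv_mem_gaussInt_of_isGU`); then
`MoveInst13.moveNorm`.
-/
import Mathlib
import Fermat.Agent.ES.X44.MoveInst13

set_option autoImplicit false
set_option linter.unusedSectionVars false
set_option linter.style.haveILetI false
set_option synthInstance.maxHeartbeats 400000

noncomputable section

open AlgebraicCurve ModularCurve IntermediateField

namespace Fermat.Agent.ES.X44.MoveExit13

open Fermat.Agent.X0 Fermat.Agent.X0.FF Fermat.Agent.RED.Interface4 Fermat.Agent.RED.BASE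
  Fermat.Agent.RED.BASE.Interface12 Fermat.Agent.RED.BASE.Hauptmodul12
  Fermat.Agent.ES.RED.Contract8 Fermat.Agent.ES.RED.ModelInst4 Fermat.Agent.ES.RED.GaussRing15
  Fermat.Agent.ES.V19.InstNames3 Fermat.Agent.ES.V19.GaussFrac15 Fermat.Agent.RR.LSpace
  Fermat.Agent.ES.W33.XiIfaceN29 Fermat.Agent.ES.W33.GeoNames23
  Fermat.Agent.ES.W33.GeoW23 Fermat.Agent.ES.W33.NodalDefs3 Fermat.Agent.ES.W33.GeoInst23
  Fermat.Agent.ES.W33.GeoInput23 Fermat.Agent.ES.W33.GeoLeaves23 Fermat.Agent.ES.W33.GeoGeneric23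
  Fermat.Agent.ES.X44.MoveCore13 Fermat.Agent.ES.X44.MoveLit13 Fermat.Agent.ES.X44.MoveInst13

attribute [local instance 5000] HahnSeries.powerSeriesAlgebra SubalgebraClass.toAlgebra

local notation "Qb" => AlgebraicClosure ℚ

/-! ### units of a subring with a residue map -/

section Generic

variable {F Ft : Type*} [Field F] [Field Ft]

theorem rho_mul_inv (S : Subring F) (ρ : ↥S →+* Ft) {g : F} (hg : g ∈ S) (hgi : g⁻¹ ∈ S)
    (h0 : g ≠ 0) : ρ ⟨g, hg⟩ * ρ ⟨g⁻¹, hgi⟩ = 1 := by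
  rw [← map_mul]
  have : (⟨g, hg⟩ : ↥S) * ⟨g⁻¹, hgi⟩ = 1 := Subtype.ext (mul_inv_cancel₀ h0)
  rw [this, map_one]

theorem rho_quot_ne_zero (S : Subring F) (ρ : ↥S →+* Ft) {g g' : F} (hg : g ∈ S) (hg' : g' ∈ S)
    (hgi : g'⁻¹ ∈ S) (h0 : g' ≠ 0) (hr : ρ ⟨g, hg⟩ ≠ 0) :
    ρ ⟨g * g'⁻¹, S.mul_mem hg hgi⟩ ≠ 0 := by
  have e : (⟨g * g'⁻¹, S.mul_mem hg hgi⟩ : ↥S) = ⟨g, hg⟩ * ⟨g'⁻¹, hgi⟩ := rfl
  rw [e, map_mul]
  exact mul_ne_zero hr (right_ne_zero_of_mul_eq_one (rho_mul_inv S ρ hg' hgi h0))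

end Generic

variable (M' : ℕ) [NeZero M'] (p : ℕ) [Fact p.Prime] (A : ValuationSubring Qb)

/-- a unit of the first Gauss valuation ring. -/
theorem inv_mem_O1 {g : FW p M'} (h : g ∈ O1 M' p A) (hr : rho1 M' p A ⟨g, h⟩ ≠ 0) :
    g⁻¹ ∈ O1 M' p A :=
  inv_mem_gaussInt_of_isGU
    ((isGU_iff_rho_ne_zero (G := Gq1 M' p A) (red := redq1 M' p A) ⟨g, h⟩).mpr hr)

/-- a unit of the second Gauss valuation ring. -/
theorem inv_mem_O2 {g : FW p M'} (h : g ∈ O2 M' p A) (hr : rho2 M' p A ⟨g, h⟩ ≠ 0) :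
    g⁻¹ ∈ O2 M' p A := by
  rw [rho2_apply] at hr
  show frickeN M' p g⁻¹ ∈ O1 M' p A
  rw [map_inv₀]
  exact inv_mem_gaussInt_of_isGU
    ((isGU_iff_rho_ne_zero (G := Gq1 M' p A) (red := redq1 M' p A) ⟨frickeN M' p g, h⟩).mpr hr)

variable (hpM : ¬ p ∣ M') (h4M : 4 ∣ M') (hA : A.LiesOverPrime p)

set_option maxHeartbeats 1600000 in
/-- **THE EXIT OF BRICK (MV)**: the moving lemma at the instance. -/
theorem move (hp2 : p ≠ 2) : MoveStmt M' p hpM h4M A hA := by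
  haveI := neZero_four
  intro x D hx hloc
  have : NeZero (M' * p) := ⟨Nat.mul_ne_zero (NeZero.ne M') (Fact.out : p.Prime).ne_zero⟩
  have HL : LHyp Qb (FW p M') :=
    (redHypN_main 4 8 (M' * p) baseHyp_four (Dvd.dvd.mul_right h4M p)).lhyp
  have hloc' : LocGen M' p A (rN 4 8 M' p hpM baseHyp_four h4M A hA) D := hloc
  obtain ⟨c, hc, hz⟩ := hloc'
  rcases Nat.eq_zero_or_pos (sN 4 8 M' p hpM baseHyp_four h4M A hA) with hs | hs
  · -- no node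
    refine ⟨D, hx, fun P _ j _ => ?_⟩
    have j' : Fin (sN 4 8 M' p hpM baseHyp_four h4M A hA) := j
    rw [hs] at j'
    exact j'.elim0
  choose g hg0 hgord hg1 hg2 using hz
  set z₁ : Fin (sN 4 8 M' p hpM baseHyp_four h4M A hA) := ⟨0, hs⟩ with hz₁
  set cF : FW p M' := (algebraMap Qb (FW p M') c)⁻¹ with hcF
  have hcF0 : cF ≠ 0 := inv_ne_zero ((map_ne_zero _).mpr hc)
  -- the normalised generators
  have hmem : ∀ z, g z * (g z₁)⁻¹ ∈ GN M' p A := by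
    intro z
    obtain ⟨h1, hr1⟩ := hg1 z
    obtain ⟨h1', hr1'⟩ := hg1 z₁
    obtain ⟨h2, hr2⟩ := hg2 z
    obtain ⟨h2', hr2'⟩ := hg2 z₁
    refine ⟨(O1 M' p A).mul_mem h1 (inv_mem_O1 M' p A h1' hr1'), ?_⟩
    have e : g z * (g z₁)⁻¹ = (cF * g z) * (cF * g z₁)⁻¹ := by
      rw [mul_inv]
      field_simp
    rw [e]
    exact (O2 M' p A).mul_mem h2 (inv_mem_O2 M' p A h2' hr2')
  have hnorm : NormGen (inst48 M' p hpM h4M A hA) (D - divOf HL (hg0 z₁)) := by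
    intro z
    obtain ⟨z', rfl⟩ : ∃ z' : Fin (sN 4 8 M' p hpM baseHyp_four h4M A hA), z' = z := ⟨z, rfl⟩
    obtain ⟨h1, hr1⟩ := hg1 z'
    obtain ⟨h1', hr1'⟩ := hg1 z₁
    obtain ⟨h2, hr2⟩ := hg2 z'
    obtain ⟨h2', hr2'⟩ := hg2 z₁
    refine ⟨(⟨g z' * (g z₁)⁻¹, hmem z'⟩ : ↥(GN M' p A)), ?_, ?_, ?_⟩
    · show (redN M' p A ⟨g z' * (g z₁)⁻¹, hmem z'⟩).1 ≠ 0
      rw [redN_fst]
      exact rho_quot_ne_zero (O1 M' p A) (rho1 M' p A) h1 h1' (inv_mem_O1 M' p A h1' hr1')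
        (hg0 z₁) hr1
    · show (redN M' p A ⟨g z' * (g z₁)⁻¹, hmem z'⟩).2 ≠ 0
      rw [redN_snd]
      have e : g z' * (g z₁)⁻¹ = (cF * g z') * (cF * g z₁)⁻¹ := by
        rw [mul_inv]
        field_simp
      have key := rho_quot_ne_zero (O2 M' p A) (rho2 M' p A) h2 h2'
        (inv_mem_O2 M' p A h2' hr2') (mul_ne_zero hcF0 (hg0 z₁)) hr2
      have e' : (⟨g z' * (g z₁)⁻¹, GN_le_O2 M' p A (hmem z')⟩ : ↥(O2 M' p A)) =
          ⟨(cF * g z') * (cF * g z₁)⁻¹,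
            (O2 M' p A).mul_mem h2 (inv_mem_O2 M' p A h2' hr2')⟩ := Subtype.ext e
      rw [e']
      exact key
    · intro P hP
      show P.ord (g z' * (g z₁)⁻¹) = _
      rw [P.ord_mul (hg0 z') (inv_ne_zero (hg0 z₁)), P.ord_inv, hgord z' P hP,
        Finsupp.sub_apply, divOf_apply]
      ring
  -- the class is unchanged
  obtain ⟨hD, hxD⟩ := hx
  have hD' : D - divOf HL (hg0 z₁) ∈ Divisor.degZero (K := Qb) (F := FW p M') := by
    rw [Divisor.mem_degZero, map_sub, Divisor.mem_degZero.mp hD, degree_divOf, sub_zero]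
  have hx' : IsRep x (D - divOf HL (hg0 z₁)) := by
    refine ⟨hD', ?_⟩
    rw [← hxD, Fermat.Agent.ES.V19.XiPic5.mk_eq_mk_iff]
    show D - divOf HL (hg0 z₁) - D ∈ _
    have e : D - divOf HL (hg0 z₁) - D = -divOf HL (hg0 z₁) := by abel
    rw [e]
    exact neg_mem (divOf_mem_principal HL (hg0 z₁))
  exact moveNorm M' p hpM h4M A hA hp2 x _ hx' hnorm

end Fermat.Agent.ES.X44.MoveExit13
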