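/-
Programme X (S44), chapter (LL′), leaf (NC), sub-leaf **(L-FIX)** (helper16, named by helper17):
**the three fields `fix`, `g1w`, `g2` of `NodeCoordWLit17.IsNodeCoordW` for `x := bc x₀`**, where
`x₀ ∈ K₀·F_N` (`N = M' p`) is the node coordinate of Programme P at a level `K₀` fixed by inertia.

Hypotheses on `x₀` (= the last clauses of `NodeRegUse17.node_facts` + `le_O1`):
(a) `x₀ ∈ O1_{K₀}`, (b) `x₀ ∉ p·O1_{K₀}`, (c) `x₀ ∈ p·O2_{K₀}`, (d) `x₀ ∉ p²·O2_{K₀}`.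

* `fix_of_level` : `τ` fixes `K₀` pointwise ⇒ `aG p M' τ • bc x₀ = bc x₀` (coefficientwise action);
* `g1w_of_level` : (a), (b) ⇒ `bc x₀ ∈ O1`, `rho1 (bc x₀) ≠ 0`
  (`LevelCompare3.bc_mem_O1` + `GaussGen8.gaussRed_eq_zero_iff`);
* `g2_of_level` : (c), (d) ⇒ `p⁻¹ · bc x₀ ∈ O2`, `rho2 (p⁻¹ · bc x₀) ≠ 0`
  (`LevelCompare3.bc_mem_O2` + `W_N` is `K₀`-linear);
* `nodeCoordFix` : the conjunction; `isNodeCoordW_of_level` : with the clause `val` supplied,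
  `IsNodeCoordW I z (bc x₀)`.
-/
import Mathlib
import Fermat.Agent.ES.W33.LevelCompare3
import Fermat.Agent.ES.X44.NodeCoordWLit17

set_option autoImplicit false
set_option linter.unusedSectionVars false
set_option synthInstance.maxHeartbeats 400000

noncomputable section

open AlgebraicCurve ModularCurve HahnSeries

namespace Fermat.Agent.ES.X44.NodeCoordFix16

open Fermat.Agent.RED.Interface4 Fermat.Agent.RED.DESC Fermat.Agent.RED.DESC.NumberFieldDVR27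
  Fermat.Agent.RED.DESC.PlaceExtend27
  Fermat.Agent.RED.PUR.GaussGen8
  Fermat.Agent.ES.W33.XiIfaceN29 Fermat.Agent.ES.W33.GeoNames23 Fermat.Agent.ES.W33.GeoJoinGa23
  Fermat.Agent.ES.W33.NodalDefs3

attribute [local instance 5000] HahnSeries.powerSeriesAlgebra SubalgebraClass.toAlgebra

variable (M' : ℕ) [NeZero M'] (p : ℕ) [Fact p.Prime] [NeZero p] (A : ValuationSubring Qbar)
  {K₀ : IntermediateField ℚ Qbar}

/-- the constant `π` of `K·F_N` as a Laurent series. -/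
theorem coe_algebraMap_AK (c : ↥(AK A K₀)) :
    ((algebraMap ↥(AK A K₀) ↥(FK (M' * p) K₀) c : FK (M' * p) K₀) : LaurentSeries K₀) =
      HahnSeries.C ((c : ↥(AK A K₀)) : K₀) := by
  show algebraMap K₀ (LaurentSeries K₀) ((c : ↥(AK A K₀)) : K₀) = _
  exact algebraMap_eq_C _

/-- an element of `K·F_N` whose Gauss reduction vanishes is divisible by `π` in the Gauss ring
of `K·F_N`. -/
theorem exists_eq_pi_mul {π : ↥(AK A K₀)} (hπ : IsUnif (AK A K₀) π)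
    (x : FK (M' * p) K₀) (hx : (x : LaurentSeries K₀) ∈ gaussRing (AK A K₀))
    (h0 : gaussRed (AK A K₀) ⟨(x : LaurentSeries K₀), hx⟩ = 0) :
    ∃ o : FK (M' * p) K₀, (o : LaurentSeries K₀) ∈ gaussRing (AK A K₀) ∧
      x = algebraMap ↥(AK A K₀) ↥(FK (M' * p) K₀) π * o := by
  obtain ⟨g, hg⟩ := (gaussRed_eq_zero_iff hπ _).mp h0
  have hg' : (x : LaurentSeries K₀) = HahnSeries.C ((π : ↥(AK A K₀)) : K₀) * (g : LaurentSeries K₀) :=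
    congrArg Subtype.val hg
  have hπ0 : (algebraMap ↥(AK A K₀) ↥(FK (M' * p) K₀) π : FK (M' * p) K₀) ≠ 0 := by
    intro h
    have h1 := congrArg (fun z : FK (M' * p) K₀ => (z : LaurentSeries K₀)) h
    simp only [coe_algebraMap_AK] at h1
    exact piK_ne_zero hπ h1
  refine ⟨(algebraMap ↥(AK A K₀) ↥(FK (M' * p) K₀) π)⁻¹ * x, ?_, ?_⟩
  · have : (((algebraMap ↥(AK A K₀) ↥(FK (M' * p) K₀) π)⁻¹ * x : FK (M' * p) K₀) :
        LaurentSeries K₀) = (g : LaurentSeries K₀) := by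
      push_cast
      rw [coe_algebraMap_AK, hg', ← mul_assoc, inv_mul_cancel₀ (piK_ne_zero hπ), one_mul]
    rw [this]
    exact g.2
  · rw [← mul_assoc, mul_inv_cancel₀ hπ0, one_mul]

theorem g1w_of_level (hp2 : p ≠ 2) (hpM : ¬ p ∣ M') (h4 : 4 ∣ M') (hA : A.LiesOverPrime p)
    (hπ₀ : IsUnif (AK A K₀) (p : ↥(AK A K₀))) (hE₀ : FK (M' * p) K₀ ≤ fracField (AK A K₀))
    (x₀ : FK (M' * p) K₀)
    (ha : x₀ ∈ Fermat.Agent.ES.N34.ModelDefs9.O1 M' p hπ₀ hE₀)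
    (hb : ¬ ∃ o ∈ Fermat.Agent.ES.N34.ModelDefs9.O1 M' p hπ₀ hE₀,
      x₀ = algebraMap ↥(AK A K₀) ↥(FK (M' * p) K₀) (p : ↥(AK A K₀)) * o) :
    ∃ h : baseChangeHom (M' * p) K₀ x₀ ∈ O1 M' p A,
      rho1 M' p A ⟨baseChangeHom (M' * p) K₀ x₀, h⟩ ≠ 0 := by
  obtain ⟨hX, hρ⟩ := Fermat.Agent.ES.W33.LevelCompare3.bc_mem_O1 M' p A hp2 hpM h4 hA hπ₀ hE₀ x₀ ha
  refine ⟨hX, fun h0 => hb ?_⟩
  rw [h0] at hρ
  have h1 : gaussRed (AK A K₀) ⟨(x₀ : LaurentSeries K₀), ha⟩ = 0 := by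
    apply CoeffDescent1.coeffMap_injective_of_injective (resMap A K₀) (resMap_injective A K₀)
    rw [map_zero]
    exact hρ.symm
  obtain ⟨o, ho, hxo⟩ := exists_eq_pi_mul M' p A hπ₀ x₀ ha h1
  exact ⟨o, ho, hxo⟩

/-- `bc` of the constant `p` of `K·F_N` is the constant `p` of `ℚ̄·F_N`. -/
theorem bc_natCast_AK :
    baseChangeHom (M' * p) K₀
        (algebraMap ↥(AK A K₀) ↥(FK (M' * p) K₀) (p : ↥(AK A K₀))) =
      algebraMap Qbar ↥(Fbar (M' * p)) (p : Qbar) := by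
  have h1 : (algebraMap ↥(AK A K₀) ↥(FK (M' * p) K₀) (p : ↥(AK A K₀)) : FK (M' * p) K₀) =
      algebraMap K₀ ↥(FK (M' * p) K₀) (p : K₀) := by
    rw [map_natCast, map_natCast]
  rw [h1, baseChangeHom_algebraMap]
  congr 1

theorem g2_of_level (hp2 : p ≠ 2) (hpM : ¬ p ∣ M') (h4 : 4 ∣ M') (hA : A.LiesOverPrime p)
    (hπ₀ : IsUnif (AK A K₀) (p : ↥(AK A K₀))) (hE₀ : FK (M' * p) K₀ ≤ fracField (AK A K₀))
    (x₀ : FK (M' * p) K₀)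
    (hc : ∃ o ∈ Fermat.Agent.ES.N34.ModelDefs9.O2 M' p hπ₀ hE₀,
      x₀ = algebraMap ↥(AK A K₀) ↥(FK (M' * p) K₀) (p : ↥(AK A K₀)) * o)
    (hd : ¬ ∃ o ∈ Fermat.Agent.ES.N34.ModelDefs9.O2 M' p hπ₀ hE₀,
      x₀ = algebraMap ↥(AK A K₀) ↥(FK (M' * p) K₀) (p : ↥(AK A K₀)) *
        (algebraMap ↥(AK A K₀) ↥(FK (M' * p) K₀) (p : ↥(AK A K₀)) * o)) :
    ∃ h : (algebraMap Qbar ↥(Fbar (M' * p)) (p : Qbar))⁻¹ * baseChangeHom (M' * p) K₀ x₀ ∈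
        O2 M' p A,
      rho2 M' p A ⟨_, h⟩ ≠ 0 := by
  obtain ⟨o, ho, hxo⟩ := hc
  obtain ⟨hX, hρ⟩ := Fermat.Agent.ES.W33.LevelCompare3.bc_mem_O2 M' p A hp2 hpM h4 hA hπ₀ hE₀ o ho
  have hp0 : (algebraMap Qbar ↥(Fbar (M' * p)) (p : Qbar)) ≠ 0 := by
    rw [Ne, map_eq_zero]
    exact_mod_cast (NeZero.ne p)
  have heq : (algebraMap Qbar ↥(Fbar (M' * p)) (p : Qbar))⁻¹ * baseChangeHom (M' * p) K₀ x₀ =
      baseChangeHom (M' * p) K₀ o := by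
    rw [hxo, map_mul, bc_natCast_AK, ← mul_assoc, inv_mul_cancel₀ hp0, one_mul]
  have hmem : (algebraMap Qbar ↥(Fbar (M' * p)) (p : Qbar))⁻¹ * baseChangeHom (M' * p) K₀ x₀ ∈
      O2 M' p A := by rw [heq]; exact hX
  refine ⟨hmem, fun h0 => hd ?_⟩
  have hsub : (⟨_, hmem⟩ : ↥(O2 M' p A)) = ⟨baseChangeHom (M' * p) K₀ o, hX⟩ := Subtype.ext heq
  rw [hsub] at h0
  rw [h0] at hρ
  have h1 : gaussRed (AK A K₀) ⟨Fermat.Agent.ES.N34.ModelDefs9.iota2 K₀ M' p o, ho⟩ = 0 := by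
    apply CoeffDescent1.coeffMap_injective_of_injective (resMap A K₀) (resMap_injective A K₀)
    rw [map_zero]
    exact hρ.symm
  obtain ⟨o', ho', hwo⟩ := exists_eq_pi_mul M' p A hπ₀
    (Fermat.Agent.ES.N34.ModelDefs9.wN K₀ M' p o) ho h1
  refine ⟨Fermat.Agent.ES.N34.ModelDefs9.wN K₀ M' p o', ?_, ?_⟩
  · rw [Fermat.Agent.ES.N34.ModelDefs9.wN_mem_O2_iff]
    exact ho'
  · have hcomm : Fermat.Agent.ES.N34.ModelDefs9.wN K₀ M' p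
        (algebraMap ↥(AK A K₀) ↥(FK (M' * p) K₀) (p : ↥(AK A K₀))) =
        algebraMap ↥(AK A K₀) ↥(FK (M' * p) K₀) (p : ↥(AK A K₀)) := by
      show Fermat.Agent.ES.N34.ModelDefs9.wN K₀ M' p
        (algebraMap K₀ ↥(FK (M' * p) K₀) (((p : ↥(AK A K₀)) : ↥(AK A K₀)) : K₀)) =
        algebraMap K₀ ↥(FK (M' * p) K₀) (((p : ↥(AK A K₀)) : ↥(AK A K₀)) : K₀)
      exact AlgHom.commutes _ _
    have h2 : o = algebraMap ↥(AK A K₀) ↥(FK (M' * p) K₀) (p : ↥(AK A K₀)) *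
        Fermat.Agent.ES.N34.ModelDefs9.wN K₀ M' p o' := by
      have h3 := congrArg (Fermat.Agent.ES.N34.ModelDefs9.wN K₀ M' p) hwo
      rw [Fermat.Agent.ES.N34.ModelDefs9.wN_wN, map_mul, hcomm] at h3
      exact h3
    exact hxo.trans (congrArg _ h2)

theorem fix_of_level (hfix : ∀ τ ∈ A.inertiaSubgroupIn ℚ, ∀ x ∈ K₀, τ x = x)
    (x₀ : FK (M' * p) K₀) :
    ∀ τ ∈ A.inertiaSubgroupIn ℚ,
      aG p M' τ • (baseChangeHom (M' * p) K₀ x₀ : FW p M') = baseChangeHom (M' * p) K₀ x₀ := by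
  intro τ hτ
  apply Subtype.ext
  rw [coe_arithmeticGalois_smul, coe_baseChangeHom, coeffMap_coeffMap]
  apply coeffMap_congr
  ext c
  exact hfix τ hτ _ c.2

/-- **(L-FIX)**: the fields `fix`, `g1w`, `g2` of `IsNodeCoordW` for `x := bc x₀`. -/
theorem nodeCoordFix (hp2 : p ≠ 2) (hpM : ¬ p ∣ M') (h4 : 4 ∣ M') (hA : A.LiesOverPrime p)
    (hfix : ∀ τ ∈ A.inertiaSubgroupIn ℚ, ∀ x ∈ K₀, τ x = x)
    (hπ₀ : IsUnif (AK A K₀) (p : ↥(AK A K₀))) (hE₀ : FK (M' * p) K₀ ≤ fracField (AK A K₀))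
    (x₀ : FK (M' * p) K₀)
    (ha : x₀ ∈ Fermat.Agent.ES.N34.ModelDefs9.O1 M' p hπ₀ hE₀)
    (hb : ¬ ∃ o ∈ Fermat.Agent.ES.N34.ModelDefs9.O1 M' p hπ₀ hE₀,
      x₀ = algebraMap ↥(AK A K₀) ↥(FK (M' * p) K₀) (p : ↥(AK A K₀)) * o)
    (hc : ∃ o ∈ Fermat.Agent.ES.N34.ModelDefs9.O2 M' p hπ₀ hE₀,
      x₀ = algebraMap ↥(AK A K₀) ↥(FK (M' * p) K₀) (p : ↥(AK A K₀)) * o)
    (hd : ¬ ∃ o ∈ Fermat.Agent.ES.N34.ModelDefs9.O2 M' p hπ₀ hE₀,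
      x₀ = algebraMap ↥(AK A K₀) ↥(FK (M' * p) K₀) (p : ↥(AK A K₀)) *
        (algebraMap ↥(AK A K₀) ↥(FK (M' * p) K₀) (p : ↥(AK A K₀)) * o)) :
    (∀ τ ∈ A.inertiaSubgroupIn ℚ,
      aG p M' τ • (baseChangeHom (M' * p) K₀ x₀ : FW p M') = baseChangeHom (M' * p) K₀ x₀) ∧
    (∃ h : (baseChangeHom (M' * p) K₀ x₀ : FW p M') ∈ O1 M' p A,
      rho1 M' p A ⟨baseChangeHom (M' * p) K₀ x₀, h⟩ ≠ 0) ∧
    (∃ h : (algebraMap Qbar (FW p M') (p : Qbar))⁻¹ *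
        (baseChangeHom (M' * p) K₀ x₀ : FW p M') ∈ O2 M' p A,
      rho2 M' p A ⟨_, h⟩ ≠ 0) :=
  ⟨fix_of_level M' p A hfix x₀, g1w_of_level M' p A hp2 hpM h4 hA hπ₀ hE₀ x₀ ha hb,
    g2_of_level M' p A hp2 hpM h4 hA hπ₀ hE₀ x₀ hc hd⟩

/-- **(L-FIX), packaged**: with the clause `val` supplied, `bc x₀` is a weak coordinate of the
node `z`. -/
theorem isNodeCoordW_of_level (hp2 : p ≠ 2) (hpM : ¬ p ∣ M') (h4 : 4 ∣ M')
    (hA : A.LiesOverPrime p)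
    (hfix : ∀ τ ∈ A.inertiaSubgroupIn ℚ, ∀ x ∈ K₀, τ x = x)
    (hπ₀ : IsUnif (AK A K₀) (p : ↥(AK A K₀))) (hE₀ : FK (M' * p) K₀ ≤ fracField (AK A K₀))
    (x₀ : FK (M' * p) K₀)
    (ha : x₀ ∈ Fermat.Agent.ES.N34.ModelDefs9.O1 M' p hπ₀ hE₀)
    (hb : ¬ ∃ o ∈ Fermat.Agent.ES.N34.ModelDefs9.O1 M' p hπ₀ hE₀,
      x₀ = algebraMap ↥(AK A K₀) ↥(FK (M' * p) K₀) (p : ↥(AK A K₀)) * o)
    (hc : ∃ o ∈ Fermat.Agent.ES.N34.ModelDefs9.O2 M' p hπ₀ hE₀,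
      x₀ = algebraMap ↥(AK A K₀) ↥(FK (M' * p) K₀) (p : ↥(AK A K₀)) * o)
    (hd : ¬ ∃ o ∈ Fermat.Agent.ES.N34.ModelDefs9.O2 M' p hπ₀ hE₀,
      x₀ = algebraMap ↥(AK A K₀) ↥(FK (M' * p) K₀) (p : ↥(AK A K₀)) *
        (algebraMap ↥(AK A K₀) ↥(FK (M' * p) K₀) (p : ↥(AK A K₀)) * o))
    (I : NodalInst p M' A) (z : Fin I.s)
    (hval : ∀ P : Place Qbar (FW p M'), I.r P = Sum.inr z →
      ∃ a : Qbar, a ≠ 0 ∧ a ∈ A.nonunits ∧ (p : Qbar) / a ∈ A.nonunits ∧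
        P.ord ((baseChangeHom (M' * p) K₀ x₀ : FW p M') - algebraMap Qbar (FW p M') a) = 1 ∧
        ∀ P' : Place Qbar (FW p M'), I.r P' = Sum.inr z → P' ≠ P →
          P'.ord ((baseChangeHom (M' * p) K₀ x₀ : FW p M') - algebraMap Qbar (FW p M') a) = 0) :
    Fermat.Agent.ES.X44.NodeCoordWLit17.IsNodeCoordW I z
      (baseChangeHom (M' * p) K₀ x₀ : FW p M') where
  fix := fix_of_level M' p A hfix x₀
  g1w := g1w_of_level M' p A hp2 hpM h4 hA hπ₀ hE₀ x₀ ha hb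
  g2 := g2_of_level M' p A hp2 hpM h4 hA hπ₀ hE₀ x₀ hc hd
  val := hval

end Fermat.Agent.ES.X44.NodeCoordFix16
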