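/-
Programme X (S44), chapter (LL′), leaf (NC) (helper17), brick 4: **what (NC) uses of Programme P's
thickness-one nodes** (`P36/NodeRegAt10.NodeRegAt`), in elementary chart form (no localisation type).

At a two-branch closed point `𝔪 ∋ π` of a chart `B` with `NodeRegAt π B O1 O2` there are `x y e : B`:
`x y = π e`, `x, y ∈ 𝔪`, `e ∉ 𝔪`, `𝔪 = (x, y)` up to denominators outside `𝔪`, `x ∈ π O2`,
`x ∉ π O1`, `x ∉ π² O2`.
-/
import Mathlib
import Fermat.Agent.ES.P36.NodeRegAt10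

set_option autoImplicit false
set_option linter.unusedSectionVars false
set_option linter.style.haveILetI false

namespace Fermat.Agent.ES.X44.NodeRegUse17

open IsLocalRing Fermat.Agent.ES.N34.NodalCore13 Fermat.Agent.ES.N34.NodalSmooth13
  Fermat.Agent.ES.P36.NodeRegAt10

variable {R F : Type*} [CommRing R] [Field F] [Algebra R F]

/-- **the node coordinates of Programme P, elementary form.** -/
theorem node_facts (π : R) (B : Subalgebra R F) (O1 O2 : ValuationSubring F)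
    (leO2 : ∀ x ∈ B, x ∈ O2) (pi_ne : algebraMap R F π ≠ 0) (h : NodeRegAt π B O1 O2)
    (𝔪 : Ideal B) (h𝔪 : 𝔪.IsMaximal) (hπ𝔪 : algebraMap R B π ∈ 𝔪)
    (h1 : ¬ OffBranch π B O1 𝔪) (h2 : ¬ OffBranch π B O2 𝔪) :
    ∃ x y e : B, x * y = algebraMap R B π * e ∧ x ∈ 𝔪 ∧ y ∈ 𝔪 ∧ e ∉ 𝔪 ∧
      (∀ β ∈ 𝔪, ∃ d : B, d ∉ 𝔪 ∧ d * β ∈ Ideal.span {x, y}) ∧
      (∃ o ∈ O2, (x : F) = algebraMap R F π * o) ∧
      (¬ ∃ o ∈ O1, (x : F) = algebraMap R F π * o) ∧
      (¬ ∃ o ∈ O2, (x : F) = algebraMap R F π * (algebraMap R F π * o)) := by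
  haveI := h𝔪.isPrime
  obtain ⟨x, y, e, hxy, -, -, hmax, -, -, -, hnyx, hx2, hy1, he⟩ := h 𝔪 h𝔪 hπ𝔪 h1 h2
  set x' : ↥(locSub B 𝔪) := algebraMap ↥B ↥(locSub B 𝔪) x with hx'
  set y' : ↥(locSub B 𝔪) := algebraMap ↥B ↥(locSub B 𝔪) y with hy'
  have hmem : ∀ b : B, b ∈ 𝔪 ↔ algebraMap ↥B ↥(locSub B 𝔪) b ∈ maximalIdeal ↥(locSub B 𝔪) :=
    fun b => (IsLocalization.AtPrime.to_map_mem_maximal_iff ↥(locSub B 𝔪) 𝔪 b).symm
  have hxm : x ∈ 𝔪 := by
    rw [hmem, hmax]; exact Ideal.subset_span (Set.mem_insert _ _)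
  have hym : y ∈ 𝔪 := by
    rw [hmem, hmax]; exact Ideal.subset_span (Set.mem_insert_of_mem _ (Set.mem_singleton _))
  refine ⟨x, y, e, hxy, hxm, hym, he, ?_, ?_, ?_, ?_⟩
  · intro β hβ
    have h3 : algebraMap ↥B ↥(locSub B 𝔪) β ∈ Ideal.span {x', y'} := by
      rw [← hmax, ← hmem]; exact hβ
    obtain ⟨u, v, huv⟩ := Ideal.mem_span_pair.mp h3
    obtain ⟨a₁, d₁, hd₁, hu⟩ := u.2
    obtain ⟨a₂, d₂, hd₂, hv⟩ := v.2
    refine ⟨d₁ * d₂, fun hh => (h𝔪.isPrime.mem_or_mem hh).elim hd₁ hd₂, ?_⟩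
    have hF : ((u : F)) * (x : F) + (v : F) * (y : F) = (β : F) :=
      congrArg (fun z : ↥(locSub B 𝔪) => (z : F)) huv
    have heq : d₁ * d₂ * β = (a₁ * d₂) * x + (a₂ * d₁) * y := by
      apply Subtype.ext
      push_cast
      rw [← hF, ← hu, ← hv]
      ring
    rw [heq]
    exact Ideal.add_mem _ (Ideal.mul_mem_left _ _ (Ideal.subset_span (Set.mem_insert _ _)))
      (Ideal.mul_mem_left _ _ (Ideal.subset_span (Set.mem_insert_of_mem _ (Set.mem_singleton _))))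
  · exact (hx2 x').mpr (dvd_refl _)
  · intro hcon
    exact hnyx ((hy1 x').mp hcon)
  · rintro ⟨o, ho, hxo⟩
    apply h2
    refine ⟨e, he, o * (y : F), O2.mul_mem _ _ ho (leO2 _ y.2), ?_⟩
    have h4 : (x : F) * (y : F) = algebraMap R F π * (e : F) := by
      have := congrArg (fun z : B => (z : F)) hxy
      simpa using this
    rw [hxo] at h4
    have h5 : algebraMap R F π * (algebraMap R F π * (o * (y : F))) = algebraMap R F π * (e : F) := by
      rw [← h4]; ring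
    exact (mul_left_cancel₀ pi_ne h5).symm

end Fermat.Agent.ES.X44.NodeRegUse17
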