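/-
Programme X (S44, spine `X44_SPINE14.md`), chapter (LL′), leaf (NC), brick (L-PASS) (helper6):
**THE PASSAGE `K → ℚ̄` AT ONE NODE** — from the level-`K` literal `LevelXiLit17.LevelXi` to the clause `val`
of `NodeCoordWLit17.IsNodeCoordW`, for the coordinate `x₀` of Programme P's thickness-one node at an
(inertial) number field `K₀`.

* `tq_mem_of_le`, `bcLe_tN` : the Hauptmodul `t` at two levels `K₀ ≤ K` (`bcLe (tN p ht₀) = tN p ht`);
* `dict_bcLe` : the node dictionary `NodeDictI11.nodeDict_rN` in the coordinate `bcLe (tN p ht₀)`: above ONE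
  number field `K₁`, at every finite normal `K ⊇ K₁`, `K ⊇ K₀`, every place through the node `j` lies in the
  chart of `bcLe (tN p ht₀)` and all of them have the same centre;
* **`val_of_levelXi`** : `LevelXi (M' * p) A` ⇒ for the node `j` (through which `P₀` passes) there is
  `x₀ ∈ B0 A p ht₀` with the four Gauss clauses (a)–(d) (`x₀ ∈ O1`, `x₀ ∉ p O1`, `x₀ ∈ p O2`, `x₀ ∉ p² O2`) and,
  for EVERY place `P` through `j`, a value `a` (`a ≠ 0`, `a` and `p / a` nonunits of `A`) such that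
  `bc x₀ - a` has order `1` at `P` and order `0` at every other place through `j`.

Route: the node at level `K₀` is the centre `𝔪₀` of `P₀` on `B0 A p ht₀` (in the chart by the dictionary at a
large normal level + `CentreBcLe17.inCh_bcLe_iff`; two-branch by `NodeDictI11.inW1/inW2_of_offBranch` at `K₀`);
`NodeRegUse17.node_facts` gives `x₀ y₀ = p e₀`; for `P` through `j` take a finite normal `K` above `K₀`, `K₁`
and a level of rationality of `P` (`PlaceRestrict13.exists_level`); all places through `j` have the centre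
`𝔪₀` on `B0` (`CentreBcLe17.mem_centreAt_bcLe_iff`), `LevelXi` gives `a`, and the orders pass to `ℚ̄` by
`PlaceUniq6.ord_baseChangeHom_of_rational` / `PlaceUniq6.eq_of_above_baseChange` (as in `IcPass10.ic_of_levels`).
-/
import Mathlib
import Fermat.Agent.ES.W33.NodeDictI11
import Fermat.Agent.ES.W33.PlaceUniq6
import Fermat.Agent.ES.P36.DescInert1
import Fermat.Agent.ES.N34.NumData13
import Fermat.Agent.ES.X44.LevelXiLit17
import Fermat.Agent.ES.X44.CentreBcLe17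
import Fermat.Agent.ES.X44.NodeRegUse17

set_option autoImplicit false
set_option synthInstance.maxHeartbeats 400000
set_option linter.unusedSectionVars false

open HahnSeries ModularCurve AlgebraicCurve

noncomputable section

namespace Fermat.Agent.ES.X44.NodeCoordPass6

open Fermat.Agent.X0 Fermat.Agent.X0.FF Fermat.Agent.RED.Interface4 Fermat.Agent.RED.DESC
  Fermat.Agent.RED.DESC.PlaceExtend27
  Fermat.Agent.RED.BASE.Interface12 Fermat.Agent.RED.BASE.Hauptmodul12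
  Fermat.Agent.RED.BASE.EtaQuot12
  Fermat.Agent.RED.PUR.GaussGen8 Fermat.Agent.RED.PUR.ChartGeneric22
  Fermat.Agent.ES.RED.PlaceValue13 Fermat.Agent.ES.RED.Contract8
  Fermat.Agent.ES.N34.NodalCore13 Fermat.Agent.ES.N34.NodeAsm6 Fermat.Agent.ES.N34.ModelDefs9
  Fermat.Agent.ES.N34.GalRational1 Fermat.Agent.ES.N34.NumData13
  Fermat.Agent.ES.P36.ConstUnram1 Fermat.Agent.ES.P36.NodeRegAt10
  Fermat.Agent.ES.W33.PlaceRestrict13
  Fermat.Agent.ES.W33.NodeCentre11 Fermat.Agent.ES.W33.NodeDict11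
  Fermat.Agent.ES.W33.NodalDefs3 Fermat.Agent.ES.W33.IcDict10 Fermat.Agent.ES.W33.NodeDictI11
  Fermat.Agent.ES.X44.BcLeChart17 Fermat.Agent.ES.X44.CentreBcLe17 Fermat.Agent.ES.X44.LevelXiLit17
  Fermat.Agent.ES.X44.NodeRegUse17

attribute [local instance 5000] HahnSeries.powerSeriesAlgebra SubalgebraClass.toAlgebra

variable (M' : ℕ) [NeZero M'] (p : ℕ) [Fact p.Prime] [NeZero p] (A : ValuationSubring Qbar)

/-! ### the Hauptmodul at two levels -/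

section Levels

variable {K₀ K : IntermediateField ℚ Qbar}

/-- the Hauptmodul lies in `K·F_{M'}` as soon as it lies in `K₀·F_{M'}`. -/
theorem tq_mem_of_le (hle : K₀ ≤ K) (ht₀ : tq ↥K₀ 4 8 ∈ FK M' K₀) : tq ↥K 4 8 ∈ FK M' K := by
  have h := (bcLe M' hle ⟨tq ↥K₀ 4 8, ht₀⟩).2
  rw [coe_bcLe] at h
  have e : coeffMap (CoeffDescent1.inclRingHom hle) (tq ↥K₀ 4 8) = tq ↥K 4 8 :=
    coeffMap_tq ↥K₀ (CoeffDescent1.inclRingHom hle) 4 8
  rw [← e]
  exact h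

/-- the base change of the coordinate `t` of level `K₀` is the coordinate `t` of level `K`. -/
theorem bcLe_tN (hle : K₀ ≤ K) (ht₀ : tq ↥K₀ 4 8 ∈ FK M' K₀) (ht : tq ↥K 4 8 ∈ FK M' K) :
    bcLe (M' * p) hle (tN p ht₀) = tN p ht := by
  apply eq_tN_of_coe p ht
  rw [coe_bcLe, coe_tN]
  exact coeffMap_tq ↥K₀ (CoeffDescent1.inclRingHom hle) 4 8

end Levels

/-! ### the node dictionary in the coordinate `bcLe t₀` -/

set_option maxHeartbeats 1600000 in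
/-- the node dictionary of `NodeDictI11.nodeDict_rN`, with the coordinate of a smaller level. -/
theorem dict_bcLe (hp2 : p ≠ 2) (hpM : ¬ p ∣ M') (hb : BaseHyp 4 8) (h4 : 4 ∣ M')
    (hA : A.LiesOverPrime p) :
    ∃ K₁ : IntermediateField ℚ Qbar, FiniteDimensional ℚ K₁ ∧
      ∀ (j : Fin (sN 4 8 M' p hpM hb h4 A hA)) (K : IntermediateField ℚ Qbar),
        Normal ℚ K → FiniteDimensional ℚ K → K₁ ≤ K →
        ∀ (K₀ : IntermediateField ℚ Qbar) (hle : K₀ ≤ K) (ht₀ : tq ↥K₀ 4 8 ∈ FK M' K₀)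
          (P : Place Qbar ↥(Fbar (M' * p))), rN 4 8 M' p hpM hb h4 A hA P = Sum.inr j →
          ∃ h : InCh (M' * p) A K (bcLe (M' * p) hle (tN p ht₀)) P,
            ∀ P' : Place Qbar ↥(Fbar (M' * p)), rN 4 8 M' p hpM hb h4 A hA P' = Sum.inr j →
              ∃ h' : InCh (M' * p) A K (bcLe (M' * p) hle (tN p ht₀)) P',
                centreAt h' = centreAt h := by
  have hp : p.Prime := Fact.out
  obtain ⟨K₁, hK₁, hdict⟩ := nodeDict_rN M' p hb h4 A hp2 hpM hA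
  refine ⟨K₁, hK₁, fun j K hn hfd hK₁K K₀ hle ht₀ P hP => ?_⟩
  have ht : tq ↥K 4 8 ∈ FK M' K := tq_mem_of_le M' hle ht₀
  have hE : FK (M' * p) K ≤ fracField (AK A K) :=
    Fermat.Agent.RED.PUR.GaussBridge10.FK_le_fracField A K (M' * p)
  have hdvr : IsDiscreteValuationRing ↥(AK A K) :=
    NumberFieldDVR27.isDiscreteValuationRing_AK A K hp.ne_zero hA
  obtain ⟨π, hirr⟩ := IsDiscreteValuationRing.exists_irreducible ↥(AK A K)
  have hπ : IsUnif (AK A K) π := isUnif_of_irreducible (AK A K) hirr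
  rw [bcLe_tN M' p hle ht₀ ht]
  have hd : NodeDictHyp p M' A (fun P => rN 4 8 M' p hpM hb h4 A hA P = Sum.inr j) K₁ := hdict j
  unfold NodeDictHyp at hd
  obtain ⟨h, -, -, hsame⟩ := @hd K hn hfd hK₁K ht hE π hπ P hP
  exact ⟨h, hsame⟩

/-! ### the passage -/


set_option maxHeartbeats 3200000 in
theorem val_of_levelXi (hL : LevelXi (M' * p) A) (hp2 : p ≠ 2) (hpM : ¬ p ∣ M') (hb : BaseHyp 4 8)
    (h4 : 4 ∣ M') (hA : A.LiesOverPrime p) (j : Fin (sN 4 8 M' p hpM hb h4 A hA))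
    (K₀ : IntermediateField ℚ Qbar) [FiniteDimensional ℚ K₀]
    (ht₀ : tq ↥K₀ 4 8 ∈ FK M' K₀) (hE₀ : FK (M' * p) K₀ ≤ fracField (AK A K₀))
    (hπ₀ : IsUnif (AK A K₀) (p : ↥(AK A K₀)))
    (D₀ : NodalNumData ↥(AK A K₀) ↥K₀ ↥(FK (M' * p) K₀) (p : ↥(AK A K₀)) (tN p ht₀) (B0 A p ht₀)
      (B1 A p ht₀) (O1 M' p hπ₀ hE₀) (O2 M' p hπ₀ hE₀))
    (hreg : NodeRegAt (p : ↥(AK A K₀)) (B0 A p ht₀) (O1 M' p hπ₀ hE₀) (O2 M' p hπ₀ hE₀))
    (P₀ : Place Qbar ↥(Fbar (M' * p))) (hP₀ : rN 4 8 M' p hpM hb h4 A hA P₀ = Sum.inr j) :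
    ∃ x₀ : ↥(B0 A p ht₀),
      ((x₀ : ↥(FK (M' * p) K₀)) ∈ O1 M' p hπ₀ hE₀) ∧
      (¬ ∃ o ∈ O1 M' p hπ₀ hE₀, (x₀ : ↥(FK (M' * p) K₀)) =
        algebraMap ↥(AK A K₀) ↥(FK (M' * p) K₀) (p : ↥(AK A K₀)) * o) ∧
      (∃ o ∈ O2 M' p hπ₀ hE₀, (x₀ : ↥(FK (M' * p) K₀)) =
        algebraMap ↥(AK A K₀) ↥(FK (M' * p) K₀) (p : ↥(AK A K₀)) * o) ∧
      (¬ ∃ o ∈ O2 M' p hπ₀ hE₀, (x₀ : ↥(FK (M' * p) K₀)) =
        algebraMap ↥(AK A K₀) ↥(FK (M' * p) K₀) (p : ↥(AK A K₀)) *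
          (algebraMap ↥(AK A K₀) ↥(FK (M' * p) K₀) (p : ↥(AK A K₀)) * o)) ∧
      ∀ P : Place Qbar ↥(Fbar (M' * p)), rN 4 8 M' p hpM hb h4 A hA P = Sum.inr j →
        ∃ a : Qbar, a ≠ 0 ∧ a ∈ A.nonunits ∧ (p : Qbar) / a ∈ A.nonunits ∧
          P.ord (baseChangeHom (M' * p) K₀ (x₀ : ↥(FK (M' * p) K₀)) -
            algebraMap Qbar ↥(Fbar (M' * p)) a) = 1 ∧
          ∀ P' : Place Qbar ↥(Fbar (M' * p)), rN 4 8 M' p hpM hb h4 A hA P' = Sum.inr j →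
            P' ≠ P →
            P'.ord (baseChangeHom (M' * p) K₀ (x₀ : ↥(FK (M' * p) K₀)) -
              algebraMap Qbar ↥(Fbar (M' * p)) a) = 0 := by
  classical
  have hp : p.Prime := Fact.out
  obtain ⟨K₁, hK₁fd, hdict⟩ := dict_bcLe M' p A hp2 hpM hb h4 hA
  have := hK₁fd
  -- the node at level `K₀`
  obtain ⟨Kb, hleb, hfdb, hnb, -⟩ := Fermat.Agent.ES.P36.DescInert1.exists_normal_descent (M' * p)
    (K₀ ⊔ K₁) (∅ : Finset (LaurentSeries Qbar)) (fun x hx => absurd hx (Finset.notMem_empty x))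
  have hle₀b : K₀ ≤ Kb := le_sup_left.trans hleb
  obtain ⟨hKP₀, -⟩ := hdict j Kb hnb hfdb (le_sup_right.trans hleb) K₀ hle₀b ht₀ P₀ hP₀
  have h₀ : InCh (M' * p) A K₀ (tN p ht₀) P₀ := (inCh_bcLe_iff hle₀b).1 hKP₀
  obtain ⟨-, -, hW1, hW2⟩ := Fermat.Agent.ES.W33.RNUnfold20.rN_eq_inr 4 8 M' p hpM hb h4 A hA hP₀
  have hno1 : ¬ OffBranch (p : ↥(AK A K₀)) (B0 A p ht₀) (O1 M' p hπ₀ hE₀) (centreAt h₀) :=
    fun hoff => hW2 (inW2_of_offBranch M' p hb h4 A hp2 hpM hA hπ₀ hE₀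
      (isChartCoord_tN M' p hb h4 ht₀) h₀ hoff)
  have hno2 : ¬ OffBranch (p : ↥(AK A K₀)) (B0 A p ht₀) (O2 M' p hπ₀ hE₀) (centreAt h₀) :=
    fun hoff => hW1 (inW1_of_offBranch M' p hb h4 A hp2 hpM hA hπ₀ hE₀
      (isChartCoord_tN M' p hb h4 ht₀) h₀ hoff)
  obtain ⟨x₀, y₀, e₀, hxy, hx𝔪, hy𝔪, he𝔪, hspan, hc, hb', hd⟩ :=
    node_facts (p : ↥(AK A K₀)) (B0 A p ht₀) (O1 M' p hπ₀ hE₀) (O2 M' p hπ₀ hE₀)
      D₀.model.le_O2_0 D₀.model.pi_ne hreg (centreAt h₀) (centreAt_isMaximal hp hA h₀)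
      (pi_mem_centreAt h₀ hπ₀) hno1 hno2
  refine ⟨x₀, D₀.model.le_O1_0 _ x₀.2, hb', hc, hd, fun P hP => ?_⟩
  -- a large normal level for `P`
  obtain ⟨K₂, hK₂fd, hK₂le, hlev⟩ := exists_level (M' * p) (K₀ ⊔ K₁)
    ({P} : Finset (Place Qbar ↥(Fbar (M' * p))))
  have := hK₂fd
  obtain ⟨K, hK₂K, hfd, hnor, -⟩ := Fermat.Agent.ES.P36.DescInert1.exists_normal_descent (M' * p)
    K₂ (∅ : Finset (LaurentSeries Qbar)) (fun x hx => absurd hx (Finset.notMem_empty x))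
  have hle : K₀ ≤ K := (le_sup_left.trans hK₂le).trans hK₂K
  have hK₁K : K₁ ≤ K := (le_sup_right.trans hK₂le).trans hK₂K
  have hrat : IsRational (restrictK (M' * p) K P) :=
    (hlev K hK₂K P (Finset.mem_singleton_self P)).1
  obtain ⟨hKP, hsame⟩ := hdict j K hnor hfd hK₁K K₀ hle ht₀ P hP
  obtain ⟨hKP₀', hcen₀⟩ := hsame P₀ hP₀
  have h₀P : InCh (M' * p) A K₀ (tN p ht₀) P := (inCh_bcLe_iff hle).1 hKP
  have hcen : centreAt h₀P = centreAt h₀ := by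
    ext β
    rw [← mem_centreAt_bcLe_iff hle h₀P hKP, ← hcen₀, mem_centreAt_bcLe_iff hle h₀ hKP₀']
  have hx𝔪' : x₀ ∈ centreAt h₀P := by rw [hcen]; exact hx𝔪
  have hy𝔪' : y₀ ∈ centreAt h₀P := by rw [hcen]; exact hy𝔪
  have he𝔪' : e₀ ∉ centreAt h₀P := by rw [hcen]; exact he𝔪
  have hspan' : ∀ β ∈ centreAt h₀P, ∃ d, d ∉ centreAt h₀P ∧ d * β ∈ Ideal.span {x₀, y₀} := by
    rw [hcen]; exact hspan
  obtain ⟨a, ha0, ham, ⟨c, hcm, ε, hac⟩, hord1, hord0⟩ :=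
    hL K₀ K inferInstance hfd hle (tN p ht₀) D₀.model.fin0 D₀.frac0 (p : ↥(AK A K₀)) hπ₀.ne_zero
      x₀ y₀ e₀ hxy P h₀P hKP hx𝔪' hy𝔪' he𝔪' hspan' hrat
  have hST := Fermat.Agent.RED.NumInst4.isScalarTower_OE (AK A K) (FK (M' * p) K)
  have hbc : baseChangeHom (M' * p) K (bcLe (M' * p) hle ((x₀ : ↥(B0 A p ht₀)) : ↥(FK (M' * p) K₀)) -
      algebraMap ↥(AK A K) ↥(FK (M' * p) K) a) =
      baseChangeHom (M' * p) K₀ (x₀ : ↥(FK (M' * p) K₀)) -
        algebraMap Qbar ↥(Fbar (M' * p)) (((a : ↥(AK A K)) : ↥K) : Qbar) := by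
    rw [map_sub, baseChangeHom_bcLe]
    congr 1
    exact baseChangeHom_algebraMap (M' * p) K ((a : ↥(AK A K)) : ↥K)
  have ha0Q : (((a : ↥(AK A K)) : ↥K) : Qbar) ≠ 0 := by
    intro h0
    apply ha0
    apply Subtype.ext
    apply Subtype.ext
    exact h0
  have hnu : ∀ b : ↥(AK A K), b ∈ IsLocalRing.maximalIdeal ↥(AK A K) →
      (((b : ↥(AK A K)) : ↥K) : Qbar) ∈ A.nonunits := by
    intro b hb
    have h1 := (NumberFieldDVR27.mem_maximalIdeal_iff A K b).mp hb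
    rw [A.mem_nonunits_iff_exists_mem_maximalIdeal]
    exact ⟨(NumberFieldDVR27.incl A K b).2, h1⟩
  refine ⟨(((a : ↥(AK A K)) : ↥K) : Qbar), ha0Q, hnu a ham, ?_, ?_, ?_⟩
  · -- `p / a = c ε⁻¹`
    have hmul : c * ((ε⁻¹ : (↥(AK A K))ˣ) : ↥(AK A K)) ∈ IsLocalRing.maximalIdeal ↥(AK A K) :=
      Ideal.mul_mem_right _ _ hcm
    have hval := hnu _ hmul
    have hQ : (((a : ↥(AK A K)) : ↥K) : Qbar) * (((c : ↥(AK A K)) : ↥K) : Qbar) =
        (p : Qbar) * ((((ε : (↥(AK A K))ˣ) : ↥(AK A K)) : ↥K) : Qbar) := by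
      have h1 : (((a : ↥(AK A K)) : ↥K) : Qbar) * (((c : ↥(AK A K)) : ↥K) : Qbar) =
          (((inclAK A hle (p : ↥(AK A K₀)) : ↥(AK A K)) : ↥K) : Qbar) *
            ((((ε : (↥(AK A K))ˣ) : ↥(AK A K)) : ↥K) : Qbar) :=
        congrArg (fun z : ↥(AK A K) => ((z : ↥K) : Qbar)) hac
      have h2 : (((inclAK A hle (p : ↥(AK A K₀)) : ↥(AK A K)) : ↥K) : Qbar) = (p : Qbar) := by
        have h3 : inclAK A hle (p : ↥(AK A K₀)) = (p : ↥(AK A K)) := map_natCast _ p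
        rw [h3]
        rfl
      rw [← h2]
      exact h1
    have hε : ((((ε : (↥(AK A K))ˣ) : ↥(AK A K)) : ↥K) : Qbar) *
        (((((ε⁻¹ : (↥(AK A K))ˣ) : ↥(AK A K))) : ↥K) : Qbar) = 1 := by
      have h1 := congrArg (fun z : ↥(AK A K) => ((z : ↥K) : Qbar)) (Units.mul_inv ε)
      exact h1
    have hfin : (p : Qbar) / (((a : ↥(AK A K)) : ↥K) : Qbar) =
        (((c * ((ε⁻¹ : (↥(AK A K))ˣ) : ↥(AK A K)) : ↥(AK A K)) : ↥K) : Qbar) := by
      rw [div_eq_iff ha0Q]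
      have : (((c * ((ε⁻¹ : (↥(AK A K))ˣ) : ↥(AK A K)) : ↥(AK A K)) : ↥K) : Qbar) =
          (((c : ↥(AK A K)) : ↥K) : Qbar) *
            (((((ε⁻¹ : (↥(AK A K))ˣ) : ↥(AK A K))) : ↥K) : Qbar) := rfl
      rw [this]
      calc (p : Qbar) = (p : Qbar) * (((((ε : (↥(AK A K))ˣ) : ↥(AK A K)) : ↥K) : Qbar) *
            (((((ε⁻¹ : (↥(AK A K))ˣ) : ↥(AK A K))) : ↥K) : Qbar)) := by rw [hε, mul_one]
        _ = (((c : ↥(AK A K)) : ↥K) : Qbar) *
            (((((ε⁻¹ : (↥(AK A K))ˣ) : ↥(AK A K))) : ↥K) : Qbar) *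
              (((a : ↥(AK A K)) : ↥K) : Qbar) := by
          rw [← mul_assoc, ← hQ]
          ring
    rw [hfin]
    exact hval
  · rw [← hbc, Fermat.Agent.ES.W33.PlaceUniq6.ord_baseChangeHom_of_rational hrat
      (fun z => mem_restrictK_iff P z)]
    exact hord1
  · intro P' hP' hne
    obtain ⟨hKP', hcen'⟩ := hsame P' hP'
    obtain ⟨e, -, he⟩ := exists_ord_restrictK (K := K) P'
    have hw : (restrictK (M' * p) K P').ord
        (bcLe (M' * p) hle ((x₀ : ↥(B0 A p ht₀)) : ↥(FK (M' * p) K₀)) -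
          algebraMap ↥(AK A K) ↥(FK (M' * p) K) a) = 0 := by
      refine hord0 _ ?_ ?_
      · have h1 := thr_centreAt hKP'
        rw [hcen'] at h1
        exact h1
      · intro heq
        apply hne
        exact (Fermat.Agent.ES.W33.PlaceUniq6.eq_of_above_baseChange hrat
          (fun z => mem_restrictK_iff P z)
          (fun z => by rw [← heq]; exact mem_restrictK_iff P' z)).symm
    rw [← hbc, he, hw, mul_zero]

end Fermat.Agent.ES.X44.NodeCoordPass6
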