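/-
Programme X (S44), chapter (LL′), leaf (NC), brick (L-K0) (helper21): **ONE inertial number field
`K₀ ∋ ζ_{M'}` carrying the whole level-`M' p` package of Programmes N and P** (`p` odd, `4 ∣ M'`,
Hauptmodul `(4, 8)`): `K₀` is finite over `ℚ` and fixed pointwise by the inertia group of `A`, `p` is a
uniformiser of `A ∩ K₀`, and at `(ht₀, hE₀, hπ₀ : IsUnif (A ∩ K₀) p)` the nodal numerical data
(`NumData13.NodalNumData`, Programme N) and the regularity of the nodes of the chart `B0`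
(`NodeRegAt10.NodeRegAt`, Programme P) hold.

Sources (all on main): `ZetaUnr26.exists_zeta_field_unr` + `InertField27.exists_isInertial_ge`
(the field), `UnrFixed1.isUnif_natCast` (`p` a uniformiser), `ModelInert4.nodalNumData_four_inertial`,
`RegDone21.twoGenItems_four` + `RegNode21.twoGenItems10_of` + `EisFinal4.nodeRegItems_four`.
-/
import Mathlib
import Fermat.Agent.ES.P36.EisFinal4
import Fermat.Agent.ES.P36.RegNode21
import Fermat.Agent.ES.P36.RegDone21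
import Fermat.Agent.ES.P36.ZetaUnr26
import Fermat.Agent.ES.P36.InertField27
import Fermat.Agent.ES.P36.UnrFixed1

set_option autoImplicit false
set_option synthInstance.maxHeartbeats 400000
set_option maxHeartbeats 4000000
set_option linter.unusedSectionVars false
set_option linter.style.haveILetI false

noncomputable section

open HahnSeries ModularCurve

namespace Fermat.Agent.ES.X44.NodeK0Inst21

open Fermat.Agent.RED.Interface4 Fermat.Agent.RED.PUR.GaussGen8 Fermat.Agent.RED.BASE.EtaQuot12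
  Fermat.Agent.ES.N34.ModelDefs9 Fermat.Agent.ES.N34.NumData13 Fermat.Agent.ES.P36.NodeRegAt10

/-- **(L-K0)**: an inertial number field `K₀ ∋ ζ_{M'}` with `p` a uniformiser of `A ∩ K₀`, the nodal
numerical data of level `M' p` and the regularity of the nodes of the chart `B0`. -/
theorem exists_K0 (M' p : ℕ) [NeZero M'] [Fact p.Prime] [NeZero p] (A : ValuationSubring Qbar)
    (hA : A.LiesOverPrime p) (hp2 : p ≠ 2) (hpM : ¬ p ∣ M') (h4 : 4 ∣ M') :
    ∃ (K₀ : IntermediateField ℚ Qbar) (_ : FiniteDimensional ℚ K₀),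
      (∀ τ ∈ A.inertiaSubgroupIn ℚ, ∀ x ∈ K₀, τ x = x) ∧
      ∃ (ht₀ : tq ↥K₀ 4 8 ∈ FK M' K₀) (hE₀ : FK (M' * p) K₀ ≤ fracField (AK A K₀))
        (hπ₀ : IsUnif (AK A K₀) (p : ↥(AK A K₀))),
        NodalNumData ↥(AK A K₀) ↥K₀ ↥(FK (M' * p) K₀) (p : ↥(AK A K₀)) (tN p ht₀) (B0 A p ht₀)
          (B1 A p ht₀) (O1 M' p hπ₀ hE₀) (O2 M' p hπ₀ hE₀) ∧
        NodeRegAt (p : ↥(AK A K₀)) (B0 A p ht₀) (O1 M' p hπ₀ hE₀) (O2 M' p hπ₀ hE₀) := by
  have hp : p.Prime := Fact.out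
  obtain ⟨K₁, hfin₁, hζ₁, hfix₁, -⟩ :=
    Fermat.Agent.ES.P36.ZetaUnr26.exists_zeta_field_unr hp hA M' hpM
  haveI := hfin₁
  obtain ⟨K₀, hfin₀, hle, hK⟩ :=
    Fermat.Agent.ES.P36.InertField27.exists_isInertial_ge (A := A) K₁ hfix₁
  haveI := hfin₀
  have hζ : Fermat.Agent.X0.zetaK M' ∈ K₀ := hle hζ₁
  have hF := Fermat.Agent.ES.P36.ModelInert4.frobInvAt_of_isInertial hK hp hA
  have hT := Fermat.Agent.ES.P36.RegNode21.twoGenItems10_of
    (Fermat.Agent.ES.P36.RegDone21.twoGenItems_four hp hp2 hpM h4 hA hζ hF hK.1)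
  have hN := Fermat.Agent.ES.P36.EisFinal4.nodeRegItems_four hp hp2 hpM h4 hA hK hζ hT
  obtain ⟨ht₀, hE₀, hD⟩ :=
    Fermat.Agent.ES.P36.ModelInert4.nodalNumData_four_inertial hp hp2 hpM h4 hA hK hζ
  have hπ₀ : IsUnif (AK A K₀) (p : ↥(AK A K₀)) :=
    Fermat.Agent.ES.P36.UnrFixed1.isUnif_natCast A hp hA K₀ hK.1
  exact ⟨K₀, hfin₀, hK.1, ht₀, hE₀, hπ₀, hD _ hπ₀, (hN ht₀ hE₀ _ hπ₀).1⟩

end Fermat.Agent.ES.X44.NodeK0Inst21
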