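/-
Programme X (S44), chapter (LL′), leaf (NC) (helper17), brick 7: **every node of the nodal instance is
the reduction of a place** (`W33/NodalDefs3`: `nodeFin j ∈ nodePairs`, `RNUnfold20.rN_of_node`).
-/
import Mathlib
import Fermat.Agent.ES.W33.RNUnfold20

set_option autoImplicit false
set_option synthInstance.maxHeartbeats 400000
set_option linter.unusedSectionVars false

open HahnSeries ModularCurve AlgebraicCurve

noncomputable section

namespace Fermat.Agent.ES.X44.NodePlace17

open Fermat.Agent.RED.Interface4 Fermat.Agent.RED.BASE.Interface12 Fermat.Agent.RED.BASE.Hauptmodul12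
  Fermat.Agent.ES.W33.XiIfaceN29 Fermat.Agent.ES.W33.NodalDefs3 Fermat.Agent.ES.W33.RNUnfold20

attribute [local instance 5000] HahnSeries.powerSeriesAlgebra SubalgebraClass.toAlgebra

variable (n e M' : ℕ) [NeZero n] [NeZero M'] (p : ℕ) [Fact p.Prime] (hpM : ¬ p ∣ M')
  (hb : BaseHyp n e) (hnM : n ∣ M') (A : ValuationSubring Qbar) (hA : A.LiesOverPrime p)

/-- **every node is the reduction of a place.** -/
theorem exists_place_of_node (j : Fin (sN n e M' p hpM hb hnM A hA)) :
    ∃ P : Place Qbar ↥(Fbar (M' * p)), rN n e M' p hpM hb hnM A hA P = Sum.inr j := by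
  have hf : Finite ↥(nodePairs n e M' p hpM hb hnM A hA) :=
    (Nat.card_pos_iff.mp (lt_of_le_of_lt (Nat.zero_le _) j.2)).2
  obtain ⟨P, h1, h2, hP⟩ := (nodeFin n e M' p hpM hb hnM A hA j).2
  refine ⟨P, ?_⟩
  rw [rN_of_node n e M' p hpM hb hnM A hA h1 h2 hf]
  congr 1
  have hsub : (⟨(r1 n e M' p hpM hb hnM A hA P, r2 n e M' p hpM hb hnM A hA P), P, h1, h2, rfl⟩ :
      ↥(nodePairs n e M' p hpM hb hnM A hA)) = nodeFin n e M' p hpM hb hnM A hA j :=
    Subtype.ext hP.symm
  rw [hsub]
  unfold nodeFin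
  exact Equiv.apply_symm_apply _ j

end Fermat.Agent.ES.X44.NodePlace17
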