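/-
Programme X (S44), chapter (LL′), leaf (NC) (helper17): **THE EXIT OF (NC)** —
`nodeCoordsW_IX (hp2 : p ≠ 2) : NodeCoordsW (IX M' p hpM h4M A hA)`: every node of the instance `IX`
(main's `inst48`, frozen in `GeoLit12`) has a weak annulus coordinate (`NodeCoordWLit17.IsNodeCoordW`).

Assembly of the four pieces of (NC):
* (L-K0)   `NodeK0Inst21.exists_K0`     : ONE inertial number field `K₀` with `p` a uniformiser of `A ∩ K₀`,
                                           the nodal data and the regularity of the nodes of `B0`;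
* (L-K)    `LevelXi17.levelXi`          : Lemma A at the level `K` on the non-normal sub-chart;
* (L-PASS) `NodeCoordPass6.val_of_levelXi` : the passage `K → ℚ̄` at one node (`x₀ ∈ B0` at level `K₀`
                                           with (a)–(d) and the clause `val`);
* (L-FIX)  `NodeCoordFix16.isNodeCoordW_of_level` : `fix`, `g1w`, `g2` from (a)–(d);
and `NodePlace17.exists_place_of_node` (every node index is `rN` of a place).
Also `ncChapter` = the literal `NCChapter` of `OffChapter12` / `OffAsm3` / `OffAsm26`, unfolded.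
-/
import Mathlib
import Fermat.Agent.ES.X44.LevelXi17
import Fermat.Agent.ES.X44.NodePlace17
import Fermat.Agent.ES.X44.NodeCoordWLit17
import Fermat.Agent.ES.X44.GeoLit12
import Fermat.Agent.ES.X44.NodeK0Inst21
import Fermat.Agent.ES.X44.NodeCoordPass6
import Fermat.Agent.ES.X44.NodeCoordFix16

set_option autoImplicit false
set_option linter.unusedSectionVars false
set_option synthInstance.maxHeartbeats 400000

noncomputable section

namespace Fermat.Agent.ES.X44.NodeCoordAsm17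

open AlgebraicCurve ModularCurve HahnSeries IsLocalRing
open Fermat.Agent.RED.Interface4 Fermat.Agent.RED.DESC Fermat.Agent.RED.PUR.ChartGeneric22
  Fermat.Agent.RED.PUR.GaussGen8 Fermat.Agent.RED.BASE.Interface12 Fermat.Agent.RED.BASE.Hauptmodul12
  Fermat.Agent.RED.BASE.EtaQuot12
  Fermat.Agent.ES.N34.NodalCore13 Fermat.Agent.ES.N34.NumData13 Fermat.Agent.ES.N34.ModelDefs9
  Fermat.Agent.ES.P36.NodeRegAt10
  Fermat.Agent.ES.W33.NodalDefs3 Fermat.Agent.ES.W33.GeoNames23 Fermat.Agent.ES.W33.GeoJoinGa23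
  Fermat.Agent.ES.X44.LevelXiLit17 Fermat.Agent.ES.X44.NodeCoordWLit17 Fermat.Agent.ES.X44.GeoLit12

attribute [local instance 5000] HahnSeries.powerSeriesAlgebra SubalgebraClass.toAlgebra

variable (M' : ℕ) [NeZero M'] (p : ℕ) [Fact p.Prime] (hpM : ¬ p ∣ M') (h4M : 4 ∣ M')
  (A : ValuationSubring Qbar) (hA : A.LiesOverPrime p)

/-- **(NC) at the instance**: every node of `IX` has a weak annulus coordinate (`p` odd). -/
theorem nodeCoordsW_IX (hp2 : p ≠ 2) : NodeCoordsW (IX M' p hpM h4M A hA) := by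
  have : NeZero p := ⟨(Fact.out : p.Prime).ne_zero⟩
  obtain ⟨K₀, hfd₀, hfixK₀, ht₀, hE₀, hπ₀, D₀, hreg⟩ :=
    Fermat.Agent.ES.X44.NodeK0Inst21.exists_K0 M' p A hA hp2 hpM h4M
  have := hfd₀
  intro z
  obtain ⟨P₀, hP₀⟩ := Fermat.Agent.ES.X44.NodePlace17.exists_place_of_node 4 8 M' p hpM
    baseHyp_four h4M A hA z
  obtain ⟨x₀, ha, hb, hc, hd, hval⟩ :=
    Fermat.Agent.ES.X44.NodeCoordPass6.val_of_levelXi M' p A
      (Fermat.Agent.ES.X44.LevelXi17.levelXi (Fact.out : p.Prime) hA) hp2 hpM baseHyp_four h4M hA z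
      K₀ ht₀ hE₀ hπ₀ D₀ hreg P₀ hP₀
  exact ⟨PlaceExtend27.baseChangeHom (M' * p) K₀ (x₀ : FK (M' * p) K₀),
    Fermat.Agent.ES.X44.NodeCoordFix16.isNodeCoordW_of_level M' p A hp2 hpM h4M hA hfixK₀ hπ₀ hE₀
      (x₀ : FK (M' * p) K₀) ha hb hc hd (IX M' p hpM h4M A hA) z hval⟩

/-- the chapter form consumed by `OffChapter12.offChapter_of` / `OffAsm3` / `OffAsm26`. -/
theorem ncChapter : ∀ (M' : ℕ) [NeZero M'] (p : ℕ) [Fact p.Prime] (hpM : ¬ p ∣ M') (h4M : 4 ∣ M')
    (A : ValuationSubring Qbar) (hA : A.LiesOverPrime p), p ≠ 2 →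
    NodeCoordsW (IX M' p hpM h4M A hA) :=
  fun M' _ p _ hpM h4M A hA hp2 => nodeCoordsW_IX M' p hpM h4M A hA hp2

end Fermat.Agent.ES.X44.NodeCoordAsm17
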