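/-
Programme X (S44, spine `X44_SPINE14.md`), chapter (W1), leaf (N) "norm over the inertia orbit"
(helper11, for helper12's `NormIdx` step; replaces the winding-number half of the slopes congruence).

`A` a valuation subring of `ℚ̄` over `p`, `v = A.valuation`, `I_A = A.inertiaSubgroupIn ℚ`, acting on a set `J`.

* `val_pow_card_orbit` : `x : J` with FINITE `I_A`-orbit `T`, `c ≠ 0` fixed by the stabiliser of `x` in `I_A`
  ⇒ `v(c) ^ |T| = v(p) ^ n` for some `n : ℤ` (the norm `∏_{y ∈ T} τ_y c` is `I_A`-fixed: (k0) of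
  `TowerBase16`; `v(τ c) = v(c)`).
* `exists_eq_mul_zpow_mul_unit` (valuations only): `v(c)^p = v(p)^n`, `v(c')^p = v(p)^n'`,
  `v(π')^(p(p-1)) = v(p)`, `v(π') < 1`, `v(c) = v(π')^j`, `v(c') = v(π')^j'`, `p ∣ j - j'`
  ⇒ `c = c' · p^m · u`, `u ∈ Aˣ`.
* `exists_eq_mul_zpow_mul_unit_of_orbit` : the two combined, orbit of cardinality `p`.
-/
import Mathlib
import Fermat.Agent.ES.X44.TowerBase16

set_option autoImplicit false
set_option linter.unusedSectionVars false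

namespace Fermat.Agent.ES.X44.NormIdx11

open Fermat.Agent.ES.X44.TowerBase16

local notation "Qb" => AlgebraicClosure ℚ
local notation "GQ" => (AlgebraicClosure ℚ ≃ₐ[ℚ] AlgebraicClosure ℚ)

variable {p : ℕ} {A : ValuationSubring Qb}

/-- **(N)**: `v(c)^|orbit|` is a power of `v(p)`. -/
theorem val_pow_card_orbit {J : Type*} [MulAction GQ J] (hp : p.Prime) (hA : A.LiesOverPrime p)
    (x : J) (c : Qb) (hc : c ≠ 0)
    (hfix : ∀ τ ∈ A.inertiaSubgroupIn ℚ, τ • x = x → τ c = c)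
    (T : Finset J) (hT : ∀ y, y ∈ T ↔ ∃ τ ∈ A.inertiaSubgroupIn ℚ, τ • x = y) :
    ∃ n : ℤ, A.valuation c ^ T.card = A.valuation (p : Qb) ^ n := by
  classical
  -- representatives of the orbit
  have hch : ∀ y : J, ∃ τ : GQ, τ ∈ A.inertiaSubgroupIn ℚ ∧ (y ∈ T → τ • x = y) := by
    intro y
    by_cases hy : y ∈ T
    · obtain ⟨τ, hτ, h⟩ := (hT y).mp hy
      exact ⟨τ, hτ, fun _ => h⟩
    · exact ⟨1, Subgroup.one_mem _, fun h => absurd h hy⟩
  choose t ht htx using hch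
  have hmem : ∀ σ ∈ A.inertiaSubgroupIn ℚ, ∀ y ∈ T, σ • y ∈ T := by
    intro σ hσ y hy
    obtain ⟨τ, hτ, h⟩ := (hT y).mp hy
    exact (hT _).mpr ⟨σ * τ, Subgroup.mul_mem _ hσ hτ, by rw [mul_smul, h]⟩
  -- the norm
  have hN0 : (∏ y ∈ T, t y c) ≠ 0 :=
    Finset.prod_ne_zero_iff.mpr fun y _ => (map_ne_zero (t y)).mpr hc
  have hkey : ∀ σ ∈ A.inertiaSubgroupIn ℚ, ∀ y ∈ T, σ (t y c) = t (σ • y) c := by
    intro σ hσ y hy
    have hσy : σ • y ∈ T := hmem σ hσ y hy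
    have h0 : (t (σ • y))⁻¹ • (σ • y) = x := by
      rw [inv_smul_eq_iff]; exact (htx _ hσy).symm
    have h1 : ((t (σ • y))⁻¹ * (σ * t y)) • x = x := by
      rw [mul_smul, mul_smul, htx y hy, h0]
    have h2 := hfix _ (Subgroup.mul_mem _ (Subgroup.inv_mem _ (ht _))
      (Subgroup.mul_mem _ hσ (ht y))) h1
    have h3 := congrArg (t (σ • y)) h2
    rw [← AlgEquiv.mul_apply, mul_inv_cancel_left, AlgEquiv.mul_apply] at h3
    exact h3
  have hNfix : ∀ σ ∈ A.inertiaSubgroupIn ℚ, σ (∏ y ∈ T, t y c) = ∏ y ∈ T, t y c := by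
    intro σ hσ
    rw [map_prod, Finset.prod_congr rfl (hkey σ hσ)]
    refine Finset.prod_nbij' (fun y => σ • y) (fun y => σ⁻¹ • y) (fun y hy => hmem σ hσ y hy)
      (fun y hy => hmem σ⁻¹ (Subgroup.inv_mem _ hσ) y hy) (fun y _ => inv_smul_smul σ y)
      (fun y _ => smul_inv_smul σ y) (fun y _ => rfl)
  obtain ⟨k, hk⟩ := val_eq_zpow_of_fixed hp hA hN0 hNfix
  refine ⟨k, ?_⟩
  rw [← hk, map_prod, Finset.prod_congr rfl (fun y _ => val_apply (ht y) c), Finset.prod_const]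

/-- a `p`-th power equal to `1` in the value group. -/
theorem val_eq_one_of_pow_eq_one {n : ℕ} (hn : n ≠ 0) {u : Qb} (h : A.valuation u ^ n = 1) :
    A.valuation u = 1 := by
  rcases lt_trichotomy (A.valuation u) 1 with h1 | h1 | h1
  · exact absurd h (ne_of_lt (pow_lt_one₀ zero_le h1 hn))
  · exact h1
  · exact absurd h (ne_of_gt (one_lt_pow₀ h1 hn))

/-- **cancelling the exponent `p`** (valuations only). -/
theorem exists_eq_mul_zpow_mul_unit (hp : p.Prime) (hA : A.LiesOverPrime p) {c c' π' : Qb}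
    (hc : c ≠ 0) (hc' : c' ≠ 0) {n n' : ℤ}
    (hn : A.valuation c ^ p = A.valuation (p : Qb) ^ n)
    (hn' : A.valuation c' ^ p = A.valuation (p : Qb) ^ n')
    (hπ : A.valuation π' ^ (p * (p - 1)) = A.valuation (p : Qb)) (hπ1 : A.valuation π' < 1)
    {j j' : ℤ} (hj : A.valuation c = A.valuation π' ^ j) (hj' : A.valuation c' = A.valuation π' ^ j')
    (hdvd : (p : ℤ) ∣ j - j') :
    ∃ (m : ℤ) (u : Qb), u ∈ A ∧ u⁻¹ ∈ A ∧ u ≠ 0 ∧ c = c' * (p : Qb) ^ m * u := by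
  have hvp0 : A.valuation (p : Qb) ≠ 0 := val_p_ne_zero hp hA
  have hp0 : (p : Qb) ≠ 0 := Nat.cast_ne_zero.mpr hp.ne_zero
  set w := A.valuation π' with hw
  have hw0 : w ≠ 0 := by
    intro h0
    rw [h0, zero_pow (Nat.mul_ne_zero hp.ne_zero (Nat.sub_ne_zero_of_lt hp.one_lt))] at hπ
    exact hvp0 hπ.symm
  have hwpos : 0 < w := zero_lt_iff.mpr hw0
  have hinj := zpow_right_injective₀ hwpos (ne_of_lt hπ1)
  -- `j * p = p (p - 1) n`
  have e1 : ∀ {a : Qb} {i k : ℤ}, A.valuation a = w ^ i →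
      A.valuation a ^ p = A.valuation (p : Qb) ^ k → i * p = ((p * (p - 1) : ℕ) : ℤ) * k := by
    intro a i k hi hk
    apply hinj
    show w ^ (i * (p : ℤ)) = w ^ (((p * (p - 1) : ℕ) : ℤ) * k)
    rw [zpow_mul, zpow_natCast, ← hi, hk, zpow_mul, zpow_natCast, hπ]
  have h1 := e1 hj hn
  have h2 := e1 hj' hn'
  have hpz : (p : ℤ) ≠ 0 := Int.natCast_ne_zero.mpr hp.ne_zero
  have hcast : ((p * (p - 1) : ℕ) : ℤ) = (p : ℤ) * ((p : ℤ) - 1) := by
    rw [Nat.cast_mul, Nat.cast_pred hp.pos]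
  rw [hcast] at h1 h2
  have h3 : j - j' = ((p : ℤ) - 1) * (n - n') := by
    apply mul_right_cancel₀ hpz
    linear_combination h1 - h2
  have hcop : IsCoprime (p : ℤ) ((p : ℤ) - 1) := ⟨1, -1, by ring⟩
  rw [h3] at hdvd
  obtain ⟨m, hm⟩ := hcop.dvd_of_dvd_mul_left hdvd
  refine ⟨m, c / (c' * (p : Qb) ^ m), ?_⟩
  have hden : c' * (p : Qb) ^ m ≠ 0 := mul_ne_zero hc' (zpow_ne_zero _ hp0)
  have hv1 : A.valuation (c / (c' * (p : Qb) ^ m)) = 1 := by
    apply val_eq_one_of_pow_eq_one hp.ne_zero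
    rw [map_div₀, map_mul, map_zpow₀, div_pow, mul_pow, hn, hn', ← zpow_natCast (_ ^ m), ← zpow_mul,
      ← zpow_add₀ hvp0, div_eq_one_iff_eq (zpow_ne_zero _ hvp0)]
    congr 1
    rw [mul_comm m, ← hm]; ring
  refine ⟨(A.valuation_le_one_iff _).mp hv1.le, ?_, div_ne_zero hc hden, ?_⟩
  · apply (A.valuation_le_one_iff _).mp
    rw [map_inv₀, hv1, inv_one]
  · field_simp

/-- **(N) + cancellation**: two constants fixed by the stabiliser of `x`, orbit of cardinality `p`. -/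
theorem exists_eq_mul_zpow_mul_unit_of_orbit {J : Type*} [MulAction GQ J] (hp : p.Prime)
    (hA : A.LiesOverPrime p) (x : J) (T : Finset J)
    (hT : ∀ y, y ∈ T ↔ ∃ τ ∈ A.inertiaSubgroupIn ℚ, τ • x = y) (hcard : T.card = p)
    {c c' π' : Qb} (hc : c ≠ 0) (hc' : c' ≠ 0)
    (hfix : ∀ τ ∈ A.inertiaSubgroupIn ℚ, τ • x = x → τ c = c)
    (hfix' : ∀ τ ∈ A.inertiaSubgroupIn ℚ, τ • x = x → τ c' = c')
    (hπ : A.valuation π' ^ (p * (p - 1)) = A.valuation (p : Qb)) (hπ1 : A.valuation π' < 1)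
    {j j' : ℤ} (hj : A.valuation c = A.valuation π' ^ j) (hj' : A.valuation c' = A.valuation π' ^ j')
    (hdvd : (p : ℤ) ∣ j - j') :
    ∃ (m : ℤ) (u : Qb), u ∈ A ∧ u⁻¹ ∈ A ∧ u ≠ 0 ∧ c = c' * (p : Qb) ^ m * u := by
  obtain ⟨n, hn⟩ := val_pow_card_orbit hp hA x c hc hfix T hT
  obtain ⟨n', hn'⟩ := val_pow_card_orbit hp hA x c' hc' hfix' T hT
  rw [hcard] at hn hn'
  exact exists_eq_mul_zpow_mul_unit hp hA hc hc' hn hn' hπ hπ1 hj hj' hdvd

end Fermat.Agent.ES.X44.NormIdx11
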