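/-
Programme X (S44), chapter (QH)/(X-a), leaf C4 of helper8's x4/x5 (helper15), file 1/2: **THE PLACE-LEVEL
CORE OF "`T_ℓ` PRESERVES `W₁` AND `W₂`", GENERIC FORM.**

`L` algebraically closed of characteristic `0`, `A` a valuation ring of `L`, two morphisms
`φ, ψ : F → F'` of function fields over `L`, `φ` finite.  A chart coordinate `s : F` with `ψ s`, `φ s`
integral over each other's `A`-chart (the modular equation over `A`), `e₀` integral over `A[s]`, and the
coefficients `c_i` of the characteristic polynomial `χ` of `ψ e₀` over `φ (F)` integral over `A[s]`.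

For a place `Q` of `F'` with `s (Q ∘ ψ) ∈ A` and `e₀ (Q ∘ ψ) ∈ Aˣ`:
`s (Q ∘ φ) ∈ A`, and SOME non-leading coefficient `c_i` has `c_i (Q ∘ φ) ∈ Aˣ`.

Proof: all the conjugates `(ψ e₀)(w)`, `w` over `P' := Q ∘ φ`, lie in `A` (integrality), the values
`c_i (P')` are the coefficients of `∏_w (X - (ψ e₀)(w))^{e_w}` (the value formula (H3) of main,
`ValueFormula28.charpolyAlong_coeff_value_of_isGen`), and `(ψ e₀)(Q) = e₀ (Q ∘ ψ)` is a unit root of this
monic polynomial: its lower coefficients cannot all lie in the maximal ideal of `A`.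

* `exists_unit_coeff_of_root` : the local algebra;
* `valueHom_congr_place`;
* **`off_along`** : the statement.
-/
import Mathlib
import Fermat.Agent.ES.HECKE.ValueFormula28
import Fermat.Agent.ES.RED.ChartSpecOfChart18
import Fermat.Agent.ES.W33.BranchTwoPhi15
import Fermat.Agent.ES.N34.ModelN4

set_option autoImplicit false
set_option linter.unusedSectionVars false
set_option linter.style.haveILetI false

open AlgebraicCurve Polynomial

noncomputable section

namespace Fermat.Agent.ES.X44.OffAlongGen15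

open Fermat.Agent.X0.FF Fermat.Agent.RED.PUR.ChartGeneric22 Fermat.Agent.ES.RED.PlaceValue13
  Fermat.Agent.ES.RED.ChartSpecOfChart18 Fermat.Agent.ES.W33.BranchTwoPhi15
  Fermat.Agent.ES.HECKE.ValueFormula28 Fermat.Agent.ES.N34.ModelN4

/-! ### local algebra -/

section Local

variable {L : Type*} [Field L] (A : ValuationSubring L)

/-- **a monic polynomial with coefficients in `A` and a root in `Aˣ` has a non-leading coefficient in
`Aˣ`.** -/
theorem exists_unit_coeff_of_root (f : L[X]) (hf : f.Monic) (u : L) (huA : u ∈ A) (hu' : u⁻¹ ∈ A)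
    (hu0 : u ≠ 0) (hroot : f.eval u = 0) :
    ∃ i, i < f.natDegree ∧ ((f.coeff i)⁻¹ ∈ A ∧ f.coeff i ≠ 0) := by
  by_contra hcon
  have hv0 : A.valuation u ≠ 0 := (Valuation.ne_zero_iff _).2 hu0
  have hv1 : A.valuation u = 1 := by
    have h1 : A.valuation u ≤ 1 := (A.valuation_le_one_iff u).2 huA
    have h2 : A.valuation u⁻¹ ≤ 1 := (A.valuation_le_one_iff _).2 hu'
    rw [map_inv₀] at h2
    exact le_antisymm h1 ((inv_le_one₀ (zero_lt_iff.2 hv0)).1 h2)
  have hlt : ∀ i, i < f.natDegree → A.valuation (f.coeff i) < 1 := by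
    intro i hi
    by_cases h0 : f.coeff i = 0
    · rw [h0, map_zero]
      exact zero_lt_one
    · have hninv : (f.coeff i)⁻¹ ∉ A := fun h => hcon ⟨i, hi, h, h0⟩
      have h3 : ¬ A.valuation (f.coeff i)⁻¹ ≤ 1 := fun h => hninv ((A.valuation_le_one_iff _).1 h)
      rw [map_inv₀, not_le] at h3
      exact (one_lt_inv₀ (zero_lt_iff.2 ((Valuation.ne_zero_iff _).2 h0))).1 h3
  have hsum : f.eval u =
      (∑ i ∈ Finset.range f.natDegree, f.coeff i * u ^ i) + u ^ f.natDegree := by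
    rw [Polynomial.eval_eq_sum_range, Finset.sum_range_succ, hf.coeff_natDegree, one_mul]
  rw [hsum] at hroot
  have hud : u ^ f.natDegree = - ∑ i ∈ Finset.range f.natDegree, f.coeff i * u ^ i := by
    rw [eq_neg_iff_add_eq_zero, add_comm]
    exact hroot
  have h1 : A.valuation (u ^ f.natDegree) = 1 := by rw [map_pow, hv1, one_pow]
  have h2 : A.valuation (u ^ f.natDegree) < 1 := by
    rw [hud, Valuation.map_neg]
    refine Valuation.map_sum_lt _ one_ne_zero (fun i hi => ?_)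
    rw [map_mul, map_pow, hv1, one_pow, mul_one]
    exact hlt i (Finset.mem_range.1 hi)
  rw [h1] at h2
  exact lt_irrefl _ h2

end Local

/-! ### the place-level statement -/

section Main

variable {L : Type*} [Field L] [IsAlgClosed L] [CharZero L] (A : ValuationSubring L)
variable {F F' : Type*} [Field F] [Field F'] [Algebra L F] [Algebra L F']
  [HasPrincipalDivisors L F']
variable {x : F} (hx : IsGen L x) {x' : F'} (hx' : IsGen L x')

omit [CharZero L] [HasPrincipalDivisors L F'] in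
/-- the value depends only on the place. -/
theorem valueHom_congr_place {P P' : Place L F} (h : P = P') {f : F}
    (hf : f ∈ P.toValuationSubring) (hf' : f ∈ P'.toValuationSubring) :
    valueHom hx P ⟨f, hf⟩ = valueHom hx P' ⟨f, hf'⟩ := by
  subst h
  rfl

include hx' in
/-- **THE PLACE-LEVEL CORE.** -/
theorem off_along (φ ψ : F →ₐ[L] F') (hφ : φ.toRingHom.IsIntegral)
    (hψ : ψ.toRingHom.IsIntegral) (hfin : FiniteAlong L φ) (s e₀ : F) (he₀ : e₀ ∈ chart ↥A s)
    (hint1 : ψ s ∈ chart ↥A (φ s)) (hint2 : φ s ∈ chart ↥A (ψ s))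
    (hcp : ∀ i, (charpolyAlong φ hfin (ψ e₀)).coeff i ∈ chart ↥A s)
    (Q : Place L F')
    (hs : s ∈ (Q.restrictAlong ψ hψ).toValuationSubring)
    (hsA : valueHom hx (Q.restrictAlong ψ hψ) ⟨s, hs⟩ ∈ A)
    (he : e₀ ∈ (Q.restrictAlong ψ hψ).toValuationSubring)
    (heA : valueHom hx (Q.restrictAlong ψ hψ) ⟨e₀, he⟩ ∈ A)
    (heA' : (valueHom hx (Q.restrictAlong ψ hψ) ⟨e₀, he⟩)⁻¹ ∈ A)
    (hne : valueHom hx (Q.restrictAlong ψ hψ) ⟨e₀, he⟩ ≠ 0) :
    ∃ hs' : s ∈ (Q.restrictAlong φ hφ).toValuationSubring,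
      valueHom hx (Q.restrictAlong φ hφ) ⟨s, hs'⟩ ∈ A ∧
      ∃ i, i < finrankAlong L φ ∧
        ∃ hc : (charpolyAlong φ hfin (ψ e₀)).coeff i ∈
            (Q.restrictAlong φ hφ).toValuationSubring,
          valueHom hx (Q.restrictAlong φ hφ) ⟨_, hc⟩ ∈ A ∧
          (valueHom hx (Q.restrictAlong φ hφ) ⟨_, hc⟩)⁻¹ ∈ A ∧
          valueHom hx (Q.restrictAlong φ hφ) ⟨_, hc⟩ ≠ 0 := by
  classical
  -- step 1: the coordinate
  have hψs : ψ s ∈ Q.toValuationSubring := hs
  have hψsA : valueHom hx' Q ⟨ψ s, hψs⟩ ∈ A := by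
    rw [← valueHom_restrictAlong hx hx' ψ hψ Q s hs hψs]
    exact hsA
  have hφs : φ s ∈ Q.toValuationSubring := mem_place_of_mem_chart' A (ψ s) Q hψs hint2
  have hφsA : valueHom hx' Q ⟨φ s, hφs⟩ ∈ A :=
    valueHom_mem_of_mem_chart A hx' (ψ s) Q hψs hψsA hint2 hφs
  have hs' : s ∈ (Q.restrictAlong φ hφ).toValuationSubring := hφs
  have hs'A : valueHom hx (Q.restrictAlong φ hφ) ⟨s, hs'⟩ ∈ A := by
    rw [valueHom_restrictAlong hx hx' φ hφ Q s hs' hφs]
    exact hφsA
  refine ⟨hs', hs'A, ?_⟩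
  -- step 2: the conjugates
  have hcomm : ∀ r : ↥A, (ψ : F →+* F') (algebraMap ↥A F r) = algebraMap ↥A F' r :=
    fun r => ψ.commutes (r : L)
  have hψe : ψ e₀ ∈ chart ↥A (φ s) :=
    map_mem_chart (R := ↥A) (ψ : F →+* F') hcomm (s := s) (t := φ s) hint1 he₀
  have hw : ∀ w ∈ Place.fiberAlong φ hφ (Q.restrictAlong φ hφ),
      ∃ h : ψ e₀ ∈ w.toValuationSubring, valueHom hx' w ⟨ψ e₀, h⟩ ∈ A := by
    intro w hwf
    rw [Place.mem_fiberAlong] at hwf
    have h3 : s ∈ (w.restrictAlong φ hφ).toValuationSubring := by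
      rw [hwf]
      exact hs'
    have h1 : φ s ∈ w.toValuationSubring := h3
    have h2 : valueHom hx' w ⟨φ s, h1⟩ ∈ A := by
      rw [← valueHom_restrictAlong hx hx' φ hφ w s h3 h1, valueHom_congr_place hx hwf h3 hs']
      exact hs'A
    exact ⟨mem_place_of_mem_chart' A (φ s) w h1 hψe,
      valueHom_mem_of_mem_chart A hx' (φ s) w h1 h2 hψe _⟩
  let val : Place L F' → L := fun w =>
    if h : ψ e₀ ∈ w.toValuationSubring then valueHom hx' w ⟨ψ e₀, h⟩ else 0
  have hval_eq : ∀ (w : Place L F') (h : ψ e₀ ∈ w.toValuationSubring),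
      val w = valueHom hx' w ⟨ψ e₀, h⟩ := fun w h => dif_pos h
  have hval : ∀ w ∈ Place.fiberAlong φ hφ (Q.restrictAlong φ hφ),
      ψ e₀ = algebraMap L F' (val w) ∨ 0 < w.ord (ψ e₀ - algebraMap L F' (val w)) := by
    intro w hwf
    obtain ⟨h, -⟩ := hw w hwf
    rw [hval_eq w h]
    exact (valueHom_eq_iff hx' w ⟨ψ e₀, h⟩ _).1 rfl
  -- step 3: the values of the coefficients
  have hcv := fun i => charpolyAlong_coeff_value_of_isGen φ hφ hfin hx' (Q.restrictAlong φ hφ)
    (ψ e₀) val hval i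
  have hcval : ∀ i, valueHom hx (Q.restrictAlong φ hφ) ⟨_, (hcv i).1⟩ =
      (fibrePolyAlong φ hφ (Q.restrictAlong φ hφ) val).coeff i := fun i =>
    (valueHom_eq_iff hx (Q.restrictAlong φ hφ) ⟨_, (hcv i).1⟩ _).2 (hcv i).2
  have hfm : (fibrePolyAlong φ hφ (Q.restrictAlong φ hφ) val).Monic :=
    monic_prod_of_monic _ _ (fun w _ => (monic_X_sub_C _).pow _)
  have hdeg : (fibrePolyAlong φ hφ (Q.restrictAlong φ hφ) val).natDegree ≤ finrankAlong L φ := by
    rw [natDegree_le_iff_coeff_eq_zero]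
    intro i hi
    rw [← hcval i]
    have h0 : (charpolyAlong φ hfin (ψ e₀)).coeff i = 0 := by
      apply coeff_eq_zero_of_natDegree_lt
      rw [charpolyAlong_natDegree]
      exact hi
    rw [valueHom_congr_elt hx (Q.restrictAlong φ hφ) h0 (hcv i).1 (zero_mem _)]
    exact map_zero (valueHom hx (Q.restrictAlong φ hφ))
  -- step 4: the unit root
  have hQf : Q ∈ Place.fiberAlong φ hφ (Q.restrictAlong φ hφ) := Place.mem_fiberAlong.2 rfl
  have heQ : ψ e₀ ∈ Q.toValuationSubring := he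
  have hu : val Q = valueHom hx (Q.restrictAlong ψ hψ) ⟨e₀, he⟩ := by
    rw [hval_eq Q heQ, valueHom_restrictAlong hx hx' ψ hψ Q e₀ he heQ]
  have hepos : 0 < Q.ramificationIndexAlong φ := by
    letI := algebraAlong φ
    haveI := isScalarTower_along φ
    haveI := isIntegral_along φ hφ
    exact Q.ramificationIndex_pos (F := F)
  have hroot : (fibrePolyAlong φ hφ (Q.restrictAlong φ hφ) val).eval (val Q) = 0 := by
    unfold fibrePolyAlong
    rw [eval_prod]
    refine Finset.prod_eq_zero hQf ?_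
    rw [eval_pow, eval_sub, eval_X, eval_C, sub_self]
    exact zero_pow hepos.ne'
  obtain ⟨i, hi, hinv, hne0⟩ := exists_unit_coeff_of_root A _ hfm (val Q) (by rw [hu]; exact heA)
    (by rw [hu]; exact heA') (by rw [hu]; exact hne) hroot
  refine ⟨i, lt_of_lt_of_le hi hdeg, (hcv i).1, ?_, ?_, ?_⟩
  · exact valueHom_mem_of_mem_chart A hx s (Q.restrictAlong φ hφ) hs' hs'A (hcp i) _
  · rw [hcval i]
    exact hinv
  · rw [hcval i]
    exact hne0

end Main

end Fermat.Agent.ES.X44.OffAlongGen15
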