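/-
Programme X (S44, spine `X44_SPINE14.md`), chapter (W1), leaf "the node products" (helper11, for helper12's
assembly): algebra of `SlopesLit12.qNode` / `SlopesLit12.SlopesAt`.

`I : NodalInst p M' A`, `X z` a function fixed by `τ ∈ I_A` (a node coordinate), `D` a divisor with
`aG p M' τ • D = D`, `ξ` a value function on the points of `D` through the node `z`
(`0 < ord_P (X z - ξ P)`).

* `val_unique`            : two constants `a, b` with `0 < ord_P (x - a)`, `0 < ord_P (x - b)` coincide;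
* `ord_smul_sub_const`    : `ord_{τP} (x - τ a) = ord_P (x - a)` for a `τ`-fixed `x`;
* **`qNode_fixed`**       : `τ (qNode I D ξ z) = qNode I D ξ z` (= the hypothesis `hfix` of
                            `NormIdx11.val_pow_card_orbit` for the node products);
* `qNode_eq_prod`         : `qNode` as a product over any finset between `supp D ∩ {through z}` and
                            `{through z}`;
* `qNode_add`             : `qNode (D₁ + D₂) = qNode D₁ * qNode D₂` (common nonvanishing `ξ`);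
* `qNode_congr`           : `qNode` only depends on `ξ` on `supp D ∩ {through z}`;
* `slopesAt_of_offNodes`  : a divisor off the nodes has `SlopesAt` (all node products are `1`);
* `SlopesAt.add'`         : `SlopesAt` is additive in `D`.
-/
import Mathlib
import Fermat.Agent.X0.FFDict
import Fermat.Agent.ES.X44.SlopesLit12

set_option autoImplicit false
set_option linter.unusedSectionVars false
set_option synthInstance.maxHeartbeats 400000

noncomputable section

open AlgebraicCurve ModularCurve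

namespace Fermat.Agent.ES.X44.QNodeFix11

open Fermat.Agent.ES.W33.XiIfaceN29 Fermat.Agent.ES.W33.GeoNames23 Fermat.Agent.ES.W33.GeoJoinGa23
  Fermat.Agent.ES.X44.SlopesLit12

attribute [local instance 5000] HahnSeries.powerSeriesAlgebra SubalgebraClass.toAlgebra

local notation "Qb" => AlgebraicClosure ℚ
local notation "GQ" => (AlgebraicClosure ℚ ≃ₐ[ℚ] AlgebraicClosure ℚ)

variable {p M' : ℕ} {A : ValuationSubring Qb}

/-! ### values -/

/-- the value of `x` at `P` is unique. -/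
theorem val_unique {x : FW p M'} {P : Place Qb (FW p M')} {a b : Qb}
    (ha : 0 < P.ord (x - algebraMap Qb (FW p M') a))
    (hb : 0 < P.ord (x - algebraMap Qb (FW p M') b)) : a = b := by
  by_contra hab
  have hne : algebraMap Qb (FW p M') (a - b) ≠ 0 := (map_ne_zero _).mpr (sub_ne_zero.mpr hab)
  have h1 : (x - algebraMap Qb (FW p M') b) - (x - algebraMap Qb (FW p M') a) =
      algebraMap Qb (FW p M') (a - b) := by rw [map_sub]; ring
  have h2 := Fermat.Agent.X0.FF.ord_sub_ge P (f := x - algebraMap Qb (FW p M') b)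
    (g := x - algebraMap Qb (FW p M') a) (by rw [h1]; exact hne)
  rw [h1, Fermat.Agent.X0.FF.ord_algebraMap] at h2
  have h3 : 0 < min (P.ord (x - algebraMap Qb (FW p M') b))
      (P.ord (x - algebraMap Qb (FW p M') a)) := lt_min hb ha
  omega

/-- transport of the order of `x - a` by a semilinear automorphism fixing `x`. -/
theorem ord_smul_sub_const (τ : GQ) {x : FW p M'} (hx : aG p M' τ • x = x)
    (P : Place Qb (FW p M')) (a : Qb) :
    (aG p M' τ • P).ord (x - algebraMap Qb (FW p M') (τ a)) =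
      P.ord (x - algebraMap Qb (FW p M') a) := by
  have h1 : aG p M' τ • (x - algebraMap Qb (FW p M') a) = x - algebraMap Qb (FW p M') (τ a) := by
    rw [smul_sub, hx, SemilinearAut.smul_algebraMap]
    rfl
  rw [← h1]
  exact SemilinearAut.ord_smul (aG p M' τ) P _

/-! ### `qNode` as a product over a larger finset -/

theorem qNode_eq_prod (I : NodalInst p M' A) (D : Divisor Qb (FW p M'))
    (ξ : Place Qb (FW p M') → Qb) (z : Fin I.s) (T : Finset (Place Qb (FW p M')))
    (hT : ∀ P ∈ D.support, I.r P = Sum.inr z → P ∈ T) (hT' : ∀ P ∈ T, I.r P = Sum.inr z) :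
    qNode I D ξ z = ∏ P ∈ T, ξ P ^ D P := by
  classical
  show ∏ P ∈ D.support.filter (fun P => I.r P = Sum.inr z), ξ P ^ D P = _
  refine Finset.prod_subset (fun P hP => ?_) (fun P hP hPn => ?_)
  · obtain ⟨h1, h2⟩ := Finset.mem_filter.mp hP
    exact hT P h1 h2
  · have hD : D P = 0 := by
      by_contra h
      exact hPn (Finset.mem_filter.mpr ⟨Finsupp.mem_support_iff.mpr h, hT' P hP⟩)
    rw [hD, zpow_zero]

theorem qNode_congr (I : NodalInst p M' A) (D : Divisor Qb (FW p M'))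
    (ξ ξ' : Place Qb (FW p M') → Qb) (z : Fin I.s)
    (h : ∀ P ∈ D.support, I.r P = Sum.inr z → ξ P = ξ' P) : qNode I D ξ z = qNode I D ξ' z := by
  classical
  show ∏ P ∈ D.support.filter (fun P => I.r P = Sum.inr z), ξ P ^ D P =
    ∏ P ∈ D.support.filter (fun P => I.r P = Sum.inr z), ξ' P ^ D P
  refine Finset.prod_congr rfl fun P hP => ?_
  obtain ⟨h1, h2⟩ := Finset.mem_filter.mp hP
  rw [h P h1 h2]

/-- additivity of the node products. -/
theorem qNode_add (I : NodalInst p M' A) (D₁ D₂ : Divisor Qb (FW p M'))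
    (ξ : Place Qb (FW p M') → Qb) (z : Fin I.s)
    (h1 : ∀ P ∈ D₁.support, I.r P = Sum.inr z → ξ P ≠ 0)
    (h2 : ∀ P ∈ D₂.support, I.r P = Sum.inr z → ξ P ≠ 0) :
    qNode I (D₁ + D₂) ξ z = qNode I D₁ ξ z * qNode I D₂ ξ z := by
  classical
  set T : Finset (Place Qb (FW p M')) :=
    (D₁.support ∪ D₂.support).filter (fun P => I.r P = Sum.inr z) with hTdef
  have hT' : ∀ P ∈ T, I.r P = Sum.inr z := fun P hP => (Finset.mem_filter.mp hP).2
  have hT1 : ∀ P ∈ D₁.support, I.r P = Sum.inr z → P ∈ T := fun P hP hz =>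
    Finset.mem_filter.mpr ⟨Finset.mem_union_left _ hP, hz⟩
  have hT2 : ∀ P ∈ D₂.support, I.r P = Sum.inr z → P ∈ T := fun P hP hz =>
    Finset.mem_filter.mpr ⟨Finset.mem_union_right _ hP, hz⟩
  have hT12 : ∀ P ∈ (D₁ + D₂).support, I.r P = Sum.inr z → P ∈ T := fun P hP hz =>
    Finset.mem_filter.mpr ⟨Finsupp.support_add hP, hz⟩
  rw [qNode_eq_prod I (D₁ + D₂) ξ z T hT12 hT', qNode_eq_prod I D₁ ξ z T hT1 hT',
    qNode_eq_prod I D₂ ξ z T hT2 hT', ← Finset.prod_mul_distrib]
  refine Finset.prod_congr rfl fun P hP => ?_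
  obtain ⟨hPu, hPz⟩ := Finset.mem_filter.mp hP
  have hξ0 : ξ P ≠ 0 := by
    rcases Finset.mem_union.mp hPu with h | h
    · exact h1 P h hPz
    · exact h2 P h hPz
  rw [Finsupp.add_apply, zpow_add₀ hξ0]

/-! ### invariance of the node products -/

/-- **the node product of a `τ`-stable divisor is fixed by `τ ∈ I_A`.** -/
theorem qNode_fixed (I : NodalInst p M' A) (hI : NodalInstHyp I) (x : FW p M') (z : Fin I.s)
    {τ : GQ} (hτ : τ ∈ A.inertiaSubgroupIn ℚ) (hx : aG p M' τ • x = x)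
    (D : Divisor Qb (FW p M')) (hD : aG p M' τ • D = D)
    (ξ : Place Qb (FW p M') → Qb)
    (hξ : ∀ P ∈ D.support, I.r P = Sum.inr z →
      0 < P.ord (x - algebraMap Qb (FW p M') (ξ P))) :
    τ (qNode I D ξ z) = qNode I D ξ z := by
  classical
  set S : Finset (Place Qb (FW p M')) := D.support.filter (fun P => I.r P = Sum.inr z) with hS
  have hq : qNode I D ξ z = ∏ P ∈ S, ξ P ^ D P := rfl
  have hDinv : (aG p M' τ)⁻¹ • D = D := by
    rw [inv_smul_eq_iff, hD]
  -- `τ` and `τ⁻¹` preserve `S`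
  have hmem : ∀ P ∈ S, aG p M' τ • P ∈ S := by
    intro P hP
    obtain ⟨h1, h2⟩ := Finset.mem_filter.mp hP
    refine Finset.mem_filter.mpr ⟨?_, ?_⟩
    · rw [Finsupp.mem_support_iff] at h1 ⊢
      have h3 := SemilinearAut.divisor_smul_apply_smul (aG p M' τ) D P
      rw [hD] at h3
      rwa [h3]
    · rw [hI.r_smul_inertia τ hτ P, h2]
  have hmem' : ∀ P ∈ S, (aG p M' τ)⁻¹ • P ∈ S := by
    intro P hP
    obtain ⟨h1, h2⟩ := Finset.mem_filter.mp hP
    refine Finset.mem_filter.mpr ⟨?_, ?_⟩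
    · rw [Finsupp.mem_support_iff] at h1 ⊢
      have h3 := SemilinearAut.divisor_smul_apply_smul (aG p M' τ)⁻¹ D P
      rw [hDinv] at h3
      rwa [h3]
    · have h4 := hI.r_smul_inertia τ hτ ((aG p M' τ)⁻¹ • P)
      rw [smul_inv_smul] at h4
      rw [← h4, h2]
  -- equivariance of the value function and of the multiplicities
  have hval : ∀ P ∈ S, τ (ξ P) = ξ (aG p M' τ • P) := by
    intro P hP
    obtain ⟨h1, h2⟩ := Finset.mem_filter.mp hP
    obtain ⟨h1', h2'⟩ := Finset.mem_filter.mp (hmem P hP)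
    refine val_unique (x := x) (P := aG p M' τ • P) ?_ (hξ _ h1' h2')
    rw [ord_smul_sub_const τ hx P (ξ P)]
    exact hξ P h1 h2
  have hmult : ∀ P : Place Qb (FW p M'), D (aG p M' τ • P) = D P := by
    intro P
    have h3 := SemilinearAut.divisor_smul_apply_smul (aG p M' τ) D P
    rwa [hD] at h3
  rw [hq, map_prod]
  have h5 : ∀ P ∈ S, τ (ξ P ^ D P) = ξ (aG p M' τ • P) ^ D (aG p M' τ • P) := by
    intro P hP
    rw [map_zpow₀, hval P hP, hmult P]
  rw [Finset.prod_congr rfl h5]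
  exact Finset.prod_nbij' (fun P => aG p M' τ • P) (fun P => (aG p M' τ)⁻¹ • P) hmem hmem'
    (fun P _ => inv_smul_smul _ P) (fun P _ => smul_inv_smul _ P) (fun P _ => rfl)

/-! ### `SlopesAt`: the trivial case and additivity -/

variable [Fact p.Prime]

/-- a divisor off the nodes has congruent slopes (all node products are `1`). -/
theorem slopesAt_of_offNodes (I : NodalInst p M' A) (X : Fin I.s → FW p M')
    (D : Divisor Qb (FW p M')) (hD : OffNodes I.r D) : SlopesAt I X D := by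
  classical
  refine ⟨fun _ => 1, fun z P hP hz => absurd hz (hD P hP z), 1, one_ne_zero, fun z => ?_⟩
  refine ⟨0, 1, A.one_mem, by rw [inv_one]; exact A.one_mem, one_ne_zero, ?_⟩
  rw [qNode_eq_prod I D (fun _ => 1) z ∅ (fun P hP hz => absurd hz (hD P hP z))
    (fun P hP => absurd hP (Finset.notMem_empty P)), Finset.prod_empty, zpow_zero, mul_one, mul_one]

/-- **`SlopesAt` is additive.** -/
theorem slopesAt_add (I : NodalInst p M' A) (X : Fin I.s → FW p M')
    (D₁ D₂ : Divisor Qb (FW p M')) (h₁ : SlopesAt I X D₁) (h₂ : SlopesAt I X D₂) :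
    SlopesAt I X (D₁ + D₂) := by
  classical
  obtain ⟨ξ₁, hξ₁, κ₁, hκ₁, hs₁⟩ := h₁
  obtain ⟨ξ₂, hξ₂, κ₂, hκ₂, hs₂⟩ := h₂
  set ξ : Place Qb (FW p M') → Qb := fun P => if P ∈ D₁.support then ξ₁ P else ξ₂ P with hξdef
  have e1 : ∀ P ∈ D₁.support, ξ P = ξ₁ P := fun P hP => by rw [hξdef]; exact if_pos hP
  have e2 : ∀ z : Fin I.s, ∀ P ∈ D₂.support, I.r P = Sum.inr z → ξ P = ξ₂ P := by
    intro z P hP hz
    by_cases h : P ∈ D₁.support
    · rw [e1 P h]
      obtain ⟨-, -, -, ha, -⟩ := hξ₁ z P h hz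
      obtain ⟨-, -, -, hb, -⟩ := hξ₂ z P hP hz
      exact val_unique (x := X z) (P := P) (by rw [ha]; exact one_pos) (by rw [hb]; exact one_pos)
    · rw [hξdef]; exact if_neg h
  refine ⟨ξ, ?_, κ₁ * κ₂, mul_ne_zero hκ₁ hκ₂, fun z => ?_⟩
  · intro z P hP hz
    rcases Finset.mem_union.mp (Finsupp.support_add hP) with h | h
    · rw [e1 P h]; exact hξ₁ z P h hz
    · rw [e2 z P h hz]; exact hξ₂ z P h hz
  · obtain ⟨n₁, u₁, hu₁, hu₁', hu₁0, hq₁⟩ := hs₁ z
    obtain ⟨n₂, u₂, hu₂, hu₂', hu₂0, hq₂⟩ := hs₂ z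
    have hp0 : (p : Qb) ≠ 0 := Nat.cast_ne_zero.mpr (Fact.out : p.Prime).ne_zero
    refine ⟨n₁ + n₂, u₁ * u₂, A.mul_mem _ _ hu₁ hu₂, by rw [mul_inv]; exact A.mul_mem _ _ hu₁' hu₂',
      mul_ne_zero hu₁0 hu₂0, ?_⟩
    rw [qNode_add I D₁ D₂ ξ z
        (fun P hP hz => by rw [e1 P hP]; exact (hξ₁ z P hP hz).1)
        (fun P hP hz => by rw [e2 z P hP hz]; exact (hξ₂ z P hP hz).1),
      qNode_congr I D₁ ξ ξ₁ z (fun P hP _ => e1 P hP), qNode_congr I D₂ ξ ξ₂ z (e2 z), hq₁, hq₂,
      zpow_add₀ hp0]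
    ring

end Fermat.Agent.ES.X44.QNodeFix11
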