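/-
Programme X (S44, spine `X44_SPINE14.md`), chapter (W1), leaf (i) "rational structure", helper22:
**`FirstOrder22.RatHyp` AT THE NODAL INSTANCE, IN THE NUMBER-FIELD FORM.**

`R := RK K` = the functions of `F = ℚ̄·F_{M'p}` with `q`-expansion coefficients in a LARGE NUMBER FIELD
`K ⊂ ℚ̄` (image of `PlaceExtend27.baseChangeHom`), `ϖ := π` a uniformiser of the DVR `A ∩ K`.

* `exists_fraction_K` : every nonzero `f ∈ RK K` is `c·g_a/g_b` with `c ∈ K` and `g_a, g_b ∈ Gq1` integral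
  series over `A ∩ K` with nonzero reductions (the proof of `ScaleOne25.exists_scale_bad` at a FIXED `K`);
* `exists_scale_K` : … hence `c⁻¹ f` is a Gauss unit of `O1`, `c ∈ K`;
* `exists_lift_K` : a constant residue `rho1 f = ē` of `f ∈ RK K ∩ O1` lifts to `A ∩ K`;
* **`ratHyp_K`** : `RatHyp A (resA A) (GN M' p A) (redN M' p A) (RK K) π`;
* **`exists_ratHyp`** : for every `h : F` and every nonzero nonunit `π' ∈ A` there are `K`, `π`, `e ≥ 1` and a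
  unit `u` of `A` with `RatHyp … (RK K) π`, `h ∈ RK K` and `π' = u·π^e`.
-/
import Mathlib
import Fermat.Agent.ES.W33.ScaleN1
import Fermat.Agent.ES.X44.FirstOrder22

set_option autoImplicit false
set_option linter.style.haveILetI false
set_option linter.unusedSectionVars false
set_option synthInstance.maxHeartbeats 400000

noncomputable section

open HahnSeries ModularCurve IntermediateField

namespace Fermat.Agent.ES.X44.RatHypInst22

open Fermat.Agent.RED.PUR.GaussGen8 Fermat.Agent.RED.PUR.KtGauss8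
open Fermat.Agent.RED.PUR.GaussBridge10 Fermat.Agent.RED.PUR.GaussInst25
open Fermat.Agent.RED.PUR Fermat.Agent.IG.PR
open Fermat.Agent.RED.Interface4 Fermat.Agent.RED.DESC Fermat.Agent.RED.DESC.NumberFieldDVR27
open Fermat.Agent.RED.BASE.EtaQuot12 Fermat.Agent.RED.BASE.Hauptmodul12
  Fermat.Agent.RED.BASE.Interface12
open Fermat.Agent.ES.RED.GaussUnit25 Fermat.Agent.ES.RED.GaussRing15
open Fermat.Agent.ES.RED.Contract8 Fermat.Agent.ES.RED.ModelInst4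
open Fermat.Agent.ES.V19.GaussFrac15 Fermat.Agent.ES.V19.ScaleQbar8
open Fermat.Agent.ES.N34.ModelDefs9 Fermat.Agent.ES.N34.CombA26 Fermat.Agent.ES.N34.FrickeFK8
open Fermat.Agent.ES.W33.NodalDefs3 Fermat.Agent.ES.W33.ScaleOne25 Fermat.Agent.ES.W33.ScaleN1
open Fermat.Agent.ES.X44.FirstOrder22

attribute [local instance 5000] HahnSeries.powerSeriesAlgebra SubalgebraClass.toAlgebra

variable (n e M' : ℕ) [NeZero n] [NeZero M'] (p : ℕ) [Fact p.Prime] (hpM : ¬ p ∣ M')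
  (hb : BaseHyp n e) (hnM : n ∣ M') (A : ValuationSubring Qbar) (hA : A.LiesOverPrime p)
  (K : IntermediateField ℚ Qbar)

/-- the functions of the bad level with coefficients in `K`. -/
def RK : Subfield ↥(Fbar (M' * p)) := (PlaceExtend27.baseChangeHom (M' * p) K).fieldRange

theorem mem_RK_iff (f : ↥(Fbar (M' * p))) :
    f ∈ RK M' p K ↔ ∃ x : ↥(FK (M' * p) K), PlaceExtend27.baseChangeHom (M' * p) K x = f :=
  RingHom.mem_fieldRange

theorem algebraMap_mem_RK (c : ↥K) :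
    algebraMap Qbar ↥(Fbar (M' * p)) (c : Qbar) ∈ RK M' p K :=
  (mem_RK_iff M' p K _).mpr ⟨algebraMap ↥K _ c, PlaceExtend27.baseChangeHom_algebraMap _ _ c⟩

theorem fricke_mem_RK {f : ↥(Fbar (M' * p))} (hf : f ∈ RK M' p K) :
    frickeN M' p f ∈ RK M' p K := by
  obtain ⟨x, rfl⟩ := (mem_RK_iff M' p K f).mp hf
  exact (mem_RK_iff M' p K _).mpr ⟨frickeFK (M' * p) K x, baseChangeHom_frickeFK (M' * p) K x⟩

/-- `K` is large: `j ∈ K(t)` and `t ∈ K·F_{M'}`. -/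
structure LargeK : Prop where
  fin : FiniteDimensional ℚ ↥K
  hjt : jqModC ↥K ∈ (↥K)⟮tq (↥K) n e⟯
  ht : tq (↥K) n e ∈ FK M' K

include hb hnM in
/-- all large number fields are `LargeK`. -/
theorem exists_largeK :
    ∃ K₀ : IntermediateField ℚ Qbar, FiniteDimensional ℚ ↥K₀ ∧
      ∀ K : IntermediateField ℚ Qbar, FiniteDimensional ℚ ↥K → K₀ ≤ K → LargeK n e M' K := by
  obtain ⟨K₁, hK₁, hJ⟩ := Fermat.Agent.RED.ModelFinal4.jTarget (tGenBase' hb)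
  obtain ⟨K₂, hK₂, hT⟩ := Fermat.Agent.RED.ModelFinal4.tTarget M' (tMem_of_dvd hb hnM)
  haveI := hK₁
  haveI := hK₂
  exact ⟨K₁ ⊔ K₂, inferInstance, fun K hfin hle =>
    ⟨hfin, hJ K hfin (le_sup_left.trans hle), hT K hfin (le_sup_right.trans hle)⟩⟩

variable {n e M' p A K}

include hpM hA in
/-- **the integral fraction at a fixed number field**: a nonzero `f ∈ RK K` is `c·g_a/g_b`, `c ∈ K`,
`g_a, g_b` integral series over `A ∩ K` with nonzero reductions. -/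
theorem exists_fraction_K (hK : LargeK n e M' K) {π : ↥(AK A K)} (hπ : IsUnif (AK A K) π)
    (x : ↥(FK (M' * p) K)) (hx0 : x ≠ 0) :
    ∃ (c : ↥K) (a b : LaurentSeries ↥(AK A K)) (ga gb : ↥(Gq1 M' p A)), c ≠ 0 ∧
      redL (AK A K) b ≠ 0 ∧
      (((ga : ↥(Gq1 M' p A)) : ↥(Fbar (M' * p))) : LaurentSeries Qbar) =
        coeffMap A.subtype (coeffMap (incl A K) a) ∧
      (((gb : ↥(Gq1 M' p A)) : ↥(Fbar (M' * p))) : LaurentSeries Qbar) =
        coeffMap A.subtype (coeffMap (incl A K) b) ∧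
      ((redq1 M' p A ga : Ft M' A) : LaurentSeries (kA A)) =
        coeffMap (IsLocalRing.residue ↥A) (coeffMap (incl A K) a) ∧
      ((redq1 M' p A gb : Ft M' A) : LaurentSeries (kA A)) =
        coeffMap (IsLocalRing.residue ↥A) (coeffMap (incl A K) b) ∧
      redq1 M' p A ga ≠ 0 ∧ redq1 M' p A gb ≠ 0 ∧
      PlaceExtend27.baseChangeHom (M' * p) K x * ((gb : ↥(Gq1 M' p A)) : ↥(Fbar (M' * p))) =
        algebraMap Qbar ↥(Fbar (M' * p)) ((c : ↥K) : Qbar) *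
          ((ga : ↥(Gq1 M' p A)) : ↥(Fbar (M' * p))) := by
  haveI := isAlgebraic_Qbar
  haveI : NeZero p := ⟨(Fact.out : p.Prime).ne_zero⟩
  haveI := hK.fin
  have hcomb : HcombAt n e p M' A K := hcombAt_of (Fact.out : p.Prime) hpM hA K hK.hjt
  have hx'C : (x : LaurentSeries ↥K) ∈ modularFunctionFieldFullC ↥K (M' * p) := by
    rw [← DegBaseChange25.laurentBaseChange_full_eq]; exact x.2
  have hx'0 : (x : LaurentSeries ↥K) ≠ 0 := fun h0 => hx0 (Subtype.ext h0)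
  obtain ⟨c, a, b, hc0, haE, hbE, hared, hbred, hrel⟩ :=
    exists_integral_fraction hπ (M' * p) hx'C hx'0
  have haF : embK (AK A K) a ∈ FK (M' * p) K := by
    show _ ∈ laurentBaseChange ↥K (modularFunctionFieldFull (M' * p))
    rw [DegBaseChange25.laurentBaseChange_full_eq]; exact haE
  have hbF : embK (AK A K) b ∈ FK (M' * p) K := by
    show _ ∈ laurentBaseChange ↥K (modularFunctionFieldFull (M' * p))
    rw [DegBaseChange25.laurentBaseChange_full_eq]; exact hbE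
  have hya := coeffMap_subtype_mem A K (M' * p) a haE
  have hyb := coeffMap_subtype_mem A K (M' * p) b hbE
  have hyat := coeffMap_residue_mem_bad A K p hA M' hpM hcomb hK.ht a haF
  have hybt := coeffMap_residue_mem_bad A K p hA M' hpM hcomb hK.ht b hbF
  set ga : ↥(Gq1 M' p A) :=
    ⟨⟨coeffMap A.subtype (coeffMap (incl A K) a), hya⟩,
      mem_gaussRing_of_coeffMap A (resA A) _ _ _ hya hyat⟩ with hga
  set gb : ↥(Gq1 M' p A) :=
    ⟨⟨coeffMap A.subtype (coeffMap (incl A K) b), hyb⟩,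
      mem_gaussRing_of_coeffMap A (resA A) _ _ _ hyb hybt⟩ with hgb
  have hra : redq1 M' p A ga = ⟨_, hyat⟩ := by
    have h1 := gaussRed_mk A (resA A) (Fbar (M' * p)) (modularFunctionFieldFullC (kA A) M') _
      hya hyat
    rw [← hga] at h1
    exact h1
  have hrb : redq1 M' p A gb = ⟨_, hybt⟩ := by
    have h1 := gaussRed_mk A (resA A) (Fbar (M' * p)) (modularFunctionFieldFullC (kA A) M') _
      hyb hybt
    rw [← hgb] at h1
    exact h1
  have hreda : redq1 M' p A ga ≠ 0 := by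
    intro h0
    rw [hra] at h0
    exact coeffMap_residue_ne_zero A K a hared (congrArg Subtype.val h0)
  have hredb : redq1 M' p A gb ≠ 0 := by
    intro h0
    rw [hrb] at h0
    exact coeffMap_residue_ne_zero A K b hbred (congrArg Subtype.val h0)
  refine ⟨c, a, b, ga, gb, hc0, hbred, rfl, rfl, ?_, ?_, hreda, hredb, ?_⟩
  · rw [hra]
  · rw [hrb]
  · apply Subtype.ext
    show ((PlaceExtend27.baseChangeHom (M' * p) K x : ↥(Fbar (M' * p))) : LaurentSeries Qbar) *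
        coeffMap A.subtype (coeffMap (incl A K) b) =
      algebraMap Qbar (LaurentSeries Qbar) (algebraMap K Qbar c) *
        coeffMap A.subtype (coeffMap (incl A K) a)
    rw [PlaceExtend27.coe_baseChangeHom, coeffMap_subtype_incl, coeffMap_subtype_incl, ← map_mul,
      hrel, map_mul, GaussGen8.coeffMap_C, algebraMap_eq_C (K := Qbar)]

/-! ### constants -/

/-- a constant lying in `O1` lies in `A`. -/
theorem mem_A_of_mem_O1 {c : Qbar}
    (h : algebraMap Qbar ↥(Fbar (M' * p)) c ∈ O1 M' p A) : c ∈ A := by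
  rcases A.mem_or_inv_mem c with hc | hc
  · exact hc
  · by_contra hcA
    have hnu : ¬ IsUnit (⟨c⁻¹, hc⟩ : ↥A) := by
      intro hu
      obtain ⟨u, hu⟩ := hu
      apply hcA
      have h1 : (((u⁻¹ : (↥A)ˣ) : ↥A) : Qbar) * ((u : ↥A) : Qbar) = 1 := by
        rw [← MulMemClass.coe_mul, Units.inv_mul]; rfl
      rw [hu] at h1
      have h2 : (((u⁻¹ : (↥A)ˣ) : ↥A) : Qbar) = c := by
        have hc0 : c ≠ 0 := by
          rintro rfl
          exact hcA A.zero_mem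
        have : (((u⁻¹ : (↥A)ˣ) : ↥A) : Qbar) * c⁻¹ = 1 := h1
        field_simp at this
        exact this
      rw [← h2]
      exact SetLike.coe_mem _
    have h0 : rho1 M' p A ⟨_, algebraMap_mem_O1 M' p A ⟨c⁻¹, hc⟩⟩ = 0 := by
      rw [rho1_algebraMap, pi_nonunitN A _ hnu, map_zero]
    have hc0 : c ≠ 0 := by
      rintro rfl
      exact hcA A.zero_mem
    have hprod : (⟨_, h⟩ : ↥(O1 M' p A)) * ⟨_, algebraMap_mem_O1 M' p A ⟨c⁻¹, hc⟩⟩ = 1 := by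
      apply Subtype.ext
      show algebraMap Qbar ↥(Fbar (M' * p)) c * algebraMap Qbar ↥(Fbar (M' * p)) c⁻¹ = 1
      rw [← map_mul, mul_inv_cancel₀ hc0, map_one]
    have := congrArg (rho1 M' p A) hprod
    rw [map_mul, h0, mul_zero, map_one] at this
    exact zero_ne_one this

/-- a constant of `A` whose reduction vanishes is a nonunit. -/
theorem not_isUnit_of_rho1_eq_zero {c : Qbar} (hc : c ∈ A)
    (h : rho1 M' p A ⟨_, algebraMap_mem_O1 M' p A ⟨c, hc⟩⟩ = 0) : ¬ IsUnit (⟨c, hc⟩ : ↥A) := by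
  intro hu
  rw [rho1_algebraMap] at h
  have h1 : resA A ⟨c, hc⟩ = 0 := by
    have := (algebraMap (kA A) (Ft M' A)).injective (h.trans (map_zero _).symm)
    exact this
  exact (IsLocalRing.residue_ne_zero_iff_isUnit _).mpr hu h1

/-- a nonunit of `A` lying in `K` is a multiple of the uniformiser of `A ∩ K`. -/
theorem exists_eq_pi_mul {π : ↥(AK A K)} (hπ : IsUnif (AK A K) π) {c : ↥K} (hc : (c : Qbar) ∈ A)
    (hnu : ¬ IsUnit (⟨(c : Qbar), hc⟩ : ↥A)) :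
    ∃ c' : ↥(AK A K), c = ((π : ↥(AK A K)) : ↥K) * ((c' : ↥(AK A K)) : ↥K) := by
  have hcK : c ∈ AK A K := (mem_AK_iff A K c).mpr hc
  have hnuK : ¬ IsUnit (⟨c, hcK⟩ : ↥(AK A K)) := by
    intro hu
    apply hnu
    have := hu.map (incl A K)
    exact this
  have hmem : (⟨c, hcK⟩ : ↥(AK A K)) ∈ IsLocalRing.maximalIdeal ↥(AK A K) :=
    (IsLocalRing.mem_maximalIdeal _).mpr hnuK
  rw [hπ.max_eq, Ideal.mem_span_singleton] at hmem
  obtain ⟨c', hc'⟩ := hmem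
  exact ⟨c', congrArg Subtype.val hc'⟩

/-! ### the first Gauss valuation on `RK K` -/

include hpM hA in
/-- **scale₁ with a constant of `K`**. -/
theorem exists_scale_K (hK : LargeK n e M' K) {π : ↥(AK A K)} (hπ : IsUnif (AK A K) π)
    {f : ↥(Fbar (M' * p))} (hfR : f ∈ RK M' p K) (hf0 : f ≠ 0) :
    ∃ c : ↥K, c ≠ 0 ∧
      IsGU (Gq1 M' p A) (redq1 M' p A) ((algebraMap Qbar ↥(Fbar (M' * p)) (c : Qbar))⁻¹ * f) := by
  obtain ⟨x, rfl⟩ := (mem_RK_iff M' p K f).mp hfR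
  have hx0 : x ≠ 0 := by
    rintro rfl
    exact hf0 (map_zero _)
  obtain ⟨c, a, b, ga, gb, hc0, -, -, -, -, -, hreda, hredb, hrel⟩ :=
    exists_fraction_K hpM hA hK hπ x hx0
  refine ⟨c, hc0, ga, gb, hreda, hredb, ?_⟩
  have hcF : algebraMap Qbar ↥(Fbar (M' * p)) (c : Qbar) ≠ 0 := by
    rw [Ne, map_eq_zero]
    exact fun h => hc0 (Subtype.ext h)
  rw [mul_assoc, hrel, ← mul_assoc, inv_mul_cancel₀ hcF, one_mul]

include hpM hA in
/-- **`π` is a uniformiser of the first Gauss valuation on `RK K`.** -/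
theorem unif_one_K (hK : LargeK n e M' K) {π : ↥(AK A K)} (hπ : IsUnif (AK A K) π)
    {g : ↥(Fbar (M' * p))} (hgR : g ∈ RK M' p K) (hg1 : g ∈ O1 M' p A)
    (hρ : rho1 M' p A ⟨g, hg1⟩ = 0) :
    (algebraMap Qbar ↥(Fbar (M' * p)) (((π : ↥(AK A K)) : ↥K) : Qbar))⁻¹ * g ∈ O1 M' p A := by
  by_cases hg0 : g = 0
  · rw [hg0, mul_zero]; exact (O1 M' p A).zero_mem
  obtain ⟨c, hc0, hu⟩ := exists_scale_K hpM hA hK hπ hgR hg0
  have hcF : algebraMap Qbar ↥(Fbar (M' * p)) (c : Qbar) ≠ 0 := by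
    rw [Ne, map_eq_zero]
    exact fun h => hc0 (Subtype.ext h)
  set u : ↥(Fbar (M' * p)) := (algebraMap Qbar ↥(Fbar (M' * p)) (c : Qbar))⁻¹ * g with hudef
  have hgu : g = algebraMap Qbar ↥(Fbar (M' * p)) (c : Qbar) * u := by
    rw [hudef, ← mul_assoc, mul_inv_cancel₀ hcF, one_mul]
  have hu1 : u ∈ O1 M' p A := hu.isGI
  have hui : u⁻¹ ∈ O1 M' p A := inv_mem_gaussInt_of_isGU hu
  have hu0 : u ≠ 0 := hu.ne_zero
  -- the constant lies in `O1`, hence in `A`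
  have hcO : algebraMap Qbar ↥(Fbar (M' * p)) (c : Qbar) ∈ O1 M' p A := by
    have : algebraMap Qbar ↥(Fbar (M' * p)) (c : Qbar) = g * u⁻¹ := by
      rw [hgu, mul_assoc, mul_inv_cancel₀ hu0, mul_one]
    rw [this]
    exact (O1 M' p A).mul_mem hg1 hui
  have hcA : (c : Qbar) ∈ A := mem_A_of_mem_O1 hcO
  -- its reduction vanishes
  have hρu : rho1 M' p A ⟨u, hu1⟩ ≠ 0 :=
    (isGU_iff_rho_ne_zero (G := Gq1 M' p A) (red := redq1 M' p A) ⟨u, hu1⟩).mp hu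
  have hρc : rho1 M' p A ⟨_, algebraMap_mem_O1 M' p A ⟨(c : Qbar), hcA⟩⟩ = 0 := by
    have e : (⟨g, hg1⟩ : ↥(O1 M' p A)) =
        ⟨_, algebraMap_mem_O1 M' p A ⟨(c : Qbar), hcA⟩⟩ * ⟨u, hu1⟩ := Subtype.ext hgu
    rw [e, map_mul] at hρ
    exact (mul_eq_zero.mp hρ).resolve_right hρu
  obtain ⟨c', hc'⟩ := exists_eq_pi_mul hπ hcA (not_isUnit_of_rho1_eq_zero hcA hρc)
  have hπ0 : (((π : ↥(AK A K)) : ↥K) : Qbar) ≠ 0 := by
    intro h0
    apply hπ.ne_zero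
    apply Subtype.ext
    apply Subtype.ext
    exact h0
  have hπF : algebraMap Qbar ↥(Fbar (M' * p)) (((π : ↥(AK A K)) : ↥K) : Qbar) ≠ 0 := by
    rwa [Ne, map_eq_zero]
  have hc'A : (((c' : ↥(AK A K)) : ↥K) : Qbar) ∈ A := (mem_AK_iff A K _).mp c'.2
  have : (algebraMap Qbar ↥(Fbar (M' * p)) (((π : ↥(AK A K)) : ↥K) : Qbar))⁻¹ * g =
      algebraMap Qbar ↥(Fbar (M' * p)) (((c' : ↥(AK A K)) : ↥K) : Qbar) * u := by
    have hcQ : (c : Qbar) = (((π : ↥(AK A K)) : ↥K) : Qbar) * (((c' : ↥(AK A K)) : ↥K) : Qbar) := by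
      rw [hc']; rfl
    rw [hgu, hcQ, map_mul, mul_assoc, ← mul_assoc, inv_mul_cancel₀ hπF, one_mul]
  rw [this]
  exact (O1 M' p A).mul_mem (algebraMap_mem_O1 M' p A ⟨_, hc'A⟩) hu1

include hpM hA in
/-- **a constant residue of a `K`-rational function lifts to `A ∩ K`.** -/
theorem exists_lift_K (hK : LargeK n e M' K) {π : ↥(AK A K)} (hπ : IsUnif (AK A K) π)
    {f : ↥(Fbar (M' * p))} (hfR : f ∈ RK M' p K) (hf1 : f ∈ O1 M' p A) (e₀ : kA A)
    (hρ : rho1 M' p A ⟨f, hf1⟩ = algebraMap (kA A) (Ft M' A) e₀) :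
    ∃ a₀ : ↥(AK A K), resA A (incl A K a₀) = e₀ := by
  by_cases he : e₀ = 0
  · exact ⟨0, by rw [map_zero, map_zero, he]⟩
  have hf0 : f ≠ 0 := by
    rintro rfl
    have h0 : rho1 M' p A ⟨0, hf1⟩ = 0 := map_zero (rho1 M' p A)
    rw [h0] at hρ
    exact he ((algebraMap (kA A) (Ft M' A)).injective (hρ.symm.trans (map_zero _).symm))
  obtain ⟨x, rfl⟩ := (mem_RK_iff M' p K f).mp hfR
  have hx0 : x ≠ 0 := by
    rintro rfl
    exact hf0 (map_zero _)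
  obtain ⟨c, a, b, ga, gb, hc0, hbred, -, -, hra, hrb, hreda, hredb, hrel⟩ :=
    exists_fraction_K hpM hA hK hπ x hx0
  -- `g_a`, `g_b` in `O1`
  have hga1 : ((ga : ↥(Gq1 M' p A)) : ↥(Fbar (M' * p))) ∈ O1 M' p A :=
    le_gaussInt (Gq1 M' p A) (redq1 M' p A) ga.2
  have hgb1 : ((gb : ↥(Gq1 M' p A)) : ↥(Fbar (M' * p))) ∈ O1 M' p A :=
    le_gaussInt (Gq1 M' p A) (redq1 M' p A) gb.2
  have hρa : rho1 M' p A ⟨_, hga1⟩ = redq1 M' p A ga :=
    rho_of_mem (G := Gq1 M' p A) (red := redq1 M' p A) ga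
  have hρb : rho1 M' p A ⟨_, hgb1⟩ = redq1 M' p A gb :=
    rho_of_mem (G := Gq1 M' p A) (red := redq1 M' p A) gb
  have hgaU : IsGU (Gq1 M' p A) (redq1 M' p A) ((ga : ↥(Gq1 M' p A)) : ↥(Fbar (M' * p))) :=
    (isGU_iff_rho_ne_zero (G := Gq1 M' p A) (red := redq1 M' p A) ⟨_, hga1⟩).mpr
      (by rw [hρa]; exact hreda)
  have hgai := inv_mem_gaussInt_of_isGU hgaU
  have hga0 := hgaU.ne_zero
  -- the constant lies in `A`
  have hcO : algebraMap Qbar ↥(Fbar (M' * p)) (c : Qbar) ∈ O1 M' p A := by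
    have : algebraMap Qbar ↥(Fbar (M' * p)) (c : Qbar) =
        PlaceExtend27.baseChangeHom (M' * p) K x * ((gb : ↥(Gq1 M' p A)) : ↥(Fbar (M' * p))) *
          (((ga : ↥(Gq1 M' p A)) : ↥(Fbar (M' * p))))⁻¹ := by
      rw [hrel, mul_assoc, mul_inv_cancel₀ hga0, mul_one]
    rw [this]
    exact (O1 M' p A).mul_mem ((O1 M' p A).mul_mem hf1 hgb1) hgai
  have hcA : (c : Qbar) ∈ A := mem_A_of_mem_O1 hcO
  -- reduce the relation
  have hrelρ : algebraMap (kA A) (Ft M' A) e₀ * redq1 M' p A gb =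
      algebraMap (kA A) (Ft M' A) (resA A ⟨(c : Qbar), hcA⟩) * redq1 M' p A ga := by
    have e : (⟨_, hf1⟩ : ↥(O1 M' p A)) * ⟨_, hgb1⟩ =
        ⟨_, algebraMap_mem_O1 M' p A ⟨(c : Qbar), hcA⟩⟩ * ⟨_, hga1⟩ := Subtype.ext hrel
    have := congrArg (rho1 M' p A) e
    rwa [map_mul, map_mul, hρ, hρa, hρb, rho1_algebraMap] at this
  -- a coefficient of `b` with nonzero residue
  obtain ⟨m, hm⟩ : ∃ m : ℤ, (redL (AK A K) b).coeff m ≠ 0 := by
    by_contra hcon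
    push Not at hcon
    exact hbred (HahnSeries.ext (funext hcon))
  have hbm : IsLocalRing.residue ↥(AK A K) (b.coeff m) ≠ 0 := by
    have : (redL (AK A K) b).coeff m = IsLocalRing.residue ↥(AK A K) (b.coeff m) :=
      coeffMap_coeff _ b m
    rwa [this] at hm
  have hbu : IsUnit (b.coeff m) := (IsLocalRing.residue_ne_zero_iff_isUnit _).mp hbm
  obtain ⟨ub, hub⟩ := hbu
  -- compare the coefficients at `m`
  have hcoef := congrArg (fun y : Ft M' A => ((y : Ft M' A) : LaurentSeries (kA A)).coeff m) hrelρ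
  have hL : ((algebraMap (kA A) (Ft M' A) e₀ * redq1 M' p A gb : Ft M' A) :
      LaurentSeries (kA A)).coeff m = e₀ * resA A (incl A K (b.coeff m)) := by
    show (algebraMap (kA A) (LaurentSeries (kA A)) e₀ *
      ((redq1 M' p A gb : Ft M' A) : LaurentSeries (kA A))).coeff m = _
    rw [hrb, algebraMap_eq_C (K := kA A), HahnSeries.C_mul_eq_smul, HahnSeries.coeff_smul,
      smul_eq_mul, coeffMap_coeff, coeffMap_coeff]
  have hR : ((algebraMap (kA A) (Ft M' A) (resA A ⟨(c : Qbar), hcA⟩) * redq1 M' p A ga : Ft M' A) :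
      LaurentSeries (kA A)).coeff m =
        resA A ⟨(c : Qbar), hcA⟩ * resA A (incl A K (a.coeff m)) := by
    show (algebraMap (kA A) (LaurentSeries (kA A)) (resA A ⟨(c : Qbar), hcA⟩) *
      ((redq1 M' p A ga : Ft M' A) : LaurentSeries (kA A))).coeff m = _
    rw [hra, algebraMap_eq_C (K := kA A), HahnSeries.C_mul_eq_smul, HahnSeries.coeff_smul,
      smul_eq_mul, coeffMap_coeff, coeffMap_coeff]
  have hcoef' : e₀ * resA A (incl A K (b.coeff m)) =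
      resA A ⟨(c : Qbar), hcA⟩ * resA A (incl A K (a.coeff m)) := by
    rw [← hL, ← hR]
    exact hcoef
  -- the lift
  have hcK : c ∈ AK A K := (mem_AK_iff A K c).mpr hcA
  refine ⟨⟨c, hcK⟩ * a.coeff m * ((ub⁻¹ : (↥(AK A K))ˣ) : ↥(AK A K)), ?_⟩
  have hinc : incl A K ⟨c, hcK⟩ = ⟨(c : Qbar), hcA⟩ := Subtype.ext rfl
  have hubres : resA A (incl A K (b.coeff m)) *
      resA A (incl A K ((ub⁻¹ : (↥(AK A K))ˣ) : ↥(AK A K))) = 1 := by
    rw [← map_mul, ← map_mul, ← hub, Units.mul_inv, map_one, map_one]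
  rw [map_mul, map_mul, map_mul, map_mul, hinc, ← hcoef', mul_assoc, hubres, mul_one]

/-! ### `RatHyp` -/

theorem pi_mem_A (π : ↥(AK A K)) : (((π : ↥(AK A K)) : ↥K) : Qbar) ∈ A :=
  (mem_AK_iff A K _).mp π.2

theorem pi_ne_zero {π : ↥(AK A K)} (hπ : IsUnif (AK A K) π) :
    (((π : ↥(AK A K)) : ↥K) : Qbar) ≠ 0 := by
  intro h0
  apply hπ.ne_zero
  apply Subtype.ext
  apply Subtype.ext
  exact h0

theorem pi_nonunit {π : ↥(AK A K)} (hπ : IsUnif (AK A K) π) :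
    ¬ IsUnit (⟨_, pi_mem_A π⟩ : ↥A) := by
  intro hu
  obtain ⟨u, hu⟩ := hu
  have hπ0 := pi_ne_zero hπ
  have h1 : (((u⁻¹ : (↥A)ˣ) : ↥A) : Qbar) * ((u : ↥A) : Qbar) = 1 := by
    rw [← MulMemClass.coe_mul, Units.inv_mul]; rfl
  rw [hu] at h1
  have h2 : ((((π : ↥(AK A K)) : ↥K))⁻¹ : ↥K) ∈ AK A K := by
    rw [mem_AK_iff]
    have : (((((π : ↥(AK A K)) : ↥K))⁻¹ : ↥K) : Qbar) = (((u⁻¹ : (↥A)ˣ) : ↥A) : Qbar) := by
      have h3 : (((u⁻¹ : (↥A)ˣ) : ↥A) : Qbar) * (((π : ↥(AK A K)) : ↥K) : Qbar) = 1 := h1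
      have h4 : (((((π : ↥(AK A K)) : ↥K))⁻¹ : ↥K) : Qbar) =
          ((((π : ↥(AK A K)) : ↥K) : Qbar))⁻¹ := rfl
      rw [h4]
      exact (eq_inv_of_mul_eq_one_left h3).symm
    rw [this]
    exact SetLike.coe_mem _
  have hunit : IsUnit π := by
    refine ⟨⟨π, ⟨_, h2⟩, ?_, ?_⟩, rfl⟩
    · apply Subtype.ext
      show ((π : ↥(AK A K)) : ↥K) * (((π : ↥(AK A K)) : ↥K))⁻¹ = 1
      exact mul_inv_cancel₀ (fun h => hπ.ne_zero (Subtype.ext h))
    · apply Subtype.ext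
      show (((π : ↥(AK A K)) : ↥K))⁻¹ * ((π : ↥(AK A K)) : ↥K) = 1
      exact inv_mul_cancel₀ (fun h => hπ.ne_zero (Subtype.ext h))
  have hmem : π ∈ IsLocalRing.maximalIdeal ↥(AK A K) := by
    rw [hπ.max_eq]
    exact Ideal.mem_span_singleton_self π
  exact (IsLocalRing.mem_maximalIdeal π).mp hmem hunit

include hpM hA in
theorem lift_K (hK : LargeK n e M' K) {π : ↥(AK A K)} (hπ : IsUnif (AK A K) π)
    (g : ↥(GN M' p A)) (hgR : (g : ↥(Fbar (M' * p))) ∈ RK M' p K) (e₀ : kA A)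
    (hred : redN M' p A g = (algebraMap (kA A) (Ft M' A) e₀, algebraMap (kA A) (Ft M' A) e₀)) :
    ∃ a : ↥A, resA A a = e₀ ∧ algebraMap Qbar ↥(Fbar (M' * p)) (a : Qbar) ∈ RK M' p K := by
  have h1 : rho1 M' p A ⟨(g : ↥(Fbar (M' * p))), GN_le_O1 M' p A g.2⟩ =
      algebraMap (kA A) (Ft M' A) e₀ := by
    rw [← redN_fst, hred]
  obtain ⟨a₀, ha₀⟩ := exists_lift_K hpM hA hK hπ hgR (GN_le_O1 M' p A g.2) e₀ h1
  exact ⟨incl A K a₀, ha₀, algebraMap_mem_RK M' p K (a₀ : ↥K)⟩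

include hpM hA in
theorem unif_K (hK : LargeK n e M' K) {π : ↥(AK A K)} (hπ : IsUnif (AK A K) π)
    (g : ↥(GN M' p A)) (hgR : (g : ↥(Fbar (M' * p))) ∈ RK M' p K) (hred : redN M' p A g = 0) :
    ∃ g₁ : ↥(GN M' p A), (g : ↥(Fbar (M' * p))) =
      algebraMap Qbar ↥(Fbar (M' * p)) (((π : ↥(AK A K)) : ↥K) : Qbar) *
        (g₁ : ↥(Fbar (M' * p))) := by
  have h1 : rho1 M' p A ⟨(g : ↥(Fbar (M' * p))), GN_le_O1 M' p A g.2⟩ = 0 := by
    rw [← redN_fst, hred]; rfl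
  have hW1 : frickeN M' p (g : ↥(Fbar (M' * p))) ∈ O1 M' p A :=
    (mem_O2_iff M' p A _).mp (GN_le_O2 M' p A g.2)
  have h2 : rho1 M' p A ⟨frickeN M' p (g : ↥(Fbar (M' * p))), hW1⟩ = 0 := by
    have := redN_snd M' p A g
    rw [rho2_apply] at this
    rw [← this, hred]; rfl
  have m1 := unif_one_K hpM hA hK hπ hgR (GN_le_O1 M' p A g.2) h1
  have m2 := unif_one_K hpM hA hK hπ (fricke_mem_RK M' p K hgR) hW1 h2
  rw [← frickeN_scale] at m2
  have m2' : (algebraMap Qbar ↥(Fbar (M' * p)) (((π : ↥(AK A K)) : ↥K) : Qbar))⁻¹ *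
      (g : ↥(Fbar (M' * p))) ∈ O2 M' p A := (mem_O2_iff M' p A _).mpr m2
  refine ⟨⟨_, ⟨m1, m2'⟩⟩, ?_⟩
  have hπF : algebraMap Qbar ↥(Fbar (M' * p)) (((π : ↥(AK A K)) : ↥K) : Qbar) ≠ 0 := by
    rw [Ne, map_eq_zero]; exact pi_ne_zero hπ
  show (g : ↥(Fbar (M' * p))) = _ * (_ * (g : ↥(Fbar (M' * p))))
  rw [← mul_assoc, mul_inv_cancel₀ hπF, one_mul]

include hpM hA in
theorem rscale_K (hK : LargeK n e M' K) {π : ↥(AK A K)} (hπ : IsUnif (AK A K) π)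
    (f : ↥(Fbar (M' * p))) (hfR : f ∈ RK M' p K) (hf0 : f ≠ 0) :
    ∃ c : Qbar, c ≠ 0 ∧ algebraMap Qbar ↥(Fbar (M' * p)) c ∈ RK M' p K ∧
      ∃ h : (algebraMap Qbar ↥(Fbar (M' * p)) c)⁻¹ * f ∈ GN M' p A, redN M' p A ⟨_, h⟩ ≠ 0 := by
  obtain ⟨c₁, hc₁, hu₁⟩ := exists_scale_K hpM hA hK hπ hfR hf0
  have hWf : frickeN M' p f ≠ 0 := fun h0 =>
    hf0 ((map_eq_zero_iff (frickeN M' p) (frickeN M' p).injective).mp h0)
  obtain ⟨c₂, hc₂, hu₂⟩ := exists_scale_K hpM hA hK hπ (fricke_mem_RK M' p K hfR) hWf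
  rw [← frickeN_scale] at hu₂
  obtain ⟨h1, hρ1⟩ := rho1_ne_zero_of_isGU M' p A hu₁
  obtain ⟨h2, hρ2⟩ := rho2_ne_zero_of_isGU M' p A hu₂
  have hc₁Q : (c₁ : Qbar) ≠ 0 := fun h => hc₁ (Subtype.ext h)
  have hc₂Q : (c₂ : Qbar) ≠ 0 := fun h => hc₂ (Subtype.ext h)
  have hm₁ : algebraMap Qbar ↥(Fbar (M' * p)) (c₁ : Qbar) ≠ 0 := by
    rwa [Ne, map_eq_zero]
  have hm₂ : algebraMap Qbar ↥(Fbar (M' * p)) (c₂ : Qbar) ≠ 0 := by
    rwa [Ne, map_eq_zero]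
  rcases A.mem_or_inv_mem ((c₂ : Qbar) / (c₁ : Qbar)) with hA' | hA'
  · have hrel : (algebraMap Qbar ↥(Fbar (M' * p)) (c₁ : Qbar))⁻¹ * f =
        algebraMap Qbar ↥(Fbar (M' * p)) ((c₂ : Qbar) / (c₁ : Qbar)) *
          ((algebraMap Qbar ↥(Fbar (M' * p)) (c₂ : Qbar))⁻¹ * f) := by
      rw [map_div₀, div_eq_mul_inv, mul_comm (algebraMap Qbar ↥(Fbar (M' * p)) (c₂ : Qbar)),
        mul_assoc, ← mul_assoc (algebraMap Qbar ↥(Fbar (M' * p)) (c₂ : Qbar)),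
        mul_inv_cancel₀ hm₂, one_mul]
    have h2' : (algebraMap Qbar ↥(Fbar (M' * p)) (c₁ : Qbar))⁻¹ * f ∈ O2 M' p A := by
      rw [hrel]
      exact (O2 M' p A).mul_mem (algebraMap_mem_O2 M' p A ⟨_, hA'⟩) h2
    refine ⟨(c₁ : Qbar), hc₁Q, algebraMap_mem_RK M' p K c₁, ⟨h1, h2'⟩, fun h0 => hρ1 ?_⟩
    have := congrArg Prod.fst h0
    rwa [redN_fst] at this
  · have hA'' : (c₁ : Qbar) / (c₂ : Qbar) ∈ A := by
      rwa [inv_div] at hA'
    have hrel : (algebraMap Qbar ↥(Fbar (M' * p)) (c₂ : Qbar))⁻¹ * f =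
        algebraMap Qbar ↥(Fbar (M' * p)) ((c₁ : Qbar) / (c₂ : Qbar)) *
          ((algebraMap Qbar ↥(Fbar (M' * p)) (c₁ : Qbar))⁻¹ * f) := by
      rw [map_div₀, div_eq_mul_inv, mul_comm (algebraMap Qbar ↥(Fbar (M' * p)) (c₁ : Qbar)),
        mul_assoc, ← mul_assoc (algebraMap Qbar ↥(Fbar (M' * p)) (c₁ : Qbar)),
        mul_inv_cancel₀ hm₁, one_mul]
    have h1' : (algebraMap Qbar ↥(Fbar (M' * p)) (c₂ : Qbar))⁻¹ * f ∈ O1 M' p A := by
      rw [hrel]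
      exact (O1 M' p A).mul_mem (algebraMap_mem_O1 M' p A ⟨_, hA''⟩) h1
    refine ⟨(c₂ : Qbar), hc₂Q, algebraMap_mem_RK M' p K c₂, ⟨h1', h2⟩, fun h0 => hρ2 ?_⟩
    have := congrArg Prod.snd h0
    rwa [redN_snd] at this

include hpM hA in
/-- **`RatHyp` at the instance for the `K`-rational functions, `ϖ` a uniformiser of `A ∩ K`.** -/
theorem ratHyp_K (hK : LargeK n e M' K) {π : ↥(AK A K)} (hπ : IsUnif (AK A K) π) :
    RatHyp A (resA A) (GN M' p A) (redN M' p A) (RK M' p K)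
      (((π : ↥(AK A K)) : ↥K) : Qbar) where
  mem := pi_mem_A π
  nonunit := pi_nonunit hπ
  ne_zero := pi_ne_zero hπ
  rat := algebraMap_mem_RK M' p K _
  lift := lift_K hpM hA hK hπ
  unif := unif_K hpM hA hK hπ
  rscale := rscale_K hpM hA hK hπ

include hpM hb hnM hA in
/-- **the exit of (i)**: for every `h` and every nonzero nonunit `π'` of `A` there is a number field
`K` with a uniformiser `π` such that `RatHyp` holds on the `K`-rational functions, `h` is `K`-rational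
and `π' = u·π^m`, `u ∈ Aˣ`, `m ≥ 1`. -/
theorem exists_ratHyp (h : ↥(Fbar (M' * p))) {π' : Qbar} (hπ'A : π' ∈ A) (hπ'0 : π' ≠ 0)
    (hπ'n : ¬ IsUnit (⟨π', hπ'A⟩ : ↥A)) :
    ∃ (K : IntermediateField ℚ Qbar) (π : ↥(AK A K)) (m : ℕ) (u : Qbar),
      RatHyp A (resA A) (GN M' p A) (redN M' p A) (RK M' p K) (((π : ↥(AK A K)) : ↥K) : Qbar) ∧
      h ∈ RK M' p K ∧ u ∈ A ∧ u⁻¹ ∈ A ∧ 1 ≤ m ∧
      π' = u * ((((π : ↥(AK A K)) : ↥K) : Qbar)) ^ m := by
  haveI := isAlgebraic_Qbar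
  obtain ⟨K₀, hK₀fin, hK₀⟩ := exists_largeK n e M' hb hnM
  haveI := hK₀fin
  haveI : FiniteDimensional ℚ ℚ⟮π'⟯ :=
    adjoin.finiteDimensional (Algebra.IsIntegral.isIntegral π')
  obtain ⟨K, hle, hfin, x', hx', hx'h⟩ :=
    CoeffDescent1.exists_finite_descent (L := Qbar) (F₀ := modularFunctionFieldFull (M' * p))
      (K₀ ⊔ ℚ⟮π'⟯) h.2
  haveI := hfin
  have hK : LargeK n e M' K := hK₀ K hfin (le_sup_left.trans hle)
  have hπ'K : π' ∈ K := hle (le_sup_right (a := K₀) (mem_adjoin_simple_self ℚ π'))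
  haveI : IsDiscreteValuationRing ↥(AK A K) :=
    isDiscreteValuationRing_AK A K (Fact.out : p.Prime).ne_zero hA
  obtain ⟨π, hπirr⟩ := IsDiscreteValuationRing.exists_irreducible ↥(AK A K)
  have hπ := isUnif_of_irreducible (AK A K) hπirr
  -- `π'` in the DVR
  set πK : ↥(AK A K) := ⟨⟨π', hπ'K⟩, (mem_AK_iff A K _).mpr hπ'A⟩ with hπK
  have hπK0 : πK ≠ 0 := by
    intro h0
    apply hπ'0
    have := congrArg (fun z : ↥(AK A K) => ((z : ↥K) : Qbar)) h0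
    exact this
  obtain ⟨m, u, hu⟩ := IsDiscreteValuationRing.eq_unit_mul_pow_irreducible hπK0 hπirr
  have hm : 1 ≤ m := by
    rcases Nat.eq_zero_or_pos m with rfl | hpos
    · exfalso
      apply hπ'n
      rw [pow_zero, mul_one] at hu
      have hunit : IsUnit πK := hu ▸ u.isUnit
      exact hunit.map (incl A K)
    · exact hpos
  have huA : ((((u : (↥(AK A K))ˣ) : ↥(AK A K)) : ↥K) : Qbar) ∈ A := (mem_AK_iff A K _).mp (u : ↥(AK A K)).2
  have huiA : ((((u : (↥(AK A K))ˣ) : ↥(AK A K)) : ↥K) : Qbar)⁻¹ ∈ A := by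
    have h1 := (mem_AK_iff A K _).mp ((u⁻¹ : (↥(AK A K))ˣ) : ↥(AK A K)).2
    have h2 : (((((u⁻¹ : (↥(AK A K))ˣ) : ↥(AK A K)) : ↥K) : Qbar)) *
        ((((u : (↥(AK A K))ˣ) : ↥(AK A K)) : ↥K) : Qbar) = 1 := by
      have := congrArg (fun z : ↥(AK A K) => ((z : ↥K) : Qbar)) (Units.inv_mul u)
      exact this
    rw [← eq_inv_of_mul_eq_one_left h2]
    exact h1
  refine ⟨K, π, m, ((((u : (↥(AK A K))ˣ) : ↥(AK A K)) : ↥K) : Qbar), ratHyp_K hpM hA hK hπ, ?_, huA,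
    huiA, hm, ?_⟩
  · refine (mem_RK_iff M' p K h).mpr ⟨⟨x', hx'⟩, ?_⟩
    apply Subtype.ext
    rw [PlaceExtend27.coe_baseChangeHom]
    exact hx'h
  · have := congrArg (fun z : ↥(AK A K) => ((z : ↥K) : Qbar)) hu
    exact this

/-- **(i) at THE instance** (`(n, e) = (4, 8)`, `4 ∣ M'`; `GN`, `redN` are `IX.G`, `IX.red`). -/
theorem exists_ratHyp_four {M' : ℕ} [NeZero M'] {p : ℕ} [Fact p.Prime] (hpM : ¬ p ∣ M')
    (h4M : 4 ∣ M') {A : ValuationSubring Qbar} (hA : A.LiesOverPrime p)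
    (h : ↥(Fbar (M' * p))) {π' : Qbar} (hπ'A : π' ∈ A) (hπ'0 : π' ≠ 0)
    (hπ'n : ¬ IsUnit (⟨π', hπ'A⟩ : ↥A)) :
    ∃ (K : IntermediateField ℚ Qbar) (π : ↥(AK A K)) (m : ℕ) (u : Qbar),
      RatHyp A (resA A) (GN M' p A) (redN M' p A) (RK M' p K) (((π : ↥(AK A K)) : ↥K) : Qbar) ∧
      h ∈ RK M' p K ∧ u ∈ A ∧ u⁻¹ ∈ A ∧ 1 ≤ m ∧
      π' = u * ((((π : ↥(AK A K)) : ↥K) : Qbar)) ^ m :=
  haveI : NeZero 4 := ⟨by norm_num⟩
  exists_ratHyp (n := 4) (e := 8) hpM baseHyp_four h4M hA h hπ'A hπ'0 hπ'n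

end Fermat.Agent.ES.X44.RatHypInst22
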