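/-
Programme X (S44), chapter (K), concrete tower, part 5 (helper16): **the break `(π', t, a)` and the chapter exit**.

Setting of `TowerUnif16`: `A` over `p`, `ζ` primitive `p`-th root of unity, `H = H₁` (`AtZeta A ζ H`), the cyclic step
`S ⊴ H = ⟨σ⟩ S`, `σ^p ∈ S` (`CycStep p H S σ`), `π'` fixed by `S` with `v π' ^ p = v (ζ - 1)`.

* `val_ratio_sub_one_lt` : `v (σ π' / π' - 1) < 1` (wild: `∏_{i<p} σ^i(σπ'/π') = 1`, `σ ≡ id` on the residue field, which
  has characteristic `p`);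
* `exists_break` **(k4)** : `∃ t ≥ 1, ∃ a` fixed by `S`, `v a = 1`, with the EXACT equation `σ π' = π' (1 + a π'^t)`;
* `val_sub_le_of_S_fixed` **(k3)** : `v (τ u - u) ≤ v π' ^ (t + 1)` for `τ ∈ H`, `u ∈ A` fixed by `S`;
* `succ_le_of_cert` **(k5)** : the (L2) certificate `z` forces `t + 1 ≤ p`;
* `tower_exit` : **the exit of chapter (K)** (`(k1)`–`(k5)` together, existence of `π'` included).
-/
import Mathlib
import Fermat.Agent.ES.X44.TowerUnif16
import Fermat.Agent.ES.X44.BreakLe6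

set_option autoImplicit false
set_option linter.unusedSectionVars false

namespace Fermat.Agent.ES.X44.TowerBreak16

open ValuationSubring Fermat.Agent.ES.X44.TowerBase16 Fermat.Agent.ES.X44.TowerOne16
  Fermat.Agent.ES.X44.TowerGroup16 Fermat.Agent.ES.X44.TowerUnif16

local notation "Qb" => AlgebraicClosure ℚ
local notation "GQ" => (AlgebraicClosure ℚ ≃ₐ[ℚ] AlgebraicClosure ℚ)

variable {p : ℕ} {A : ValuationSubring Qb} (hp : p.Prime) (hA : A.LiesOverPrime p)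
  {ζ : Qb} (hζ : IsPrimitiveRoot ζ p) {H S : Subgroup GQ} {σ : GQ}
  (hH : AtZeta A ζ H) (D : CycStep p H S σ)
  {π' : Qb} (hπS : ∀ s ∈ S, s π' = π') (hπ : A.valuation π' ^ p = A.valuation (ζ - 1))

include hp hA hζ hH D hπ in
/-- `σ^i π' / π'` is a unit. -/
theorem val_pow_ratio (i : ℕ) : A.valuation ((σ ^ i) π' / π') = 1 := by
  have h0 : A.valuation π' ≠ 0 :=
    (Valuation.ne_zero_iff A.valuation).mpr (unif_ne_zero hp hA hζ hπ)
  rw [map_div₀, val_apply (hH.le (D.pow_mem_H i)), div_self h0]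

include hp hA hζ hH D hπ in
/-- `σ^i π' / π' ≡ (σ π' / π')^i` modulo `𝔪_A`. -/
theorem val_pow_ratio_sub_pow_lt (i : ℕ) :
    A.valuation ((σ ^ i) π' / π' - (σ π' / π') ^ i) < 1 := by
  have hπ0 : π' ≠ 0 := unif_ne_zero hp hA hζ hπ
  have hε : A.valuation (σ π' / π') = 1 := by
    have := val_pow_ratio hp hA hζ hH D hπ 1
    rwa [pow_one] at this
  induction i with
  | zero =>
    rw [pow_zero, pow_zero, AlgEquiv.one_apply, div_self hπ0, sub_self, map_zero]
    exact zero_lt_one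
  | succ i ih =>
    have hσπ0 : σ π' ≠ 0 := (map_ne_zero_iff σ σ.injective).mpr hπ0
    have e1 : (σ ^ (i + 1)) π' / π' = σ ((σ ^ i) π' / π') * (σ π' / π') := by
      rw [pow_succ', AlgEquiv.mul_apply, map_div₀]
      field_simp
    have e2 : (σ ^ (i + 1)) π' / π' - (σ π' / π') ^ (i + 1) =
        (σ ((σ ^ i) π' / π') - (σ ^ i) π' / π') * (σ π' / π') +
          ((σ ^ i) π' / π' - (σ π' / π') ^ i) * (σ π' / π') := by
      rw [e1, pow_succ]; ring
    rw [e2]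
    have h1 : A.valuation (σ ((σ ^ i) π' / π') - (σ ^ i) π' / π') < 1 :=
      val_apply_sub_lt_one (hH.le D.mem) (val_pow_ratio hp hA hζ hH D hπ i).le
    refine lt_of_le_of_lt (Valuation.map_add _ _ _) (max_lt ?_ ?_)
    · rw [map_mul, hε, mul_one]; exact h1
    · rw [map_mul, hε, mul_one]; exact ih

include hp hA hζ hH D hπS hπ in
/-- **wildness**: `σ π' / π' ≡ 1` modulo `𝔪_A`. -/
theorem val_ratio_sub_one_lt : A.valuation (σ π' / π' - 1) < 1 := by
  have hπ0 : π' ≠ 0 := unif_ne_zero hp hA hζ hπ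
  have hε : A.valuation (σ π' / π') = 1 := by
    have := val_pow_ratio hp hA hζ hH D hπ 1
    rwa [pow_one] at this
  have hεA : σ π' / π' ∈ A := (A.valuation_le_one_iff _).mp hε.le
  -- `ε^p ≡ 1`
  have h1 : A.valuation ((σ π' / π') ^ p - 1) < 1 := by
    have := val_pow_ratio_sub_pow_lt hp hA hζ hH D hπ p
    rw [hπS _ D.sigma_pow_mem, div_self hπ0] at this
    rwa [← Valuation.map_sub_swap] at this
  -- in the residue field
  have : Fact p.Prime := ⟨hp⟩
  have : CharP (IsLocalRing.ResidueField A) p :=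
    Fermat.Agent.ES.V19.UnrLevel16.charP_residue hp hA
  set x := IsLocalRing.residue A ⟨σ π' / π', hεA⟩ with hx
  have hxp : x ^ p = 1 := by
    rw [hx, ← Fermat.Agent.ES.V19.GammaF16.residue_pow A hεA p]
    have h2 := (Fermat.Agent.ES.V19.GammaF16.residue_eq_iff A (pow_mem hεA p) A.one_mem).mpr h1
    rw [h2]
    exact map_one _
  have hx1 : x = 1 := by
    have h3 : (x - 1) ^ p = 0 := by rw [sub_pow_char, hxp, one_pow, sub_self]
    exact sub_eq_zero.mp (pow_eq_zero_iff hp.ne_zero |>.mp h3)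
  have h4 : IsLocalRing.residue A ⟨σ π' / π', hεA⟩ = IsLocalRing.residue A ⟨1, A.one_mem⟩ := by
    rw [← hx, hx1]
    exact (map_one _).symm
  exact (Fermat.Agent.ES.V19.GammaF16.residue_eq_iff A hεA A.one_mem).mp h4

include hp hA hζ hH D hπS hπ in
/-- **(k4)**: the break. -/
theorem exists_break :
    ∃ (t : ℕ) (a : Qb), 1 ≤ t ∧ A.valuation a = 1 ∧ (∀ s ∈ S, s a = a) ∧
      σ π' = π' * (1 + a * π' ^ t) := by
  have hπ0 : π' ≠ 0 := unif_ne_zero hp hA hζ hπ
  have hπ1 : A.valuation π' < 1 := val_unif_lt_one hp hA hζ hπ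
  have hv0 : A.valuation π' ≠ 0 := (Valuation.ne_zero_iff A.valuation).mpr hπ0
  set δ : Qb := σ π' / π' - 1 with hδ
  have hδ0 : δ ≠ 0 := by
    intro h
    have h1 : σ π' / π' = 1 := sub_eq_zero.mp h
    rw [div_eq_one_iff_eq hπ0] at h1
    exact sigma_ne hp hA hζ hH D hπS hπ h1
  have hδS : ∀ s ∈ S, s δ = δ := by
    intro s hs
    rw [hδ, map_sub, map_div₀, map_one, D.map_fixed hπS s hs, hπS s hs]
  obtain ⟨m, hm⟩ := val_eq_zpow_of_S_fixed hp hA hζ hH D hπS hπ hδ0 hδS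
  have hδlt : A.valuation δ < 1 := val_ratio_sub_one_lt hp hA hζ hH D hπS hπ
  -- `m ≥ 1`
  have hm1 : 1 ≤ m := by
    by_contra hneg
    push Not at hneg
    have hm0 : m ≤ 0 := by omega
    obtain ⟨n, hn⟩ := Int.eq_ofNat_of_zero_le (neg_nonneg.mpr hm0)
    have : A.valuation π' ^ m = ((A.valuation π') ^ n)⁻¹ := by
      rw [← zpow_natCast, ← hn, zpow_neg, inv_inv]
    rw [hm, this] at hδlt
    have h2 : A.valuation π' ^ n ≤ 1 := pow_le_one₀ zero_le hπ1.le
    have h3 : (1 : A.ValueGroup) ≤ ((A.valuation π') ^ n)⁻¹ :=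
      (one_le_inv₀ (zero_lt_iff.mpr (pow_ne_zero n hv0))).mpr h2
    exact absurd hδlt (not_lt.mpr h3)
  obtain ⟨t, rfl⟩ := Int.eq_ofNat_of_zero_le (by omega : (0 : ℤ) ≤ m)
  rw [zpow_natCast] at hm
  refine ⟨t, δ / π' ^ t, by exact_mod_cast hm1, ?_, ?_, ?_⟩
  · rw [map_div₀, map_pow, hm, div_self (pow_ne_zero t hv0)]
  · intro s hs
    rw [map_div₀, map_pow, hδS s hs, hπS s hs]
  · have hpt : π' ^ t ≠ 0 := pow_ne_zero t hπ0
    rw [div_mul_cancel₀ _ hpt, hδ]
    field_simp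
    ring

section Break

variable {t : ℕ} {a : Qb} (ha : A.valuation a ≤ 1) (hbreak : σ π' = π' * (1 + a * π' ^ t))

include hp hA hζ hH D hπS hπ ha hbreak in
/-- (k3) for `σ`. -/
theorem val_sigma_sub_le {u : Qb} (hu : u ∈ A) (huS : ∀ s ∈ S, s u = u) :
    A.valuation (σ u - u) ≤ A.valuation π' ^ (t + 1) := by
  obtain ⟨c, hc, huc⟩ := exists_coeffs_of_S_fixed hp hA hζ hH D hπS hπ huS
  have hcc : ∀ i : Fin p, (fun i : Fin p => c i) i = 0 ∨
      ∃ k : ℤ, A.valuation ((fun i : Fin p => c i) i) = A.valuation (ζ - 1) ^ k := by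
    intro i
    by_cases h0 : c i = 0
    · exact Or.inl h0
    · exact Or.inr (val_eq_zpow_of_H_fixed hp hA hζ hH h0 (fun τ hτ => hc τ hτ i))
  have hsum : (∑ i : Fin p, (fun i : Fin p => c i) i * π' ^ (i : ℕ)) = u := by
    rw [huc]
    exact Fin.sum_univ_eq_sum_range (fun i => c i * π' ^ i) p
  obtain ⟨y, hy1, hy⟩ := EisGauss6.tau_sub_eq A.valuation (val_zeta_sub_one_lt_one hp hA hζ)
    (zeta_sub_one_ne_zero hp hζ) hπ (σ.toRingEquiv : Qb ≃+* Qb)
    (fun y hy => by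
      have : A.valuation ((σ.toRingEquiv : Qb ≃+* Qb) y) = A.valuation y :=
        val_apply (hH.le D.mem) y
      rw [this]; exact hy)
    (fun i : Fin p => c i) hcc (fun i => hc σ D.mem i)
    (by rw [hsum]; exact (A.valuation_le_one_iff u).mpr hu)
  rw [hsum] at hy
  have e : σ u - u = (σ π' - π') * y := hy
  have e2 : σ π' - π' = a * π' ^ (t + 1) := by rw [hbreak, pow_succ]; ring
  rw [e, e2, map_mul, map_mul, map_pow]
  calc A.valuation a * A.valuation π' ^ (t + 1) * A.valuation y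
      ≤ 1 * A.valuation π' ^ (t + 1) * 1 := mul_le_mul' (mul_le_mul' ha le_rfl) hy1
    _ = A.valuation π' ^ (t + 1) := by rw [one_mul, mul_one]

include hp hA hζ hH D hπS hπ ha hbreak in
/-- (k3) for the powers of `σ`. -/
theorem val_pow_sigma_sub_le (i : ℕ) {u : Qb} (hu : u ∈ A) (huS : ∀ s ∈ S, s u = u) :
    A.valuation ((σ ^ i) u - u) ≤ A.valuation π' ^ (t + 1) := by
  induction i with
  | zero =>
    rw [pow_zero, AlgEquiv.one_apply, sub_self, map_zero]
    exact zero_le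
  | succ i ih =>
    have e : (σ ^ (i + 1)) u - u = σ ((σ ^ i) u - u) + (σ u - u) := by
      rw [pow_succ', AlgEquiv.mul_apply, map_sub]; ring
    rw [e]
    refine (Valuation.map_add _ _ _).trans (max_le ?_ ?_)
    · rw [val_apply (hH.le D.mem)]; exact ih
    · exact val_sigma_sub_le hp hA hζ hH D hπS hπ ha hbreak hu huS

include hp hA hζ hH D hπS hπ ha hbreak in
/-- **(k3)**: every `τ ∈ H` is the identity on `A ∩ K'` modulo `π'^(t+1)`. -/
theorem val_sub_le_of_S_fixed {τ : GQ} (hτ : τ ∈ H) {u : Qb} (hu : u ∈ A)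
    (huS : ∀ s ∈ S, s u = u) : A.valuation (τ u - u) ≤ A.valuation π' ^ (t + 1) := by
  obtain ⟨i, -, hi⟩ := D.exists_pow_apply hp.pos hτ
  rw [hi u huS]
  exact val_pow_sigma_sub_le hp hA hζ hH D hπS hπ ha hbreak i hu huS

include hp hA hζ hH D hπS hπ hbreak in
/-- **(k5)**: the certificate forces `t + 1 ≤ p`. -/
theorem succ_le_of_cert (ht : 1 ≤ t) (ha1 : A.valuation a = 1) {z : Qb} (hz0 : z ≠ 0)
    (hzS : ∀ s ∈ S, s z = z)
    (hzq : ∃ q : ℚ, A.valuation z = A.valuation (algebraMap ℚ Qb q))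
    (hcert : A.valuation z * A.valuation (ζ - 1) ≤ A.valuation (σ z - z)) : t + 1 ≤ p := by
  have hπ0 : π' ≠ 0 := unif_ne_zero hp hA hζ hπ
  have hπ1 : A.valuation π' < 1 := val_unif_lt_one hp hA hζ hπ
  have hv0 : A.valuation π' ≠ 0 := (Valuation.ne_zero_iff A.valuation).mpr hπ0
  obtain ⟨q, hq⟩ := hzq
  have hq0 : algebraMap ℚ Qb q ≠ 0 := by
    intro h
    rw [h, map_zero] at hq
    exact (Valuation.ne_zero_iff A.valuation).mpr hz0 hq
  obtain ⟨j, hj⟩ := val_eq_zpow_of_fixed hp hA hq0 (fun τ _ => τ.commutes q)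
  -- `v z = v π' ^ (p * ((p-1) * j))`
  have hvp : A.valuation (p : Qb) = A.valuation π' ^ ((p : ℤ) * ((p - 1 : ℕ) : ℤ)) := by
    rw [← val_zeta_sub_one_pow hp hζ, ← hπ, ← pow_mul, ← Nat.cast_mul, zpow_natCast]
  have hvz : A.valuation z = A.valuation π' ^ ((p : ℤ) * (((p - 1 : ℕ) : ℤ) * j)) := by
    rw [hq, hj, hvp, ← zpow_mul, mul_assoc]
  set m : ℤ := ((p - 1 : ℕ) : ℤ) * j with hm
  set u : Qb := z / π' ^ ((p : ℤ) * m) with hu
  have hzp0 : π' ^ ((p : ℤ) * m) ≠ 0 := zpow_ne_zero _ hπ0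
  have hu1 : A.valuation u = 1 := by
    rw [hu, map_div₀, map_zpow₀, hvz, div_self (zpow_ne_zero _ hv0)]
  have huA : u ∈ A := (A.valuation_le_one_iff u).mp hu1.le
  have huS : ∀ s ∈ S, s u = u := by
    intro s hs
    rw [hu, map_div₀, map_zpow₀, hzS s hs, hπS s hs]
  have hzu : u * π' ^ ((p : ℤ) * m) = z := by rw [hu, div_mul_cancel₀ _ hzp0]
  have hk3 : A.valuation ((σ.toRingEquiv : Qb ≃+* Qb) u - u) ≤ A.valuation π' ^ (t + 1) :=
    val_sigma_sub_le hp hA hζ hH D hπS hπ ha1.le hbreak huA huS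
  have hk4 : A.valuation ((σ.toRingEquiv : Qb ≃+* Qb) π' / π' - (1 + a * π' ^ t)) ≤
      A.valuation π' ^ (t + 1) := by
    have : (σ.toRingEquiv : Qb ≃+* Qb) π' / π' - (1 + a * π' ^ t) = 0 := by
      show σ π' / π' - (1 + a * π' ^ t) = 0
      rw [hbreak, mul_div_assoc, mul_comm, div_mul_cancel₀ _ hπ0, sub_self]
    rw [this, map_zero]
    exact zero_le
  have hpv : A.valuation ((p : ℕ) : Qb) ≤ A.valuation π' := by
    rw [← val_zeta_sub_one_pow hp hζ, ← hπ, ← pow_mul]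
    have hn1 : 1 ≤ p * (p - 1) := by
      have := hp.two_le
      have h3 : 1 ≤ p - 1 := by omega
      exact Nat.one_le_iff_ne_zero.mpr (Nat.mul_ne_zero hp.ne_zero (by omega))
    calc A.valuation π' ^ (p * (p - 1)) ≤ A.valuation π' ^ 1 :=
          pow_le_pow_of_le_one zero_le hπ1.le hn1
      _ = A.valuation π' := pow_one _
  refine BreakLe6.succ_le_of_certificate A.valuation (σ.toRingEquiv : Qb ≃+* Qb) ht hπ0 hπ1
    ha1.le hk4 hu1 hk3 hpv m ?_
  rw [hzu, hπ]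
  exact hcert

end Break

include hp hA hζ hH D in
/-- **THE EXIT OF CHAPTER (K)**.  `z` = the break certificate of (L2)(v). -/
theorem tower_exit {z : Qb} (hz0 : z ≠ 0) (hzS : ∀ s ∈ S, s z = z)
    (hzq : ∃ q : ℚ, A.valuation z = A.valuation (algebraMap ℚ Qb q))
    (hcert : A.valuation z * A.valuation (ζ - 1) ≤ A.valuation (σ z - z)) :
    ∃ (π' a : Qb) (t : ℕ),
      (∀ s ∈ S, s π' = π') ∧ (∀ s ∈ S, s a = a) ∧ A.valuation a = 1 ∧
      A.valuation π' ^ p = A.valuation (ζ - 1) ∧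
      (∀ y : Qb, y ≠ 0 → (∀ s ∈ S, s y = y) → ∃ k : ℤ, A.valuation y = A.valuation π' ^ k) ∧
      σ π' = π' * (1 + a * π' ^ t) ∧
      (∀ τ ∈ H, ∀ u ∈ A, (∀ s ∈ S, s u = u) →
        A.valuation (τ u - u) ≤ A.valuation π' ^ (t + 1)) ∧
      1 ≤ t ∧ t ≤ p - 1 := by
  have hσz : σ z ≠ z := by
    intro h
    rw [h, sub_self, map_zero] at hcert
    have h1 : A.valuation z * A.valuation (ζ - 1) ≠ 0 :=
      mul_ne_zero ((Valuation.ne_zero_iff A.valuation).mpr hz0)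
        ((Valuation.ne_zero_iff A.valuation).mpr (zeta_sub_one_ne_zero hp hζ))
    exact h1 (le_antisymm hcert zero_le)
  obtain ⟨π', hπS, hπ⟩ := exists_unif hp hA hζ hH D hzS hσz
  obtain ⟨t, a, ht, ha1, haS, hbreak⟩ := exists_break hp hA hζ hH D hπS hπ
  have h5 := succ_le_of_cert hp hA hζ hH D hπS hπ hbreak ht ha1 hz0 hzS hzq hcert
  refine ⟨π', a, t, hπS, haS, ha1, hπ,
    fun y hy0 hyS => val_eq_zpow_of_S_fixed hp hA hζ hH D hπS hπ hy0 hyS, hbreak,
    fun τ hτ u hu huS => val_sub_le_of_S_fixed hp hA hζ hH D hπS hπ ha1.le hbreak hτ hu huS,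
    ht, by omega⟩

end Fermat.Agent.ES.X44.TowerBreak16
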