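/-
Programme X (S44, spine `X44_SPINE14.md`), chapter (W1), helper6: **the instance-level inputs of
`W1Factor12.locFactor_of_classes` and `FirstOrderLoc22.foHyp_of_locFactor` at THE instance**
`GeoLit12.IX M' p hpM h4M A hA` (whose `G` is `GN M' p A = O1 ⊓ O2` and whose `red` is `redN M' p A`).

(a) `gaussRing_O1`, `gaussRing_O2` : the two Gauss rings `O1 M' p A`, `O2 M' p A` with reductions `rho1`,
    `rho2` are `OrbitPoly22.GaussRing` over `A` with `π := IsLocalRing.residue ↥A`.
(b) `mem_IX_G_iff`, `IX_red_eq` : membership in `IX.G` and the value of `IX.red`, in the exact shapes of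
    the hypotheses `hG`, `hred` of `locFactor_of_classes`.
(c) `unitClosed_IX` : `FirstOrderLoc22.UnitClosed IX.G IX.red`.
(d) `lHyp_FW`, `lHyp_FtW`, `const_of_ord_nonneg_FtW` : `LHyp` of the generic fibre and of the special
    fibre; a function of the special fibre without poles is constant.
(e) ABSTRACT: `exists_of_isRep_isRep` (two representatives of one class differ by a principal divisor,
    function form) and `isRep_smul_sub` (`D` represents `x` ⇒ `g • D - D` represents `g • x - x`).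
-/
import Mathlib
import Fermat.Agent.ES.W33.NodalGauss3
import Fermat.Agent.ES.W33.TauUnitN21
import Fermat.Agent.ES.W33.NodalInst14
import Fermat.Agent.ES.W33.GeoGeneric23
import Fermat.Agent.ES.V19.XiPic5
import Fermat.Agent.ES.X44.GeoLit12
import Fermat.Agent.ES.X44.OrbitPoly22
import Fermat.Agent.ES.X44.FirstOrderLoc22

set_option autoImplicit false
set_option linter.unusedSectionVars false
set_option synthInstance.maxHeartbeats 400000

noncomputable section

open AlgebraicCurve ModularCurve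

namespace Fermat.Agent.ES.X44.W1Gauss6

open Fermat.Agent.ES.W33.XiIfaceN29 Fermat.Agent.ES.W33.GeoNames23
  Fermat.Agent.ES.W33.NodalDefs3 Fermat.Agent.ES.W33.NodalGauss3 Fermat.Agent.ES.W33.TauUnitN21
  Fermat.Agent.ES.X44.GeoLit12 Fermat.Agent.ES.X44.OrbitPoly22 Fermat.Agent.ES.X44.FirstOrderLoc22
  Fermat.Agent.RR.LSpace Fermat.Agent.RED.BASE.Hauptmodul12

attribute [local instance 5000] HahnSeries.powerSeriesAlgebra SubalgebraClass.toAlgebra

local notation "Qb" => AlgebraicClosure ℚ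

/-! ### (e) abstract: representatives of classes -/

section Abstract

variable {K F : Type*} [Field K] [Field F] [Algebra K F]

/-- two representatives of one class differ by the divisor of a function. -/
theorem exists_of_isRep_isRep {y : Pic0 K F} {D₁ D₂ : Divisor K F} (h₁ : IsRep y D₁)
    (h₂ : IsRep y D₂) : ∃ h : F, h ≠ 0 ∧ ∀ P : Place K F, P.ord h = D₁ P - D₂ P := by
  obtain ⟨hd₁, e₁⟩ := h₁
  obtain ⟨hd₂, e₂⟩ := h₂
  have hmk : Pic0.mk (⟨D₁, hd₁⟩ : Divisor.degZero (K := K) (F := F)) = Pic0.mk ⟨D₂, hd₂⟩ := by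
    rw [e₁, e₂]
  obtain ⟨f, hf, hD⟩ := (Fermat.Agent.ES.V19.XiPic5.mk_eq_mk_iff _ _).1 hmk
  refine ⟨f, hf, fun P => ?_⟩
  have h := hD P
  rw [Finsupp.sub_apply] at h
  exact h.symm

/-- if `D` represents `x` then `g • D - D` represents `g • x - x`. -/
theorem isRep_smul_sub (g : SemilinearAut K F) {x : Pic0 K F} {D : Divisor K F}
    (h : IsRep x D) : IsRep (g • x - x) (g • D - D) := by
  obtain ⟨hd, e⟩ := h
  have hg : g • D ∈ Divisor.degZero (K := K) (F := F) := SemilinearAut.smul_mem_degZero g hd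
  refine ⟨(Divisor.degZero (K := K) (F := F)).sub_mem hg hd, ?_⟩
  rw [← e, SemilinearAut.pic0_smul_mk]
  have e1 : (⟨g • D - D, (Divisor.degZero (K := K) (F := F)).sub_mem hg hd⟩ :
      Divisor.degZero (K := K) (F := F)) =
      SemilinearAut.degZeroSMulHom g ⟨D, hd⟩ - ⟨D, hd⟩ := by
    apply Subtype.ext
    rw [AddSubgroup.coe_sub, SemilinearAut.coe_degZeroSMulHom]
  rw [e1]
  rfl

/-- the same with the class of a representative on the right. -/
theorem isRep_smul (g : SemilinearAut K F) {x : Pic0 K F} {D : Divisor K F}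
    (h : IsRep x D) : IsRep (g • x) (g • D) := by
  obtain ⟨hd, e⟩ := h
  refine ⟨SemilinearAut.smul_mem_degZero g hd, ?_⟩
  rw [← e, SemilinearAut.pic0_smul_mk]
  rfl

end Abstract

variable {M' : ℕ} [NeZero M'] {p : ℕ} [Fact p.Prime] {A : ValuationSubring Qb}

/-! ### (a) the two Gauss rings -/

/-- `O1` with `rho1` is a Gauss ring over `A`. -/
theorem gaussRing_O1 :
    GaussRing A (IsLocalRing.residue ↥A) (O1 M' p A) (rho1 M' p A) where
  const_mem := const_mem_O1 M' p A
  rho_const := rho1_const M' p A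
  pi_nonunit := resA_nonunit A
  unit := fun f hf => inv_mem_O1 M' p A f.2 hf

/-- `O2` with `rho2` is a Gauss ring over `A`. -/
theorem gaussRing_O2 :
    GaussRing A (IsLocalRing.residue ↥A) (O2 M' p A) (rho2 M' p A) where
  const_mem := const_mem_O2 M' p A
  rho_const := rho2_const M' p A
  pi_nonunit := resA_nonunit A
  unit := fun f hf => inv_mem_O2 M' p A f.2 hf

/-! ### (b), (c) the ring `G` and the reduction of THE instance -/

section Inst

variable (hpM : ¬ p ∣ M') (h4M : 4 ∣ M') (hA : A.LiesOverPrime p)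

/-- `hG` of `W1Factor12.locFactor_of_classes` at THE instance. -/
theorem mem_IX_G_iff (f : FW p M') :
    f ∈ (IX M' p hpM h4M A hA).G ↔ f ∈ O1 M' p A ∧ f ∈ O2 M' p A :=
  Iff.rfl

/-- `hred` of `W1Factor12.locFactor_of_classes` at THE instance. -/
theorem IX_red_eq (f : FW p M') (hf : f ∈ (IX M' p hpM h4M A hA).G) (hf₁ : f ∈ O1 M' p A)
    (hf₂ : f ∈ O2 M' p A) :
    (IX M' p hpM h4M A hA).red ⟨f, hf⟩ = (rho1 M' p A ⟨f, hf₁⟩, rho2 M' p A ⟨f, hf₂⟩) :=
  rfl

/-- `G` of THE instance contains the inverses of its elements with reduction `1`. -/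
theorem unitClosed_IX :
    UnitClosed (IX M' p hpM h4M A hA).G (IX M' p hpM h4M A hA).red := by
  intro g hg
  have hg' : redN M' p A g = 1 := hg
  refine inv_mem_GN M' p A g.2 ?_ ?_
  · rw [show (⟨(g : FW p M'), g.2⟩ : ↥(GN M' p A)) = g from rfl, hg']
    exact one_ne_zero
  · rw [show (⟨(g : FW p M'), g.2⟩ : ↥(GN M' p A)) = g from rfl, hg']
    exact one_ne_zero

end Inst

/-! ### (d) `LHyp` of the two fibres -/

/-- `LHyp` for the generic fibre `FW p M'` of THE instance. -/
theorem lHyp_FW (h4M : 4 ∣ M') : LHyp Qb (FW p M') := by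
  have : NeZero 4 := ⟨by norm_num⟩
  have : NeZero (M' * p) := ⟨Nat.mul_ne_zero (NeZero.ne M') (Fact.out : p.Prime).ne_zero⟩
  exact (Fermat.Agent.ES.W33.GeoGeneric23.redHypN_main 4 8 (M' * p)
    baseHyp_four (Dvd.dvd.mul_right h4M p)).lhyp

/-- `LHyp` for the special fibre `FtW M' A` of THE instance. -/
theorem lHyp_FtW (hpM : ¬ p ∣ M') (h4M : 4 ∣ M') (hA : A.LiesOverPrime p) :
    LHyp (kW A) (FtW M' A) := by
  have : NeZero 4 := ⟨by norm_num⟩
  exact Fermat.Agent.ES.W33.NodalInst14.lHyp_FtV 4 8 M' p hpM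
    baseHyp_four h4M A hA

/-- a function of the special fibre without poles is constant. -/
theorem const_of_ord_nonneg_FtW (hpM : ¬ p ∣ M') (h4M : 4 ∣ M') (hA : A.LiesOverPrime p)
    (f : FtW M' A) (hf : ∀ Q : Place (kW A) (FtW M' A), 0 ≤ Q.ord f) :
    ∃ c : kW A, f = algebraMap (kW A) (FtW M' A) c :=
  Fermat.Agent.RR.LSpace.eq_algebraMap_of_forall_ord_nonneg (lHyp_FtW hpM h4M hA) hf

end Fermat.Agent.ES.X44.W1Gauss6
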