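/-
Programme X (S44, spine `X44_SPINE14.md`), chapter (W1), leaf (G) "the group theory of the inertia action on
`V = ι(E[p])`" (helper11, for helper12's assembly).  Everything is deduced from the clauses of
`SlopesLit12.W1Input p A V L` (`J = JZero (M' * p)`, `I_A = A.inertiaSubgroupIn ℚ`), `ζ` a primitive `p`-th root
of unity and `H` the stabiliser of `ζ` in `I_A` (`TowerUnif16.AtZeta A ζ H`).

* `H1sub A p`, `atZeta_H1sub` : the subgroup with carrier `SlopesLit12.H1 A p` is `AtZeta`;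
* `stabIn H x` : the stabiliser of `x` in `H`;
* **(G1)** `cycStep_of_moved` : `x ∈ V`, `σ ∈ H`, `σ • x ≠ x` ⇒ `CycStep p H (stabIn H x) σ`;
  `exists_orbit_card` : the `I_A`-orbit of `x` is a finset of cardinality `p`;
* **(G2)** `exists_fixed_add` : `x ∈ V` fixed by `H` ⇒ `x = x₁ + λ₀`, `x₁ ∈ V` fixed by ALL of `I_A`, `λ₀ ∈ L`;
* **(G3)** `le_of_second_diff` : an additive subgroup containing all second differences
  `τ' • (τ • x - x) - (τ • x - x)` (`τ τ' ∈ I_A`, `x ∈ V`) contains `L`.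
-/
import Mathlib
import Fermat.Agent.ES.X44.SlopesLit12
import Fermat.Agent.ES.X44.TowerUnif16

set_option autoImplicit false
set_option linter.unusedSectionVars false
set_option synthInstance.maxHeartbeats 400000

noncomputable section

open ModularCurve

namespace Fermat.Agent.ES.X44.W1Group11

open Fermat.Agent.ES.X44.SlopesLit12 Fermat.Agent.ES.X44.TowerGroup16 Fermat.Agent.ES.X44.TowerUnif16

local notation "Qb" => AlgebraicClosure ℚ
local notation "GQ" => (AlgebraicClosure ℚ ≃ₐ[ℚ] AlgebraicClosure ℚ)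

/-! ### `H₁` as a subgroup -/

/-- a `p`-th root of unity is a power of the primitive one. -/
theorem apply_eq_of_apply_zeta {p : ℕ} (hp : p.Prime) {ζ : Qb} (hζ : IsPrimitiveRoot ζ p) {τ : GQ}
    (hτ : τ ζ = ζ) (ζ' : Qb) (hζ' : ζ' ^ p = 1) : τ ζ' = ζ' := by
  have : NeZero p := ⟨hp.ne_zero⟩
  obtain ⟨i, -, rfl⟩ := hζ.eq_pow_of_pow_eq_one hζ'
  rw [map_pow, hτ]

/-- `H₁` as a subgroup of `G_ℚ`. -/
def H1sub (A : ValuationSubring Qb) (p : ℕ) : Subgroup GQ where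
  carrier := H1 A p
  mul_mem' := fun {a b} ha hb =>
    ⟨Subgroup.mul_mem _ ha.1 hb.1, fun ζ h => by rw [AlgEquiv.mul_apply, hb.2 ζ h, ha.2 ζ h]⟩
  one_mem' := ⟨Subgroup.one_mem _, fun _ _ => rfl⟩
  inv_mem' := fun {a} ha => ⟨Subgroup.inv_mem _ ha.1, fun ζ h => by
    have h1 := ha.2 ζ h
    calc a⁻¹ ζ = a⁻¹ (a ζ) := by rw [h1]
      _ = ζ := by rw [← AlgEquiv.mul_apply, inv_mul_cancel, AlgEquiv.one_apply]⟩

theorem mem_H1sub {A : ValuationSubring Qb} {p : ℕ} {τ : GQ} : τ ∈ H1sub A p ↔ τ ∈ H1 A p := Iff.rfl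

theorem atZeta_H1sub {A : ValuationSubring Qb} {p : ℕ} (hp : p.Prime) {ζ : Qb}
    (hζ : IsPrimitiveRoot ζ p) : AtZeta A ζ (H1sub A p) where
  le := fun _ h => h.1
  fix := fun _ hg => hg.2 ζ hζ.pow_eq_one
  stab := fun _ hg hgζ => ⟨hg, fun ζ' hζ' => apply_eq_of_apply_zeta hp hζ hgζ ζ' hζ'⟩

variable {p M' : ℕ} {A : ValuationSubring Qb} {V L : AddSubgroup (JZero (M' * p))}
  {ζ : Qb} {H : Subgroup GQ}

theorem mem_H1_of_mem (hp : p.Prime) (hζ : IsPrimitiveRoot ζ p) (hH : AtZeta A ζ H) {τ : GQ}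
    (hτ : τ ∈ H) : τ ∈ H1 A p :=
  ⟨hH.le hτ, fun ζ' hζ' => apply_eq_of_apply_zeta hp hζ (hH.fix τ hτ) ζ' hζ'⟩

/-! ### the stabiliser -/

/-- the stabiliser of `x` in `H`. -/
def stabIn (H : Subgroup GQ) (x : JZero (M' * p)) : Subgroup GQ where
  carrier := {τ | τ ∈ H ∧ τ • x = x}
  mul_mem' := fun {a b} ha hb => ⟨Subgroup.mul_mem _ ha.1 hb.1, by rw [mul_smul, hb.2, ha.2]⟩
  one_mem' := ⟨Subgroup.one_mem _, one_smul _ _⟩
  inv_mem' := fun {a} ha => ⟨Subgroup.inv_mem _ ha.1, by rw [inv_smul_eq_iff, ha.2]⟩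

theorem mem_stabIn {x : JZero (M' * p)} {τ : GQ} : τ ∈ stabIn H x ↔ τ ∈ H ∧ τ • x = x := Iff.rfl

/-! ### Bezout -/

theorem bezout_smul {J : Type*} [AddCommGroup J] {a b c : ℤ} (hab : a * (p : ℤ) + b * c = 1) {w : J}
    (hw : p • w = 0) : b • (c • w) = w := by
  have h1 : b * c = 1 - a * (p : ℤ) := by linarith
  rw [smul_smul, h1, sub_smul, one_smul, mul_smul, natCast_zsmul, hw, smul_zero, sub_zero]

theorem exists_bezout (hp : p.Prime) {c : ℤ} (hc : ¬ (p : ℤ) ∣ c) :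
    ∃ a b : ℤ, a * (p : ℤ) + b * c = 1 :=
  ((Nat.prime_iff_prime_int.mp hp).coprime_iff_not_dvd.mpr hc)

/-! ### the first difference is additive on `H` -/

section Diff

variable (hp : p.Prime) (hζ : IsPrimitiveRoot ζ p) (hH : AtZeta A ζ H) (hW : W1Input p A V L)

include hp hζ hH hW

theorem diff_mem {x : JZero (M' * p)} (hx : x ∈ V) {τ : GQ} (hτ : τ ∈ H) : τ • x - x ∈ L :=
  hW.inertia τ (hH.le hτ) x hx

theorem smul_of_mem_L {τ : GQ} (hτ : τ ∈ H) {w : JZero (M' * p)} (hw : w ∈ L) : τ • w = w :=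
  hW.h1fix τ (mem_H1_of_mem hp hζ hH hτ) w hw

theorem diff_mul {x : JZero (M' * p)} (hx : x ∈ V) {τ τ' : GQ} (hτ : τ ∈ H) (hτ' : τ' ∈ H) :
    (τ * τ') • x - x = (τ • x - x) + (τ' • x - x) := by
  have h1 := smul_of_mem_L hp hζ hH hW hτ (diff_mem hp hζ hH hW hx hτ')
  rw [smul_sub] at h1
  rw [mul_smul]
  have h2 : τ • τ' • x = τ' • x - x + τ • x := by rw [← h1]; abel
  rw [h2]; abel

theorem diff_one (x : JZero (M' * p)) : (1 : GQ) • x - x = 0 := by rw [one_smul, sub_self]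

theorem diff_inv {x : JZero (M' * p)} (hx : x ∈ V) {τ : GQ} (hτ : τ ∈ H) :
    τ⁻¹ • x - x = -(τ • x - x) := by
  have h1 := diff_mul hp hζ hH hW hx hτ (Subgroup.inv_mem _ hτ)
  rw [mul_inv_cancel, one_smul, sub_self] at h1
  exact eq_neg_of_add_eq_zero_right h1.symm

theorem diff_pow {x : JZero (M' * p)} (hx : x ∈ V) {τ : GQ} (hτ : τ ∈ H) (n : ℕ) :
    (τ ^ n) • x - x = n • (τ • x - x) := by
  induction n with
  | zero => rw [pow_zero, one_smul, sub_self, zero_nsmul]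
  | succ n ih =>
    rw [pow_succ, diff_mul hp hζ hH hW hx (Subgroup.pow_mem _ hτ n) hτ, ih, succ_nsmul]

/-- **(G1), the cyclic step.** -/
theorem cycStep_of_moved {x : JZero (M' * p)} (hx : x ∈ V) {σ : GQ} (hσ : σ ∈ H)
    (hσx : σ • x ≠ x) : CycStep p H (stabIn H x) σ := by
  have hw0 : σ • x - x ≠ 0 := sub_ne_zero.mpr hσx
  have hw0L : σ • x - x ∈ L := diff_mem hp hζ hH hW hx hσ
  refine ⟨fun τ hτ => hτ.1, ?_, hσ, ?_, ?_⟩
  · intro h hh s hs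
    refine ⟨Subgroup.mul_mem _ (Subgroup.mul_mem _ hh hs.1) (Subgroup.inv_mem _ hh), ?_⟩
    have h1 := diff_mul hp hζ hH hW hx (Subgroup.mul_mem _ hh hs.1) (Subgroup.inv_mem _ hh)
    rw [diff_mul hp hζ hH hW hx hh hs.1, diff_inv hp hζ hH hW hx hh, hs.2, sub_self, add_zero,
      add_neg_cancel] at h1
    exact sub_eq_zero.mp h1
  · intro τ hτ
    obtain ⟨n, hn⟩ := hW.cyc _ hw0L hw0 _ (diff_mem hp hζ hH hW hx hτ)
    have hσn : σ ^ n ∈ H := Subgroup.pow_mem _ hσ n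
    refine ⟨n, (σ ^ n)⁻¹ * τ, ⟨Subgroup.mul_mem _ (Subgroup.inv_mem _ hσn) hτ, ?_⟩,
      (mul_inv_cancel_left _ _).symm⟩
    have h1 := diff_mul hp hζ hH hW hx (Subgroup.inv_mem _ hσn) hτ
    rw [diff_inv hp hζ hH hW hx hσn, diff_pow hp hζ hH hW hx hσ, hn, neg_add_cancel] at h1
    exact sub_eq_zero.mp h1
  · refine ⟨Subgroup.pow_mem _ hσ p, ?_⟩
    have h1 := diff_pow hp hζ hH hW hx hσ p
    rw [hW.ptors _ (hW.le hw0L)] at h1
    exact sub_eq_zero.mp h1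

/-- **(G1), the orbit**: the `I_A`-orbit of a moved `x` has exactly `p` elements. -/
theorem exists_orbit_card {x : JZero (M' * p)} (hx : x ∈ V) {σ : GQ} (hσ : σ ∈ H)
    (hσx : σ • x ≠ x) :
    ∃ T : Finset (JZero (M' * p)),
      (∀ y, y ∈ T ↔ ∃ τ ∈ A.inertiaSubgroupIn ℚ, τ • x = y) ∧ T.card = p := by
  classical
  have hw0 : σ • x - x ≠ 0 := sub_ne_zero.mpr hσx
  have hw0L : σ • x - x ∈ L := diff_mem hp hζ hH hW hx hσ
  have hpw : p • (σ • x - x) = 0 := hW.ptors _ (hW.le hw0L)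
  have : Fact p.Prime := ⟨hp⟩
  have hord : addOrderOf (σ • x - x) = p := addOrderOf_eq_prime hpw hw0
  refine ⟨(Finset.range p).image (fun n : ℕ => x + n • (σ • x - x)), ?_, ?_⟩
  · intro y
    rw [Finset.mem_image]
    constructor
    · rintro ⟨n, -, rfl⟩
      refine ⟨σ ^ n, hH.le (Subgroup.pow_mem _ hσ n), ?_⟩
      rw [← diff_pow hp hζ hH hW hx hσ n]; abel
    · rintro ⟨τ, hτ, rfl⟩
      obtain ⟨n, hn⟩ := hW.cyc _ hw0L hw0 _ (hW.inertia τ hτ x hx)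
      refine ⟨n % p, Finset.mem_range.mpr (Nat.mod_lt _ hp.pos), ?_⟩
      have h1 : (n % p) • (σ • x - x) = n • (σ • x - x) := by
        conv_rhs => rw [← Nat.mod_add_div n p, add_nsmul, mul_nsmul, hpw, smul_zero, add_zero]
      rw [h1, ← hn]; abel
  · rw [Finset.card_image_of_injOn, Finset.card_range]
    intro n hn m hm hnm
    have h1 : n • (σ • x - x) = m • (σ • x - x) := add_left_cancel hnm
    have hinj := nsmul_injOn_Iio_addOrderOf (x := σ • x - x)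
    rw [hord] at hinj
    exact hinj (Finset.mem_range.mp hn) (Finset.mem_range.mp hm) h1

/-- the commutator of two elements of `I_A` fixes `ζ`. -/
theorem comm_apply_zeta (σ τ : GQ) : (σ * τ) ζ = (τ * σ) ζ := by
  have : NeZero p := ⟨hp.ne_zero⟩
  have hσ : (σ ζ) ^ p = 1 := by rw [← map_pow, hζ.pow_eq_one, map_one]
  have hτ : (τ ζ) ^ p = 1 := by rw [← map_pow, hζ.pow_eq_one, map_one]
  obtain ⟨a, -, ha⟩ := hζ.eq_pow_of_pow_eq_one hσ
  obtain ⟨b, -, hb⟩ := hζ.eq_pow_of_pow_eq_one hτ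
  rw [AlgEquiv.mul_apply, AlgEquiv.mul_apply, ← ha, ← hb, map_pow, map_pow, ← ha, ← hb, ← pow_mul,
    ← pow_mul, mul_comm]

/-- **(G2)**: an `H`-fixed `x ∈ V` is an `I_A`-fixed element of `V` plus an element of `L`. -/
theorem exists_fixed_add {x : JZero (M' * p)} (hx : x ∈ V) (hfix : ∀ τ ∈ H, τ • x = x) :
    ∃ x₁ ∈ V, ∃ l₀ ∈ L, x = x₁ + l₀ ∧ ∀ τ ∈ A.inertiaSubgroupIn ℚ, τ • x₁ = x₁ := by
  obtain ⟨τ', hτ', c, hc, htw⟩ := hW.twist
  obtain ⟨a, b, hab⟩ := exists_bezout hp hc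
  have hdL : τ' • x - x ∈ L := hW.inertia τ' hτ' x hx
  have hpd : p • (τ' • x - x) = 0 := hW.ptors _ (hW.le hdL)
  set l₀ : JZero (M' * p) := b • (τ' • x - x) with hl₀
  have hl₀L : l₀ ∈ L := L.zsmul_mem hdL b
  have hx₁V : x - l₀ ∈ V := V.sub_mem hx (hW.le hl₀L)
  -- `τ'` fixes `x₁`
  have hcl : c • l₀ = τ' • x - x := by
    rw [hl₀, smul_comm]; exact bezout_smul hab hpd
  have hτ'x₁ : τ' • (x - l₀) = x - l₀ := by
    have h1 := htw l₀ hl₀L
    rw [hcl] at h1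
    rw [smul_sub]
    have h2 : τ' • l₀ = τ' • x - x + l₀ := by rw [← h1]; abel
    rw [h2]; abel
  refine ⟨x - l₀, hx₁V, l₀, hl₀L, by abel, ?_⟩
  intro σ hσ
  -- `μ := σ x₁ - x₁ ∈ L`
  have hμL : σ • (x - l₀) - (x - l₀) ∈ L := hW.inertia σ hσ _ hx₁V
  have hpμ : p • (σ • (x - l₀) - (x - l₀)) = 0 := hW.ptors _ (hW.le hμL)
  -- the commutator lies in `H`, hence fixes `x₁`
  have hgI : (τ' * σ)⁻¹ * (σ * τ') ∈ A.inertiaSubgroupIn ℚ :=
    Subgroup.mul_mem _ (Subgroup.inv_mem _ (Subgroup.mul_mem _ hτ' hσ)) (Subgroup.mul_mem _ hσ hτ')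
  have hgζ : ((τ' * σ)⁻¹ * (σ * τ')) ζ = ζ := by
    rw [AlgEquiv.mul_apply, comm_apply_zeta hp hζ hH hW σ τ', ← AlgEquiv.mul_apply, inv_mul_cancel,
      AlgEquiv.one_apply]
  have hgH : (τ' * σ)⁻¹ * (σ * τ') ∈ H := hH.stab _ hgI hgζ
  have hgx₁ : ((τ' * σ)⁻¹ * (σ * τ')) • (x - l₀) = x - l₀ := by
    rw [smul_sub, hfix _ hgH, smul_of_mem_L hp hζ hH hW hgH hl₀L]
  have hcomm : (σ * τ') • (x - l₀) = (τ' * σ) • (x - l₀) := by
    have h1 := congrArg (fun y => (τ' * σ) • y) hgx₁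
    simp only [smul_smul, mul_inv_cancel_left] at h1
    exact h1
  rw [mul_smul, mul_smul, hτ'x₁] at hcomm
  -- `τ' μ - μ = c μ` and `τ' (σ x₁) = σ x₁` give `c μ = 0`
  have h3 := htw _ hμL
  rw [smul_sub, ← hcomm, hτ'x₁, sub_self] at h3
  have h4 := bezout_smul hab hpμ (c := c)
  rw [← h3, smul_zero] at h4
  exact sub_eq_zero.mp h4.symm

/-- **(G3)**: `L` is generated by second differences. -/
theorem le_of_second_diff (J1 : AddSubgroup (JZero (M' * p)))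
    (h2 : ∀ τ ∈ A.inertiaSubgroupIn ℚ, ∀ τ' ∈ A.inertiaSubgroupIn ℚ, ∀ x ∈ V,
      τ' • (τ • x - x) - (τ • x - x) ∈ J1) : L ≤ J1 := by
  obtain ⟨τ', hτ', c, hc, htw⟩ := hW.twist
  obtain ⟨a, b, hab⟩ := exists_bezout hp hc
  by_cases hex : ∃ σ ∈ A.inertiaSubgroupIn ℚ, ∃ x ∈ V, σ • x - x ≠ 0
  · obtain ⟨σ, hσ, x, hx, hw0⟩ := hex
    have hw0L : σ • x - x ∈ L := hW.inertia σ hσ x hx
    have hpw : p • (σ • x - x) = 0 := hW.ptors _ (hW.le hw0L)
    have h1 : c • (σ • x - x) ∈ J1 := by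
      rw [← htw _ hw0L]; exact h2 σ hσ τ' hτ' x hx
    have h3 : σ • x - x ∈ J1 := by
      rw [← bezout_smul hab hpw (c := c)]; exact J1.zsmul_mem h1 b
    intro w hw
    obtain ⟨n, rfl⟩ := hW.cyc _ hw0L hw0 w hw
    exact J1.nsmul_mem h3 n
  · push Not at hex
    intro w hw
    have hpw : p • w = 0 := hW.ptors _ (hW.le hw)
    have h1 := htw w hw
    rw [hex τ' hτ' w (hW.le hw)] at h1
    have h3 := bezout_smul hab hpw (c := c)
    rw [← h1, smul_zero] at h3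
    rw [← h3]; exact J1.zero_mem

end Diff

end Fermat.Agent.ES.X44.W1Group11
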