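/-
Programme X (S44, spine `X44_SPINE14.md`), chapter (W1) "equal slopes" (helper12):
**`L ≤ J¹`** — the line `L = ι(L)` of (L2) lies in the kernel of reduction `j1N I.nodes I.r` of the nodal
instance.  (Ga) at the instance (`GeoJoinGa23.gaExit_of_inst`: all second differences of torsion classes
under the inertia group lie in `J¹`) + `W1Group11.le_of_second_diff`.
-/
import Mathlib
import Fermat.Agent.ES.W33.GeoW23
import Fermat.Agent.ES.X44.GeoLit12
import Fermat.Agent.ES.X44.W1Group11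

set_option autoImplicit false
set_option linter.unusedSectionVars false
set_option linter.style.haveILetI false
set_option synthInstance.maxHeartbeats 400000

noncomputable section

open AlgebraicCurve ModularCurve

namespace Fermat.Agent.ES.X44.W1JOne12

open IntermediateField
open Fermat.Agent.X0 Fermat.Agent.X0.FF Fermat.Agent.RED.Interface4 Fermat.Agent.RED.BASE
  Fermat.Agent.RED.BASE.Hauptmodul12 Fermat.Agent.ES.RED Fermat.Agent.ES.RED.Contract8
  Fermat.Agent.ES.V19.InstNames3 Fermat.Agent.ES.V19.XiEqvInst29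
  Fermat.Agent.ES.W33.XiIfaceN29 Fermat.Agent.ES.W33.PrinN29 Fermat.Agent.ES.W33.J1DivN29
  Fermat.Agent.ES.W33.GeoNames23 Fermat.Agent.ES.W33.GeoJoin23 Fermat.Agent.ES.W33.GeoJoinGa23
  Fermat.Agent.ES.W33.GeoGeneric23 Fermat.Agent.ES.W33.ChartPtsLe23 Fermat.Agent.ES.W33.GeoW23
  Fermat.Agent.ES.W33.RedDatum27 Fermat.Agent.ES.W33.RedDatumXi27
  Fermat.Agent.ES.W33.GeoJoinCore23
  Fermat.Agent.ES.X44.SlopesLit12 Fermat.Agent.ES.X44.W1Group11

attribute [local instance 5000] HahnSeries.powerSeriesAlgebra SubalgebraClass.toAlgebra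

local notation "Qb" => AlgebraicClosure ℚ
local notation "GQ" => (AlgebraicClosure ℚ ≃ₐ[ℚ] AlgebraicClosure ℚ)

variable {p M' : ℕ} {A : ValuationSubring Qb} {I : NodalInst p M' A}

/-- **(Ga) at the instance, on the explicit `J¹`**: the second differences of torsion classes under the
inertia group lie in `j1N I.nodes I.r`. -/
theorem secondDiff_mem_j1N (n e M' : ℕ) [NeZero n] [NeZero M'] (p : ℕ) [Fact p.Prime]
    (hpM : ¬ p ∣ M') (hb : BaseHyp n e) (hnM : n ∣ M') (A : ValuationSubring Qb)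
    (hA : A.LiesOverPrime p) {I : NodalInst p M' A} (H : InstInput I) :
    ∀ τ ∈ A.inertiaSubgroupIn ℚ, ∀ τ' ∈ A.inertiaSubgroupIn ℚ, ∀ x : JZero (M' * p),
      (∃ m : ℕ, (p ^ m) • x = 0) → τ' • (τ • x - x) - (τ • x - x) ∈ j1N I.nodes I.r := by
  classical
  have hI := H.hyp
  have hin := inputs0V n e M' p hpM hb hnM A hA
  have hr := hrV n e M' p hpM hb hnM A hA
  have : IsAlgClosed (kA A) := isAlgClosed_kA A
  have HL := Fermat.Agent.ES.V19.LHypFt13.lHyp_Ft n e M' p hpM (tMem_of_dvd hb hnM)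
    (tGenBase' hb) A hA hr
  have hR := Fermat.Agent.ES.V19.LHypFt13.riemann_inequality_Ft n e M' p hpM
    (tMem_of_dvd hb hnM) (tGenBase' hb) A hA hr
  have : Infinite (Place (kW A) (FtW M' A)) :=
    Fermat.Agent.ES.V19.GoodCofinite16.infinite_place hin.gent hin.sep
  have : NeZero (M' * p) := ⟨Nat.mul_ne_zero (NeZero.ne M') (Fact.out : p.Prime).ne_zero⟩
  have HR := redHypN_main n e (M' * p) hb (Dvd.dvd.mul_right hnM p)
  obtain ⟨Qbar, hinj, -, hmem, hconst⟩ := exists_chart_points_le HL hR HL hR H.b1.1 I.nodes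
    hI.nodes_inj (goodOne_infinite hI) (goodOne_ne_node hI) (goodTwo_infinite hI)
    (goodTwo_ne_node hI) H.b1.2
  have hgood : ∀ i, I.Good (Qbar i) := fun i => by
    rcases hmem i with ⟨Q, hQ, h⟩ | ⟨Q, hQ, h⟩
    · rw [h]; exact hQ
    · rw [h]; exact hQ
  obtain ⟨Qs₁, hQs₁, hQs₁ne⟩ :
      ∃ Q ∈ goodOne I, Q ∉ (Finset.univ.image fun i => Qbar i).preimage Sum.inl
        Sum.inl_injective.injOn :=
    (goodOne_infinite hI).exists_notMem_finset _
  have hQs : I.Good (Sum.inl Qs₁) := hQs₁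
  have hne : ∀ i, (Sum.inl Qs₁ : SPtW M' A) ≠ Qbar i := fun i h => by
    apply hQs₁ne
    rw [Finset.mem_preimage, Finset.mem_image]
    exact ⟨i, Finset.mem_univ i, h.symm⟩
  have Hχ := chartHypN_of hI hinj hgood hconst hQs hne
  intro τ hτ τ' hτ' x hx
  exact gaExit_of_inst hI HR H.ib H.ic _ Hχ τ hτ τ' hτ' x hx

/-- **`L ≤ J¹`.** -/
theorem L_le_j1N (M' : ℕ) [NeZero M'] (p : ℕ) [Fact p.Prime] (hpM : ¬ p ∣ M')
    (h4M : 4 ∣ M') (A : ValuationSubring Qb) (hA : A.LiesOverPrime p) (hp2 : p ≠ 2)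
    {V L : AddSubgroup (JZero (M' * p))} (hW : W1Input p A V L) :
    L ≤ j1N (Fermat.Agent.ES.X44.GeoLit12.IX M' p hpM h4M A hA).nodes
      (Fermat.Agent.ES.X44.GeoLit12.IX M' p hpM h4M A hA).r := by
  have hp : p.Prime := Fact.out
  obtain ⟨ζ, hζ⟩ : ∃ ζ : Qb, IsPrimitiveRoot ζ p := by
    have : NeZero p := ⟨hp.ne_zero⟩
    exact HasEnoughRootsOfUnity.exists_primitiveRoot Qb p
  have : NeZero 4 := ⟨by norm_num⟩
  have H := Fermat.Agent.ES.X44.GeoLit12.instInput_IX M' p hpM h4M A hA hp2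
  refine le_of_second_diff hp hζ (atZeta_H1sub hp hζ) hW _ fun τ hτ τ' hτ' x hx => ?_
  exact secondDiff_mem_j1N 4 8 M' p hpM baseHyp_four h4M A hA H τ hτ τ' hτ' x
    ⟨1, by rw [pow_one]; exact hW.ptors x hx⟩

end Fermat.Agent.ES.X44.W1JOne12
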