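/-
Programme X (S44, spine `X44_SPINE14.md`), chapter (W1) "equal slopes", leaf (b,c) "local factors",
part 5 (helper12): **THE CLASS DATA AT THE NODAL INSTANCE** — from helper17's `IsNodeCoordW` and the
`IsSmoothCoord` of `SmoothCoordLit12` to the hypotheses `hsm`, `hnd` of `W1Factor12.locFactor_of_classes`.

`I : NodalInst p M' A` any instance with `NodalInstHyp I`, `σ` in the inertia group `I_A`, `S ⊆ I_A`;
`g := aG p M' σ`, `actSet p M' S := aG p M' '' S`.

* `xiOf I X W`     : THE value function (values of the node coordinate `X z` through the node `z`, of the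
                     smooth coordinate `W Q` on the disc of `Q`), chosen once;
* `coordOf X W`    : the coordinate of a residue class;
* `coordAt_node`, `coordAt_smooth` : `ClassSigned12.CoordAt` for the two kinds of classes;
* `node_data`, `smooth_data`       : the remaining clauses of `hnd`, `hsm` (the second node coordinate
                     `y = p / X z`, a unit of `O2`).
-/
import Mathlib
import Fermat.Agent.ES.W33.GeoLeaves23
import Fermat.Agent.ES.X44.NodeCoordWLit17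
import Fermat.Agent.ES.X44.SmoothCoordLit12
import Fermat.Agent.ES.X44.ClassSigned12

set_option autoImplicit false
set_option linter.unusedSectionVars false
set_option synthInstance.maxHeartbeats 400000

noncomputable section

open AlgebraicCurve ModularCurve

namespace Fermat.Agent.ES.X44.W1Class12

open Fermat.Agent.ES.W33.XiIfaceN29 Fermat.Agent.ES.W33.GeoNames23 Fermat.Agent.ES.W33.GeoJoinGa23
  Fermat.Agent.ES.W33.NodalDefs3 Fermat.Agent.ES.X44.NodeCoordWLit17
  Fermat.Agent.ES.X44.SmoothCoordLit12 Fermat.Agent.ES.X44.ClassSigned12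
  Fermat.Agent.ES.X44.OrbitPoly22

attribute [local instance 5000] HahnSeries.powerSeriesAlgebra SubalgebraClass.toAlgebra

local notation "Qb" => AlgebraicClosure ℚ
local notation "GQ" => (AlgebraicClosure ℚ ≃ₐ[ℚ] AlgebraicClosure ℚ)

variable {M' : ℕ} [NeZero M'] {p : ℕ} [Fact p.Prime] {A : ValuationSubring Qb}

/-- the semilinear automorphisms of the elements of `S`. -/
def actSet (p M' : ℕ) (S : Set GQ) : Set (SemilinearAut Qb (FW p M')) :=
  (fun τ => aG p M' τ) '' S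

theorem not_isUnit_of_mem_nonunits {a : Qb} (ha : a ∈ A.nonunits) (h : a ∈ A) :
    ¬ IsUnit (⟨a, h⟩ : ↥A) := by
  obtain ⟨h', hm⟩ := ValuationSubring.mem_nonunits_iff_exists_mem_maximalIdeal.mp ha
  exact (mem_nonunits_iff.mp ((IsLocalRing.mem_maximalIdeal _).mp hm))

/-- the value clause at a node. -/
def NodeVal (I : NodalInst p M' A) (z : Fin I.s) (x : FW p M') (P : Place Qb (FW p M'))
    (a : Qb) : Prop :=
  a ≠ 0 ∧ a ∈ A.nonunits ∧ (p : Qb) / a ∈ A.nonunits ∧
    P.ord (x - algebraMap Qb (FW p M') a) = 1 ∧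
    ∀ P' : Place Qb (FW p M'), I.r P' = Sum.inr z → P' ≠ P →
      P'.ord (x - algebraMap Qb (FW p M') a) = 0

/-- the value clause at a smooth point. -/
def SmoothVal (I : NodalInst p M' A) (Q : SPtW M' A) (w : FW p M') (P : Place Qb (FW p M'))
    (a : Qb) : Prop :=
  a ∈ A.nonunits ∧ P.ord (w - algebraMap Qb (FW p M') a) = 1 ∧
    ∀ P' : Place Qb (FW p M'), I.r P' = Sum.inl Q → P' ≠ P →
      P'.ord (w - algebraMap Qb (FW p M') a) = 0

open Classical in
/-- **THE value function.** -/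
def xiOf (I : NodalInst p M' A) (X : Fin I.s → FW p M') (W : SPtW M' A → FW p M')
    (P : Place Qb (FW p M')) : Qb :=
  Sum.elim (fun Q => if h : ∃ a, SmoothVal I Q (W Q) P a then h.choose else 0)
    (fun z => if h : ∃ a, NodeVal I z (X z) P a then h.choose else 0) (I.r P)

/-- the coordinate of a residue class. -/
def coordOf {s : ℕ} (X : Fin s → FW p M') (W : SPtW M' A → FW p M') :
    SPtW M' A ⊕ Fin s → FW p M' :=
  Sum.elim W X

variable {I : NodalInst p M' A} {X : Fin I.s → FW p M'} {W : SPtW M' A → FW p M'}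

theorem xiOf_node {z : Fin I.s} (hX : IsNodeCoordW I z (X z)) {P : Place Qb (FW p M')}
    (hP : I.r P = Sum.inr z) : NodeVal I z (X z) P (xiOf I X W P) := by
  have h : ∃ a, NodeVal I z (X z) P a := hX.val P hP
  unfold xiOf
  rw [hP, Sum.elim_inr, dif_pos h]
  exact h.choose_spec

theorem xiOf_smooth {Q : SPtW M' A} (hW : IsSmoothCoord I Q (W Q)) {P : Place Qb (FW p M')}
    (hP : I.r P = Sum.inl Q) : SmoothVal I Q (W Q) P (xiOf I X W P) := by
  have h : ∃ a, SmoothVal I Q (W Q) P a := hW.val P hP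
  unfold xiOf
  rw [hP, Sum.elim_inl, dif_pos h]
  exact h.choose_spec

/-- `CoordAt` at a node. -/
theorem coordAt_node {z : Fin I.s} (hX : IsNodeCoordW I z (X z)) {σ : GQ}
    (hσ : σ ∈ A.inertiaSubgroupIn ℚ) {S : Set GQ} (hS : S ⊆ A.inertiaSubgroupIn ℚ) :
    CoordAt A I.r (aG p M' σ) (actSet p M' S) (Sum.inr z) (coordOf X W (Sum.inr z))
      (xiOf I X W) where
  fix_g := hX.fix σ hσ
  fix_S := by
    rintro _ ⟨τ, hτ, rfl⟩
    exact hX.fix τ (hS hτ)
  mem := fun P hP => A.nonunits_subset (xiOf_node hX hP).2.1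
  nonunit := fun P hP => not_isUnit_of_mem_nonunits (xiOf_node hX hP).2.1 _
  ord_one := fun P hP => (xiOf_node hX hP).2.2.2.1
  ord_zero := fun P P' hP hP' hne => (xiOf_node hX hP).2.2.2.2 P' hP' hne

/-- `CoordAt` at a smooth point. -/
theorem coordAt_smooth {Q : SPtW M' A} (hW : IsSmoothCoord I Q (W Q)) {σ : GQ}
    (hσ : σ ∈ A.inertiaSubgroupIn ℚ) {S : Set GQ} (hS : S ⊆ A.inertiaSubgroupIn ℚ) :
    CoordAt A I.r (aG p M' σ) (actSet p M' S) (Sum.inl Q) (coordOf X W (Sum.inl Q))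
      (xiOf I X W) where
  fix_g := hW.fix σ hσ
  fix_S := by
    rintro _ ⟨τ, hτ, rfl⟩
    exact hW.fix τ (hS hτ)
  mem := fun P hP => A.nonunits_subset (xiOf_smooth hW hP).1
  nonunit := fun P hP => not_isUnit_of_mem_nonunits (xiOf_smooth hW hP).1 _
  ord_one := fun P hP => (xiOf_smooth hW hP).2.1
  ord_zero := fun P P' hP hP' hne => (xiOf_smooth hW hP).2.2 P' hP' hne

/-- the reduction of places is invariant under the inertia group (for `g` and for `S`). -/
theorem r_smul_act (hI : NodalInstHyp I) {S : Set GQ} (hS : S ⊆ A.inertiaSubgroupIn ℚ) :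
    ∀ s' ∈ actSet p M' S, ∀ P, I.r (s' • P) = I.r P := by
  rintro _ ⟨τ, hτ, rfl⟩ P
  exact hI.r_smul_inertia τ (hS hτ) P

/-- the base automorphism of `aG p M' τ` is `τ`. -/
theorem baseAut_aG (τ : GQ) (a : Qb) : SemilinearAut.baseAut (aG p M' τ) a = τ a := by
  unfold aG
  rw [baseAut_arithmeticGalois]
  rfl

/-- the elements of `actSet` fix `p`. -/
theorem baseAut_natCast {S : Set GQ} (n : ℕ) :
    ∀ s' ∈ actSet p M' S, SemilinearAut.baseAut s' (n : Qb) = (n : Qb) := by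
  rintro _ ⟨τ, -, rfl⟩
  rw [baseAut_aG, map_natCast]

/-- the remaining node data: the second coordinate `y = p / X z`. -/
theorem node_data (h₂ : GaussRing A (IsLocalRing.residue ↥A) (O2 M' p A) (rho2 M' p A))
    {z : Fin I.s} (hX : IsNodeCoordW I z (X z)) {σ : GQ} (hσ : σ ∈ A.inertiaSubgroupIn ℚ) :
    (∃ h : coordOf X W (Sum.inr z) ∈ O1 M' p A, rho1 M' p A ⟨_, h⟩ ≠ 0) ∧
    ∃ y : FW p M', (∃ h : y ∈ O2 M' p A, rho2 M' p A ⟨y, h⟩ ≠ 0) ∧ aG p M' σ • y = y ∧
      coordOf X W (Sum.inr z) * y = algebraMap Qb (FW p M') (p : Qb) ∧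
      (∀ P, I.r P = Sum.inr z → xiOf I X W P ≠ 0) ∧
      ∃ hη : ∀ P, I.r P = Sum.inr z → (p : Qb) / xiOf I X W P ∈ A,
        ∀ P (h : I.r P = Sum.inr z), ¬ IsUnit (⟨(p : Qb) / xiOf I X W P, hη P h⟩ : ↥A) := by
  refine ⟨hX.g1w, ?_⟩
  obtain ⟨hm, hu⟩ := hX.g2
  obtain ⟨hx1, hxu⟩ := hX.g1w
  have hx0 : X z ≠ 0 := by
    rintro h0
    apply hxu
    have : (⟨X z, hx1⟩ : ↥(O1 M' p A)) = 0 := Subtype.ext h0
    rw [this, map_zero]
  have hp0 : (p : Qb) ≠ 0 := Nat.cast_ne_zero.mpr (Fact.out : p.Prime).ne_zero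
  have hpF : algebraMap Qb (FW p M') (p : Qb) ≠ 0 := (map_ne_zero _).mpr hp0
  have hf0 : (algebraMap Qb (FW p M') (p : Qb))⁻¹ * X z ≠ 0 := mul_ne_zero (inv_ne_zero hpF) hx0
  have hinv : ((algebraMap Qb (FW p M') (p : Qb))⁻¹ * X z)⁻¹ ∈ O2 M' p A := h₂.unit ⟨_, hm⟩ hu
  refine ⟨((algebraMap Qb (FW p M') (p : Qb))⁻¹ * X z)⁻¹, ⟨hinv, ?_⟩, ?_, ?_,
    fun P hP => (xiOf_node hX hP).1,
    fun P hP => A.nonunits_subset (xiOf_node hX hP).2.2.1,
    fun P hP => not_isUnit_of_mem_nonunits (xiOf_node hX hP).2.2.1 _⟩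
  · intro h0
    have h1 : rho2 M' p A ⟨_, hm⟩ * rho2 M' p A ⟨_, hinv⟩ = 1 := by
      rw [← map_mul]
      have : (⟨_, hm⟩ : ↥(O2 M' p A)) * ⟨_, hinv⟩ = 1 := Subtype.ext (mul_inv_cancel₀ hf0)
      rw [this, map_one]
    rw [h0, mul_zero] at h1
    exact zero_ne_one h1
  · have hfix : aG p M' σ • X z = X z := hX.fix σ hσ
    have hpfix : aG p M' σ • algebraMap Qb (FW p M') (p : Qb) = algebraMap Qb (FW p M') (p : Qb) := by
      rw [SemilinearAut.smul_algebraMap, baseAut_aG, map_natCast]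
    simp only [SemilinearAut.smul_def] at hfix hpfix ⊢
    rw [map_inv₀, map_mul, map_inv₀, hfix, hpfix]
  · show X z * ((algebraMap Qb (FW p M') (p : Qb))⁻¹ * X z)⁻¹ = _
    rw [mul_inv, inv_inv, mul_comm (algebraMap Qb (FW p M') (p : Qb)), ← mul_assoc,
      mul_inv_cancel₀ hx0, one_mul]

/-- the remaining smooth data. -/
theorem smooth_data {Q : SPtW M' A} (hW : IsSmoothCoord I Q (W Q)) :
    (∃ h : coordOf X W (Sum.inl Q) ∈ O1 M' p A, rho1 M' p A ⟨_, h⟩ ≠ 0) ∧
    ∃ h : coordOf X W (Sum.inl Q) ∈ O2 M' p A, rho2 M' p A ⟨_, h⟩ ≠ 0 :=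
  ⟨hW.u1, hW.u2⟩

end Fermat.Agent.ES.X44.W1Class12
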