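/-
Programme X (S44, spine `X44_SPINE14.md`), chapter (W1) "equal slopes", leaf (b,c) "local factors",
part 4 (helper12): **`FirstOrderLoc22.LocFactor` FROM THE CLASS FACTORS** (abstract, `RedCtxN` vocabulary).

`g` (the element `σ`) and the set `S` (the stabiliser) act through semilinear automorphisms preserving the
reduction `r` of places; `D` is an `S`-stable divisor, `Y` a divisor off the nodes (the pairs of the class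
`y = σ x - x ∈ J¹`) with local factors `η_Q = 1 + ϖ^(t+1) ψ`; `h ≠ 0` with `div h = g • D - D - Y`.
Every smooth point and every node has a coordinate (`ClassSigned12.CoordAt`) which is a unit of both
Gauss rings, resp. a node coordinate `x · y = π₀`; (k3) holds modulo `ϖ^(t+1)`, and the node constants
`N_z^± = ∏ (-ξ P) ^ D^± P` satisfy `g N / N = 1 + ϖ^t (κ^± z + ϖ d)`.

THEN `LocFactor N G red r ϖ t h κ` with `κ z = π (κ⁺ z) - π (κ⁻ z)`.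
-/
import Mathlib
import Fermat.Agent.ES.X44.ClassSigned12
import Fermat.Agent.ES.X44.FirstOrderLoc22

set_option autoImplicit false

noncomputable section

namespace Fermat.Agent.ES.X44.W1Factor12

open Polynomial AlgebraicCurve Fermat.Agent.ES.X44.OrbitPoly22 Fermat.Agent.X0.FF
  Fermat.Agent.ES.X44.ClassFactor12 Fermat.Agent.ES.X44.ClassSigned12
  Fermat.Agent.ES.W33.XiIfaceN29 Fermat.Agent.ES.X44.FirstOrderLoc22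

variable {K F k Ft₁ Ft₂ : Type*} [Field K] [Field F] [Algebra K F] [Field k]
  [Field Ft₁] [Algebra k Ft₁] [Field Ft₂] [Algebra k Ft₂]
  {s : ℕ} {A : ValuationSubring K} {π : ↥A →+* k} {N : Nodes k Ft₁ Ft₂ s} {G : Subring F}
  {red : ↥G →+* Ft₁ × Ft₂} {r : Place K F → SPt k Ft₁ Ft₂ ⊕ Fin s}
  {O₁ O₂ : Subring F} {rho₁ : ↥O₁ →+* Ft₁} {rho₂ : ↥O₂ →+* Ft₂}

/-- the orders of `φ = g • Ξ / Ξ` on the class. -/
theorem ord_phi {β : Type*} {r : Place K F → β} {g : SemilinearAut K F}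
    {S : Set (SemilinearAut K F)} {c : β} {w : F} {ξ : Place K F → K} {D : Divisor K F}
    (hw : CoordAt A r g S c w ξ) (hr : ∀ P, r (g • P) = r P) {P : Place K F} (hP : r P = c) :
    g • Xi D r c w ξ / Xi D r c w ξ ≠ 0 ∧
      P.ord (g • Xi D r c w ξ / Xi D r c w ξ) = (g • D) P - D P := by
  have h0 : Xi D r c w ξ ≠ 0 := Xi_ne_zero hw
  have hg0 : g • Xi D r c w ξ ≠ 0 := by
    rw [SemilinearAut.smul_def]
    exact (map_ne_zero_iff _ (SemilinearAut.toRingAut g).injective).mpr h0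
  refine ⟨div_ne_zero hg0 h0, ?_⟩
  rw [div_eq_mul_inv, P.ord_mul hg0 (inv_ne_zero h0), Place.ord_inv, ord_smul_Xi hw hr hP,
    ord_Xi hw hP]
  ring

/-- **`LocFactor` from the class factors.** -/
theorem locFactor_of_classes (h₁ : GaussRing A π O₁ rho₁) (h₂ : GaussRing A π O₂ rho₂)
    (hG : ∀ f : F, f ∈ G ↔ f ∈ O₁ ∧ f ∈ O₂)
    (hred : ∀ (f : F) (hf : f ∈ G) (hf₁ : f ∈ O₁) (hf₂ : f ∈ O₂),
      red ⟨f, hf⟩ = (rho₁ ⟨f, hf₁⟩, rho₂ ⟨f, hf₂⟩))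
    (g : SemilinearAut K F) (S : Set (SemilinearAut K F))
    (hr : ∀ P, r (g • P) = r P) (hrS : ∀ s' ∈ S, ∀ P, r (s' • P) = r P)
    (D Y : Divisor K F) (hDS : ∀ s' ∈ S, s' • D = D)
    (ξ : Place K F → K) (w : SPt k Ft₁ Ft₂ ⊕ Fin s → F)
    (hsm : ∀ Q, N.IsSmooth Q → CoordAt A r g S (Sum.inl Q) (w (Sum.inl Q)) ξ ∧
      (∃ h : w (Sum.inl Q) ∈ O₁, rho₁ ⟨_, h⟩ ≠ 0) ∧ ∃ h : w (Sum.inl Q) ∈ O₂, rho₂ ⟨_, h⟩ ≠ 0)
    (π₀ : K) (hπ₀S : ∀ s' ∈ S, SemilinearAut.baseAut s' π₀ = π₀)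
    (hnd : ∀ z : Fin s, CoordAt A r g S (Sum.inr z) (w (Sum.inr z)) ξ ∧
      (∃ h : w (Sum.inr z) ∈ O₁, rho₁ ⟨_, h⟩ ≠ 0) ∧
      ∃ y : F, (∃ h : y ∈ O₂, rho₂ ⟨y, h⟩ ≠ 0) ∧ g • y = y ∧
        w (Sum.inr z) * y = algebraMap K F π₀ ∧ (∀ P, r P = Sum.inr z → ξ P ≠ 0) ∧
        ∃ hη : ∀ P, r P = Sum.inr z → π₀ / ξ P ∈ A,
          ∀ P (h : r P = Sum.inr z), ¬ IsUnit (⟨π₀ / ξ P, hη P h⟩ : ↥A))
    {ϖ : K} (hϖ : ϖ ∈ A) (hϖn : ¬ IsUnit (⟨ϖ, hϖ⟩ : ↥A)) (hϖ0 : ϖ ≠ 0) {t : ℕ} (ht : 1 ≤ t)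
    (k3 : ∀ a ∈ A, (∀ s' ∈ S, SemilinearAut.baseAut s' a = a) →
      ∃ d ∈ A, SemilinearAut.baseAut g a - a = ϖ ^ (t + 1) * d)
    (κp κn : Fin s → K) (hκp : ∀ z, κp z ∈ A) (hκn : ∀ z, κn z ∈ A)
    (hNp : ∀ z, ∃ d ∈ A,
      SemilinearAut.baseAut g (∏ P ∈ classSupp D r (Sum.inr z), (-ξ P) ^ nPos D P) /
        (∏ P ∈ classSupp D r (Sum.inr z), (-ξ P) ^ nPos D P) = 1 + ϖ ^ t * (κp z + ϖ * d))
    (hNn : ∀ z, ∃ d ∈ A,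
      SemilinearAut.baseAut g (∏ P ∈ classSupp D r (Sum.inr z), (-ξ P) ^ nNeg D P) /
        (∏ P ∈ classSupp D r (Sum.inr z), (-ξ P) ^ nNeg D P) = 1 + ϖ ^ t * (κn z + ϖ * d))
    (hY0 : ∀ P z, r P = Sum.inr z → Y P = 0)
    (hY : ∀ Q, N.IsSmooth Q → ∃ η ψ : F, ψ ∈ O₁ ∧ ψ ∈ O₂ ∧
      η = 1 + algebraMap K F ϖ ^ (t + 1) * ψ ∧ η ≠ 0 ∧ ∀ P, r P = Sum.inl Q → P.ord η = Y P)
    {h : F} (hh0 : h ≠ 0) (hh : ∀ P, P.ord h = (g • D) P - D P - Y P) :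
    LocFactor N G red r ϖ t h (fun z => π ⟨κp z, hκp z⟩ - π ⟨κn z, hκn z⟩) := by
  refine ⟨?_, ?_⟩
  · -- smooth points
    intro Q hQ
    obtain ⟨hw, ⟨hw₁, hwu₁⟩, ⟨hw₂, hwu₂⟩⟩ := hsm Q hQ
    obtain ⟨e₁, e₂, HΞ⟩ := smooth_signed (D := D) h₁ h₂ hw hw₁ hwu₁ hw₂ hwu₂ hrS hDS hϖ hϖn hϖ0
      (Nat.succ_pos t) k3
    obtain ⟨η, ψη, hψ₁, hψ₂, hηeq, hη0, hηord⟩ := hY Q hQ
    have Hη : OneAdd O₁ O₂ rho₁ rho₂ (algebraMap K F ϖ ^ (t + 1)) η _ _ :=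
      ⟨ψη, hψ₁, hψ₂, hηeq, rfl, rfl⟩
    obtain ⟨ψ, hψO₁, hψO₂, hφeq, -, -⟩ := HΞ.div
      (rho_pow_eq_zero h₁ hϖ hϖn (Nat.succ_pos t)) (rho_pow_eq_zero h₂ hϖ hϖn (Nat.succ_pos t))
      h₁.unit h₂.unit Hη
    set φ : F := g • Xi D r (Sum.inl Q) (w (Sum.inl Q)) ξ / Xi D r (Sum.inl Q) (w (Sum.inl Q)) ξ
      with hφ
    have hφη0 : ∀ P, r P = Sum.inl Q → φ / η ≠ 0 := fun P hP =>
      div_ne_zero (ord_phi hw hr hP).1 hη0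
    refine ⟨h / (φ / η), ⟨ψ, (hG ψ).mpr ⟨hψO₁, hψO₂⟩⟩, ?_, fun P hP => ?_⟩
    · show h = h / (φ / η) * (1 + algebraMap K F ϖ ^ (t + 1) * ψ)
      rw [← hφeq]
      by_cases hne : φ / η = 0
      · exfalso
        have hone : (1 : F) + algebraMap K F ϖ ^ (t + 1) * ψ = 0 := by rw [← hφeq]; exact hne
        -- `1 + ϖ^(t+1) ψ = 0` is impossible: reduce in `O₁`
        obtain ⟨hc, hc0⟩ := rho_pow_eq_zero h₁ hϖ hϖn (Nat.succ_pos t)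
        have hmem : (1 : F) + algebraMap K F ϖ ^ (t + 1) * ψ ∈ O₁ :=
          O₁.add_mem O₁.one_mem (O₁.mul_mem hc hψO₁)
        have e : (⟨(1 : F) + algebraMap K F ϖ ^ (t + 1) * ψ, hmem⟩ : ↥O₁) =
            1 + ⟨_, hc⟩ * ⟨ψ, hψO₁⟩ := rfl
        have h1 : rho₁ ⟨_, hmem⟩ = 1 := by rw [e, map_add, map_one, map_mul, hc0, zero_mul, add_zero]
        have h2 : (⟨(1 : F) + algebraMap K F ϖ ^ (t + 1) * ψ, hmem⟩ : ↥O₁) = 0 :=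
          Subtype.ext hone
        rw [h2, map_zero] at h1
        exact zero_ne_one h1
      · rw [div_mul_cancel₀ _ hne]
    · have h1 := ord_phi (D := D) hw hr hP
      have hne := hφη0 P hP
      rw [div_eq_mul_inv, P.ord_mul hh0 (inv_ne_zero hne), Place.ord_inv, div_eq_mul_inv,
        P.ord_mul h1.1 (inv_ne_zero hη0), Place.ord_inv, h1.2, hηord P hP, hh P]
      ring
  · -- nodes
    intro z
    obtain ⟨hw, ⟨hw₁, hwu₁⟩, y, ⟨hy, hyu⟩, hgy, hxy, hξ0, hη, hηn⟩ := hnd z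
    have H := node_signed (D := D) h₁ h₂ hw hw₁ hwu₁ hy hyu hgy hxy hπ₀S hξ0 hη hηn hrS hDS hϖ hϖn
      hϖ0 ht k3 (hκp z) (hκn z) (hNp z) (hNn z)
    obtain ⟨ψ, hψO₁, hψO₂, hφeq, hρ₁, hρ₂⟩ := H
    set φ : F := g • Xi D r (Sum.inr z) (w (Sum.inr z)) ξ / Xi D r (Sum.inr z) (w (Sum.inr z)) ξ
      with hφ
    have hφ0 : φ ≠ 0 := by
      have h0 : Xi D r (Sum.inr z) (w (Sum.inr z)) ξ ≠ 0 := Xi_ne_zero hw
      have hg0 : g • Xi D r (Sum.inr z) (w (Sum.inr z)) ξ ≠ 0 := by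
        rw [SemilinearAut.smul_def]
        exact (map_ne_zero_iff _ (SemilinearAut.toRingAut g).injective).mpr h0
      exact div_ne_zero hg0 h0
    refine ⟨h / φ, ⟨ψ, (hG ψ).mpr ⟨hψO₁, hψO₂⟩⟩, ?_, ?_, fun P hP => ?_⟩
    · show h = h / φ * (1 + algebraMap K F ϖ ^ t * ψ)
      rw [← hφeq, div_mul_cancel₀ _ hφ0]
    · rw [hred ψ _ hψO₁ hψO₂, hρ₁, hρ₂, sub_zero, map_sub]
    · have h1 := ord_phi (D := D) hw hr hP
      rw [div_eq_mul_inv, P.ord_mul hh0 (inv_ne_zero hφ0), Place.ord_inv, h1.2, hh P,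
        hY0 P z hP]
      ring

end Fermat.Agent.ES.X44.W1Factor12
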