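/-
Programme X (S44, spine `X44_SPINE14.md`), chapter (W1) "equal slopes" (helper12):
**KEY AT THE NODAL INSTANCE** — from the leaves to `p ∣ j_z - j_z'`.

`I : NodalInst p M' A` with `NodalInstHyp I`; `σ ∈ I_A`, `S ⊆ I_A`; `D` an `S`-stable divisor; `Y` the divisor
of the pairs of `y = σ x - x ∈ J¹` (leaf `J1Pairs`); `h ≠ 0` with `div h = σ D - D - Y`; the break data
`(π', a, t)` of (K) for `(σ, S)`; the rational structure of leaf (i) at `(h, π')` (`hRat`); the level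
change of leaf `BreakConv` (`hBC`, stated through `BreakData`); the Gauss-ring facts of `W1Gauss6`;
node coordinates `X z` and smooth coordinates `W Q`.

`Nplus D ξ z`, `Nminus D ξ z` : the node constants `∏ (-ξ P) ^ D⁺ P`, `∏ (-ξ P) ^ D⁻ P` over the points of `D`
through the node `z`.

**`key_dvd`** : there are `j⁺ z, j⁻ z : ℤ` with `v (N^± z) = v π' ^ j^± z` and
`p ∣ (j⁺ z - j⁻ z) - (j⁺ z' - j⁻ z')` for all nodes `z, z'`.
-/
import Mathlib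
import Fermat.Agent.ES.X44.W1Class12
import Fermat.Agent.ES.X44.W1Factor12
import Fermat.Agent.ES.V19.UnrLevel16

set_option autoImplicit false
set_option linter.unusedSectionVars false
set_option synthInstance.maxHeartbeats 400000

noncomputable section

open AlgebraicCurve ModularCurve

namespace Fermat.Agent.ES.X44.W1Key12

open Fermat.Agent.RR.LSpace
open Fermat.Agent.ES.W33.XiIfaceN29 Fermat.Agent.ES.W33.GeoNames23 Fermat.Agent.ES.W33.GeoJoinGa23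
  Fermat.Agent.ES.W33.NodalDefs3 Fermat.Agent.ES.X44.NodeCoordWLit17
  Fermat.Agent.ES.X44.SmoothCoordLit12 Fermat.Agent.ES.X44.ClassSigned12
  Fermat.Agent.ES.X44.OrbitPoly22 Fermat.Agent.ES.X44.W1Class12 Fermat.Agent.ES.X44.W1Factor12
  Fermat.Agent.ES.X44.FirstOrder22 Fermat.Agent.ES.X44.FirstOrderLoc22

attribute [local instance 5000] HahnSeries.powerSeriesAlgebra SubalgebraClass.toAlgebra

local notation "Qb" => AlgebraicClosure ℚ
local notation "GQ" => (AlgebraicClosure ℚ ≃ₐ[ℚ] AlgebraicClosure ℚ)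

variable {M' : ℕ} [NeZero M'] {p : ℕ} [Fact p.Prime] {A : ValuationSubring Qb}

/-- **the break data in the `(ϖ, T)`-form** (exit of leaf `BreakConv`): (k3) modulo `ϖ^(T+1)`, (k4) with
the first-order term `j·a₀·ϖ^T` for an `S`-fixed `c` of valuation `v π' ^ j`, `a₀` a unit, and the
`y`-level `v (ζ - 1) ≤ v ϖ ^ (T+1)`. -/
structure BreakData (A : ValuationSubring Qb) (σ : GQ) (S : Set GQ) (ζ ϖ : Qb) (T : ℕ) (a₀ π' : Qb) :
    Prop where
  k3 : ∀ c ∈ A, (∀ s ∈ S, s c = c) → ∃ d ∈ A, σ c - c = ϖ ^ (T + 1) * d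
  k4 : ∀ c : Qb, c ≠ 0 → (∀ s ∈ S, s c = c) → ∀ j : ℤ, A.valuation c = A.valuation π' ^ j →
    ∃ d ∈ A, σ c / c = 1 + ϖ ^ T * ((j : Qb) * a₀ + ϖ * d)
  unit : A.valuation a₀ = 1
  ylevel : A.valuation (ζ - 1) ≤ A.valuation ϖ ^ (T + 1)

/-- the positive node constant. -/
def Nplus {s : ℕ} (r : Place Qb (FW p M') → SPtW M' A ⊕ Fin s) (D : Divisor Qb (FW p M'))
    (ξ : Place Qb (FW p M') → Qb) (z : Fin s) : Qb :=
  ∏ P ∈ classSupp D r (Sum.inr z), (-ξ P) ^ nPos D P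

/-- the negative node constant. -/
def Nminus {s : ℕ} (r : Place Qb (FW p M') → SPtW M' A ⊕ Fin s) (D : Divisor Qb (FW p M'))
    (ξ : Place Qb (FW p M') → Qb) (z : Fin s) : Qb :=
  ∏ P ∈ classSupp D r (Sum.inr z), (-ξ P) ^ nNeg D P

variable {I : NodalInst p M' A} {X : Fin I.s → FW p M'} {W : SPtW M' A → FW p M'}

/-- a node constant (multiplicities `n`, `S`-invariant) is fixed by `S`. -/
theorem nconst_fixed (hI : NodalInstHyp I) (hX : ∀ z, IsNodeCoordW I z (X z)) {S : Set GQ}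
    (hS : S ⊆ A.inertiaSubgroupIn ℚ) {D : Divisor Qb (FW p M')}
    (hDS : ∀ τ ∈ S, aG p M' τ • D = D) (n : Place Qb (FW p M') → ℕ)
    (hn : ∀ τ ∈ S, ∀ P, n (aG p M' τ • P) = n P) (z : Fin I.s) {τ : GQ} (hτ : τ ∈ S) :
    τ (∏ P ∈ classSupp D I.r (Sum.inr z), (-xiOf I X W P) ^ n P) =
      ∏ P ∈ classSupp D I.r (Sum.inr z), (-xiOf I X W P) ^ n P := by
  classical
  have hw := coordAt_node (W := W) (hX z) (hS hτ) hS
  have hrS := r_smul_act hI hS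
  have hDS' : ∀ s' ∈ actSet p M' S, s' • D = D := by
    rintro _ ⟨τ', hτ', rfl⟩
    exact hDS τ' hτ'
  have hmem : aG p M' τ ∈ actSet p M' S := ⟨τ, hτ, rfl⟩
  set T := classSupp D I.r (Sum.inr z) with hT
  have hinj : Set.InjOn (fun P => aG p M' τ • P) (T : Set (Place Qb (FW p M'))) :=
    fun _ _ _ _ h => MulAction.injective (aG p M' τ) h
  have himg : T.image (fun P => aG p M' τ • P) = T := by
    apply Finset.eq_of_subset_of_card_le
    · intro P hP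
      obtain ⟨P', hP', rfl⟩ := Finset.mem_image.mp hP
      exact smul_mem_classSupp hrS hDS' hmem hP'
    · rw [Finset.card_image_of_injOn hinj]
  rw [map_prod]
  conv_rhs => rw [← himg, Finset.prod_image hinj]
  refine Finset.prod_congr rfl fun P hP => ?_
  rw [map_pow, map_neg, hn τ hτ P, xi_smul hw hrS hmem ((mem_classSupp D).mp hP).2, baseAut_aG]

theorem nconst_ne_zero (hX : ∀ z, IsNodeCoordW I z (X z)) (D : Divisor Qb (FW p M'))
    (n : Place Qb (FW p M') → ℕ) (z : Fin I.s) :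
    (∏ P ∈ classSupp D I.r (Sum.inr z), (-xiOf I X W P) ^ n P) ≠ 0 :=
  Finset.prod_ne_zero_iff.mpr fun _ hP =>
    pow_ne_zero _ (neg_ne_zero.mpr (xiOf_node (hX z) ((mem_classSupp D).mp hP).2).1)

set_option maxHeartbeats 1600000 in
/-- **KEY at the nodal instance.** -/
theorem key_dvd (hI : NodalInstHyp I) (hp : p.Prime) (hA : A.LiesOverPrime p)
    (h₁ : GaussRing A (IsLocalRing.residue ↥A) (O1 M' p A) (rho1 M' p A))
    (h₂ : GaussRing A (IsLocalRing.residue ↥A) (O2 M' p A) (rho2 M' p A))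
    (hG : ∀ f : FW p M', f ∈ I.G ↔ f ∈ O1 M' p A ∧ f ∈ O2 M' p A)
    (hred : ∀ (f : FW p M') (hf : f ∈ I.G) (hf₁ : f ∈ O1 M' p A) (hf₂ : f ∈ O2 M' p A),
      I.red ⟨f, hf⟩ = (rho1 M' p A ⟨f, hf₁⟩, rho2 M' p A ⟨f, hf₂⟩))
    (hU : UnitClosed I.G I.red) (HL : LHyp Qb (FW p M'))
    (hc : ∀ f : FtW M' A, (∀ Q : Place (kW A) (FtW M' A), 0 ≤ Q.ord f) →
      ∃ c : kW A, f = algebraMap (kW A) (FtW M' A) c)
    (hX : ∀ z, IsNodeCoordW I z (X z))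
    (hWc : ∀ Q, I.nodes.IsSmooth Q → IsSmoothCoord I Q (W Q))
    {σ : GQ} (hσ : σ ∈ A.inertiaSubgroupIn ℚ) {S : Set GQ} (hS : S ⊆ A.inertiaSubgroupIn ℚ)
    {D Y : Divisor Qb (FW p M')} (hDS : ∀ τ ∈ S, aG p M' τ • D = D)
    (hY0 : ∀ P z, I.r P = Sum.inr z → Y P = 0) {ζ : Qb}
    (hY : ∀ (ϖ : Qb) (n : ℕ), ϖ ∈ A → ϖ ≠ 0 → A.valuation (ζ - 1) ≤ A.valuation ϖ ^ n →
      ∀ Q, I.nodes.IsSmooth Q → ∃ η ψ : FW p M', ψ ∈ O1 M' p A ∧ ψ ∈ O2 M' p A ∧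
        η = 1 + (algebraMap Qb (FW p M') ϖ) ^ n * ψ ∧ η ≠ 0 ∧
        ∀ P, I.r P = Sum.inl Q → P.ord η = Y P)
    {h : FW p M'} (hh0 : h ≠ 0) (hh : ∀ P, P.ord h = (aG p M' σ • D) P - D P - Y P)
    {π' a : Qb} {t : ℕ} (ht : 1 ≤ t)
    (hval : ∀ y : Qb, y ≠ 0 → (∀ s ∈ S, s y = y) → ∃ k : ℤ, A.valuation y = A.valuation π' ^ k)
    (hRat : ∃ (R : Subfield (FW p M')) (ϖ : Qb) (e : ℕ) (u : Qb),
      RatHyp A (IsLocalRing.residue ↥A) I.G I.red R ϖ ∧ h ∈ R ∧ u ∈ A ∧ u⁻¹ ∈ A ∧ 1 ≤ e ∧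
        π' = u * ϖ ^ e)
    (hBC : ∀ (ϖ u : Qb) (e : ℕ), ϖ ∈ A → ϖ ≠ 0 → u ∈ A → u⁻¹ ∈ A → 1 ≤ e → π' = u * ϖ ^ e →
      BreakData A σ S ζ ϖ (t * e) (a * u ^ t) π') :
    ∃ jp jn : Fin I.s → ℤ,
      (∀ z, A.valuation (Nplus I.r D (xiOf I X W) z) = A.valuation π' ^ jp z) ∧
      (∀ z, A.valuation (Nminus I.r D (xiOf I X W) z) = A.valuation π' ^ jn z) ∧
      ∀ z z', (p : ℤ) ∣ (jp z - jn z) - (jp z' - jn z') := by
  classical
  obtain ⟨R, ϖ, e, u, HR, hhR, huA, huA', he1, hπ'eq⟩ := hRat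
  have BD := hBC ϖ u e HR.mem HR.ne_zero huA huA' he1 hπ'eq
  set T : ℕ := t * e with hT
  have hT1 : 1 ≤ T := Nat.one_le_iff_ne_zero.mpr (Nat.mul_ne_zero (by omega) (by omega))
  set a₀ : Qb := a * u ^ t with ha₀
  have ha₀A : a₀ ∈ A := (A.valuation_le_one_iff a₀).mp BD.unit.le
  -- the exponents of the node constants
  have hnp : ∀ τ ∈ S, ∀ P, nPos D (aG p M' τ • P) = nPos D P := fun τ hτ P => by
    unfold nPos; rw [apply_smul_of_stable (hDS τ hτ)]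
  have hnn : ∀ τ ∈ S, ∀ P, nNeg D (aG p M' τ • P) = nNeg D P := fun τ hτ P => by
    unfold nNeg; rw [apply_smul_of_stable (hDS τ hτ)]
  have hNpfix : ∀ z, ∀ τ ∈ S, τ (Nplus I.r D (xiOf I X W) z) = Nplus I.r D (xiOf I X W) z :=
    fun z τ hτ => nconst_fixed hI hX hS hDS (nPos D) hnp z hτ
  have hNnfix : ∀ z, ∀ τ ∈ S, τ (Nminus I.r D (xiOf I X W) z) = Nminus I.r D (xiOf I X W) z :=
    fun z τ hτ => nconst_fixed hI hX hS hDS (nNeg D) hnn z hτ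
  have hNp0 : ∀ z, Nplus I.r D (xiOf I X W) z ≠ 0 := fun z => nconst_ne_zero hX D (nPos D) z
  have hNn0 : ∀ z, Nminus I.r D (xiOf I X W) z ≠ 0 := fun z => nconst_ne_zero hX D (nNeg D) z
  choose jp hjp using fun z => hval _ (hNp0 z) (hNpfix z)
  choose jn hjn using fun z => hval _ (hNn0 z) (hNnfix z)
  refine ⟨jp, jn, hjp, hjn, ?_⟩
  -- the constants `κ^±`
  have hκA : ∀ j : ℤ, (j : Qb) * a₀ ∈ A := fun j =>
    A.mul_mem _ _ (intCast_mem A j) ha₀A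
  have hNp : ∀ z, ∃ d ∈ A,
      SemilinearAut.baseAut (aG p M' σ)
        (∏ P ∈ classSupp D I.r (Sum.inr z), (-xiOf I X W P) ^ nPos D P) /
        (∏ P ∈ classSupp D I.r (Sum.inr z), (-xiOf I X W P) ^ nPos D P) =
        1 + ϖ ^ T * ((jp z : Qb) * a₀ + ϖ * d) := fun z => by
    rw [baseAut_aG]
    exact BD.k4 _ (hNp0 z) (hNpfix z) (jp z) (hjp z)
  have hNn : ∀ z, ∃ d ∈ A,
      SemilinearAut.baseAut (aG p M' σ)
        (∏ P ∈ classSupp D I.r (Sum.inr z), (-xiOf I X W P) ^ nNeg D P) /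
        (∏ P ∈ classSupp D I.r (Sum.inr z), (-xiOf I X W P) ^ nNeg D P) =
        1 + ϖ ^ T * ((jn z : Qb) * a₀ + ϖ * d) := fun z => by
    rw [baseAut_aG]
    exact BD.k4 _ (hNn0 z) (hNnfix z) (jn z) (hjn z)
  have hk3 : ∀ c ∈ A, (∀ s' ∈ actSet p M' S, SemilinearAut.baseAut s' c = c) →
      ∃ d ∈ A, SemilinearAut.baseAut (aG p M' σ) c - c = ϖ ^ (T + 1) * d := by
    intro c hcA hfix
    rw [baseAut_aG]
    refine BD.k3 c hcA fun s hs => ?_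
    have := hfix (aG p M' s) ⟨s, hs, rfl⟩
    rwa [baseAut_aG] at this
  have hDS' : ∀ s' ∈ actSet p M' S, s' • D = D := by
    rintro _ ⟨τ', hτ', rfl⟩
    exact hDS τ' hτ'
  have LF := locFactor_of_classes (N := I.nodes) (G := I.G) (red := I.red) (r := I.r) h₁ h₂ hG hred
    (aG p M' σ) (actSet p M' S) (hI.r_smul_inertia σ hσ) (r_smul_act hI hS) D Y hDS'
    (xiOf I X W) (coordOf X W)
    (fun Q hQ => ⟨coordAt_smooth (hWc Q hQ) hσ hS, smooth_data (hWc Q hQ)⟩)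
    (p : Qb) (baseAut_natCast p)
    (fun z => ⟨coordAt_node (hX z) hσ hS, node_data h₂ (hX z) hσ⟩)
    HR.mem HR.nonunit HR.ne_zero hT1 hk3
    (fun z => (jp z : Qb) * a₀) (fun z => (jn z : Qb) * a₀) (fun z => hκA (jp z))
    (fun z => hκA (jn z)) hNp hNn hY0
    (hY ϖ (T + 1) HR.mem HR.ne_zero BD.ylevel) hh0 hh
  -- the conclusion of the first-order induction
  intro z z'
  have hκeq := kappa_eq_of_locFactor hI.ctx HL hU HR LF hc hc hT1 hhR hh0 z z'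
  have : CharP (kW A) p := Fermat.Agent.ES.V19.UnrLevel16.charP_residue hp hA
  have hres : ∀ j : ℤ, IsLocalRing.residue ↥A ⟨(j : Qb) * a₀, hκA j⟩ =
      IsLocalRing.residue ↥A ⟨a₀, ha₀A⟩ * (j : kW A) := by
    intro j
    have e1 : (⟨(j : Qb) * a₀, hκA j⟩ : ↥A) = (j : ↥A) * ⟨a₀, ha₀A⟩ := by
      apply Subtype.ext
      simp
    rw [e1, map_mul, map_intCast, mul_comm]
  have ha₀res : IsLocalRing.residue ↥A ⟨a₀, ha₀A⟩ ≠ 0 := by
    intro h0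
    have hnu : ¬ IsUnit (⟨a₀, ha₀A⟩ : ↥A) := by
      intro hu
      exact (IsLocalRing.residue_ne_zero_iff_isUnit _).mpr hu h0
    apply hnu
    exact (A.valuation_eq_one_iff ⟨a₀, ha₀A⟩).mpr BD.unit
  refine int_dvd_sub (k := kW A) p ha₀res (κ := fun z => IsLocalRing.residue ↥A
    ⟨(jp z : Qb) * a₀, hκA (jp z)⟩ - IsLocalRing.residue ↥A ⟨(jn z : Qb) * a₀, hκA (jn z)⟩)
    (m := fun z => jp z - jn z) (fun z => ?_) hκeq
  rw [hres, hres, Int.cast_sub]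
  ring

end Fermat.Agent.ES.X44.W1Key12
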