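/-
Programme X (S44, spine `X44_SPINE14.md`), chapter (W1) "equal slopes" (helper12):
**THE ASSEMBLY OF CASE (i)** — a class `x ∈ V` moved by some `σ ∈ H₁`.

* `val_qNode`      : `v (qNode z) = v (N⁺ z) / v (N⁻ z)`;
* `L_le_j1N`       : `L ≤ J¹` (from (Ga) at the instance and `W1Group11.le_of_second_diff`);
* `exists_slopesAt_of_moved` : case (i): the descent (`DescentN4`), the tower exit (K), the pairs of
  `y = σ x - x` (`J1Pairs11`), the rational structure (`RatHypInst22`), the level change (`BreakConv16`),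
  KEY (`W1Key12.key_dvd`) and the norm step, given as the hypothesis `hNorm` (leaf `W1Norm`).
-/
import Mathlib
import Fermat.Agent.ES.X44.W1Key12
import Fermat.Agent.ES.X44.W1Gauss6
import Fermat.Agent.ES.X44.W1Group11
import Fermat.Agent.ES.X44.J1Pairs11
import Fermat.Agent.ES.X44.BreakConv16
import Fermat.Agent.ES.X44.RatHypInst22
import Fermat.Agent.ES.X44.DescentN4
import Fermat.Agent.ES.X44.TowerBreak16
import Fermat.Agent.ES.X44.QNodeFix11
import Fermat.Agent.ES.X44.NormIdx11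
import Fermat.Agent.ES.X44.W1JOne12

set_option autoImplicit false
set_option linter.unusedSectionVars false
set_option synthInstance.maxHeartbeats 400000

noncomputable section

open AlgebraicCurve ModularCurve

namespace Fermat.Agent.ES.X44.W1Asm12

open Fermat.Agent.RR.LSpace
open Fermat.Agent.ES.W33.XiIfaceN29 Fermat.Agent.ES.W33.GeoNames23 Fermat.Agent.ES.W33.GeoJoinGa23
  Fermat.Agent.ES.W33.NodalDefs3 Fermat.Agent.ES.W33.GeoW23 Fermat.Agent.ES.X44.NodeCoordWLit17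
  Fermat.Agent.ES.X44.SmoothCoordLit12 Fermat.Agent.ES.X44.ClassSigned12
  Fermat.Agent.ES.X44.OrbitPoly22 Fermat.Agent.ES.X44.W1Class12 Fermat.Agent.ES.X44.W1Factor12
  Fermat.Agent.ES.X44.FirstOrder22 Fermat.Agent.ES.X44.FirstOrderLoc22
  Fermat.Agent.ES.X44.SlopesLit12 Fermat.Agent.ES.X44.W1Key12 Fermat.Agent.ES.X44.GeoLit12
  Fermat.Agent.ES.X44.TowerGroup16 Fermat.Agent.ES.X44.TowerUnif16

attribute [local instance 5000] HahnSeries.powerSeriesAlgebra SubalgebraClass.toAlgebra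

local notation "Qb" => AlgebraicClosure ℚ
local notation "GQ" => (AlgebraicClosure ℚ ≃ₐ[ℚ] AlgebraicClosure ℚ)

variable {M' : ℕ} [NeZero M'] {p : ℕ} [Fact p.Prime] {A : ValuationSubring Qb}

section Val

variable {I : NodalInst p M' A} {X : Fin I.s → FW p M'} {W : SPtW M' A → FW p M'}

/-- the node product is the quotient of the two node constants, up to a sign. -/
theorem val_qNode (D : Divisor Qb (FW p M')) (ξ : Place Qb (FW p M') → Qb)
    (hξ : ∀ z : Fin I.s, ∀ P ∈ D.support, I.r P = Sum.inr z → ξ P ≠ 0) (z : Fin I.s) :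
    A.valuation (qNode I D ξ z) =
      A.valuation (Nplus I.r D ξ z) / A.valuation (Nminus I.r D ξ z) := by
  classical
  have hS : classSupp D I.r (Sum.inr z) =
      D.support.filter (fun P => I.r P = Sum.inr z) := by
    ext P
    rw [mem_classSupp, Finset.mem_filter, Finsupp.mem_support_iff]
  unfold Nplus Nminus
  rw [hS]
  have hq : qNode I D ξ z =
      ∏ P ∈ D.support.filter (fun P => I.r P = Sum.inr z), ξ P ^ D P := by
    unfold qNode
    refine Finset.prod_congr ?_ fun _ _ => rfl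
    ext P
    simp only [Finset.mem_filter]
  rw [hq, map_prod, map_prod, map_prod, ← Finset.prod_div_distrib]
  refine Finset.prod_congr rfl fun P hP => ?_
  have hP' := Finset.mem_filter.mp hP
  have h0 : A.valuation (ξ P) ≠ 0 := (Valuation.ne_zero_iff _).mpr (hξ z P hP'.1 hP'.2)
  rw [map_pow, map_pow, Valuation.map_neg, map_zpow₀]
  conv_lhs => rw [← nPos_sub_nNeg D P, zpow_sub₀ h0, zpow_natCast, zpow_natCast]

end Val

/-! ### the norm step -/

section Norm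

variable {I : NodalInst p M' A} {X : Fin I.s → FW p M'}

/-- **the norm step**: node products fixed by the stabiliser of `x` in the inertia group, with slopes
congruent modulo `p` in the value group `v(π')^ℤ` (`v π' ^ (p (p-1)) = v p`), are equal up to powers of
`p` and units, the orbit of `x` having `p` elements. -/
theorem slopesAt_of_dvd (hI : NodalInstHyp I) (hp : p.Prime) (hA : A.LiesOverPrime p)
    (hX : ∀ z, IsNodeCoordW I z (X z)) (x : JZero (M' * p)) (T : Finset (JZero (M' * p)))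
    (hT : ∀ y, y ∈ T ↔ ∃ τ ∈ A.inertiaSubgroupIn ℚ, τ • x = y) (hcard : T.card = p)
    {D : Divisor Qb (FW p M')}
    (hD : ∀ τ ∈ A.inertiaSubgroupIn ℚ, τ • x = x → aG p M' τ • D = D)
    (ξ : Place Qb (FW p M') → Qb)
    (hξ : ∀ z : Fin I.s, ∀ P ∈ D.support, I.r P = Sum.inr z →
      ξ P ≠ 0 ∧ ξ P ∈ A.nonunits ∧ (p : Qb) / ξ P ∈ A.nonunits ∧
        P.ord (X z - algebraMap Qb (FW p M') (ξ P)) = 1 ∧
        ∀ P' : Place Qb (FW p M'), I.r P' = Sum.inr z → P' ≠ P →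
          P'.ord (X z - algebraMap Qb (FW p M') (ξ P)) = 0)
    {π' : Qb} (hπ : A.valuation π' ^ (p * (p - 1)) = A.valuation (p : Qb))
    (hπ1 : A.valuation π' < 1) (j : Fin I.s → ℤ)
    (hj : ∀ z, A.valuation (qNode I D ξ z) = A.valuation π' ^ j z)
    (hdvd : ∀ z z', (p : ℤ) ∣ j z - j z') : SlopesAt I X D := by
  classical
  refine ⟨ξ, hξ, ?_⟩
  have hq0 : ∀ z, qNode I D ξ z ≠ 0 := fun z => by
    unfold qNode
    exact Finset.prod_ne_zero_iff.mpr fun P hP =>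
      zpow_ne_zero _ (hξ z P (Finset.mem_filter.mp hP).1 (Finset.mem_filter.mp hP).2).1
  have hfix : ∀ z, ∀ τ ∈ A.inertiaSubgroupIn ℚ, τ • x = x →
      τ (qNode I D ξ z) = qNode I D ξ z := fun z τ hτ hτx =>
    Fermat.Agent.ES.X44.QNodeFix11.qNode_fixed I hI (X z) z hτ ((hX z).fix τ hτ) D (hD τ hτ hτx) ξ
      (fun P hP hPz => by rw [(hξ z P hP hPz).2.2.2.1]; exact one_pos)
  by_cases hs : Nonempty (Fin I.s)
  · obtain ⟨z₀⟩ := hs
    refine ⟨qNode I D ξ z₀, hq0 z₀, fun z => ?_⟩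
    exact Fermat.Agent.ES.X44.NormIdx11.exists_eq_mul_zpow_mul_unit_of_orbit hp hA x T hT hcard
      (hq0 z) (hq0 z₀) (hfix z) (hfix z₀) hπ hπ1 (hj z) (hj z₀) (hdvd z z₀)
  · exact ⟨1, one_ne_zero, fun z => (hs ⟨z⟩).elim⟩

end Norm

/-! ### case (i) -/

section Moved

open Fermat.Agent.ES.X44.W1Group11 Fermat.Agent.ES.X44.TowerBase16

set_option maxHeartbeats 1600000 in
/-- **case (i)**: a class of `V` moved by some `σ ∈ H₁` has a representative with congruent slopes. -/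
theorem exists_slopesAt_of_moved (M' : ℕ) [NeZero M'] (p : ℕ) [Fact p.Prime] (hpM : ¬ p ∣ M')
    (h4M : 4 ∣ M') (A : ValuationSubring Qb) (hA : A.LiesOverPrime p) (hp2 : p ≠ 2)
    {V L : AddSubgroup (JZero (M' * p))} (hW : W1Input p A V L)
    {X : Fin (IX M' p hpM h4M A hA).s → FW p M'}
    (hX : ∀ z, IsNodeCoordW (IX M' p hpM h4M A hA) z (X z))
    {W : SPtW M' A → FW p M'}
    (hWc : ∀ Q, (IX M' p hpM h4M A hA).nodes.IsSmooth Q →
      IsSmoothCoord (IX M' p hpM h4M A hA) Q (W Q))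
    {x : JZero (M' * p)} (hx : x ∈ V) {σ : GQ} (hσ : σ ∈ H1 A p) (hσx : σ • x ≠ x) :
    ∃ D : Divisor Qb (FW p M'), IsRep x D ∧ SlopesAt (IX M' p hpM h4M A hA) X D := by
  classical
  have hp : p.Prime := Fact.out
  obtain ⟨ζ, hζ⟩ : ∃ ζ : Qb, IsPrimitiveRoot ζ p := by
    have : NeZero p := ⟨hp.ne_zero⟩
    exact HasEnoughRootsOfUnity.exists_primitiveRoot Qb p
  have HI := instInput_IX M' p hpM h4M A hA hp2
  have hI := HI.hyp
  have hH : AtZeta A ζ (H1sub A p) := atZeta_H1sub hp hζ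
  have hσH : σ ∈ H1sub A p := hσ
  have hσI : σ ∈ A.inertiaSubgroupIn ℚ := hσ.1
  -- the stabiliser of `x` in `H₁`
  have C : CycStep p (H1sub A p) (stabIn (H1sub A p) x) σ :=
    cycStep_of_moved hp hζ hH hW hx hσH hσx
  have hSI : ((stabIn (H1sub A p) x : Subgroup GQ) : Set GQ) ⊆ A.inertiaSubgroupIn ℚ :=
    fun τ hτ => hH.le hτ.1
  -- the orbit
  obtain ⟨T, hT, hcard⟩ := exists_orbit_card hp hζ hH hW hx hσH hσx
  -- the descent
  obtain ⟨D, hDrep, hDS₀⟩ := Fermat.Agent.ES.X44.DescentN4.exists_invariant_rep M' p hpM h4M A hA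
    hI {τ | τ ∈ A.inertiaSubgroupIn ℚ ∧ τ • x = x} (fun τ h => h.1) x (fun τ h => h.2)
  have hDS₀' : ∀ τ ∈ A.inertiaSubgroupIn ℚ, τ • x = x → aG p M' τ • D = D :=
    fun τ hτ hτx => hDS₀ τ ⟨hτ, hτx⟩
  have hDS : ∀ τ ∈ ((stabIn (H1sub A p) x : Subgroup GQ) : Set GQ), aG p M' τ • D = D :=
    fun τ hτ => hDS₀' τ (hH.le hτ.1) hτ.2
  -- the certificate and the tower exit
  obtain ⟨z₁, hz0, hzfix, hzq, hzc⟩ := hW.cert x hx σ hσ hσx
  have hζ1 : ζ ≠ 1 := hζ.ne_one hp.one_lt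
  obtain ⟨π', a, t, hπS, haS, ha1, hπp, hval, hbreak, hk3, ht1, htp⟩ :=
    Fermat.Agent.ES.X44.TowerBreak16.tower_exit hp hA hζ hH C hz0
      (fun s hs => hzfix s hs.1 hs.2) hzq (hzc ζ hζ.pow_eq_one hζ1)
  -- the class `y = σ x - x`
  have hyL : σ • x - x ∈ L := hW.inertia σ hσI x hx
  have hyJ := Fermat.Agent.ES.X44.W1JOne12.L_le_j1N M' p hpM h4M A hA hp2 hW hyL
  have hyfix : ∀ τ ∈ H1sub A p, τ • (σ • x - x) = σ • x - x :=
    fun τ hτ => hW.h1fix τ hτ _ hyL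
  obtain ⟨Y, hYrep, hY0, hY⟩ := Fermat.Agent.ES.X44.J1Pairs11.exists_pairs_IX M' p hpM h4M A hA
    hp2 hζ hH hyJ hyfix
  have hrep2 : IsRep (σ • x - x) (aG p M' σ • D - D) :=
    Fermat.Agent.ES.X44.W1Gauss6.isRep_smul_sub (aG p M' σ) hDrep
  obtain ⟨h, hh0, hh⟩ := Fermat.Agent.ES.X44.W1Gauss6.exists_of_isRep_isRep hrep2 hYrep
  -- valuations
  have hζ10 : ζ - 1 ≠ 0 := sub_ne_zero.mpr hζ1
  have hvp : A.valuation (ζ - 1) ^ (p - 1) = A.valuation (p : Qb) :=
    val_zeta_sub_one_pow hp hζ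
  have hζlt : A.valuation (ζ - 1) < 1 := val_zeta_sub_one_lt_one hp hA hζ
  have hπ0 : π' ≠ 0 := by
    rintro rfl
    rw [map_zero, zero_pow hp.ne_zero] at hπp
    exact (Valuation.ne_zero_iff A.valuation).mpr hζ10 hπp.symm
  have hπ1 : A.valuation π' < 1 := by
    by_contra hcon
    push Not at hcon
    rw [← hπp] at hζlt
    exact absurd hζlt (not_lt.mpr (one_le_pow₀ hcon))
  have hπpp : A.valuation π' ^ (p * (p - 1)) = A.valuation (p : Qb) := by
    rw [pow_mul, hπp, hvp]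
  have hπA : π' ∈ A := (A.valuation_le_one_iff _).mp hπ1.le
  have hπn : ¬ IsUnit (⟨π', hπA⟩ : ↥A) := fun hu =>
    hπ1.ne ((A.valuation_eq_one_iff ⟨π', hπA⟩).mp hu)
  obtain ⟨K, π, m, u, hRH, hhR, hu, hu', hm, hlev⟩ :=
    Fermat.Agent.ES.X44.RatHypInst22.exists_ratHyp_four hpM h4M hA h hπA hπ0 hπn
  have hk3σ : ∀ c ∈ A, (∀ s ∈ stabIn (H1sub A p) x, s c = c) →
      A.valuation (σ c - c) ≤ A.valuation π' ^ (t + 1) := fun c hc hcS => hk3 σ hσH c hc hcS
  -- KEY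
  obtain ⟨jp, jn, hjp, hjn, hdvd⟩ := key_dvd (W := W) hI hp hA
    Fermat.Agent.ES.X44.W1Gauss6.gaussRing_O1 Fermat.Agent.ES.X44.W1Gauss6.gaussRing_O2
    (Fermat.Agent.ES.X44.W1Gauss6.mem_IX_G_iff hpM h4M hA)
    (Fermat.Agent.ES.X44.W1Gauss6.IX_red_eq hpM h4M hA)
    (Fermat.Agent.ES.X44.W1Gauss6.unitClosed_IX hpM h4M hA)
    (Fermat.Agent.ES.X44.W1Gauss6.lHyp_FW h4M)
    (Fermat.Agent.ES.X44.W1Gauss6.const_of_ord_nonneg_FtW hpM h4M hA) hX hWc hσI hSI hDS hY0 hY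
    hh0 (fun P => by rw [hh P]; rfl) ht1 hval
    ⟨_, _, m, u, hRH, hhR, hu, hu', hm, hlev⟩
    (fun ϖ u' e hϖA hϖ0 hu1 hu1' he hlev' => by
      have hu0 : u' ≠ 0 := by
        rintro rfl
        exact hπ0 (by rw [hlev', zero_mul])
      have hvu : A.valuation u' = 1 :=
        Fermat.Agent.ES.X44.BreakConv16.val_eq_one_of_mem hu1 hu1' hu0
      exact
        { k3 := Fermat.Agent.ES.X44.BreakConv16.k3_conv hπ0 hπ1 hvu he hlev' hk3σ
          k4 := fun c _ hcS j hj =>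
            Fermat.Agent.ES.X44.BreakConv16.k4_conv hπ0 hπ1 hvu he hlev' hπS ha1 ht1 hbreak hk3σ
              hcS hj
          unit := Fermat.Agent.ES.X44.BreakConv16.val_kappa hvu ha1 t
          ylevel := Fermat.Agent.ES.X44.BreakConv16.val_zeta_sub_one_le hπ1 hvu he hlev' hπp
            (by have := hp.one_lt; omega) })
  -- the slopes
  have hξnode : ∀ z : Fin (IX M' p hpM h4M A hA).s, ∀ P ∈ D.support,
      (IX M' p hpM h4M A hA).r P = Sum.inr z →
      NodeVal (IX M' p hpM h4M A hA) z (X z) P (xiOf (IX M' p hpM h4M A hA) X W P) :=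
    fun z P _ hPz => xiOf_node (hX z) hPz
  have hvπ0 : A.valuation π' ≠ 0 := (Valuation.ne_zero_iff A.valuation).mpr hπ0
  refine ⟨D, hDrep, slopesAt_of_dvd hI hp hA hX x T hT hcard hDS₀'
    (xiOf (IX M' p hpM h4M A hA) X W) hξnode hπpp hπ1 (fun z => jp z - jn z) (fun z => ?_)
    (fun z z' => hdvd z z')⟩
  rw [val_qNode D _ (fun z P hP hPz => (hξnode z P hP hPz).1) z, hjp z, hjn z, zpow_sub₀ hvπ0]

end Moved

end Fermat.Agent.ES.X44.W1Asm12
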