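/-
Programme X (S44, spine `X44_SPINE14.md`), chapter (W1), leaf "the `I_A`-stable case" (helper11, for
helper12's `W1Asm12`, case (ii)).

* `exists_values`            : a value function `ξ` with the `val` clauses at ALL places through the nodes,
                               from weak node coordinates (`NodeCoordWLit17.IsNodeCoordW`);
* **`slopesAt_of_stable`**   : a divisor `D` with `aG p M' τ • D = D` for ALL `τ ∈ I_A` has
                               `SlopesLit12.SlopesAt I X D` with `κ = 1`: every node product is `I_A`-fixed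
                               (`QNodeFix11.qNode_fixed`), hence of the form `p^n · u`, `u ∈ Aˣ`
                               (`TowerBase16.val_eq_zpow_of_fixed`, (k0));
* `slopesAt_add_offNodes`    : `SlopesAt I X D₁ → OffNodes I.r D₀ → SlopesAt I X (D₁ + D₀)`.
-/
import Mathlib
import Fermat.Agent.ES.X44.QNodeFix11
import Fermat.Agent.ES.X44.NodeCoordWLit17
import Fermat.Agent.ES.X44.TowerBase16

set_option autoImplicit false
set_option linter.unusedSectionVars false
set_option synthInstance.maxHeartbeats 400000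

noncomputable section

open AlgebraicCurve ModularCurve

namespace Fermat.Agent.ES.X44.SlopesFixed11

open Fermat.Agent.ES.W33.XiIfaceN29 Fermat.Agent.ES.W33.GeoNames23 Fermat.Agent.ES.W33.GeoJoinGa23
  Fermat.Agent.ES.X44.SlopesLit12 Fermat.Agent.ES.X44.NodeCoordWLit17 Fermat.Agent.ES.X44.QNodeFix11
  Fermat.Agent.ES.X44.TowerBase16

attribute [local instance 5000] HahnSeries.powerSeriesAlgebra SubalgebraClass.toAlgebra

local notation "Qb" => AlgebraicClosure ℚ
local notation "GQ" => (AlgebraicClosure ℚ ≃ₐ[ℚ] AlgebraicClosure ℚ)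

variable {M' : ℕ} [NeZero M'] {p : ℕ} [Fact p.Prime] {A : ValuationSubring Qb}

/-- a value function with the `val` clauses at all places through the nodes. -/
theorem exists_values (I : NodalInst p M' A) (X : Fin I.s → FW p M')
    (hX : ∀ z : Fin I.s, IsNodeCoordW I z (X z)) :
    ∃ ξ : Place Qb (FW p M') → Qb, ∀ (z : Fin I.s) (P : Place Qb (FW p M')), I.r P = Sum.inr z →
      ξ P ≠ 0 ∧ ξ P ∈ A.nonunits ∧ (p : Qb) / ξ P ∈ A.nonunits ∧
        P.ord (X z - algebraMap Qb (FW p M') (ξ P)) = 1 ∧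
        ∀ P' : Place Qb (FW p M'), I.r P' = Sum.inr z → P' ≠ P →
          P'.ord (X z - algebraMap Qb (FW p M') (ξ P)) = 0 := by
  classical
  have h : ∀ P : Place Qb (FW p M'), ∃ a : Qb, ∀ z : Fin I.s, I.r P = Sum.inr z →
      a ≠ 0 ∧ a ∈ A.nonunits ∧ (p : Qb) / a ∈ A.nonunits ∧
        P.ord (X z - algebraMap Qb (FW p M') a) = 1 ∧
        ∀ P' : Place Qb (FW p M'), I.r P' = Sum.inr z → P' ≠ P →
          P'.ord (X z - algebraMap Qb (FW p M') a) = 0 := by
    intro P
    by_cases hP : ∃ z : Fin I.s, I.r P = Sum.inr z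
    · obtain ⟨z, hz⟩ := hP
      obtain ⟨a, ha⟩ := (hX z).val P hz
      refine ⟨a, fun z' hz' => ?_⟩
      have e : z' = z := Sum.inr_injective (hz'.symm.trans hz)
      subst e
      exact ha
    · exact ⟨1, fun z hz => absurd ⟨z, hz⟩ hP⟩
  choose ξ hξ using h
  exact ⟨ξ, fun z P hz => hξ P z hz⟩

/-- **the `I_A`-stable case**: `SlopesAt` with `κ = 1`. -/
theorem slopesAt_of_stable (hA : A.LiesOverPrime p) (I : NodalInst p M' A) (hI : NodalInstHyp I)
    (X : Fin I.s → FW p M') (hX : ∀ z : Fin I.s, IsNodeCoordW I z (X z))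
    (D : Divisor Qb (FW p M'))
    (hD : ∀ τ ∈ A.inertiaSubgroupIn ℚ, aG p M' τ • D = D) : SlopesAt I X D := by
  classical
  have hp : p.Prime := Fact.out
  have hp0 : (p : Qb) ≠ 0 := Nat.cast_ne_zero.mpr hp.ne_zero
  obtain ⟨ξ, hξ⟩ := exists_values I X hX
  refine ⟨ξ, fun z P _ hz => hξ z P hz, 1, one_ne_zero, fun z => ?_⟩
  -- the node product is fixed by the inertia group
  have hfix : ∀ τ ∈ A.inertiaSubgroupIn ℚ, τ (qNode I D ξ z) = qNode I D ξ z := fun τ hτ =>
    qNode_fixed I hI (X z) z hτ ((hX z).fix τ hτ) D (hD τ hτ) ξ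
      (fun P _ hz => by rw [(hξ z P hz).2.2.2.1]; exact one_pos)
  have hq0 : qNode I D ξ z ≠ 0 := by
    rw [qNode_eq_prod I D ξ z (D.support.filter (fun P => I.r P = Sum.inr z))
      (fun P hP hz => Finset.mem_filter.mpr ⟨hP, hz⟩) (fun P hP => (Finset.mem_filter.mp hP).2)]
    exact Finset.prod_ne_zero_iff.mpr fun P hP =>
      zpow_ne_zero _ (hξ z P (Finset.mem_filter.mp hP).2).1
  obtain ⟨k, hk⟩ := val_eq_zpow_of_fixed hp hA hq0 hfix
  have hpk : (p : Qb) ^ k ≠ 0 := zpow_ne_zero _ hp0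
  have hv1 : A.valuation (qNode I D ξ z / (p : Qb) ^ k) = 1 := by
    rw [map_div₀, map_zpow₀, hk]
    exact div_self (zpow_ne_zero _ (val_p_ne_zero hp hA))
  refine ⟨k, qNode I D ξ z / (p : Qb) ^ k, (A.valuation_le_one_iff _).mp hv1.le, ?_,
    div_ne_zero hq0 hpk, ?_⟩
  · apply (A.valuation_le_one_iff _).mp
    rw [map_inv₀, hv1, inv_one]
  · rw [one_mul, mul_div_cancel₀ _ hpk]

/-- adding a divisor off the nodes. -/
theorem slopesAt_add_offNodes (I : NodalInst p M' A) (X : Fin I.s → FW p M')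
    (D₁ D₀ : Divisor Qb (FW p M')) (h₁ : SlopesAt I X D₁) (h₀ : OffNodes I.r D₀) :
    SlopesAt I X (D₁ + D₀) :=
  slopesAt_add I X D₁ D₀ h₁ (slopesAt_of_offNodes I X D₀ h₀)

end Fermat.Agent.ES.X44.SlopesFixed11
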