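/-
Programme X (S44, spine `X44_SPINE14.md`), chapter (W1), **case (ii) COMPLETE** (helper11, for helper12's
`W1Asm12`): a class `x ∈ V` fixed by `H₁` has a representative with congruent slopes.

Route: `ζ` a primitive `p`-th root of unity, `H := W1Group11.H1sub A p` (`atZeta_H1sub`);
`W1Group11.exists_fixed_add` ⇒ `x = x₁ + λ₀`, `x₁ ∈ V` fixed by ALL of `I_A`, `λ₀ ∈ L`;
`DescentN4.exists_invariant_rep` with `S := I_A` ⇒ an `I_A`-stable representative `D₁` of `x₁`;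
`SlopesFixed11.slopesAt_of_stable` ⇒ `SlopesAt D₁` (`κ = 1`);  `λ₀` has a representative `Y` off the nodes
(hypothesis `hJ`, from `L ≤ J¹`);  `slopesAt_add_offNodes` and `isRep_add`.
-/
import Mathlib
import Fermat.Agent.ES.X44.SlopesFixed11
import Fermat.Agent.ES.X44.W1Group11
import Fermat.Agent.ES.X44.DescentN4
import Fermat.Agent.ES.X44.GeoLit12

set_option autoImplicit false
set_option linter.unusedSectionVars false
set_option synthInstance.maxHeartbeats 400000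

noncomputable section

open AlgebraicCurve ModularCurve

namespace Fermat.Agent.ES.X44.W1Fixed11

open Fermat.Agent.ES.W33.XiIfaceN29 Fermat.Agent.ES.W33.PrinN29 Fermat.Agent.ES.W33.GeoNames23
  Fermat.Agent.ES.W33.GeoJoinGa23
  Fermat.Agent.ES.X44.SlopesLit12 Fermat.Agent.ES.X44.NodeCoordWLit17 Fermat.Agent.ES.X44.GeoLit12
  Fermat.Agent.ES.X44.W1Group11 Fermat.Agent.ES.X44.SlopesFixed11

attribute [local instance 5000] HahnSeries.powerSeriesAlgebra SubalgebraClass.toAlgebra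

local notation "Qb" => AlgebraicClosure ℚ
local notation "GQ" => (AlgebraicClosure ℚ ≃ₐ[ℚ] AlgebraicClosure ℚ)

/-- **case (ii)** at any nodal instance with `NodalInstHyp`. -/
theorem exists_slopesAt_of_H1_fixed_of_hyp (M' : ℕ) [NeZero M'] (p : ℕ) [Fact p.Prime]
    (hpM : ¬ p ∣ M') (h4M : 4 ∣ M') (A : ValuationSubring Qb) (hA : A.LiesOverPrime p)
    {I : NodalInst p M' A} (hI : NodalInstHyp I)
    {V L : AddSubgroup (JZero (M' * p))} (hW : W1Input p A V L)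
    {X : Fin I.s → FW p M'} (hX : ∀ z, IsNodeCoordW I z (X z))
    (hJ : ∀ y ∈ L, ∃ Y : Divisor Qb (FW p M'), IsRep y Y ∧
      ∀ (P : Place Qb (FW p M')) (z : Fin I.s), I.r P = Sum.inr z → Y P = 0)
    {x : JZero (M' * p)} (hx : x ∈ V) (hfix : ∀ τ ∈ H1 A p, τ • x = x) :
    ∃ D : Divisor Qb (FW p M'), IsRep x D ∧ SlopesAt I X D := by
  have hp : p.Prime := Fact.out
  have : NeZero p := ⟨hp.ne_zero⟩
  obtain ⟨ζ, hζ⟩ := HasEnoughRootsOfUnity.exists_primitiveRoot Qb p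
  have hH : Fermat.Agent.ES.X44.TowerUnif16.AtZeta A ζ (H1sub A p) := atZeta_H1sub hp hζ
  obtain ⟨x₁, -, l₀, hl₀, hxeq, hx₁fix⟩ :=
    exists_fixed_add hp hζ hH hW hx (fun τ hτ => hfix τ (mem_H1sub.mp hτ))
  obtain ⟨D₁, hD₁, hD₁inv⟩ := Fermat.Agent.ES.X44.DescentN4.exists_invariant_rep M' p hpM h4M A hA
    hI ((A.inertiaSubgroupIn ℚ : Subgroup GQ) : Set GQ) (fun _ h => h) x₁
    (fun τ hτ => hx₁fix τ hτ)
  obtain ⟨Y, hY, hY0⟩ := hJ l₀ hl₀
  have hoff : OffNodes I.r Y := fun P hP j hj => (Finsupp.mem_support_iff.mp hP) (hY0 P j hj)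
  refine ⟨D₁ + Y, ?_, slopesAt_add_offNodes I X D₁ Y
    (slopesAt_of_stable hA I hI X hX D₁ (fun τ hτ => hD₁inv τ hτ)) hoff⟩
  rw [hxeq]
  exact isRep_add hD₁ hY

/-- **case (ii) at THE instance** `GeoLit12.IX`. -/
theorem exists_slopesAt_of_H1_fixed (M' : ℕ) [NeZero M'] (p : ℕ) [Fact p.Prime]
    (hpM : ¬ p ∣ M') (h4M : 4 ∣ M') (A : ValuationSubring Qb) (hA : A.LiesOverPrime p)
    (hp2 : p ≠ 2) {V L : AddSubgroup (JZero (M' * p))} (hW : W1Input p A V L)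
    {X : Fin (IX M' p hpM h4M A hA).s → FW p M'}
    (hX : ∀ z, IsNodeCoordW (IX M' p hpM h4M A hA) z (X z))
    (hJ : ∀ y ∈ L, ∃ Y : Divisor Qb (FW p M'), IsRep y Y ∧
      ∀ (P : Place Qb (FW p M')) (z : Fin (IX M' p hpM h4M A hA).s),
        (IX M' p hpM h4M A hA).r P = Sum.inr z → Y P = 0)
    {x : JZero (M' * p)} (hx : x ∈ V) (hfix : ∀ τ ∈ H1 A p, τ • x = x) :
    ∃ D : Divisor Qb (FW p M'), IsRep x D ∧ SlopesAt (IX M' p hpM h4M A hA) X D :=
  exists_slopesAt_of_H1_fixed_of_hyp M' p hpM h4M A hA (instInput_IX M' p hpM h4M A hA hp2).hyp hW hX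
    hJ hx hfix

end Fermat.Agent.ES.X44.W1Fixed11
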