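/-
Programme X (S44, spine `X44_SPINE14.md`), chapter (W1) "equal slopes" (helper12):
**THE EXIT OF (W1)** — `SlopesLit12.SlopesExit (IX …) X V` from `SlopesLit12.W1Input p A V L`, node coordinates
`X` (`NodeCoordWLit17.IsNodeCoordW`) and smooth coordinates (`SmoothCoordLit12.SmoothCoords`).

Case split on `x ∈ V`: some `σ ∈ H₁` moves `x` (`W1Asm12.exists_slopesAt_of_moved`), or `x` is fixed by `H₁`
(`W1Fixed11.exists_slopesAt_of_H1_fixed`, with the representatives off the nodes of the classes of `L ≤ J¹` from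
`J1Pairs11.exists_pairs_IX` and `W1JOne12.L_le_j1N`).
-/
import Mathlib
import Fermat.Agent.ES.X44.W1Asm12
import Fermat.Agent.ES.X44.W1Fixed11

set_option autoImplicit false
set_option linter.unusedSectionVars false
set_option synthInstance.maxHeartbeats 400000

noncomputable section

open AlgebraicCurve ModularCurve

namespace Fermat.Agent.ES.X44.W1Exit12

open Fermat.Agent.ES.W33.XiIfaceN29 Fermat.Agent.ES.W33.GeoNames23 Fermat.Agent.ES.W33.GeoJoinGa23
  Fermat.Agent.ES.W33.NodalDefs3 Fermat.Agent.ES.X44.NodeCoordWLit17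
  Fermat.Agent.ES.X44.SmoothCoordLit12 Fermat.Agent.ES.X44.SlopesLit12 Fermat.Agent.ES.X44.GeoLit12
  Fermat.Agent.ES.X44.W1Group11 Fermat.Agent.ES.X44.TowerUnif16

attribute [local instance 5000] HahnSeries.powerSeriesAlgebra SubalgebraClass.toAlgebra

local notation "Qb" => AlgebraicClosure ℚ
local notation "GQ" => (AlgebraicClosure ℚ ≃ₐ[ℚ] AlgebraicClosure ℚ)

/-- the classes of `L` have representatives off the nodes. -/
theorem exists_offNodes_rep_of_mem_L (M' : ℕ) [NeZero M'] (p : ℕ) [Fact p.Prime]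
    (hpM : ¬ p ∣ M') (h4M : 4 ∣ M') (A : ValuationSubring Qb) (hA : A.LiesOverPrime p)
    (hp2 : p ≠ 2) {V L : AddSubgroup (JZero (M' * p))} (hW : W1Input p A V L) :
    ∀ y ∈ L, ∃ Y : Divisor Qb (FW p M'), IsRep y Y ∧
      ∀ (P : Place Qb (FW p M')) (z : Fin (IX M' p hpM h4M A hA).s),
        (IX M' p hpM h4M A hA).r P = Sum.inr z → Y P = 0 := by
  intro y hy
  have hp : p.Prime := Fact.out
  obtain ⟨ζ, hζ⟩ : ∃ ζ : Qb, IsPrimitiveRoot ζ p := by
    have : NeZero p := ⟨hp.ne_zero⟩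
    exact HasEnoughRootsOfUnity.exists_primitiveRoot Qb p
  have hH : AtZeta A ζ (H1sub A p) := atZeta_H1sub hp hζ
  obtain ⟨Y, hYrep, hY0, -⟩ := Fermat.Agent.ES.X44.J1Pairs11.exists_pairs_IX M' p hpM h4M A hA hp2
    hζ hH (Fermat.Agent.ES.X44.W1JOne12.L_le_j1N M' p hpM h4M A hA hp2 hW hy)
    (fun τ hτ => hW.h1fix τ hτ y hy)
  exact ⟨Y, hYrep, hY0⟩

/-- **THE EXIT OF (W1)** at THE instance. -/
theorem slopesExit_IX (M' : ℕ) [NeZero M'] (p : ℕ) [Fact p.Prime] (hpM : ¬ p ∣ M')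
    (h4M : 4 ∣ M') (A : ValuationSubring Qb) (hA : A.LiesOverPrime p) (hp2 : p ≠ 2)
    {V L : AddSubgroup (JZero (M' * p))} (hW : W1Input p A V L)
    {X : Fin (IX M' p hpM h4M A hA).s → FW p M'}
    (hX : ∀ z, IsNodeCoordW (IX M' p hpM h4M A hA) z (X z))
    (hSC : SmoothCoords (IX M' p hpM h4M A hA)) :
    SlopesExit (IX M' p hpM h4M A hA) X (V : Set (JZero (M' * p))) := by
  classical
  intro x hx
  by_cases hmv : ∃ σ ∈ H1 A p, σ • x ≠ x
  · obtain ⟨σ, hσ, hσx⟩ := hmv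
    -- a choice of smooth coordinates
    have hex : ∀ Q : SPtW M' A, ∃ w : FW p M', (IX M' p hpM h4M A hA).nodes.IsSmooth Q →
        IsSmoothCoord (IX M' p hpM h4M A hA) Q w := fun Q => by
      by_cases hQ : (IX M' p hpM h4M A hA).nodes.IsSmooth Q
      · obtain ⟨w, hw⟩ := hSC Q hQ
        exact ⟨w, fun _ => hw⟩
      · exact ⟨0, fun h => (hQ h).elim⟩
    choose W hW' using hex
    exact Fermat.Agent.ES.X44.W1Asm12.exists_slopesAt_of_moved M' p hpM h4M A hA hp2 hW hX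
      (W := W) hW' hx hσ hσx
  · push Not at hmv
    exact Fermat.Agent.ES.X44.W1Fixed11.exists_slopesAt_of_H1_fixed M' p hpM h4M A hA hp2 hW hX
      (exists_offNodes_rep_of_mem_L M' p hpM h4M A hA hp2 hW) hx hmv

end Fermat.Agent.ES.X44.W1Exit12
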