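/-
Programme X (S44, spine `X44_SPINE14.md` v3), chapter (Off) = (K) + (NC) + (SC) + (W1) + (LG) + (MV)
(helper12, assembly): **`GeoAsm14.OffChapter` from the two coordinate chapters**

* `NCChapter` = (NC) : `NodeCoordWLit17.NodeCoordsW (IX …)` (weak node coordinates at THE instance);
* `SCChapter` = (SC) : `SmoothCoordLit12.SmoothCoords (IX …)` (coordinates at the smooth points).

Chain: `GeoAsm14.w1Input_of_iota` (entry of (W1)) ⇒ `W1Exit12.slopesExit_IX` (exit of (W1)) ⇒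
`LocGenInst11.locGen_of_nodeCoordsW` (brick (LG)) ⇒ `MoveExit13.move` (brick (MV)) ⇒ `GeoLit12.OffExit`.
-/
import Mathlib
import Fermat.Agent.ES.X44.GeoAsm14
import Fermat.Agent.ES.X44.W1Exit12
import Fermat.Agent.ES.X44.LocGenInst11
import Fermat.Agent.ES.X44.MoveExit13

set_option autoImplicit false
set_option linter.unusedSectionVars false
set_option synthInstance.maxHeartbeats 400000

noncomputable section

open AlgebraicCurve ModularCurve

namespace Fermat.Agent.ES.X44.OffChapter12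

open Fermat.Agent.ES.W33.XiIfaceN29 Fermat.Agent.ES.W33.GeoNames23
open Fermat.Agent.ES.X44.XIface14 Fermat.Agent.ES.X44.GeoLit12 Fermat.Agent.ES.X44.GeoAsm14
  Fermat.Agent.ES.X44.NodeCoordWLit17 Fermat.Agent.ES.X44.SmoothCoordLit12

attribute [local instance 5000] HahnSeries.powerSeriesAlgebra SubalgebraClass.toAlgebra

local notation "Qb" => AlgebraicClosure ℚ
local notation "GQ" => (AlgebraicClosure ℚ ≃ₐ[ℚ] AlgebraicClosure ℚ)

/-- **(NC)**: every node of THE instance has a weak coordinate. -/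
def NCChapter : Prop :=
  ∀ (M' : ℕ) [NeZero M'] (p : ℕ) [Fact p.Prime] (hpM : ¬ p ∣ M') (h4M : 4 ∣ M')
    (A : ValuationSubring Qb) (hA : A.LiesOverPrime p), p ≠ 2 →
    NodeCoordsW (IX M' p hpM h4M A hA)

/-- **(SC)**: every smooth point of THE instance has a coordinate. -/
def SCChapter : Prop :=
  ∀ (M' : ℕ) [NeZero M'] (p : ℕ) [Fact p.Prime] (hpM : ¬ p ∣ M') (h4M : 4 ∣ M')
    (A : ValuationSubring Qb) (hA : A.LiesOverPrime p), p ≠ 2 →
    SmoothCoords (IX M' p hpM h4M A hA)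

/-- **(Off) from (NC) and (SC).** -/
theorem offChapter_of (hNC : NCChapter) (hSC : SCChapter) : OffChapter := by
  intro P _ M' _ _ hpM h4M A hA ι hinj heq hloc
  have hp5 := P.hp5
  have hp2 : P.p ≠ 2 := by omega
  obtain ⟨L, hL, h2, h3, h4, h5⟩ := hloc
  have hW := w1Input_of_iota P A ι hinj heq L hL h2 h3 h4 h5
  choose X hX using hNC M' P.p hpM h4M A hA hp2
  have hS := Fermat.Agent.ES.X44.W1Exit12.slopesExit_IX M' P.p hpM h4M A hA hp2 hW hX
    (hSC M' P.p hpM h4M A hA hp2)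
  rintro _ ⟨v, rfl⟩
  obtain ⟨D, hDrep, hDsl⟩ := hS (ι v) ⟨v, rfl⟩
  exact Fermat.Agent.ES.X44.MoveExit13.move M' P.p A hpM h4M hA hp2 (ι v) D hDrep
    (Fermat.Agent.ES.X44.LocGenInst11.locGen_of_nodeCoordsW (IX M' P.p hpM h4M A hA) X hX D hDsl)

end Fermat.Agent.ES.X44.OffChapter12
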