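/-
Programme X (S44), chapter (QH)/(X-a), leaf C4 of helper8's x4/x5 (helper15), file 2/2: **`T_ℓ` PRESERVES
`W₁` AND `W₂`, PLACE FORM, AT THE NODAL INSTANCE** (`NodalDefs3`, base `(n, e)`, `n ∣ M'`, bad level
`N = M' * p`, `ℓ ∤ N` prime).

`α = heckeAlphaBar ℚ̄ N ℓ`, `β = heckeBetaBar ℚ̄ N ℓ : F̄_N → F̄_{Nℓ}`.  For a place `R` of the level `N ℓ`:
    `InW1 (R ∘ β) → InW1 (R ∘ α)`,      `InW2 (R ∘ β) → InW2 (R ∘ α)`.
Inputs:
* the modular equation over `A` (`ModEqSeries15`): `β s`, `α s` are integral over each other's `A`-chart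
  (`s = t^{±1}`);
* `CharpolyInt15` (x5 (i)): the coefficients of `χ_{e₀} = charpolyAlong α β e₀` are integral over `A[s]`;
* **the NAMED input C1** (helper20), in helper21's literal
  `CharpolyW21.CoeffIn (O1 M' p A) (rho1 M' p A) (CharpolyW21.chi M' p ℓ hfin) (ℓ + 1)`:
  for `f ∈ O1` the coefficients of `χ_f` lie in `O1`, and those of index `< ℓ + 1` reduce to `0` if `f`
  does; its `O2`-twin is helper21's `CharpolyW21.coeffIn_O2`;
* the generic place-level core `OffAlongGen15.off_along` (value formula + unit root).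

* `tV_mul_eq_alpha`, `beta_mem_chart_alpha`, `alpha_mem_chart_beta`, `beta_inv_mem_chart_alpha_inv`,
  `alpha_inv_mem_chart_beta_inv` : the modular equation in the Prelude's terms (any level);
* `coord_along` : the core at a chart coordinate;
* **`inW1_along`**, **`inW2_along`**.
-/
import Mathlib
import Fermat.Agent.ES.X44.OffAlongGen15
import Fermat.Agent.ES.X44.CharpolyInt15
import Fermat.Agent.ES.X44.CharpolyW21
import Fermat.Agent.ES.HECKE.AlongDegree25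
import Fermat.Agent.RED.TOP.FbarFacts20

set_option autoImplicit false
set_option synthInstance.maxHeartbeats 400000
set_option linter.unusedSectionVars false
set_option linter.style.haveILetI false

open HahnSeries ModularCurve AlgebraicCurve

noncomputable section

namespace Fermat.Agent.ES.X44.OffNodesAlong15

open Fermat.Agent.RED.Interface4 Fermat.Agent.RED.BASE.Interface12 Fermat.Agent.RED.BASE.Hauptmodul12
  Fermat.Agent.RED.BASE.EtaQuot12 Fermat.Agent.RED.PUR.ChartGeneric22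
  Fermat.Agent.X0 Fermat.Agent.X0.FF Fermat.Agent.ES.RED.PlaceValue13
  Fermat.Agent.ES.V19.InstNames3 Fermat.Agent.ES.W33.NodalDefs3
  Fermat.Agent.ES.X44.DegenMaps20 Fermat.Agent.ES.X44.ModEqGood15 Fermat.Agent.ES.X44.ModEqSeries15
  Fermat.Agent.ES.X44.CharpolyInt15 Fermat.Agent.ES.X44.CharpolyW21
  Fermat.Agent.ES.X44.OffAlongGen15 Fermat.Agent.ES.HECKE.AlongDegree25

attribute [local instance 5000] HahnSeries.powerSeriesAlgebra SubalgebraClass.toAlgebra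

/-! ### the modular equation over `A` in the Prelude's terms -/

section Levels

variable (n e N : ℕ) [NeZero n] [NeZero N] (p : ℕ) [Fact p.Prime]
  (hb : BaseHyp n e) (hnN : n ∣ N)
  (A : ValuationSubring Qbar) (hA : A.LiesOverPrime p) (ℓ : ℕ) [NeZero ℓ]
  (hℓ : ℓ.Prime) (hℓn : ¬ ℓ ∣ n) (hpn : ¬ p ∣ n * ℓ)

/-- the coordinate of the level `N ℓ` is `α` of the coordinate of the level `N`. -/
theorem tV_mul_eq_alpha :
    tV n e (N * ℓ) hb (Dvd.dvd.mul_right hnN ℓ) =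
      heckeAlphaBar Qbar N ℓ (tV n e N hb hnN) := by
  apply Subtype.ext
  rw [coe_heckeAlphaBar]
  exact (coe_tV n e (N * ℓ) hb (Dvd.dvd.mul_right hnN ℓ)).trans (coe_tV n e N hb hnN).symm

include hA hℓ hℓn hpn in
theorem beta_mem_chart_alpha :
    heckeBetaBar Qbar N ℓ (tV n e N hb hnN) ∈
      chart ↥A (heckeAlphaBar Qbar N ℓ (tV n e N hb hnN)) := by
  have h := beta_mem_chart n e N (N * ℓ) p hb hnN (Dvd.dvd.mul_right hnN ℓ) A hA ℓ hℓ hℓn hpn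
    (dvd_refl _)
  rw [betaL_eq_heckeBetaBar, tV_mul_eq_alpha n e N hb hnN ℓ] at h
  exact h

include hA hℓ hℓn hpn in
theorem alpha_mem_chart_beta :
    heckeAlphaBar Qbar N ℓ (tV n e N hb hnN) ∈
      chart ↥A (heckeBetaBar Qbar N ℓ (tV n e N hb hnN)) := by
  have h := t_mem_chart_beta n e N (N * ℓ) p hb hnN (Dvd.dvd.mul_right hnN ℓ) A hA ℓ hℓ hℓn hpn
    (dvd_refl _)
  rw [betaL_eq_heckeBetaBar, tV_mul_eq_alpha n e N hb hnN ℓ] at h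
  exact h

include hA hℓ hℓn hpn in
theorem beta_inv_mem_chart_alpha_inv :
    heckeBetaBar Qbar N ℓ (tV n e N hb hnN)⁻¹ ∈
      chart ↥A (heckeAlphaBar Qbar N ℓ (tV n e N hb hnN)⁻¹) := by
  have h := beta_inv_mem_chart n e N (N * ℓ) p hb hnN (Dvd.dvd.mul_right hnN ℓ) A hA ℓ hℓ hℓn
    hpn (dvd_refl _)
  rw [betaL_eq_heckeBetaBar, tV_mul_eq_alpha n e N hb hnN ℓ] at h
  rw [map_inv₀, map_inv₀]
  exact h

include hA hℓ hℓn hpn in
theorem alpha_inv_mem_chart_beta_inv :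
    heckeAlphaBar Qbar N ℓ (tV n e N hb hnN)⁻¹ ∈
      chart ↥A (heckeBetaBar Qbar N ℓ (tV n e N hb hnN)⁻¹) := by
  have h := t_inv_mem_chart_beta_inv n e N (N * ℓ) p hb hnN (Dvd.dvd.mul_right hnN ℓ) A hA ℓ hℓ
    hℓn hpn (dvd_refl _)
  rw [betaL_eq_heckeBetaBar, tV_mul_eq_alpha n e N hb hnN ℓ] at h
  rw [map_inv₀, map_inv₀]
  exact h

end Levels

/-! ### the nodal instance -/

section Inst

variable (n e M' : ℕ) [NeZero n] [NeZero M'] (p : ℕ) [Fact p.Prime] (hpM : ¬ p ∣ M')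
  (hb : BaseHyp n e) (hnM : n ∣ M') (A : ValuationSubring Qbar) (hA : A.LiesOverPrime p)
  (ℓ : ℕ) [NeZero ℓ] (hℓ : ℓ.Prime) (hℓN : ¬ ℓ ∣ M' * p)

include hnM hℓN in
theorem not_dvd_n : ¬ ℓ ∣ n := fun h => hℓN (Dvd.dvd.mul_right (h.trans hnM) p)

include hpM hnM hℓ hℓN in
theorem not_p_dvd : ¬ p ∣ n * ℓ := by
  intro h
  rcases (Fact.out : p.Prime).dvd_mul.1 h with h1 | h1
  · exact hpM (h1.trans hnM)
  · have h2 : p = ℓ := (Nat.prime_dvd_prime_iff_eq Fact.out hℓ).1 h1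
    apply hℓN
    rw [← h2]
    exact dvd_mul_left p M'

include hpM hA hℓ hℓN in
/-- **the core at a chart coordinate** `s = t^{±1}`: if `s (R ∘ β) ∈ A` and `e₀ (R ∘ β) ∈ Aˣ` for some
`e₀` integral over `A[s]`, then `s (R ∘ α) ∈ A` and some non-leading coefficient `c_i` of `χ_{e₀}`
(integral over `A[s]`) has `c_i (R ∘ α) ∈ Aˣ`. -/
theorem coord_along (hα : HeckeAlphaBarIntegral Qbar (M' * p) ℓ)
    (hβ : HeckeBetaBarIntegral Qbar (M' * p) ℓ)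
    (hfin : FiniteAlong Qbar (heckeAlphaBar Qbar (M' * p) ℓ))
    (R : Place Qbar ↥(Fbar (M' * p * ℓ)))
    {s : ↥(Fbar (M' * p))} (hsc : IsChartCoord n e M' p hb hnM s)
    {e₀ : ↥(Fbar (M' * p))} (he₀ : e₀ ∈ chart ↥A s)
    (hs : s ∈ (R.restrictAlong (heckeBetaBar Qbar (M' * p) ℓ) hβ).toValuationSubring)
    (hsA : valueHom (hxN n e M' p hb hnM)
      (R.restrictAlong (heckeBetaBar Qbar (M' * p) ℓ) hβ) ⟨s, hs⟩ ∈ A)
    (he : e₀ ∈ (R.restrictAlong (heckeBetaBar Qbar (M' * p) ℓ) hβ).toValuationSubring)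
    (heA : valueHom (hxN n e M' p hb hnM)
      (R.restrictAlong (heckeBetaBar Qbar (M' * p) ℓ) hβ) ⟨e₀, he⟩ ∈ A)
    (heA' : (valueHom (hxN n e M' p hb hnM)
      (R.restrictAlong (heckeBetaBar Qbar (M' * p) ℓ) hβ) ⟨e₀, he⟩)⁻¹ ∈ A)
    (hne : valueHom (hxN n e M' p hb hnM)
      (R.restrictAlong (heckeBetaBar Qbar (M' * p) ℓ) hβ) ⟨e₀, he⟩ ≠ 0) :
    ∃ hs' : s ∈ (R.restrictAlong (heckeAlphaBar Qbar (M' * p) ℓ) hα).toValuationSubring,
      valueHom (hxN n e M' p hb hnM)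
        (R.restrictAlong (heckeAlphaBar Qbar (M' * p) ℓ) hα) ⟨s, hs'⟩ ∈ A ∧
      ∃ i, i < ℓ + 1 ∧ (chi M' p ℓ hfin e₀).coeff i ∈ chart ↥A s ∧
        ∃ hc : (chi M' p ℓ hfin e₀).coeff i ∈
            (R.restrictAlong (heckeAlphaBar Qbar (M' * p) ℓ) hα).toValuationSubring,
          valueHom (hxN n e M' p hb hnM)
            (R.restrictAlong (heckeAlphaBar Qbar (M' * p) ℓ) hα) ⟨_, hc⟩ ∈ A ∧
          (valueHom (hxN n e M' p hb hnM)
            (R.restrictAlong (heckeAlphaBar Qbar (M' * p) ℓ) hα) ⟨_, hc⟩)⁻¹ ∈ A ∧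
          valueHom (hxN n e M' p hb hnM)
            (R.restrictAlong (heckeAlphaBar Qbar (M' * p) ℓ) hα) ⟨_, hc⟩ ≠ 0 := by
  have hnN : n ∣ M' * p := Dvd.dvd.mul_right hnM p
  have hℓn : ¬ ℓ ∣ n := not_dvd_n n M' p hnM ℓ hℓN
  have hpn : ¬ p ∣ n * ℓ := not_p_dvd n M' p hpM hnM ℓ hℓ hℓN
  haveI := Fermat.Agent.RED.TOP.FbarFacts20.hasPrincipalDivisors_bar (M' * p * ℓ)
  have hcp : ∀ i, (chi M' p ℓ hfin e₀).coeff i ∈ chart ↥A s := by
    rcases hsc with rfl | rfl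
    · exact fun i => coeff_charpoly_mem_chart0 n e (M' * p) p hb hnN A hA ℓ hℓ hℓN hpn hfin he₀ i
    · exact fun i => coeff_charpoly_mem_chart1 n e (M' * p) p hb hnN A hA ℓ hℓ hℓN hpn hfin he₀ i
  have hint : heckeBetaBar Qbar (M' * p) ℓ s ∈ chart ↥A (heckeAlphaBar Qbar (M' * p) ℓ s) ∧
      heckeAlphaBar Qbar (M' * p) ℓ s ∈ chart ↥A (heckeBetaBar Qbar (M' * p) ℓ s) := by
    rcases hsc with rfl | rfl
    · exact ⟨beta_mem_chart_alpha n e (M' * p) p hb hnN A hA ℓ hℓ hℓn hpn,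
        alpha_mem_chart_beta n e (M' * p) p hb hnN A hA ℓ hℓ hℓn hpn⟩
    · exact ⟨beta_inv_mem_chart_alpha_inv n e (M' * p) p hb hnN A hA ℓ hℓ hℓn hpn,
        alpha_inv_mem_chart_beta_inv n e (M' * p) p hb hnN A hA ℓ hℓ hℓn hpn⟩
  obtain ⟨hs', hs'A, i, hi, hc, h1, h2, h3⟩ := off_along A (hxN n e M' p hb hnM)
    (hxV n e (M' * p * ℓ) hb (Dvd.dvd.mul_right hnN ℓ))
    (heckeAlphaBar Qbar (M' * p) ℓ) (heckeBetaBar Qbar (M' * p) ℓ) hα hβ hfin s e₀ he₀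
    hint.1 hint.2 hcp R hs hsA he heA heA' hne
  rw [finrankAlong_alpha Qbar (M' * p) ℓ hℓ hℓN] at hi
  exact ⟨hs', hs'A, i, hi, hcp i, hc, h1, h2, h3⟩

include hpM hA hℓ hℓN in
/-- **`T_ℓ` preserves `W₁`** (place form): `R ∘ β ∈ W₁ ⇒ R ∘ α ∈ W₁`. -/
theorem inW1_along (hα : HeckeAlphaBarIntegral Qbar (M' * p) ℓ)
    (hβ : HeckeBetaBarIntegral Qbar (M' * p) ℓ)
    (hfin : FiniteAlong Qbar (heckeAlphaBar Qbar (M' * p) ℓ))
    (hC1 : CoeffIn (O1 M' p A) (rho1 M' p A) (chi M' p ℓ hfin) (ℓ + 1))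
    (R : Place Qbar ↥(Fbar (M' * p * ℓ)))
    (h : InW1 n e M' p hb hnM A (R.restrictAlong (heckeBetaBar Qbar (M' * p) ℓ) hβ)) :
    InW1 n e M' p hb hnM A (R.restrictAlong (heckeAlphaBar Qbar (M' * p) ℓ) hα) := by
  obtain ⟨s, hsc, ⟨hs, hsA⟩, e₀, he₀, ⟨h2, hρ⟩, he, heA, heA', hne⟩ := h
  obtain ⟨hs', hs'A, i, hi, hcs, hc, h1, h2', h3⟩ := coord_along n e M' p hpM hb hnM A hA ℓ hℓ hℓN
    hα hβ hfin R hsc he₀ hs hsA he heA heA' hne
  obtain ⟨hmem, hzero⟩ := coeffIn_O2 M' p A ℓ hℓ hℓN hfin hC1 e₀ h2 i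
  exact ⟨s, hsc, ⟨hs', hs'A⟩, _, hcs, ⟨hmem, hzero hρ hi⟩, hc, h1, h2', h3⟩

include hpM hA hℓ hℓN in
/-- **`T_ℓ` preserves `W₂`** (place form): `R ∘ β ∈ W₂ ⇒ R ∘ α ∈ W₂`. -/
theorem inW2_along (hα : HeckeAlphaBarIntegral Qbar (M' * p) ℓ)
    (hβ : HeckeBetaBarIntegral Qbar (M' * p) ℓ)
    (hfin : FiniteAlong Qbar (heckeAlphaBar Qbar (M' * p) ℓ))
    (hC1 : CoeffIn (O1 M' p A) (rho1 M' p A) (chi M' p ℓ hfin) (ℓ + 1))
    (R : Place Qbar ↥(Fbar (M' * p * ℓ)))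
    (h : InW2 n e M' p hb hnM A (R.restrictAlong (heckeBetaBar Qbar (M' * p) ℓ) hβ)) :
    InW2 n e M' p hb hnM A (R.restrictAlong (heckeAlphaBar Qbar (M' * p) ℓ) hα) := by
  obtain ⟨s, hsc, ⟨hs, hsA⟩, e₀, he₀, ⟨h2, hρ⟩, he, heA, heA', hne⟩ := h
  obtain ⟨hs', hs'A, i, hi, hcs, hc, h1, h2', h3⟩ := coord_along n e M' p hpM hb hnM A hA ℓ hℓ hℓN
    hα hβ hfin R hsc he₀ hs hsA he heA heA' hne
  obtain ⟨hmem, hzero⟩ := hC1 e₀ h2 i
  exact ⟨s, hsc, ⟨hs', hs'A⟩, _, hcs, ⟨hmem, hzero hρ hi⟩, hc, h1, h2', h3⟩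

end Inst

end Fermat.Agent.ES.X44.OffNodesAlong15
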