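/-
Programme X (S44), chapter (Old), leaf TorsToForm, file 3 of 4 (helper23):
**infinitely `p`-divisible `p`-torsion points come from the Tate module** (König's lemma), and the image of
`proj 1 : T_p J₀(N) → J₀(N)` is the image of helper18's `lamToTors : Λ_N → J₀(N)[p]`.

* `IsDiv p y` : `∀ k, ∃ z, p ^ k • z = y`;
* `IsDiv.exists_root` : `J[p]` finite, `y` divisible ⇒ some `w` with `p • w = y` is divisible again;
* `exists_tate_of_isDiv` : `J[p]` finite, `p • y = 0`, `y` divisible ⇒ `y = proj 1 x` for some `x : TateModule p J`;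
* `exists_lam_of_proj` : `proj 1 x = lamToTors p N m` for some `m : Λ_N`;
* `exists_lam_of_isDiv` : a divisible `y ∈ J₀(N)[p]` is `lamToTors p N m`.
-/
import Mathlib
import Fermat.Agent.ES.X44.OccTors18
import Fermat.Agent.ES.KUM.FiniteTorsion15

set_option autoImplicit false
set_option linter.unusedSectionVars false

noncomputable section

namespace Fermat.Agent.ES.X44.TateLift23

open Fermat.Agent.ES.J.TateModule13 Fermat.Agent.ES.J.TateJZero13
open Fermat.Agent.ES.K.HeckeTate26 Fermat.Agent.ES.X44.OccTors18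
open Fermat.Agent.ES.HEQ.FaithFinal26 Fermat.Agent.ES.HEQ.FaithInst26 ModularCurve

section Konig

variable {J : Type*} [AddCommGroup J]

/-- `y` is infinitely `p`-divisible. -/
def IsDiv (p : ℕ) (y : J) : Prop := ∀ k : ℕ, ∃ z : J, p ^ k • z = y

theorem IsDiv.map {J' : Type*} [AddCommGroup J'] {p : ℕ} {y : J} (h : IsDiv p y) (f : J →+ J') :
    IsDiv p (f y) := by
  intro k
  obtain ⟨z, hz⟩ := h k
  exact ⟨f z, by rw [← map_nsmul, hz]⟩

/-- **König step**: a divisible element has a divisible `p`-th root, if `J[p]` is finite. -/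
theorem IsDiv.exists_root {p : ℕ} [Finite {y : J // p • y = 0}] {y : J} (h : IsDiv p y) :
    ∃ w : J, p • w = y ∧ IsDiv p w := by
  classical
  -- `u n := p ^ n • (a (p^(n+1))-th root of y)` is a `p`-th root of `y`
  choose r hr using fun n : ℕ => h (n + 1)
  let u : ℕ → J := fun n => p ^ n • r n
  have hu : ∀ n, p • u n = y := by
    intro n
    show p • (p ^ n • r n) = y
    rw [smul_smul, ← pow_succ', hr n]
  -- the differences `u n - u 0` lie in the finite group `J[p]`
  let d : ℕ → {y : J // p • y = 0} := fun n => ⟨u n - u 0, by rw [smul_sub, hu n, hu 0, sub_self]⟩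
  obtain ⟨t, ht⟩ := Finite.exists_infinite_fiber d
  obtain ⟨n0, hn0⟩ := ht.nonempty
  refine ⟨u n0, hu n0, ?_⟩
  intro k
  -- some `n ≥ k` has `u n = u n0`
  obtain ⟨n, hn, hkn⟩ : ∃ n, n ∈ d ⁻¹' {t} ∧ k ≤ n := by
    obtain ⟨n, hn, hlt⟩ := (Set.infinite_coe_iff.mp ht).exists_gt k
    exact ⟨n, hn, hlt.le⟩
  have hd : d n = d n0 := by
    rw [Set.mem_preimage, Set.mem_singleton_iff] at hn hn0
    rw [hn, hn0]
  have hun : u n = u n0 := by
    have := congrArg Subtype.val hd
    exact sub_left_injective this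
  refine ⟨p ^ (n - k) • r n, ?_⟩
  rw [smul_smul, ← pow_add, Nat.add_sub_cancel' hkn, ← hun]

/-- a sequence of successive divisible `p`-th roots. -/
def divSeq {p : ℕ} [Finite {y : J // p • y = 0}] (y : J) (h : IsDiv p y) :
    ℕ → {z : J // IsDiv p z}
  | 0 => ⟨y, h⟩
  | n + 1 => ⟨(divSeq y h n).2.exists_root.choose, (divSeq y h n).2.exists_root.choose_spec.2⟩

theorem divSeq_zero {p : ℕ} [Finite {y : J // p • y = 0}] (y : J) (h : IsDiv p y) :
    (divSeq y h 0 : J) = y := rfl

theorem divSeq_succ {p : ℕ} [Finite {y : J // p • y = 0}] (y : J) (h : IsDiv p y) (n : ℕ) :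
    p • (divSeq y h (n + 1) : J) = (divSeq y h n : J) :=
  (divSeq y h n).2.exists_root.choose_spec.1

/-- **König**: a divisible `p`-torsion point is the first component of a compatible sequence. -/
theorem exists_tate_of_isDiv {p : ℕ} [Finite {y : J // p • y = 0}] {y : J} (hy : p • y = 0)
    (h : IsDiv p y) : ∃ x : TateModule p J, proj 1 x = y := by
  classical
  let s : ℕ → {z : J // IsDiv p z} := divSeq y h
  have hs0 : (s 0 : J) = y := divSeq_zero y h
  have hs : ∀ n, p • (s (n + 1) : J) = (s n : J) := divSeq_succ y h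
  let x : ℕ → J := fun k => Nat.casesOn k 0 (fun k => (s k : J))
  have hx : x ∈ tateSubgroup p J := by
    refine ⟨rfl, fun k => ?_⟩
    cases k with
    | zero =>
      show p • (s 0 : J) = 0
      rw [hs0, hy]
    | succ k => exact hs k
  exact ⟨⟨x, hx⟩, hs0⟩

end Konig

section Lam

variable (p : ℕ) [hp : Fact p.Prime] (N : ℕ) [NeZero N]

/-- the image of `proj 1` on `T_p J₀(N)` is the image of `lamToTors`. -/
theorem exists_lam_of_proj (x : TJ p N) : ∃ m : ↥(Lam N), lamToTors p N m = proj 1 x := by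
  refine (isBaseChange_iotaJ p N).inductionOn x (fun x => ∃ m : ↥(Lam N), lamToTors p N m = proj 1 x)
    ⟨0, by rw [map_zero, map_zero]⟩ (fun m => ⟨m, rfl⟩) ?_ ?_
  · rintro a x ⟨m, hm⟩
    refine ⟨cf p a 1 • m, ?_⟩
    rw [map_nsmul, hm, proj_smul]
  · rintro x₁ x₂ ⟨m₁, h₁⟩ ⟨m₂, h₂⟩
    exact ⟨m₁ + m₂, by rw [map_add, map_add, h₁, h₂]⟩

/-- `J₀(N)[p]` is finite. -/
theorem finite_ptors : Finite {y : JZero N // p • y = 0} :=
  haveI : NeZero p := ⟨hp.out.ne_zero⟩
  (Fermat.Agent.ES.KUM.FiniteTorsion15.finite_setOf_nsmul_eq_zero N p).to_subtype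

/-- **a divisible point of `J₀(N)[p]` comes from the lattice `Λ_N`.** -/
theorem exists_lam_of_isDiv {y : JZero N} (hy : p • y = 0) (h : IsDiv p y) :
    ∃ m : ↥(Lam N), lamToTors p N m = y := by
  haveI := finite_ptors p N
  obtain ⟨x, hx⟩ := exists_tate_of_isDiv hy h
  obtain ⟨m, hm⟩ := exists_lam_of_proj p N x
  exact ⟨m, hm.trans hx⟩

end Lam

end Fermat.Agent.ES.X44.TateLift23
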