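/-
Programme X (S44), chapter (Old), leaf TorsToForm, file 4 of 4 (helper23):
**a divisible Hecke eigenvector in `J₀(M)[p]` gives a normalised eigenform of level `M` with congruent eigenvalues.**

* `exists_eigenform_of_eigen_torsion` : `y ≠ 0` in `J₀(M)`, `p • y = 0`, `y` infinitely `p`-divisible
  (`TateLift23.IsDiv`), `T_ℓ y = a ℓ • y` for the primes `ℓ ∤ M` with `good ℓ` ⇒ a normalised eigenform `g` of
  level `M` and a maximal ideal `𝔪' ∋ p` of `ℤ̄` with `a_ℓ(g) ≡ a ℓ mod 𝔪'` for those `ℓ`.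
  Chain: `TateLift23.exists_lam_of_isDiv` (König + (K2)) ⇒ `m ∈ Λ_M ∖ pΛ_M` with `T_ℓ m ≡ a ℓ m`;
  `EigenLam23.exists_eigensystem_of_mod_eigen` (Deligne–Serre) ⇒ `w ∈ ℂ ⊗ Λ_M`;
  `LR/Final12.bcPar` ⇒ a parabolic hom; `FormOfHom23.exists_eigenform_of_hom_eigenvector` (Eichler–Shimura).
-/
import Mathlib
import Fermat.Agent.ES.X44.TateLift23
import Fermat.Agent.ES.X44.EigenLam23
import Fermat.Agent.ES.X44.FormOfHom23

set_option autoImplicit false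
set_option linter.unusedSectionVars false

noncomputable section

namespace Fermat.Agent.ES.X44.TorsToForm23

open CongruenceSubgroup CuspForm TensorProduct ModularCurve ModularCurve.Period
open Fermat.Agent.ES.HEQ.FaithFinal26 Fermat.Agent.ES.HEQ.FaithInst26
open Fermat.Agent.ES.X44.OccTors18 Fermat.Agent.ES.X44.TateLift23
open Fermat.Agent.ES.LR.Final12

/-- commutation of the double coset operators on `Λ` (as in `LR/Assemble12.dcZ_commute`). -/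
theorem dcZ_comm {N : ℕ} [NeZero N] (l l' : ℕ) (hl : l.Prime) (hlN : ¬ l ∣ N)
    (hl' : l'.Prime) (hl'N : ¬ l' ∣ N) :
    Commute (dcZ N l hl hlN) (dcZ N l' hl' hl'N) := by
  have hS : ∀ q : ℕ, q.Prime → q ∣ N → q ∈ {r : ℕ | r.Prime ∧ r ∣ N} := fun q hq hqN => ⟨hq, hqN⟩
  have hlS : l ∉ {r : ℕ | r.Prime ∧ r ∣ N} := fun h => hlN h.2
  have hl'S : l' ∉ {r : ℕ | r.Prime ∧ r ∣ N} := fun h => hl'N h.2
  rw [← heckeLam_T' _ hS l hl hlN hlS, ← heckeLam_T' _ hS l' hl' hl'N hl'S]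
  show _ * _ = _ * _
  rw [← map_mul, ← map_mul, mul_comm]

/-- **TorsToForm.** -/
theorem exists_eigenform_of_eigen_torsion {p M : ℕ} [hp : Fact p.Prime] [NeZero M]
    (good : ℕ → Prop) (a : ℕ → ℤ)
    (y : JZero M) (hy0 : y ≠ 0) (hpy : p • y = 0) (hdiv : IsDiv p y)
    (heig : ∀ ℓ (hℓ : ℓ.Prime), ¬ ℓ ∣ M → good ℓ → heckeOperatorBar M ⟨ℓ, hℓ⟩ y = a ℓ • y) :
    ∃ (g : CuspForm (Gamma0 M) 2) (𝔪' : Ideal (integralClosure ℤ ℂ)),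
      g.IsNormalizedEigenform ∧ 𝔪'.IsMaximal ∧ (p : integralClosure ℤ ℂ) ∈ 𝔪' ∧
      ∀ ℓ, ℓ.Prime → ¬ ℓ ∣ M → good ℓ →
        ∃ c : integralClosure ℤ ℂ, (c : ℂ) = ModularFormClass.qCoeff g ℓ ∧
          c - ((a ℓ : ℤ) : integralClosure ℤ ℂ) ∈ 𝔪' := by
  classical
  obtain ⟨m, hm⟩ := exists_lam_of_isDiv p M hpy hdiv
  -- the index type and the operators
  let ι : Type := {ℓ : ℕ // ℓ.Prime ∧ ¬ ℓ ∣ M ∧ good ℓ}
  let TX : ι → Module.End ℤ ↥(Lam M) := fun i => dcZ M i.1 i.2.1 i.2.2.1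
  have hTX : ∀ i j, Commute (TX i) (TX j) := fun i j => dcZ_comm _ _ _ _ _ _
  -- `m ∉ pΛ`
  have hm0 : ¬ ∃ m' : ↥(Lam M), m = (p : ℤ) • m' := by
    rintro ⟨m', rfl⟩
    apply hy0
    rw [← hm, map_zsmul, natCast_zsmul, p_smul_lamToTors]
  -- `m` is an eigenvector modulo `p`
  have hmeig : ∀ i : ι, ∃ m' : ↥(Lam M), TX i m - (a i.1) • m = (p : ℤ) • m' := by
    intro i
    apply lamToTors_eq_zero p M
    rw [map_sub, map_zsmul, ← hecke_lamToTors p M i.1 i.2.1 i.2.2.1 m, hm,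
      heig i.1 i.2.1 i.2.2.1 i.2.2.2, sub_self]
  -- Deligne–Serre
  obtain ⟨lam, 𝔪', w, hmax, hp𝔪, hw, hweig, hwcong⟩ :=
    Fermat.Agent.ES.X44.EigenLam23.exists_eigensystem_of_mod_eigen TX hTX hp.out
      (fun i => a i.1) m hm0 hmeig
  -- the parabolic hom
  have hφ0 : bcPar M w ≠ 0 := bcPar_ne_zero M hw
  let lamC : ℕ → ℂ := fun ℓ =>
    if h : ℓ.Prime ∧ ¬ ℓ ∣ M ∧ good ℓ then ((lam ⟨ℓ, h⟩ : integralClosure ℤ ℂ) : ℂ) else 0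
  have hlamC : ∀ i : ι, lamC i.1 = ((lam i : integralClosure ℤ ℂ) : ℂ) := by
    intro i
    simp only [lamC]
    rw [dif_pos i.2]
  obtain ⟨g, hgn, hgl⟩ :=
    Fermat.Agent.ES.X44.FormOfHom23.exists_eigenform_of_hom_eigenvector (M := M) good lamC
      (bcPar M w) (bcPar_mem M w) hφ0
      (by
        intro ℓ hℓ hℓM hP
        rw [← bcPar_dcZ]
        have := hweig ⟨ℓ, hℓ, hℓM, hP⟩
        rw [this, map_smul, hlamC ⟨ℓ, hℓ, hℓM, hP⟩])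
  refine ⟨g, 𝔪', hgn, hmax, hp𝔪, ?_⟩
  intro ℓ hℓ hℓM hP
  refine ⟨lam ⟨ℓ, hℓ, hℓM, hP⟩, ?_, hwcong ⟨ℓ, hℓ, hℓM, hP⟩⟩
  rw [hgl ℓ hℓ hℓM hP, hlamC ⟨ℓ, hℓ, hℓM, hP⟩]

end Fermat.Agent.ES.X44.TorsToForm23
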