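/-
Programme X (S44), chapter (Old), helper14: **the assembly of `S44Chain14c.Old3Chapter EigQLit9.EigQ`** from the two
remaining (Old) leaves, the chapter (QP) (`EigQLit9.QPChapter`) and Rem4 (`Rem4Stmt`, below).

`N` even, `N = m * 2 * p` with `m` odd, `M' = m * 2 * 2`, `N / p = m * 2`.

  `EigQ p M' a good`  ⇒ (QP) + `DSGlue14.ds_glue`        : a normalised eigenform of level `M'`, congruent to `W`
                      ⇒ `RChapter19.realExitD_level`      : `ι : E[p] ↪ J₀(M')`, equivariant, divisible image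
                      ⇒ `Rem4Stmt`                        : `ι' : E[p] ↪ J₀(m * 2)`, the same clauses
                      ⇒ `TorsToForm23`                    : a normalised eigenform of level `m * 2 = N / p`.
-/
import Mathlib
import Fermat.Agent.ES.X44.S44Chain14c
import Fermat.Agent.ES.X44.RChapter19
import Fermat.Agent.ES.X44.EigQLit9
import Fermat.Agent.ES.X44.DSGlue14
import Fermat.Agent.ES.X44.TorsToForm23

set_option autoImplicit false

noncomputable section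

namespace Fermat.Agent.ES.X44.Old3Asm14

open WeierstrassCurve WeierstrassCurve.Affine WeierstrassCurve.Affine.Point ModularCurve
open Fermat.Agent.RED.Interface4 (auxLevel)
open Fermat.Agent.ES.X44.XIface14 Fermat.Agent.ES.X44.XIface14b Fermat.Agent.ES.X44.S44Chain14c

local notation "Qb" => AlgebraicClosure ℚ

/-- **Rem4** (the leaf "remove the `4`"): an equivariant embedding `E[p] ↪ J₀(m · 2 · 2)` with divisible image
descends to `J₀(m · 2)` (`m` odd, `p ∤ m`), by the inertia-fixed vector at `2` and `S36Top12.FixTors`. -/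
def Rem4Stmt : Prop :=
  ∀ (P : FreyPackage) (m : ℕ) [NeZero (m * 2)] [NeZero (m * 2 * 2)] (W : WeierstrassCurve ℤ),
    W.IsIntegralModelOf P.freyCurve →
    GaloisRepIsIrreducible (K := AlgebraicClosure ℚ) ℚ P.freyCurve P.p →
    ¬ 2 ∣ m → ¬ P.p ∣ m →
    ∀ ι : Ep P →+ JZero (m * 2 * 2), RealClauses P (m * 2 * 2) W ι →
      (∀ (v : Ep P) (k : ℕ), ∃ z : JZero (m * 2 * 2), P.p ^ k • z = ι v) →
      ∃ ι' : Ep P →+ JZero (m * 2), RealClauses P (m * 2) W ι' ∧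
        ∀ (v : Ep P) (k : ℕ), ∃ z : JZero (m * 2), P.p ^ k • z = ι' v

/-- the arithmetic of the levels: `N = p * (2 * m)`, `m` odd, `M' * p = lcm N 4` ⇒ `M' = m * 2 * 2`. -/
theorem level_eq {p N M' m : ℕ} (hp : p.Prime) (hp2 : p ≠ 2) (hN : N = p * (2 * m)) (hm : ¬ 2 ∣ m)
    (e : M' * p = Nat.lcm N 4) : M' = m * 2 * 2 := by
  have h2p : ¬ 2 ∣ p := fun h => hp2 ((Nat.prime_dvd_prime_iff_eq Nat.prime_two hp).mp h).symm
  have hodd : ¬ 2 ∣ p * m := fun h => (Nat.prime_two.dvd_mul.mp h).elim h2p hm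
  have hcop2 : Nat.Coprime 2 (p * m) := (Nat.Prime.coprime_iff_not_dvd Nat.prime_two).mpr hodd
  have hcop : Nat.Coprime 4 (p * m) := by
    have h4 : (4 : ℕ) = 2 ^ 2 := by norm_num
    rw [h4]
    exact Nat.Coprime.pow_left 2 hcop2
  have hlcm : Nat.lcm N 4 = 4 * (p * m) := by
    apply Nat.dvd_antisymm
    · apply Nat.lcm_dvd
      · rw [hN]
        exact ⟨2, by ring⟩
      · exact dvd_mul_right _ _
    · apply Nat.Coprime.mul_dvd_of_dvd_of_dvd hcop (Nat.dvd_lcm_right N 4)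
      exact Dvd.dvd.trans ⟨2, by rw [hN]; ring⟩ (Nat.dvd_lcm_left N 4)
  have h1 : M' * p = (m * 2 * 2) * p := by rw [e, hlcm]; ring
  exact Nat.eq_of_mul_eq_mul_right hp.pos h1

/-- **(Old), `N` even**, from (QP) and Rem4. -/
theorem old3Chapter_of (hQP : Fermat.Agent.ES.X44.EigQLit9.QPChapter) (hRem4 : Rem4Stmt) :
    Old3Chapter Fermat.Agent.ES.X44.EigQLit9.EigQ := by
  intro P N M' _ W hcond hpN h2N e hW hirr heig
  have hp : P.p.Prime := P.pp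
  have hp5 := P.hp5
  have hp2 : P.p ≠ 2 := by omega
  have : Fact P.p.Prime := ⟨hp⟩
  -- the arithmetic of the levels
  obtain ⟨K, hK⟩ := hpN
  have h2p : ¬ 2 ∣ P.p := fun h => hp2 ((Nat.prime_dvd_prime_iff_eq Nat.prime_two hp).mp h).symm
  have h2K : 2 ∣ K := by
    rw [hK] at h2N
    exact (Nat.prime_two.dvd_mul.mp h2N).resolve_left h2p
  obtain ⟨m, hm⟩ := h2K
  have hN : N = P.p * (2 * m) := by rw [hK, hm]
  have hmodd : ¬ 2 ∣ m := by
    rintro ⟨m', rfl⟩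
    exact hcond.not_four_dvd ⟨P.p * m', by rw [hN]; ring⟩
  have hpm : ¬ P.p ∣ m := by
    rintro ⟨m', rfl⟩
    exact hcond.sq_not_dvd hp ⟨2 * m', by rw [hN]; ring⟩
  have hNp : N / P.p = m * 2 := by
    rw [hN, Nat.mul_div_cancel_left _ hp.pos, mul_comm]
  have haux : auxLevel P.p N = Nat.lcm N 4 := by
    unfold auxLevel
    rw [if_neg hp2]
  have hM' : M' = m * 2 * 2 := level_eq hp hp2 hN hmodd (e.trans haux)
  subst hM'
  have hm0 : m ≠ 0 := by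
    rintro rfl
    exact hcond.pos.ne' (by rw [hN]; ring)
  have : NeZero (m * 2) := ⟨by omega⟩
  have hpM' : ¬ P.p ∣ m * 2 * 2 := by
    intro h
    rcases hp.dvd_mul.mp h with h | h
    · rcases hp.dvd_mul.mp h with h | h
      · exact hpm h
      · exact hp2 ((Nat.prime_dvd_prime_iff_eq hp Nat.prime_two).mp h)
    · exact hp2 ((Nat.prime_dvd_prime_iff_eq hp Nat.prime_two).mp h)
  have h4M' : 4 ∣ m * 2 * 2 := ⟨m, by ring⟩
  -- (QP) + (DS)
  obtain ⟨A, hA, hEA⟩ := heig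
  have hqp := hQP P.p (m * 2 * 2) A hp hp5 hA hpM' h4M'
  obtain ⟨g, 𝔪', hg, hmax, hp𝔪, hcong⟩ :=
    Fermat.Agent.ES.X44.DSGlue14.ds_glue A hA (fun ℓ => W.apOfModel ℓ)
      (GoodAt W (m * 2 * 2 * P.p) P.p) (fun ℓ h hd => h.2.1 (Dvd.dvd.mul_right hd _)) hqp hEA
  have hcong' : ∀ ℓ : ℕ, ℓ.Prime → W.IsGoodPrimeFor ℓ → ¬ ℓ ∣ m * 2 * 2 → ℓ ≠ P.p →
      ∃ a : integralClosure ℤ ℂ, (a : ℂ) = ModularFormClass.qCoeff g ℓ ∧
        a - ((W.apOfModel ℓ : ℤ) : integralClosure ℤ ℂ) ∈ 𝔪' := by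
    intro ℓ hℓ hgW hℓM hℓp
    refine hcong ⟨ℓ, hℓ⟩ ⟨hgW, ?_, hℓp⟩
    intro h
    rcases hℓ.dvd_mul.mp h with h | h
    · exact hℓM h
    · exact hℓp ((Nat.prime_dvd_prime_iff_eq hℓ hp).mp h)
  -- (R) at the level `M'`
  obtain ⟨ι, hinj, heq, hhecke, hdiv⟩ :=
    Fermat.Agent.ES.X44.RChapter19.realExitD_level P (m * 2 * 2) hirr g W 𝔪' hg hW hmax hp𝔪 hcong'
  -- Rem4
  obtain ⟨ι', ⟨hinj', -, hhecke'⟩, hdiv'⟩ :=
    hRem4 P m W hW hirr hmodd hpm ι ⟨hinj, heq, hhecke⟩ hdiv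
  -- TorsToForm at the level `m * 2`
  have : Nontrivial (Ep P) := hirr.1
  obtain ⟨v, hv⟩ := exists_ne (0 : Ep P)
  have hy0 : ι' v ≠ 0 := fun h => hv (hinj' (h.trans (_root_.map_zero ι').symm))
  have hpy : P.p • ι' v = 0 := by
    rw [← map_nsmul, Fermat.Agent.ES.X44.RChapter19.nsmul_Ep, _root_.map_zero]
  obtain ⟨g', 𝔪'', hg', hmax', hp𝔪', hcong''⟩ :=
    Fermat.Agent.ES.X44.TorsToForm23.exists_eigenform_of_eigen_torsion (p := P.p) (M := m * 2)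
      (fun ℓ => W.IsGoodPrimeFor ℓ ∧ ℓ ≠ P.p) (fun ℓ => W.apOfModel ℓ) (ι' v) hy0 hpy
      (fun k => hdiv' v k)
      (fun ℓ hℓ hℓM hgood => hhecke' ⟨ℓ, hℓ⟩ ⟨hgood.1, hℓM, hgood.2⟩ v)
  rw [hNp]
  exact ⟨g', W, 𝔪'', hg', hW, hmax', hp𝔪', fun ℓ hℓ hgW hℓM hℓp =>
    hcong'' ℓ hℓ hℓM ⟨hgW, hℓp⟩⟩

end Fermat.Agent.ES.X44.Old3Asm14
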