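/-
Programme X (S44), chapter (Old), leaf Rem4, file 2 (helper23):
**a Galois-equivariant additive map `J₀(M) → J₀(M')` commutes with `T_ℓ` on the divisible `p`-torsion.**

`f : JZero M →+ JZero M'` with `f (σ • y) = σ • f y`; `y ∈ J₀(M)[p]` infinitely `p`-divisible
(`TateLift23.IsDiv`); `ℓ ∤ M M' p`.  Then `f (T_ℓ y) = T_ℓ (f y)`.  Proof: König gives `y = proj 1 x`,
`x ∈ T_p J₀(M)`; `TateModule13.map f` is Galois equivariant, hence commutes with `tT ℓ`
(`N35/QNewCore19.push_tT`: Eichler–Shimura + Chebotarev); project to level `1`.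
-/
import Mathlib
import Fermat.Agent.ES.X44.TateLift23
import Fermat.Agent.ES.N35.QNewCore19

set_option autoImplicit false
set_option linter.unusedSectionVars false

noncomputable section

namespace Fermat.Agent.ES.X44.PushHecke23

open ModularCurve
open Fermat.Agent.ES.J.TateModule13 Fermat.Agent.ES.J.TateJZero13
open Fermat.Agent.ES.X44.TateLift23

local notation "Qb" => AlgebraicClosure ℚ

variable {p : ℕ} [hp : Fact p.Prime] {M M' : ℕ} [NeZero M] [NeZero M']

/-- **Hecke equivariance of Galois-equivariant maps on the divisible `p`-torsion.** -/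
theorem hecke_push_of_isDiv (f : JZero M →+ JZero M')
    (hf : ∀ (σ : Qb ≃ₐ[ℚ] Qb) (y : JZero M), f (σ • y) = σ • f y)
    {ℓ : ℕ} (hℓ : ℓ.Prime) (hℓM : ¬ ℓ ∣ M) (hℓM' : ¬ ℓ ∣ M') (hℓp : ℓ ≠ p)
    {y : JZero M} (hy : p • y = 0) (hdiv : IsDiv p y) :
    f (heckeOperatorBar M ⟨ℓ, hℓ⟩ y) = heckeOperatorBar M' ⟨ℓ, hℓ⟩ (f y) := by
  haveI := finite_ptors p M
  obtain ⟨x, rfl⟩ := exists_tate_of_isDiv hy hdiv
  have hD : ∀ (σ : Qb ≃ₐ[ℚ] Qb) (x : TJ p M),
      (map f : TJ p M →ₗ[ℤ_[p]] TJ p M') (rhoT p M σ x) = rhoT p M' σ (map f x) := by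
    intro σ x
    ext k
    show f (σ • proj k x) = σ • f (proj k x)
    exact hf σ (proj k x)
  have h := Fermat.Agent.ES.N35.QNewCore19.push_tT (map f : TJ p M →ₗ[ℤ_[p]] TJ p M') hD hℓ hℓM
    hℓM' hℓp x
  have h1 := congrArg (proj 1) h
  rw [proj_map, proj_tT, proj_tT, proj_map] at h1
  exact h1

end Fermat.Agent.ES.X44.PushHecke23
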