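/-
Programme X (S44), chapter (QP), leaf I-c part 1 (helper26): **the small abstract inputs of the
(QP) assembly.**

* `surjective_r` : in a reduction context `RedCtx` in which every element of the special fibre is a
  reduction (`hfrac`), the reduction of places `r` is onto;
* `exists_place_notMem` : a function field (`LHyp`) over an infinite field with a non-constant
  element has a place outside any finite set;
* `exists_reducing_outside` : hence some place reduces outside any finite set (the input `hP` of
  `LatticeRed26` / `LiftReg26`);
* characteristic zero (`IsGen K x`, `[HasCanonicalDivisor]`): `regSpace_eq_L` (the regular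
  multiples of `dx` form `L(div dx)`), `finrank_regSpace` (`= genusFF K F`), `regular_outside`
  (its elements are regular outside the support of `div dx`).
-/
import Mathlib
import Fermat.Agent.ES.X44.KaehlerLit26
import Fermat.Agent.ES.V19.SupTrick15
import Fermat.Agent.RR.RRMain

set_option autoImplicit false

open AlgebraicCurve KaehlerDifferential

namespace Fermat.Agent.ES.X44.QPAbs26

open Fermat.Agent.X0.FF Fermat.Agent.RR.LSpace Fermat.Agent.ES.V19.GaussFrac15
  Fermat.Agent.ES.V19.SupTrick15 Fermat.Agent.ES.X44.KaehlerLit26

section Surj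

variable {L F k Ft : Type*} [Field L] [Field F] [Algebra L F] [Field k] [Field Ft] [Algebra k Ft]
  {A : ValuationSubring L} {π : ↥A →+* k} {G : Subring F} {red : ↥G →+* Ft}
  {r : Place L F → Place k Ft}

/-- **`r` is onto** as soon as every element of the special fibre is a reduction. -/
theorem surjective_r (C : RedCtx A π G red r) (HL : LHyp L F)
    (hfrac : ∀ φ : Ft, ∃ f : F, IsRedOf G red f φ) : Function.Surjective r := by
  classical
  intro w
  obtain ⟨ϖ, hϖ⟩ := IsDiscreteValuationRing.exists_irreducible w.toValuationSubring
  have hord : w.ord (ϖ : Ft) = 1 := w.ord_coe_irreducible hϖ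
  have hϖ0 : (ϖ : Ft) ≠ 0 := by
    intro h0
    rw [h0, Place.ord_zero] at hord
    exact zero_ne_one hord
  obtain ⟨f, hf⟩ := hfrac (ϖ : Ft)
  have hf0 : f ≠ 0 := (hf.isGU hϖ0).ne_zero
  have h1 := r1_isRedOf C HL f _ hf hϖ0 (divOf HL hf0) (fun P => divOf_apply HL hf0 P) w
  rw [hord, mapDomain_apply_eq_sum] at h1
  by_contra hcon
  push Not at hcon
  have : ∑ P ∈ (divOf HL hf0).support, (if r P = w then (divOf HL hf0) P else 0) = 0 :=
    Finset.sum_eq_zero fun P _ => by rw [if_neg (hcon P)]
  rw [this] at h1
  exact zero_ne_one h1

end Surj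

section Places

variable {K E : Type*} [Field K] [Field E] [Algebra K E]

/-- the value of a function at a place is unique. -/
theorem value_unique (v : Place K E) {t : E} {c c' : K}
    (hc : t = algebraMap K E c ∨ 0 < v.ord (t - algebraMap K E c))
    (hc' : t = algebraMap K E c' ∨ 0 < v.ord (t - algebraMap K E c')) : c = c' := by
  by_contra hne
  have hd : algebraMap K E (c' - c) ≠ 0 := by
    intro h0
    have := (algebraMap K E).injective (by rw [h0, map_zero] : algebraMap K E (c' - c) = algebraMap K E 0)
    exact hne (sub_eq_zero.mp this).symm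
  have hdecomp : algebraMap K E (c' - c) = (t - algebraMap K E c) - (t - algebraMap K E c') := by
    rw [map_sub]; ring
  have hpos : 0 < v.ord (algebraMap K E (c' - c)) := by
    rcases hc with hc | hc
    · rcases hc' with hc' | hc'
      · exfalso
        apply hne
        exact (algebraMap K E).injective (by rw [← hc, ← hc'])
      · have : algebraMap K E (c' - c) = -(t - algebraMap K E c') := by
          rw [hdecomp, hc, sub_self, zero_sub]
        rw [this, ord_neg]; exact hc'
    · rcases hc' with hc' | hc'
      · have : algebraMap K E (c' - c) = t - algebraMap K E c := by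
          rw [hdecomp, hc', sub_self (algebraMap K E c'), sub_zero]
        rw [this]; exact hc
      · have hne' : (t - algebraMap K E c) - (t - algebraMap K E c') ≠ 0 := by
          rw [← hdecomp]; exact hd
        have := ord_sub_ge v hne'
        rw [hdecomp]
        exact lt_of_lt_of_le (lt_min hc hc') this
  rw [ord_algebraMap] at hpos
  exact lt_irrefl _ hpos

/-- **A function field over an infinite field with a non-constant element has a place outside any
finite set.** -/
theorem exists_place_notMem (H : LHyp K E) [Infinite K] (t : E)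
    (ht : ∀ c : K, t ≠ algebraMap K E c) (T : Finset (Place K E)) : ∃ w : Place K E, w ∉ T := by
  classical
  -- the finitely many values of `t` on `T`
  let val : Place K E → K := fun w =>
    if h : t ∈ w.toValuationSubring then Classical.choose (H.residue w t h) else 0
  obtain ⟨c, hc⟩ := Infinite.exists_notMem_finset (T.image val)
  set φ : E := t - algebraMap K E c with hφ
  have hφ0 : φ ≠ 0 := fun h => ht c (sub_eq_zero.mp h)
  -- `φ⁻¹` is not constant, hence has a pole: a zero of `φ`
  have hnc : ¬ ∀ v : Place K E, 0 ≤ v.ord φ⁻¹ := by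
    intro hall
    obtain ⟨d, hd⟩ := eq_algebraMap_of_forall_ord_nonneg H hall
    have hd0 : d ≠ 0 := by
      rintro rfl
      rw [map_zero] at hd
      exact inv_ne_zero hφ0 hd
    apply ht (c + d⁻¹)
    have : φ = algebraMap K E d⁻¹ := by
      rw [map_inv₀, ← hd, inv_inv]
    rw [map_add, ← this, hφ]; ring
  push Not at hnc
  obtain ⟨w, hw⟩ := hnc
  rw [Place.ord_inv] at hw
  have hwpos : 0 < w.ord φ := by omega
  refine ⟨w, fun hwT => hc ?_⟩
  rw [Finset.mem_image]
  refine ⟨w, hwT, ?_⟩
  have hreg : t ∈ w.toValuationSubring := by
    have h1 : φ ∈ w.toValuationSubring := mem_of_ord_nonneg w hwpos.le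
    have h2 : algebraMap K E c ∈ w.toValuationSubring :=
      mem_of_ord_nonneg w (by rw [ord_algebraMap])
    have : t = φ + algebraMap K E c := by rw [hφ]; ring
    rw [this]
    exact add_mem h1 h2
  show val w = c
  simp only [val, dif_pos hreg]
  exact value_unique w (Classical.choose_spec (H.residue w t hreg)) (Or.inr hwpos)

end Places

section Outside

variable {L F k Ft : Type*} [Field L] [Field F] [Algebra L F] [Field k] [Field Ft] [Algebra k Ft]
  {r : Place L F → Place k Ft}

/-- **(hP)** some place reduces outside any finite set. -/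
theorem exists_reducing_outside (hsurj : Function.Surjective r) (HLt : LHyp k Ft) [Infinite k]
    (t : Ft) (ht : ∀ c : k, t ≠ algebraMap k Ft c) (T : Finset (Place k Ft)) :
    ∃ P : Place L F, r P ∉ T := by
  obtain ⟨w, hw⟩ := exists_place_notMem HLt t ht T
  obtain ⟨P, hP⟩ := hsurj w
  exact ⟨P, by rw [hP]; exact hw⟩

end Outside

section CharZero

variable {K F : Type*} [Field K] [Field F] [Algebra K F] [IsAlgClosed K] [CharZero K] {x : F}
  [HasCanonicalDivisor (K := K) (F := F)]

/-- the regular multiples of `dx` form `L(div dx)`. -/
theorem regSpace_eq_L (hx : IsGen K x) :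
    regSpace (kaehlerHyp_of_isGen hx) =
      riemannRochSpace (canonicalDivisorOf (Fermat.Agent.X0.FF.D_ne_zero hx)) := by
  ext h
  rw [mem_regSpace, Fermat.Agent.RR.RRMain.mem_L_dx_iff' hx]
  constructor
  · exact fun hh => Or.inr hh
  · rintro (rfl | hh)
    · exact (regSpace (kaehlerHyp_of_isGen hx)).zero_mem
    · exact hh

/-- **`dim (regSpace) = genusFF`** in characteristic zero. -/
theorem finrank_regSpace (hx : IsGen K x) :
    Module.finrank K (regSpace (kaehlerHyp_of_isGen hx)) = genusFF K F := by
  rw [regSpace_eq_L hx, Fermat.Agent.RR.RRMain.finrank_L_dx_eq_genus hx,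
    Fermat.Agent.RR.RRMain.genus_eq_genusFF hx]

/-- the elements of `regSpace` are regular outside the support of `div dx`. -/
theorem regular_outside (hx : IsGen K x) {f : F} (hf : f ∈ regSpace (kaehlerHyp_of_isGen hx))
    (P : Place K F)
    (hP : P ∉ (canonicalDivisorOf (Fermat.Agent.X0.FF.D_ne_zero hx)).support) :
    0 ≤ P.ord f := by
  rw [regSpace_eq_L hx] at hf
  rcases mem_riemannRochSpace_iff.mp hf P with h | h
  · rw [h, Place.ord_zero]
  · rw [Finsupp.notMem_support_iff] at hP
    rw [hP] at h
    simpa using h

end CharZero

end Fermat.Agent.ES.X44.QPAbs26
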