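/-
Programme X (S44), chapter (QP), leaf I-c part 2 (helper26): **the abstract lifting theorem
`LiftReg26.exists_lift` AT MAIN'S OBJECTS.**

Instance block = the variable block of `V19/LHypFt13` §Concrete: Hauptmodul datum `(n, e)`, level `M`,
`ℓ ∤ M`, `A ≤ ℚ̄` over `ℓ`, `r` a place reduction (`IsPlaceReductionModL A M r`).  Objects:
`F = X0.FF M`, `F̃ = modularFunctionFieldFullC k̄ M`, `G = gaussRingN`, `red = gaussRedN`,
`x = tF`, `x̃ = tRes`.

* `redCtx`, `lHyp_F`, `hfrac`, `surjective_r`, `exists_reducing_outside` : the context;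
* `kaehlerHyp_F` (characteristic zero), `KaehlerFt18.kaehlerHyp_Ft` (special fibre, helper18);
* `regular_outside_image` : the finite set of discs outside which `regSpace` is regular;
* `finrank_le` : `dim regSpace(F̃) ≤ dim regSpace(F)` from (K3) `dim regSpace(F̃) ≤ g̃`, (L2) `g̃ ≤ g`
  and characteristic-zero Riemann–Roch;
* **`exists_lift`** : from the instance inputs `DRed` (I-a), `Unif` (I-b) and (K3): every
  `φ ∈ regSpace(F̃)` is the reduction of some `h ∈ regSpace(F)`.
-/
import Mathlib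
import Fermat.Agent.ES.X44.GenusGe26
import Fermat.Agent.ES.X44.LiftReg26
import Fermat.Agent.ES.X44.QPAbs26
import Fermat.Agent.ES.X44.KaehlerFt18
import Fermat.Agent.ES.V19.LHypFt13
import Fermat.Agent.ES.V19.RedCtxInst15
import Fermat.Agent.ES.RED.SpecialInv25
import Fermat.Agent.X0.HasCanDivInst

set_option autoImplicit false
set_option synthInstance.maxHeartbeats 400000
set_option linter.unusedSectionVars false
set_option linter.style.haveILetI false

open AlgebraicCurve ModularCurve HahnSeries KaehlerDifferential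

noncomputable section

namespace Fermat.Agent.ES.X44.QPInst26

open Fermat.Agent.X0 Fermat.Agent.X0.FF Fermat.Agent.RR.LSpace
open Fermat.Agent.RED.Interface4 Fermat.Agent.RED.BASE
open Fermat.Agent.ES.RED.SpecialGen25 Fermat.Agent.ES.RED.GaussRing15
open Fermat.Agent.ES.V19.GaussFrac15 Fermat.Agent.ES.V19.SupTrick15
open Fermat.Agent.ES.X44.KaehlerLit26 Fermat.Agent.ES.X44.RegRed26

variable (n e M : ℕ) [NeZero n] [NeZero M] (ℓ : ℕ) [Fact ℓ.Prime] (hℓM : ¬ ℓ ∣ M)
  (hmem : Interface12.TMem n e M) (hgen : Interface12.TGenBase n e)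
  (A : ValuationSubring Qbar) (hA : A.LiesOverPrime ℓ)
  {r : Place Qbar (modularFunctionFieldBar M) →
    Place (IsLocalRing.ResidueField ↥A) (modularFunctionFieldFullC (IsLocalRing.ResidueField ↥A) M)}
  (hr : IsPlaceReductionModL A M r)

include hℓM hmem hgen hA

include hr in
/-- the reduction context. -/
theorem redCtx :
    RedCtx A (IsLocalRing.residue ↥A) (gaussRingN A (IsLocalRing.residue ↥A) M)
      (gaussRedN A (IsLocalRing.residue ↥A) M) r :=
  Fermat.Agent.ES.V19.SupTrickInst15.redCtx_modL A M r hr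
    (Fermat.Agent.ES.V19.ScaleQbar8.exists_scale A ℓ hA M hℓM)

/-- `LHyp` on the generic fibre. -/
theorem lHyp_F : LHyp Qbar (X0.FF M) :=
  Fermat.Agent.RR.LHypGen.lHyp_of_isGen (Fermat.Agent.ES.RED.SpecialInv25.isGen_tF n e M hmem)

/-- the differential interface on the generic fibre. -/
theorem kaehlerHyp_F : KaehlerHyp Qbar (X0.FF M) (Interface12.tF M hmem) :=
  kaehlerHyp_of_isGen (Fermat.Agent.ES.RED.SpecialInv25.isGen_tF n e M hmem)

/-- every element of the special fibre is a reduction. -/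
theorem hfrac (φ : ↥(modularFunctionFieldFullC (IsLocalRing.ResidueField ↥A) M)) :
    ∃ f : X0.FF M, IsRedOf (gaussRingN A (IsLocalRing.residue ↥A) M)
      (gaussRedN A (IsLocalRing.residue ↥A) M) f φ := by
  obtain ⟨Ya, Yb, ha, hb, hak, hbk, hb0, hab⟩ :=
    Fermat.Agent.ES.V19.LHypFt13.fracRed_Ft n e M ℓ hℓM hmem hgen A hA (φ : LaurentSeries _) φ.2
  set a : ↥(gaussRingN A (IsLocalRing.residue ↥A) M) :=
    ⟨⟨coeffMap A.subtype Ya, ha⟩, mem_gaussRing_of_coeffMap A _ _ _ Ya ha hak⟩ with hadef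
  set b : ↥(gaussRingN A (IsLocalRing.residue ↥A) M) :=
    ⟨⟨coeffMap A.subtype Yb, hb⟩, mem_gaussRing_of_coeffMap A _ _ _ Yb hb hbk⟩ with hbdef
  have hra : gaussRedN A (IsLocalRing.residue ↥A) M a = ⟨coeffMap _ Ya, hak⟩ :=
    gaussRed_mk A _ _ _ Ya ha hak
  have hrb : gaussRedN A (IsLocalRing.residue ↥A) M b = ⟨coeffMap _ Yb, hbk⟩ :=
    gaussRed_mk A _ _ _ Yb hb hbk
  have hrb0 : gaussRedN A (IsLocalRing.residue ↥A) M b ≠ 0 := by
    rw [hrb]
    intro h0
    exact hb0 (congrArg Subtype.val h0)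
  have hb0' : (b : X0.FF M) ≠ 0 := coe_ne_zero_of_red_ne_zero hrb0
  refine ⟨(a : X0.FF M) / (b : X0.FF M), a, b, hrb0, div_mul_cancel₀ _ hb0', ?_⟩
  rw [hra, hrb]
  exact Subtype.ext hab

include hr in
/-- the reduction of places is onto. -/
theorem surjective_r : Function.Surjective r :=
  Fermat.Agent.ES.X44.QPAbs26.surjective_r (redCtx n e M ℓ hℓM hmem hgen A hA hr) (lHyp_F n e M ℓ hℓM hmem hgen A hA)
    (hfrac n e M ℓ hℓM hmem hgen A hA)

include hr in
/-- **(hP)** some place reduces outside any finite set. -/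
theorem exists_reducing_outside
    (T : Finset (Place (IsLocalRing.ResidueField ↥A)
      (modularFunctionFieldFullC (IsLocalRing.ResidueField ↥A) M))) :
    ∃ P : Place Qbar (X0.FF M), r P ∉ T := by
  haveI : IsAlgClosed (IsLocalRing.ResidueField ↥A) :=
    Fermat.Agent.ES.KRON.KronInst10.isAlgClosed_residueField A
  exact Fermat.Agent.ES.X44.QPAbs26.exists_reducing_outside
    (surjective_r n e M ℓ hℓM hmem hgen A hA hr)
    (Fermat.Agent.ES.V19.LHypFt13.lHyp_Ft n e M ℓ hℓM hmem hgen A hA hr)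
    (tRes n e M ℓ hℓM hmem hgen A hA)
    (fun c h => (isGen_tRes n e M ℓ hℓM hmem hgen A hA).sub_algebraMap_ne_zero c
      (by rw [h, sub_self])) T

include hr in
/-- **(hS)** a finite set of discs outside which the elements of `regSpace` are regular. -/
theorem exists_regular_outside :
    ∃ S : Finset (Place (IsLocalRing.ResidueField ↥A)
        (modularFunctionFieldFullC (IsLocalRing.ResidueField ↥A) M)),
      ∀ f ∈ regSpace (kaehlerHyp_F n e M ℓ hℓM hmem hgen A hA), ∀ P : Place Qbar (X0.FF M),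
        r P ∉ S → 0 ≤ P.ord f := by
  classical
  haveI : HasCanonicalDivisor (K := Kbar) (F := X0.FF M) :=
    Fermat.Agent.X0.HasCanDivInst.hasCanonicalDivisor M
  have hx := Fermat.Agent.ES.RED.SpecialInv25.isGen_tF n e M hmem
  refine ⟨(canonicalDivisorOf (Fermat.Agent.X0.FF.D_ne_zero hx)).support.image r,
    fun f hf P hP => ?_⟩
  exact Fermat.Agent.ES.X44.QPAbs26.regular_outside hx hf P
    (fun hPm => hP (Finset.mem_image_of_mem r hPm))

include hr in
/-- **(hle)** `dim regSpace(F̃) ≤ dim regSpace(F)` from (K3), (L2) and Riemann–Roch in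
characteristic zero. -/
theorem finrank_le
    (hK3 : Module.finrank (IsLocalRing.ResidueField ↥A)
        (regSpace (Fermat.Agent.ES.X44.KaehlerFt18.kaehlerHyp_Ft n e M ℓ hℓM hmem hgen A hA)) ≤
      genusFF (IsLocalRing.ResidueField ↥A)
        (modularFunctionFieldFullC (IsLocalRing.ResidueField ↥A) M)) :
    Module.finrank (IsLocalRing.ResidueField ↥A)
        (regSpace (Fermat.Agent.ES.X44.KaehlerFt18.kaehlerHyp_Ft n e M ℓ hℓM hmem hgen A hA)) ≤
      Module.finrank Qbar (regSpace (kaehlerHyp_F n e M ℓ hℓM hmem hgen A hA)) := by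
  haveI : HasCanonicalDivisor (K := Kbar) (F := X0.FF M) :=
    Fermat.Agent.X0.HasCanDivInst.hasCanonicalDivisor M
  have hx := Fermat.Agent.ES.RED.SpecialInv25.isGen_tF n e M hmem
  have h1 := Fermat.Agent.ES.X44.GenusGe26.genusFF_le (redCtx n e M ℓ hℓM hmem hgen A hA hr)
    (lHyp_F n e M ℓ hℓM hmem hgen A hA)
    (Fermat.Agent.ES.V19.LHypFt13.lHyp_Ft n e M ℓ hℓM hmem hgen A hA hr)
    (exists_reducing_outside n e M ℓ hℓM hmem hgen A hA hr)
    (Fermat.Agent.RR.LHypGen.riemann_inequality_of_isGen hx)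
    (Fermat.Agent.ES.V19.LHypFt13.riemann_inequality_Ft n e M ℓ hℓM hmem hgen A hA hr)
  have h2 : Module.finrank Qbar (regSpace (kaehlerHyp_F n e M ℓ hℓM hmem hgen A hA)) =
      genusFF Qbar (X0.FF M) := Fermat.Agent.ES.X44.QPAbs26.finrank_regSpace hx
  rw [h2]
  exact hK3.trans h1

include hr in
/-- **the lifting theorem at main's objects**, from the instance inputs (I-a) `DRed`, (I-b) `Unif`
and (K3). -/
theorem exists_lift
    (hD : DRed (L := Qbar) (k := IsLocalRing.ResidueField ↥A)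
      (gaussRingN A (IsLocalRing.residue ↥A) M) (gaussRedN A (IsLocalRing.residue ↥A) M)
      (Interface12.tF M hmem) (tRes n e M ℓ hℓM hmem hgen A hA))
    (hU : Unif (gaussRingN A (IsLocalRing.residue ↥A) M) (gaussRedN A (IsLocalRing.residue ↥A) M) r)
    (hfin : Module.Finite (IsLocalRing.ResidueField ↥A)
      (regSpace (Fermat.Agent.ES.X44.KaehlerFt18.kaehlerHyp_Ft n e M ℓ hℓM hmem hgen A hA)))
    (hK3 : Module.finrank (IsLocalRing.ResidueField ↥A)
        (regSpace (Fermat.Agent.ES.X44.KaehlerFt18.kaehlerHyp_Ft n e M ℓ hℓM hmem hgen A hA)) ≤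
      genusFF (IsLocalRing.ResidueField ↥A)
        (modularFunctionFieldFullC (IsLocalRing.ResidueField ↥A) M))
    (φ : ↥(modularFunctionFieldFullC (IsLocalRing.ResidueField ↥A) M))
    (hφ : φ ∈ regSpace
      (Fermat.Agent.ES.X44.KaehlerFt18.kaehlerHyp_Ft n e M ℓ hℓM hmem hgen A hA)) :
    ∃ h ∈ regSpace (kaehlerHyp_F n e M ℓ hℓM hmem hgen A hA),
      IsRedOf (gaussRingN A (IsLocalRing.residue ↥A) M) (gaussRedN A (IsLocalRing.residue ↥A) M)
        h φ := by
  obtain ⟨S, hS⟩ := exists_regular_outside n e M ℓ hℓM hmem hgen A hA hr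
  haveI := hfin
  exact Fermat.Agent.ES.X44.LiftReg26.exists_lift (redCtx n e M ℓ hℓM hmem hgen A hA hr)
    (lHyp_F n e M ℓ hℓM hmem hgen A hA)
    (Fermat.Agent.ES.V19.LHypFt13.lHyp_Ft n e M ℓ hℓM hmem hgen A hA hr)
    (exists_reducing_outside n e M ℓ hℓM hmem hgen A hA hr)
    (kaehlerHyp_F n e M ℓ hℓM hmem hgen A hA)
    (Fermat.Agent.ES.X44.KaehlerFt18.kaehlerHyp_Ft n e M ℓ hℓM hmem hgen A hA) hD hU
    IsLocalRing.residue_surjective S hS (finrank_le n e M ℓ hℓM hmem hgen A hA hr hK3) φ hφ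

end Fermat.Agent.ES.X44.QPInst26
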