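/-
Programme X (S44), chapter (QP), ASSEMBLY (helper26): **`EigQLit9.QPStmt` at main's objects from the
leaves.**

Instance block of `V19/LHypFt13` §Concrete with `ℓ = p`.  Inputs:
(I-a) `DRed`, (I-b) `Unif`, (K3) `regSpace(F̃)` finite-dimensional of dimension `≤ g̃`,
(A) a regular logarithmic differential `dḠ/Ḡ` is `φ · dt̃` with `φ ∈ regSpace(F̃)`, on `q`-expansions
`φ · θ t̃ = dlogQ Ḡ`, and `dlogQ Ḡ` has no coefficients in degrees `≤ 0`,
(C) a Gauss-integral regular differential `h · dt` reducing to `φ · dt̃` gives a cusp form with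
coefficients in `A` whose `q`-expansion reduces to `φ · θ t̃`.
Output: `qpStmt_of_inputs : EigQLit9.QPStmt p M A`.
-/
import Mathlib
import Fermat.Agent.ES.X44.QPInst26
import Fermat.Agent.ES.X44.EigQLit9

set_option autoImplicit false
set_option synthInstance.maxHeartbeats 400000
set_option linter.unusedSectionVars false

open AlgebraicCurve ModularCurve HahnSeries KaehlerDifferential

noncomputable section

namespace Fermat.Agent.ES.X44.QPAsm26

open Fermat.Agent.X0 Fermat.Agent.X0.FF Fermat.Agent.RR.LSpace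
open Fermat.Agent.RED.Interface4 Fermat.Agent.RED.BASE Fermat.Agent.RED.BASE.EtaQuot12
open Fermat.Agent.ES.RED.SpecialGen25 Fermat.Agent.ES.RED.GaussRing15
open Fermat.Agent.ES.V19.GaussFrac15 Fermat.Agent.ES.V19.SupTrick15
open Fermat.Agent.ES.X44.KaehlerLit26 Fermat.Agent.ES.X44.RegRed26
open Fermat.Agent.ES.X44.KaehlerFt18 Fermat.Agent.ES.X44.QPInst26 Fermat.Agent.ES.X44.EigQLit9
open Fermat.Agent.IG.PR.Theta20 (theta)

variable (n e M : ℕ) [NeZero n] [NeZero M] (p : ℕ) [Fact p.Prime] (hpM : ¬ p ∣ M)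
  (hmem : Interface12.TMem n e M) (hgen : Interface12.TGenBase n e)
  (A : ValuationSubring Qbar) (hA : A.LiesOverPrime p)
  {r : Place Qbar (modularFunctionFieldBar M) →
    Place (IsLocalRing.ResidueField ↥A) (modularFunctionFieldFullC (IsLocalRing.ResidueField ↥A) M)}
  (hr : IsPlaceReductionModL A M r)

include hr in
/-- **(QP) at main's objects from the leaves.** -/
theorem qpStmt_of_inputs
    (hD : DRed (L := Qbar) (k := IsLocalRing.ResidueField ↥A)
      (gaussRingN A (IsLocalRing.residue ↥A) M) (gaussRedN A (IsLocalRing.residue ↥A) M)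
      (Interface12.tF M hmem) (tRes n e M p hpM hmem hgen A hA))
    (hU : Unif (gaussRingN A (IsLocalRing.residue ↥A) M) (gaussRedN A (IsLocalRing.residue ↥A) M) r)
    (hfin : Module.Finite (IsLocalRing.ResidueField ↥A)
      (regSpace (kaehlerHyp_Ft n e M p hpM hmem hgen A hA)))
    (hK3 : Module.finrank (IsLocalRing.ResidueField ↥A)
        (regSpace (kaehlerHyp_Ft n e M p hpM hmem hgen A hA)) ≤
      genusFF (IsLocalRing.ResidueField ↥A)
        (modularFunctionFieldFullC (IsLocalRing.ResidueField ↥A) M))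
    (hDlog : ∀ G : FtQ M A, G ≠ 0 → IsRegDlog p M A G →
      (∀ m : ℤ, m ≤ 0 →
        (dlogQ (G : LaurentSeries (IsLocalRing.ResidueField ↥A))).coeff m = 0) ∧
      ∃ φ ∈ regSpace (kaehlerHyp_Ft n e M p hpM hmem hgen A hA),
        (φ : LaurentSeries (IsLocalRing.ResidueField ↥A)) *
            theta (tq (IsLocalRing.ResidueField ↥A) n e) =
          dlogQ (G : LaurentSeries (IsLocalRing.ResidueField ↥A)))
    (hForm : ∀ h ∈ regSpace (kaehlerHyp_F n e M p hpM hmem hgen A hA),
      ∀ φ : ↥(modularFunctionFieldFullC (IsLocalRing.ResidueField ↥A) M),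
      IsRedOf (gaussRingN A (IsLocalRing.residue ↥A) M) (gaussRedN A (IsLocalRing.residue ↥A) M)
        h φ →
      ∃ (f : CuspForm (CongruenceSubgroup.Gamma0 M) 2) (c : ℕ → ↥A),
        (∀ m : ℕ, ModularFormClass.qCoeff f m = Fermat.Agent.X0.iotaK ((c m : ↥A) : Qbar)) ∧
        ∀ m : ℕ, IsLocalRing.residue ↥A (c m) =
          ((φ : LaurentSeries (IsLocalRing.ResidueField ↥A)) *
            theta (tq (IsLocalRing.ResidueField ↥A) n e)).coeff (m : ℤ)) :
    QPStmt p M A := by
  intro G hG hreg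
  obtain ⟨hneg, φ, hφ, hφG⟩ := hDlog G hG hreg
  refine ⟨hneg, ?_⟩
  obtain ⟨h, hh, hred⟩ := exists_lift n e M p hpM hmem hgen A hA hr hD hU hfin hK3 φ hφ
  obtain ⟨f, c, hfc, hc⟩ := hForm h hh φ hred
  refine ⟨f, c, hfc, fun m => ?_⟩
  rw [hc m, hφG]

end Fermat.Agent.ES.X44.QPAsm26
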