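/-
(QP) K2, helper25: **Tate's residue theorem from `LHyp` alone** (any base field, any
characteristic).  Re-instantiation of the (GLOB) chain `RR/ResidueGlob` + `RR/ResidueLocalInst`
(helper9/helper18), whose only characteristic-zero inputs (`FF1Data`) are replaced by the
`LHyp`-only copies `V19/AdelesL8`, `V19/H1FiniteL8` (helper8).

* `inE_mulR HL f`        : multiplication by `f` on the adeles is in `E(A(0))`;
* `global_fp`, `global_zero` : (GLOB0) for the adelic commutator;
* `residueThmData HL hR : ResidueThm.ResidueData K F`;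
* `resL HL v : Ω[F⁄K] →ₗ[K] K` := `LocalRes.resΩ v (HL.residue v)`, with the two local
  properties `resL_smul_D_eq_zero`, `resL_smul_D_ne_zero`, `resL_inv_smul_D_uniformizer`;
* **`finsum_resL_eq_zero HL hR ω : ∑ᶠ v, resL HL v ω = 0`**, `finite_support_resL`.
-/
import Mathlib
import Fermat.Prelude.Def_AlgebraicCurve_Repartitions
import Fermat.Prelude.Def_AlgebraicCurve_CanonicalDivisor
import Fermat.Agent.RR.ResidueGlob
import Fermat.Agent.RR.ResidueLocalInst
import Fermat.Agent.RR.LocalResMain
import Fermat.Agent.ES.V19.AdelesL8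
import Fermat.Agent.ES.V19.H1FiniteL8

set_option autoImplicit false
set_option linter.unusedSectionVars false

namespace Fermat.Agent.ES.X44.TateL25

open AlgebraicCurve KaehlerDifferential Fermat.Agent.RR Fermat.Agent.RR.Commens
  Fermat.Agent.RR.AbsResidue Fermat.Agent.RR.LocalPrep Fermat.Agent.RR.LocalRes
  Fermat.Agent.RR.ResidueThm Fermat.Agent.X0.FF

variable {K F : Type*} [Field K] [Field F] [Algebra K F]

section Global

variable (HL : LSpace.LHyp K F)

include HL in
/-- Multiplication by `f` maps `A(0)` into a subspace commensurable with `A(0)`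
(`LHyp`-only copy of `ResidueGlob.rg_inE_mulR`). -/
theorem inE_mulR (f : F) :
    InE (repartitionsOf (0 : Divisor K F)) (rt_mulR f) := by
  by_cases hf : f = 0
  · rw [hf, ResidueGlob.rg_mulR_zero]; exact inE_zero
  · have hle := ResidueGlob.rg_map_mulR_le (Riemann.poleDiv HL hf) hf (fun v => by
      rw [Riemann.poleDiv_apply]
      have := le_max_right 0 (-(v.ord f))
      omega)
    have hfin := (Fermat.Agent.ES.V19.AdelesL8.finrank_repartitionsOf HL
      (Riemann.poleDiv_nonneg HL hf)).1
    exact (ResidueGlob.rg_prec_of_finite_map_mkQ hfin).mono_left hle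

include HL in
/-- The global commutator `[P f, g]` on the adeles is finite potent. -/
theorem global_fp (f g : F) (P : Module.End K ↥(repartitions K F))
    (hP : IsProj (repartitionsOf (0 : Divisor K F)) P) :
    IsFinitePotent (rt_globalComm P f g) := by
  have h0 : InE0 (repartitionsOf (0 : Divisor K F))
      (P * rt_mulR f * rt_mulR g - rt_mulR g * (P * rt_mulR f)) :=
    commutator_proj_inE0 (ResidueGlob.rg_mulR_comm f g) (inE_mulR HL f) (inE_mulR HL g) hP
  have h1 : rt_globalComm P f g =
      P * rt_mulR f * rt_mulR g - rt_mulR g * (P * rt_mulR f) := by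
    rw [rt_globalComm, mul_assoc (rt_mulR g)]
  rw [h1, isFinitePotent_iff]
  refine ⟨2, ?_⟩
  rw [pow_two]
  exact h0.finite_range_mul h0

variable (hR : ∃ γ : ℤ, ∀ D : Divisor K F,
    Divisor.degree D + 1 - γ ≤ (Module.finrank K (riemannRochSpace D) : ℤ))

include HL hR in
/-- **(GLOB0) for the adeles**: the trace of the global commutator vanishes. -/
theorem global_zero (f g : F) (P : Module.End K ↥(repartitions K F))
    (hP : IsProj (repartitionsOf (0 : Divisor K F)) P) :
    fpTrace (rt_globalComm P f g) = 0 := by
  have h1 : rt_globalComm P f g =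
      P * rt_mulR f * rt_mulR g - rt_mulR g * (P * rt_mulR f) := by
    rw [rt_globalComm, mul_assoc (rt_mulR g)]
  rw [h1, ← res_eq_of_isProj (ResidueGlob.rg_mulR_comm f g) (inE_mulR HL f) (inE_mulR HL g) hP]
  exact ResidueGlob.rg_res_eq_zero_of_compl (ResidueGlob.rg_mulR_comm f g) (inE_mulR HL f)
    (inE_mulR HL g) (ResidueGlob.rg_map_mulR_principal_le f)
    (ResidueGlob.rg_map_mulR_principal_le g) (ResidueGlob.rg_finite_inf HL)
    (Fermat.Agent.ES.V19.H1FiniteL8.finite_H1 HL hR 0)

include HL in
/-- Elements of `F` have finitely many poles. -/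
theorem finite_poles (f : F) : {v : Place K F | v.ord f < 0}.Finite := by
  rcases eq_or_ne f 0 with rfl | hf
  · simp
  · exact (Fermat.Agent.ES.V19.AdelesL8.finite_support_ord HL hf).subset fun v hv => by
      show v.ord f ≠ 0
      have : v.ord f < 0 := hv
      omega

/-- helper9's `ResidueThm.ResidueData` from `LHyp` and Riemann's inequality. -/
noncomputable def residueThmData : ResidueThm.ResidueData K F where
  res v f g := res (ringSub v) (mulOp (K := K) f) (mulOp g)
  res_eq v f g _ hπ := ResidueLocalInst.res_eq_fpTrace_localComm v (HL.residue v) f g hπ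
  global_fp := global_fp HL
  global_zero := global_zero HL hR
  finite_poles := finite_poles HL

end Global

section Local

variable (HL : LSpace.LHyp K F)

/-- The residue at `v`, as a `K`-linear form on the Kähler differentials. -/
noncomputable def resL (v : Place K F) : Ω[F⁄K] →ₗ[K] K :=
  resΩ v (HL.residue v)

theorem resL_smul_D (v : Place K F) (f g : F) :
    resL HL v (f • D K F g) = res (ringSub v) (mulOp (K := K) f) (mulOp g) :=
  resΩ_smul_D v _ f g

/-- `res_v (a dg) = 0` for `a, g ∈ O_v`. -/
theorem resL_smul_D_eq_zero (v : Place K F) {a g : F} (ha : a ∈ v.toValuationSubring)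
    (hg : g ∈ v.toValuationSubring) : resL HL v (a • D K F g) = 0 :=
  LocalResMain.resΩ_smul_D_eq_zero v (HL.residue v) ha hg

/-- `res_v (t⁻¹ dt) = 1` for a uniformizer `t`. -/
theorem resL_inv_smul_D_uniformizer (v : Place K F) {t : F} (ht : v.ord t = 1) :
    resL HL v (t⁻¹ • D K F t) = 1 :=
  LocalResMain.resΩ_inv_smul_D_uniformizer v (HL.residue v) ht

/-- A differential `a dt` with `ord a = -1`, `t` a uniformizer, has nonzero residue. -/
theorem resL_smul_D_ne_zero (v : Place K F) {t a : F} (ht : v.ord t = 1)
    (ha : v.ord a = -1) : resL HL v (a • D K F t) ≠ 0 :=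
  LocalResMain.resΩ_smul_D_ne_zero v (HL.residue v) ht ha

variable (hR : ∃ γ : ℤ, ∀ D : Divisor K F,
    Divisor.degree D + 1 - γ ≤ (Module.finrank K (riemannRochSpace D) : ℤ))

include hR in
/-- The residues of a differential vanish at all but finitely many places. -/
theorem finite_support_resL (ω : Ω[F⁄K]) :
    (Function.support (fun v : Place K F => resL HL v ω)).Finite :=
  (residueThmData HL hR).finite_support_resΩ (resL HL)
    (fun v f g => resL_smul_D HL v f g) ω

include hR in
/-- **Tate's residue theorem** from `LHyp` + Riemann's inequality: `∑ᵥ res_v ω = 0`. -/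
theorem finsum_resL_eq_zero (ω : Ω[F⁄K]) : ∑ᶠ v : Place K F, resL HL v ω = 0 :=
  (residueThmData HL hR).finsum_resΩ_eq_zero (resL HL)
    (fun v f g => resL_smul_D HL v f g) ω

include hR in
/-- Residue theorem for `f dg`. -/
theorem finsum_resL_smul_D_eq_zero (f g : F) :
    ∑ᶠ v : Place K F, resL HL v (f • D K F g) = 0 :=
  finsum_resL_eq_zero HL hR _

end Local

end Fermat.Agent.ES.X44.TateL25
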