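/-
(QP) K3, helper25: **`dim Ω̄ ≤ g̃`** — the space of regular differentials of a function field
`E / K` (any characteristic) has dimension at most `genusFF K E = dim H¹(0)`.

Inputs: `HL : LHyp K E`, Riemann's inequality `hR`, the differential interface
`hK : KaehlerLit26.KaehlerHyp K E x`, and Tate's residue theorem from `X44/TateL25` (K2).

* `resL_eq_zero`, `resL_ne_zero` : regular differentials have residue `0`, differentials with a
  simple pole have nonzero residue (through the generating coordinate differential `hK.gen v`);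
* `residueData HL hR hK : Duality.ResidueData K E` (for whoever wants main's `RR/Duality`);
* `Theta φ : Rep →ₗ[K] K`, `α ↦ ∑ᶠ v, res_v (α_v • φ • dx)` for `φ ∈ regSpace hK`; it vanishes on
  `A(0)` (`Theta_vanish`) and on the principal adeles (`Theta_principal`, the residue theorem);
* `Psi : regSpace hK →ₗ[K] Module.Dual K (H1 0)`, `Psi_injective`;
* **`regDimLe HL hR hK : Module.Finite K ↥(regSpace hK) ∧
    Module.finrank K ↥(regSpace hK) ≤ genusFF K E`**.
-/
import Mathlib
import Fermat.Prelude.Def_AlgebraicCurve_Repartitions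
import Fermat.Prelude.Def_ModularCurve_CanonicalDivisor
import Fermat.Agent.RR.Duality
import Fermat.Agent.ES.V19.AdelesL8
import Fermat.Agent.ES.V19.H1FiniteL8
import Fermat.Agent.ES.X44.TateL25
import Fermat.Agent.ES.X44.KaehlerLit26

set_option autoImplicit false
set_option linter.unusedSectionVars false
set_option linter.style.haveILetI false

namespace Fermat.Agent.ES.X44.RegDimLe25

open AlgebraicCurve KaehlerDifferential Fermat.Agent.RR Fermat.Agent.X0.FF
open Fermat.Agent.ES.X44.KaehlerLit26 Fermat.Agent.ES.X44.TateL25

variable {K E : Type*} [Field K] [Field E] [Algebra K E]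
variable (HL : LSpace.LHyp K E) {x : E} (hK : KaehlerHyp K E x)

/-! ### The two local properties of the residue -/

include hK in
/-- `res_v (a • ω) = 0` for `a ∈ O_v` and `ω` regular at `v`. -/
theorem resL_smul_eq_zero (v : Place K E) {a : E} (ha : a ∈ v.toValuationSubring)
    {ω : Ω[E⁄K]} (h : 0 ≤ v.ordDifferential ω) : resL HL v (a • ω) = 0 := by
  haveI := hK.gen v
  have hω := (v.differentialCoeff_smul_dCoord ω).symm
  rw [ffu_dCoord] at hω
  rw [hω, smul_smul]
  exact resL_smul_D_eq_zero HL v (mul_mem ha (ffp_mem_of_ord_nonneg v h)) (ffu v).2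

include hK in
/-- Regular differentials have residue zero. -/
theorem resL_eq_zero (v : Place K E) (ω : Ω[E⁄K]) (h : 0 ≤ v.ordDifferential ω) :
    resL HL v ω = 0 := by
  have := resL_smul_eq_zero HL hK v (one_mem _) h
  rwa [one_smul] at this

include hK in
/-- Differentials with a simple pole have nonzero residue. -/
theorem resL_ne_zero (v : Place K E) (ω : Ω[E⁄K]) (h : v.ordDifferential ω = -1) :
    resL HL v ω ≠ 0 := by
  haveI := hK.gen v
  have hω := (v.differentialCoeff_smul_dCoord ω).symm
  rw [ffu_dCoord] at hω
  rw [hω]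
  exact resL_smul_D_ne_zero HL v (ffu_ord v) h

/-- The residue data of main's `RR/Duality`, from `LHyp`, Riemann's inequality and `KaehlerHyp`. -/
noncomputable def residueData
    (hR : ∃ γ : ℤ, ∀ D : Divisor K E,
      Divisor.degree D + 1 - γ ≤ (Module.finrank K (riemannRochSpace D) : ℤ)) :
    Duality.ResidueData K E where
  res := resL HL
  res_eq_zero v ω _ h := resL_eq_zero HL hK v ω h
  res_ne_zero v ω _ h := resL_ne_zero HL hK v ω h
  sum_res := finsum_resL_eq_zero HL hR

/-! ### The pairing of a regular differential with the adeles -/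

/-- The space of repartitions. -/
abbrev Rep (K E : Type*) [Field K] [Field E] [Algebra K E] : Type _ := ↥(repartitions K E)

/-- The local term of the pairing: `res_v (α_v φ dx)`. -/
noncomputable def term (x φ : E) (α : Rep K E) (v : Place K E) : K :=
  resL HL v (((α : Place K E → E) v * φ) • D K E x)

theorem term_add (φ : E) (α β : Rep K E) (v : Place K E) :
    term HL x φ (α + β) v = term HL x φ α v + term HL x φ β v := by
  show resL HL v ((((α : Place K E → E) v + (β : Place K E → E) v) * φ) • D K E x) = _
  rw [add_mul, add_smul, map_add]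
  rfl

theorem term_smul (φ : E) (c : K) (α : Rep K E) (v : Place K E) :
    term HL x φ (c • α) v = c * term HL x φ α v := by
  show resL HL v (((c • (α : Place K E → E) v) * φ) • D K E x) = _
  rw [smul_mul_assoc, smul_assoc, map_smul, smul_eq_mul]
  rfl

theorem term_add_right (φ ψ : E) (α : Rep K E) (v : Place K E) :
    term HL x (φ + ψ) α v = term HL x φ α v + term HL x ψ α v := by
  show resL HL v (((α : Place K E → E) v * (φ + ψ)) • D K E x) = _
  rw [mul_add, add_smul, map_add]
  rfl

theorem term_smul_right (φ : E) (c : K) (α : Rep K E) (v : Place K E) :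
    term HL x (c • φ) α v = c * term HL x φ α v := by
  show resL HL v (((α : Place K E → E) v * (c • φ)) • D K E x) = _
  rw [mul_smul_comm, smul_assoc, map_smul, smul_eq_mul]
  rfl

include hK in
/-- The local term vanishes where `α` is integral, for `φ` regular. -/
theorem term_eq_zero {φ : E} (hφ : φ ∈ regSpace hK) (α : Rep K E) (v : Place K E)
    (hα : (α : Place K E → E) v ∈ v.toValuationSubring) : term HL x φ α v = 0 := by
  show resL HL v (((α : Place K E → E) v * φ) • D K E x) = 0
  rw [mul_smul]
  exact resL_smul_eq_zero HL hK v hα (hφ v)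

include HL in
/-- Repartitions have finitely many poles. -/
theorem repFinite (α : Rep K E) : {v : Place K E | v.ord ((α : Place K E → E) v) < 0}.Finite :=
  (Fermat.Agent.ES.V19.AdelesL8.mem_repartitions_iff HL).mp α.2

include hK in
theorem term_support_finite {φ : E} (hφ : φ ∈ regSpace hK) (α : Rep K E) :
    (Function.support (term HL x φ α)).Finite := by
  refine (repFinite HL α).subset ?_
  intro v hv
  rw [Function.mem_support] at hv
  by_contra hcon
  rw [Set.mem_ofPred_eq, not_lt] at hcon
  exact hv (term_eq_zero HL hK hφ α v (ffp_mem_of_ord_nonneg v hcon))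

/-- The residue pairing with the regular differential `φ dx`, a `K`-linear form on the
repartitions. -/
noncomputable def Theta (φ : ↥(regSpace hK)) : Rep K E →ₗ[K] K where
  toFun α := ∑ᶠ v : Place K E, term HL x (φ : E) α v
  map_add' α β := by
    rw [← finsum_add_distrib (term_support_finite HL hK φ.2 α) (term_support_finite HL hK φ.2 β)]
    exact finsum_congr fun v => term_add HL (φ : E) α β v
  map_smul' c α := by
    rw [RingHom.id_apply, smul_eq_mul, ← smul_eq_mul, smul_finsum]
    exact finsum_congr fun v => term_smul HL (φ : E) c α v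

theorem Theta_apply (φ : ↥(regSpace hK)) (α : Rep K E) :
    Theta HL hK φ α = ∑ᶠ v : Place K E, term HL x (φ : E) α v := rfl

theorem Theta_add (φ ψ : ↥(regSpace hK)) :
    Theta HL hK (φ + ψ) = Theta HL hK φ + Theta HL hK ψ := by
  ext α
  rw [LinearMap.add_apply, Theta_apply, Theta_apply, Theta_apply,
    ← finsum_add_distrib (term_support_finite HL hK φ.2 α) (term_support_finite HL hK ψ.2 α)]
  exact finsum_congr fun v => term_add_right HL (φ : E) (ψ : E) α v

theorem Theta_smul (c : K) (φ : ↥(regSpace hK)) :
    Theta HL hK (c • φ) = c • Theta HL hK φ := by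
  ext α
  rw [LinearMap.smul_apply, Theta_apply, Theta_apply, smul_eq_mul, ← smul_eq_mul, smul_finsum]
  exact finsum_congr fun v => term_smul_right HL (φ : E) c α v

/-- The pairing vanishes on `A(0)`: a regular differential has no residues. -/
theorem Theta_vanish (φ : ↥(regSpace hK)) (α : Rep K E)
    (hα : α ∈ repartitionsOf (0 : Divisor K E)) : Theta HL hK φ α = 0 := by
  rw [Theta_apply]
  refine finsum_eq_zero_of_forall_eq_zero fun v => ?_
  refine term_eq_zero HL hK φ.2 α v ?_
  rcases mem_repartitionsOf_iff.mp hα v with h | h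
  · rw [h]; exact zero_mem _
  · refine ffp_mem_of_ord_nonneg v ?_
    have h0 : (0 : Divisor K E) v = 0 := rfl
    rw [h0, neg_zero] at h
    exact h

/-- The pairing vanishes on the principal repartitions: Tate's residue theorem. -/
theorem Theta_principal
    (hR : ∃ γ : ℤ, ∀ D : Divisor K E,
      Divisor.degree D + 1 - γ ≤ (Module.finrank K (riemannRochSpace D) : ℤ))
    (φ : ↥(regSpace hK)) (α : Rep K E)
    (hα : α ∈ principalRepartitions K E) : Theta HL hK φ α = 0 := by
  obtain ⟨f, hf⟩ := mem_principalRepartitions_iff.mp hα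
  rw [Theta_apply]
  have : ∀ v, term HL x (φ : E) α v = resL HL v ((f * (φ : E)) • D K E x) := by
    intro v
    show resL HL v (((α : Place K E → E) v * (φ : E)) • D K E x) = _
    rw [hf]
  rw [finsum_congr this]
  exact finsum_resL_eq_zero HL hR _

theorem Theta_single (φ : ↥(regSpace hK)) (v : Place K E) (a : E) :
    Theta HL hK φ (Duality.single v a) = resL HL v ((a * (φ : E)) • D K E x) := by
  rw [Theta_apply, finsum_eq_single _ v]
  · show resL HL v (((Duality.single v a : Place K E → E) v * (φ : E)) • D K E x) = _
    rw [Duality.single_apply_same]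
  · intro w hw
    show resL HL w (((Duality.single v a : Place K E → E) w * (φ : E)) • D K E x) = 0
    rw [Duality.single_apply_ne v a hw, zero_mul, zero_smul, map_zero]

/-- A nonzero regular differential pairs nontrivially with a one-place repartition. -/
theorem Theta_ne_zero {φ : ↥(regSpace hK)} (hφ : φ ≠ 0) : Theta HL hK φ ≠ 0 := by
  intro h0
  have hφ' : (φ : E) ≠ 0 := fun h => hφ (Subtype.ext h)
  have hω : (φ : E) • D K E x ≠ 0 := smul_ne_zero hφ' hK.D_ne_zero
  obtain ⟨v⟩ := HL.nonempty
  obtain ⟨a, ha0, ha⟩ :=
    Duality.exists_ord_eq v (-1 - v.ordDifferential ((φ : E) • D K E x))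
  have h1 : Theta HL hK φ (Duality.single v a) = 0 := by rw [h0]; rfl
  rw [Theta_single, mul_smul] at h1
  refine resL_ne_zero HL hK v _ ?_ h1
  rw [hK.ordDifferential_smul v ha0 hω, ha]
  ring

section Main

variable (hR : ∃ γ : ℤ, ∀ D : Divisor K E,
    Divisor.degree D + 1 - γ ≤ (Module.finrank K (riemannRochSpace D) : ℤ))

/-- The map `Ω_reg → Dual (H¹(0))`. -/
noncomputable def Psi : ↥(regSpace hK) →ₗ[K] Module.Dual K (H1 (0 : Divisor K E)) where
  toFun φ := (repartitionsOf (0 : Divisor K E) ⊔ principalRepartitions K E).liftQ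
    (Theta HL hK φ) (by
      rw [sup_le_iff]
      constructor
      · intro α hα
        exact Theta_vanish HL hK φ α hα
      · intro α hα
        exact Theta_principal HL hK hR φ α hα)
  map_add' φ ψ := by
    apply Submodule.linearMap_qext
    ext α
    simp [Theta_add]
  map_smul' c φ := by
    apply Submodule.linearMap_qext
    ext α
    simp [Theta_smul]

theorem Psi_apply_mk (φ : ↥(regSpace hK)) (α : Rep K E) :
    Psi HL hK hR φ (Submodule.Quotient.mk α) = Theta HL hK φ α := rfl

theorem Psi_injective : Function.Injective (Psi HL hK hR) := by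
  rw [← LinearMap.ker_eq_bot, LinearMap.ker_eq_bot']
  intro φ hφ
  by_contra hne
  apply Theta_ne_zero HL hK hne
  ext α
  rw [← Psi_apply_mk HL hK hR φ α, hφ]
  rfl

include HL hR in
/-- **(QP) K3**: the regular differentials form a finite-dimensional space of dimension at most
`genusFF K E = dim H¹(0)`. -/
theorem regDimLe :
    Module.Finite K ↥(regSpace hK) ∧ Module.finrank K ↥(regSpace hK) ≤ genusFF K E := by
  haveI : Module.Finite K (H1 (0 : Divisor K E)) :=
    Fermat.Agent.ES.V19.H1FiniteL8.finite_H1 HL hR 0
  refine ⟨Module.Finite.of_injective (Psi HL hK hR) (Psi_injective HL hK hR), ?_⟩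
  have h := LinearMap.finrank_le_finrank_of_injective (Psi_injective HL hK hR)
  rw [Subspace.dual_finrank_eq] at h
  exact h

end Main

end Fermat.Agent.ES.X44.RegDimLe25
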