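/-
Programme X (S44), chapter (QP), leaf I-b, ABSTRACT form (helper26): **every place `w` of the special
fibre has a Gauss-integral coordinate which is regular on the whole disc of `w`** (`RegRed26.Unif`),
in the abstract reduction context `SupTrick15.RedCtx`, from the genus inequality `g ≤ g̃`.

Proof.  Fix `Q` with `r Q ≠ w`.  For `n` large, Riemann's theorem on both fibres gives
`l(nQ) = n + 1 - g ≥ n + 1 - g̃ = l̃(n · r Q)`; by L1 (`LatticeRed26.exists_indep_red`) the space `L(nQ)`
contains `l(nQ)` functions with linearly independent reductions, and these reductions lie in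
`L̃(n · r Q)` (`SupTrick15.red_mem_L`): they span it.  A function `Tt ∈ L̃(n · r Q - w)` outside
`L̃(n · r Q - 2w)` (Riemann again) has `ord_w Tt = 1`; lifting its coordinates through `π` gives
`T ∈ L(nQ)` reducing to `Tt`, and `T` is regular off `Q`, in particular on the disc of `w`.
-/
import Mathlib
import Fermat.Agent.ES.X44.LatticeRed26
import Fermat.Agent.ES.X44.RegRed26
import Fermat.Agent.ES.X44.LiftReg26
import Fermat.Agent.ES.V19.H1LargeL8

set_option autoImplicit false

open AlgebraicCurve

namespace Fermat.Agent.ES.X44.UnifAbs26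

open Fermat.Agent.RR.LSpace Fermat.Agent.ES.V19.GaussFrac15
  Fermat.Agent.ES.V19.SupTrick15 Fermat.Agent.ES.X44.RegRed26

variable {L F k Ft : Type*} [Field L] [Field F] [Algebra L F] [Field k] [Field Ft] [Algebra k Ft]
  {A : ValuationSubring L} {π : ↥A →+* k} {G : Subring F} {red : ↥G →+* Ft}
  {r : Place L F → Place k Ft}

/-- a function of `L(D - w)` outside `L(D - 2w)` is a uniformiser at `w` when `D w = 0`. -/
theorem ord_eq_one_of_mem_of_notMem {K E : Type*} [Field K] [Field E] [Algebra K E]
    (D : Divisor K E) (w : Place K E) (hDw : D w = 0) {f : E}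
    (h1 : f ∈ riemannRochSpace (D - Finsupp.single w 1))
    (h2 : f ∉ riemannRochSpace (D - Finsupp.single w 2)) : w.ord f = 1 := by
  have hf0 : f ≠ 0 := by
    rintro rfl
    exact h2 (Submodule.zero_mem _)
  rw [mem_L_iff hf0] at h1 h2
  have hw := h1 w
  rw [Finsupp.sub_apply, hDw, Finsupp.single_eq_same] at hw
  by_contra hne
  apply h2
  intro v
  by_cases hv : v = w
  · subst hv
    rw [Finsupp.sub_apply, hDw, Finsupp.single_eq_same]
    omega
  · have := h1 v
    rw [Finsupp.sub_apply, Finsupp.single_eq_of_ne hv] at this ⊢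
    exact this

variable (C : RedCtx A π G red r) (HL : LHyp L F) (HLt : LHyp k Ft)
  (hP : ∀ T : Finset (Place k Ft), ∃ P : Place L F, r P ∉ T)

include C HL HLt hP in
/-- **(I-b), abstract.** -/
theorem unif_of_genus_le (hsurj : Function.Surjective r) (hπ : Function.Surjective π)
    (hR : ∃ γ : ℤ, ∀ D : Divisor L F,
      Divisor.degree D + 1 - γ ≤ (Module.finrank L (riemannRochSpace D) : ℤ))
    (hRt : ∃ γ : ℤ, ∀ D : Divisor k Ft,
      Divisor.degree D + 1 - γ ≤ (Module.finrank k (riemannRochSpace D) : ℤ))
    (hg : genusFF L F ≤ genusFF k Ft) : Unif G red r := by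
  classical
  intro w
  obtain ⟨P₀, hP₀⟩ := hsurj w
  obtain ⟨Q, hQ⟩ := hP {w}
  have hQw : r Q ≠ w := by simpa using hQ
  obtain ⟨c, hc⟩ := Fermat.Agent.ES.V19.H1LargeL8.exists_forall_degree_ge_finrank_L_eq HL hR
  obtain ⟨ct, hct⟩ := Fermat.Agent.ES.V19.H1LargeL8.exists_forall_degree_ge_finrank_L_eq HLt hRt
  set n : ℤ := max c (ct + 2) with hn
  have hnc : c ≤ n := le_max_left _ _
  have hnct : ct + 2 ≤ n := le_max_right _ _
  set D : Divisor L F := Finsupp.single Q n with hD
  set Dt : Divisor k Ft := Finsupp.single (r Q) n with hDt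
  have hmap : Finsupp.mapDomain r D = Dt := Finsupp.mapDomain_single
  have hdeg : Divisor.degree D = n := degree_single HL Q n
  have hdegt : Divisor.degree Dt = n := degree_single HLt (r Q) n
  have h1 := hc D (by rw [hdeg]; exact hnc)
  have h2 := hct Dt (by rw [hdegt]; omega)
  rw [hdeg] at h1
  rw [hdegt] at h2
  -- independent reductions of `L(nQ)`
  obtain ⟨ψ, hind, hψ⟩ := Fermat.Agent.ES.X44.LatticeRed26.exists_indep_red C HL HLt hP {r Q}
    (Module.finrank L (riemannRochSpace D)) (riemannRochSpace D) rfl (by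
      intro f hf P hPS
      rcases mem_riemannRochSpace_iff.mp hf P with h | h
      · rw [h, Place.ord_zero]
      · have hPQ : Q ≠ P := by
          rintro rfl
          exact hPS (Finset.mem_singleton_self _)
        have hDP : D P = 0 := by rw [hD]; exact Finsupp.single_eq_of_ne hPQ.symm
        rw [hDP] at h
        simpa using h)
  choose f hfW hfψ using hψ
  have hmem : ∀ i, ψ i ∈ riemannRochSpace Dt := fun i => by
    have := red_mem_L C HL D (f i) (ψ i) (hfψ i) (hind.ne_zero i) (hfW i)
    rwa [hmap] at this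
  haveI := finiteDimensional_L HLt Dt
  set ψ' : Fin (Module.finrank L (riemannRochSpace D)) → riemannRochSpace Dt :=
    fun i => ⟨ψ i, hmem i⟩ with hψ'
  have hind' : LinearIndependent k ψ' := by
    apply LinearIndependent.of_comp (riemannRochSpace Dt).subtype
    exact hind
  have hcard : Fintype.card (Fin (Module.finrank L (riemannRochSpace D))) =
      Module.finrank k (riemannRochSpace Dt) := by
    have h3 := hind'.fintype_card_le_finrank
    rw [Fintype.card_fin] at h3 ⊢
    have hg' : (genusFF L F : ℤ) ≤ (genusFF k Ft : ℤ) := by exact_mod_cast hg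
    have h4 : (Module.finrank k (riemannRochSpace Dt) : ℤ) ≤
        (Module.finrank L (riemannRochSpace D) : ℤ) := by rw [h1, h2]; omega
    have h5 : Module.finrank k (riemannRochSpace Dt) ≤ Module.finrank L (riemannRochSpace D) := by
      exact_mod_cast h4
    omega
  have hspan := hind'.span_eq_top_of_card_eq_finrank' hcard
  -- the uniformiser at `w`
  have hDtw : Dt w = 0 := by rw [hDt]; exact Finsupp.single_eq_of_ne hQw.symm
  have hd1 : Divisor.degree (Dt - Finsupp.single w 1) = n - 1 := by
    rw [map_sub, hdegt, degree_single HLt]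
  have hd2 : Divisor.degree (Dt - Finsupp.single w 2) = n - 2 := by
    rw [map_sub, hdegt, degree_single HLt]
  have h21 := hct _ (by rw [hd1]; omega : ct ≤ Divisor.degree (Dt - Finsupp.single w 1))
  have h22 := hct _ (by rw [hd2]; omega : ct ≤ Divisor.degree (Dt - Finsupp.single w 2))
  rw [hd1] at h21
  rw [hd2] at h22
  have hle21 : riemannRochSpace (Dt - Finsupp.single w 2) ≤
      riemannRochSpace (Dt - Finsupp.single w 1) := by
    apply L_mono
    intro v
    rw [Finsupp.sub_apply, Finsupp.sub_apply]
    by_cases hv : v = w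
    · subst hv
      rw [Finsupp.single_eq_same, Finsupp.single_eq_same]; omega
    · rw [Finsupp.single_eq_of_ne hv, Finsupp.single_eq_of_ne hv]
  have hex : ∃ Tt ∈ riemannRochSpace (Dt - Finsupp.single w 1),
      Tt ∉ riemannRochSpace (Dt - Finsupp.single w 2) := by
    by_contra hcon
    push Not at hcon
    have heq : riemannRochSpace (Dt - Finsupp.single w 1) =
        riemannRochSpace (Dt - Finsupp.single w 2) := le_antisymm hcon hle21
    rw [heq] at h21
    omega
  obtain ⟨Tt, hTt1, hTt2⟩ := hex
  have hordTt : w.ord Tt = 1 := ord_eq_one_of_mem_of_notMem Dt w hDtw hTt1 hTt2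
  have hTtD : Tt ∈ riemannRochSpace Dt := by
    refine L_mono (fun v => ?_) hTt1
    rw [Finsupp.sub_apply]
    by_cases hv : v = w
    · subst hv
      rw [Finsupp.single_eq_same]; omega
    · rw [Finsupp.single_eq_of_ne hv]; omega
  -- lift
  have hTtmem : (⟨Tt, hTtD⟩ : riemannRochSpace Dt) ∈ Submodule.span k (Set.range ψ') := by
    rw [hspan]; exact Submodule.mem_top
  obtain ⟨cc, hcc⟩ := (Submodule.mem_span_range_iff_exists_fun k).mp hTtmem
  have hcc' : ∑ i, algebraMap k Ft (cc i) * ψ i = Tt := by
    have := congrArg (riemannRochSpace Dt).subtype hcc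
    simpa [map_sum, Algebra.smul_def, hψ'] using this
  choose a ha using fun i => hπ (cc i)
  have hTW : (∑ i, algebraMap L F ((a i : ↥A) : L) * f i) ∈ riemannRochSpace D := by
    refine Submodule.sum_mem _ fun i _ => ?_
    rw [← Algebra.smul_def]
    exact Submodule.smul_mem _ _ (hfW i)
  refine ⟨∑ i, algebraMap L F ((a i : ↥A) : L) * f i, Tt, P₀, hP₀, ?_, hordTt, fun P hPw => ?_⟩
  · rw [← hcc']
    refine Fermat.Agent.ES.X44.LiftReg26.isRedOf_sum _ _ _ fun i _ => ?_
    have := (C.isRedOf_const (a i)).mul (hfψ i)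
    rwa [ha i] at this
  · rcases mem_riemannRochSpace_iff.mp hTW P with h | h
    · rw [h, Place.ord_zero]
    · have hPQ : Q ≠ P := by
        rintro rfl
        exact hQw hPw
      have hDP : D P = 0 := by rw [hD]; exact Finsupp.single_eq_of_ne hPQ.symm
      rw [hDP] at h
      simpa using h

end Fermat.Agent.ES.X44.UnifAbs26
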