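/-
Programme X (S44), chapter (QP), CHAPTER ASSEMBLY (helper26): **`EigQLit9.QPChapter` from the two
remaining leaves (A) `DlogLeaf` and (C) `FormLeaf`.**

Everything else is discharged here at the Hauptmodul datum `(n, e) = (4, 8)`, level `M₁` (`4 ∣ M₁`,
`p ∤ M₁`), place `A` over `p`:
* the model and the place reduction `r` : `TOP/ModelAtFinal8.modelAt`, `RED/RedInst15.isPlaceReductionModL_main`;
* (I-a) `DRedInst4.dRed_modL` (helper4); (I-b) `UnifAbs26.unif_of_genus_le` with `g ≤ g̃` = main's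
  `V19/GenusLe12.genusLe`; (K1) `KaehlerFt18.kaehlerHyp_Ft` (helper18); (K2)+(K3) `RegDimLe25.regDimLe`
  (helper25); L1–L4 + the instance `QPInst26.exists_lift`; the assembly `QPAsm26.qpStmt_of_inputs`.
-/
import Mathlib
import Fermat.Agent.ES.X44.QPAsm26
import Fermat.Agent.ES.X44.UnifAbs26
import Fermat.Agent.ES.X44.DRedInst4
import Fermat.Agent.ES.X44.RegDimLe25
import Fermat.Agent.ES.V19.GenusLe12
import Fermat.Agent.ES.TOP.ModelAtFinal8

set_option autoImplicit false
set_option synthInstance.maxHeartbeats 400000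
set_option linter.unusedSectionVars false
set_option linter.style.haveILetI false

open AlgebraicCurve ModularCurve HahnSeries KaehlerDifferential

noncomputable section

namespace Fermat.Agent.ES.X44.QPChapterOf26

open Fermat.Agent.X0 Fermat.Agent.X0.FF Fermat.Agent.RR.LSpace
open Fermat.Agent.RED.Interface4 Fermat.Agent.RED.BASE Fermat.Agent.RED.BASE.EtaQuot12
open Fermat.Agent.RED.BASE.Hauptmodul12
open Fermat.Agent.ES.RED.SpecialGen25 Fermat.Agent.ES.RED.GaussRing15
open Fermat.Agent.ES.V19.GaussFrac15 Fermat.Agent.ES.V19.SupTrick15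
open Fermat.Agent.ES.X44.KaehlerLit26 Fermat.Agent.ES.X44.RegRed26
open Fermat.Agent.ES.X44.KaehlerFt18 Fermat.Agent.ES.X44.QPInst26 Fermat.Agent.ES.X44.EigQLit9
open Fermat.Agent.IG.PR.Theta20 (theta)

/-- **leaf (A)**: a regular logarithmic differential of the special fibre is `φ · dt̃` with
`φ ∈ regSpace`, compatibly with `q`-expansions, and has no coefficients in degrees `≤ 0`. -/
def DlogLeaf : Prop :=
  ∀ (n e M : ℕ) [NeZero n] [NeZero M] (p : ℕ) [Fact p.Prime] (hpM : ¬ p ∣ M)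
    (hmem : Interface12.TMem n e M) (hgen : Interface12.TGenBase n e)
    (A : ValuationSubring Qbar) (hA : A.LiesOverPrime p),
    ∀ G : FtQ M A, G ≠ 0 → IsRegDlog p M A G →
      (∀ m : ℤ, m ≤ 0 →
        (dlogQ (G : LaurentSeries (IsLocalRing.ResidueField ↥A))).coeff m = 0) ∧
      ∃ φ ∈ regSpace (kaehlerHyp_Ft n e M p hpM hmem hgen A hA),
        (φ : LaurentSeries (IsLocalRing.ResidueField ↥A)) *
            theta (tq (IsLocalRing.ResidueField ↥A) n e) =
          dlogQ (G : LaurentSeries (IsLocalRing.ResidueField ↥A))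

/-- **leaf (C)**: a regular Gauss-integral differential `h · dt` reducing to `φ · dt̃` gives a cusp
form with coefficients in `A` whose `q`-expansion reduces to `φ · θ t̃`. -/
def FormLeaf : Prop :=
  ∀ (n e M : ℕ) [NeZero n] [NeZero M] (p : ℕ) [Fact p.Prime] (hpM : ¬ p ∣ M)
    (hmem : Interface12.TMem n e M) (hgen : Interface12.TGenBase n e)
    (A : ValuationSubring Qbar) (hA : A.LiesOverPrime p),
    ∀ h ∈ regSpace (kaehlerHyp_F n e M p hpM hmem hgen A hA),
      ∀ φ : ↥(modularFunctionFieldFullC (IsLocalRing.ResidueField ↥A) M),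
      IsRedOf (gaussRingN A (IsLocalRing.residue ↥A) M) (gaussRedN A (IsLocalRing.residue ↥A) M)
        h φ →
      ∃ (f : CuspForm (CongruenceSubgroup.Gamma0 M) 2) (c : ℕ → ↥A),
        (∀ m : ℕ, ModularFormClass.qCoeff f m = Fermat.Agent.X0.iotaK ((c m : ↥A) : Qbar)) ∧
        ∀ m : ℕ, IsLocalRing.residue ↥A (c m) =
          ((φ : LaurentSeries (IsLocalRing.ResidueField ↥A)) *
            theta (tq (IsLocalRing.ResidueField ↥A) n e)).coeff (m : ℤ)

section Inst

variable (n e M : ℕ) [NeZero n] [NeZero M] (p : ℕ) [Fact p.Prime] (hpM : ¬ p ∣ M)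
  (hb : BaseHyp n e) (hnM : n ∣ M)
  (A : ValuationSubring Qbar) (hA : A.LiesOverPrime p)
  {r : Place Qbar (modularFunctionFieldBar M) →
    Place (IsLocalRing.ResidueField ↥A) (modularFunctionFieldFullC (IsLocalRing.ResidueField ↥A) M)}
  (hr : IsPlaceReductionModL A M r)

include hpM hb hnM hA

include hr in
/-- **(I-b) at main's objects.** -/
theorem unif :
    Unif (gaussRingN A (IsLocalRing.residue ↥A) M) (gaussRedN A (IsLocalRing.residue ↥A) M) r :=
  Fermat.Agent.ES.X44.UnifAbs26.unif_of_genus_le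
    (redCtx n e M p hpM (tMem_of_dvd hb hnM) (tGenBase' hb) A hA hr)
    (lHyp_F n e M p hpM (tMem_of_dvd hb hnM) (tGenBase' hb) A hA)
    (Fermat.Agent.ES.V19.LHypFt13.lHyp_Ft n e M p hpM (tMem_of_dvd hb hnM) (tGenBase' hb) A hA hr)
    (exists_reducing_outside n e M p hpM (tMem_of_dvd hb hnM) (tGenBase' hb) A hA hr)
    (surjective_r n e M p hpM (tMem_of_dvd hb hnM) (tGenBase' hb) A hA hr)
    IsLocalRing.residue_surjective
    (Fermat.Agent.RR.LHypGen.riemann_inequality_of_isGen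
      (Fermat.Agent.ES.RED.SpecialInv25.isGen_tF n e M (tMem_of_dvd hb hnM)))
    (Fermat.Agent.ES.V19.LHypFt13.riemann_inequality_Ft n e M p hpM (tMem_of_dvd hb hnM)
      (tGenBase' hb) A hA hr)
    (Fermat.Agent.ES.V19.GenusLe12.genusLe n e hb M hnM p Fact.out hpM A hA)

include hr in
/-- **(QP) at `(n, e, M, p, A)` from the two leaves.** -/
theorem qpStmt_of_leaves (hDlog : DlogLeaf) (hForm : FormLeaf) : QPStmt p M A := by
  have hK3 := Fermat.Agent.ES.X44.RegDimLe25.regDimLe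
    (Fermat.Agent.ES.V19.LHypFt13.lHyp_Ft n e M p hpM (tMem_of_dvd hb hnM) (tGenBase' hb) A hA hr)
    (kaehlerHyp_Ft n e M p hpM (tMem_of_dvd hb hnM) (tGenBase' hb) A hA)
    (Fermat.Agent.ES.V19.LHypFt13.riemann_inequality_Ft n e M p hpM (tMem_of_dvd hb hnM)
      (tGenBase' hb) A hA hr)
  exact Fermat.Agent.ES.X44.QPAsm26.qpStmt_of_inputs n e M p hpM (tMem_of_dvd hb hnM)
    (tGenBase' hb) A hA hr
    (Fermat.Agent.ES.X44.DRedInst4.dRed_modL n e M p hpM (tMem_of_dvd hb hnM) (tGenBase' hb) A hA)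
    (unif n e M p hpM hb hnM A hA hr) hK3.1 hK3.2
    (hDlog n e M p hpM (tMem_of_dvd hb hnM) (tGenBase' hb) A hA)
    (hForm n e M p hpM (tMem_of_dvd hb hnM) (tGenBase' hb) A hA)

end Inst

/-- **chapter (QP) from the two leaves.** -/
theorem qpChapter_of_leaves (hDlog : DlogLeaf) (hForm : FormLeaf) : QPChapter := by
  intro p M₁ _ A hp _ hA hpM h4M
  haveI : Fact p.Prime := ⟨hp⟩
  obtain ⟨x, hx, T, hS0, hS1, hs0, peel0, peel1⟩ :=
    Fermat.Agent.ES.TOP.ModelAtFinal8.modelAt p hp A hA 4 8 baseHyp_four M₁ h4M hpM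
  have hr := Fermat.Agent.ES.RED.RedInst15.isPlaceReductionModL_main 4 8 M₁ p hpM
    (tMem_of_dvd baseHyp_four h4M) (tGenBase' baseHyp_four) A hA T hS0 hS1 hs0 peel0 peel1
  exact qpStmt_of_leaves 4 8 M₁ p hpM baseHyp_four h4M A hA hr hDlog hForm

end Fermat.Agent.ES.X44.QPChapterOf26
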