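/-
Programme X (S44), chapter (QP), leaf C2 (helper19): **integrality of the `q`-expansion of a cusp form which is a
fraction of `A`-integral `q`-series.**

`A ≤ ℚ̄` a valuation subring whose residue field has characteristic `p`.  Let `f ∈ S₂(Γ₀(M))` have the `q`-expansion
`s ∈ ℚ̄⟦q⟧` (through `X0.iotaK : ℚ̄ →+* ℂ`) and suppose `s · B = A'` with `A', B ∈ A((q))` ARBITRARY `A`-integral
`q`-series, `B̄ ≠ 0`.  Then `s = coeffMap A.subtype S` for an `A`-integral `S`, `S · B = A'`, and `S̄ · B̄ = Ā'`.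

Proof: `IntBasisRed19.exists_intBasis` ((4): `f = ∑ ι(λ_i) f_i`, `λ_i ∈ ℚ̄`; (3): the reductions of the integral basis are
independent over the residue field) + `IntFrac19.exists_lift_of_frac`.
-/
import Mathlib
import Fermat.Agent.ES.X44.IntBasisRed19
import Fermat.Agent.ES.X44.IntFrac19

set_option autoImplicit false
set_option linter.style.haveILetI false
set_option linter.unusedSectionVars false

open CongruenceSubgroup ModularFormClass ModularCurve HahnSeries

noncomputable section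

namespace Fermat.Agent.ES.X44.QPInt19

open Fermat.Agent.X0 (Kbar iotaK iotaK_injective)

/-- **C2**: a cusp form whose `q`-expansion is a fraction of `A`-integral series with nonzero reduced denominator has
an `A`-integral `q`-expansion, and its reduction is the reduced fraction. -/
theorem exists_integral_qExp (M : ℕ) [NeZero M] (A : ValuationSubring Kbar) (p : ℕ) [Fact p.Prime]
    [CharP (IsLocalRing.ResidueField ↥A) p]
    (f : CuspForm (Gamma0 M) 2) (s : LaurentSeries Kbar)
    (hf : ∀ n : ℕ, qCoeff f n = iotaK (s.coeff (n : ℤ))) (hs' : ∀ n : ℤ, n < 0 → s.coeff n = 0)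
    (B A' : LaurentSeries ↥A) (hB : coeffMap (IsLocalRing.residue ↥A) B ≠ 0)
    (hsB : s * coeffMap A.subtype B = coeffMap A.subtype A') :
    ∃ S : LaurentSeries ↥A, coeffMap A.subtype S = s ∧ S * B = A' ∧
      coeffMap (IsLocalRing.residue ↥A) S * coeffMap (IsLocalRing.residue ↥A) B =
        coeffMap (IsLocalRing.residue ↥A) A' := by
  obtain ⟨g, b, a, ha, -, hind, hrat, -⟩ := Fermat.Agent.ES.X44.IntBasisRed19.exists_intBasis M
  obtain ⟨lam, hlam⟩ := hrat f (fun n => ⟨s.coeff (n : ℤ), (hf n).symm⟩)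
  have hs : ∀ n : ℕ, s.coeff (n : ℤ) = ∑ i, lam i * ((a i n : ℤ) : Kbar) := by
    intro n
    apply iotaK_injective
    rw [← hf n, map_sum]
    have h := congrFun (map_sum (Fermat.Agent.S49.qCoeffLin M) (fun i => iotaK (lam i) • b i)
      Finset.univ) n
    rw [Fermat.Agent.S49.qCoeffLin_apply, Finset.sum_apply] at h
    rw [hlam, h]
    refine Finset.sum_congr rfl fun i _ => ?_
    rw [Fermat.Agent.S49.qCoeffLin_apply, Fermat.Agent.S49.qCoeff_smul, ha, map_mul, map_intCast]
  refine Fermat.Agent.ES.X44.IntFrac19.exists_lift_of_frac (A := A) (π := IsLocalRing.residue ↥A)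
    (fun x hx => ?_) a (hind (IsLocalRing.ResidueField ↥A) p) lam s hs hs' B A' hB hsB
  rw [IsLocalRing.residue_eq_zero_iff]
  exact hx

/-- the coefficient form: `c n ∈ A` with `qCoeff f n = ι (c n)`. -/
theorem exists_integral_qCoeff (M : ℕ) [NeZero M] (A : ValuationSubring Kbar) (p : ℕ) [Fact p.Prime]
    [CharP (IsLocalRing.ResidueField ↥A) p]
    (f : CuspForm (Gamma0 M) 2) (s : LaurentSeries Kbar)
    (hf : ∀ n : ℕ, qCoeff f n = iotaK (s.coeff (n : ℤ))) (hs' : ∀ n : ℤ, n < 0 → s.coeff n = 0)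
    (B A' : LaurentSeries ↥A) (hB : coeffMap (IsLocalRing.residue ↥A) B ≠ 0)
    (hsB : s * coeffMap A.subtype B = coeffMap A.subtype A')
    (ψ : LaurentSeries (IsLocalRing.ResidueField ↥A))
    (hψ : ψ * coeffMap (IsLocalRing.residue ↥A) B = coeffMap (IsLocalRing.residue ↥A) A') :
    ∃ c : ℕ → ↥A, (∀ n : ℕ, qCoeff f n = iotaK ((c n : ↥A) : Kbar)) ∧
      ∀ n : ℕ, IsLocalRing.residue ↥A (c n) = ψ.coeff (n : ℤ) := by
  obtain ⟨S, hS, -, hSB⟩ := exists_integral_qExp M A p f s hf hs' B A' hB hsB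
  have hψS : coeffMap (IsLocalRing.residue ↥A) S = ψ := by
    have h1 : (coeffMap (IsLocalRing.residue ↥A) S - ψ) * coeffMap (IsLocalRing.residue ↥A) B = 0 := by
      rw [sub_mul, hSB, hψ, sub_self]
    exact sub_eq_zero.mp ((mul_eq_zero.mp h1).resolve_right hB)
  refine ⟨fun n => S.coeff (n : ℤ), fun n => ?_, fun n => ?_⟩
  · rw [hf n, ← hS, coeffMap_coeff]
    rfl
  · rw [← hψS, coeffMap_coeff]

end Fermat.Agent.ES.X44.QPInt19
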