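/-
(QP) C (C1 + plug), helper25: **from a regular Gauss-integral differential to an `A`-integral cusp
form with prescribed reduction.**

Instance block of `V19/LHypFt13` §Concrete.  `t = tF M hmem ∈ F = ℚbar(X₀(M))` the Hauptmodul
coordinate, `G = gaussRingN A res M`, `red = gaussRedN A res M`.

* `thetaJ_eq`  : main's `S20/LowDJ.thetaJ` is `theta` of the `q`-expansion of `j`;
* `thetaDer M` : `theta ∘ coe` as a `ℚbar`-derivation `F → ℚbar((q))`;
* `theta_eq_mul_of_D_eq` : the chain rule `D g = c • D y ⇒ θ g = c · θ y` on `q`-expansions;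
* **(C1) `exists_cuspForm_of_regSpace`** : `h ∈ regSpace (dt)` ⇒ a cusp form
  `f ∈ S₂(Γ₀(M))` with `q`-expansion `ι (h · θ t)`, no coefficients in negative degrees
  (main's `S20/Low.exists_cuspForm_of_regular_full` for `h' = h · (dt/dj)`);
* **(C) `exists_cuspForm_of_lift`** : if moreover `IsRedOf G red h φ` then the `q`-coefficients of
  `f` are `ι (c n)` with `c n ∈ A` and `residue (c n) = (φ · θ t̃).coeff n`
  (helper19's `QPInt19.exists_integral_qCoeff`).
-/
import Mathlib
import Fermat.Agent.S20.Low
import Fermat.Agent.IG.PR.Theta20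
import Fermat.Agent.RED.BASE.Interface12
import Fermat.Agent.RED.BASE.EtaQuot12
import Fermat.Agent.ES.RED.SpecialInv25
import Fermat.Agent.ES.RED.GaussRing15
import Fermat.Agent.ES.KRON.KronInst10
import Fermat.Agent.ES.V19.GaussFrac15
import Fermat.Agent.ES.X44.KaehlerLit26
import Fermat.Agent.ES.X44.KaehlerSep18
import Fermat.Agent.ES.X44.QPInt19

set_option autoImplicit false
set_option linter.unusedSectionVars false
set_option linter.style.haveILetI false

open AlgebraicCurve KaehlerDifferential HahnSeries ModularCurve CongruenceSubgroup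

noncomputable section

namespace Fermat.Agent.ES.X44.QPForm25

open Fermat.Agent.X0 Fermat.Agent.IG.PR.Theta20 Fermat.Agent.S20.LowDJ
open Fermat.Agent.RED.BASE Fermat.Agent.RED.BASE.EtaQuot12
open Fermat.Agent.ES.V19.GaussFrac15 Fermat.Agent.ES.RED.GaussRing15
open Fermat.Agent.ES.X44.KaehlerLit26

/-- `θ j = q dj/dq` of main's `S20/LowDJ` is `theta` of the `q`-expansion of `j`. -/
theorem thetaJ_eq : thetaJ = theta jqK := by
  ext k
  rw [theta_coeff, Fermat.Agent.X0.jqK_eq_laurentOf, thetaJ, laurentOf_coeff, laurentOf_coeff]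
  split_ifs with h
  · obtain ⟨m, hm⟩ := Int.eq_ofNat_of_zero_le h
    rw [hm, Int.toNat_natCast, thetaNumK, PowerSeries.coeff_mk]
    have hk : (k : Kbar) = (m : Kbar) - 1 := by
      have : k = (m : ℤ) - 1 := by omega
      rw [this]; push_cast; ring
    rw [hk]
  · rw [mul_zero]

section Der

variable (M : ℕ) [NeZero M]

theorem coe_smul (c : Kbar) (f : FF M) : (((c • f : FF M)) : LaurentSeries Kbar) =
    (HahnSeries.C c : LaurentSeries Kbar) * (f : LaurentSeries Kbar) := by
  rw [Algebra.smul_def]
  show algebraMap Kbar (LaurentSeries Kbar) c * (f : LaurentSeries Kbar) = _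
  rw [ModularCurve.algebraMap_laurentSeries_eq_single]
  rfl

theorem isScalarTower_FF : IsScalarTower Kbar (FF M) (LaurentSeries Kbar) := by
  refine ⟨fun c f s => ?_⟩
  rw [IntermediateField.smul_def, IntermediateField.smul_def, smul_eq_mul, smul_eq_mul,
    coe_smul, mul_assoc, HahnSeries.C_mul_eq_smul]

/-- `theta ∘ coe` as a `ℚbar`-derivation `F → ℚbar((q))`. -/
def thetaDer : Derivation Kbar (FF M) (LaurentSeries Kbar) :=
  Derivation.mk'
    { toFun := fun f => theta ((f : FF M) : LaurentSeries Kbar)
      map_add' := fun f g => by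
        show theta (((f + g : FF M)) : LaurentSeries Kbar) = _
        rw [show (((f + g : FF M)) : LaurentSeries Kbar) =
          (f : LaurentSeries Kbar) + (g : LaurentSeries Kbar) from rfl, map_add]
      map_smul' := fun c f => by
        show theta (((c • f : FF M)) : LaurentSeries Kbar) =
          c • theta ((f : FF M) : LaurentSeries Kbar)
        rw [coe_smul, theta_mul, theta_C, zero_mul, zero_add, HahnSeries.C_mul_eq_smul] }
    (fun a b => by
      show theta (((a * b : FF M)) : LaurentSeries Kbar) =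
        a • theta ((b : FF M) : LaurentSeries Kbar) + b • theta ((a : FF M) : LaurentSeries Kbar)
      rw [show (((a * b : FF M)) : LaurentSeries Kbar) =
        (a : LaurentSeries Kbar) * (b : LaurentSeries Kbar) from rfl, theta_mul]
      rw [IntermediateField.smul_def, IntermediateField.smul_def, smul_eq_mul, smul_eq_mul]
      ring)

theorem thetaDer_apply (f : FF M) :
    thetaDer M f = theta ((f : FF M) : LaurentSeries Kbar) := rfl

/-- **Chain rule on `q`-expansions**: a relation `D g = c • D y` in `Ω[F⁄ℚbar]` gives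
`θ g = c · θ y` in `ℚbar((q))`. -/
theorem theta_eq_mul_of_D_eq {g y c : FF M}
    (h : D Kbar (FF M) g = c • D Kbar (FF M) y) :
    theta ((g : FF M) : LaurentSeries Kbar) =
      (c : LaurentSeries Kbar) * theta ((y : FF M) : LaurentSeries Kbar) := by
  haveI := isScalarTower_FF M
  have := Fermat.Agent.ES.X44.KaehlerSep18.lift_smul (thetaDer M) h
  rw [thetaDer_apply, thetaDer_apply, IntermediateField.smul_def, smul_eq_mul] at this
  exact this

end Der

section C1

variable (n e M : ℕ) [NeZero n] [NeZero M] (hmem : Interface12.TMem n e M)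

/-- **(C1)** a regular multiple `h · dt` of the differential of the Hauptmodul coordinate is the
differential of a cusp form of weight two on `Γ₀(M)`, with `q`-expansion `ι (h · θ t)`. -/
theorem exists_cuspForm_of_regSpace (h : FF M)
    (hh : h ∈ regSpace (kaehlerHyp_of_isGen
      (Fermat.Agent.ES.RED.SpecialInv25.isGen_tF n e M hmem))) :
    ∃ f : CuspForm (Gamma0 M) 2,
      (∀ m : ℕ, ModularFormClass.qCoeff f m =
        iotaK (((h : LaurentSeries Kbar) * theta (Interface12.tK n e)).coeff (m : ℤ))) ∧
      ∀ k : ℤ, k < 0 → ((h : LaurentSeries Kbar) * theta (Interface12.tK n e)).coeff k = 0 := by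
  have hKj : KaehlerHyp Kbar (FF M) (jF M) :=
    kaehlerHyp_of_isGen (Degree.isGen_jF M (realizeData M) (cuspData M))
  obtain ⟨e', he'⟩ := hKj.exists_eq_smul (D Kbar (FF M) (Interface12.tF M hmem))
  have hreg : ∀ v : Place Kbar (FF M),
      0 ≤ v.ordDifferential ((h * e') • D Kbar (FF M) (jF M)) := by
    intro v
    rw [mul_smul, ← he']
    exact hh v
  obtain ⟨f, hf, hneg⟩ := Fermat.Agent.S20.Low.exists_cuspForm_of_regular_full M (h * e') hreg
  have hchain : theta (Interface12.tK n e) = (e' : LaurentSeries Kbar) * thetaJ := by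
    have := theta_eq_mul_of_D_eq M he'
    rw [coe_jF, ← thetaJ_eq] at this
    exact this
  have hser : (((h * e' : FF M)) : LaurentSeries Kbar) * thetaJ =
      (h : LaurentSeries Kbar) * theta (Interface12.tK n e) := by
    rw [hchain, ← mul_assoc]
    rfl
  rw [hser] at hf hneg
  exact ⟨f, hf, hneg⟩

end C1

section C

variable (n e M : ℕ) [NeZero n] [NeZero M] (p : ℕ) [Fact p.Prime]
  (hmem : Interface12.TMem n e M)
  (A : ValuationSubring Kbar) (hA : A.LiesOverPrime p)

include hA in
/-- **(QP) C**: a regular differential `h · dt` on the generic fibre whose coefficient `h` is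
Gauss-integral with reduction `φ` comes from a cusp form `f ∈ S₂(Γ₀(M))` with `A`-integral
`q`-coefficients reducing to the coefficients of `φ · θ t̃`. -/
theorem exists_cuspForm_of_lift (h : FF M)
    (hh : h ∈ regSpace (kaehlerHyp_of_isGen
      (Fermat.Agent.ES.RED.SpecialInv25.isGen_tF n e M hmem)))
    (φ : ↥(modularFunctionFieldFullC (IsLocalRing.ResidueField ↥A) M))
    (hred : IsRedOf (gaussRingN A (IsLocalRing.residue ↥A) M)
      (gaussRedN A (IsLocalRing.residue ↥A) M) h φ) :
    ∃ (f : CuspForm (Gamma0 M) 2) (c : ℕ → ↥A),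
      (∀ m : ℕ, ModularFormClass.qCoeff f m = iotaK ((c m : ↥A) : Kbar)) ∧
      ∀ m : ℕ, IsLocalRing.residue ↥A (c m) =
        ((φ : LaurentSeries (IsLocalRing.ResidueField ↥A)) *
          theta (tq (IsLocalRing.ResidueField ↥A) n e)).coeff (m : ℤ) := by
  haveI : CharP (IsLocalRing.ResidueField ↥A) p :=
    Fermat.Agent.ES.KRON.KronInst10.charP_residueField A Fact.out hA
  obtain ⟨f, hf, hneg⟩ := exists_cuspForm_of_regSpace n e M hmem h hh
  obtain ⟨a, b, hb, hab, hφ⟩ := hred
  obtain ⟨Ya, hYa, -⟩ := a.2
  obtain ⟨Yb, hYb, -⟩ := b.2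
  have hreda := gaussRed_eq A (IsLocalRing.residue ↥A) _ _ a hYa
  have hredb := gaussRed_eq A (IsLocalRing.residue ↥A) _ _ b hYb
  -- the three relations in Laurent series
  have hab' : (h : LaurentSeries Kbar) * coeffMap A.subtype Yb = coeffMap A.subtype Ya := by
    rw [hYa, hYb]
    exact congrArg (fun z : FF M => (z : LaurentSeries Kbar)) hab
  have hB : coeffMap (IsLocalRing.residue ↥A) Yb ≠ 0 := by
    rw [← hredb]
    intro h0
    exact hb (Subtype.ext h0)
  have hφ' : (φ : LaurentSeries (IsLocalRing.ResidueField ↥A)) *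
      coeffMap (IsLocalRing.residue ↥A) Yb = coeffMap (IsLocalRing.residue ↥A) Ya := by
    rw [← hreda, ← hredb]
    exact congrArg
      (fun z : ↥(modularFunctionFieldFullC (IsLocalRing.ResidueField ↥A) M) =>
        (z : LaurentSeries (IsLocalRing.ResidueField ↥A))) hφ
  have hX : coeffMap A.subtype (theta (tq ↥A n e)) = theta (Interface12.tK n e) := by
    rw [coeffMap_theta, coeffMap_tq]
  have hXt : coeffMap (IsLocalRing.residue ↥A) (theta (tq ↥A n e)) =
      theta (tq (IsLocalRing.ResidueField ↥A) n e) := by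
    rw [coeffMap_theta, coeffMap_tq]
  refine ⟨f, ?_⟩
  refine Fermat.Agent.ES.X44.QPInt19.exists_integral_qCoeff M A p f
    ((h : LaurentSeries Kbar) * theta (Interface12.tK n e)) hf hneg Yb
    (Ya * theta (tq ↥A n e)) hB ?_
    ((φ : LaurentSeries (IsLocalRing.ResidueField ↥A)) *
      theta (tq (IsLocalRing.ResidueField ↥A) n e)) ?_
  · rw [map_mul, hX, ← hab']
    ring
  · rw [map_mul, hXt, ← hφ']
    ring

end C

end Fermat.Agent.ES.X44.QPForm25
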