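/-
Programme X (S44), **CHAPTER (QP) CLOSED** (helper26, pool owner): `qpChapter : EigQLit9.QPChapter`.

For every prime `p ≥ 5`, every level `M₁` with `4 ∣ M₁`, `p ∤ M₁` and every valuation subring `A` of
`ℚ̄` over `p`: every regular logarithmic differential `dḠ/Ḡ` of the special fibre of `X₀(M₁)` is, on
`q`-expansions, the reduction of a cusp form of weight `2` and level `M₁` with coefficients in `A`.

Assembly `QPChapterOf26.qpChapter_of_leaves` fed with the two leaves:
(A) `DlogReg10.dlogReg_FtQ` (helper10) and (C) `QPForm25.exists_cuspForm_of_lift` (helper25, on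
helper19's `IntBasisRed19`/`IntFrac19`/`QPInt19`).
-/
import Mathlib
import Fermat.Agent.ES.X44.QPChapterOf26
import Fermat.Agent.ES.X44.DlogReg10
import Fermat.Agent.ES.X44.QPForm25

set_option autoImplicit false
set_option synthInstance.maxHeartbeats 400000

noncomputable section

namespace Fermat.Agent.ES.X44.QPChapter26

open Fermat.Agent.ES.X44.QPChapterOf26 Fermat.Agent.ES.X44.EigQLit9

/-- leaf (A). -/
theorem dlogLeaf : DlogLeaf := by
  intro n e M _ _ p _ hpM hmem hgen A hA G hG hreg
  obtain ⟨h1, h2⟩ := Fermat.Agent.ES.X44.DlogReg10.dlogReg_FtQ M p A Fact.out hA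
    (Fermat.Agent.ES.X44.KaehlerFt18.kaehlerHyp_Ft n e M p hpM hmem hgen A hA) G hG hreg
  exact ⟨h2, h1⟩

/-- leaf (C). -/
theorem formLeaf : FormLeaf := by
  intro n e M _ _ p _ hpM hmem hgen A hA h hh φ hred
  exact Fermat.Agent.ES.X44.QPForm25.exists_cuspForm_of_lift n e M p hmem A hA h hh φ hred

/-- **chapter (QP).** -/
theorem qpChapter : QPChapter := qpChapter_of_leaves dlogLeaf formLeaf

end Fermat.Agent.ES.X44.QPChapter26
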