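/-
Programme X (S44), chapter (Old), leaf Rem4, file 3 (helper23): **removing the auxiliary `2`**.

`m` odd, `ι : E[p] ↪ J₀(m·2·2)` a `G_ℚ`-equivariant realisation of the `p`-torsion of the Frey curve
(`p ≥ 5`, `E[p]` irreducible) with Hecke eigenvalues `a_ℓ(W)` and divisible image.  Then there is such a
realisation in `J₀(m·2)`.

Proof.  `E[p]` has a nonzero vector `v₀` fixed by the inertia group `I_A` at a place `A ∣ 2`
(`FixedAtTwo23.exists_inertia_fixed`: the Frey curve has multiplicative reduction at `2`).  `y₀ = ι v₀` is an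
`I_A`-fixed point of order `p` of `J₀(m·2²)`; by Programme P's geometric input (K_c)
(`P36/S36Top12.FixTors (cP c0)`, closed on main by `OpenFin13.fixBarAll_c0`; `cP c0 2 = 216`) it is not killed by
both degeneracy maps `α_*, β_* : J₀(m·2²) → J₀(m·2)`, since `p ∤ 216`.  If `δ y₀ ≠ 0` (`δ = α_*` or `β_*`) then
`δ ∘ ι` is `G_ℚ`-equivariant with kernel `≠ E[p]`, hence injective; it commutes with `T_ℓ` on the divisible
torsion (`PushHecke23.hecke_push_of_isDiv`).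
-/
import Mathlib
import Fermat.Agent.ES.X44.XIface14b
import Fermat.Agent.ES.X44.FixedAtTwo23
import Fermat.Agent.ES.X44.PushHecke23
import Fermat.Agent.ES.P36.S36Chain12
import Fermat.Agent.ES.P36.OpenFin13

set_option autoImplicit false
set_option linter.unusedSectionVars false
set_option synthInstance.maxHeartbeats 400000

noncomputable section

namespace Fermat.Agent.ES.X44.RemFour23

open WeierstrassCurve WeierstrassCurve.Affine WeierstrassCurve.Affine.Point ModularCurve AlgebraicCurve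
open Fermat.Agent.ES.X44.TateLift23 Fermat.Agent.ES.P36.S36Top12 Fermat.Agent.ES.N35.PushO12

local notation "Qb" => AlgebraicClosure ℚ
local notation "GQ" => (AlgebraicClosure ℚ ≃ₐ[ℚ] AlgebraicClosure ℚ)

/-- `E[p]` of the Frey curve (the literal of `XIface14.Ep`). -/
abbrev Ep (P : FreyPackage) : Type :=
  Submodule.torsionBy ℤ ((P.freyCurve : Affine ℚ)⁄Qb).Point P.p

/-- the constant of (K_c) at `q = 2`. -/
theorem cP_two : Fermat.Agent.ES.P36.S36AsmP12.cP Fermat.Agent.ES.P36.ItemsOf13.c0 2 = 216 := by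
  unfold Fermat.Agent.ES.P36.S36AsmP12.cP Fermat.Agent.ES.P36.ItemsOf13.c0
  rw [if_pos Nat.prime_two]
  norm_num

/-- a prime `p ≥ 5` does not divide `216`. -/
theorem not_dvd_216 {p : ℕ} (hp : p.Prime) (h5 : 5 ≤ p) : ¬ p ∣ 216 := by
  intro h
  have h216 : (216 : ℕ) = 2 ^ 3 * 3 ^ 3 := by norm_num
  rw [h216] at h
  rcases (Nat.Prime.dvd_mul hp).mp h with h2 | h3
  · have := (Nat.prime_dvd_prime_iff_eq hp Nat.prime_two).mp (hp.dvd_of_dvd_pow h2)
    omega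
  · have := (Nat.prime_dvd_prime_iff_eq hp Nat.prime_three).mp (hp.dvd_of_dvd_pow h3)
    omega

/-- an element killed by two coprime integers is zero. -/
theorem eq_zero_of_coprime_nsmul {J : Type*} [AddCommGroup J] {a b : ℕ} (hab : Nat.Coprime a b)
    {y : J} (ha : a • y = 0) (hb : b • y = 0) : y = 0 := by
  have h1 : addOrderOf y ∣ Nat.gcd a b :=
    Nat.dvd_gcd (addOrderOf_dvd_of_nsmul_eq_zero ha) (addOrderOf_dvd_of_nsmul_eq_zero hb)
  rw [hab.gcd_eq_one, Nat.dvd_one] at h1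
  exact AddMonoid.addOrderOf_eq_one_iff.mp h1

/-- **(K_c) on main**, in the `JZero` form. -/
theorem fixTors_main : FixTors (fun q _ =>
    Fermat.Agent.ES.P36.S36AsmP12.cP Fermat.Agent.ES.P36.ItemsOf13.c0 q) :=
  Fermat.Agent.ES.P36.FixBridge12.fixTors_of_fixBar
    (Fermat.Agent.ES.P36.LvlP17.fixBar_of_fixBarAll Fermat.Agent.ES.P36.OpenFin13.fixBarAll_c0)

/-- **irreducibility ⇒ injectivity**: an equivariant additive map out of `E[p]` which does not kill some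
vector is injective. -/
theorem injective_of_irreducible (P : FreyPackage)
    (hirr : GaloisRepIsIrreducible (K := AlgebraicClosure ℚ) ℚ P.freyCurve P.p)
    {J : Type*} [AddCommGroup J] [DistribMulAction GQ J] (f : Ep P →+ J)
    (hf : ∀ (σ : GQ) (v : Ep P), f (σ • v) = σ • f v) {v₀ : Ep P} (hv₀ : f v₀ ≠ 0) :
    Function.Injective f := by
  haveI : Fact P.p.Prime := ⟨P.pp⟩
  let N : Submodule (ZMod P.p) (Ep P) := AddSubgroup.toZModSubmodule P.p f.ker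
  have hmem : ∀ x : Ep P, x ∈ N ↔ f x = 0 := fun x => Iff.rfl
  have hstab : IsGaloisStable ℚ N := by
    intro σ x hx
    rw [hmem] at hx ⊢
    rw [hf, hx, smul_zero]
  rcases hirr.2 N hstab with hbot | htop
  · rw [injective_iff_map_eq_zero]
    intro x hx
    have : x ∈ N := (hmem x).2 hx
    rw [hbot] at this
    exact (Submodule.mem_bot _).mp this
  · exfalso
    apply hv₀
    rw [← hmem, htop]
    exact Submodule.mem_top

/-- **Rem4**: from the level `m·2·2` to the level `m·2`. -/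
theorem exists_real_half (P : FreyPackage) (m : ℕ) [NeZero m] (hm2 : ¬ 2 ∣ m)
    (W : WeierstrassCurve ℤ)
    (hirr : GaloisRepIsIrreducible (K := AlgebraicClosure ℚ) ℚ P.freyCurve P.p)
    (ι : Ep P →+ JZero (m * 2 * 2)) (hinj : Function.Injective ι)
    (heq : ∀ (σ : GQ) (v : Ep P), ι (σ • v) = σ • ι v)
    (hT : ∀ (ℓ : ℕ) (hℓ : ℓ.Prime), W.IsGoodPrimeFor ℓ → ¬ ℓ ∣ m * 2 * 2 → ℓ ≠ P.p → ∀ v : Ep P,
      heckeOperatorBar (m * 2 * 2) ⟨ℓ, hℓ⟩ (ι v) = W.apOfModel ℓ • ι v)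
    (hdiv : ∀ v : Ep P, IsDiv P.p (ι v)) :
    ∃ ι' : Ep P →+ JZero (m * 2), Function.Injective ι' ∧
      (∀ (σ : GQ) (v : Ep P), ι' (σ • v) = σ • ι' v) ∧
      (∀ (ℓ : ℕ) (hℓ : ℓ.Prime), W.IsGoodPrimeFor ℓ → ¬ ℓ ∣ m * 2 → ℓ ≠ P.p → ∀ v : Ep P,
        heckeOperatorBar (m * 2) ⟨ℓ, hℓ⟩ (ι' v) = W.apOfModel ℓ • ι' v) ∧
      ∀ v : Ep P, IsDiv P.p (ι' v) := by
  haveI : Fact P.p.Prime := ⟨P.pp⟩
  haveI : NeZero (2 : ℕ) := ⟨two_ne_zero⟩
  haveI : Nontrivial (Fermat.Agent.S13.Local2.VV P) := hirr.1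
  -- a place over `2` and an inertia-fixed vector
  obtain ⟨A, -, hA, -⟩ := Fermat.Agent.S54.exists_isFrobeniusAt 2 Nat.prime_two
  obtain ⟨v₀, hv₀, hfix⟩ := Fermat.Agent.ES.X44.FixedAtTwo23.exists_inertia_fixed P A hA
  have hpt : ∀ v : Ep P, P.p • ι v = 0 := by
    intro v
    have hv : (P.p : ℤ) • v = 0 := by
      have := v.2
      rw [Submodule.mem_torsionBy_iff] at this
      exact Subtype.ext this
    rw [← map_nsmul, ← natCast_zsmul, hv, _root_.map_zero]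
  have hy₀ : ι v₀ ≠ 0 := fun h => hv₀ (hinj (h.trans (_root_.map_zero ι).symm))
  -- the two degeneracy maps
  obtain ⟨hα, hfα, hβ, hfβ, hNα, hNβ⟩ :=
    Fermat.Agent.ES.P36.FixBridge12.heckePStmt m 2 Nat.prime_two hm2
  let δ₁ : JZero (m * 2 * 2) →+ JZero (m * 2) :=
    pic0PushAlong (heckeAlphaBar Qb (m * 2) 2) hα hfα hNα
  let δ₂ : JZero (m * 2 * 2) →+ JZero (m * 2) :=
    pic0PushAlong (heckeBetaBar Qb (m * 2) 2) hβ hfβ hNβ
  have hδ₁σ : ∀ (σ : GQ) (y : JZero (m * 2 * 2)), δ₁ (σ • y) = σ • δ₁ y :=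
    fun σ y => alphaPush2_smul (m * 2) hα hfα hNα σ y
  have hδ₂σ : ∀ (σ : GQ) (y : JZero (m * 2 * 2)), δ₂ (σ • y) = σ • δ₂ y :=
    fun σ y => betaPush2_smul (m * 2) hβ hfβ hNβ σ y
  -- one of them does not kill `ι v₀`
  have hne : δ₁ (ι v₀) ≠ 0 ∨ δ₂ (ι v₀) ≠ 0 := by
    by_contra hcon
    have hc1 : δ₁ (ι v₀) = 0 := by
      by_contra h
      exact hcon (Or.inl h)
    have hc2 : δ₂ (ι v₀) = 0 := by
      by_contra h
      exact hcon (Or.inr h)
    have hp2 : ¬ 2 ∣ P.p := by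
      intro h
      have := (Nat.prime_dvd_prime_iff_eq Nat.prime_two P.pp).mp h
      have := P.hp5
      omega
    have h216' := fixTors_main m 2 Nat.prime_two hm2 hα hfα hNα hβ hfβ hNβ A hA P.p hp2 (ι v₀)
      (hpt v₀) (fun τ hτ => by rw [← heq, hfix τ hτ]) hc1 hc2
    have h216 : 216 • ι v₀ = 0 := by
      have h := h216'
      simp only [cP_two] at h
      exact h
    -- `gcd (216, p) = 1`
    have hcop : Nat.Coprime 216 P.p :=
      (Nat.Coprime.symm ((Nat.Prime.coprime_iff_not_dvd P.pp).mpr (not_dvd_216 P.pp P.hp5)))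
    exact hy₀ (eq_zero_of_coprime_nsmul hcop h216 (hpt v₀))
  -- the generic step
  have key : ∀ δ : JZero (m * 2 * 2) →+ JZero (m * 2),
      (∀ (σ : GQ) (y : JZero (m * 2 * 2)), δ (σ • y) = σ • δ y) → δ (ι v₀) ≠ 0 →
      ∃ ι' : Ep P →+ JZero (m * 2), Function.Injective ι' ∧
        (∀ (σ : GQ) (v : Ep P), ι' (σ • v) = σ • ι' v) ∧
        (∀ (ℓ : ℕ) (hℓ : ℓ.Prime), W.IsGoodPrimeFor ℓ → ¬ ℓ ∣ m * 2 → ℓ ≠ P.p → ∀ v : Ep P,
          heckeOperatorBar (m * 2) ⟨ℓ, hℓ⟩ (ι' v) = W.apOfModel ℓ • ι' v) ∧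
        ∀ v : Ep P, IsDiv P.p (ι' v) := by
    intro δ hδσ hδ0
    have heq' : ∀ (σ : GQ) (v : Ep P), (δ.comp ι) (σ • v) = σ • (δ.comp ι) v := by
      intro σ v
      show δ (ι (σ • v)) = σ • δ (ι v)
      rw [heq, hδσ]
    refine ⟨δ.comp ι, injective_of_irreducible P hirr (δ.comp ι) heq' (v₀ := v₀) hδ0, heq', ?_,
      fun v => (hdiv v).map δ⟩
    intro ℓ hℓ hgood hℓM hℓp v
    have hℓ2 : ℓ ≠ 2 := by
      rintro rfl
      exact hℓM (dvd_mul_left 2 m)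
    have hℓM4 : ¬ ℓ ∣ m * 2 * 2 := by
      intro h
      rcases (Nat.Prime.dvd_mul hℓ).mp h with h1 | h1
      · exact hℓM h1
      · exact hℓ2 ((Nat.prime_dvd_prime_iff_eq hℓ Nat.prime_two).mp h1)
    show heckeOperatorBar (m * 2) ⟨ℓ, hℓ⟩ (δ (ι v)) = W.apOfModel ℓ • δ (ι v)
    rw [← Fermat.Agent.ES.X44.PushHecke23.hecke_push_of_isDiv δ hδσ hℓ hℓM4 hℓM hℓp (hpt v)
      (hdiv v), hT ℓ hℓ hgood hℓM4 hℓp v, map_zsmul]
  rcases hne with h | h
  · exact key δ₁ hδ₁σ h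
  · exact key δ₂ hδ₂σ h

/-- **Rem4, in the literal of the chain** (`Old3Asm14.Rem4Stmt` unfolded). -/
theorem rem4 (P : FreyPackage) (m : ℕ) [NeZero (m * 2)] [NeZero (m * 2 * 2)] (W : WeierstrassCurve ℤ)
    (_hW : W.IsIntegralModelOf P.freyCurve)
    (hirr : GaloisRepIsIrreducible (K := AlgebraicClosure ℚ) ℚ P.freyCurve P.p)
    (hm : ¬ 2 ∣ m) (_hpm : ¬ P.p ∣ m)
    (ι : Fermat.Agent.ES.X44.XIface14.Ep P →+ JZero (m * 2 * 2))
    (hι : Fermat.Agent.ES.X44.XIface14b.RealClauses P (m * 2 * 2) W ι)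
    (hdiv : ∀ (v : Fermat.Agent.ES.X44.XIface14.Ep P) (k : ℕ),
      ∃ z : JZero (m * 2 * 2), P.p ^ k • z = ι v) :
    ∃ ι' : Fermat.Agent.ES.X44.XIface14.Ep P →+ JZero (m * 2),
      Fermat.Agent.ES.X44.XIface14b.RealClauses P (m * 2) W ι' ∧
        ∀ (v : Fermat.Agent.ES.X44.XIface14.Ep P) (k : ℕ), ∃ z : JZero (m * 2), P.p ^ k • z = ι' v := by
  have : NeZero m := ⟨fun h => hm (h ▸ dvd_zero 2)⟩
  obtain ⟨hinj, heq, hT⟩ := hι
  obtain ⟨ι', h1, h2, h3, h4⟩ := exists_real_half P m hm W hirr ι hinj heq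
    (fun ℓ hℓ hg hℓM hℓp v => hT ⟨ℓ, hℓ⟩ ⟨hg, hℓM, hℓp⟩ v) (fun v => hdiv v)
  exact ⟨ι', ⟨h1, h2, fun ℓ hg v => h3 ℓ.1 ℓ.2 hg.1 hg.2.1 hg.2.2 v⟩, fun v => h4 v⟩

end Fermat.Agent.ES.X44.RemFour23
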