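/-
Programme X (S44), chapter (Lev), leaf Unr2 (helper18): **a `G_ℚ`-module embedded in the `p`-torsion of `J₀(N)` is
unramified at every prime `ℓ ∤ N p`** — in particular at `ℓ = 2` when `N` is odd.

* `inertia_fixes_of_injection` : GENERIC.  `V` any type with a `G_ℚ`-action, `ι : V → J₀(N)` injective and
  equivariant with `m • ι v = 0`; `ℓ` prime, `ℓ ∤ N`, `ℓ ∤ m`; then the inertia group of every place over `ℓ`
  acts trivially on `V` (`TOP/TorsionGalois12.inertia_smul_eq`: `J₀(N)` has good reduction at `ℓ`).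
* `unramifiedAt_of_injection` : the Prelude literal `GaloisRepUnramifiedAt ℚ E p ℓ` for `V = E[p]`.
* `unramifiedAt_two_of_injection` : the case `ℓ = 2`, `N` odd, `p` odd.
-/
import Mathlib
import Fermat.Prelude.Def_FLTPrelim_Ramification
import Fermat.Agent.ES.TOP.TorsionGalois12

set_option autoImplicit false
set_option linter.unusedSectionVars false

open WeierstrassCurve WeierstrassCurve.Affine WeierstrassCurve.Affine.Point ModularCurve

noncomputable section

namespace Fermat.Agent.ES.X44.UnrTwo18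

local notation "Qb" => AlgebraicClosure ℚ
local notation "GQ" => (AlgebraicClosure ℚ ≃ₐ[ℚ] AlgebraicClosure ℚ)

variable {N : ℕ} [NeZero N]

/-- **inertia at `ℓ ∤ N m` acts trivially on anything embedded in `J₀(N)[m]`.** -/
theorem inertia_fixes_of_injection {V : Type*} [SMul GQ V] (ι : V → JZero N)
    (hinj : Function.Injective ι) (heq : ∀ (σ : GQ) (v : V), ι (σ • v) = σ • ι v)
    {m : ℕ} (hm : ∀ v : V, m • ι v = 0) {ℓ : ℕ} (hℓ : ℓ.Prime) (hℓN : ¬ ℓ ∣ N) (hℓm : ¬ ℓ ∣ m)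
    {A : ValuationSubring Qb} (hA : A.LiesOverPrime ℓ) {τ : GQ} (hτ : τ ∈ A.inertiaSubgroupIn ℚ)
    (v : V) : τ • v = v := by
  apply hinj
  rw [heq]
  exact Fermat.Agent.ES.TOP.TorsionGalois12.inertia_smul_eq hℓ hℓN hA hℓm (hm v) hτ

/-- **`E[p]` embedded in `J₀(N)` is unramified at `ℓ ∤ N p`** (Prelude literal). -/
theorem unramifiedAt_of_injection (E : WeierstrassCurve ℚ) {p : ℕ}
    (ι : ↥(Submodule.torsionBy ℤ ((E.toAffine)⁄Qb).Point p) →+ JZero N)
    (hinj : Function.Injective ι)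
    (heq : ∀ (σ : GQ) (v : ↥(Submodule.torsionBy ℤ ((E.toAffine)⁄Qb).Point p)),
      ι (σ • v) = σ • ι v)
    {ℓ : ℕ} (hℓ : ℓ.Prime) (hℓN : ¬ ℓ ∣ N) (hℓp : ¬ ℓ ∣ p) :
    GaloisRepUnramifiedAt (K := Qb) ℚ E.toAffine p ℓ := by
  intro A hA τ hτ v
  refine inertia_fixes_of_injection (⇑ι) hinj heq (m := p) (fun w => ?_) hℓ hℓN hℓp hA hτ v
  have h1 : p • w = 0 := by
    apply Subtype.ext
    have := w.2
    rw [Submodule.mem_torsionBy_iff, natCast_zsmul] at this
    rw [Submodule.coe_smul_of_tower, this]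
    rfl
  rw [← map_nsmul, h1, _root_.map_zero]

/-- **`E[p]` embedded in `J₀(N)`, `N` odd, `p` odd, is unramified at `2`.** -/
theorem unramifiedAt_two_of_injection (E : WeierstrassCurve ℚ) {p : ℕ} (hp : p.Prime) (hp2 : p ≠ 2)
    (hN : ¬ 2 ∣ N)
    (ι : ↥(Submodule.torsionBy ℤ ((E.toAffine)⁄Qb).Point p) →+ JZero N)
    (hinj : Function.Injective ι)
    (heq : ∀ (σ : GQ) (v : ↥(Submodule.torsionBy ℤ ((E.toAffine)⁄Qb).Point p)),
      ι (σ • v) = σ • ι v) :
    GaloisRepUnramifiedAt (K := Qb) ℚ E.toAffine p 2 :=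
  unramifiedAt_of_injection E ι hinj heq Nat.prime_two hN
    (fun h => hp2 ((Nat.prime_dvd_prime_iff_eq Nat.prime_two hp).mp h).symm)

/-- the Frey-package form. -/
theorem frey_unramifiedAt_two (P : FreyPackage) (hN : ¬ 2 ∣ N)
    (ι : ↥(Submodule.torsionBy ℤ ((P.freyCurve : Affine ℚ)⁄Qb).Point P.p) →+ JZero N)
    (hinj : Function.Injective ι)
    (heq : ∀ (σ : GQ) (v : ↥(Submodule.torsionBy ℤ ((P.freyCurve : Affine ℚ)⁄Qb).Point P.p)),
      ι (σ • v) = σ • ι v) :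
    P.GaloisRepUnramifiedAt 2 :=
  unramifiedAt_two_of_injection P.freyCurve P.pp (by have := P.hp5; omega) hN ι hinj heq

end Fermat.Agent.ES.X44.UnrTwo18
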