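/-
Programme X (S44), SPINE v2, helper14: **the chain with the CLOSED chapters discharged.**

`S44Chain14c.s44_of_chapters3` asks for eight chapter theorems.  Six of them are proved:
`rChapter`, `neChapter` (`RChapter19`, helper19 + helper18), `l2Chapter` (`L2Final25`, helper25 + helper28 + helper10),
and here `r0Chapter` (from `RChapter19.realExitD_level`), `unr2Chapter` (from `UnrTwo18`, helper18),
`ramAt2Chapter` (from `FreyRamClosed3`, helper3 + helper6).  What remains is

  `s44_of_geoQ_old (EigQ) : GeoQChapter EigQ → Old3Chapter EigQ → (statement of S44)`;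

in particular S44 is PROVED for every odd conductor level `N` (`s44_odd`).
-/
import Mathlib
import Fermat.Agent.ES.X44.S44Chain14c
import Fermat.Agent.ES.X44.RChapter19
import Fermat.Agent.ES.X44.L2Final25
import Fermat.Agent.ES.X44.UnrTwo18
import Fermat.Agent.ES.X44.FreyRamClosed3
import Fermat.Agent.Lib.FrobeniusExists

set_option autoImplicit false

noncomputable section

namespace Fermat.Agent.ES.X44.S44Half14

open WeierstrassCurve WeierstrassCurve.Affine WeierstrassCurve.Affine.Point ModularCurve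
open Fermat.Agent.ES.X44.XIface14 Fermat.Agent.ES.X44.XIface14b Fermat.Agent.ES.X44.S44Chain14c

local notation "Qb" => AlgebraicClosure ℚ

/-- **(R) at the level `N` itself.** -/
theorem r0Chapter : R0Chapter := by
  intro P N _ hirr f W 𝔪 hdata
  obtain ⟨hf, hW, hmax, hpm, hcong⟩ := hdata
  obtain ⟨ι, h1, h2, h3, -⟩ :=
    Fermat.Agent.ES.X44.RChapter19.realExitD_level P N hirr f W 𝔪 hf hW hmax hpm hcong
  exact ⟨ι, h1, h2, h3⟩

/-- **Unr2.** -/
theorem unr2Chapter : Unr2Chapter := by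
  intro P N _ W h2N hR0
  obtain ⟨ι, h1, h2, -⟩ := hR0
  exact Fermat.Agent.ES.X44.UnrTwo18.frey_unramifiedAt_two P h2N ι h1 h2

/-- **FreyRam2.** -/
theorem ramAt2Chapter : RamAt2Chapter := by
  intro P
  obtain ⟨A, hA⟩ := Fermat.Agent.Lib.FrobeniusExists.exists_valuationSubring_liesOverPrime 2 Nat.prime_two
  obtain ⟨σ, hσ, Q, hQ⟩ := Fermat.Agent.ES.X44.FreyRamClosed3.frey_ramified_at_two P A hA
  exact ⟨A, hA, σ, hσ, Q, hQ⟩

/-- **S44 from the two open chapters.** -/
theorem s44_of_geoQ_old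
    (EigQ : ℕ → ∀ (M' : ℕ) [NeZero M'], (Nat.Primes → ℤ) → (Nat.Primes → Prop) → Prop)
    (hGeo : GeoQChapter EigQ) (hOld : Old3Chapter EigQ)
    (P : FreyPackage) {N : ℕ} (hcond : P.IsConductorLevel N) (hpN : P.p ∣ N)
    (hirr : GaloisRepIsIrreducible (K := AlgebraicClosure ℚ) ℚ P.freyCurve P.p)
    (hmod : P.ModularRepOfLevel N) : ∃ M : ℕ, M ∣ N ∧ ¬ P.p ∣ M ∧ P.ModularRepOfLevel M :=
  s44_of_chapters3 EigQ r0Chapter unr2Chapter ramAt2Chapter
    Fermat.Agent.ES.X44.RChapter19.rChapter Fermat.Agent.ES.X44.RChapter19.neChapter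
    Fermat.Agent.ES.X44.L2Final25.l2Chapter hGeo hOld P hcond hpN hirr hmod

/-- **S44 holds for every ODD conductor level** (the hypotheses are contradictory there). -/
theorem s44_odd (P : FreyPackage) {N : ℕ} (hcond : P.IsConductorLevel N) (h2N : ¬ 2 ∣ N)
    (hirr : GaloisRepIsIrreducible (K := AlgebraicClosure ℚ) ℚ P.freyCurve P.p)
    (hmod : P.ModularRepOfLevel N) : False := by
  obtain ⟨f, W, 𝔪, hf, hW, h𝔪, hp𝔪, hcong⟩ := hmod
  haveI : NeZero N := ⟨hcond.pos.ne'⟩
  exact not_unramAt2_of_ramAt2 (ramAt2Chapter P)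
    (unr2Chapter P N W h2N (r0Chapter P N hirr f W 𝔪 ⟨hf, hW, h𝔪, hp𝔪, hcong⟩))

end Fermat.Agent.ES.X44.S44Half14
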