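/-
Programme X (S44), SPINE v2, helper14: **S44 from the THREE remaining chapter theorems.**

`S44Half14.s44_of_geoQ_old` asks for `GeoQChapter EigQ` and `Old3Chapter EigQ`; `Old3Asm14.old3Chapter_of` proves the
second one at `EigQ := EigQLit9.EigQ` from the chapter (QP) and the leaf Rem4.  Hence

  `s44_of_three : GeoQChapter EigQLit9.EigQ → EigQLit9.QPChapter → Old3Asm14.Rem4Stmt → (statement of S44)`.
-/
import Mathlib
import Fermat.Agent.ES.X44.S44Half14
import Fermat.Agent.ES.X44.Old3Asm14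

set_option autoImplicit false

noncomputable section

namespace Fermat.Agent.ES.X44.S44Three14

open WeierstrassCurve WeierstrassCurve.Affine WeierstrassCurve.Affine.Point
open Fermat.Agent.ES.X44.S44Chain14c

/-- **S44 from (Geo)+(QH), (QP) and Rem4.** -/
theorem s44_of_three
    (hGeo : GeoQChapter Fermat.Agent.ES.X44.EigQLit9.EigQ)
    (hQP : Fermat.Agent.ES.X44.EigQLit9.QPChapter)
    (hRem4 : Fermat.Agent.ES.X44.Old3Asm14.Rem4Stmt)
    (P : FreyPackage) {N : ℕ} (hcond : P.IsConductorLevel N) (hpN : P.p ∣ N)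
    (hirr : GaloisRepIsIrreducible (K := AlgebraicClosure ℚ) ℚ P.freyCurve P.p)
    (hmod : P.ModularRepOfLevel N) : ∃ M : ℕ, M ∣ N ∧ ¬ P.p ∣ M ∧ P.ModularRepOfLevel M :=
  Fermat.Agent.ES.X44.S44Half14.s44_of_geoQ_old Fermat.Agent.ES.X44.EigQLit9.EigQ hGeo
    (Fermat.Agent.ES.X44.Old3Asm14.old3Chapter_of hQP hRem4) P hcond hpN hirr hmod

end Fermat.Agent.ES.X44.S44Three14
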