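/-
Programme X (S44), SPINE v2, helper14: **S44 from the FIVE chapter exits still under way.**

  `s44_of_five : GeoAsm14.OffChapter → GeoAsm14.XaChapter → GeoAsm14.QHChapter →
                 EigQLit9.QPChapter → Old3Asm14.Rem4Stmt → (statement of S44)`

= `S44Three14.s44_of_three` ∘ `GeoAsm14.geoQChapter_of`.  Everything else of the spine is proved.
-/
import Mathlib
import Fermat.Agent.ES.X44.S44Three14
import Fermat.Agent.ES.X44.GeoAsm14

set_option autoImplicit false

noncomputable section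

namespace Fermat.Agent.ES.X44.S44Five14

open WeierstrassCurve WeierstrassCurve.Affine WeierstrassCurve.Affine.Point

/-- **S44 from (Off), (X-a), (QH), (QP) and Rem4.** -/
theorem s44_of_five
    (hOff : Fermat.Agent.ES.X44.GeoAsm14.OffChapter)
    (hXa : Fermat.Agent.ES.X44.GeoAsm14.XaChapter)
    (hQH : Fermat.Agent.ES.X44.GeoAsm14.QHChapter)
    (hQP : Fermat.Agent.ES.X44.EigQLit9.QPChapter)
    (hRem4 : Fermat.Agent.ES.X44.Old3Asm14.Rem4Stmt)
    (P : FreyPackage) {N : ℕ} (hcond : P.IsConductorLevel N) (hpN : P.p ∣ N)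
    (hirr : GaloisRepIsIrreducible (K := AlgebraicClosure ℚ) ℚ P.freyCurve P.p)
    (hmod : P.ModularRepOfLevel N) : ∃ M : ℕ, M ∣ N ∧ ¬ P.p ∣ M ∧ P.ModularRepOfLevel M :=
  Fermat.Agent.ES.X44.S44Three14.s44_of_three
    (Fermat.Agent.ES.X44.GeoAsm14.geoQChapter_of hOff hXa hQH) hQP hRem4 P hcond hpN hirr hmod

end Fermat.Agent.ES.X44.S44Five14
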