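/-
Programme X (S44), chapter (W2), helper7: **the operator `Θ = N_α ∘ β` preserves the first Gauss valuation ring
of the bad level and reduces to the norm product `Θ̄` on `q`-series.**

`theta N ℓ f := N_α (β f)` on `Fbar N` is `ThetaFricke21.theta` (`α = heckeAlphaBar`, `β = heckeBetaBar` at the levels
`N`, `N ℓ`), so that `div (theta N ℓ f) = T_ℓ (div f)` (main's `PointFormula28.correspondence_eq_ord_norm`).  By main's
`ConjNorm11.qExpand_normAlong_alpha_beta`, `(theta N ℓ f)(q^ℓ) = ∏_b f(ζ^b q) · f(q^{ℓ²})` for a prime `ℓ ∤ N`.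
The root of unity of the residue field is `ζ̄ = ThetaQ7.zetaBar A ℓ ζ _` (`ζ : ℚ̄ˣ` a primitive `ℓ`-th root of unity).

* `qExpand_theta`; `zetaBar_isPrimitiveRoot` (`ℓ ≠ 0` in the residue field);
* `theta_integral` : an `A`-integral `f` has an `A`-integral `theta f`, reducing to `Θ̄ f̄` (`ThetaQ7.IsTh`);
* `isTh_mem_fullC` (GOOD level `M'`, `p ∤ M'`): `x ∈ F̃_{M'}`, `X = Θ̄ x` ⇒ `X ∈ F̃_{M'}`;
* `theta_mem_Gq1`, `isTh_redq1` : the `q`-integral ring `Gq1` of the bad level `M' p`;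
* **`theta_mem_O1`, `isTh_rho1`, `thetaO1`** : `Θ (O1) ⊆ O1` and `rho1 (Θ f) = Θ̄ (rho1 f)`.
-/
import Mathlib
import Fermat.Agent.ES.KRON.ConjNorm11
import Fermat.Agent.ES.W33.FrickeBar8
import Fermat.Agent.ES.RED.RedMem16
import Fermat.Agent.ES.X44.ThetaQ7
import Fermat.Agent.ES.X44.ThetaFricke21

set_option autoImplicit false
set_option synthInstance.maxHeartbeats 400000
set_option linter.unusedSectionVars false
set_option linter.style.haveILetI false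

open HahnSeries ModularCurve AlgebraicCurve

noncomputable section

namespace Fermat.Agent.ES.X44.ThetaO17

open Fermat.Agent.RED.Interface4 Fermat.Agent.ES.RED.Contract8 Fermat.Agent.ES.RED.ModelInst4
  Fermat.Agent.ES.RED.GaussRing15 Fermat.Agent.ES.V19.GaussFrac15 Fermat.Agent.ES.W33.NodalDefs3
  Fermat.Agent.ES.KRON.KronCong24 Fermat.Agent.ES.KRON.KronNorm10
  Fermat.Agent.ES.HECKE.PointFormula28 Fermat.Agent.ES.X44.ThetaQ7 Fermat.Agent.ES.X44.ThetaFricke21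

attribute [local instance 5000] HahnSeries.powerSeriesAlgebra SubalgebraClass.toAlgebra

/-! ### the operator `Θ` at a general level -/

section General

variable (N ℓ : ℕ) [NeZero N] [NeZero ℓ]

/-- **(H4)-NORM** in the notation of `ThetaQ7`. -/
theorem qExpand_theta (hℓ : ℓ.Prime) (hℓN : ¬ ℓ ∣ N) (ζ : Qbarˣ) (hζ : IsPrimitiveRoot ζ ℓ)
    (f : ↥(Fbar N)) :
    qExpand Qbar ℓ ((theta N ℓ f : ↥(Fbar N)) : LaurentSeries Qbar) =
      normProd ℓ ζ ((f : ↥(Fbar N)) : LaurentSeries Qbar) :=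
  Fermat.Agent.ES.KRON.ConjNorm11.qExpand_normAlong_alpha_beta N ℓ hℓ hℓN ζ hζ f

variable (A : ValuationSubring Qbar)

/-- **an `A`-integral function has an `A`-integral `Θ f`, and its reduction is `Θ̄ f̄`.** -/
theorem theta_integral (hℓ : ℓ.Prime) (hℓN : ¬ ℓ ∣ N) (ζ : Qbarˣ) (hζ : IsPrimitiveRoot ζ ℓ)
    (f : ↥(Fbar N)) (Y : LaurentSeries ↥A)
    (hY : coeffMap A.subtype Y = ((f : ↥(Fbar N)) : LaurentSeries Qbar)) :
    ∃ NR : LaurentSeries ↥A,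
      coeffMap A.subtype NR = ((theta N ℓ f : ↥(Fbar N)) : LaurentSeries Qbar) ∧
      IsTh ℓ (zetaBar A ℓ ζ hζ.pow_eq_one) (coeffMap (resA A) Y) (coeffMap (resA A) NR) := by
  have h1 := qExpand_theta N ℓ hℓ hℓN ζ hζ f
  rw [← hY] at h1
  exact th_descent_val A ℓ ζ hζ.pow_eq_one Y _ h1

/-- the reduction `ζ̄` of a primitive `ℓ`-th root of unity is primitive when `ℓ ≠ 0` in the residue field. -/
theorem zetaBar_isPrimitiveRoot (hℓ : ℓ.Prime) (ζ : Qbarˣ) (hζ : IsPrimitiveRoot ζ ℓ)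
    (hℓk : ((ℓ : ℕ) : kA A) ≠ 0) : IsPrimitiveRoot (zetaBar A ℓ ζ hζ.pow_eq_one) ℓ := by
  have hpow : zetaBar A ℓ ζ hζ.pow_eq_one ^ ℓ = 1 := zetaBar_pow A ℓ ζ hζ.pow_eq_one
  have hlpos : 0 < ℓ := hℓ.pos
  have hζL : (ζ : Qbar) ^ ℓ = 1 := by
    rw [← Units.val_pow_eq_pow_val, hζ.pow_eq_one, Units.val_one]
  -- `ζ̄ ≠ 1`
  have hne : zetaBar A ℓ ζ hζ.pow_eq_one ≠ 1 := by
    intro h1
    apply hℓk
    have hζ' : IsPrimitiveRoot (ζ : Qbar) ℓ := IsPrimitiveRoot.coe_units_iff.mpr hζ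
    have hsum : ∑ i ∈ Finset.range ℓ, (ζ : Qbar) ^ i = 0 := hζ'.geom_sum_eq_zero hℓ.one_lt
    set ζA : (↥A)ˣ := Fermat.Agent.ES.KRON.KronInst10.unitOfPowEqOne A hlpos hζL with hζA
    have hcoe : (((ζA : (↥A)ˣ) : ↥A) : Qbar) = (ζ : Qbar) := rfl
    have hsumA : ∑ i ∈ Finset.range ℓ, ((ζA : (↥A)ˣ) : ↥A) ^ i = 0 := by
      apply Subtype.val_injective
      show A.subtype (∑ i ∈ Finset.range ℓ, ((ζA : (↥A)ˣ) : ↥A) ^ i) = A.subtype 0
      rw [map_sum, map_zero]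
      simp only [map_pow]
      exact hsum
    have hres := congrArg (resA A) hsumA
    rw [map_sum, map_zero] at hres
    have hz : resA A ((ζA : (↥A)ˣ) : ↥A) = 1 := by
      have := congrArg (fun u : (kA A)ˣ => (u : kA A)) h1
      exact this
    simp only [map_pow, hz, one_pow, Finset.sum_const, Finset.card_range, nsmul_eq_mul,
      mul_one] at hres
    exact hres
  refine IsPrimitiveRoot.mk_of_lt _ hlpos hpow fun l hl0 hlℓ hl1 => hne ?_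
  have hg : Nat.gcd l ℓ = 1 := by
    rw [Nat.gcd_comm]
    exact (Nat.Prime.coprime_iff_not_dvd hℓ).mpr
      (fun hd => absurd (Nat.le_of_dvd hl0 hd) (by omega))
  have := pow_gcd_eq_one.mpr ⟨hl1, hpow⟩
  rwa [hg, pow_one] at this

end General

/-! ### the good level: `Θ̄` preserves `F̃_{M'}` -/

section Good

variable (M' : ℕ) [NeZero M'] (p : ℕ) [Fact p.Prime] (A : ValuationSubring Qbar)
  (hA : A.LiesOverPrime p) (hpM : ¬ p ∣ M') (ℓ : ℕ) [NeZero ℓ] (hℓ : ℓ.Prime) (hℓM : ¬ ℓ ∣ M')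
  (ζ : Qbarˣ) (hζ : IsPrimitiveRoot ζ ℓ)

include hA hpM hℓ hℓM in
/-- for `g` in the `q`-integral ring of the good level, `Θ̄ ḡ` exists in `F̃_{M'}`. -/
theorem exists_isTh_of_mem (g : ↥(gaussRingN A (resA A) M')) :
    ∃ X : Ft M' A, IsTh ℓ (zetaBar A ℓ ζ hζ.pow_eq_one)
      ((gaussRedN A (resA A) M' g : Ft M' A) : LaurentSeries (kA A)) (X : LaurentSeries (kA A)) := by
  have hY := coeffMap_gaussLift A (resA A) (Fbar M') (modularFunctionFieldFullC (kA A) M') g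
  obtain ⟨NR, hNR, hTh⟩ := theta_integral M' ℓ A hℓ hℓM ζ hζ (g : ↥(Fbar M')) _ hY
  have hmem : coeffMap (resA A) NR ∈ modularFunctionFieldFullC (kA A) M' := by
    refine Fermat.Agent.ES.RED.RedMem16.coeffMap_residue_mem_fullC A p hA hpM NR ?_
    rw [hNR]
    exact (theta M' ℓ (g : ↥(Fbar M'))).2
  refine ⟨⟨_, hmem⟩, ?_⟩
  rw [coe_gaussRed]
  exact hTh

include hA hpM hℓ hℓM in
/-- **`Θ̄` preserves `F̃_{M'}`.** -/
theorem isTh_mem_fullC {x X : LaurentSeries (kA A)} (hx : x ∈ modularFunctionFieldFullC (kA A) M')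
    (h : IsTh ℓ (zetaBar A ℓ ζ hζ.pow_eq_one) x X) : X ∈ modularFunctionFieldFullC (kA A) M' := by
  obtain ⟨f, a, b, hb, -, hφ⟩ := Fermat.Agent.ES.W33.FrickeBar8.exists_isRedOf M' A ⟨x, hx⟩
  obtain ⟨Xa, hXa⟩ := exists_isTh_of_mem M' p A hA hpM ℓ hℓ hℓM ζ hζ a
  obtain ⟨Xb, hXb⟩ := exists_isTh_of_mem M' p A hA hpM ℓ hℓ hℓM ζ hζ b
  have hb' : ((gaussRedN A (resA A) M' b : Ft M' A) : LaurentSeries (kA A)) ≠ 0 := fun h0 =>
    hb (Subtype.ext h0)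
  have hx' : x = ((gaussRedN A (resA A) M' a : Ft M' A) : LaurentSeries (kA A)) /
      ((gaussRedN A (resA A) M' b : Ft M' A) : LaurentSeries (kA A)) := by
    rw [eq_div_iff hb']
    exact congrArg Subtype.val hφ
  have hdiv := hXa.div hXb
  rw [← hx'] at hdiv
  rw [h.unique hdiv]
  exact div_mem Xa.2 Xb.2

end Good

/-! ### the bad level `M' p`: the ring `Gq1` -/

section Bad

variable (M' : ℕ) [NeZero M'] (p : ℕ) [Fact p.Prime] (A : ValuationSubring Qbar)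
  (hA : A.LiesOverPrime p) (hpM : ¬ p ∣ M') (ℓ : ℕ) [NeZero ℓ] (hℓ : ℓ.Prime)
  (hℓM : ¬ ℓ ∣ M' * p) (ζ : Qbarˣ) (hζ : IsPrimitiveRoot ζ ℓ)

include hℓM in
theorem not_dvd_good : ¬ ℓ ∣ M' := fun h => hℓM (h.mul_right p)

include hA hpM hℓ hℓM in
/-- `Θ (Gq1) ⊆ Gq1`, and the reduction of `Θ g` is `Θ̄ ḡ`. -/
theorem theta_Gq1 (g : ↥(Gq1 M' p A)) :
    ∃ h : theta (M' * p) ℓ (g : ↥(Fbar (M' * p))) ∈ Gq1 M' p A,
      IsTh ℓ (zetaBar A ℓ ζ hζ.pow_eq_one)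
        ((redq1 M' p A g : Ft M' A) : LaurentSeries (kA A))
        ((redq1 M' p A ⟨_, h⟩ : Ft M' A) : LaurentSeries (kA A)) := by
  have hY := coeffMap_gaussLift A (resA A) (Fbar (M' * p)) (modularFunctionFieldFullC (kA A) M') g
  obtain ⟨NR, hNR, hTh⟩ := theta_integral (M' * p) ℓ A hℓ hℓM ζ hζ (g : ↥(Fbar (M' * p))) _ hY
  have hgmem := coeffMap_gaussLift_mem A (resA A) (Fbar (M' * p))
    (modularFunctionFieldFullC (kA A) M') g
  have hmem : coeffMap (resA A) NR ∈ modularFunctionFieldFullC (kA A) M' :=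
    isTh_mem_fullC M' p A hA hpM ℓ hℓ (not_dvd_good M' p ℓ hℓM) ζ hζ hgmem hTh
  have hG : theta (M' * p) ℓ (g : ↥(Fbar (M' * p))) ∈ Gq1 M' p A := ⟨NR, hNR, hmem⟩
  refine ⟨hG, ?_⟩
  rw [coe_gaussRed, gaussRed_eq A (resA A) (Fbar (M' * p)) (modularFunctionFieldFullC (kA A) M')
    ⟨_, hG⟩ hNR]
  exact hTh

include hA hpM hℓ hℓM in
/-- fraction form: `Θ` maps a function with reduction `φ` to a function with reduction `Θ̄ φ`. -/
theorem exists_isRedOf_theta {f : ↥(Fbar (M' * p))} {φ : Ft M' A}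
    (h : IsRedOf (Gq1 M' p A) (redq1 M' p A) f φ) :
    ∃ Φ : Ft M' A, IsRedOf (Gq1 M' p A) (redq1 M' p A) (theta (M' * p) ℓ f) Φ ∧
      IsTh ℓ (zetaBar A ℓ ζ hζ.pow_eq_one) (φ : LaurentSeries (kA A)) (Φ : LaurentSeries (kA A)) := by
  obtain ⟨a, b, hb, hfb, hφ⟩ := h
  obtain ⟨ha', hTa⟩ := theta_Gq1 M' p A hA hpM ℓ hℓ hℓM ζ hζ a
  obtain ⟨hb', hTb⟩ := theta_Gq1 M' p A hA hpM ℓ hℓ hℓM ζ hζ b
  have hbs : ((redq1 M' p A b : Ft M' A) : LaurentSeries (kA A)) ≠ 0 := fun h0 =>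
    hb (Subtype.ext h0)
  have hTb0 : redq1 M' p A ⟨_, hb'⟩ ≠ 0 := fun h0 =>
    hTb.ne_zero hbs (by rw [h0]; rfl)
  refine ⟨redq1 M' p A ⟨_, ha'⟩ / redq1 M' p A ⟨_, hb'⟩, ⟨⟨_, ha'⟩, ⟨_, hb'⟩, hTb0, ?_, ?_⟩, ?_⟩
  · show theta (M' * p) ℓ f * theta (M' * p) ℓ (b : ↥(Fbar (M' * p))) =
      theta (M' * p) ℓ (a : ↥(Fbar (M' * p)))
    rw [← theta_mul, hfb]
  · exact div_mul_cancel₀ _ hTb0
  · have hφ' : (φ : LaurentSeries (kA A)) =
        ((redq1 M' p A a : Ft M' A) : LaurentSeries (kA A)) /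
          ((redq1 M' p A b : Ft M' A) : LaurentSeries (kA A)) := by
      rw [eq_div_iff hbs]
      exact congrArg Subtype.val hφ
    rw [hφ']
    exact hTa.div hTb

include hA hpM hℓ hℓM in
/-- **`Θ (O1) ⊆ O1`.** -/
theorem theta_mem_O1 {f : ↥(Fbar (M' * p))} (hf : f ∈ O1 M' p A) :
    theta (M' * p) ℓ f ∈ O1 M' p A := by
  obtain ⟨ζ₀, hζ₀⟩ := HasEnoughRootsOfUnity.exists_primitiveRoot Qbar ℓ
  have hu : IsUnit ζ₀ := hζ₀.isUnit (NeZero.ne ℓ)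
  have hζ' : IsPrimitiveRoot hu.unit ℓ := by
    rw [← IsPrimitiveRoot.coe_units_iff, IsUnit.unit_spec]
    exact hζ₀
  obtain ⟨φ, hφ⟩ := ((mem_gaussInt_iff (G := Gq1 M' p A) (red := redq1 M' p A) f).mp hf).exists_isRedOf
  obtain ⟨Φ, hΦ, -⟩ := exists_isRedOf_theta M' p A hA hpM ℓ hℓ hℓM hu.unit hζ' hφ
  exact hΦ.isGI

include hA hpM hℓ hℓM in
/-- **`rho1 (Θ f) = Θ̄ (rho1 f)`.** -/
theorem isTh_rho1 {f : ↥(Fbar (M' * p))} (hf : f ∈ O1 M' p A)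
    (hf' : theta (M' * p) ℓ f ∈ O1 M' p A) :
    IsTh ℓ (zetaBar A ℓ ζ hζ.pow_eq_one)
      ((rho1 M' p A ⟨f, hf⟩ : Ft M' A) : LaurentSeries (kA A))
      ((rho1 M' p A ⟨_, hf'⟩ : Ft M' A) : LaurentSeries (kA A)) := by
  have hφ := isRedOf_rho (Gq1 M' p A) (redq1 M' p A) ⟨f, hf⟩
  obtain ⟨Φ, hΦ, hTh⟩ := exists_isRedOf_theta M' p A hA hpM ℓ hℓ hℓM ζ hζ hφ
  have h1 : rho1 M' p A ⟨_, hf'⟩ = Φ := rho_eq_of_isRedOf hΦ
  rw [h1]
  exact hTh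

include hA hpM hℓ hℓM in
/-- **THE LITERAL** (helper8's shape): `Θ` preserves `O1` and reduces to `Θ̄`. -/
theorem thetaO1 : ∀ (f : ↥(Fbar (M' * p))) (hf : f ∈ O1 M' p A),
    ∃ h : theta (M' * p) ℓ f ∈ O1 M' p A,
      IsTh ℓ (zetaBar A ℓ ζ hζ.pow_eq_one)
        ((rho1 M' p A ⟨f, hf⟩ : Ft M' A) : LaurentSeries (kA A))
        ((rho1 M' p A ⟨_, h⟩ : Ft M' A) : LaurentSeries (kA A)) := fun f hf =>
  ⟨theta_mem_O1 M' p A hA hpM ℓ hℓ hℓM hf,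
    isTh_rho1 M' p A hA hpM ℓ hℓ hℓM ζ hζ hf (theta_mem_O1 M' p A hA hpM ℓ hℓ hℓM hf)⟩

end Bad

end Fermat.Agent.ES.X44.ThetaO17
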