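/-
Programme X (S44), chapter (W1), leaf (SC-D) abstract half, helper25: **glued uniformising pairs on a
two-component nodal curve** (pure curve theory over a field `k`, vocabulary of `W33/XiIfaceN29`,
`W33/NodalCech17`).

`F / k` a function field with `LHyp` + Riemann's inequality.
* `exists_unif_vanish` : `S` a finite set of places, `Q ∉ S`, `D` a divisor of positive degree with
  `D = 0` on `S ∪ {Q}`: for some `n` there is `φ ∈ L(n • D)` with `ord_Q φ = 1` vanishing on `S`;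
* `exists_ne_zero_vanish` : the same without `Q`: a nonzero `φ ∈ L(n • D)` vanishing on `S`;
* `exists_reg_unif`, `exists_reg_ne_zero` : the same with `D` the pole divisor of a non-constant
  `t` regular on `S ∪ {Q}`: `φ` is regular wherever `t` is (`CechIface12.Reg k t φ`).
Two components `F₁, F₂`, nodes `N`, coordinates `t₁, t₂` regular at the nodes:
* **`exists_regN_unif₁`** : for a non-node `Q₁` of the first component at which `t₁` is regular there
  is a GLUED pair `fb` of `B̃₀^{gl}` (`NodalCech17.RegN N t₁ t₂ fb`) with `ord_{Q₁} fb.1 = 1` and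
  `fb.2 ≠ 0` (all node values are `0`); **`exists_regN_unif₂`** : the twin for the second component.
(`Reg1N N t₁ t₂ = RegN N t₁⁻¹ t₂⁻¹` by definition, so the chart `t⁻¹` is the same statement.)
-/
import Mathlib
import Fermat.Agent.ES.W33.NodalCech17
import Fermat.Agent.ES.V19.CechTw13

set_option autoImplicit false
set_option linter.unusedSectionVars false
set_option linter.style.haveILetI false

open AlgebraicCurve

noncomputable section

namespace Fermat.Agent.ES.X44.UnifGlue25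

open Fermat.Agent.X0.FF Fermat.Agent.RR.LSpace Fermat.Agent.ES.V19.CechIface12
  Fermat.Agent.ES.W33.XiIfaceN29 Fermat.Agent.ES.W33.ValAt29 Fermat.Agent.ES.W33.NodalCech17

section One

variable {k F : Type*} [Field k] [Field F] [Algebra k F] (HL : LHyp k F)
  (hR : ∃ γ : ℤ, ∀ D : Divisor k F,
    Divisor.degree D + 1 - γ ≤ (Module.finrank k (riemannRochSpace D) : ℤ))

/-- the reduced divisor of a finite set of places. -/
def setDiv (S : Finset (Place k F)) : Divisor k F := ∑ v ∈ S, Finsupp.single v 1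

theorem setDiv_apply_mem {S : Finset (Place k F)} {v : Place k F} (hv : v ∈ S) :
    setDiv S v = 1 := by
  classical
  rw [setDiv, Finsupp.finsetSum_apply]
  simp only [Finsupp.single_apply]
  rw [Finset.sum_ite_eq' S v, if_pos hv]

theorem setDiv_apply_notMem {S : Finset (Place k F)} {v : Place k F} (hv : v ∉ S) :
    setDiv S v = 0 := by
  classical
  rw [setDiv, Finsupp.finsetSum_apply]
  simp only [Finsupp.single_apply]
  rw [Finset.sum_ite_eq' S v, if_neg hv]

include HL in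
theorem degree_setDiv (S : Finset (Place k F)) : Divisor.degree (setDiv S) = S.card := by
  rw [setDiv, map_sum]
  simp only [degree_single HL]
  simp

theorem setDiv_nonneg (S : Finset (Place k F)) : 0 ≤ setDiv S := by
  classical
  intro v
  by_cases hv : v ∈ S
  · rw [setDiv_apply_mem hv]; simp
  · rw [setDiv_apply_notMem hv]; simp

/-- for `n` large, `n • D` has degree at least `c`. -/
theorem exists_nsmul_degree_ge {D : Divisor k F} (hdeg : 0 < Divisor.degree D) (c : ℤ) :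
    ∃ n : ℕ, c ≤ Divisor.degree (n • D) := by
  refine ⟨c.toNat, ?_⟩
  rw [map_nsmul, nsmul_eq_mul]
  have h1 : c ≤ (c.toNat : ℤ) := Int.self_le_toNat c
  have h2 : (0 : ℤ) ≤ (c.toNat : ℤ) := Int.natCast_nonneg _
  nlinarith

include HL hR in
/-- **a uniformiser at `Q` vanishing on `S`, with poles bounded by `n • D`.** -/
theorem exists_unif_vanish (S : Finset (Place k F)) (Q : Place k F) (hQ : Q ∉ S)
    (D : Divisor k F) (hdeg : 0 < Divisor.degree D) (hDS : ∀ v ∈ S, D v = 0) (hDQ : D Q = 0) :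
    ∃ n : ℕ, ∃ φ ∈ riemannRochSpace (n • D), Q.ord φ = 1 ∧ ∀ v ∈ S, 0 < v.ord φ := by
  classical
  obtain ⟨c₀, hc₀⟩ := Fermat.Agent.ES.V19.LHypFt13.exists_forall_degree_ge_finrank_L_eq HL hR
  obtain ⟨n, hn⟩ := exists_nsmul_degree_ge hdeg (c₀ + S.card + 2)
  refine ⟨n, ?_⟩
  set E : Divisor k F := n • D - setDiv S - Finsupp.single Q 2 with hE
  set E' : Divisor k F := E + Finsupp.single Q 1 with hE'
  have hdegE : Divisor.degree E = Divisor.degree (n • D) - S.card - 2 := by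
    rw [hE, map_sub, map_sub, degree_setDiv HL, degree_single HL]
  have hdegE' : Divisor.degree E' = Divisor.degree (n • D) - S.card - 1 := by
    rw [hE', map_add, hdegE, degree_single HL]; ring
  have h1 := hc₀ E (by rw [hdegE]; linarith)
  have h2 := hc₀ E' (by rw [hdegE']; linarith)
  have hlt : Module.finrank k (riemannRochSpace E) < Module.finrank k (riemannRochSpace E') := by
    have : (Module.finrank k (riemannRochSpace E) : ℤ) <
        (Module.finrank k (riemannRochSpace E') : ℤ) := by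
      rw [h1, h2, hdegE, hdegE']; linarith
    exact_mod_cast this
  have hEle : E ≤ E' := by
    intro v
    rw [hE', Finsupp.add_apply]
    have : (0 : ℤ) ≤ (Finsupp.single Q (1 : ℤ)) v := by
      rw [Finsupp.single_apply]; split_ifs <;> norm_num
    linarith
  have hne : ¬ riemannRochSpace E' ≤ riemannRochSpace E := by
    intro hle
    have heq : riemannRochSpace E' = riemannRochSpace E := le_antisymm hle (L_mono hEle)
    rw [heq] at hlt
    exact lt_irrefl _ hlt
  obtain ⟨f, hfE', hfE⟩ := SetLike.not_le_iff_exists.mp hne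
  have hf0 : f ≠ 0 := by
    rintro rfl
    exact hfE (Submodule.zero_mem _)
  have hord := (mem_L_iff hf0).mp hfE'
  -- values of the divisors
  have hnD : ∀ v, D v = 0 → (n • D) v = 0 := fun v hv => by
    rw [Finsupp.smul_apply, hv, smul_zero]
  have hEQ : E Q = -2 := by
    rw [hE, Finsupp.sub_apply, Finsupp.sub_apply, hnD Q hDQ, setDiv_apply_notMem hQ,
      Finsupp.single_apply, if_pos rfl]; norm_num
  have hE'Q : E' Q = -1 := by
    rw [hE', Finsupp.add_apply, hEQ, Finsupp.single_apply, if_pos rfl]; norm_num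
  have hE'v : ∀ v, v ≠ Q → E' v = E v := by
    intro v hv
    rw [hE', Finsupp.add_apply, Finsupp.single_apply, if_neg (fun h => hv h.symm), add_zero]
  have hES : ∀ v ∈ S, E v = -1 := by
    intro v hv
    have hvQ : v ≠ Q := fun h => hQ (h ▸ hv)
    rw [hE, Finsupp.sub_apply, Finsupp.sub_apply, hnD v (hDS v hv), setDiv_apply_mem hv,
      Finsupp.single_apply, if_neg (fun h => hvQ h.symm)]; norm_num
  refine ⟨f, ?_, ?_, ?_⟩
  · refine L_mono ?_ hfE'
    intro v
    by_cases hv : v = Q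
    · subst hv
      rw [hE'Q, hnD v hDQ]; norm_num
    · rw [hE'v v hv, hE, Finsupp.sub_apply, Finsupp.sub_apply]
      have h3 := setDiv_nonneg S v
      have h4 : (0 : ℤ) ≤ (Finsupp.single Q (2 : ℤ)) v := by
        rw [Finsupp.single_apply]; split_ifs <;> norm_num
      simp only [Finsupp.coe_zero, Pi.zero_apply] at h3
      linarith
  · have h3 := hord Q
    rw [hE'Q] at h3
    have h4 : Q.ord f < 2 := by
      by_contra hcon
      rw [not_lt] at hcon
      apply hfE
      rw [mem_L_iff hf0]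
      intro v
      by_cases hv : v = Q
      · subst hv
        rw [hEQ]; linarith
      · rw [← hE'v v hv]
        exact hord v
    omega
  · intro v hv
    have hvQ : v ≠ Q := fun h => hQ (h ▸ hv)
    have h3 := hord v
    rw [hE'v v hvQ, hES v hv] at h3
    linarith

include HL hR in
/-- **a nonzero function vanishing on `S`, with poles bounded by `n • D`.** -/
theorem exists_ne_zero_vanish (S : Finset (Place k F))
    (D : Divisor k F) (hdeg : 0 < Divisor.degree D) (hDS : ∀ v ∈ S, D v = 0) :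
    ∃ n : ℕ, ∃ φ ∈ riemannRochSpace (n • D), φ ≠ 0 ∧ ∀ v ∈ S, 0 < v.ord φ := by
  classical
  obtain ⟨c₀, hc₀⟩ := Fermat.Agent.ES.V19.LHypFt13.exists_forall_degree_ge_finrank_L_eq HL hR
  obtain ⟨n, hn⟩ := exists_nsmul_degree_ge hdeg (max c₀ (genusFF k F : ℤ) + S.card)
  refine ⟨n, ?_⟩
  set E : Divisor k F := n • D - setDiv S with hE
  have hdegE : Divisor.degree E = Divisor.degree (n • D) - S.card := by
    rw [hE, map_sub, degree_setDiv HL]
  have h1 := hc₀ E (by rw [hdegE]; linarith [le_max_left c₀ (genusFF k F : ℤ)])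
  have hpos : 0 < Module.finrank k (riemannRochSpace E) := by
    have : (0 : ℤ) < (Module.finrank k (riemannRochSpace E) : ℤ) := by
      rw [h1, hdegE]; linarith [le_max_right c₀ (genusFF k F : ℤ)]
    exact_mod_cast this
  haveI : Nontrivial ↥(riemannRochSpace E) := Module.nontrivial_of_finrank_pos hpos
  obtain ⟨⟨f, hfE⟩, hf0'⟩ := exists_ne (0 : ↥(riemannRochSpace E))
  have hf0 : f ≠ 0 := fun h => hf0' (Subtype.ext h)
  have hord := (mem_L_iff hf0).mp hfE
  refine ⟨f, ?_, hf0, ?_⟩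
  · refine L_mono ?_ hfE
    intro v
    rw [hE, Finsupp.sub_apply]
    have h3 := setDiv_nonneg S v
    simp only [Finsupp.coe_zero, Pi.zero_apply] at h3
    linarith
  · intro v hv
    have h3 := hord v
    rw [hE, Finsupp.sub_apply, Finsupp.smul_apply, hDS v hv, smul_zero,
      setDiv_apply_mem hv] at h3
    linarith

/-! ### the same for the pole divisor of a coordinate -/

variable {t : F}

include HL in
theorem poleDiv_eq_zero_of_mem (ht0 : t ≠ 0) {v : Place k F} (hv : t ∈ v.toValuationSubring) :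
    Fermat.Agent.RR.Riemann.poleDiv HL ht0 v = 0 := by
  rw [Fermat.Agent.RR.Riemann.poleDiv_apply]
  have := ffp_ord_nonneg_of_mem v hv
  exact max_eq_left (by linarith)

include HL in
theorem reg_of_mem_L_poleDiv (ht0 : t ≠ 0) {n : ℕ} {φ : F}
    (hφ : φ ∈ riemannRochSpace (n • Fermat.Agent.RR.Riemann.poleDiv HL ht0)) : Reg k t φ :=
  ((Fermat.Agent.ES.V19.CechTw13.mem_L_nsmul_poleDiv_iff HL ht0 n φ).mp hφ).1

include HL hR in
/-- a uniformiser at `Q`, vanishing on `S`, regular wherever `t` is. -/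
theorem exists_reg_unif (hnc : ¬ ∃ c : k, t = algebraMap k F c)
    (S : Finset (Place k F)) (Q : Place k F) (hQ : Q ∉ S)
    (htS : ∀ v ∈ S, t ∈ v.toValuationSubring) (htQ : t ∈ Q.toValuationSubring) :
    ∃ φ : F, Reg k t φ ∧ Q.ord φ = 1 ∧ ∀ v ∈ S, 0 < v.ord φ := by
  have ht0 : t ≠ 0 := fun h => hnc ⟨0, by rw [h, map_zero]⟩
  obtain ⟨n, φ, hφ, h1, h2⟩ := exists_unif_vanish HL hR S Q hQ
    (Fermat.Agent.RR.Riemann.poleDiv HL ht0)
    (Fermat.Agent.RR.Riemann.degree_poleDiv_pos HL ht0 hnc)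
    (fun v hv => poleDiv_eq_zero_of_mem HL ht0 (htS v hv)) (poleDiv_eq_zero_of_mem HL ht0 htQ)
  exact ⟨φ, reg_of_mem_L_poleDiv HL ht0 hφ, h1, h2⟩

include HL hR in
/-- a nonzero function vanishing on `S`, regular wherever `t` is. -/
theorem exists_reg_ne_zero (hnc : ¬ ∃ c : k, t = algebraMap k F c)
    (S : Finset (Place k F)) (htS : ∀ v ∈ S, t ∈ v.toValuationSubring) :
    ∃ φ : F, Reg k t φ ∧ φ ≠ 0 ∧ ∀ v ∈ S, 0 < v.ord φ := by
  have ht0 : t ≠ 0 := fun h => hnc ⟨0, by rw [h, map_zero]⟩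
  obtain ⟨n, φ, hφ, h1, h2⟩ := exists_ne_zero_vanish HL hR S
    (Fermat.Agent.RR.Riemann.poleDiv HL ht0)
    (Fermat.Agent.RR.Riemann.degree_poleDiv_pos HL ht0 hnc)
    (fun v hv => poleDiv_eq_zero_of_mem HL ht0 (htS v hv))
  exact ⟨φ, reg_of_mem_L_poleDiv HL ht0 hφ, h1, h2⟩

end One

/-! ### glued pairs -/

section Two

variable {k F₁ F₂ : Type*} [Field k] [Field F₁] [Algebra k F₁] [Field F₂] [Algebra k F₂]
  (HL₁ : LHyp k F₁)
  (hR₁ : ∃ γ : ℤ, ∀ D : Divisor k F₁,
    Divisor.degree D + 1 - γ ≤ (Module.finrank k (riemannRochSpace D) : ℤ))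
  (HL₂ : LHyp k F₂)
  (hR₂ : ∃ γ : ℤ, ∀ D : Divisor k F₂,
    Divisor.degree D + 1 - γ ≤ (Module.finrank k (riemannRochSpace D) : ℤ))
  {s : ℕ} (N : Nodes k F₁ F₂ s) {t₁ : F₁} {t₂ : F₂}

include HL₁ hR₁ HL₂ hR₂ in
/-- **a glued pair of `B̃₀^{gl}` uniformising at a non-node `Q₁` of the FIRST component.** -/
theorem exists_regN_unif₁ (hnc₁ : ¬ ∃ c : k, t₁ = algebraMap k F₁ c)
    (hnc₂ : ¬ ∃ c : k, t₂ = algebraMap k F₂ c)
    (hν₁ : ∀ j, t₁ ∈ (N.ν₁ j).toValuationSubring) (hν₂ : ∀ j, t₂ ∈ (N.ν₂ j).toValuationSubring)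
    (Q₁ : Place k F₁) (hQ₁ : ∀ j, Q₁ ≠ N.ν₁ j) (htQ : t₁ ∈ Q₁.toValuationSubring) :
    ∃ fb : F₁ × F₂, RegN N t₁ t₂ fb ∧ Q₁.ord fb.1 = 1 ∧ fb.2 ≠ 0 := by
  classical
  obtain ⟨φ₁, hreg₁, hord₁, hvan₁⟩ := exists_reg_unif HL₁ hR₁ hnc₁
    (Finset.univ.image N.ν₁) Q₁
    (by
      intro h
      obtain ⟨j, -, hj⟩ := Finset.mem_image.mp h
      exact hQ₁ j hj.symm)
    (by
      intro v hv
      obtain ⟨j, -, rfl⟩ := Finset.mem_image.mp hv
      exact hν₁ j) htQ
  obtain ⟨φ₂, hreg₂, hne₂, hvan₂⟩ := exists_reg_ne_zero HL₂ hR₂ hnc₂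
    (Finset.univ.image N.ν₂)
    (by
      intro v hv
      obtain ⟨j, -, rfl⟩ := Finset.mem_image.mp hv
      exact hν₂ j)
  refine ⟨(φ₁, φ₂), ⟨hreg₁, hreg₂, fun j => ⟨0, ?_, ?_⟩⟩, hord₁, hne₂⟩
  · exact valAt_zero_of_ord_pos (hvan₁ _ (Finset.mem_image_of_mem _ (Finset.mem_univ j)))
  · exact valAt_zero_of_ord_pos (hvan₂ _ (Finset.mem_image_of_mem _ (Finset.mem_univ j)))

include HL₁ hR₁ HL₂ hR₂ in
/-- **a glued pair of `B̃₀^{gl}` uniformising at a non-node `Q₂` of the SECOND component.** -/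
theorem exists_regN_unif₂ (hnc₁ : ¬ ∃ c : k, t₁ = algebraMap k F₁ c)
    (hnc₂ : ¬ ∃ c : k, t₂ = algebraMap k F₂ c)
    (hν₁ : ∀ j, t₁ ∈ (N.ν₁ j).toValuationSubring) (hν₂ : ∀ j, t₂ ∈ (N.ν₂ j).toValuationSubring)
    (Q₂ : Place k F₂) (hQ₂ : ∀ j, Q₂ ≠ N.ν₂ j) (htQ : t₂ ∈ Q₂.toValuationSubring) :
    ∃ fb : F₁ × F₂, RegN N t₁ t₂ fb ∧ Q₂.ord fb.2 = 1 ∧ fb.1 ≠ 0 := by
  classical
  obtain ⟨φ₂, hreg₂, hord₂, hvan₂⟩ := exists_reg_unif HL₂ hR₂ hnc₂
    (Finset.univ.image N.ν₂) Q₂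
    (by
      intro h
      obtain ⟨j, -, hj⟩ := Finset.mem_image.mp h
      exact hQ₂ j hj.symm)
    (by
      intro v hv
      obtain ⟨j, -, rfl⟩ := Finset.mem_image.mp hv
      exact hν₂ j) htQ
  obtain ⟨φ₁, hreg₁, hne₁, hvan₁⟩ := exists_reg_ne_zero HL₁ hR₁ hnc₁
    (Finset.univ.image N.ν₁)
    (by
      intro v hv
      obtain ⟨j, -, rfl⟩ := Finset.mem_image.mp hv
      exact hν₁ j)
  refine ⟨(φ₁, φ₂), ⟨hreg₁, hreg₂, fun j => ⟨0, ?_, ?_⟩⟩, hord₂, hne₁⟩
  · exact valAt_zero_of_ord_pos (hvan₁ _ (Finset.mem_image_of_mem _ (Finset.mem_univ j)))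
  · exact valAt_zero_of_ord_pos (hvan₂ _ (Finset.mem_image_of_mem _ (Finset.mem_univ j)))

end Two

end Fermat.Agent.ES.X44.UnifGlue25
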