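/-
Programme X (S44), chapter (X-a), EXIT (helper15): **`GeoAsm14.XaChapter`, UNCONDITIONAL.**

For every prime `ℓ₀ ∤ M' p` (`p ≠ 2`, `p ∤ M'`, `4 ∣ M'`, `A ≤ ℚ̄` over `p`) the two degeneracy maps
`α, β : X₀(M' p ℓ₀) → X₀(M' p)` respect the components of the nodal fibre of THE instance `GeoLit12.IX`:
`EisLit29.HeckeComp (IX M' p hpM h4M A hA) ℓ₀`.

The statement of `xaChapter` is the body of helper14's `GeoAsm14.XaChapter` VERBATIM (so
`(xaChapter : GeoAsm14.XaChapter)` typechecks by unfolding the definition; `GeoAsm14` is not imported here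
to keep the closure small).

Proof: helper29's dictionary `EisInW29.heckeComp_IX` (On₁/On₂ at `IX` = `InW1`/`InW2` of `NodalDefs3`,
`W₁ ∩ W₂ = ∅`) fed with the place-level transfers `OffNodesAlong15.inW1_along`, `inW2_along`, whose only
input, the coefficient lemma C1, is helper20's `CharpolyM20.coeffIn_O1`.
-/
import Mathlib
import Fermat.Agent.ES.X44.EisInW29
import Fermat.Agent.ES.X44.OffNodesAlong15
import Fermat.Agent.ES.X44.CharpolyM20

set_option autoImplicit false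
set_option linter.unusedSectionVars false
set_option linter.style.haveILetI false
set_option synthInstance.maxHeartbeats 400000

noncomputable section

open AlgebraicCurve ModularCurve

namespace Fermat.Agent.ES.X44.XaFinal15

open Fermat.Agent.RED.Interface4 Fermat.Agent.RED.BASE.Interface12
  Fermat.Agent.RED.BASE.Hauptmodul12 Fermat.Agent.ES.W33.NodalDefs3
  Fermat.Agent.ES.W33.GeoInput23 Fermat.Agent.ES.W33.GeoLeaves23
  Fermat.Agent.ES.X44.GeoLit12 Fermat.Agent.ES.X44.EisLit29 Fermat.Agent.ES.X44.EisInW29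
  Fermat.Agent.ES.X44.OffNodesAlong15 Fermat.Agent.ES.HECKE.AlongDegree25

attribute [local instance 5000] HahnSeries.powerSeriesAlgebra SubalgebraClass.toAlgebra

/-- **(X-a) at one prime**: `HeckeComp (IX …) ℓ₀` for `ℓ₀ ∤ M' p`. -/
theorem heckeComp_IX_of_not_dvd (M' : ℕ) [NeZero M'] (p : ℕ) [Fact p.Prime] [NeZero (M' * p)]
    (hpM : ¬ p ∣ M') (h4M : 4 ∣ M') (hp2 : p ≠ 2) (A : ValuationSubring (AlgebraicClosure ℚ))
    (hA : A.LiesOverPrime p) (ℓ₀ : Nat.Primes) (hℓN : ¬ (ℓ₀ : ℕ) ∣ M' * p) :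
    HeckeComp (IX M' p hpM h4M A hA) ℓ₀ := by
  haveI := neZero_four
  haveI : NeZero (ℓ₀ : ℕ) := ⟨ℓ₀.2.ne_zero⟩
  have hfin := finiteAlong_alpha (AlgebraicClosure ℚ) (M' * p) (ℓ₀ : ℕ) ℓ₀.2 hℓN
  have hC1 := Fermat.Agent.ES.X44.CharpolyM20.coeffIn_O1 (A := A) hp2 hpM h4M hA (ℓ₀ : ℕ) ℓ₀.2
    hℓN hfin
  refine heckeComp_IX M' p hpM h4M A hA hp2 ℓ₀ (fun hα hβ R => ⟨?_, ?_⟩)
  · exact inW1_along 4 8 M' p hpM baseHyp_four h4M A hA (ℓ₀ : ℕ) ℓ₀.2 hℓN hα hβ hfin hC1 R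
  · exact inW2_along 4 8 M' p hpM baseHyp_four h4M A hA (ℓ₀ : ℕ) ℓ₀.2 hℓN hα hβ hfin hC1 R

/-- **`GeoAsm14.XaChapter`** (its body, verbatim). -/
theorem xaChapter :
    ∀ (M' : ℕ) [NeZero M'] (p : ℕ) [Fact p.Prime] [NeZero (M' * p)] (hpM : ¬ p ∣ M')
      (h4M : 4 ∣ M'),
      p ≠ 2 → ∀ (A : ValuationSubring (AlgebraicClosure ℚ)) (hA : A.LiesOverPrime p) (ℓ₀ : Nat.Primes),
        ¬ (ℓ₀ : ℕ) ∣ M' * p →
        Fermat.Agent.ES.X44.EisLit29.HeckeComp (IX M' p hpM h4M A hA) ℓ₀ :=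
  fun M' _ p _ _ hpM h4M hp2 A hA ℓ₀ hℓN =>
    heckeComp_IX_of_not_dvd M' p hpM h4M hp2 A hA ℓ₀ hℓN

end Fermat.Agent.ES.X44.XaFinal15
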